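/-
FG (S19/S32) — helper6 — [E-RED-a], part 1 (generic): **the coefficientwise Gauss ring for an
arbitrary valuation subring `A` of the coefficient field.**

`K` a field, `A : ValuationSubring K`, `k = A / 𝔪`.
* `fracInt A : Subring (LaurentSeries K)` : the series `x` with `x * b = a`, `a b ∈ A((x))`,
  `b̄ ≠ 0` (the non-discrete analogue of Igusa's `gaussInt R L`);
* `fracRed A : ↥(fracInt A) →+* LaurentSeries k`, `a / b ↦ ā / b̄`;
* for an intermediate field `E ≤ K((x))` with `hE : ∀ x : E, x ∈ fracInt A ∨ x⁻¹ ∈ fracInt A`: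
  `fracValSub A E hE : ValuationSubring ↥E`, its residue map `fracValRed` into `k((x))`
  (a local homomorphism), the embedding `fracResidueEmb` of the residue field into `k((x))`,
  the `k`-algebra structure of the residue field, `algebraMap_mem_fracValSub_iff`
  (`fracValSub ∩ K = A`).
-/
import Mathlib
import Fermat.Agent.Igusa.V_helper5_Val

set_option autoImplicit false
set_option linter.unusedSectionVars false
set_option linter.style.haveILetI false

open ModularCurve IsLocalRing

namespace Fermat.Agent.FG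

open Fermat.Agent.Igusa

noncomputable section

variable {K : Type*} [Field K] (A : ValuationSubring K)

/-- `A((x)) → K((x))` -/
def fEmb : LaurentSeries ↥A →+* LaurentSeries K := coeffMap A.subtype

/-- coefficientwise reduction `A((x)) → k((x))` -/
def fRed : LaurentSeries ↥A →+* LaurentSeries (ResidueField ↥A) := coeffMap (residue ↥A)

@[simp] theorem fEmb_coeff (f : LaurentSeries ↥A) (n : ℤ) :
    (fEmb A f).coeff n = ((f.coeff n : ↥A) : K) := rfl

@[simp] theorem fRed_coeff (f : LaurentSeries ↥A) (n : ℤ) :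
    (fRed A f).coeff n = residue ↥A (f.coeff n) := rfl

theorem fEmb_injective : Function.Injective (fEmb A) :=
  coeffMapV_injective Subtype.val_injective

theorem fEmb_eq_zero_iff {f : LaurentSeries ↥A} : fEmb A f = 0 ↔ f = 0 :=
  map_eq_zero_iff _ (fEmb_injective A)

theorem fEmb_C (a : ↥A) : fEmb A (HahnSeries.C a) = HahnSeries.C (a : K) :=
  coeffMapV_C _ a

theorem fRed_C (a : ↥A) : fRed A (HahnSeries.C a) = HahnSeries.C (residue ↥A a) :=
  coeffMapV_C _ a

/-- the coefficientwise Gauss ring `{a / b : a, b ∈ A((x)), b̄ ≠ 0}` inside `K((x))`. -/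
def fracInt : Subring (LaurentSeries K) where
  carrier := {x | ∃ f g : LaurentSeries ↥A, fRed A g ≠ 0 ∧ x * fEmb A g = fEmb A f}
  mul_mem' := by
    rintro x y ⟨f, g, hg, h⟩ ⟨f', g', hg', h'⟩
    refine ⟨f * f', g * g', by rw [map_mul]; exact mul_ne_zero hg hg', ?_⟩
    rw [map_mul, map_mul, ← h, ← h']
    ring
  one_mem' := ⟨1, 1, by rw [map_one]; exact one_ne_zero, by rw [map_one, mul_one]⟩
  add_mem' := by
    rintro x y ⟨f, g, hg, h⟩ ⟨f', g', hg', h'⟩
    refine ⟨f * g' + f' * g, g * g', by rw [map_mul]; exact mul_ne_zero hg hg', ?_⟩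
    rw [map_add, map_mul, map_mul, map_mul, ← h, ← h']
    ring
  zero_mem' := ⟨0, 1, by rw [map_one]; exact one_ne_zero, by rw [map_zero, zero_mul]⟩
  neg_mem' := by
    rintro x ⟨f, g, hg, h⟩
    exact ⟨-f, g, hg, by rw [map_neg, ← h, neg_mul]⟩

variable {A}

theorem mem_fracInt_iff {x : LaurentSeries K} : x ∈ fracInt A ↔
    ∃ f g : LaurentSeries ↥A, fRed A g ≠ 0 ∧ x * fEmb A g = fEmb A f := Iff.rfl

theorem ne_zero_of_fRed_ne_zero {g : LaurentSeries ↥A} (hg : fRed A g ≠ 0) : g ≠ 0 := by
  rintro rfl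
  exact hg (map_zero _)

theorem fEmb_ne_zero_of_fRed_ne_zero {g : LaurentSeries ↥A} (hg : fRed A g ≠ 0) :
    fEmb A g ≠ 0 :=
  fun h => ne_zero_of_fRed_ne_zero hg ((fEmb_eq_zero_iff A).1 h)

variable (A) in
theorem fEmb_mem_fracInt (f : LaurentSeries ↥A) : fEmb A f ∈ fracInt A :=
  ⟨f, 1, by rw [map_one]; exact one_ne_zero, by rw [map_one, mul_one]⟩

theorem C_mem_fracInt {a : K} (ha : a ∈ A) : (HahnSeries.C a : LaurentSeries K) ∈ fracInt A := by
  have := fEmb_mem_fracInt A (HahnSeries.C ⟨a, ha⟩)
  rwa [fEmb_C] at this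

/-- two representations of an element give the same reduction -/
theorem fRed_div_fRed_eq {x : LaurentSeries K} {f g f' g' : LaurentSeries ↥A}
    (hg : fRed A g ≠ 0) (hg' : fRed A g' ≠ 0)
    (h : x * fEmb A g = fEmb A f) (h' : x * fEmb A g' = fEmb A f') :
    fRed A f / fRed A g = fRed A f' / fRed A g' := by
  have h1 : fEmb A (f * g') = fEmb A (f' * g) := by
    rw [map_mul, map_mul, ← h, ← h']; ring
  have h2 := fEmb_injective A h1
  rw [div_eq_div_iff hg hg', ← map_mul, ← map_mul, h2]

/-- a chosen numerator -/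
def fNum (x : fracInt A) : LaurentSeries ↥A := Classical.choose x.2

/-- a chosen denominator -/
def fDen (x : fracInt A) : LaurentSeries ↥A := Classical.choose (Classical.choose_spec x.2)

theorem fDen_ne (x : fracInt A) : fRed A (fDen x) ≠ 0 :=
  (Classical.choose_spec (Classical.choose_spec x.2)).1

theorem fNum_spec (x : fracInt A) :
    (x : LaurentSeries K) * fEmb A (fDen x) = fEmb A (fNum x) :=
  (Classical.choose_spec (Classical.choose_spec x.2)).2

/-- the underlying function of `fracRed` -/
def fracRedFun (x : fracInt A) : LaurentSeries (ResidueField ↥A) :=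
  fRed A (fNum x) / fRed A (fDen x)

theorem fracRedFun_eq (x : fracInt A) (f g : LaurentSeries ↥A) (hg : fRed A g ≠ 0)
    (h : (x : LaurentSeries K) * fEmb A g = fEmb A f) :
    fracRedFun x = fRed A f / fRed A g :=
  fRed_div_fRed_eq (fDen_ne x) hg (fNum_spec x) h

variable (A) in
/-- the residue map `fracInt A → k((x))`, `a / b ↦ ā / b̄`. -/
def fracRed : fracInt A →+* LaurentSeries (ResidueField ↥A) where
  toFun := fracRedFun
  map_one' := by
    rw [fracRedFun_eq 1 1 1 (by rw [map_one]; exact one_ne_zero)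
      (by rw [map_one, mul_one, Subring.coe_one]), map_one, div_one]
  map_zero' := by
    rw [fracRedFun_eq 0 0 1 (by rw [map_one]; exact one_ne_zero)
      (by rw [map_zero, Subring.coe_zero, zero_mul]), map_zero, zero_div]
  map_mul' x y := by
    rw [fracRedFun_eq (x * y) (fNum x * fNum y) (fDen x * fDen y)
      (by rw [map_mul]; exact mul_ne_zero (fDen_ne x) (fDen_ne y))
      (by rw [map_mul, map_mul, ← fNum_spec x, ← fNum_spec y, Subring.coe_mul]; ring),
      map_mul, map_mul, fracRedFun, fracRedFun, div_mul_div_comm]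
  map_add' x y := by
    rw [fracRedFun_eq (x + y) (fNum x * fDen y + fNum y * fDen x) (fDen x * fDen y)
      (by rw [map_mul]; exact mul_ne_zero (fDen_ne x) (fDen_ne y))
      (by rw [map_add, map_mul, map_mul, map_mul, ← fNum_spec x, ← fNum_spec y,
        Subring.coe_add]; ring),
      map_add, map_mul, map_mul, map_mul, fracRedFun, fracRedFun,
      div_add_div _ _ (fDen_ne x) (fDen_ne y), mul_comm (fRed A (fDen x)) (fRed A (fNum y))]

theorem fracRed_eq (x : fracInt A) (f g : LaurentSeries ↥A) (hg : fRed A g ≠ 0)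
    (h : (x : LaurentSeries K) * fEmb A g = fEmb A f) :
    fracRed A x = fRed A f / fRed A g :=
  fracRedFun_eq x f g hg h

variable (A) in
theorem fracRed_fEmb (f : LaurentSeries ↥A) :
    fracRed A ⟨fEmb A f, fEmb_mem_fracInt A f⟩ = fRed A f := by
  rw [fracRed_eq _ f 1 (by rw [map_one]; exact one_ne_zero) (by rw [map_one, mul_one]), map_one,
    div_one]

theorem fracRed_C {a : K} (ha : a ∈ A) :
    fracRed A ⟨HahnSeries.C a, C_mem_fracInt ha⟩ = HahnSeries.C (residue ↥A ⟨a, ha⟩) := by
  have h := fracRed_fEmb A (HahnSeries.C ⟨a, ha⟩)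
  rw [fRed_C] at h
  rw [← h]
  congr 1
  exact Subtype.ext (fEmb_C A ⟨a, ha⟩).symm

theorem inv_mem_fracInt_of_fracRed_ne_zero (x : fracInt A) (hx : fracRed A x ≠ 0) :
    (x : LaurentSeries K)⁻¹ ∈ fracInt A := by
  obtain ⟨f, g, hg, h⟩ := x.2
  rw [fracRed_eq x f g hg h] at hx
  have hf : fRed A f ≠ 0 := fun h0 => hx (by rw [h0, zero_div])
  have hx0 : (x : LaurentSeries K) ≠ 0 := by
    intro h0
    rw [h0, zero_mul] at h
    exact fEmb_ne_zero_of_fRed_ne_zero hf h.symm
  refine ⟨g, f, hf, ?_⟩
  rw [← h, inv_mul_cancel_left₀ hx0]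

theorem isUnit_fracInt_iff (x : fracInt A) : IsUnit x ↔ fracRed A x ≠ 0 := by
  constructor
  · intro h
    exact (h.map (fracRed A)).ne_zero
  · intro h
    have hx0 : (x : LaurentSeries K) ≠ 0 := by
      intro h0
      apply h
      have : x = 0 := Subtype.ext h0
      rw [this, map_zero]
    refine IsUnit.of_mul_eq_one ⟨(x : LaurentSeries K)⁻¹, inv_mem_fracInt_of_fracRed_ne_zero x h⟩
      (Subtype.ext ?_)
    show (x : LaurentSeries K) * (x : LaurentSeries K)⁻¹ = 1
    exact mul_inv_cancel₀ hx0

/-- a nonzero reduced series has a unit coefficient -/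
theorem exists_isUnit_coeff {g : LaurentSeries ↥A} (hg : fRed A g ≠ 0) :
    ∃ n : ℤ, IsUnit (g.coeff n) := by
  by_contra hcon
  simp only [not_exists] at hcon
  apply hg
  ext n
  rw [fRed_coeff, HahnSeries.coeff_zero, residue_eq_zero_iff]
  exact (IsLocalRing.mem_maximalIdeal _).2 (hcon n)

/-- `fracInt A ∩ K = A` -/
theorem C_mem_fracInt_iff {a : K} : (HahnSeries.C a : LaurentSeries K) ∈ fracInt A ↔ a ∈ A := by
  refine ⟨?_, C_mem_fracInt⟩
  rintro ⟨f, g, hg, h⟩
  obtain ⟨n, hn⟩ := exists_isUnit_coeff hg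
  have h1 := congrArg (fun z : LaurentSeries K => z.coeff n) h
  simp only [coeffV_C_mul, fEmb_coeff] at h1
  obtain ⟨u, hu⟩ := hn
  have hu0 : ((g.coeff n : ↥A) : K) ≠ 0 := by
    intro h0
    have : g.coeff n = 0 := Subtype.ext h0
    rw [← hu] at this
    exact u.ne_zero this
  have h2 : a = ((f.coeff n : ↥A) : K) * ((↑(u⁻¹) : ↥A) : K) := by
    have h3 : ((g.coeff n : ↥A) : K) * ((↑(u⁻¹) : ↥A) : K) = 1 := by
      rw [← hu]
      have : (u : ↥A) * (↑(u⁻¹) : ↥A) = 1 := Units.mul_inv u
      exact_mod_cast congrArg (Subtype.val) this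
    rw [← h1, mul_assoc, h3, mul_one]
  rw [h2]
  exact A.mul_mem _ _ (f.coeff n).2 (↑(u⁻¹) : ↥A).2

section ValSub

variable (A) (E : IntermediateField K (LaurentSeries K))
  (hE : ∀ x : ↥E, (x : LaurentSeries K) ∈ fracInt A ∨ (x : LaurentSeries K)⁻¹ ∈ fracInt A)

/-- the coefficientwise Gauss valuation subring `E ∩ fracInt A` of an intermediate field
`E ≤ K((x))` on which it is a valuation ring. -/
def fracValSub : ValuationSubring ↥E where
  carrier := {x | (x : LaurentSeries K) ∈ fracInt A}
  mul_mem' := fun {a b} ha hb => by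
    show ((a * b : ↥E) : LaurentSeries K) ∈ fracInt A
    rw [IntermediateField.coe_mul]
    exact (fracInt A).mul_mem ha hb
  one_mem' := by
    show ((1 : ↥E) : LaurentSeries K) ∈ fracInt A
    rw [IntermediateField.coe_one]
    exact (fracInt A).one_mem
  add_mem' := fun {a b} ha hb => by
    show ((a + b : ↥E) : LaurentSeries K) ∈ fracInt A
    rw [IntermediateField.coe_add]
    exact (fracInt A).add_mem ha hb
  zero_mem' := by
    show ((0 : ↥E) : LaurentSeries K) ∈ fracInt A
    rw [IntermediateField.coe_zero]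
    exact (fracInt A).zero_mem
  neg_mem' := fun {a} ha => by
    show ((-a : ↥E) : LaurentSeries K) ∈ fracInt A
    rw [IntermediateField.coe_neg]
    exact (fracInt A).neg_mem ha
  mem_or_inv_mem' := fun a => by
    show (a : LaurentSeries K) ∈ fracInt A ∨ ((a⁻¹ : ↥E) : LaurentSeries K) ∈ fracInt A
    rw [IntermediateField.coe_inv]
    exact hE a

variable {A E hE}

theorem mem_fracValSub_iff {x : ↥E} :
    x ∈ fracValSub A E hE ↔ (x : LaurentSeries K) ∈ fracInt A := Iff.rfl

variable (A E hE) in
/-- the inclusion `fracValSub → fracInt` -/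
def fracValIncl : ↥(fracValSub A E hE) →+* ↥(fracInt A) where
  toFun x := ⟨((x : ↥E) : LaurentSeries K), x.2⟩
  map_one' := rfl
  map_mul' _ _ := rfl
  map_zero' := rfl
  map_add' _ _ := rfl

variable (A E hE) in
/-- the residue map of `fracValSub` into `k((x))` -/
def fracValRed : ↥(fracValSub A E hE) →+* LaurentSeries (ResidueField ↥A) :=
  (fracRed A).comp (fracValIncl A E hE)

theorem fracValRed_apply (x : ↥(fracValSub A E hE)) :
    fracValRed A E hE x = fracRed A ⟨((x : ↥E) : LaurentSeries K), x.2⟩ := rfl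

theorem isUnit_fracValSub_iff (x : ↥(fracValSub A E hE)) :
    IsUnit x ↔ fracValRed A E hE x ≠ 0 := by
  constructor
  · intro h
    exact (h.map (fracValRed A E hE)).ne_zero
  · intro h
    have hinv := inv_mem_fracInt_of_fracRed_ne_zero _ h
    have hx0 : (x : ↥E) ≠ 0 := by
      intro h0
      apply h
      have : x = 0 := Subtype.ext h0
      rw [this, map_zero]
    refine IsUnit.of_mul_eq_one ⟨(x : ↥E)⁻¹, ?_⟩ (Subtype.ext ?_)
    · show (((x : ↥E)⁻¹ : ↥E) : LaurentSeries K) ∈ fracInt A
      rw [IntermediateField.coe_inv]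
      exact hinv
    · show (x : ↥E) * (x : ↥E)⁻¹ = 1
      exact mul_inv_cancel₀ hx0

theorem mem_maximalIdeal_fracValSub_iff (x : ↥(fracValSub A E hE)) :
    x ∈ maximalIdeal ↥(fracValSub A E hE) ↔ fracValRed A E hE x = 0 := by
  rw [IsLocalRing.mem_maximalIdeal, mem_nonunits_iff, isUnit_fracValSub_iff, not_not]

theorem ker_fracValRed :
    RingHom.ker (fracValRed A E hE) = maximalIdeal ↥(fracValSub A E hE) := by
  ext x
  rw [RingHom.mem_ker, mem_maximalIdeal_fracValSub_iff]

instance isLocalHom_fracValRed : IsLocalHom (fracValRed A E hE) :=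
  ⟨fun x hx => (isUnit_fracValSub_iff x).2 hx.ne_zero⟩

variable (A E hE) in
/-- the residue field of `fracValSub` embeds into `k((x))` -/
def fracResidueEmb :
    ResidueField ↥(fracValSub A E hE) →+* LaurentSeries (ResidueField ↥A) :=
  IsLocalRing.ResidueField.lift (fracValRed A E hE)

theorem fracResidueEmb_residue (x : ↥(fracValSub A E hE)) :
    fracResidueEmb A E hE (residue _ x) = fracValRed A E hE x :=
  IsLocalRing.ResidueField.lift_residue_apply _ x

theorem fracResidueEmb_injective : Function.Injective (fracResidueEmb A E hE) :=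
  (fracResidueEmb A E hE).injective

/-- `fracValSub ∩ K = A` -/
theorem algebraMap_mem_fracValSub_iff (a : K) :
    algebraMap K ↥E a ∈ fracValSub A E hE ↔ a ∈ A := by
  rw [mem_fracValSub_iff, IntermediateField.coe_algebraMap_apply,
    algebraMap_laurentSeries_eq_single, ← HahnSeries.C_apply]
  exact C_mem_fracInt_iff

variable (A E hE) in
/-- the constants `A → fracValSub` -/
def fracValC : ↥A →+* ↥(fracValSub A E hE) where
  toFun a := ⟨algebraMap K ↥E (a : K), (algebraMap_mem_fracValSub_iff _).2 a.2⟩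
  map_one' := Subtype.ext (map_one _)
  map_mul' a b := Subtype.ext (map_mul _ (a : K) (b : K))
  map_zero' := Subtype.ext (map_zero _)
  map_add' a b := Subtype.ext (map_add _ (a : K) (b : K))

@[simp] theorem coe_fracValC (a : ↥A) :
    ((fracValC A E hE a : ↥(fracValSub A E hE)) : ↥E) = algebraMap K ↥E (a : K) := rfl

theorem fracValRed_fracValC (a : ↥A) :
    fracValRed A E hE (fracValC A E hE a) = HahnSeries.C (residue ↥A a) := by
  rw [fracValRed_apply]
  have h : (((fracValC A E hE a : ↥(fracValSub A E hE)) : ↥E) : LaurentSeries K) =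
      HahnSeries.C (a : K) := by
    rw [coe_fracValC, IntermediateField.coe_algebraMap_apply,
      algebraMap_laurentSeries_eq_single, ← HahnSeries.C_apply]
  have h2 := fracRed_C (A := A) a.2
  rw [← h2]
  congr 1
  exact Subtype.ext h

instance isLocalHom_fracValC : IsLocalHom (fracValC A E hE) := by
  refine ⟨fun a ha => ?_⟩
  have h1 : fracValRed A E hE (fracValC A E hE a) ≠ 0 := (isUnit_fracValSub_iff _).1 ha
  rw [fracValRed_fracValC] at h1
  by_contra hna
  apply h1
  have : residue ↥A a = 0 := (residue_eq_zero_iff a).2 ((IsLocalRing.mem_maximalIdeal a).2 hna)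
  rw [this, map_zero]

/-- the `k`-algebra structure of the residue field of `fracValSub`. -/
instance fracResAlgebra : Algebra (ResidueField ↥A) (ResidueField ↥(fracValSub A E hE)) :=
  (IsLocalRing.ResidueField.map (fracValC A E hE)).toAlgebra

theorem algebraMap_fracRes_residue (a : ↥A) :
    algebraMap (ResidueField ↥A) (ResidueField ↥(fracValSub A E hE)) (residue ↥A a) =
      residue _ (fracValC A E hE a) :=
  IsLocalRing.ResidueField.map_residue _ a

/-- the embedding into `k((x))` is `k`-linear. -/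
theorem fracResidueEmb_algebraMap (c : ResidueField ↥A) :
    fracResidueEmb A E hE (algebraMap (ResidueField ↥A) _ c) = HahnSeries.C c := by
  obtain ⟨a, rfl⟩ := residue_surjective c
  rw [algebraMap_fracRes_residue, fracResidueEmb_residue, fracValRed_fracValC]

end ValSub

end

end Fermat.Agent.FG
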