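/-
FG (S19/S32) — helper6 — [E-RED-a], part 2: **descent of the tower fields to a base, and
comparison of the coefficientwise Gauss rings** (`gaussInt R₁ K₁` at a base `K₁`, `fracInt A` over
`Ω`).

* `exists_isBase_descent_tower` : for a tower field `E(K) ⊆ K⸨x⸩` functorial in the coefficient
  field and generated by its image under coefficient extension, every element of `E(Ω)` comes
  from `E(K₁)` for a base `K₁` (which may be chosen above a given base and containing finitely many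
  given constants);
* `coeffMap_mem_fracInt_of_mem_gaussInt`, `fracRed_coeffMap_of_mem_gaussInt` : the base change of a
  Gauss-integral series is `A`-integral, compatibly with the reductions;
* `mem_gaussInt_of_coeffMap_mem_fracInt` (converse, for elements of `gaussField`).
-/
import Mathlib
import Fermat.Agent.FG.EDEF_helper6_Frac
import Fermat.Agent.JA.BCD_helper9_HostRat

set_option autoImplicit false
set_option linter.unusedSectionVars false
set_option linter.style.haveILetI false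
set_option synthInstance.maxHeartbeats 200000

open HahnSeries IntermediateField ModularCurve IsLocalRing

namespace Fermat.Agent.FG

open Fermat.Agent.JA Fermat.Agent.Igusa

/-- `Ω = AlgebraicClosure ℚ`. -/
local notation "Ω" => AlgebraicClosure ℚ

section Tower

variable (E : ∀ (K : Type) [Field K] [Algebra ℚ K], IntermediateField K (LaurentSeries K))
  (hE : ∀ (K L : Type) [Field K] [Field L] [Algebra ℚ K] [Algebra ℚ L] (φ : K →+* L),
    ∀ x ∈ E K, coeffMap φ x ∈ E L)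
  (hgenE : ∀ (K L : Type) [Field K] [Field L] [Algebra ℚ K] [Algebra ℚ L] (φ : K →+* L),
    E L ≤ IntermediateField.adjoin L (⇑(coeffMap φ) '' (E K : Set (LaurentSeries K))))

include hE hgenE in
/-- **descent of a tower field to a base.** -/
theorem exists_isBase_descent_tower (ℓ : ℕ) {f : LaurentSeries Ω} (hf : f ∈ E Ω) :
    ∃ K₁ : IntermediateField ℚ Ω, IsBase ℓ K₁ ∧ ∃ f₁ : LaurentSeries ↥K₁,
      f₁ ∈ E ↥K₁ ∧ coeffMap (algebraMap ↥K₁ Ω) f₁ = f := by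
  classical
  have hpush : ∀ (K_a K₁ : IntermediateField ℚ Ω) (h : K_a ≤ K₁) (a₁ : LaurentSeries ↥K_a),
      a₁ ∈ E ↥K_a →
      coeffMap (IntermediateField.inclusion h : ↥K_a →+* ↥K₁) a₁ ∈ E ↥K₁ ∧
      coeffMap (algebraMap ↥K₁ Ω) (coeffMap (IntermediateField.inclusion h : ↥K_a →+* ↥K₁) a₁) =
        coeffMap (algebraMap ↥K_a Ω) a₁ := by
    intro K_a K₁ h a₁ ha₁
    refine ⟨hE _ _ _ a₁ ha₁, ?_⟩
    rw [coeffMap_coeffMap]
    rfl
  have hf' := hgenE ↥(flatBase ℓ) Ω (algebraMap ↥(flatBase ℓ) Ω) hf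
  clear hf
  induction hf' using IntermediateField.adjoin_induction with
  | mem x hx =>
    obtain ⟨x₀, hx₀, rfl⟩ := hx
    exact ⟨flatBase ℓ, isBase_flatBase, x₀, hx₀, rfl⟩
  | algebraMap c =>
    obtain ⟨K₁, hK₁, hc⟩ := exists_isBase_mem ℓ c
    refine ⟨K₁, hK₁, algebraMap ↥K₁ (LaurentSeries ↥K₁) ⟨c, hc⟩,
      IntermediateField.algebraMap_mem _ _, ?_⟩
    rw [coeffMap_algebraMap']
    rfl
  | add x y _ _ hx hy =>
    obtain ⟨Ka, hKa, a₁, ha₁, rfl⟩ := hx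
    obtain ⟨Kb, hKb, b₁, hb₁, rfl⟩ := hy
    obtain ⟨h1, h2⟩ := hpush Ka (Ka ⊔ Kb) le_sup_left a₁ ha₁
    obtain ⟨h3, h4⟩ := hpush Kb (Ka ⊔ Kb) le_sup_right b₁ hb₁
    exact ⟨Ka ⊔ Kb, hKa.sup hKb, _, add_mem h1 h3, by rw [map_add, h2, h4]⟩
  | mul x y _ _ hx hy =>
    obtain ⟨Ka, hKa, a₁, ha₁, rfl⟩ := hx
    obtain ⟨Kb, hKb, b₁, hb₁, rfl⟩ := hy
    obtain ⟨h1, h2⟩ := hpush Ka (Ka ⊔ Kb) le_sup_left a₁ ha₁
    obtain ⟨h3, h4⟩ := hpush Kb (Ka ⊔ Kb) le_sup_right b₁ hb₁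
    exact ⟨Ka ⊔ Kb, hKa.sup hKb, _, mul_mem h1 h3, by rw [map_mul, h2, h4]⟩
  | inv x _ hx =>
    obtain ⟨Ka, hKa, a₁, ha₁, rfl⟩ := hx
    exact ⟨Ka, hKa, a₁⁻¹, inv_mem ha₁, map_inv₀ _ _⟩

include hE in
/-- a descent can be pushed up to a larger field. -/
theorem descent_tower_mono {K₁ K₂ : IntermediateField ℚ Ω} (h : K₁ ≤ K₂)
    {f₁ : LaurentSeries ↥K₁} (hf₁ : f₁ ∈ E ↥K₁) :
    coeffMap (IntermediateField.inclusion h : ↥K₁ →+* ↥K₂) f₁ ∈ E ↥K₂ ∧
      coeffMap (algebraMap ↥K₂ Ω) (coeffMap (IntermediateField.inclusion h : ↥K₁ →+* ↥K₂) f₁) =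
        coeffMap (algebraMap ↥K₁ Ω) f₁ := by
  refine ⟨hE _ _ _ f₁ hf₁, ?_⟩
  rw [coeffMap_coeffMap]
  rfl

include hE hgenE in
/-- **descent of a tower field to a base**, above a given base and containing finitely many
given constants. -/
theorem IsBase.exists_ge_descent_tower {ℓ : ℕ} {K₀ : IntermediateField ℚ Ω} (hK₀ : IsBase ℓ K₀)
    (t : Finset Ω) {f : LaurentSeries Ω} (hf : f ∈ E Ω) :
    ∃ K₁ : IntermediateField ℚ Ω, IsBase ℓ K₁ ∧ K₀ ≤ K₁ ∧ (∀ c ∈ t, c ∈ K₁) ∧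
      ∃ f₁ : LaurentSeries ↥K₁, f₁ ∈ E ↥K₁ ∧ coeffMap (algebraMap ↥K₁ Ω) f₁ = f := by
  obtain ⟨Ka, hKa, a₁, ha₁, rfl⟩ := exists_isBase_descent_tower E hE hgenE ℓ hf
  obtain ⟨K₂, hK₂, hle, hmem⟩ := (hK₀.sup hKa).exists_ge_forall_mem t
  obtain ⟨h1, h2⟩ := descent_tower_mono E hE ((le_sup_right : Ka ≤ K₀ ⊔ Ka).trans hle) ha₁
  exact ⟨K₂, hK₂, le_sup_left.trans hle, hmem, _, h1, h2⟩

end Tower

section Compare

variable (A : ValuationSubring Ω) (K₁ : IntermediateField ℚ Ω)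
  [IsDiscreteValuationRing ↥(baseRing A K₁)]

theorem fEmb_coeffMap_baseIncl (g : LaurentSeries ↥(baseRing A K₁)) :
    fEmb A (coeffMap (baseIncl A K₁) g) =
      coeffMap (algebraMap ↥K₁ Ω) (emb ↥(baseRing A K₁) ↥K₁ g) := by
  ext n
  simp only [fEmb_coeff, coeffMap_coeff, emb]
  rfl

theorem fRed_coeffMap_baseIncl (g : LaurentSeries ↥(baseRing A K₁)) :
    fRed A (coeffMap (baseIncl A K₁) g) =
      coeffMap (baseResidueMap A K₁) (red ↥(baseRing A K₁) g) := by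
  ext n
  simp only [fRed_coeff, coeffMap_coeff]
  rfl

variable {A K₁}

theorem fRed_coeffMap_baseIncl_ne_zero {g : LaurentSeries ↥(baseRing A K₁)}
    (hg : red ↥(baseRing A K₁) g ≠ 0) : fRed A (coeffMap (baseIncl A K₁) g) ≠ 0 := by
  rw [fRed_coeffMap_baseIncl]
  intro h0
  exact hg ((map_eq_zero_iff _
    (coeffMapV_injective (baseResidueMap_injective A K₁))).1 h0)

/-- the base change of a Gauss-integral series is `A`-integral. -/
theorem coeffMap_mem_fracInt_of_mem_gaussInt {x₁ : LaurentSeries ↥K₁}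
    (hx : x₁ ∈ gaussInt ↥(baseRing A K₁) ↥K₁) :
    coeffMap (algebraMap ↥K₁ Ω) x₁ ∈ fracInt A := by
  obtain ⟨f, g, hg, h⟩ := hx
  refine ⟨coeffMap (baseIncl A K₁) f, coeffMap (baseIncl A K₁) g,
    fRed_coeffMap_baseIncl_ne_zero hg, ?_⟩
  rw [fEmb_coeffMap_baseIncl, fEmb_coeffMap_baseIncl, ← map_mul, h]

/-- ... compatibly with the reductions. -/
theorem fracRed_coeffMap_of_mem_gaussInt {x₁ : LaurentSeries ↥K₁}
    (hx : x₁ ∈ gaussInt ↥(baseRing A K₁) ↥K₁) :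
    fracRed A ⟨coeffMap (algebraMap ↥K₁ Ω) x₁, coeffMap_mem_fracInt_of_mem_gaussInt hx⟩ =
      coeffMap (baseResidueMap A K₁) (gaussRed ↥(baseRing A K₁) ↥K₁ ⟨x₁, hx⟩) := by
  have hx' := hx
  obtain ⟨f, g, hg, h⟩ := hx'
  have e1 : fracRed A ⟨coeffMap (algebraMap ↥K₁ Ω) x₁, coeffMap_mem_fracInt_of_mem_gaussInt hx⟩ =
      fRed A (coeffMap (baseIncl A K₁) f) / fRed A (coeffMap (baseIncl A K₁) g) :=
    fracRed_eq _ (coeffMap (baseIncl A K₁) f) (coeffMap (baseIncl A K₁) g)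
      (fRed_coeffMap_baseIncl_ne_zero hg)
      (by rw [fEmb_coeffMap_baseIncl, fEmb_coeffMap_baseIncl, ← map_mul, h])
  have e2 : gaussRed ↥(baseRing A K₁) ↥K₁ ⟨x₁, hx⟩ =
      red ↥(baseRing A K₁) f / red ↥(baseRing A K₁) g := gaussRed_eq _ f g hg h
  rw [e1, e2, fRed_coeffMap_baseIncl, fRed_coeffMap_baseIncl]
  exact (map_div₀ (coeffMap (baseResidueMap A K₁)) _ _).symm

/-- for elements of `Frac R₁((x))`: Gauss-integrality can be tested after base change. -/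
theorem mem_gaussInt_of_coeffMap_mem_fracInt {x₁ : LaurentSeries ↥K₁}
    (hx₁ : x₁ ∈ gaussField ↥(baseRing A K₁) ↥K₁)
    (hx : coeffMap (algebraMap ↥K₁ Ω) x₁ ∈ fracInt A) :
    x₁ ∈ gaussInt ↥(baseRing A K₁) ↥K₁ := by
  by_cases hx10 : x₁ = 0
  · rw [hx10]; exact Subring.zero_mem _
  rcases mem_gaussInt_or_inv_mem hx₁ with h | h
  · exact h
  · by_cases hred : gaussRed ↥(baseRing A K₁) ↥K₁ ⟨x₁⁻¹, h⟩ = 0
    · exfalso
      have h1 := fracRed_coeffMap_of_mem_gaussInt h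
      rw [hred, map_zero] at h1
      have hmul : (⟨coeffMap (algebraMap ↥K₁ Ω) x₁, hx⟩ : fracInt A) *
          ⟨coeffMap (algebraMap ↥K₁ Ω) x₁⁻¹, coeffMap_mem_fracInt_of_mem_gaussInt h⟩ = 1 := by
        apply Subtype.ext
        show coeffMap (algebraMap ↥K₁ Ω) x₁ * coeffMap (algebraMap ↥K₁ Ω) x₁⁻¹ = 1
        rw [← map_mul, mul_inv_cancel₀ hx10, map_one]
      have h2 := congrArg (fracRed A) hmul
      rw [map_mul, h1, mul_zero, map_one] at h2
      exact zero_ne_one h2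
    · have := inv_mem_gaussInt_of_gaussRed_ne_zero _ hred
      rwa [inv_inv] at this

end Compare

end Fermat.Agent.FG
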