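/-
FG (S19/S32) — helper6 — [E-RED-a], part 3: **the Ω-level Gauss valuation subring `W_E`, the reduced
function field `Ẽ` and the reduction of functions `ρ_E`** for the Legendre host `legE Ω N`
(`ℓ ≠ 2`) and the Hesse host `hesE Ω N` (`ℓ ≠ 3`), and the four "easy" `GoodRed` fields
(`ρ_surjective`, `algebraMap_mem_iff`, `ρ_algebraMap`, `exists_smul_unit`).

`A ⊂ Ω = AlgebraicClosure ℚ` a valuation subring over the prime `ℓ`, `k = A / 𝔪`.
* `legWE hA N hℓ2 : ValuationSubring ↥(legE Ω N)` : the series of `legE Ω N` which are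
  coefficientwise fractions `a / b`, `a b ∈ A((x))`, `b̄ ≠ 0`  (`= fracValSub A (legE Ω N) _`);
* `legEt hA N hℓ2 := ResidueField ↥(legWE hA N hℓ2)` with its `k`-algebra structure,
  `legρ hA N hℓ2 := residue`, and the embedding `legEtEmb : legEt →+* LaurentSeries k`;
* Hesse twins `hesWE`, `hesEt`, `hesρ`, `hesEtEmb`.
-/
import Mathlib
import Fermat.Agent.FG.EDEF_helper6_Desc
import Fermat.Agent.SS.VAL2_helper7_LegInt
import Fermat.Agent.SS.HOSTINT_helper6_Main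
import Fermat.Agent.JA.KEYBASE_helper8_Final

set_option autoImplicit false
set_option linter.unusedSectionVars false
set_option linter.style.haveILetI false
set_option synthInstance.maxHeartbeats 200000

open HahnSeries IntermediateField ModularCurve IsLocalRing

namespace Fermat.Agent.FG

open Fermat.Agent.JA Fermat.Agent.Igusa Fermat.Agent.SS

/-- `Ω = AlgebraicClosure ℚ`. -/
local notation "Ω" => AlgebraicClosure ℚ

section Tower

variable {ℓ : ℕ} [Fact ℓ.Prime] {A : ValuationSubring Ω} (hA : A.LiesOverPrime ℓ)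
  (E : ∀ (K : Type) [Field K] [Algebra ℚ K], IntermediateField K (LaurentSeries K))
  (hE : ∀ (K L : Type) [Field K] [Field L] [Algebra ℚ K] [Algebra ℚ L] (φ : K →+* L),
    ∀ x ∈ E K, coeffMap φ x ∈ E L)
  (hgenE : ∀ (K L : Type) [Field K] [Field L] [Algebra ℚ K] [Algebra ℚ L] (φ : K →+* L),
    E L ≤ IntermediateField.adjoin L (⇑(coeffMap φ) '' (E K : Set (LaurentSeries K))))
  (hG : ∀ K₁ : IntermediateField ℚ Ω, IsBase ℓ K₁ →
    ∀ [IsDiscreteValuationRing ↥(baseRing A K₁)], E ↥K₁ ≤ gaussField ↥(baseRing A K₁) ↥K₁)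

include hA hE hgenE hG in
/-- on a tower field whose base levels consist of Gauss-bounded series, the coefficientwise
Gauss ring is a valuation ring. -/
theorem tower_mem_fracInt_or_inv_mem (x : ↥(E Ω)) :
    (x : LaurentSeries Ω) ∈ fracInt A ∨ (x : LaurentSeries Ω)⁻¹ ∈ fracInt A := by
  obtain ⟨K₁, hK₁, x₁, hx₁, hx⟩ := exists_isBase_descent_tower E hE hgenE ℓ x.2
  haveI := hK₁.isDiscreteValuationRing hA
  rcases mem_gaussInt_or_inv_mem (hG K₁ hK₁ hx₁) with h | h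
  · left
    rw [← hx]
    exact coeffMap_mem_fracInt_of_mem_gaussInt h
  · right
    rw [← hx, ← map_inv₀]
    exact coeffMap_mem_fracInt_of_mem_gaussInt h

include hA hE hgenE hG in
/-- the value group of the coefficientwise Gauss valuation is that of `A`. -/
theorem tower_exists_smul_unit (f : ↥(E Ω)) (hf : f ≠ 0) :
    ∃ a : Ω, a ≠ 0 ∧ ((a • f : ↥(E Ω)) : LaurentSeries Ω) ∈ fracInt A ∧
      (((a • f : ↥(E Ω))⁻¹ : ↥(E Ω)) : LaurentSeries Ω) ∈ fracInt A := by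
  obtain ⟨K₁, hK₁, x₁, hx₁, hx⟩ := exists_isBase_descent_tower E hE hgenE ℓ f.2
  haveI := hK₁.isDiscreteValuationRing hA
  obtain ⟨ϖ, hϖ⟩ := IsDiscreteValuationRing.exists_irreducible ↥(baseRing A K₁)
  have hx10 : x₁ ≠ 0 := by
    rintro rfl
    rw [map_zero] at hx
    exact hf (Subtype.ext hx.symm)
  obtain ⟨n, u, hu, hu', hxu⟩ := exists_zpow_mul_unit hϖ (hG K₁ hK₁ hx₁) hx10
  have hC := C_algebraMap_ne_zero (L := ↥K₁) hϖ.ne_zero
  set c : Ω := algebraMap ↥K₁ Ω (algebraMap ↥(baseRing A K₁) ↥K₁ ϖ) with hc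
  have hc0 : c ≠ 0 := by
    rw [hc, Ne, map_eq_zero, map_eq_zero_iff _ (IsFractionRing.injective _ _)]
    exact hϖ.ne_zero
  have hCc : coeffMap (algebraMap ↥K₁ Ω)
      (HahnSeries.C (algebraMap ↥(baseRing A K₁) ↥K₁ ϖ) : LaurentSeries ↥K₁) =
      HahnSeries.C c := coeffMapV_C _ _
  have hu0 : u ≠ 0 := by
    rintro rfl
    rw [mul_zero] at hxu
    exact hx10 hxu
  have key : (((c ^ n)⁻¹ • f : ↥(E Ω)) : LaurentSeries Ω) = coeffMap (algebraMap ↥K₁ Ω) u := by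
    rw [IntermediateField.coe_smul, ← hx, hxu, map_mul, map_zpow₀, hCc, Algebra.smul_def,
      algebraMap_laurentSeries_eq_single, ← HahnSeries.C_apply, map_inv₀, map_zpow₀,
      inv_mul_cancel_left₀]
    exact zpow_ne_zero _ (fun h0 => hc0 (by
      have := congrArg (fun z : LaurentSeries Ω => z.coeff 0) h0
      simpa using this))
  refine ⟨(c ^ n)⁻¹, inv_ne_zero (zpow_ne_zero _ hc0), ?_, ?_⟩
  · rw [key]
    exact coeffMap_mem_fracInt_of_mem_gaussInt hu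
  · rw [IntermediateField.coe_inv, key, ← map_inv₀]
    exact coeffMap_mem_fracInt_of_mem_gaussInt hu'

end Tower

section Leg

variable {ℓ : ℕ} [Fact ℓ.Prime] {A : ValuationSubring Ω} (hA : A.LiesOverPrime ℓ)
  (N : ℕ) [NeZero N]

/-- the Legendre tower as a functor in the coefficient field. -/
noncomputable abbrev legTower (N : ℕ) [NeZero N] :
    ∀ (K : Type) [Field K] [Algebra ℚ K], IntermediateField K (LaurentSeries K) :=
  fun K _ _ => legE K N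

/-- the Hesse tower as a functor in the coefficient field. -/
noncomputable abbrev hesTower (N : ℕ) [NeZero N] :
    ∀ (K : Type) [Field K] [Algebra ℚ K], IntermediateField K (LaurentSeries K) :=
  fun K _ _ => hesE K N

include hA in
theorem legE_le_gaussField_base (hℓ2 : ℓ ≠ 2) (K₁ : IntermediateField ℚ Ω)
    [IsDiscreteValuationRing ↥(baseRing A K₁)] :
    legE ↥K₁ N ≤ gaussField ↥(baseRing A K₁) ↥K₁ := by
  have hℓ2' : ¬ ℓ ∣ 2 := fun h =>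
    hℓ2 ((Nat.prime_dvd_prime_iff_eq (Fact.out : ℓ.Prime) Nat.prime_two).mp h)
  have h2 : IsUnit (2 : ↥(baseRing A K₁)) := by
    have := isUnit_natCast_baseRing hA (K₁ := K₁) hℓ2'
    exact_mod_cast this
  exact legE_le_gaussField ↥(baseRing A K₁) ↥K₁ h2 N

include hA in
theorem hesE_le_gaussField_base (hℓ3 : ℓ ≠ 3) (K₁ : IntermediateField ℚ Ω)
    [IsDiscreteValuationRing ↥(baseRing A K₁)] :
    hesE ↥K₁ N ≤ gaussField ↥(baseRing A K₁) ↥K₁ := by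
  have hℓ3' : ¬ ℓ ∣ 3 := fun h =>
    hℓ3 ((Nat.prime_dvd_prime_iff_eq (Fact.out : ℓ.Prime) Nat.prime_three).mp h)
  have h3 : IsUnit (3 : ↥(baseRing A K₁)) := by
    have := isUnit_natCast_baseRing hA (K₁ := K₁) hℓ3'
    exact_mod_cast this
  exact hesE_le_gaussField ↥(baseRing A K₁) ↥K₁ h3 N

include hA in
theorem legE_mem_fracInt_or_inv_mem (hℓ2 : ℓ ≠ 2) (x : ↥(legE Ω N)) :
    (x : LaurentSeries Ω) ∈ fracInt A ∨ (x : LaurentSeries Ω)⁻¹ ∈ fracInt A :=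
  tower_mem_fracInt_or_inv_mem hA (legTower N)
    (fun _ _ _ _ _ _ φ _ hx => coeffMap_mem_legE φ N hx)
    (fun _ _ _ _ _ _ φ => legE_le_adjoin_image φ N)
    (fun K₁ _ _ => legE_le_gaussField_base hA N hℓ2 K₁) x

include hA in
theorem hesE_mem_fracInt_or_inv_mem (hℓ3 : ℓ ≠ 3) (x : ↥(hesE Ω N)) :
    (x : LaurentSeries Ω) ∈ fracInt A ∨ (x : LaurentSeries Ω)⁻¹ ∈ fracInt A :=
  tower_mem_fracInt_or_inv_mem hA (hesTower N)
    (fun _ _ _ _ _ _ φ _ hx => coeffMap_mem_hesE φ N hx)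
    (fun _ _ _ _ _ _ φ => hesE_le_adjoin_image φ N)
    (fun K₁ _ _ => hesE_le_gaussField_base hA N hℓ3 K₁) x

/-- **`W_E`, Legendre**: the Gauss valuation subring of `legE Ω N` (coefficientwise). -/
noncomputable def legWE (hℓ2 : ℓ ≠ 2) : ValuationSubring ↥(legE Ω N) :=
  fracValSub A (legE Ω N) (legE_mem_fracInt_or_inv_mem hA N hℓ2)

/-- **`W_E`, Hesse**: the Gauss valuation subring of `hesE Ω N` (coefficientwise). -/
noncomputable def hesWE (hℓ3 : ℓ ≠ 3) : ValuationSubring ↥(hesE Ω N) :=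
  fracValSub A (hesE Ω N) (hesE_mem_fracInt_or_inv_mem hA N hℓ3)

theorem mem_legWE_iff (hℓ2 : ℓ ≠ 2) (x : ↥(legE Ω N)) :
    x ∈ legWE hA N hℓ2 ↔ (x : LaurentSeries Ω) ∈ fracInt A := Iff.rfl

theorem mem_hesWE_iff (hℓ3 : ℓ ≠ 3) (x : ↥(hesE Ω N)) :
    x ∈ hesWE hA N hℓ3 ↔ (x : LaurentSeries Ω) ∈ fracInt A := Iff.rfl

/-- **`Ẽ`, Legendre**: the function field of the reduced curve. -/
abbrev legEt (hℓ2 : ℓ ≠ 2) : Type := ResidueField ↥(legWE hA N hℓ2)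

/-- **`Ẽ`, Hesse**: the function field of the reduced curve. -/
abbrev hesEt (hℓ3 : ℓ ≠ 3) : Type := ResidueField ↥(hesWE hA N hℓ3)

/-- the `k`-algebra structure of `Ẽ` (Legendre). -/
noncomputable instance legEtAlgebra (hℓ2 : ℓ ≠ 2) :
    Algebra (ResidueField ↥A) (legEt hA N hℓ2) :=
  fracResAlgebra (A := A) (E := legE Ω N) (hE := legE_mem_fracInt_or_inv_mem hA N hℓ2)

/-- the `k`-algebra structure of `Ẽ` (Hesse). -/
noncomputable instance hesEtAlgebra (hℓ3 : ℓ ≠ 3) :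
    Algebra (ResidueField ↥A) (hesEt hA N hℓ3) :=
  fracResAlgebra (A := A) (E := hesE Ω N) (hE := hesE_mem_fracInt_or_inv_mem hA N hℓ3)

/-- **`ρ_E`, Legendre**: reduction of functions. -/
noncomputable def legρ (hℓ2 : ℓ ≠ 2) : ↥(legWE hA N hℓ2) →+* legEt hA N hℓ2 :=
  residue ↥(legWE hA N hℓ2)

/-- **`ρ_E`, Hesse**: reduction of functions. -/
noncomputable def hesρ (hℓ3 : ℓ ≠ 3) : ↥(hesWE hA N hℓ3) →+* hesEt hA N hℓ3 :=
  residue ↥(hesWE hA N hℓ3)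

/-- the coefficientwise embedding `Ẽ ↪ k((x))`, `ρ (a / b) ↦ ā / b̄` (Legendre). -/
noncomputable def legEtEmb (hℓ2 : ℓ ≠ 2) :
    legEt hA N hℓ2 →+* LaurentSeries (ResidueField ↥A) :=
  fracResidueEmb A (legE Ω N) (legE_mem_fracInt_or_inv_mem hA N hℓ2)

/-- the coefficientwise embedding `Ẽ ↪ k((x))`, `ρ (a / b) ↦ ā / b̄` (Hesse). -/
noncomputable def hesEtEmb (hℓ3 : ℓ ≠ 3) :
    hesEt hA N hℓ3 →+* LaurentSeries (ResidueField ↥A) :=
  fracResidueEmb A (hesE Ω N) (hesE_mem_fracInt_or_inv_mem hA N hℓ3)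

/-! ### the four easy `GoodRed` fields, Legendre -/

theorem legρ_surjective (hℓ2 : ℓ ≠ 2) : Function.Surjective (legρ hA N hℓ2) :=
  residue_surjective

theorem algebraMap_mem_legWE_iff (hℓ2 : ℓ ≠ 2) (a : Ω) :
    algebraMap Ω ↥(legE Ω N) a ∈ legWE hA N hℓ2 ↔ a ∈ A :=
  algebraMap_mem_fracValSub_iff a

theorem legρ_algebraMap (hℓ2 : ℓ ≠ 2) (a : ↥A)
    (h : algebraMap Ω ↥(legE Ω N) (a : Ω) ∈ legWE hA N hℓ2) :
    legρ hA N hℓ2 ⟨algebraMap Ω ↥(legE Ω N) (a : Ω), h⟩ =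
      algebraMap (ResidueField ↥A) (legEt hA N hℓ2) (residue ↥A a) :=
  (algebraMap_fracRes_residue (A := A) (E := legE Ω N)
    (hE := legE_mem_fracInt_or_inv_mem hA N hℓ2) a).symm

theorem legWE_exists_smul_unit (hℓ2 : ℓ ≠ 2) (f : ↥(legE Ω N)) (hf : f ≠ 0) :
    ∃ a : Ω, a ≠ 0 ∧ a • f ∈ legWE hA N hℓ2 ∧ (a • f)⁻¹ ∈ legWE hA N hℓ2 :=
  tower_exists_smul_unit hA (legTower N)
    (fun _ _ _ _ _ _ φ _ hx => coeffMap_mem_legE φ N hx)
    (fun _ _ _ _ _ _ φ => legE_le_adjoin_image φ N)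
    (fun K₁ _ _ => legE_le_gaussField_base hA N hℓ2 K₁) f hf

theorem legEtEmb_legρ (hℓ2 : ℓ ≠ 2) (x : ↥(legWE hA N hℓ2)) :
    legEtEmb hA N hℓ2 (legρ hA N hℓ2 x) =
      fracRed A ⟨((x : ↥(legE Ω N)) : LaurentSeries Ω), x.2⟩ :=
  fracResidueEmb_residue x

theorem legEtEmb_algebraMap (hℓ2 : ℓ ≠ 2) (c : ResidueField ↥A) :
    legEtEmb hA N hℓ2 (algebraMap (ResidueField ↥A) (legEt hA N hℓ2) c) = HahnSeries.C c :=
  fracResidueEmb_algebraMap c

/-! ### the four easy `GoodRed` fields, Hesse -/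

theorem hesρ_surjective (hℓ3 : ℓ ≠ 3) : Function.Surjective (hesρ hA N hℓ3) :=
  residue_surjective

theorem algebraMap_mem_hesWE_iff (hℓ3 : ℓ ≠ 3) (a : Ω) :
    algebraMap Ω ↥(hesE Ω N) a ∈ hesWE hA N hℓ3 ↔ a ∈ A :=
  algebraMap_mem_fracValSub_iff a

theorem hesρ_algebraMap (hℓ3 : ℓ ≠ 3) (a : ↥A)
    (h : algebraMap Ω ↥(hesE Ω N) (a : Ω) ∈ hesWE hA N hℓ3) :
    hesρ hA N hℓ3 ⟨algebraMap Ω ↥(hesE Ω N) (a : Ω), h⟩ =
      algebraMap (ResidueField ↥A) (hesEt hA N hℓ3) (residue ↥A a) :=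
  (algebraMap_fracRes_residue (A := A) (E := hesE Ω N)
    (hE := hesE_mem_fracInt_or_inv_mem hA N hℓ3) a).symm

theorem hesWE_exists_smul_unit (hℓ3 : ℓ ≠ 3) (f : ↥(hesE Ω N)) (hf : f ≠ 0) :
    ∃ a : Ω, a ≠ 0 ∧ a • f ∈ hesWE hA N hℓ3 ∧ (a • f)⁻¹ ∈ hesWE hA N hℓ3 :=
  tower_exists_smul_unit hA (hesTower N)
    (fun _ _ _ _ _ _ φ _ hx => coeffMap_mem_hesE φ N hx)
    (fun _ _ _ _ _ _ φ => hesE_le_adjoin_image φ N)
    (fun K₁ _ _ => hesE_le_gaussField_base hA N hℓ3 K₁) f hf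

theorem hesEtEmb_hesρ (hℓ3 : ℓ ≠ 3) (x : ↥(hesWE hA N hℓ3)) :
    hesEtEmb hA N hℓ3 (hesρ hA N hℓ3 x) =
      fracRed A ⟨((x : ↥(hesE Ω N)) : LaurentSeries Ω), x.2⟩ :=
  fracResidueEmb_residue x

theorem hesEtEmb_algebraMap (hℓ3 : ℓ ≠ 3) (c : ResidueField ↥A) :
    hesEtEmb hA N hℓ3 (algebraMap (ResidueField ↥A) (hesEt hA N hℓ3) c) = HahnSeries.C c :=
  fracResidueEmb_algebraMap c

end Leg

end Fermat.Agent.FG
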