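/-
FG (S19/S32) — helper6 — [E-RED-a], part 4: **comparison of `Ẽ = legEt` with the REDO model
`Et_{K₁} = ResidueField (integralClosure 𝒢t (legE K₁ N))` at a base `K₁`**: the homomorphism
`ψ_{K₁} : Et_{K₁} →+* legEt` induced by `legBC`, with `ψ (residue b) = legρ ⟨legBC b, _⟩`,
`k`-linear for `geoAlgKEt … (o1res A K₁)`.  (Bijectivity: `EDEF_helper6_PsiBij`.)  Also:
`legBC_mem_legWE_iff` (`legWE ∩ legE K₁ N` = coefficientwise Gauss valuation subring at the base),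
`isIntegral_legE_iff_mem_gaussInt` (= the integral closure of `𝒢t`), and the Hesse twins
`hesPsiHom`, `hesPsi`, ….
-/
import Mathlib
import Fermat.Agent.FG.EDEF_helper6_Leg
import Fermat.Agent.JA.O1_helper6_Final
import Fermat.Agent.JA.O1_helper1_Concrete
import Fermat.Agent.SS.MODEL_helper7_Leg
import Fermat.Agent.SS.BASE_helper1_Leg

set_option autoImplicit false
set_option linter.unusedSectionVars false
set_option linter.style.haveILetI false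
set_option synthInstance.maxHeartbeats 400000

open HahnSeries IntermediateField ModularCurve IsLocalRing AlgebraicCurve Polynomial

namespace Fermat.Agent.FG

open Fermat.Agent.JA Fermat.Agent.Igusa Fermat.Agent.SS Fermat.Agent.FF

open scoped Fermat.Agent.JA.Host

/-- `Ω = AlgebraicClosure ℚ`. -/
local notation "Ω" => AlgebraicClosure ℚ

section LegBase

variable {ℓ : ℕ} [Fact ℓ.Prime] {A : ValuationSubring Ω} (hA : A.LiesOverPrime ℓ)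
  (N : ℕ) [NeZero N] (K₁ : IntermediateField ℚ Ω)

include hA in
/-- `legWE ∩ legE K₁ N` is the coefficientwise Gauss valuation subring at the base. -/
theorem legBC_mem_legWE_iff (hℓ2 : ℓ ≠ 2) [IsDiscreteValuationRing ↥(baseRing A K₁)]
    (x : ↥(legE ↥K₁ N)) :
    legBC N K₁ x ∈ legWE hA N hℓ2 ↔
      (x : LaurentSeries ↥K₁) ∈ gaussInt ↥(baseRing A K₁) ↥K₁ := by
  rw [mem_legWE_iff, coe_legBC]
  exact ⟨mem_gaussInt_of_coeffMap_mem_fracInt (legE_le_gaussField_base hA N hℓ2 K₁ x.2),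
    coeffMap_mem_fracInt_of_mem_gaussInt⟩

variable {K₁}

set_option maxHeartbeats 1600000 in
include hA in
/-- **the integral closure of the Gauss valuation ring of `K₁(t)` in `legE K₁ N` is the
coefficientwise Gauss valuation subring.** -/
theorem isIntegral_legE_iff_mem_gaussInt (hℓN : ¬ ℓ ∣ N) (hK₁ : IsBase ℓ K₁) (hℓ2 : ℓ ≠ 2)
    [IsDiscreteValuationRing ↥(baseRing A K₁)] {ϖ : ↥(baseRing A K₁)} (hϖ : Irreducible ϖ)
    (𝒢t : ValuationSubring ↥(↥K₁)⟮legT ↥K₁⟯)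
    (h𝒢t : IsGaussAt ↥(baseRing A K₁) ϖ (AdjoinSimple.gen ↥K₁ (legT ↥K₁)) 𝒢t)
    (x : ↥(legE ↥K₁ N)) :
    IsIntegral ↥𝒢t x ↔ (x : LaurentSeries ↥K₁) ∈ gaussInt ↥(baseRing A K₁) ↥K₁ := by
  classical
  haveI : CharZero ↥(baseRing A K₁) := charZero_valuationSubring_of_algebraRat _
  haveI : CharZero ↥K₁ := algebraRat.charZero _
  letI : Algebra ↥K₁ ℂ := baseToComplex K₁
  have hℓ2' : ¬ ℓ ∣ 2 := fun h =>
    hℓ2 ((Nat.prime_dvd_prime_iff_eq (Fact.out : ℓ.Prime) Nat.prime_two).mp h)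
  have h2 : IsUnit (2 : ↥(baseRing A K₁)) := by
    have := isUnit_natCast_baseRing hA (K₁ := K₁) hℓ2'
    exact_mod_cast this
  have hgeo := geoHyps_legE_baseRing hA N hℓN hK₁ hℓ2 hϖ
  haveI := hgeo.finite
  haveI : CharZero ↥(↥K₁)⟮legT ↥K₁⟯ := algebraRat.charZero _
  haveI : IsDiscreteValuationRing ↥𝒢t :=
    isDiscreteValuationRing_of_isGaussAt ϖ hϖ _ hgeo.transcendental hgeo.adjoin_eq_top h𝒢t
  haveI := hgeo.isLocalRing 𝒢t h𝒢t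
  have hcomap : (closureValSub (E := ↥(legE ↥K₁ N)) 𝒢t).comap
      (algebraMap ↥(↥K₁)⟮legT ↥K₁⟯ ↥(legE ↥K₁ N)) = 𝒢t := by
    ext y
    rw [ValuationSubring.mem_comap, mem_closureValSub_iff,
      isIntegral_algebraMap_iff (algebraMap ↥(↥K₁)⟮legT ↥K₁⟯ ↥(legE ↥K₁ N)).injective]
    constructor
    · intro hy
      obtain ⟨z, hz⟩ := IsIntegrallyClosed.isIntegral_iff.mp hy
      rw [← hz]
      exact z.2
    · intro hy
      have : y = algebraMap ↥𝒢t ↥(↥K₁)⟮legT ↥K₁⟯ ⟨y, hy⟩ := rfl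
      rw [this]
      exact isIntegral_algebraMap
  have hG : IsGaussAt ↥(baseRing A K₁) ϖ (AdjoinSimple.gen ↥K₁ (legT ↥K₁))
      ((closureValSub (E := ↥(legE ↥K₁ N)) 𝒢t).comap
        (algebraMap ↥(↥K₁)⟮legT ↥K₁⟯ ↥(legE ↥K₁ N))) := by
    rw [hcomap]; exact h𝒢t
  have hG' := ssModelLeg_gauss_M ↥(baseRing A K₁) ↥K₁ (M := N) hϖ h2
  have heq := GeoHyps.valuationSubring_unique hgeo hG hG'
  rw [← mem_closureValSub_iff (E := ↥(legE ↥K₁ N)) 𝒢t x, heq]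
  rfl

section Psi

variable (hℓN : ¬ ℓ ∣ N) (hK₁ : IsBase ℓ K₁) (hℓ2 : ℓ ≠ 2)
  [IsDiscreteValuationRing ↥(baseRing A K₁)] {ϖ : ↥(baseRing A K₁)} (hϖ : Irreducible ϖ)
  (𝒢t : ValuationSubring ↥(↥K₁)⟮legT ↥K₁⟯)
  (h𝒢t : IsGaussAt ↥(baseRing A K₁) ϖ (AdjoinSimple.gen ↥K₁ (legT ↥K₁)) 𝒢t)

/-- the ring homomorphism `W₁ = integralClosure 𝒢t (legE K₁ N) → W_E` induced by `legBC`. -/
noncomputable def legPsiHom :
    ↥(integralClosure ↥𝒢t ↥(legE ↥K₁ N)) →+* ↥(legWE hA N hℓ2) where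
  toFun b := ⟨legBC N K₁ (b : ↥(legE ↥K₁ N)), (legBC_mem_legWE_iff hA N K₁ hℓ2 _).2
    ((isIntegral_legE_iff_mem_gaussInt hA N hℓN hK₁ hℓ2 hϖ 𝒢t h𝒢t _).1 b.2)⟩
  map_one' := Subtype.ext (map_one _)
  map_mul' _ _ := Subtype.ext (map_mul _ _ _)
  map_zero' := Subtype.ext (map_zero _)
  map_add' _ _ := Subtype.ext (map_add _ _ _)

@[simp] theorem coe_legPsiHom (b : ↥(integralClosure ↥𝒢t ↥(legE ↥K₁ N))) :
    ((legPsiHom hA N hℓN hK₁ hℓ2 hϖ 𝒢t h𝒢t b : ↥(legWE hA N hℓ2)) : ↥(legE Ω N)) =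
      legBC N K₁ (b : ↥(legE ↥K₁ N)) := rfl

instance isLocalHom_legPsiHom : IsLocalHom (legPsiHom hA N hℓN hK₁ hℓ2 hϖ 𝒢t h𝒢t) := by
  refine ⟨fun b hb => ?_⟩
  obtain ⟨u, hu⟩ := hb.exists_right_inv
  have h1 : legBC N K₁ (b : ↥(legE ↥K₁ N)) * (u : ↥(legE Ω N)) = 1 := by
    have := congrArg (fun z : ↥(legWE hA N hℓ2) => (z : ↥(legE Ω N))) hu
    simpa using this
  have hb0 : (b : ↥(legE ↥K₁ N)) ≠ 0 := by
    intro h0
    rw [h0, map_zero, zero_mul] at h1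
    exact zero_ne_one h1
  have hu' : (u : ↥(legE Ω N)) = legBC N K₁ (b : ↥(legE ↥K₁ N))⁻¹ := by
    rw [map_inv₀]
    exact eq_inv_of_mul_eq_one_right h1
  have hinv : IsIntegral ↥𝒢t ((b : ↥(legE ↥K₁ N))⁻¹) := by
    rw [isIntegral_legE_iff_mem_gaussInt hA N hℓN hK₁ hℓ2 hϖ 𝒢t h𝒢t,
      ← legBC_mem_legWE_iff hA N K₁ hℓ2, ← hu']
    exact u.2
  exact IsUnit.of_mul_eq_one ⟨(b : ↥(legE ↥K₁ N))⁻¹, hinv⟩
    (Subtype.ext (mul_inv_cancel₀ hb0))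

variable [IsLocalRing ↥(integralClosure ↥𝒢t ↥(legE ↥K₁ N))]

/-- **`ψ_{K₁} : Et_{K₁} →+* Ẽ`**, induced by `legBC`. -/
noncomputable def legPsi :
    ResidueField ↥(integralClosure ↥𝒢t ↥(legE ↥K₁ N)) →+* legEt hA N hℓ2 :=
  IsLocalRing.ResidueField.map (legPsiHom hA N hℓN hK₁ hℓ2 hϖ 𝒢t h𝒢t)

theorem legPsi_residue (b : ↥(integralClosure ↥𝒢t ↥(legE ↥K₁ N))) :
    legPsi hA N hℓN hK₁ hℓ2 hϖ 𝒢t h𝒢t (residue _ b) =
      legρ hA N hℓ2 (legPsiHom hA N hℓN hK₁ hℓ2 hϖ 𝒢t h𝒢t b) :=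
  IsLocalRing.ResidueField.map_residue _ b

theorem legPsi_injective : Function.Injective (legPsi hA N hℓN hK₁ hℓ2 hϖ 𝒢t h𝒢t) :=
  RingHom.injective _

set_option maxHeartbeats 1600000 in
/-- `ψ_{K₁}` is `k`-linear for helper1's `k`-algebra structure `geoAlgKEt … (o1res A K₁)` of
`Et_{K₁}`. -/
theorem legPsi_algebraMap {S : Finset ↥(baseRing A K₁)}
    (hgeo : GeoHyps ↥K₁ (K := ↥(↥K₁)⟮legT ↥K₁⟯) ϖ (AdjoinSimple.gen ↥K₁ (legT ↥K₁))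
      ↥(legE ↥K₁ N) N S)
    (hσ : Function.Surjective (baseResidueMap A K₁)) (c : ResidueField ↥A) :
    haveI : CharZero ↥(baseRing A K₁) := charZero_valuationSubring_of_algebraRat _
    letI := geoAlgKEt hgeo.irreducible 𝒢t (fun r => h𝒢t.algebraMap_mem r)
      (residue_gaussConst_pi hgeo 𝒢t h𝒢t) (o1res A K₁)
      (hσ.comp IsLocalRing.residue_surjective)
    legPsi hA N hℓN hK₁ hℓ2 hϖ 𝒢t h𝒢t
      (algebraMap (ResidueField ↥A)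
        (ResidueField ↥(integralClosure ↥𝒢t ↥(legE ↥K₁ N))) c) =
      algebraMap (ResidueField ↥A) (legEt hA N hℓ2) c := by
  haveI : CharZero ↥(baseRing A K₁) := charZero_valuationSubring_of_algebraRat _
  letI := geoAlgKEt hgeo.irreducible 𝒢t (fun r => h𝒢t.algebraMap_mem r)
    (residue_gaussConst_pi hgeo 𝒢t h𝒢t) (o1res A K₁)
    (hσ.comp IsLocalRing.residue_surjective)
  have hsurj : Function.Surjective (o1res A K₁) := hσ.comp IsLocalRing.residue_surjective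
  obtain ⟨r, rfl⟩ := hsurj c
  have h1 := geoAlgKEt_algebraMap_res hgeo.irreducible 𝒢t (fun r => h𝒢t.algebraMap_mem r)
    (residue_gaussConst_pi hgeo 𝒢t h𝒢t) (o1res A K₁)
    (hσ.comp IsLocalRing.residue_surjective) r
  rw [h1, legPsi_residue]
  have hmem : algebraMap Ω ↥(legE Ω N) ((baseIncl A K₁ r : ↥A) : Ω) ∈ legWE hA N hℓ2 :=
    (algebraMap_mem_legWE_iff hA N hℓ2 _).2 (baseIncl A K₁ r).2
  have h2 : legPsiHom hA N hℓN hK₁ hℓ2 hϖ 𝒢t h𝒢t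
      (gaussConst (E := ↥(legE ↥K₁ N)) 𝒢t (fun r => h𝒢t.algebraMap_mem r) r) =
      ⟨algebraMap Ω ↥(legE Ω N) ((baseIncl A K₁ r : ↥A) : Ω), hmem⟩ := by
    apply Subtype.ext
    rw [coe_legPsiHom, coe_gaussConst]
    rw [IsScalarTower.algebraMap_apply ↥(baseRing A K₁) ↥K₁ ↥(legE ↥K₁ N), legBC_algebraMap]
    rfl
  rw [h2, legρ_algebraMap]
  rfl

end Psi

end LegBase

section HesBase

variable {ℓ : ℕ} [Fact ℓ.Prime] {A : ValuationSubring Ω} (hA : A.LiesOverPrime ℓ)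
  (N : ℕ) [NeZero N] (K₁ : IntermediateField ℚ Ω)

include hA in
/-- `hesWE ∩ hesE K₁ N` is the coefficientwise Gauss valuation subring at the base. -/
theorem hesBC_mem_hesWE_iff (hℓ3 : ℓ ≠ 3) [IsDiscreteValuationRing ↥(baseRing A K₁)]
    (x : ↥(hesE ↥K₁ N)) :
    hesBC N K₁ x ∈ hesWE hA N hℓ3 ↔
      (x : LaurentSeries ↥K₁) ∈ gaussInt ↥(baseRing A K₁) ↥K₁ := by
  rw [mem_hesWE_iff, coe_hesBC]
  exact ⟨mem_gaussInt_of_coeffMap_mem_fracInt (hesE_le_gaussField_base hA N hℓ3 K₁ x.2),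
    coeffMap_mem_fracInt_of_mem_gaussInt⟩

variable {K₁}

set_option maxHeartbeats 1600000 in
include hA in
/-- **the integral closure of the Gauss valuation ring of `K₁(t)` in `hesE K₁ N` is the
coefficientwise Gauss valuation subring.** -/
theorem isIntegral_hesE_iff_mem_gaussInt (hℓN : ¬ ℓ ∣ N) (hK₁ : IsBase ℓ K₁) (hℓ3 : ℓ ≠ 3)
    [IsDiscreteValuationRing ↥(baseRing A K₁)] {ϖ : ↥(baseRing A K₁)} (hϖ : Irreducible ϖ)
    (𝒢t : ValuationSubring ↥(↥K₁)⟮hesT ↥K₁⟯)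
    (h𝒢t : IsGaussAt ↥(baseRing A K₁) ϖ (AdjoinSimple.gen ↥K₁ (hesT ↥K₁)) 𝒢t)
    (x : ↥(hesE ↥K₁ N)) :
    IsIntegral ↥𝒢t x ↔ (x : LaurentSeries ↥K₁) ∈ gaussInt ↥(baseRing A K₁) ↥K₁ := by
  classical
  haveI : CharZero ↥(baseRing A K₁) := charZero_valuationSubring_of_algebraRat _
  haveI : CharZero ↥K₁ := algebraRat.charZero _
  letI : Algebra ↥K₁ ℂ := baseToComplex K₁
  have hℓ3' : ¬ ℓ ∣ 3 := fun h =>
    hℓ3 ((Nat.prime_dvd_prime_iff_eq (Fact.out : ℓ.Prime) Nat.prime_three).mp h)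
  have h3 : IsUnit (3 : ↥(baseRing A K₁)) := by
    have := isUnit_natCast_baseRing hA (K₁ := K₁) hℓ3'
    exact_mod_cast this
  obtain ⟨ω, -, hgeo⟩ := geoHyps_hesE_baseRing hA N hℓN hK₁ hℓ3 hϖ
  haveI := hgeo.finite
  haveI : CharZero ↥(↥K₁)⟮hesT ↥K₁⟯ := algebraRat.charZero _
  haveI : IsDiscreteValuationRing ↥𝒢t :=
    isDiscreteValuationRing_of_isGaussAt ϖ hϖ _ hgeo.transcendental hgeo.adjoin_eq_top h𝒢t
  haveI := hgeo.isLocalRing 𝒢t h𝒢t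
  have hcomap : (closureValSub (E := ↥(hesE ↥K₁ N)) 𝒢t).comap
      (algebraMap ↥(↥K₁)⟮hesT ↥K₁⟯ ↥(hesE ↥K₁ N)) = 𝒢t := by
    ext y
    rw [ValuationSubring.mem_comap, mem_closureValSub_iff,
      isIntegral_algebraMap_iff (algebraMap ↥(↥K₁)⟮hesT ↥K₁⟯ ↥(hesE ↥K₁ N)).injective]
    constructor
    · intro hy
      obtain ⟨z, hz⟩ := IsIntegrallyClosed.isIntegral_iff.mp hy
      rw [← hz]
      exact z.2
    · intro hy
      have : y = algebraMap ↥𝒢t ↥(↥K₁)⟮hesT ↥K₁⟯ ⟨y, hy⟩ := rfl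
      rw [this]
      exact isIntegral_algebraMap
  have hG : IsGaussAt ↥(baseRing A K₁) ϖ (AdjoinSimple.gen ↥K₁ (hesT ↥K₁))
      ((closureValSub (E := ↥(hesE ↥K₁ N)) 𝒢t).comap
        (algebraMap ↥(↥K₁)⟮hesT ↥K₁⟯ ↥(hesE ↥K₁ N))) := by
    rw [hcomap]; exact h𝒢t
  have hG' := ssModelHes_gauss_M ↥(baseRing A K₁) ↥K₁ (M := N) hϖ h3
  have heq := GeoHyps.valuationSubring_unique hgeo hG hG'
  rw [← mem_closureValSub_iff (E := ↥(hesE ↥K₁ N)) 𝒢t x, heq]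
  rfl

section PsiHes

variable (hℓN : ¬ ℓ ∣ N) (hK₁ : IsBase ℓ K₁) (hℓ3 : ℓ ≠ 3)
  [IsDiscreteValuationRing ↥(baseRing A K₁)] {ϖ : ↥(baseRing A K₁)} (hϖ : Irreducible ϖ)
  (𝒢t : ValuationSubring ↥(↥K₁)⟮hesT ↥K₁⟯)
  (h𝒢t : IsGaussAt ↥(baseRing A K₁) ϖ (AdjoinSimple.gen ↥K₁ (hesT ↥K₁)) 𝒢t)

/-- the ring homomorphism `W₁ = integralClosure 𝒢t (hesE K₁ N) → W_E` induced by `hesBC`. -/
noncomputable def hesPsiHom :
    ↥(integralClosure ↥𝒢t ↥(hesE ↥K₁ N)) →+* ↥(hesWE hA N hℓ3) where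
  toFun b := ⟨hesBC N K₁ (b : ↥(hesE ↥K₁ N)), (hesBC_mem_hesWE_iff hA N K₁ hℓ3 _).2
    ((isIntegral_hesE_iff_mem_gaussInt hA N hℓN hK₁ hℓ3 hϖ 𝒢t h𝒢t _).1 b.2)⟩
  map_one' := Subtype.ext (map_one _)
  map_mul' _ _ := Subtype.ext (map_mul _ _ _)
  map_zero' := Subtype.ext (map_zero _)
  map_add' _ _ := Subtype.ext (map_add _ _ _)

@[simp] theorem coe_hesPsiHom (b : ↥(integralClosure ↥𝒢t ↥(hesE ↥K₁ N))) :
    ((hesPsiHom hA N hℓN hK₁ hℓ3 hϖ 𝒢t h𝒢t b : ↥(hesWE hA N hℓ3)) : ↥(hesE Ω N)) =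
      hesBC N K₁ (b : ↥(hesE ↥K₁ N)) := rfl

instance isLocalHom_hesPsiHom : IsLocalHom (hesPsiHom hA N hℓN hK₁ hℓ3 hϖ 𝒢t h𝒢t) := by
  refine ⟨fun b hb => ?_⟩
  obtain ⟨u, hu⟩ := hb.exists_right_inv
  have h1 : hesBC N K₁ (b : ↥(hesE ↥K₁ N)) * (u : ↥(hesE Ω N)) = 1 := by
    have := congrArg (fun z : ↥(hesWE hA N hℓ3) => (z : ↥(hesE Ω N))) hu
    simpa using this
  have hb0 : (b : ↥(hesE ↥K₁ N)) ≠ 0 := by
    intro h0
    rw [h0, map_zero, zero_mul] at h1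
    exact zero_ne_one h1
  have hu' : (u : ↥(hesE Ω N)) = hesBC N K₁ (b : ↥(hesE ↥K₁ N))⁻¹ := by
    rw [map_inv₀]
    exact eq_inv_of_mul_eq_one_right h1
  have hinv : IsIntegral ↥𝒢t ((b : ↥(hesE ↥K₁ N))⁻¹) := by
    rw [isIntegral_hesE_iff_mem_gaussInt hA N hℓN hK₁ hℓ3 hϖ 𝒢t h𝒢t,
      ← hesBC_mem_hesWE_iff hA N K₁ hℓ3, ← hu']
    exact u.2
  exact IsUnit.of_mul_eq_one ⟨(b : ↥(hesE ↥K₁ N))⁻¹, hinv⟩
    (Subtype.ext (mul_inv_cancel₀ hb0))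

variable [IsLocalRing ↥(integralClosure ↥𝒢t ↥(hesE ↥K₁ N))]

/-- **`ψ_{K₁} : Et_{K₁} →+* Ẽ`**, induced by `hesBC`. -/
noncomputable def hesPsi :
    ResidueField ↥(integralClosure ↥𝒢t ↥(hesE ↥K₁ N)) →+* hesEt hA N hℓ3 :=
  IsLocalRing.ResidueField.map (hesPsiHom hA N hℓN hK₁ hℓ3 hϖ 𝒢t h𝒢t)

theorem hesPsi_residue (b : ↥(integralClosure ↥𝒢t ↥(hesE ↥K₁ N))) :
    hesPsi hA N hℓN hK₁ hℓ3 hϖ 𝒢t h𝒢t (residue _ b) =
      hesρ hA N hℓ3 (hesPsiHom hA N hℓN hK₁ hℓ3 hϖ 𝒢t h𝒢t b) :=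
  IsLocalRing.ResidueField.map_residue _ b

theorem hesPsi_injective : Function.Injective (hesPsi hA N hℓN hK₁ hℓ3 hϖ 𝒢t h𝒢t) :=
  RingHom.injective _

set_option maxHeartbeats 1600000 in
/-- `ψ_{K₁}` is `k`-linear for helper1's `k`-algebra structure `geoAlgKEt … (o1res A K₁)` of
`Et_{K₁}`. -/
theorem hesPsi_algebraMap {S : Finset ↥(baseRing A K₁)}
    (hgeo : GeoHyps ↥K₁ (K := ↥(↥K₁)⟮hesT ↥K₁⟯) ϖ (AdjoinSimple.gen ↥K₁ (hesT ↥K₁))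
      ↥(hesE ↥K₁ N) N S)
    (hσ : Function.Surjective (baseResidueMap A K₁)) (c : ResidueField ↥A) :
    haveI : CharZero ↥(baseRing A K₁) := charZero_valuationSubring_of_algebraRat _
    letI := geoAlgKEt hgeo.irreducible 𝒢t (fun r => h𝒢t.algebraMap_mem r)
      (residue_gaussConst_pi hgeo 𝒢t h𝒢t) (o1res A K₁)
      (hσ.comp IsLocalRing.residue_surjective)
    hesPsi hA N hℓN hK₁ hℓ3 hϖ 𝒢t h𝒢t
      (algebraMap (ResidueField ↥A)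
        (ResidueField ↥(integralClosure ↥𝒢t ↥(hesE ↥K₁ N))) c) =
      algebraMap (ResidueField ↥A) (hesEt hA N hℓ3) c := by
  haveI : CharZero ↥(baseRing A K₁) := charZero_valuationSubring_of_algebraRat _
  letI := geoAlgKEt hgeo.irreducible 𝒢t (fun r => h𝒢t.algebraMap_mem r)
    (residue_gaussConst_pi hgeo 𝒢t h𝒢t) (o1res A K₁)
    (hσ.comp IsLocalRing.residue_surjective)
  have hsurj : Function.Surjective (o1res A K₁) := hσ.comp IsLocalRing.residue_surjective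
  obtain ⟨r, rfl⟩ := hsurj c
  have h1 := geoAlgKEt_algebraMap_res hgeo.irreducible 𝒢t (fun r => h𝒢t.algebraMap_mem r)
    (residue_gaussConst_pi hgeo 𝒢t h𝒢t) (o1res A K₁)
    (hσ.comp IsLocalRing.residue_surjective) r
  rw [h1, hesPsi_residue]
  have hmem : algebraMap Ω ↥(hesE Ω N) ((baseIncl A K₁ r : ↥A) : Ω) ∈ hesWE hA N hℓ3 :=
    (algebraMap_mem_hesWE_iff hA N hℓ3 _).2 (baseIncl A K₁ r).2
  have h3 : hesPsiHom hA N hℓN hK₁ hℓ3 hϖ 𝒢t h𝒢t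
      (gaussConst (E := ↥(hesE ↥K₁ N)) 𝒢t (fun r => h𝒢t.algebraMap_mem r) r) =
      ⟨algebraMap Ω ↥(hesE Ω N) ((baseIncl A K₁ r : ↥A) : Ω), hmem⟩ := by
    apply Subtype.ext
    rw [coe_hesPsiHom, coe_gaussConst]
    rw [IsScalarTower.algebraMap_apply ↥(baseRing A K₁) ↥K₁ ↥(hesE ↥K₁ N), hesBC_algebraMap]
    rfl
  rw [h3, hesρ_algebraMap]
  rfl

end PsiHes

end HesBase

end Fermat.Agent.FG
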