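/-
FG (S19/S32) — helper6 — [E-RED-a], part 5 (abstract): **the residue field extension of the
Gauss valuation** in lead's GEO setting, and the field-theoretic "sandwich" used for the
bijectivity of the comparison maps `ψ_{K₁}`.

* `geo_resField_finite`, `geo_resField_isSeparable`, `geo_resField_finrank` : for the unique
  extension `W = integralClosure 𝒱 E` of a Gauss valuation ring `𝒱 ⊆ K = K₁(t)`, the residue
  extension `κ(W) / κ(𝒱)` (canonical algebra structure) is finite separable of degree `[E : K]`;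
* `gaussRes_aeval`, `gaussRes_transcendental`, `gaussRes_mem_adjoin`, `gaussRes_range` : for a ring
  homomorphism `χ : 𝒱 → L` into a field which is `res` on the constants, `χ t` is transcendental
  over `k` and the image of `χ` lies in `k(χ t)`; the image of `κ(𝒱)` is exactly `k(χ t)`;
* `rangeOver`, `finrank_rangeOver`, `range_subset_of_finrank_eq`, `finite_of_surjective`, … : the
  sandwich.
-/
import Mathlib
import Fermat.Agent.JA.REDO_helper1_Down
import Fermat.Agent.FG.COH_helper8_Base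

set_option autoImplicit false
set_option linter.unusedSectionVars false
set_option linter.style.haveILetI false
set_option synthInstance.maxHeartbeats 400000

open IsLocalRing Polynomial IntermediateField

namespace Fermat.Agent.FG

open Fermat.Agent.JA Fermat.Agent.FF

section ResGeo

/-- **the canonical algebra structure `κ(𝒱) → κ(W)`**, `W = integralClosure 𝒱 E` (Mathlib's
`IsLocalRing.ResidueField.instAlgebra`, named to avoid the competing instance
`ResidueField.algebraOfIsIntegral`). -/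
@[reducible] noncomputable def gaussResAlg {K : Type*} [Field K] (𝒱 : ValuationSubring K)
    (E : Type*) [Field E] [Algebra K E] [IsLocalRing ↥(integralClosure ↥𝒱 E)] :
    Algebra (ResidueField ↥𝒱) (ResidueField ↥(integralClosure ↥𝒱 E)) :=
  IsLocalRing.ResidueField.instAlgebra

theorem gaussResAlg_algebraMap_residue {K : Type*} [Field K] (𝒱 : ValuationSubring K)
    (E : Type*) [Field E] [Algebra K E] [IsLocalRing ↥(integralClosure ↥𝒱 E)] (v : ↥𝒱) :
    letI := gaussResAlg 𝒱 E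
    algebraMap (ResidueField ↥𝒱) (ResidueField ↥(integralClosure ↥𝒱 E)) (residue ↥𝒱 v) =
      residue ↥(integralClosure ↥𝒱 E) (algebraMap ↥𝒱 ↥(integralClosure ↥𝒱 E) v) := rfl

variable {R : Type*} [CommRing R] [IsDomain R] [IsDiscreteValuationRing R] [CharZero R]
  {K₁ : Type*} [Field K₁] [Algebra R K₁] [IsFractionRing R K₁]
  {K : Type*} [Field K] [Algebra K₁ K] [Algebra R K] [IsScalarTower R K₁ K]
  {E : Type*} [Field E] [Algebra K E] [Algebra K₁ E] [IsScalarTower K₁ K E]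
  {π : R} {t : K} {n : ℕ} {S : Finset R}
  (h : GeoHyps K₁ π t E n S) (𝒱 : ValuationSubring K) (h𝒱 : IsGaussAt R π t 𝒱)
  [IsLocalRing ↥(integralClosure ↥𝒱 E)]

include h h𝒱 in
/-- instances in the GEO setting. -/
theorem geo_res_instances :
    CharZero K ∧ IsDiscreteValuationRing ↥𝒱 ∧ Module.Finite ↥𝒱 ↥(integralClosure ↥𝒱 E) ∧
      Algebra.FormallyUnramified ↥𝒱 ↥(integralClosure ↥𝒱 E) := by
  haveI := h.finite
  have hinjRK : Function.Injective (algebraMap R K) := by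
    rw [IsScalarTower.algebraMap_eq R K₁ K]
    exact (algebraMap K₁ K).injective.comp (IsFractionRing.injective R K₁)
  haveI hK0 : CharZero K := charZero_of_injective_algebraMap hinjRK
  haveI : IsDiscreteValuationRing ↥𝒱 :=
    isDiscreteValuationRing_of_isGaussAt π h.irreducible t h.transcendental h.adjoin_eq_top h𝒱
  exact ⟨hK0, inferInstance, IsIntegralClosure.finite ↥𝒱 K E ↥(integralClosure ↥𝒱 E),
    h.gauss 𝒱 h𝒱⟩

include h h𝒱 in
/-- `κ(W) / κ(𝒱)` is finite. -/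
theorem geo_resField_finite :
    letI := gaussResAlg 𝒱 E
    Module.Finite (ResidueField ↥𝒱) (ResidueField ↥(integralClosure ↥𝒱 E)) := by
  letI := gaussResAlg 𝒱 E
  obtain ⟨_, _, _, _⟩ := geo_res_instances h 𝒱 h𝒱
  infer_instance

include h h𝒱 in
/-- `κ(W) / κ(𝒱)` is separable. -/
theorem geo_resField_isSeparable :
    letI := gaussResAlg 𝒱 E
    Algebra.IsSeparable (ResidueField ↥𝒱) (ResidueField ↥(integralClosure ↥𝒱 E)) := by
  letI := gaussResAlg 𝒱 E
  obtain ⟨_, _, _, _⟩ := geo_res_instances h 𝒱 h𝒱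
  infer_instance

include h h𝒱 in
/-- `[κ(W) : κ(𝒱)] = [E : K]`. -/
theorem geo_resField_finrank :
    letI := gaussResAlg 𝒱 E
    Module.finrank (ResidueField ↥𝒱) (ResidueField ↥(integralClosure ↥𝒱 E)) =
      Module.finrank K E := by
  letI := gaussResAlg 𝒱 E
  obtain ⟨_, _, _, _⟩ := geo_res_instances h 𝒱 h𝒱
  haveI := h.finite
  have hmemW := (geo_chart_residue (K₁ := K₁) (E := E) π h.irreducible t h.transcendental
    h.adjoin_eq_top h.gauss 𝒱 h𝒱).1
  have hVW : ∀ x : K, x ∈ 𝒱 ↔ algebraMap K E x ∈ closureValSub (E := E) 𝒱 := by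
    intro x
    rw [mem_closureValSub_iff, isIntegral_algebraMap_iff (algebraMap K E).injective]
    constructor
    · intro hx
      have : x = algebraMap ↥𝒱 K ⟨x, hx⟩ := rfl
      rw [this]
      exact isIntegral_algebraMap
    · intro hx
      obtain ⟨z, hz⟩ := IsIntegrallyClosed.isIntegral_iff.mp hx
      rw [← hz]
      exact z.2
  refine finrank_res_eq_finrank_of_isIntegral (V := 𝒱) (W := closureValSub (E := E) 𝒱)
    (κV := ResidueField ↥𝒱) (κW := ResidueField ↥(integralClosure ↥𝒱 E))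
    (IsLocalRing.residue ↥𝒱) (closureValSubRes (E := E) 𝒱) hVW IsLocalRing.residue_surjective
    (closureValSubRes_surjective 𝒱) (fun v w hw => ?_)
    (fun w => (mem_closureValSub_iff 𝒱 _).mp w.2) (fun w hw => ?_)
  · rw [gaussResAlg_algebraMap_residue]
    show IsLocalRing.residue _ (closureValSubEquiv 𝒱 w) = _
    congr 1
    exact Subtype.ext hw
  · have hw' : closureValSubEquiv 𝒱 w ∈ maximalIdeal ↥(integralClosure ↥𝒱 E) :=
      (IsLocalRing.residue_eq_zero_iff _).mp hw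
    obtain ⟨v, hv, hwv⟩ := (hmemW _).mp hw'
    have hπ𝒱 : algebraMap R K π ∈ 𝒱 := h𝒱.algebraMap_mem π
    refine ⟨⟨algebraMap R K π, hπ𝒱⟩, ⟨v, (mem_closureValSub_iff 𝒱 _).mpr hv⟩, ?_, hwv⟩
    rw [IsLocalRing.residue_eq_zero_iff, IsLocalRing.mem_maximalIdeal, mem_nonunits_iff]
    exact (irreducible_of_isGaussAt π h.irreducible t h.transcendental h.adjoin_eq_top h𝒱
      hπ𝒱).not_isUnit

end ResGeo

section GaussRes

variable {R : Type*} [CommRing R] [IsDomain R] [IsDiscreteValuationRing R] [CharZero R]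
  {K₁ : Type*} [Field K₁] [Algebra R K₁] [IsFractionRing R K₁]
  {K : Type*} [Field K] [Algebra K₁ K] [Algebra R K] [IsScalarTower R K₁ K]
  (π : R) (hπ : Irreducible π) (t : K) (ht : Transcendental K₁ t)
  (hK : IntermediateField.adjoin K₁ {t} = ⊤)
  {𝒱 : ValuationSubring K} (h𝒱 : IsGaussAt R π t 𝒱)
  {k : Type*} [Field k] (res : R →+* k) (hres : Function.Surjective res) (hπres : res π = 0)
  {L : Type*} [Field L] [Algebra k L] (χ : ↥𝒱 →+* L)
  (hχ : ∀ r : R, χ ⟨algebraMap R K r, h𝒱.algebraMap_mem r⟩ = algebraMap k L (res r))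

include hχ in
/-- `χ (f(t)) = f̄ (χ t)`. -/
theorem gaussRes_aeval (f : R[X]) :
    χ ⟨aeval t f, h𝒱.1 f⟩ = aeval (χ ⟨t, h𝒱.self_mem⟩) (f.map res) := by
  let φ₁ : R[X] →+* L := χ.comp
    ((aeval (R := R) t).toRingHom.codRestrict 𝒱.toSubring (fun f => h𝒱.1 f))
  let φ₂ : R[X] →+* L :=
    (aeval (R := k) (χ ⟨t, h𝒱.self_mem⟩)).toRingHom.comp (Polynomial.mapRingHom res)
  have h12 : φ₁ = φ₂ := by
    apply Polynomial.ringHom_ext
    · intro r
      show χ ⟨aeval t (C r), _⟩ = aeval (χ ⟨t, h𝒱.self_mem⟩) ((C r).map res)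
      have h1 : (⟨aeval t (C r), h𝒱.1 (C r)⟩ : ↥𝒱) = ⟨algebraMap R K r, h𝒱.algebraMap_mem r⟩ :=
        Subtype.ext (aeval_C t r)
      rw [h1, hχ r, Polynomial.map_C, aeval_C]
    · show χ ⟨aeval t X, _⟩ = aeval (χ ⟨t, h𝒱.self_mem⟩) ((X : R[X]).map res)
      have h1 : (⟨aeval t X, h𝒱.1 X⟩ : ↥𝒱) = ⟨t, h𝒱.self_mem⟩ := Subtype.ext (aeval_X t)
      rw [h1, Polynomial.map_X, aeval_X]
  exact DFunLike.congr_fun h12 f

include hπres in
/-- polynomials with nonzero reduction are not divisible by `π`. -/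
theorem not_C_dvd_of_map_ne_zero {f : R[X]} (hf : f.map res ≠ 0) : ¬ C π ∣ f := by
  rintro ⟨g, rfl⟩
  apply hf
  rw [Polynomial.map_mul, Polynomial.map_C, hπres, C_0, zero_mul]

include ht in
/-- `f(t) ≠ 0` for `f ≠ 0`. -/
theorem aeval_ne_zero_of_transcendental_frac {f : R[X]} (hf : f ≠ 0) : aeval t f ≠ 0 := by
  intro h0
  have h1 : aeval t (f.map (algebraMap R K₁)) = 0 := by
    rw [aeval_map_algebraMap]
    exact h0
  have h2 : f.map (algebraMap R K₁) = 0 := by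
    by_contra hne
    exact ht ⟨_, hne, h1⟩
  exact hf ((Polynomial.map_eq_zero_iff (IsFractionRing.injective R K₁)).mp h2)

include ht hχ hπres in
/-- `χ (f(t)) ≠ 0` when `f̄ ≠ 0`. -/
theorem gaussRes_aeval_ne_zero {f : R[X]} (hf : ¬ C π ∣ f) : χ ⟨aeval t f, h𝒱.1 f⟩ ≠ 0 := by
  have hf0 : f ≠ 0 := by
    rintro rfl
    exact hf (dvd_zero _)
  have hne := aeval_ne_zero_of_transcendental_frac t ht hf0
  have hu : (⟨aeval t f, h𝒱.1 f⟩ : ↥𝒱) * ⟨(aeval t f)⁻¹, h𝒱.2.2 f hf⟩ = 1 :=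
    Subtype.ext (mul_inv_cancel₀ hne)
  intro h0
  have := congrArg χ hu
  rw [map_mul, h0, zero_mul, map_one] at this
  exact zero_ne_one this

include ht hχ hπres hres in
/-- **the reduction of the coordinate is transcendental.** -/
theorem gaussRes_transcendental : Transcendental k (χ ⟨t, h𝒱.self_mem⟩) := by
  rintro ⟨p, hp0, hp⟩
  obtain ⟨f, rfl⟩ := Polynomial.map_surjective res hres p
  have hf := not_C_dvd_of_map_ne_zero π res hπres hp0
  exact gaussRes_aeval_ne_zero π t ht h𝒱 res hπres χ hχ hf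
    ((gaussRes_aeval π t h𝒱 res χ hχ f).trans hp)

include hπ ht hK hχ hπres in
/-- **the image of the Gauss valuation ring lies in `k(χ t)`.** -/
theorem gaussRes_mem_adjoin (x : ↥𝒱) : χ x ∈ k⟮χ ⟨t, h𝒱.self_mem⟩⟯ := by
  obtain ⟨f, g, hg, hx⟩ := (mem_of_isGaussAt_iff π hπ t ht hK h𝒱 (x : K)).mp x.2
  have hx' : x * (⟨aeval t g, h𝒱.1 g⟩ : ↥𝒱) = ⟨aeval t f, h𝒱.1 f⟩ := Subtype.ext hx
  have h1 := congrArg χ hx'
  rw [map_mul, gaussRes_aeval π t h𝒱 res χ hχ, gaussRes_aeval π t h𝒱 res χ hχ] at h1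
  have hne : aeval (χ ⟨t, h𝒱.self_mem⟩) (g.map res) ≠ 0 := by
    rw [← gaussRes_aeval π t h𝒱 res χ hχ]
    exact gaussRes_aeval_ne_zero π t ht h𝒱 res hπres χ hχ hg
  have h2 : χ x = aeval (χ ⟨t, h𝒱.self_mem⟩) (f.map res) /
      aeval (χ ⟨t, h𝒱.self_mem⟩) (g.map res) := by
    rw [eq_div_iff hne]
    exact h1
  rw [h2]
  have hmem : ∀ p : k[X], aeval (χ ⟨t, h𝒱.self_mem⟩) p ∈ k⟮χ ⟨t, h𝒱.self_mem⟩⟯ := by
    intro p
    exact IntermediateField.algebra_adjoin_le_adjoin k _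
      (Polynomial.aeval_mem_adjoin_singleton k _)
  exact div_mem (hmem _) (hmem _)

end GaussRes

section GaussResRange

variable {R : Type*} [CommRing R] [IsDomain R] [IsDiscreteValuationRing R] [CharZero R]
  {K₁ : Type*} [Field K₁] [Algebra R K₁] [IsFractionRing R K₁]
  {K : Type*} [Field K] [Algebra K₁ K] [Algebra R K] [IsScalarTower R K₁ K]
  (π : R) (hπ : Irreducible π) (t : K) (ht : Transcendental K₁ t)
  (hK : IntermediateField.adjoin K₁ {t} = ⊤)
  {𝒱 : ValuationSubring K} (h𝒱 : IsGaussAt R π t 𝒱)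
  {k : Type*} [Field k] (res : R →+* k) (hres : Function.Surjective res) (hπres : res π = 0)
  {L : Type*} [Field L] [Algebra k L] (χb : ResidueField ↥𝒱 →+* L)
  (hχ : ∀ r : R, χb (residue ↥𝒱 ⟨algebraMap R K r, h𝒱.algebraMap_mem r⟩) =
    algebraMap k L (res r))

include hπ ht hK hχ hπres hres in
/-- **the image of `κ(𝒱)` is exactly `k(t̄)`.** -/
theorem gaussRes_range (y : L) :
    y ∈ k⟮χb (residue ↥𝒱 ⟨t, h𝒱.self_mem⟩)⟯ ↔ ∃ x : ResidueField ↥𝒱, χb x = y := by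
  constructor
  · intro hy
    let M : IntermediateField k L := χb.fieldRange.toIntermediateField (fun c => by
      obtain ⟨r, rfl⟩ := hres c
      exact ⟨_, hχ r⟩)
    have hle : k⟮χb (residue ↥𝒱 ⟨t, h𝒱.self_mem⟩)⟯ ≤ M := by
      rw [adjoin_simple_le_iff]
      exact ⟨_, rfl⟩
    obtain ⟨x, hx⟩ := hle hy
    exact ⟨x, hx⟩
  · rintro ⟨x, rfl⟩
    obtain ⟨v, rfl⟩ := residue_surjective x
    exact gaussRes_mem_adjoin π hπ t ht hK h𝒱 res hπres (χb.comp (residue ↥𝒱)) hχ v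

include ht hχ hπres hres in
/-- the reduction of the coordinate is transcendental (residue field version). -/
theorem gaussRes_transcendental' :
    Transcendental k (χb (residue ↥𝒱 ⟨t, h𝒱.self_mem⟩)) :=
  gaussRes_transcendental π t ht h𝒱 res hres hπres (χb.comp (residue ↥𝒱)) hχ

end GaussResRange

section Sandwich

variable {k L : Type*} [Field k] [Field L] [Algebra k L] (S : IntermediateField k L)
  {F₁ E₁ : Type*} [Field F₁] [Field E₁] [Algebra F₁ E₁]
  (ψ₁ : E₁ →+* L) (h₁ : ∀ y : L, y ∈ S ↔ ∃ x : F₁, ψ₁ (algebraMap F₁ E₁ x) = y)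

/-- the base isomorphism `F₁ ≃ S`. -/
noncomputable def sandwichBase : F₁ ≃+* ↥S :=
  RingEquiv.ofBijective ((ψ₁.comp (algebraMap F₁ E₁)).codRestrict S
      (fun x => (h₁ _).2 ⟨x, rfl⟩))
    ⟨fun a b hab => (ψ₁.comp (algebraMap F₁ E₁)).injective (congrArg Subtype.val hab),
      fun s => by
        obtain ⟨x, hx⟩ := (h₁ s).1 s.2
        exact ⟨x, Subtype.ext hx⟩⟩

@[simp] theorem coe_sandwichBase (x : F₁) :
    ((sandwichBase S ψ₁ h₁ x : ↥S) : L) = ψ₁ (algebraMap F₁ E₁ x) := rfl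

/-- the range of `ψ₁` as an intermediate field of `L / S`. -/
def rangeOver : IntermediateField ↥S L :=
  ψ₁.fieldRange.toIntermediateField (fun s => by
    obtain ⟨x, hx⟩ := (h₁ s).1 s.2
    exact ⟨algebraMap F₁ E₁ x, hx⟩)

theorem mem_rangeOver_iff (y : L) : y ∈ rangeOver S ψ₁ h₁ ↔ ∃ e : E₁, ψ₁ e = y := Iff.rfl

/-- the isomorphism `E₁ ≃ range ψ₁`. -/
noncomputable def sandwichTop : E₁ ≃+* ↥(rangeOver S ψ₁ h₁) :=
  RingEquiv.ofBijective (ψ₁.codRestrict (rangeOver S ψ₁ h₁) (fun x => ⟨x, rfl⟩))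
    ⟨fun a b hab => ψ₁.injective (congrArg Subtype.val hab),
      fun s => by
        obtain ⟨x, hx⟩ := s.2
        exact ⟨x, Subtype.ext hx⟩⟩

@[simp] theorem coe_sandwichTop (x : E₁) :
    ((sandwichTop S ψ₁ h₁ x : ↥(rangeOver S ψ₁ h₁)) : L) = ψ₁ x := rfl

theorem sandwich_compat :
    (algebraMap ↥S ↥(rangeOver S ψ₁ h₁)).comp (sandwichBase S ψ₁ h₁ : F₁ →+* ↥S) =
      (sandwichTop S ψ₁ h₁ : E₁ →+* ↥(rangeOver S ψ₁ h₁)).comp (algebraMap F₁ E₁) := by
  ext x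
  rfl

theorem finrank_rangeOver :
    Module.finrank ↥S ↥(rangeOver S ψ₁ h₁) = Module.finrank F₁ E₁ :=
  (Algebra.finrank_eq_of_equiv_equiv (sandwichBase S ψ₁ h₁) (sandwichTop S ψ₁ h₁)
    (sandwich_compat S ψ₁ h₁)).symm

theorem finite_rangeOver [Module.Finite F₁ E₁] : Module.Finite ↥S ↥(rangeOver S ψ₁ h₁) :=
  Module.Finite.of_equiv_equiv (sandwichBase S ψ₁ h₁) (sandwichTop S ψ₁ h₁)
    (sandwich_compat S ψ₁ h₁)

variable {F₂ E₂ : Type*} [Field F₂] [Field E₂] [Algebra F₂ E₂]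
  (ψ₂ : E₂ →+* L) (h₂ : ∀ y : L, y ∈ S ↔ ∃ x : F₂, ψ₂ (algebraMap F₂ E₂ x) = y)

include S h₁ h₂ in
/-- **the sandwich**: two comparison maps of the same finite degree over the same base with
nested ranges have the same range. -/
theorem range_subset_of_finrank_eq [Module.Finite F₂ E₂]
    (hdeg : Module.finrank F₁ E₁ = Module.finrank F₂ E₂)
    (hsub : ∀ x : E₁, ∃ y : E₂, ψ₂ y = ψ₁ x) (y : E₂) : ∃ x : E₁, ψ₁ x = ψ₂ y := by
  haveI := finite_rangeOver S ψ₂ h₂
  have hle : rangeOver S ψ₁ h₁ ≤ rangeOver S ψ₂ h₂ := by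
    rintro _ ⟨x, rfl⟩
    exact hsub x
  have heq := IntermediateField.eq_of_le_of_finrank_eq hle (by
    rw [finrank_rangeOver, finrank_rangeOver, hdeg])
  have hy : ψ₂ y ∈ rangeOver S ψ₂ h₂ := ⟨y, rfl⟩
  rw [← heq] at hy
  exact hy

section Surj

variable (hsurj : Function.Surjective ψ₁)

/-- the isomorphism `E₁ ≃ L` of a surjective comparison map. -/
noncomputable def sandwichFull : E₁ ≃+* L :=
  RingEquiv.ofBijective ψ₁ ⟨ψ₁.injective, hsurj⟩

theorem sandwichFull_compat :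
    (algebraMap ↥S L).comp (sandwichBase S ψ₁ h₁ : F₁ →+* ↥S) =
      (sandwichFull ψ₁ hsurj : E₁ →+* L).comp (algebraMap F₁ E₁) := by
  ext x
  rfl

include ψ₁ h₁ hsurj in
theorem finrank_of_surjective : Module.finrank ↥S L = Module.finrank F₁ E₁ :=
  (Algebra.finrank_eq_of_equiv_equiv (sandwichBase S ψ₁ h₁) (sandwichFull ψ₁ hsurj)
    (sandwichFull_compat S ψ₁ h₁ hsurj)).symm

include ψ₁ h₁ hsurj in
theorem finite_of_surjective [Module.Finite F₁ E₁] : Module.Finite ↥S L :=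
  Module.Finite.of_equiv_equiv (sandwichBase S ψ₁ h₁) (sandwichFull ψ₁ hsurj)
    (sandwichFull_compat S ψ₁ h₁ hsurj)

include ψ₁ h₁ hsurj in
theorem isSeparable_of_surjective [Algebra.IsSeparable F₁ E₁] : Algebra.IsSeparable ↥S L :=
  Algebra.IsSeparable.of_equiv_equiv (sandwichBase S ψ₁ h₁) (sandwichFull ψ₁ hsurj)
    (sandwichFull_compat S ψ₁ h₁ hsurj)

end Surj

end Sandwich

section Cmp

variable {R : Type*} [CommRing R] [IsDomain R] [IsDiscreteValuationRing R] [CharZero R]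
  {K₁ : Type*} [Field K₁] [Algebra R K₁] [IsFractionRing R K₁]
  {K : Type*} [Field K] [Algebra K₁ K] [Algebra R K] [IsScalarTower R K₁ K]
  {E : Type*} [Field E] [Algebra K E] [Algebra K₁ E] [IsScalarTower K₁ K E]
  [Algebra R E] [IsScalarTower R K E] [IsScalarTower R K₁ E]
  {π : R} {t : K} {n : ℕ} {S : Finset R}
  (h : GeoHyps K₁ π t E n S) (𝒱 : ValuationSubring K) (h𝒱 : IsGaussAt R π t 𝒱)
  [IsLocalRing ↥(integralClosure ↥𝒱 E)]
  {k : Type*} [Field k] (res : R →+* k) (hres : Function.Surjective res) (hπres : res π = 0)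
  {L : Type*} [Field L] [Algebra k L]
  (ψ : ResidueField ↥(integralClosure ↥𝒱 E) →+* L)
  (hψk : ∀ r : R, ψ (residue _ (gaussConst (E := E) 𝒱 (fun r => h𝒱.algebraMap_mem r) r)) =
    algebraMap k L (res r))

/-- the composite `κ(𝒱) → κ(W) → L`. -/
noncomputable def cmpBase : ResidueField ↥𝒱 →+* L :=
  letI := gaussResAlg 𝒱 E
  ψ.comp (algebraMap (ResidueField ↥𝒱) (ResidueField ↥(integralClosure ↥𝒱 E)))

theorem cmpBase_apply (x : ResidueField ↥𝒱) :
    letI := gaussResAlg 𝒱 E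
    cmpBase 𝒱 ψ x = ψ (algebraMap (ResidueField ↥𝒱) (ResidueField ↥(integralClosure ↥𝒱 E)) x) :=
  rfl

include hψk in
theorem cmpBase_const (r : R) :
    cmpBase 𝒱 ψ (residue ↥𝒱 ⟨algebraMap R K r, h𝒱.algebraMap_mem r⟩) = algebraMap k L (res r) := by
  rw [← hψk r]
  show ψ (residue _ _) = _
  congr 2
  apply Subtype.ext
  show algebraMap K E (algebraMap R K r) = _
  rw [coe_gaussConst, ← IsScalarTower.algebraMap_apply R K E]

theorem cmpBase_gen :
    cmpBase 𝒱 ψ (residue ↥𝒱 ⟨t, h𝒱.self_mem⟩) = ψ (geoTb h 𝒱 h𝒱) := rfl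

include hres hπres hψk in
/-- **the reduced coordinate is transcendental over `k`.** -/
theorem cmp_transcendental : Transcendental k (ψ (geoTb h 𝒱 h𝒱)) := by
  rw [← cmpBase_gen h 𝒱 h𝒱 ψ]
  exact gaussRes_transcendental' π t h.transcendental h𝒱 res hres hπres (cmpBase 𝒱 ψ)
    (cmpBase_const 𝒱 h𝒱 res ψ hψk)

include hres hπres hψk in
/-- **the image of `κ(𝒱)` in `L` is `k(t̄)`.** -/
theorem cmp_base_range (y : L) :
    letI := gaussResAlg 𝒱 E
    y ∈ k⟮ψ (geoTb h 𝒱 h𝒱)⟯ ↔ ∃ x : ResidueField ↥𝒱,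
      ψ (algebraMap (ResidueField ↥𝒱) (ResidueField ↥(integralClosure ↥𝒱 E)) x) = y := by
  rw [← cmpBase_gen h 𝒱 h𝒱 ψ]
  exact gaussRes_range π h.irreducible t h.transcendental h.adjoin_eq_top h𝒱 res hres hπres
    (cmpBase 𝒱 ψ) (cmpBase_const 𝒱 h𝒱 res ψ hψk) y

section Surj

variable (hsurj : Function.Surjective ψ)

include hres hπres hψk hsurj in
theorem cmp_finite_of_surjective : Module.Finite ↥k⟮ψ (geoTb h 𝒱 h𝒱)⟯ L := by
  letI := gaussResAlg 𝒱 E
  haveI := geo_resField_finite h 𝒱 h𝒱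
  exact finite_of_surjective k⟮ψ (geoTb h 𝒱 h𝒱)⟯ ψ
    (cmp_base_range h 𝒱 h𝒱 res hres hπres ψ hψk) hsurj

include hres hπres hψk hsurj in
theorem cmp_isSeparable_of_surjective : Algebra.IsSeparable ↥k⟮ψ (geoTb h 𝒱 h𝒱)⟯ L := by
  letI := gaussResAlg 𝒱 E
  haveI := geo_resField_isSeparable h 𝒱 h𝒱
  exact isSeparable_of_surjective k⟮ψ (geoTb h 𝒱 h𝒱)⟯ ψ
    (cmp_base_range h 𝒱 h𝒱 res hres hπres ψ hψk) hsurj

include hres hπres hψk hsurj in
theorem cmp_finrank_of_surjective :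
    Module.finrank ↥k⟮ψ (geoTb h 𝒱 h𝒱)⟯ L = Module.finrank K E := by
  letI := gaussResAlg 𝒱 E
  rw [← geo_resField_finrank h 𝒱 h𝒱]
  exact finrank_of_surjective k⟮ψ (geoTb h 𝒱 h𝒱)⟯ ψ
    (cmp_base_range h 𝒱 h𝒱 res hres hπres ψ hψk) hsurj

end Surj

section Two

variable {R' : Type*} [CommRing R'] [IsDomain R'] [IsDiscreteValuationRing R'] [CharZero R']
  {K₁' : Type*} [Field K₁'] [Algebra R' K₁'] [IsFractionRing R' K₁']
  {K' : Type*} [Field K'] [Algebra K₁' K'] [Algebra R' K'] [IsScalarTower R' K₁' K']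
  {E' : Type*} [Field E'] [Algebra K' E'] [Algebra K₁' E'] [IsScalarTower K₁' K' E']
  [Algebra R' E'] [IsScalarTower R' K' E'] [IsScalarTower R' K₁' E']
  {π' : R'} {t' : K'} {n' : ℕ} {S' : Finset R'}
  (h' : GeoHyps K₁' π' t' E' n' S') (𝒱' : ValuationSubring K') (h𝒱' : IsGaussAt R' π' t' 𝒱')
  [IsLocalRing ↥(integralClosure ↥𝒱' E')]
  (res' : R' →+* k) (hres' : Function.Surjective res') (hπres' : res' π' = 0)
  (ψ' : ResidueField ↥(integralClosure ↥𝒱' E') →+* L)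
  (hψk' : ∀ r : R',
    ψ' (residue _ (gaussConst (E := E') 𝒱' (fun r => h𝒱'.algebraMap_mem r) r)) =
      algebraMap k L (res' r))

include hres hπres hψk hres' hπres' hψk' in
/-- **the sandwich for two base levels**: same reduced coordinate, same degree, nested ranges
⟹ equal ranges. -/
theorem cmp_range_subset (hτ : ψ (geoTb h 𝒱 h𝒱) = ψ' (geoTb h' 𝒱' h𝒱'))
    (hdeg : Module.finrank K E = Module.finrank K' E')
    (hsub : ∀ x, ∃ y, ψ' y = ψ x) (y : ResidueField ↥(integralClosure ↥𝒱' E')) :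
    ∃ x, ψ x = ψ' y := by
  letI := gaussResAlg 𝒱 E
  letI := gaussResAlg 𝒱' E'
  haveI := geo_resField_finite h' 𝒱' h𝒱'
  have h₁ := cmp_base_range h 𝒱 h𝒱 res hres hπres ψ hψk
  have h₂ := cmp_base_range h' 𝒱' h𝒱' res' hres' hπres' ψ' hψk'
  rw [← hτ] at h₂
  refine range_subset_of_finrank_eq k⟮ψ (geoTb h 𝒱 h𝒱)⟯ ψ h₁ ψ' h₂ ?_ hsub y
  rw [geo_resField_finrank h 𝒱 h𝒱, geo_resField_finrank h' 𝒱' h𝒱', hdeg]

end Two

end Cmp

end Fermat.Agent.FG
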