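/-
FG (S19/S32) — helper6 — [E-RED-a], part 6: **the comparison maps `ψ_{K₁} : Et_{K₁} → Ẽ` are
bijective**, and consequently `Ẽ / k(t̄)` is finite separable of degree `[E_Ω : Ω(t)]`, with `t̄`
transcendental over `k` (Legendre tower; the Hesse twin is `EDEF_helper6_PsiBijHes`).
-/
import Mathlib
import Fermat.Agent.FG.EDEF_helper6_Psi
import Fermat.Agent.FG.EDEF_helper6_Res
import Fermat.Agent.FG.EDEF_helper6_Deg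
import Fermat.Agent.SS.VAL2_helper7_LegInt

set_option autoImplicit false
set_option linter.unusedSectionVars false
set_option linter.style.haveILetI false
set_option synthInstance.maxHeartbeats 400000

open HahnSeries IntermediateField ModularCurve IsLocalRing AlgebraicCurve Polynomial

namespace Fermat.Agent.FG

open Fermat.Agent.JA Fermat.Agent.Igusa Fermat.Agent.SS Fermat.Agent.FF

open scoped Fermat.Agent.JA.Host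

/-- `Ω = AlgebraicClosure ℚ`. -/
local notation "Ω" => AlgebraicClosure ℚ


section LegBij

variable {ℓ : ℕ} [Fact ℓ.Prime] {A : ValuationSubring Ω} (hA : A.LiesOverPrime ℓ)
  (N : ℕ) [NeZero N] {K₁ : IntermediateField ℚ Ω}

include hA in
/-- the Legendre coordinate is `A`-integral. -/
theorem legT_mem_fracInt (hℓ2 : ℓ ≠ 2) : legT Ω ∈ fracInt A := by
  have hK₁ : IsBase ℓ (flatBase ℓ) := isBase_flatBase
  haveI := hK₁.isDiscreteValuationRing hA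
  haveI : CharZero ↥(baseRing A (flatBase ℓ)) := charZero_valuationSubring_of_algebraRat _
  have hℓ2' : ¬ ℓ ∣ 2 := fun h =>
    hℓ2 ((Nat.prime_dvd_prime_iff_eq (Fact.out : ℓ.Prime) Nat.prime_two).mp h)
  have h2 : IsUnit (2 : ↥(baseRing A (flatBase ℓ))) := by
    have := isUnit_natCast_baseRing hA (K₁ := flatBase ℓ) hℓ2'
    exact_mod_cast this
  have := coeffMap_mem_fracInt_of_mem_gaussInt (A := A)
    (legT_mem_gaussInt ↥(baseRing A (flatBase ℓ)) ↥(flatBase ℓ) h2).1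
  rwa [coeffMap_legT] at this

/-- **`t ∈ W_E`.** -/
theorem legCoordBar_x_mem_legWE (hℓ2 : ℓ ≠ 2) : (legCoordBar N).x ∈ legWE hA N hℓ2 :=
  (mem_legWE_iff hA N hℓ2 _).2 (legT_mem_fracInt hA hℓ2)

/-- **the reduced coordinate `t̄ ∈ Ẽ`.** -/
noncomputable def legTb (hℓ2 : ℓ ≠ 2) : legEt hA N hℓ2 :=
  legρ hA N hℓ2 ⟨(legCoordBar N).x, legCoordBar_x_mem_legWE hA N hℓ2⟩

/-- abbreviation for `W₁ = integralClosure 𝒢t (legE K₁ N)` (elaborating the instance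
`Algebra ↥𝒢t ↥(legE K₁ N)` is slow; the abbreviation does it once). -/
noncomputable abbrev legW₁ (N : ℕ) [NeZero N] {K₁ : IntermediateField ℚ Ω}
    (𝒢t : ValuationSubring ↥(↥K₁)⟮legT ↥K₁⟯) : Subalgebra ↥𝒢t ↥(legE ↥K₁ N) :=
  integralClosure ↥𝒢t ↥(legE ↥K₁ N)

section Base

variable (hℓN : ¬ ℓ ∣ N) (hK₁ : IsBase ℓ K₁) (hℓ2 : ℓ ≠ 2)
  [IsDiscreteValuationRing ↥(baseRing A K₁)] {ϖ : ↥(baseRing A K₁)} (hϖ : Irreducible ϖ)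
  (𝒢t : ValuationSubring ↥(↥K₁)⟮legT ↥K₁⟯)
  (h𝒢t : IsGaussAt ↥(baseRing A K₁) ϖ (AdjoinSimple.gen ↥K₁ (legT ↥K₁)) 𝒢t)
  [IsLocalRing ↥(legW₁ N 𝒢t)]

/-- `ψ` of the class of an integral element. -/
theorem legPsi_residue_mk (b : ↥(legW₁ N 𝒢t)) (hW : legBC N K₁ (b : ↥(legE ↥K₁ N)) ∈ legWE hA N hℓ2) :
    legPsi hA N hℓN hK₁ hℓ2 hϖ 𝒢t h𝒢t (residue _ b) =
      legρ hA N hℓ2 ⟨legBC N K₁ (b : ↥(legE ↥K₁ N)), hW⟩ :=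
  legPsi_residue hA N hℓN hK₁ hℓ2 hϖ 𝒢t h𝒢t b

/-- helper8's hypothesis `hψ` for `ψ = legPsi`. -/
theorem legPsi_spec (b : ↥(legE ↥K₁ N)) (hb : IsIntegral ↥𝒢t b) :
    ∃ hW : legBC N K₁ b ∈ legWE hA N hℓ2,
      legPsi hA N hℓN hK₁ hℓ2 hϖ 𝒢t h𝒢t (residue _ ⟨b, hb⟩) =
        legρ hA N hℓ2 ⟨legBC N K₁ b, hW⟩ :=
  ⟨(legPsiHom hA N hℓN hK₁ hℓ2 hϖ 𝒢t h𝒢t ⟨b, hb⟩).2,
    legPsi_residue hA N hℓN hK₁ hℓ2 hϖ 𝒢t h𝒢t ⟨b, hb⟩⟩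

/-- every element of `legE K₁ N` whose base change is Gauss-integral gives a point of the range of
`ψ_{K₁}`. -/
theorem exists_legPsi_eq (b : ↥(legE ↥K₁ N)) (hW : legBC N K₁ b ∈ legWE hA N hℓ2) :
    ∃ y, legPsi hA N hℓN hK₁ hℓ2 hϖ 𝒢t h𝒢t y = legρ hA N hℓ2 ⟨legBC N K₁ b, hW⟩ := by
  have hb := (isIntegral_legE_iff_mem_gaussInt hA N hℓN hK₁ hℓ2 hϖ 𝒢t h𝒢t b).2
    ((legBC_mem_legWE_iff hA N K₁ hℓ2 b).1 hW)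
  exact ⟨residue _ ⟨b, hb⟩, legPsi_residue hA N hℓN hK₁ hℓ2 hϖ 𝒢t h𝒢t ⟨b, hb⟩⟩

/-- `ψ` on the constants. -/
theorem legPsi_gaussConst (r : ↥(baseRing A K₁)) :
    legPsi hA N hℓN hK₁ hℓ2 hϖ 𝒢t h𝒢t
      (residue _ (gaussConst (E := ↥(legE ↥K₁ N)) 𝒢t (fun r => h𝒢t.algebraMap_mem r) r)) =
      algebraMap (ResidueField ↥A) (legEt hA N hℓ2) (o1res A K₁ r) := by
  rw [legPsi_residue]
  have hmem : algebraMap Ω ↥(legE Ω N) ((baseIncl A K₁ r : ↥A) : Ω) ∈ legWE hA N hℓ2 :=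
    (algebraMap_mem_legWE_iff hA N hℓ2 _).2 (baseIncl A K₁ r).2
  have h2 : legPsiHom hA N hℓN hK₁ hℓ2 hϖ 𝒢t h𝒢t
      (gaussConst (E := ↥(legE ↥K₁ N)) 𝒢t (fun r => h𝒢t.algebraMap_mem r) r) =
      ⟨algebraMap Ω ↥(legE Ω N) ((baseIncl A K₁ r : ↥A) : Ω), hmem⟩ := by
    apply Subtype.ext
    rw [coe_legPsiHom, coe_gaussConst]
    rw [IsScalarTower.algebraMap_apply ↥(baseRing A K₁) ↥K₁ ↥(legE ↥K₁ N), legBC_algebraMap]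
    rfl
  rw [h2, legρ_algebraMap]
  rfl

/-- `ψ (t̄_{K₁}) = t̄`. -/
theorem legPsi_geoTb {S : Finset ↥(baseRing A K₁)}
    (hgeo : GeoHyps ↥K₁ (K := ↥(↥K₁)⟮legT ↥K₁⟯) ϖ (AdjoinSimple.gen ↥K₁ (legT ↥K₁))
      ↥(legE ↥K₁ N) N S) :
    haveI : CharZero ↥(baseRing A K₁) := charZero_valuationSubring_of_algebraRat _
    legPsi hA N hℓN hK₁ hℓ2 hϖ 𝒢t h𝒢t (geoTb hgeo 𝒢t h𝒢t) = legTb hA N hℓ2 := by
  haveI : CharZero ↥(baseRing A K₁) := charZero_valuationSubring_of_algebraRat _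
  unfold geoTb
  rw [legPsi_residue]
  unfold legTb
  congr 1

end Base

section Two

variable (hℓN : ¬ ℓ ∣ N) (hℓ2 : ℓ ≠ 2) {K₂ : IntermediateField ℚ Ω}
  (hK₁ : IsBase ℓ K₁) (hK₂ : IsBase ℓ K₂) (h12 : K₁ ≤ K₂)
  [IsDiscreteValuationRing ↥(baseRing A K₁)] {ϖ₁ : ↥(baseRing A K₁)} (hϖ₁ : Irreducible ϖ₁)
  (𝒢₁ : ValuationSubring ↥(↥K₁)⟮legT ↥K₁⟯)
  (h𝒢₁ : IsGaussAt ↥(baseRing A K₁) ϖ₁ (AdjoinSimple.gen ↥K₁ (legT ↥K₁)) 𝒢₁)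
  [IsLocalRing ↥(legW₁ N 𝒢₁)]
  [IsDiscreteValuationRing ↥(baseRing A K₂)] {ϖ₂ : ↥(baseRing A K₂)} (hϖ₂ : Irreducible ϖ₂)
  (𝒢₂ : ValuationSubring ↥(↥K₂)⟮legT ↥K₂⟯)
  (h𝒢₂ : IsGaussAt ↥(baseRing A K₂) ϖ₂ (AdjoinSimple.gen ↥K₂ (legT ↥K₂)) 𝒢₂)
  [IsLocalRing ↥(legW₁ N 𝒢₂)]

set_option maxHeartbeats 1600000 in
include h12 in
/-- the ranges of the comparison maps grow with the base. -/
theorem legPsi_mono (x : ResidueField ↥(legW₁ N 𝒢₁)) :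
    ∃ y, legPsi hA N hℓN hK₂ hℓ2 hϖ₂ 𝒢₂ h𝒢₂ y = legPsi hA N hℓN hK₁ hℓ2 hϖ₁ 𝒢₁ h𝒢₁ x := by
  obtain ⟨b, hb⟩ := IsLocalRing.residue_surjective (R := ↥(legW₁ N 𝒢₁)) x
  rw [← hb, legPsi_residue hA N hℓN hK₁ hℓ2 hϖ₁ 𝒢₁ h𝒢₁ b]
  obtain ⟨hmem, hcoe⟩ := descent_tower_mono (legTower N)
    (fun _ _ _ _ _ _ φ _ hx => coeffMap_mem_legE φ N hx) h12 (b : ↥(legE ↥K₁ N)).2
  have hBC : legBC N K₂ ⟨_, hmem⟩ = legBC N K₁ (b : ↥(legE ↥K₁ N)) := Subtype.ext hcoe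
  have hW : legBC N K₂ ⟨_, hmem⟩ ∈ legWE hA N hℓ2 := by
    rw [hBC]
    exact (legPsiHom hA N hℓN hK₁ hℓ2 hϖ₁ 𝒢₁ h𝒢₁ b).2
  obtain ⟨y, hy⟩ := exists_legPsi_eq hA N hℓN hK₂ hℓ2 hϖ₂ 𝒢₂ h𝒢₂ ⟨_, hmem⟩ hW
  refine ⟨y, hy.trans ?_⟩
  congr 1

end Two

section Surj

variable (hℓN : ¬ ℓ ∣ N) (hK₁ : IsBase ℓ K₁) (hℓ2 : ℓ ≠ 2)
  [IsDiscreteValuationRing ↥(baseRing A K₁)] {ϖ : ↥(baseRing A K₁)} (hϖ : Irreducible ϖ)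
  (𝒢t : ValuationSubring ↥(↥K₁)⟮legT ↥K₁⟯)
  (h𝒢t : IsGaussAt ↥(baseRing A K₁) ϖ (AdjoinSimple.gen ↥K₁ (legT ↥K₁)) 𝒢t)
  [IsLocalRing ↥(legW₁ N 𝒢t)]

include hA hK₁ in
theorem o1res_surjective : Function.Surjective (o1res A K₁) :=
  (hK₁.baseResidueMap_bijective hA).2.comp IsLocalRing.residue_surjective

include hϖ in
theorem o1res_irreducible : o1res A K₁ ϖ = 0 := by
  show baseResidueMap A K₁ (IsLocalRing.residue _ ϖ) = 0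
  rw [(IsLocalRing.residue_eq_zero_iff _).mpr
    ((IsLocalRing.mem_maximalIdeal _).mpr hϖ.not_isUnit), map_zero]

set_option maxHeartbeats 3200000 in
/-- **the comparison map `ψ_{K₁} : Et_{K₁} → Ẽ` is surjective** (hence bijective). -/
theorem legPsi_surjective :
    Function.Surjective (legPsi hA N hℓN hK₁ hℓ2 hϖ 𝒢t h𝒢t) := by
  classical
  intro z
  obtain ⟨w, rfl⟩ := legρ_surjective hA N hℓ2 z
  obtain ⟨K₂, hK₂, h12, -, w₂, hw₂, hw⟩ := IsBase.exists_ge_descent_tower (legTower N)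
    (fun _ _ _ _ _ _ φ _ hx => coeffMap_mem_legE φ N hx)
    (fun _ _ _ _ _ _ φ => legE_le_adjoin_image φ N) hK₁ ∅ (w : ↥(legE Ω N)).2
  haveI := hK₂.isDiscreteValuationRing hA
  haveI : CharZero ↥(baseRing A K₁) := charZero_valuationSubring_of_algebraRat _
  haveI : CharZero ↥(baseRing A K₂) := charZero_valuationSubring_of_algebraRat _
  obtain ⟨ϖ₂, hϖ₂⟩ := IsDiscreteValuationRing.exists_irreducible ↥(baseRing A K₂)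
  have hgeo₁ := geoHyps_legE_baseRing hA N hℓN hK₁ hℓ2 hϖ
  have hgeo₂ := geoHyps_legE_baseRing hA N hℓN hK₂ hℓ2 hϖ₂
  obtain ⟨𝒢₂, h𝒢₂⟩ := exists_isGaussAt ϖ₂ hϖ₂ _ hgeo₂.transcendental hgeo₂.adjoin_eq_top
  haveI : IsLocalRing ↥(legW₁ N 𝒢₂) := hgeo₂.isLocalRing 𝒢₂ h𝒢₂
  have hBC : legBC N K₂ ⟨w₂, hw₂⟩ = (w : ↥(legE Ω N)) := Subtype.ext hw
  have hW : legBC N K₂ ⟨w₂, hw₂⟩ ∈ legWE hA N hℓ2 := by
    rw [hBC]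
    exact w.2
  obtain ⟨y, hy⟩ := exists_legPsi_eq hA N hℓN hK₂ hℓ2 hϖ₂ 𝒢₂ h𝒢₂ ⟨w₂, hw₂⟩ hW
  have hy' : legPsi hA N hℓN hK₂ hℓ2 hϖ₂ 𝒢₂ h𝒢₂ y = legρ hA N hℓ2 w := by
    rw [hy]
    congr 1
    exact Subtype.ext hBC
  obtain ⟨x, hx⟩ := cmp_range_subset hgeo₁ 𝒢t h𝒢t (o1res A K₁) (o1res_surjective hA hK₁)
    (o1res_irreducible hϖ) (legPsi hA N hℓN hK₁ hℓ2 hϖ 𝒢t h𝒢t)
    (legPsi_gaussConst hA N hℓN hK₁ hℓ2 hϖ 𝒢t h𝒢t)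
    hgeo₂ 𝒢₂ h𝒢₂ (o1res A K₂) (o1res_surjective hA hK₂) (o1res_irreducible hϖ₂)
    (legPsi hA N hℓN hK₂ hℓ2 hϖ₂ 𝒢₂ h𝒢₂) (legPsi_gaussConst hA N hℓN hK₂ hℓ2 hϖ₂ 𝒢₂ h𝒢₂)
    ((legPsi_geoTb hA N hℓN hK₁ hℓ2 hϖ 𝒢t h𝒢t hgeo₁).trans
      (legPsi_geoTb hA N hℓN hK₂ hℓ2 hϖ₂ 𝒢₂ h𝒢₂ hgeo₂).symm)
    ((finrank_legE_adjoin_legT_base N K₁).trans (finrank_legE_adjoin_legT_base N K₂).symm)
    (legPsi_mono hA N hℓN hℓ2 hK₁ hK₂ h12 hϖ 𝒢t h𝒢t hϖ₂ 𝒢₂ h𝒢₂) y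
  exact ⟨x, hx.trans hy'⟩

end Surj

section Final

variable (hℓN : ¬ ℓ ∣ N) (hℓ2 : ℓ ≠ 2)

set_option maxHeartbeats 3200000 in
include hℓN in
/-- **`Ẽ / k(t̄)`**: `t̄` is transcendental over `k`, and `Ẽ / k(t̄)` is finite separable of degree
`[E_Ω : Ω(t)]`. -/
theorem legEt_facts :
    Transcendental (ResidueField ↥A) (legTb hA N hℓ2) ∧
      Module.Finite ↥(ResidueField ↥A)⟮legTb hA N hℓ2⟯ (legEt hA N hℓ2) ∧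
      Algebra.IsSeparable ↥(ResidueField ↥A)⟮legTb hA N hℓ2⟯ (legEt hA N hℓ2) ∧
      Module.finrank ↥(ResidueField ↥A)⟮legTb hA N hℓ2⟯ (legEt hA N hℓ2) =
        (legCoordBar N).degree := by
  classical
  have hK₁ : IsBase ℓ (flatBase ℓ) := isBase_flatBase
  haveI := hK₁.isDiscreteValuationRing hA
  haveI : CharZero ↥(baseRing A (flatBase ℓ)) := charZero_valuationSubring_of_algebraRat _
  obtain ⟨ϖ, hϖ⟩ := IsDiscreteValuationRing.exists_irreducible ↥(baseRing A (flatBase ℓ))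
  have hgeo := geoHyps_legE_baseRing hA N hℓN hK₁ hℓ2 hϖ
  obtain ⟨𝒢t, h𝒢t⟩ := exists_isGaussAt ϖ hϖ _ hgeo.transcendental hgeo.adjoin_eq_top
  haveI : IsLocalRing ↥(legW₁ N 𝒢t) := hgeo.isLocalRing 𝒢t h𝒢t
  have hsurj := legPsi_surjective hA N hℓN hK₁ hℓ2 hϖ 𝒢t h𝒢t
  have hτ := legPsi_geoTb hA N hℓN hK₁ hℓ2 hϖ 𝒢t h𝒢t hgeo
  have hres := o1res_surjective hA hK₁
  have hπres := o1res_irreducible (A := A) hϖ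
  have hψk := legPsi_gaussConst hA N hℓN hK₁ hℓ2 hϖ 𝒢t h𝒢t
  have f1 := cmp_transcendental hgeo 𝒢t h𝒢t (o1res A (flatBase ℓ)) hres hπres
    (legPsi hA N hℓN hK₁ hℓ2 hϖ 𝒢t h𝒢t) hψk
  have f2 := cmp_finite_of_surjective hgeo 𝒢t h𝒢t (o1res A (flatBase ℓ)) hres hπres
    (legPsi hA N hℓN hK₁ hℓ2 hϖ 𝒢t h𝒢t) hψk hsurj
  have f3 := cmp_isSeparable_of_surjective hgeo 𝒢t h𝒢t (o1res A (flatBase ℓ)) hres hπres
    (legPsi hA N hℓN hK₁ hℓ2 hϖ 𝒢t h𝒢t) hψk hsurj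
  have f4 := cmp_finrank_of_surjective hgeo 𝒢t h𝒢t (o1res A (flatBase ℓ)) hres hπres
    (legPsi hA N hℓN hK₁ hℓ2 hϖ 𝒢t h𝒢t) hψk hsurj
  rw [hτ] at f1 f2 f3 f4
  rw [finrank_legE_adjoin_legT_base N (flatBase ℓ)] at f4
  exact ⟨f1, f2, f3, f4⟩

/-- **the reduced Legendre coordinate** `t̄` on `Ẽ`. -/
noncomputable def legCoordRed : Coord (ResidueField ↥A) (legEt hA N hℓ2) where
  x := legTb hA N hℓ2
  trans := (legEt_facts hA N hℓN hℓ2).1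
  fin := (legEt_facts hA N hℓN hℓ2).2.1

@[simp] theorem legCoordRed_x : (legCoordRed hA N hℓN hℓ2).x = legTb hA N hℓ2 := rfl

/-- helper8's `hcb`. -/
theorem legCoordRed_x_eq (htW : (legCoordBar N).x ∈ legWE hA N hℓ2) :
    (legCoordRed hA N hℓN hℓ2).x = legρ hA N hℓ2 ⟨(legCoordBar N).x, htW⟩ := rfl

/-- the reduced coordinate is separating. -/
theorem legCoordRed_isSeparable :
    Algebra.IsSeparable ↥(ResidueField ↥A)⟮(legCoordRed hA N hℓN hℓ2).x⟯ (legEt hA N hℓ2) :=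
  (legEt_facts hA N hℓN hℓ2).2.2.1

/-- the degree is preserved by the reduction. -/
theorem legCoordRed_degree :
    (legCoordRed hA N hℓN hℓ2).degree = (legCoordBar N).degree :=
  (legEt_facts hA N hℓN hℓ2).2.2.2

end Final

end LegBij

end Fermat.Agent.FG
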