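/-
FG (S19/S32) — helper6 — [E-RED-a], part 6': **the comparison maps `ψ_{K₁} : Et_{K₁} → Ẽ` are
bijective**, and consequently `Ẽ / k(t̄)` is finite separable of degree `[E_Ω : Ω(t)]`, with `t̄`
transcendental over `k` (Hesse tower, twin of `EDEF_helper6_PsiBij`).
-/
import Mathlib
import Fermat.Agent.FG.EDEF_helper6_Psi
import Fermat.Agent.FG.EDEF_helper6_Res
import Fermat.Agent.FG.EDEF_helper6_Deg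
import Fermat.Agent.FG.EDEF_helper6_PsiBij
import Fermat.Agent.SS.HOSTINT_helper6_Main

set_option autoImplicit false
set_option linter.unusedSectionVars false
set_option linter.style.haveILetI false
set_option synthInstance.maxHeartbeats 400000

open HahnSeries IntermediateField ModularCurve IsLocalRing AlgebraicCurve Polynomial

namespace Fermat.Agent.FG

open Fermat.Agent.JA Fermat.Agent.Igusa Fermat.Agent.SS Fermat.Agent.FF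

open scoped Fermat.Agent.JA.Host

/-- `Ω = AlgebraicClosure ℚ`. -/
local notation "Ω" => AlgebraicClosure ℚ


section HesBij

variable {ℓ : ℕ} [Fact ℓ.Prime] {A : ValuationSubring Ω} (hA : A.LiesOverPrime ℓ)
  (N : ℕ) [NeZero N] {K₁ : IntermediateField ℚ Ω}

include hA in
/-- the Hesse coordinate is `A`-integral. -/
theorem hesT_mem_fracInt (hℓ3 : ℓ ≠ 3) : hesT Ω ∈ fracInt A := by
  have hK₁ : IsBase ℓ (flatBase ℓ) := isBase_flatBase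
  haveI := hK₁.isDiscreteValuationRing hA
  haveI : CharZero ↥(baseRing A (flatBase ℓ)) := charZero_valuationSubring_of_algebraRat _
  have hℓ3' : ¬ ℓ ∣ 3 := fun h =>
    hℓ3 ((Nat.prime_dvd_prime_iff_eq (Fact.out : ℓ.Prime) Nat.prime_three).mp h)
  have h3 : IsUnit (3 : ↥(baseRing A (flatBase ℓ))) := by
    have := isUnit_natCast_baseRing hA (K₁ := flatBase ℓ) hℓ3'
    exact_mod_cast this
  have := coeffMap_mem_fracInt_of_mem_gaussInt (A := A)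
    (hesT_mem_gaussInt ↥(baseRing A (flatBase ℓ)) ↥(flatBase ℓ) h3).1
  rwa [coeffMap_hesT] at this

/-- **`t ∈ W_E`.** -/
theorem hesCoordBar_x_mem_hesWE (hℓ3 : ℓ ≠ 3) : (hesCoordBar N).x ∈ hesWE hA N hℓ3 :=
  (mem_hesWE_iff hA N hℓ3 _).2 (hesT_mem_fracInt hA hℓ3)

/-- **the reduced coordinate `t̄ ∈ Ẽ`.** -/
noncomputable def hesTb (hℓ3 : ℓ ≠ 3) : hesEt hA N hℓ3 :=
  hesρ hA N hℓ3 ⟨(hesCoordBar N).x, hesCoordBar_x_mem_hesWE hA N hℓ3⟩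

/-- abbreviation for `W₁ = integralClosure 𝒢t (hesE K₁ N)` (elaborating the instance
`Algebra ↥𝒢t ↥(hesE K₁ N)` is slow; the abbreviation does it once). -/
noncomputable abbrev hesW₁ (N : ℕ) [NeZero N] {K₁ : IntermediateField ℚ Ω}
    (𝒢t : ValuationSubring ↥(↥K₁)⟮hesT ↥K₁⟯) : Subalgebra ↥𝒢t ↥(hesE ↥K₁ N) :=
  integralClosure ↥𝒢t ↥(hesE ↥K₁ N)

section Base

variable (hℓN : ¬ ℓ ∣ N) (hK₁ : IsBase ℓ K₁) (hℓ3 : ℓ ≠ 3)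
  [IsDiscreteValuationRing ↥(baseRing A K₁)] {ϖ : ↥(baseRing A K₁)} (hϖ : Irreducible ϖ)
  (𝒢t : ValuationSubring ↥(↥K₁)⟮hesT ↥K₁⟯)
  (h𝒢t : IsGaussAt ↥(baseRing A K₁) ϖ (AdjoinSimple.gen ↥K₁ (hesT ↥K₁)) 𝒢t)
  [IsLocalRing ↥(hesW₁ N 𝒢t)]

/-- `ψ` of the class of an integral element. -/
theorem hesPsi_residue_mk (b : ↥(hesW₁ N 𝒢t)) (hW : hesBC N K₁ (b : ↥(hesE ↥K₁ N)) ∈ hesWE hA N hℓ3) :
    hesPsi hA N hℓN hK₁ hℓ3 hϖ 𝒢t h𝒢t (residue _ b) =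
      hesρ hA N hℓ3 ⟨hesBC N K₁ (b : ↥(hesE ↥K₁ N)), hW⟩ :=
  hesPsi_residue hA N hℓN hK₁ hℓ3 hϖ 𝒢t h𝒢t b

/-- helper8's hypothesis `hψ` for `ψ = hesPsi`. -/
theorem hesPsi_spec (b : ↥(hesE ↥K₁ N)) (hb : IsIntegral ↥𝒢t b) :
    ∃ hW : hesBC N K₁ b ∈ hesWE hA N hℓ3,
      hesPsi hA N hℓN hK₁ hℓ3 hϖ 𝒢t h𝒢t (residue _ ⟨b, hb⟩) =
        hesρ hA N hℓ3 ⟨hesBC N K₁ b, hW⟩ :=
  ⟨(hesPsiHom hA N hℓN hK₁ hℓ3 hϖ 𝒢t h𝒢t ⟨b, hb⟩).2,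
    hesPsi_residue hA N hℓN hK₁ hℓ3 hϖ 𝒢t h𝒢t ⟨b, hb⟩⟩

/-- every element of `hesE K₁ N` whose base change is Gauss-integral gives a point of the range of
`ψ_{K₁}`. -/
theorem exists_hesPsi_eq (b : ↥(hesE ↥K₁ N)) (hW : hesBC N K₁ b ∈ hesWE hA N hℓ3) :
    ∃ y, hesPsi hA N hℓN hK₁ hℓ3 hϖ 𝒢t h𝒢t y = hesρ hA N hℓ3 ⟨hesBC N K₁ b, hW⟩ := by
  have hb := (isIntegral_hesE_iff_mem_gaussInt hA N hℓN hK₁ hℓ3 hϖ 𝒢t h𝒢t b).2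
    ((hesBC_mem_hesWE_iff hA N K₁ hℓ3 b).1 hW)
  exact ⟨residue _ ⟨b, hb⟩, hesPsi_residue hA N hℓN hK₁ hℓ3 hϖ 𝒢t h𝒢t ⟨b, hb⟩⟩

/-- `ψ` on the constants. -/
theorem hesPsi_gaussConst (r : ↥(baseRing A K₁)) :
    hesPsi hA N hℓN hK₁ hℓ3 hϖ 𝒢t h𝒢t
      (residue _ (gaussConst (E := ↥(hesE ↥K₁ N)) 𝒢t (fun r => h𝒢t.algebraMap_mem r) r)) =
      algebraMap (ResidueField ↥A) (hesEt hA N hℓ3) (o1res A K₁ r) := by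
  rw [hesPsi_residue]
  have hmem : algebraMap Ω ↥(hesE Ω N) ((baseIncl A K₁ r : ↥A) : Ω) ∈ hesWE hA N hℓ3 :=
    (algebraMap_mem_hesWE_iff hA N hℓ3 _).2 (baseIncl A K₁ r).2
  have h3 : hesPsiHom hA N hℓN hK₁ hℓ3 hϖ 𝒢t h𝒢t
      (gaussConst (E := ↥(hesE ↥K₁ N)) 𝒢t (fun r => h𝒢t.algebraMap_mem r) r) =
      ⟨algebraMap Ω ↥(hesE Ω N) ((baseIncl A K₁ r : ↥A) : Ω), hmem⟩ := by
    apply Subtype.ext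
    rw [coe_hesPsiHom, coe_gaussConst]
    rw [IsScalarTower.algebraMap_apply ↥(baseRing A K₁) ↥K₁ ↥(hesE ↥K₁ N), hesBC_algebraMap]
    rfl
  rw [h3, hesρ_algebraMap]
  rfl

/-- `ψ (t̄_{K₁}) = t̄`. -/
theorem hesPsi_geoTb {S : Finset ↥(baseRing A K₁)}
    (hgeo : GeoHyps ↥K₁ (K := ↥(↥K₁)⟮hesT ↥K₁⟯) ϖ (AdjoinSimple.gen ↥K₁ (hesT ↥K₁))
      ↥(hesE ↥K₁ N) N S) :
    haveI : CharZero ↥(baseRing A K₁) := charZero_valuationSubring_of_algebraRat _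
    hesPsi hA N hℓN hK₁ hℓ3 hϖ 𝒢t h𝒢t (geoTb hgeo 𝒢t h𝒢t) = hesTb hA N hℓ3 := by
  haveI : CharZero ↥(baseRing A K₁) := charZero_valuationSubring_of_algebraRat _
  unfold geoTb
  rw [hesPsi_residue]
  unfold hesTb
  congr 1

end Base

section Two

variable (hℓN : ¬ ℓ ∣ N) (hℓ3 : ℓ ≠ 3) {K₂ : IntermediateField ℚ Ω}
  (hK₁ : IsBase ℓ K₁) (hK₂ : IsBase ℓ K₂) (h12 : K₁ ≤ K₂)
  [IsDiscreteValuationRing ↥(baseRing A K₁)] {ϖ₁ : ↥(baseRing A K₁)} (hϖ₁ : Irreducible ϖ₁)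
  (𝒢₁ : ValuationSubring ↥(↥K₁)⟮hesT ↥K₁⟯)
  (h𝒢₁ : IsGaussAt ↥(baseRing A K₁) ϖ₁ (AdjoinSimple.gen ↥K₁ (hesT ↥K₁)) 𝒢₁)
  [IsLocalRing ↥(hesW₁ N 𝒢₁)]
  [IsDiscreteValuationRing ↥(baseRing A K₂)] {ϖ₂ : ↥(baseRing A K₂)} (hϖ₂ : Irreducible ϖ₂)
  (𝒢₂ : ValuationSubring ↥(↥K₂)⟮hesT ↥K₂⟯)
  (h𝒢₂ : IsGaussAt ↥(baseRing A K₂) ϖ₂ (AdjoinSimple.gen ↥K₂ (hesT ↥K₂)) 𝒢₂)
  [IsLocalRing ↥(hesW₁ N 𝒢₂)]

set_option maxHeartbeats 1600000 in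
include h12 in
/-- the ranges of the comparison maps grow with the base. -/
theorem hesPsi_mono (x : ResidueField ↥(hesW₁ N 𝒢₁)) :
    ∃ y, hesPsi hA N hℓN hK₂ hℓ3 hϖ₂ 𝒢₂ h𝒢₂ y = hesPsi hA N hℓN hK₁ hℓ3 hϖ₁ 𝒢₁ h𝒢₁ x := by
  obtain ⟨b, hb⟩ := IsLocalRing.residue_surjective (R := ↥(hesW₁ N 𝒢₁)) x
  rw [← hb, hesPsi_residue hA N hℓN hK₁ hℓ3 hϖ₁ 𝒢₁ h𝒢₁ b]
  obtain ⟨hmem, hcoe⟩ := descent_tower_mono (hesTower N)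
    (fun _ _ _ _ _ _ φ _ hx => coeffMap_mem_hesE φ N hx) h12 (b : ↥(hesE ↥K₁ N)).2
  have hBC : hesBC N K₂ ⟨_, hmem⟩ = hesBC N K₁ (b : ↥(hesE ↥K₁ N)) := Subtype.ext hcoe
  have hW : hesBC N K₂ ⟨_, hmem⟩ ∈ hesWE hA N hℓ3 := by
    rw [hBC]
    exact (hesPsiHom hA N hℓN hK₁ hℓ3 hϖ₁ 𝒢₁ h𝒢₁ b).2
  obtain ⟨y, hy⟩ := exists_hesPsi_eq hA N hℓN hK₂ hℓ3 hϖ₂ 𝒢₂ h𝒢₂ ⟨_, hmem⟩ hW
  refine ⟨y, hy.trans ?_⟩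
  congr 1

end Two

section Surj

variable (hℓN : ¬ ℓ ∣ N) (hK₁ : IsBase ℓ K₁) (hℓ3 : ℓ ≠ 3)
  [IsDiscreteValuationRing ↥(baseRing A K₁)] {ϖ : ↥(baseRing A K₁)} (hϖ : Irreducible ϖ)
  (𝒢t : ValuationSubring ↥(↥K₁)⟮hesT ↥K₁⟯)
  (h𝒢t : IsGaussAt ↥(baseRing A K₁) ϖ (AdjoinSimple.gen ↥K₁ (hesT ↥K₁)) 𝒢t)
  [IsLocalRing ↥(hesW₁ N 𝒢t)]

set_option maxHeartbeats 3200000 in
/-- **the comparison map `ψ_{K₁} : Et_{K₁} → Ẽ` is surjective** (hence bijective). -/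
theorem hesPsi_surjective :
    Function.Surjective (hesPsi hA N hℓN hK₁ hℓ3 hϖ 𝒢t h𝒢t) := by
  classical
  intro z
  obtain ⟨w, rfl⟩ := hesρ_surjective hA N hℓ3 z
  obtain ⟨K₂, hK₂, h12, -, w₂, hw₂, hw⟩ := IsBase.exists_ge_descent_tower (hesTower N)
    (fun _ _ _ _ _ _ φ _ hx => coeffMap_mem_hesE φ N hx)
    (fun _ _ _ _ _ _ φ => hesE_le_adjoin_image φ N) hK₁ ∅ (w : ↥(hesE Ω N)).2
  haveI := hK₂.isDiscreteValuationRing hA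
  haveI : CharZero ↥(baseRing A K₁) := charZero_valuationSubring_of_algebraRat _
  haveI : CharZero ↥(baseRing A K₂) := charZero_valuationSubring_of_algebraRat _
  obtain ⟨ϖ₂, hϖ₂⟩ := IsDiscreteValuationRing.exists_irreducible ↥(baseRing A K₂)
  obtain ⟨ω₁, -, hgeo₁⟩ := geoHyps_hesE_baseRing hA N hℓN hK₁ hℓ3 hϖ
  obtain ⟨ω₂, -, hgeo₂⟩ := geoHyps_hesE_baseRing hA N hℓN hK₂ hℓ3 hϖ₂
  obtain ⟨𝒢₂, h𝒢₂⟩ := exists_isGaussAt ϖ₂ hϖ₂ _ hgeo₂.transcendental hgeo₂.adjoin_eq_top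
  haveI : IsLocalRing ↥(hesW₁ N 𝒢₂) := hgeo₂.isLocalRing 𝒢₂ h𝒢₂
  have hBC : hesBC N K₂ ⟨w₂, hw₂⟩ = (w : ↥(hesE Ω N)) := Subtype.ext hw
  have hW : hesBC N K₂ ⟨w₂, hw₂⟩ ∈ hesWE hA N hℓ3 := by
    rw [hBC]
    exact w.2
  obtain ⟨y, hy⟩ := exists_hesPsi_eq hA N hℓN hK₂ hℓ3 hϖ₂ 𝒢₂ h𝒢₂ ⟨w₂, hw₂⟩ hW
  have hy' : hesPsi hA N hℓN hK₂ hℓ3 hϖ₂ 𝒢₂ h𝒢₂ y = hesρ hA N hℓ3 w := by
    rw [hy]
    congr 1
    exact Subtype.ext hBC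
  obtain ⟨x, hx⟩ := cmp_range_subset hgeo₁ 𝒢t h𝒢t (o1res A K₁) (o1res_surjective hA hK₁)
    (o1res_irreducible hϖ) (hesPsi hA N hℓN hK₁ hℓ3 hϖ 𝒢t h𝒢t)
    (hesPsi_gaussConst hA N hℓN hK₁ hℓ3 hϖ 𝒢t h𝒢t)
    hgeo₂ 𝒢₂ h𝒢₂ (o1res A K₂) (o1res_surjective hA hK₂) (o1res_irreducible hϖ₂)
    (hesPsi hA N hℓN hK₂ hℓ3 hϖ₂ 𝒢₂ h𝒢₂) (hesPsi_gaussConst hA N hℓN hK₂ hℓ3 hϖ₂ 𝒢₂ h𝒢₂)
    ((hesPsi_geoTb hA N hℓN hK₁ hℓ3 hϖ 𝒢t h𝒢t hgeo₁).trans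
      (hesPsi_geoTb hA N hℓN hK₂ hℓ3 hϖ₂ 𝒢₂ h𝒢₂ hgeo₂).symm)
    ((finrank_hesE_adjoin_hesT_base N K₁).trans (finrank_hesE_adjoin_hesT_base N K₂).symm)
    (hesPsi_mono hA N hℓN hℓ3 hK₁ hK₂ h12 hϖ 𝒢t h𝒢t hϖ₂ 𝒢₂ h𝒢₂) y
  exact ⟨x, hx.trans hy'⟩

end Surj

section Final

variable (hℓN : ¬ ℓ ∣ N) (hℓ3 : ℓ ≠ 3)

set_option maxHeartbeats 3200000 in
include hℓN in
/-- **`Ẽ / k(t̄)`**: `t̄` is transcendental over `k`, and `Ẽ / k(t̄)` is finite separable of degree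
`[E_Ω : Ω(t)]`. -/
theorem hesEt_facts :
    Transcendental (ResidueField ↥A) (hesTb hA N hℓ3) ∧
      Module.Finite ↥(ResidueField ↥A)⟮hesTb hA N hℓ3⟯ (hesEt hA N hℓ3) ∧
      Algebra.IsSeparable ↥(ResidueField ↥A)⟮hesTb hA N hℓ3⟯ (hesEt hA N hℓ3) ∧
      Module.finrank ↥(ResidueField ↥A)⟮hesTb hA N hℓ3⟯ (hesEt hA N hℓ3) =
        (hesCoordBar N).degree := by
  classical
  have hK₁ : IsBase ℓ (flatBase ℓ) := isBase_flatBase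
  haveI := hK₁.isDiscreteValuationRing hA
  haveI : CharZero ↥(baseRing A (flatBase ℓ)) := charZero_valuationSubring_of_algebraRat _
  obtain ⟨ϖ, hϖ⟩ := IsDiscreteValuationRing.exists_irreducible ↥(baseRing A (flatBase ℓ))
  obtain ⟨ω, -, hgeo⟩ := geoHyps_hesE_baseRing hA N hℓN hK₁ hℓ3 hϖ
  obtain ⟨𝒢t, h𝒢t⟩ := exists_isGaussAt ϖ hϖ _ hgeo.transcendental hgeo.adjoin_eq_top
  haveI : IsLocalRing ↥(hesW₁ N 𝒢t) := hgeo.isLocalRing 𝒢t h𝒢t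
  have hsurj := hesPsi_surjective hA N hℓN hK₁ hℓ3 hϖ 𝒢t h𝒢t
  have hτ := hesPsi_geoTb hA N hℓN hK₁ hℓ3 hϖ 𝒢t h𝒢t hgeo
  have hres := o1res_surjective hA hK₁
  have hπres := o1res_irreducible (A := A) hϖ
  have hψk := hesPsi_gaussConst hA N hℓN hK₁ hℓ3 hϖ 𝒢t h𝒢t
  have f1 := cmp_transcendental hgeo 𝒢t h𝒢t (o1res A (flatBase ℓ)) hres hπres
    (hesPsi hA N hℓN hK₁ hℓ3 hϖ 𝒢t h𝒢t) hψk
  have f2 := cmp_finite_of_surjective hgeo 𝒢t h𝒢t (o1res A (flatBase ℓ)) hres hπres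
    (hesPsi hA N hℓN hK₁ hℓ3 hϖ 𝒢t h𝒢t) hψk hsurj
  have f3 := cmp_isSeparable_of_surjective hgeo 𝒢t h𝒢t (o1res A (flatBase ℓ)) hres hπres
    (hesPsi hA N hℓN hK₁ hℓ3 hϖ 𝒢t h𝒢t) hψk hsurj
  have f4 := cmp_finrank_of_surjective hgeo 𝒢t h𝒢t (o1res A (flatBase ℓ)) hres hπres
    (hesPsi hA N hℓN hK₁ hℓ3 hϖ 𝒢t h𝒢t) hψk hsurj
  rw [hτ] at f1 f2 f3 f4
  rw [finrank_hesE_adjoin_hesT_base N (flatBase ℓ)] at f4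
  exact ⟨f1, f2, f3, f4⟩

/-- **the reduced Hesse coordinate** `t̄` on `Ẽ`. -/
noncomputable def hesCoordRed : Coord (ResidueField ↥A) (hesEt hA N hℓ3) where
  x := hesTb hA N hℓ3
  trans := (hesEt_facts hA N hℓN hℓ3).1
  fin := (hesEt_facts hA N hℓN hℓ3).2.1

@[simp] theorem hesCoordRed_x : (hesCoordRed hA N hℓN hℓ3).x = hesTb hA N hℓ3 := rfl

/-- helper8's `hcb`. -/
theorem hesCoordRed_x_eq (htW : (hesCoordBar N).x ∈ hesWE hA N hℓ3) :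
    (hesCoordRed hA N hℓN hℓ3).x = hesρ hA N hℓ3 ⟨(hesCoordBar N).x, htW⟩ := rfl

/-- the reduced coordinate is separating. -/
theorem hesCoordRed_isSeparable :
    Algebra.IsSeparable ↥(ResidueField ↥A)⟮(hesCoordRed hA N hℓN hℓ3).x⟯ (hesEt hA N hℓ3) :=
  (hesEt_facts hA N hℓN hℓ3).2.2.1

/-- the degree is preserved by the reduction. -/
theorem hesCoordRed_degree :
    (hesCoordRed hA N hℓN hℓ3).degree = (hesCoordBar N).degree :=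
  (hesEt_facts hA N hℓN hℓ3).2.2.2

end Final

end HesBij

end Fermat.Agent.FG
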