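/-
FG (S19/S32) — helper6 — [E-RED-a], part 7: **the `GoodRed` fields `deg_gen`, `deg_red`,
`principal_gen`, `principal_red`, `const_gen`, `const_red`** for `E_Ω = legE Ω N` / `hesE Ω N` and
`Ẽ = legEt` / `hesEt`.
-/
import Mathlib
import Fermat.Agent.FG.EDEF_helper6_PsiBijHes
import Fermat.Agent.JA.CONST_helper6
import Fermat.Agent.S35.FINPIC_helper6_Riemann

set_option autoImplicit false
set_option linter.unusedSectionVars false
set_option linter.style.haveILetI false
set_option synthInstance.maxHeartbeats 400000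

open HahnSeries IntermediateField ModularCurve IsLocalRing AlgebraicCurve Polynomial

namespace Fermat.Agent.FG

open Fermat.Agent.JA Fermat.Agent.Igusa Fermat.Agent.SS Fermat.Agent.FF

/-- `Ω = AlgebraicClosure ℚ`. -/
local notation "Ω" => AlgebraicClosure ℚ

section Abs

variable {k F : Type*} [Field k] [Field F] [Algebra k F]

/-- all places have degree one (`k` algebraically closed, ANY characteristic, separating
coordinate). -/
theorem coord_deg_eq_one_of_isSeparable [IsAlgClosed k] (c : Coord k F)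
    (hsep : Algebra.IsSeparable k⟮c.x⟯ F) (v : Place k F) : v.deg = 1 := by
  obtain ⟨i1, i2, i3, i4, i5, i6, i7, -⟩ := exists_typeclass_setting_of_isSeparable c hsep
  exact Fermat.Agent.S35.finpic_deg_eq_one v

/-- principal divisors exist and have degree zero (`k` algebraically closed, ANY characteristic,
separating coordinate). -/
theorem coord_hasPrincipalDivisors_of_isSeparable [IsAlgClosed k] (c : Coord k F)
    (hsep : Algebra.IsSeparable k⟮c.x⟯ F) : HasPrincipalDivisors k F := by
  obtain ⟨i1, i2, i3, i4, i5, i6, i7, -⟩ := exists_typeclass_setting_of_isSeparable c hsep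
  exact Fermat.Agent.S35.hasPrincipalDivisors_TC

end Abs

section Gen

variable (N : ℕ) [NeZero N]

theorem legE_deg_gen (P : Place Ω ↥(legE Ω N)) : P.deg = 1 := bcd_deg_eq_one_legE N P

theorem hesE_deg_gen (P : Place Ω ↥(hesE Ω N)) : P.deg = 1 := bcd_deg_eq_one_hesE N P

theorem legE_principal_gen : HasPrincipalDivisors Ω ↥(legE Ω N) :=
  bcd_hasPrincipalDivisors_legE N

theorem hesE_principal_gen : HasPrincipalDivisors Ω ↥(hesE Ω N) :=
  bcd_hasPrincipalDivisors_hesE N

/-- functions without poles on the generic fibre are constant (Legendre). -/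
theorem legE_const_gen (f : ↥(legE Ω N)) (h : ∀ P : Place Ω ↥(legE Ω N), 0 ≤ P.ord f) :
    ∃ a : Ω, f = algebraMap Ω ↥(legE Ω N) a := by
  haveI := (legCoordBar N).fin
  haveI : CharZero ↥Ω⟮(legCoordBar N).x⟯ := algebraRat.charZero _
  exact const_of_forall_ord_nonneg (legCoordBar N).x (legCoordBar N).trans f
    (fun Q => Or.inr (h Q))

/-- functions without poles on the generic fibre are constant (Hesse). -/
theorem hesE_const_gen (f : ↥(hesE Ω N)) (h : ∀ P : Place Ω ↥(hesE Ω N), 0 ≤ P.ord f) :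
    ∃ a : Ω, f = algebraMap Ω ↥(hesE Ω N) a := by
  haveI := (hesCoordBar N).fin
  haveI : CharZero ↥Ω⟮(hesCoordBar N).x⟯ := algebraRat.charZero _
  exact const_of_forall_ord_nonneg (hesCoordBar N).x (hesCoordBar N).trans f
    (fun Q => Or.inr (h Q))

end Gen

section Red

variable {ℓ : ℕ} [Fact ℓ.Prime] {A : ValuationSubring Ω} (hA : A.LiesOverPrime ℓ)
  (N : ℕ) [NeZero N] (hℓN : ¬ ℓ ∣ N)

include hℓN in
theorem legEt_deg_red (hℓ2 : ℓ ≠ 2) (Q : Place (ResidueField ↥A) (legEt hA N hℓ2)) : Q.deg = 1 :=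
  haveI : IsAlgClosed (ResidueField ↥A) := isAlgClosed_residueField A
  coord_deg_eq_one_of_isSeparable (legCoordRed hA N hℓN hℓ2)
    (legCoordRed_isSeparable hA N hℓN hℓ2) Q

include hℓN in
theorem hesEt_deg_red (hℓ3 : ℓ ≠ 3) (Q : Place (ResidueField ↥A) (hesEt hA N hℓ3)) : Q.deg = 1 :=
  haveI : IsAlgClosed (ResidueField ↥A) := isAlgClosed_residueField A
  coord_deg_eq_one_of_isSeparable (hesCoordRed hA N hℓN hℓ3)
    (hesCoordRed_isSeparable hA N hℓN hℓ3) Q

include hℓN in
theorem legEt_principal_red (hℓ2 : ℓ ≠ 2) :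
    HasPrincipalDivisors (ResidueField ↥A) (legEt hA N hℓ2) :=
  haveI : IsAlgClosed (ResidueField ↥A) := isAlgClosed_residueField A
  coord_hasPrincipalDivisors_of_isSeparable (legCoordRed hA N hℓN hℓ2)
    (legCoordRed_isSeparable hA N hℓN hℓ2)

include hℓN in
theorem hesEt_principal_red (hℓ3 : ℓ ≠ 3) :
    HasPrincipalDivisors (ResidueField ↥A) (hesEt hA N hℓ3) :=
  haveI : IsAlgClosed (ResidueField ↥A) := isAlgClosed_residueField A
  coord_hasPrincipalDivisors_of_isSeparable (hesCoordRed hA N hℓN hℓ3)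
    (hesCoordRed_isSeparable hA N hℓN hℓ3)

include hℓN in
/-- functions without poles on the special fibre are constant (Legendre). -/
theorem legEt_const_red (hℓ2 : ℓ ≠ 2) (f : legEt hA N hℓ2)
    (h : ∀ Q : Place (ResidueField ↥A) (legEt hA N hℓ2), 0 ≤ Q.ord f) :
    ∃ a : ResidueField ↥A, f = algebraMap (ResidueField ↥A) (legEt hA N hℓ2) a := by
  haveI : IsAlgClosed (ResidueField ↥A) := isAlgClosed_residueField A
  obtain ⟨h1, h2, h3, -⟩ := legEt_facts hA N hℓN hℓ2
  exact const_of_forall_ord_nonneg (legTb hA N hℓ2) h1 f (fun Q => Or.inr (h Q))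

include hℓN in
/-- functions without poles on the special fibre are constant (Hesse). -/
theorem hesEt_const_red (hℓ3 : ℓ ≠ 3) (f : hesEt hA N hℓ3)
    (h : ∀ Q : Place (ResidueField ↥A) (hesEt hA N hℓ3), 0 ≤ Q.ord f) :
    ∃ a : ResidueField ↥A, f = algebraMap (ResidueField ↥A) (hesEt hA N hℓ3) a := by
  haveI : IsAlgClosed (ResidueField ↥A) := isAlgClosed_residueField A
  obtain ⟨h1, h2, h3, -⟩ := hesEt_facts hA N hℓN hℓ3
  exact const_of_forall_ord_nonneg (hesTb hA N hℓ3) h1 f (fun Q => Or.inr (h Q))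

end Red

end Fermat.Agent.FG
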