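/-
(T5) for S19 (helper2): Gaussian elimination over a valuation ring.

`A` a valuation subring of a field `Ω`, `V ⊆ Ω^ι` a subspace (`ι` finite).  Then the lattice
`V ∩ A^ι` is free with a basis `v₁, …, v_m` which is an `Ω`-basis of `V` and whose reduction modulo
the maximal ideal is linearly independent over the residue field.

* `exists_integral_basis` (helper5's literal, finding 373 §2).
-/
import Mathlib

set_option autoImplicit false
set_option linter.unusedSectionVars false

namespace Fermat.Agent.FG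

open IsLocalRing

noncomputable section

variable {Ω : Type*} [Field Ω] (A : ValuationSubring Ω) {ι : Type*} [Fintype ι]

/-- the statement of (T5) for a given subspace -/
def HasIntegralBasis (V : Submodule Ω (ι → Ω)) : Prop :=
  ∃ (m : ℕ) (v : Fin m → ι → ↥A),
    LinearIndependent Ω (fun i j => (v i j : Ω)) ∧
    Submodule.span Ω (Set.range fun i j => (v i j : Ω)) = V ∧
    (∀ x ∈ V, (∀ j, x j ∈ A) → ∃ c : Fin m → ↥A, x = ∑ i, (c i : Ω) • fun j => (v i j : Ω)) ∧
    LinearIndependent (ResidueField ↥A) (fun i j => residue ↥A (v i j))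

theorem hasIntegralBasis_bot : HasIntegralBasis A (⊥ : Submodule Ω (ι → Ω)) := by
  refine ⟨0, Fin.elim0, linearIndependent_empty_type, ?_, ?_, linearIndependent_empty_type⟩
  · rw [Set.range_eq_empty, Submodule.span_empty]
  · intro x hx _
    refine ⟨Fin.elim0, ?_⟩
    rw [Submodule.mem_bot] at hx
    rw [hx, Finset.univ_eq_empty, Finset.sum_empty]

/-- every nonzero vector has a multiple with coordinates in `A` and one coordinate equal to `1` -/
theorem exists_normalised_multiple {x : ι → Ω} (hx : x ≠ 0) :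
    ∃ (j₁ : ι) (a : Ω), a ≠ 0 ∧ (∀ j, a * x j ∈ A) ∧ a * x j₁ = 1 := by
  classical
  obtain ⟨j₀, hj₀⟩ : ∃ j, x j ≠ 0 := by
    by_contra h
    push Not at h
    exact hx (funext h)
  obtain ⟨j₁, -, hj₁⟩ := Finset.exists_max_image Finset.univ (fun j => A.valuation (x j))
    ⟨j₀, Finset.mem_univ _⟩
  have hx1 : x j₁ ≠ 0 := by
    intro h0
    have := hj₁ j₀ (Finset.mem_univ _)
    rw [h0, map_zero] at this
    exact hj₀ ((map_eq_zero _).1 (le_antisymm this zero_le))
  refine ⟨j₁, (x j₁)⁻¹, inv_ne_zero hx1, fun j => ?_, inv_mul_cancel₀ hx1⟩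
  rw [← A.valuation_le_one_iff, map_mul, map_inv₀]
  have hv : A.valuation (x j₁) ≠ 0 := (map_ne_zero _).2 hx1
  rw [inv_mul_le_iff₀ (zero_lt_iff.2 hv), mul_one]
  exact hj₁ j (Finset.mem_univ _)

theorem hasIntegralBasis_step {V : Submodule Ω (ι → Ω)} (v₁ : ι → Ω) (hv₁V : v₁ ∈ V)
    (hv₁A : ∀ j, v₁ j ∈ A) (j₁ : ι) (hv₁1 : v₁ j₁ = 1)
    (h : HasIntegralBasis A (V ⊓ LinearMap.ker (LinearMap.proj (R := Ω) (φ := fun _ : ι => Ω) j₁))) :
    HasIntegralBasis A V := by
  classical
  obtain ⟨m, v', hli, hspan, hint, hres⟩ := h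
  set V' := V ⊓ LinearMap.ker (LinearMap.proj (R := Ω) (φ := fun _ : ι => Ω) j₁) with hV'
  have hmemV' : ∀ x, x ∈ V' ↔ x ∈ V ∧ x j₁ = 0 := fun x => by
    rw [hV', Submodule.mem_inf, LinearMap.mem_ker]
    rfl
  have hv'V' : ∀ i, (fun j => (v' i j : Ω)) ∈ V' := fun i => by
    rw [← hspan]
    exact Submodule.subset_span ⟨i, rfl⟩
  have hv'0 : ∀ i, v' i j₁ = 0 := fun i => by
    have := ((hmemV' _).1 (hv'V' i)).2
    exact Subtype.ext this
  set w₁ : ι → ↥A := fun j => ⟨v₁ j, hv₁A j⟩ with hw₁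
  refine ⟨m + 1, Fin.cons w₁ v', ?_, ?_, ?_, ?_⟩
  · have e : (fun (i : Fin (m + 1)) (j : ι) => ((Fin.cons w₁ v' : Fin (m + 1) → ι → ↥A) i j : Ω)) =
        Fin.cons v₁ (fun i j => (v' i j : Ω)) := by
      funext i
      refine Fin.cases ?_ (fun i => ?_) i
      · rfl
      · rfl
    rw [e]
    refine hli.finCons ?_
    rw [hspan]
    intro hmem
    have := ((hmemV' _).1 hmem).2
    rw [hv₁1] at this
    exact one_ne_zero this
  · have e : (Set.range fun (i : Fin (m + 1)) (j : ι) =>
        ((Fin.cons w₁ v' : Fin (m + 1) → ι → ↥A) i j : Ω)) =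
        insert v₁ (Set.range fun i j => (v' i j : Ω)) := by
      ext y
      constructor
      · rintro ⟨i, rfl⟩
        refine Fin.cases ?_ (fun i => ?_) i
        · exact Set.mem_insert _ _
        · exact Set.mem_insert_of_mem _ ⟨i, rfl⟩
      · rintro (rfl | ⟨i, rfl⟩)
        · exact ⟨0, rfl⟩
        · exact ⟨i.succ, rfl⟩
    rw [e, Submodule.span_insert, hspan]
    apply le_antisymm
    · refine sup_le ?_ inf_le_left
      rw [Submodule.span_singleton_le_iff_mem]
      exact hv₁V
    · intro x hx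
      have h1 : x - x j₁ • v₁ ∈ V' := by
        rw [hmemV']
        refine ⟨V.sub_mem hx (V.smul_mem _ hv₁V), ?_⟩
        simp [hv₁1]
      have h2 : x = x j₁ • v₁ + (x - x j₁ • v₁) := by abel
      rw [h2]
      exact Submodule.add_mem_sup (Submodule.mem_span_singleton.2 ⟨x j₁, rfl⟩) h1
  · intro x hx hxA
    have h1 : x - x j₁ • v₁ ∈ V' := by
      rw [hmemV']
      refine ⟨V.sub_mem hx (V.smul_mem _ hv₁V), ?_⟩
      simp [hv₁1]
    have h2 : ∀ j, (x - x j₁ • v₁) j ∈ A := fun j => by
      show x j - x j₁ * v₁ j ∈ A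
      exact sub_mem (hxA j) (A.mul_mem _ _ (hxA j₁) (hv₁A j))
    obtain ⟨c', hc'⟩ := hint _ h1 h2
    refine ⟨Fin.cons ⟨x j₁, hxA j₁⟩ c', ?_⟩
    rw [Fin.sum_univ_succ]
    simp only [Fin.cons_zero, Fin.cons_succ]
    rw [← hc']
    show x = x j₁ • v₁ + (x - x j₁ • v₁)
    abel
  · have e : (fun (i : Fin (m + 1)) (j : ι) =>
        residue ↥A ((Fin.cons w₁ v' : Fin (m + 1) → ι → ↥A) i j)) =
        Fin.cons (fun j => residue ↥A (w₁ j)) (fun i j => residue ↥A (v' i j)) := by
      funext i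
      refine Fin.cases ?_ (fun i => ?_) i
      · rfl
      · rfl
    rw [e]
    refine hres.finCons ?_
    intro hmem
    have h0 : ∀ y ∈ Submodule.span (ResidueField ↥A)
        (Set.range fun i j => residue ↥A (v' i j)), y j₁ = 0 := by
      intro y hy
      induction hy using Submodule.span_induction with
      | mem z hz =>
        obtain ⟨i, rfl⟩ := hz
        show residue ↥A (v' i j₁) = 0
        rw [hv'0, map_zero]
      | zero => rfl
      | add a b _ _ ha hb => rw [Pi.add_apply, ha, hb, add_zero]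
      | smul c a _ ha => rw [Pi.smul_apply, ha, smul_zero]
    have h1 := h0 _ hmem
    have h2 : w₁ j₁ = 1 := Subtype.ext hv₁1
    simp only [h2, map_one] at h1
    exact one_ne_zero h1

/-- **(T5)** Gaussian elimination over a valuation subring -/
theorem exists_integral_basis (V : Submodule Ω (ι → Ω)) :
    ∃ (m : ℕ) (v : Fin m → ι → ↥A),
      LinearIndependent Ω (fun i j => (v i j : Ω)) ∧
      Submodule.span Ω (Set.range fun i j => (v i j : Ω)) = V ∧
      (∀ x ∈ V, (∀ j, x j ∈ A) → ∃ c : Fin m → ↥A, x = ∑ i, (c i : Ω) • fun j => (v i j : Ω)) ∧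
      LinearIndependent (ResidueField ↥A) (fun i j => residue ↥A (v i j)) := by
  show HasIntegralBasis A V
  induction hn : Module.finrank Ω V using Nat.strong_induction_on generalizing V with
  | _ n ih =>
    by_cases hV : V = ⊥
    · rw [hV]
      exact hasIntegralBasis_bot A
    · obtain ⟨x, hxV, hx0⟩ := Submodule.exists_mem_ne_zero_of_ne_bot hV
      obtain ⟨j₁, a, ha, haA, ha1⟩ := exists_normalised_multiple A hx0
      refine hasIntegralBasis_step A (a • x) (V.smul_mem a hxV) haA j₁ ha1 ?_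
      refine ih _ ?_ _ rfl
      rw [← hn]
      refine Submodule.finrank_lt_finrank_of_lt (lt_of_le_of_ne inf_le_left ?_)
      intro heq
      have h1 : a • x ∈ V ⊓ LinearMap.ker (LinearMap.proj (R := Ω) (φ := fun _ : ι => Ω) j₁) := by
        rw [heq]
        exact V.smul_mem a hxV
      have h2 := (Submodule.mem_inf.1 h1).2
      rw [LinearMap.mem_ker] at h2
      have h3 : (a • x) j₁ = 0 := h2
      rw [Pi.smul_apply, smul_eq_mul, ha1] at h3
      exact one_ne_zero h3

end

end Fermat.Agent.FG
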