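/-
FG (S19/S32) — helper5 — **abstract interface: a curve with good reduction** (route (D)).

Everything local at `p` in the proof of S19 is done for an abstract "good reduction datum"
`GoodRed Ω A 𝔽 𝔽b`:

* `Ω` an algebraically closed field of characteristic zero with a valuation subring `A`
  (`Ω = AlgebraicClosure ℚ`, `A` = the valuation ring of `padicPlace p`), `k = A / 𝔪`;
* `𝔽 / Ω` a function field (in the application the Igusa cover `legE Ω N` / `hesE Ω N`),
  `𝔽b / k` the function field of the reduced curve;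
* `W ⊆ 𝔽` the "Gauss" valuation ring, `ρ : W → 𝔽b` the reduction of functions;
* `r : Place Ω 𝔽 → Place k 𝔽b` the reduction of points with `r_*(div y) = div (ρ y)`;
* `g` with Riemann's inequality on the generic fibre and the Riemann–Roch theorem in large
  degree on the special fibre for the SAME `g` (this is "good reduction");
* a rational point `cusp` with an integral uniformizer `τ` which stays a uniformizer mod `𝔪`,
  and an orthogonal basis of `𝔽 / Ω(τ)` (so that norms commute with reduction).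

The deliverables of the packages [LAT], [REFL], [LIFT] are stated here as `Prop`s
(`GoodRed.ChartSpec`, `GoodRed.LiftSpec`) so that all packages code against literal statements.
-/
import Mathlib
import Fermat.Prelude.Def_AlgebraicCurve_Repartitions
import Fermat.Prelude.Def_AlgebraicCurve_BaseChangeGalois

set_option autoImplicit false
set_option linter.unusedSectionVars false
set_option linter.style.haveILetI false

noncomputable section

namespace Fermat.Agent.FG

open AlgebraicCurve IsLocalRing IntermediateField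

/-- Riemann's inequality with constant `g` (and finite-dimensionality of all `L(D)`). -/
def RiemannIneq (K F : Type*) [Field K] [Field F] [Algebra K F] (g : ℕ) : Prop :=
  ∀ D : Divisor K F, Module.Finite K ↥(riemannRochSpace D) ∧
    Divisor.degree D + 1 - (g : ℤ) ≤ (Module.finrank K ↥(riemannRochSpace D) : ℤ)

/-- Riemann–Roch in large degree: `ℓ(D) = deg D + 1 - g` for `deg D ≥ 2g - 1`. -/
def RRLarge (K F : Type*) [Field K] [Field F] [Algebra K F] (g : ℕ) : Prop :=
  ∀ D : Divisor K F, 2 * (g : ℤ) - 1 ≤ Divisor.degree D →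
    Module.Finite K ↥(riemannRochSpace D) ∧
      (Module.finrank K ↥(riemannRochSpace D) : ℤ) = Divisor.degree D + 1 - (g : ℤ)

/-- **A curve with good reduction** (data + axioms).  `Ω ⊇ A` valued field, `𝔽 / Ω` the function
field of the generic fibre, `𝔽b / k` that of the special fibre (`k = A / 𝔪`). -/
structure GoodRed (Ω : Type*) [Field Ω] (A : ValuationSubring Ω)
    (𝔽 : Type*) [Field 𝔽] [Algebra Ω 𝔽]
    (𝔽b : Type*) [Field 𝔽b] [Algebra (ResidueField ↥A) 𝔽b] where
  /-- the Gauss valuation ring of the function field -/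
  W : ValuationSubring 𝔽
  /-- reduction of functions -/
  ρ : ↥W →+* 𝔽b
  ρ_surjective : Function.Surjective ρ
  /-- `W ∩ Ω = A` -/
  algebraMap_mem_iff : ∀ a : Ω, algebraMap Ω 𝔽 a ∈ W ↔ a ∈ A
  /-- `ρ` restricted to `A` is the residue map -/
  ρ_algebraMap : ∀ (a : ↥A) (h : algebraMap Ω 𝔽 (a : Ω) ∈ W),
    ρ ⟨algebraMap Ω 𝔽 (a : Ω), h⟩ = algebraMap (ResidueField ↥A) 𝔽b (residue ↥A a)
  /-- the value group of `W` is that of `A`: every nonzero function is a constant times a
  Gauss unit -/
  exists_smul_unit : ∀ f : 𝔽, f ≠ 0 → ∃ a : Ω, a ≠ 0 ∧ a • f ∈ W ∧ (a • f)⁻¹ ∈ W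
  /-- all points are rational (generic fibre) -/
  deg_gen : ∀ P : Place Ω 𝔽, P.deg = 1
  /-- all points are rational (special fibre) -/
  deg_red : ∀ Q : Place (ResidueField ↥A) 𝔽b, Q.deg = 1
  principal_gen : HasPrincipalDivisors Ω 𝔽
  principal_red : HasPrincipalDivisors (ResidueField ↥A) 𝔽b
  /-- functions without poles are constant (generic fibre) -/
  const_gen : ∀ f : 𝔽, (∀ P : Place Ω 𝔽, 0 ≤ P.ord f) → ∃ a : Ω, f = algebraMap Ω 𝔽 a
  /-- functions without poles are constant (special fibre) -/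
  const_red : ∀ f : 𝔽b, (∀ Q : Place (ResidueField ↥A) 𝔽b, 0 ≤ Q.ord f) →
    ∃ a : ResidueField ↥A, f = algebraMap (ResidueField ↥A) 𝔽b a
  /-- reduction of points -/
  r : Place Ω 𝔽 → Place (ResidueField ↥A) 𝔽b
  /-- **the reduction axiom**: `r_* (div y) = div (ρ y)` for `y ∈ W` with `ρ y ≠ 0` -/
  r_div : ∀ (y : ↥W), ρ y ≠ 0 → ∀ D : Divisor Ω 𝔽, (∀ P, D P = P.ord (y : 𝔽)) →
    ∀ Q, Finsupp.mapDomain r D Q = Q.ord (ρ y)
  /-- the genus -/
  g : ℕ
  /-- Riemann's inequality on the generic fibre -/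
  riemann_gen : RiemannIneq Ω 𝔽 g
  /-- **good reduction in the Riemann–Roch sense**: Riemann–Roch in large degree on the special
  fibre with the SAME `g` -/
  rr_red : RRLarge (ResidueField ↥A) 𝔽b g
  /-- the base point -/
  cusp : Place Ω 𝔽
  /-- an integral uniformizer at the base point -/
  τ : 𝔽
  τ_mem : τ ∈ W
  ord_cusp_τ : cusp.ord τ = 1
  /-- `ρ τ` is a uniformizer at the reduced base point -/
  ord_r_cusp_τ : (r cusp).ord (ρ ⟨τ, τ_mem⟩) = 1
  /-- `τ` has no poles in the residue disc of the base point -/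
  τ_regular : ∀ P : Place Ω 𝔽, r P = r cusp → 0 ≤ P.ord τ
  τ_transcendental : Transcendental Ω τ
  τ_finite : FiniteDimensional ↥Ω⟮τ⟯ 𝔽
  τ_finite_red : FiniteDimensional ↥(ResidueField ↥A)⟮ρ ⟨τ, τ_mem⟩⟯ 𝔽b
  /-- the reduced coordinate is separating -/
  τ_separable_red : Algebra.IsSeparable ↥(ResidueField ↥A)⟮ρ ⟨τ, τ_mem⟩⟯ 𝔽b
  /-- **orthogonal basis**: `d = [𝔽 : Ω(τ)]` integral functions whose reductions are linearly
  independent over `k(ρ τ)` -/
  d : ℕ
  finrank_τ : Module.finrank ↥Ω⟮τ⟯ 𝔽 = d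
  b : Fin d → 𝔽
  b_mem : ∀ i, b i ∈ W
  b_red_indep : LinearIndependent ↥(ResidueField ↥A)⟮ρ ⟨τ, τ_mem⟩⟯
    (fun i => ρ ⟨b i, b_mem i⟩)

namespace GoodRed

variable {Ω : Type*} [Field Ω] {A : ValuationSubring Ω} {𝔽 : Type*} [Field 𝔽] [Algebra Ω 𝔽]
  {𝔽b : Type*} [Field 𝔽b] [Algebra (ResidueField ↥A) 𝔽b] (X : GoodRed Ω A 𝔽 𝔽b)

/-- the reduced uniformizer -/
def τb : 𝔽b := X.ρ ⟨X.τ, X.τ_mem⟩

/-- the reduced base point -/
def cuspb : Place (ResidueField ↥A) 𝔽b := X.r X.cusp

/-- the residue disc of a point of the special fibre -/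
def disc (Q : Place (ResidueField ↥A) 𝔽b) : Set (Place Ω 𝔽) := {P | X.r P = Q}

/-- reduction of divisors -/
def redDiv : Divisor Ω 𝔽 →+ Divisor (ResidueField ↥A) 𝔽b := Finsupp.mapDomain.addMonoidHom X.r

/-- the lattice `𝓛(D) = L(D) ∩ W` -/
def lattice (D : Divisor Ω 𝔽) : Submodule ↥A 𝔽 where
  carrier := {f | f ∈ riemannRochSpace (K := Ω) D ∧ f ∈ X.W}
  zero_mem' := ⟨Submodule.zero_mem _, X.W.zero_mem⟩
  add_mem' := fun hf hg => ⟨Submodule.add_mem _ hf.1 hg.1, X.W.add_mem _ _ hf.2 hg.2⟩
  smul_mem' := fun a f hf => by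
    refine ⟨?_, ?_⟩
    · have : a • f = (a : Ω) • f := rfl
      rw [this]
      exact Submodule.smul_mem _ _ hf.1
    · have : a • f = algebraMap Ω 𝔽 (a : Ω) * f := by
        rw [← Algebra.smul_def]; rfl
      rw [this]
      exact X.W.mul_mem _ _ ((X.algebraMap_mem_iff _).mpr a.2) hf.2

/-- **automorphisms of the good-reduction datum**: semilinear automorphisms of `𝔽 / Ω`
preserving `A`, `W`, the base point, the uniformizer, and compatible with the reduction of
points.  (In the application: the decomposition group at the place `A`.) -/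
structure IsAut (g : SemilinearAut Ω 𝔽) : Prop where
  base_mem : ∀ a : Ω, SemilinearAut.baseAut g a ∈ A ↔ a ∈ A
  smul_mem : ∀ f : 𝔽, g • f ∈ X.W ↔ f ∈ X.W
  smul_τ : g • X.τ = X.τ
  smul_cusp : g • X.cusp = X.cusp
  r_smul : ∀ (P : Place Ω 𝔽) (f : ↥X.W) (hf : g • (f : 𝔽) ∈ X.W),
    X.ρ ⟨g • (f : 𝔽), hf⟩ ∈ (X.r (g • P)).toValuationSubring ↔
      X.ρ f ∈ (X.r P).toValuationSubring

/-- **rational automorphisms**: semilinear automorphisms fixing the base point and the
uniformizer (no condition at `A`).  (In the application: all of `G_ℚ`.)  The canonical bases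
and the polynomial systems of [REFL] are fixed by these, hence have coefficients in the fixed
field. -/
structure IsRatAut (g : SemilinearAut Ω 𝔽) : Prop where
  smul_τ : g • X.τ = X.τ
  smul_cusp : g • X.cusp = X.cusp

end GoodRed

/-- **multivariable Hensel property** of a valuation subring (true for every valuation ring of
an algebraically closed field; proved for `padicPlace p` via `ℂ_p` in [HENS]): a square
polynomial system over `A` whose constant terms lie in `𝔪` and whose Jacobian at `0` is a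
unit has a zero with all coordinates in `𝔪`. -/
def IsMvHenselian {Ω : Type*} [Field Ω] (A : ValuationSubring Ω) : Prop :=
  ∀ (n : ℕ) (G : Fin n → MvPolynomial (Fin n) ↥A),
    (∀ i, MvPolynomial.constantCoeff (G i) ∈ maximalIdeal ↥A) →
    IsUnit (Matrix.det (Matrix.of fun i j =>
      MvPolynomial.constantCoeff (MvPolynomial.pderiv j (G i)))) →
    ∃ x : Fin n → ↥A, (∀ i, x i ∈ maximalIdeal ↥A) ∧ ∀ i, MvPolynomial.eval x (G i) = 0

end Fermat.Agent.FG

end
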