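/-
FG (S19/S32) — helper5 — **reduction of divisor classes for a good-reduction datum, and the
literal deliverables of the packages [REFL] (`GoodRed.Chart`) and [LIFT] (`GoodRed.LiftSpec`).**
-/
import Mathlib
import Fermat.Agent.FG.CURVE_helper5_Def
import Fermat.Agent.FF.PlaceBasic

set_option autoImplicit false
set_option linter.unusedSectionVars false
set_option linter.style.haveILetI false

noncomputable section

namespace Fermat.Agent.FG

open AlgebraicCurve IsLocalRing IntermediateField Fermat.Agent.FF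

namespace GoodRed

variable {Ω : Type*} [Field Ω] {A : ValuationSubring Ω} {𝔽 : Type*} [Field 𝔽] [Algebra Ω 𝔽]
  {𝔽b : Type*} [Field 𝔽b] [Algebra (ResidueField ↥A) 𝔽b] (X : GoodRed Ω A 𝔽 𝔽b)

@[simp]
theorem redDiv_apply (D : Divisor Ω 𝔽) : X.redDiv D = Finsupp.mapDomain X.r D := rfl

theorem degree_redDiv (D : Divisor Ω 𝔽) :
    Divisor.degree (X.redDiv D) = Divisor.degree D := by
  induction D using Finsupp.induction with
  | zero => simp
  | single_add P n D _ _ ih =>
    rw [map_add, map_add, map_add, ih, redDiv_apply, Finsupp.mapDomain_single,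
      Divisor.degree_single, Divisor.degree_single, X.deg_gen, X.deg_red]

/-- a Gauss unit has nonzero reduction -/
theorem ρ_ne_zero_of_inv_mem {f : 𝔽} (hf : f ∈ X.W) (hf' : f⁻¹ ∈ X.W) (h0 : f ≠ 0) :
    X.ρ ⟨f, hf⟩ ≠ 0 := by
  intro h
  have h1 : (⟨f, hf⟩ : ↥X.W) * ⟨f⁻¹, hf'⟩ = 1 := by
    apply Subtype.ext
    show f * f⁻¹ = 1
    exact mul_inv_cancel₀ h0
  have h2 := congrArg X.ρ h1
  rw [map_mul, h, zero_mul, map_one] at h2
  exact zero_ne_one h2

/-- **reduction maps principal divisors to principal divisors.** -/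
theorem redDiv_mem_principal {D : Divisor Ω 𝔽}
    (hD : D ∈ Divisor.principal (K := Ω) (F := 𝔽)) :
    X.redDiv D ∈ Divisor.principal (K := ResidueField ↥A) (F := 𝔽b) := by
  obtain ⟨f, hf, hDf⟩ := hD
  obtain ⟨a, ha, h1, h2⟩ := X.exists_smul_unit f hf
  have haf : a • f ≠ 0 := smul_ne_zero ha hf
  refine ⟨X.ρ ⟨a • f, h1⟩, X.ρ_ne_zero_of_inv_mem h1 h2 haf, fun Q => ?_⟩
  rw [redDiv_apply]
  refine X.r_div ⟨a • f, h1⟩ (X.ρ_ne_zero_of_inv_mem h1 h2 haf) D (fun P => ?_) Q
  rw [hDf P]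
  show P.ord f = P.ord (a • f)
  rw [Algebra.smul_def, P.ord_mul ((map_ne_zero _).mpr ha) hf, PlaceAux.ord_algebraMap, zero_add]

/-- reduction on degree-zero divisors -/
def redDegZero : Divisor.degZero (K := Ω) (F := 𝔽) →+
    Divisor.degZero (K := ResidueField ↥A) (F := 𝔽b) :=
  (X.redDiv.comp (Divisor.degZero (K := Ω) (F := 𝔽)).subtype).codRestrict _ (fun D => by
    rw [Divisor.mem_degZero]
    show Divisor.degree (X.redDiv (D : Divisor Ω 𝔽)) = 0
    rw [X.degree_redDiv]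
    exact D.2)

@[simp]
theorem coe_redDegZero (D : Divisor.degZero (K := Ω) (F := 𝔽)) :
    (X.redDegZero D : Divisor (ResidueField ↥A) 𝔽b) = X.redDiv (D : Divisor Ω 𝔽) := rfl

/-- **reduction of divisor classes** `Pic⁰(𝔽) → Pic⁰(𝔽b)`. -/
def redPic0 : Pic0 Ω 𝔽 →+ Pic0 (ResidueField ↥A) 𝔽b :=
  QuotientAddGroup.map _ _ X.redDegZero (by
    rintro ⟨D, hD0⟩ hD
    simp only [AddSubgroup.mem_addSubgroupOf] at hD ⊢
    exact X.redDiv_mem_principal hD)

theorem redPic0_mk (D : Divisor.degZero (K := Ω) (F := 𝔽)) :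
    X.redPic0 (Pic0.mk D) = Pic0.mk (X.redDegZero D) := rfl

/-- **the kernel of reduction** (the points of the formal group). -/
def kerRed : AddSubgroup (Pic0 Ω 𝔽) := X.redPic0.ker

theorem mem_kerRed {z : Pic0 Ω 𝔽} : z ∈ X.kerRed ↔ X.redPic0 z = 0 := Iff.rfl

/-- **Deliverable of [LAT] + [REFL]: a chart of the kernel of reduction.**
`ι` indexes the `g` coordinates (the Weierstrass gaps of the reduced base point), `y z` are the
coefficients of the normal form of `z`.  The addition law is given implicitly by an étale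
polynomial system `S` (parameters `ι ⊕ ι` = the charts of the two summands, unknowns `κ ⊕ ι` =
auxiliary unknowns and the chart of the sum) with integral coefficients fixed by all rational
automorphisms. -/
structure Chart where
  ι : Type
  [fι : Fintype ι]
  [dι : DecidableEq ι]
  y : ↥X.kerRed → ι → Ω
  y_mem : ∀ z i, y z i ∈ A.nonunits
  y_injective : Function.Injective y
  ker_stable : ∀ g : SemilinearAut Ω 𝔽, X.IsAut g → ∀ z ∈ X.kerRed, g • z ∈ X.kerRed
  y_smul : ∀ (g : SemilinearAut Ω 𝔽) (hg : X.IsAut g) (z : ↥X.kerRed) (i : ι),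
    y ⟨g • (z : Pic0 Ω 𝔽), ker_stable g hg z.1 z.2⟩ i = SemilinearAut.baseAut g (y z i)
  κ : Type
  [fκ : Fintype κ]
  [dκ : DecidableEq κ]
  S : κ ⊕ ι → MvPolynomial ((ι ⊕ ι) ⊕ (κ ⊕ ι)) Ω
  S_int : ∀ j m, MvPolynomial.coeff m (S j) ∈ A
  S_rat : ∀ g : SemilinearAut Ω 𝔽, X.IsRatAut g → ∀ j m,
    SemilinearAut.baseAut g (MvPolynomial.coeff m (S j)) = MvPolynomial.coeff m (S j)
  S_zero : ∀ j, MvPolynomial.constantCoeff (S j) = 0
  S_jac : A.valuation (Matrix.det (Matrix.of fun (j l : κ ⊕ ι) =>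
    MvPolynomial.constantCoeff (MvPolynomial.pderiv (Sum.inr l) (S j)))) = 1
  S_sol : ∀ z z' : ↥X.kerRed, ∃ aux : κ → Ω, (∀ l, aux l ∈ A.nonunits) ∧
    ∀ j, MvPolynomial.eval
      (Sum.elim (Sum.elim (y z) (y z')) (Sum.elim aux (y (z + z')))) (S j) = 0

/-- **Deliverable of [LIFT]**: every class of the special fibre lifts to a class of the generic
fibre which is fixed by all automorphisms of the datum fixing a suitable root of unity of order
prime to the residue characteristic. -/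
def LiftSpec : Prop :=
  ∀ zb : Pic0 (ResidueField ↥A) 𝔽b, ∃ z : Pic0 Ω 𝔽, X.redPic0 z = zb ∧
    ∃ (n : ℕ) (ζ : Ω), ((n : ℕ) : ResidueField ↥A) ≠ 0 ∧ ζ ^ n = 1 ∧
      ∀ g : SemilinearAut Ω 𝔽, X.IsAut g → SemilinearAut.baseAut g ζ = ζ → g • z = z

end GoodRed

end Fermat.Agent.FG

end
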