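/-
FG — helper5 — [LAT-A] (L0): basic facts on the Gauss valuation ring `W` of a good-reduction datum.
-/
import Mathlib
import Fermat.Agent.FG.CURVE_helper5_Red
import Fermat.Agent.JA.ES_helper4_Value

set_option autoImplicit false
set_option linter.unusedSectionVars false
set_option linter.style.haveILetI false

noncomputable section

namespace Fermat.Agent.FG

open AlgebraicCurve IsLocalRing IntermediateField Fermat.Agent.FF Fermat.Agent.JA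

namespace GoodRed

variable {Ω : Type*} [Field Ω] {A : ValuationSubring Ω} {𝔽 : Type*} [Field 𝔽] [Algebra Ω 𝔽]
  {𝔽b : Type*} [Field 𝔽b] [Algebra (ResidueField ↥A) 𝔽b] (X : GoodRed Ω A 𝔽 𝔽b)

theorem algebraMap_mem_W {a : Ω} (ha : a ∈ A) : algebraMap Ω 𝔽 a ∈ X.W :=
  (X.algebraMap_mem_iff a).mpr ha

theorem smul_mem_W {a : Ω} (ha : a ∈ A) {f : 𝔽} (hf : f ∈ X.W) : a • f ∈ X.W := by
  rw [Algebra.smul_def]
  exact X.W.mul_mem _ _ (X.algebraMap_mem_W ha) hf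

/-- `ρ` of a constant. -/
theorem ρ_const (a : ↥A) :
    X.ρ ⟨algebraMap Ω 𝔽 (a : Ω), X.algebraMap_mem_W a.2⟩
      = algebraMap (ResidueField ↥A) 𝔽b (residue ↥A a) :=
  X.ρ_algebraMap a _

theorem ρ_smul (a : ↥A) (f : ↥X.W) :
    X.ρ ⟨(a : Ω) • (f : 𝔽), X.smul_mem_W a.2 f.2⟩ = residue ↥A a • X.ρ f := by
  have h : (⟨(a : Ω) • (f : 𝔽), X.smul_mem_W a.2 f.2⟩ : ↥X.W)
      = ⟨algebraMap Ω 𝔽 (a : Ω), X.algebraMap_mem_W a.2⟩ * f := by
    apply Subtype.ext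
    show (a : Ω) • (f : 𝔽) = algebraMap Ω 𝔽 (a : Ω) * (f : 𝔽)
    rw [Algebra.smul_def]
  rw [h, map_mul, X.ρ_const, Algebra.smul_def]

/-- the kernel of `ρ` is the maximal ideal of `W`. -/
theorem ker_ρ : RingHom.ker X.ρ = maximalIdeal ↥X.W := by
  haveI : (RingHom.ker X.ρ).IsMaximal := RingHom.ker_isMaximal_of_surjective X.ρ X.ρ_surjective
  exact IsLocalRing.eq_maximalIdeal inferInstance

theorem ρ_eq_zero_iff (f : ↥X.W) : X.ρ f = 0 ↔ ¬ IsUnit f := by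
  rw [← RingHom.mem_ker, X.ker_ρ, mem_maximalIdeal, mem_nonunits_iff]

/-- a nonzero element of `W` is a Gauss unit iff its reduction is nonzero. -/
theorem inv_mem_W_iff {f : 𝔽} (hf : f ∈ X.W) (h0 : f ≠ 0) :
    f⁻¹ ∈ X.W ↔ X.ρ ⟨f, hf⟩ ≠ 0 := by
  constructor
  · intro h
    exact X.ρ_ne_zero_of_inv_mem hf h h0
  · intro hρ
    have hu : IsUnit (⟨f, hf⟩ : ↥X.W) := by
      by_contra hnu
      exact hρ ((X.ρ_eq_zero_iff _).mpr hnu)
    obtain ⟨u, hu⟩ := hu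
    have h1 : ((u⁻¹ : (↥X.W)ˣ) : ↥X.W).1 = f⁻¹ := by
      have h2 : ((u : ↥X.W) * ((u⁻¹ : (↥X.W)ˣ) : ↥X.W)).1 = 1 := by
        rw [Units.mul_inv]; rfl
      rw [MulMemClass.coe_mul, hu] at h2
      exact eq_inv_of_mul_eq_one_right h2
    rw [← h1]
    exact Subtype.coe_prop _

theorem ρ_ne_zero_imp_ne_zero {f : 𝔽} (hf : f ∈ X.W) (h : X.ρ ⟨f, hf⟩ ≠ 0) : f ≠ 0 := by
  rintro rfl
  exact h (map_zero X.ρ)

/-- elements of the maximal ideal of `A` (as elements of `Ω`). -/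
theorem mem_nonunits_iff' {a : Ω} : a ∈ A.nonunits ↔ ∃ h : a ∈ A, residue ↥A ⟨a, h⟩ = 0 := by
  constructor
  · intro ha
    have hA : a ∈ A := ValuationSubring.nonunits_le ha
    refine ⟨hA, ?_⟩
    rw [residue_eq_zero_iff]
    exact (ValuationSubring.mem_nonunits_iff_exists_mem_maximalIdeal).mp ha |>.choose_spec
  · rintro ⟨hA, h⟩
    rw [residue_eq_zero_iff] at h
    exact (ValuationSubring.mem_nonunits_iff_exists_mem_maximalIdeal).mpr ⟨hA, h⟩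

/-- **`𝔪_W = 𝔪_A · W`**: a nonzero element of `W` with zero reduction is a non-unit constant
times a Gauss unit. -/
theorem exists_smul_of_ρ_eq_zero {f : 𝔽} (hf : f ∈ X.W) (h0 : f ≠ 0) (hρ : X.ρ ⟨f, hf⟩ = 0) :
    ∃ (a : Ω) (u : 𝔽), a ∈ A.nonunits ∧ a ≠ 0 ∧ u ∈ X.W ∧ u⁻¹ ∈ X.W ∧ f = a • u := by
  obtain ⟨b, hb, h1, h2⟩ := X.exists_smul_unit f h0
  refine ⟨b⁻¹, b • f, ?_, inv_ne_zero hb, h1, h2, ?_⟩
  · -- `b⁻¹` is a non-unit of `A`
    rw [ValuationSubring.mem_nonunits_iff_exists_mem_maximalIdeal]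
    by_contra hcon
    -- then `b ∈ A`
    have hbA : b ∈ A := by
      by_contra hbA
      have hinv : b⁻¹ ∈ A := (A.mem_or_inv_mem b).resolve_left hbA
      apply hcon
      refine ⟨hinv, ?_⟩
      rw [mem_maximalIdeal, mem_nonunits_iff]
      intro hu
      obtain ⟨v, hv⟩ := hu
      apply hbA
      have h3 : ((v⁻¹ : (↥A)ˣ) : ↥A).1 = b := by
        have h4 : ((v : ↥A) * ((v⁻¹ : (↥A)ˣ) : ↥A)).1 = 1 := by
          rw [Units.mul_inv]; rfl
        rw [MulMemClass.coe_mul, hv] at h4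
        have h5 : b⁻¹ * ((v⁻¹ : (↥A)ˣ) : ↥A).1 = 1 := h4
        field_simp at h5
        exact h5
      rw [← h3]
      exact Subtype.coe_prop _
    -- so `ρ (b • f) = b̄ · ρ f = 0`, contradicting that `b • f` is a Gauss unit
    have h3 := X.ρ_smul ⟨b, hbA⟩ ⟨f, hf⟩
    rw [hρ, smul_zero] at h3
    exact X.ρ_ne_zero_of_inv_mem h1 h2 (smul_ne_zero hb h0) h3
  · rw [smul_smul, inv_mul_cancel₀ hb, one_smul]

end GoodRed

end Fermat.Agent.FG

end
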