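/-
FG — helper5 — [LAT-A] (L1), (L2): evaluation commutes with reduction on a residue disc, and the
bijection between a residue disc and `𝔪_A` given by a function which reduces to a uniformizer.
-/
import Mathlib
import Fermat.Agent.FG.LAT_helper5_Gauss

set_option autoImplicit false
set_option linter.unusedSectionVars false
set_option linter.style.haveILetI false

noncomputable section

namespace Fermat.Agent.FG

open AlgebraicCurve IsLocalRing IntermediateField Fermat.Agent.FF Fermat.Agent.JA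
open scoped Classical

namespace GoodRed

variable {Ω : Type*} [Field Ω] {A : ValuationSubring Ω} {𝔽 : Type*} [Field 𝔽] [Algebra Ω 𝔽]
  {𝔽b : Type*} [Field 𝔽b] [Algebra (ResidueField ↥A) 𝔽b] (X : GoodRed Ω A 𝔽 𝔽b)

include X in
/-- the divisor of a nonzero function (generic fibre). -/
theorem exists_div (f : 𝔽) (hf : f ≠ 0) : ∃ D : Divisor Ω 𝔽, ∀ P, D P = P.ord f := by
  haveI := X.principal_gen
  obtain ⟨D, hD, -⟩ := HasPrincipalDivisors.exists_divisor (K := Ω) f hf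
  exact ⟨D, hD⟩

/-- the coefficient of the reduced divisor at `r P₀` is the sum over the residue disc. -/
theorem redDiv_apply_r (D : Divisor Ω 𝔽) (P₀ : Place Ω 𝔽) :
    X.redDiv D (X.r P₀) = ∑ P ∈ D.support with X.r P = X.r P₀, D P := by
  rw [redDiv_apply, Finsupp.mapDomain_apply_eq_sum]

/-- **reduction axiom, disc form**: for `y ∈ W` with `ρ y ≠ 0` the order of `ρ y` at `r P₀` is
the sum of the orders of `y` over the residue disc of `P₀`. -/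
theorem ord_ρ_eq_sum (y : ↥X.W) (hy : X.ρ y ≠ 0) (D : Divisor Ω 𝔽)
    (hD : ∀ P, D P = P.ord (y : 𝔽)) (P₀ : Place Ω 𝔽) :
    (X.r P₀).ord (X.ρ y) = ∑ P ∈ D.support with X.r P = X.r P₀, P.ord (y : 𝔽) := by
  rw [← X.r_div y hy D hD (X.r P₀), ← redDiv_apply, X.redDiv_apply_r]
  exact Finset.sum_congr rfl fun P _ => hD P

/-- regularity on a residue disc -/
def RegularOn (Q : Place (ResidueField ↥A) 𝔽b) (f : 𝔽) : Prop :=
  ∀ P : Place Ω 𝔽, X.r P = Q → f ∈ P.toValuationSubring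

theorem RegularOn.sub_const {Q : Place (ResidueField ↥A) 𝔽b} {f : 𝔽} (h : X.RegularOn Q f)
    (a : Ω) : X.RegularOn Q (f - algebraMap Ω 𝔽 a) := fun P hP =>
  sub_mem (h P hP) (P.algebraMap_mem' a)

theorem RegularOn.ord_nonneg {Q : Place (ResidueField ↥A) 𝔽b} {f : 𝔽} (h : X.RegularOn Q f)
    {P : Place Ω 𝔽} (hP : X.r P = Q) : 0 ≤ P.ord f :=
  PlaceAux.ord_nonneg_of_mem P (h P hP)

/-- key positivity: if `y ∈ W`, `ρ y ≠ 0`, `y` regular on the disc of `P₀` and `y(P₀) = 0`, then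
`ρ y` vanishes at `r P₀`. -/
theorem ord_ρ_pos (y : ↥X.W) (hy : X.ρ y ≠ 0) (P₀ : Place Ω 𝔽)
    (hreg : X.RegularOn (X.r P₀) (y : 𝔽)) (h0 : 0 < P₀.ord (y : 𝔽)) :
    0 < (X.r P₀).ord (X.ρ y) := by
  have hy0 : (y : 𝔽) ≠ 0 := X.ρ_ne_zero_imp_ne_zero y.2 hy
  obtain ⟨D, hD⟩ := X.exists_div (y : 𝔽) hy0
  rw [X.ord_ρ_eq_sum y hy D hD P₀]
  have hmem : P₀ ∈ D.support.filter (fun P => X.r P = X.r P₀) := by
    rw [Finset.mem_filter, Finsupp.mem_support_iff, hD]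
    exact ⟨by omega, rfl⟩
  calc 0 < P₀.ord (y : 𝔽) := h0
    _ ≤ ∑ P ∈ D.support with X.r P = X.r P₀, P.ord (y : 𝔽) :=
      Finset.single_le_sum (f := fun P => P.ord (y : 𝔽))
        (fun P hP => hreg.ord_nonneg X (Finset.mem_filter.mp hP).2) hmem

/-- **(L1) evaluation commutes with reduction**: a function `f ∈ W` which is regular on the
residue disc of `P` has an integral value at `P`, and `ρ f` takes the reduced value at `r P`. -/
theorem exists_value (P : Place Ω 𝔽) (f : ↥X.W) (hreg : X.RegularOn (X.r P) (f : 𝔽)) :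
    ∃ a : ↥A, HasValueAt P (f : 𝔽) (a : Ω) ∧ HasValueAt (X.r P) (X.ρ f) (residue ↥A a) := by
  obtain ⟨c, hc⟩ := HasValueAt.exists_of_mem (X.deg_gen P) (hreg P rfl)
  -- the value is integral
  have hcA : c ∈ A := by
    by_contra hcA
    have hc0 : c ≠ 0 := fun h => hcA (h ▸ A.zero_mem)
    have hinv : c⁻¹ ∈ A := (A.mem_or_inv_mem c).resolve_left hcA
    have hnu : c⁻¹ ∈ A.nonunits := by
      rw [ValuationSubring.mem_nonunits_iff_exists_mem_maximalIdeal]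
      refine ⟨hinv, ?_⟩
      rw [mem_maximalIdeal, mem_nonunits_iff]
      intro hu
      obtain ⟨v, hv⟩ := hu
      apply hcA
      have h3 : ((v⁻¹ : (↥A)ˣ) : ↥A).1 = c := by
        have h4 : ((v : ↥A) * ((v⁻¹ : (↥A)ˣ) : ↥A)).1 = 1 := by
          rw [Units.mul_inv]; rfl
        rw [MulMemClass.coe_mul, hv] at h4
        have h5 : c⁻¹ * ((v⁻¹ : (↥A)ˣ) : ↥A).1 = 1 := h4
        field_simp at h5
        exact h5
      rw [← h3]
      exact Subtype.coe_prop _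
    obtain ⟨_, hres⟩ := (mem_nonunits_iff' (A := A)).mp hnu
    -- `u = 1 - c⁻¹ f`
    have hu_mem : (1 : 𝔽) - c⁻¹ • (f : 𝔽) ∈ X.W :=
      sub_mem X.W.one_mem (X.smul_mem_W hinv f.2)
    have hρu : X.ρ ⟨(1 : 𝔽) - c⁻¹ • (f : 𝔽), hu_mem⟩ = 1 := by
      have : (⟨(1 : 𝔽) - c⁻¹ • (f : 𝔽), hu_mem⟩ : ↥X.W)
          = 1 - ⟨((⟨c⁻¹, hinv⟩ : ↥A) : Ω) • (f : 𝔽), X.smul_mem_W hinv f.2⟩ := rfl
      rw [this, map_sub, map_one, X.ρ_smul, hres, zero_smul, sub_zero]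
    have hval : HasValueAt P ((1 : 𝔽) - c⁻¹ • (f : 𝔽)) 0 := by
      have h1 := (HasValueAt.one' P).sub ((HasValueAt.algebraMap' P c⁻¹).mul hc)
      rw [inv_mul_cancel₀ hc0, sub_self, ← Algebra.smul_def] at h1
      exact h1
    have hregu : X.RegularOn (X.r P) ((1 : 𝔽) - c⁻¹ • (f : 𝔽)) := fun P' hP' => by
      refine sub_mem P'.toValuationSubring.one_mem ?_
      rw [Algebra.smul_def]
      exact P'.toValuationSubring.mul_mem _ _ (P'.algebraMap_mem' _) (hreg P' hP')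
    have hu0 : (1 : 𝔽) - c⁻¹ • (f : 𝔽) ≠ 0 :=
      X.ρ_ne_zero_imp_ne_zero hu_mem (by rw [hρu]; exact one_ne_zero)
    have hpos : 0 < P.ord ((1 : 𝔽) - c⁻¹ • (f : 𝔽)) :=
      (HasValueAt.zero_iff.mp hval).resolve_left hu0
    have := X.ord_ρ_pos ⟨_, hu_mem⟩ (by rw [hρu]; exact one_ne_zero) P hregu hpos
    rw [hρu, Place.ord_one] at this
    exact lt_irrefl _ this
  refine ⟨⟨c, hcA⟩, hc, ?_⟩
  -- the reduced value
  have hmem : (f : 𝔽) - algebraMap Ω 𝔽 c ∈ X.W := sub_mem f.2 (X.algebraMap_mem_W hcA)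
  have hρ : X.ρ ⟨(f : 𝔽) - algebraMap Ω 𝔽 c, hmem⟩
      = X.ρ f - algebraMap (ResidueField ↥A) 𝔽b (residue ↥A ⟨c, hcA⟩) := by
    have : (⟨(f : 𝔽) - algebraMap Ω 𝔽 c, hmem⟩ : ↥X.W)
        = f - ⟨algebraMap Ω 𝔽 ((⟨c, hcA⟩ : ↥A) : Ω), X.algebraMap_mem_W hcA⟩ := rfl
    rw [this, map_sub, X.ρ_const]
  by_cases h0 : X.ρ ⟨(f : 𝔽) - algebraMap Ω 𝔽 c, hmem⟩ = 0
  · rw [hρ, sub_eq_zero] at h0
    exact HasValueAt.of_eq h0
  · have hne : (f : 𝔽) - algebraMap Ω 𝔽 c ≠ 0 := X.ρ_ne_zero_imp_ne_zero hmem h0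
    have hpos : 0 < P.ord ((f : 𝔽) - algebraMap Ω 𝔽 c) :=
      (HasValueAt.iff_ord.mp hc).resolve_left hne
    have := X.ord_ρ_pos ⟨_, hmem⟩ h0 P (hreg.sub_const X c) hpos
    rw [hρ] at this
    exact HasValueAt.of_ord_pos this

/-- **(L2) the disc bijection, existence and uniqueness**: if `f ∈ W` is regular on the residue
disc of `Q` and `ρ f` is a uniformizer at `Q`, then for every `a ∈ 𝔪_A` there is exactly one
point `P` of the disc with `f(P) = a`; moreover `f - a` is a uniformizer at `P`. -/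
theorem existsUnique_mem_disc (Q : Place (ResidueField ↥A) 𝔽b) (f : ↥X.W)
    (hreg : X.RegularOn Q (f : 𝔽)) (hQ : Q.ord (X.ρ f) = 1) {a : Ω} (ha : a ∈ A.nonunits) :
    ∃! P : Place Ω 𝔽, X.r P = Q ∧ HasValueAt P (f : 𝔽) a := by
  obtain ⟨haA, hres⟩ := (mem_nonunits_iff' (A := A)).mp ha
  have hmem : (f : 𝔽) - algebraMap Ω 𝔽 a ∈ X.W := sub_mem f.2 (X.algebraMap_mem_W haA)
  have hρ : X.ρ ⟨(f : 𝔽) - algebraMap Ω 𝔽 a, hmem⟩ = X.ρ f := by
    have : (⟨(f : 𝔽) - algebraMap Ω 𝔽 a, hmem⟩ : ↥X.W)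
        = f - ⟨algebraMap Ω 𝔽 ((⟨a, haA⟩ : ↥A) : Ω), X.algebraMap_mem_W haA⟩ := rfl
    rw [this, map_sub, X.ρ_const, hres, map_zero, sub_zero]
  have hρ0 : X.ρ f ≠ 0 := by
    intro h
    rw [h, Place.ord_zero] at hQ
    exact zero_ne_one hQ
  have hne : (f : 𝔽) - algebraMap Ω 𝔽 a ≠ 0 :=
    X.ρ_ne_zero_imp_ne_zero hmem (by rw [hρ]; exact hρ0)
  obtain ⟨D, hD⟩ := X.exists_div _ hne
  have hregu := hreg.sub_const X a
  -- the sum over the disc is `1`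
  have hsum : ∀ P₀ : Place Ω 𝔽, X.r P₀ = Q →
      ∑ P ∈ D.support with X.r P = X.r P₀, P.ord ((f : 𝔽) - algebraMap Ω 𝔽 a) = 1 := by
    intro P₀ hP₀
    have := X.ord_ρ_eq_sum ⟨_, hmem⟩ (by rw [hρ]; exact hρ0) D hD P₀
    rw [hρ, hP₀, hQ] at this
    rw [hP₀]
    exact this.symm
  -- the disc is nonempty: otherwise the reduced divisor has coefficient `0` at `Q`
  have hex : ∃ P : Place Ω 𝔽, X.r P = Q ∧ 0 < P.ord ((f : 𝔽) - algebraMap Ω 𝔽 a) := by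
    by_contra hcon
    push Not at hcon
    have h1 := X.r_div ⟨_, hmem⟩ (by rw [hρ]; exact hρ0) D hD Q
    rw [hρ, hQ] at h1
    have h2 : Finsupp.mapDomain X.r D Q = 0 := by
      rw [Finsupp.mapDomain, Finsupp.sum_apply]
      refine Finset.sum_eq_zero fun P hP => ?_
      show (Finsupp.single (X.r P) (D P)) Q = 0
      rw [Finsupp.single_apply]
      split_ifs with hPQ
      · have h3 := hcon P hPQ
        have h4 := hregu.ord_nonneg X hPQ
        rw [hD]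
        omega
      · rfl
    omega
  obtain ⟨P₀, hP₀Q, hP₀pos⟩ := hex
  refine ⟨P₀, ⟨hP₀Q, HasValueAt.of_ord_pos hP₀pos⟩, ?_⟩
  rintro P ⟨hPQ, hPval⟩
  by_contra hPne
  have hPpos : 0 < P.ord ((f : 𝔽) - algebraMap Ω 𝔽 a) :=
    (HasValueAt.iff_ord.mp hPval).resolve_left hne
  have hmemP : P ∈ D.support.filter (fun P' => X.r P' = X.r P₀) := by
    rw [Finset.mem_filter, Finsupp.mem_support_iff, hD]
    exact ⟨by omega, hPQ.trans hP₀Q.symm⟩
  have hmemP₀ : P₀ ∈ D.support.filter (fun P' => X.r P' = X.r P₀) := by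
    rw [Finset.mem_filter, Finsupp.mem_support_iff, hD]
    exact ⟨by omega, rfl⟩
  have h2 : P.ord ((f : 𝔽) - algebraMap Ω 𝔽 a) + P₀.ord ((f : 𝔽) - algebraMap Ω 𝔽 a)
      ≤ ∑ P' ∈ D.support with X.r P' = X.r P₀, P'.ord ((f : 𝔽) - algebraMap Ω 𝔽 a) := by
    have hsub : ({P, P₀} : Finset (Place Ω 𝔽)) ⊆ D.support.filter (fun P' => X.r P' = X.r P₀) := by
      intro x hx
      rw [Finset.mem_insert, Finset.mem_singleton] at hx
      rcases hx with rfl | rfl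
      · exact hmemP
      · exact hmemP₀
    have := Finset.sum_le_sum_of_subset_of_nonneg hsub
      (f := fun P' => P'.ord ((f : 𝔽) - algebraMap Ω 𝔽 a))
      (fun P' hP' _ => hregu.ord_nonneg X ((Finset.mem_filter.mp hP').2.trans hP₀Q))
    rwa [Finset.sum_pair hPne] at this
  rw [hsum P₀ hP₀Q] at h2
  omega

/-- in the situation of (L2), `f - a` is a uniformizer at the point. -/
theorem ord_sub_eq_one_of_mem_disc (Q : Place (ResidueField ↥A) 𝔽b) (f : ↥X.W)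
    (hreg : X.RegularOn Q (f : 𝔽)) (hQ : Q.ord (X.ρ f) = 1) {a : Ω} (ha : a ∈ A.nonunits)
    {P : Place Ω 𝔽} (hPQ : X.r P = Q) (hP : HasValueAt P (f : 𝔽) a) :
    P.ord ((f : 𝔽) - algebraMap Ω 𝔽 a) = 1 := by
  obtain ⟨haA, hres⟩ := (mem_nonunits_iff' (A := A)).mp ha
  have hmem : (f : 𝔽) - algebraMap Ω 𝔽 a ∈ X.W := sub_mem f.2 (X.algebraMap_mem_W haA)
  have hρ : X.ρ ⟨(f : 𝔽) - algebraMap Ω 𝔽 a, hmem⟩ = X.ρ f := by
    have : (⟨(f : 𝔽) - algebraMap Ω 𝔽 a, hmem⟩ : ↥X.W)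
        = f - ⟨algebraMap Ω 𝔽 ((⟨a, haA⟩ : ↥A) : Ω), X.algebraMap_mem_W haA⟩ := rfl
    rw [this, map_sub, X.ρ_const, hres, map_zero, sub_zero]
  have hρ0 : X.ρ f ≠ 0 := by
    intro h
    rw [h, Place.ord_zero] at hQ
    exact zero_ne_one hQ
  have hne : (f : 𝔽) - algebraMap Ω 𝔽 a ≠ 0 :=
    X.ρ_ne_zero_imp_ne_zero hmem (by rw [hρ]; exact hρ0)
  obtain ⟨D, hD⟩ := X.exists_div _ hne
  have hregu := hreg.sub_const X a
  have hPpos : 0 < P.ord ((f : 𝔽) - algebraMap Ω 𝔽 a) :=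
    (HasValueAt.iff_ord.mp hP).resolve_left hne
  have h1 := X.ord_ρ_eq_sum ⟨_, hmem⟩ (by rw [hρ]; exact hρ0) D hD P
  rw [hρ, hPQ, hQ] at h1
  have hmemP : P ∈ D.support.filter (fun P' => X.r P' = Q) := by
    rw [Finset.mem_filter, Finsupp.mem_support_iff, hD]
    exact ⟨by omega, hPQ⟩
  have h2 : P.ord ((f : 𝔽) - algebraMap Ω 𝔽 a)
      ≤ ∑ P' ∈ D.support with X.r P' = Q, P'.ord ((f : 𝔽) - algebraMap Ω 𝔽 a) :=
    Finset.single_le_sum (f := fun P' => P'.ord ((f : 𝔽) - algebraMap Ω 𝔽 a))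
      (fun P' hP' => hregu.ord_nonneg X (Finset.mem_filter.mp hP').2) hmemP
  have h3 : (1 : ℤ) = ∑ P' ∈ D.support with X.r P' = Q, P'.ord ((f : 𝔽) - algebraMap Ω 𝔽 a) := h1
  omega

/-- in the situation of (L2), the value of `f` at a point of the disc lies in `𝔪_A`. -/
theorem value_mem_nonunits (Q : Place (ResidueField ↥A) 𝔽b) (f : ↥X.W)
    (hreg : X.RegularOn Q (f : 𝔽)) (hQ : 0 < Q.ord (X.ρ f)) {P : Place Ω 𝔽} (hPQ : X.r P = Q)
    {a : Ω} (hP : HasValueAt P (f : 𝔽) a) : a ∈ A.nonunits := by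
  obtain ⟨a', ha', hred⟩ := X.exists_value P f (hPQ ▸ hreg)
  have haa : a = (a' : Ω) := hP.unique ha'
  rw [hPQ] at hred
  have h0 : HasValueAt Q (X.ρ f) 0 := HasValueAt.of_ord_pos (by rwa [map_zero, sub_zero])
  have hz : residue ↥A a' = 0 := hred.unique h0
  rw [haa]
  exact (mem_nonunits_iff' (A := A)).mpr ⟨a'.2, hz⟩

end GoodRed

end Fermat.Agent.FG

end
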