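/-
FG — helper5 — [LAT-A] generic Laurent expansions (principal parts) at a rational place of a
function field, with respect to a uniformizer `π`:
`f ≡ ∑_{i ≤ m} c_i π^{-i}  (mod functions vanishing at the place)` for `ord f ≥ -m`.
-/
import Mathlib
import Fermat.Agent.JA.ES_helper4_Value

set_option autoImplicit false
set_option linter.unusedSectionVars false
set_option linter.style.haveILetI false

noncomputable section

namespace Fermat.Agent.FG

open AlgebraicCurve Fermat.Agent.FF Fermat.Agent.JA

variable {K F : Type*} [Field K] [Field F] [Algebra K F]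

theorem ordGE_sub {v : Place K F} {n : ℤ} {f g : F} (hf : OrdGE v n f) (hg : OrdGE v n g) :
    OrdGE v n (f - g) := by
  rw [sub_eq_add_neg]
  exact hf.add hg.neg

theorem ordGE_zero_right (v : Place K F) (n : ℤ) : OrdGE v n (0 : F) := Or.inl rfl

theorem ordGE_of_ord {v : Place K F} {n : ℤ} {f : F} (h : n ≤ v.ord f) : OrdGE v n f := Or.inr h

theorem ordGE_algebraMap (v : Place K F) (a : K) : OrdGE v 0 (algebraMap K F a) :=
  Or.inr (by rw [PlaceAux.ord_algebraMap])

theorem ordGE_const_mul {v : Place K F} {n : ℤ} {f : F} (a : K) (hf : OrdGE v n f) :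
    OrdGE v n (algebraMap K F a * f) := by
  have := (ordGE_algebraMap v a).mul hf
  rwa [zero_add] at this

theorem ordGE_sum {ι : Type*} (s : Finset ι) {v : Place K F} {n : ℤ} (f : ι → F)
    (h : ∀ i ∈ s, OrdGE v n (f i)) : OrdGE v n (∑ i ∈ s, f i) := by
  classical
  induction s using Finset.induction_on with
  | empty => simp [ordGE_zero_right]
  | insert a s ha ih =>
    rw [Finset.sum_insert ha]
    exact (h a (Finset.mem_insert_self a s)).add
      (ih fun i hi => h i (Finset.mem_insert_of_mem hi))

theorem ordGE_inv_pow {v : Place K F} {π : F} (hπ : v.ord π = 1) (i : ℕ) :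
    OrdGE v (-(i : ℤ)) (π⁻¹ ^ i) := by
  right
  rw [PlaceAux.ord_pow, v.ord_inv, hπ]
  omega

theorem ord_inv_pow {v : Place K F} {π : F} (hπ : v.ord π = 1) (i : ℕ) :
    v.ord (π⁻¹ ^ i) = -(i : ℤ) := by
  rw [PlaceAux.ord_pow, v.ord_inv, hπ]
  ring

theorem ne_zero_of_ord_eq_one {v : Place K F} {π : F} (hπ : v.ord π = 1) : π ≠ 0 := by
  rintro rfl
  rw [Place.ord_zero] at hπ
  exact zero_ne_one hπ

/-- the Laurent tail `∑_{i ≤ m} c_i π^{-i}`. -/
def laurentTail (π : F) (m : ℕ) (c : ℕ → K) : F :=
  ∑ i ∈ Finset.range (m + 1), algebraMap K F (c i) * π⁻¹ ^ i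

theorem laurentTail_succ (π : F) (m : ℕ) (c : ℕ → K) :
    laurentTail π (m + 1) c = laurentTail π m c + algebraMap K F (c (m + 1)) * π⁻¹ ^ (m + 1) := by
  rw [laurentTail, Finset.sum_range_succ]
  rfl

theorem laurentTail_zero (π : F) (c : ℕ → K) : laurentTail π 0 c = algebraMap K F (c 0) := by
  simp [laurentTail]

theorem ordGE_laurentTail {v : Place K F} {π : F} (hπ : v.ord π = 1) (m : ℕ) (c : ℕ → K) :
    OrdGE v (-(m : ℤ)) (laurentTail π m c) := by
  refine ordGE_sum _ _ fun i hi => ?_
  have hi' : i ≤ m := Nat.lt_succ_iff.mp (Finset.mem_range.mp hi)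
  exact (ordGE_const_mul (c i) (ordGE_inv_pow hπ i)).mono (by omega)

theorem laurentTail_add (π : F) (m : ℕ) (c c' : ℕ → K) :
    laurentTail π m (c + c') = laurentTail π m c + laurentTail π m c' := by
  simp only [laurentTail, Pi.add_apply, map_add, add_mul, Finset.sum_add_distrib]

theorem laurentTail_sub (π : F) (m : ℕ) (c c' : ℕ → K) :
    laurentTail π m (c - c') = laurentTail π m c - laurentTail π m c' := by
  simp only [laurentTail, Pi.sub_apply, map_sub, sub_mul, Finset.sum_sub_distrib]

theorem laurentTail_smul (π : F) (m : ℕ) (a : K) (c : ℕ → K) :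
    laurentTail π m (a • c) = algebraMap K F a * laurentTail π m c := by
  simp only [laurentTail, Pi.smul_apply, smul_eq_mul, map_mul, Finset.mul_sum, mul_assoc]

theorem laurentTail_congr (π : F) (m : ℕ) {c c' : ℕ → K} (h : ∀ i ≤ m, c i = c' i) :
    laurentTail π m c = laurentTail π m c' := by
  refine Finset.sum_congr rfl fun i hi => ?_
  rw [h i (Nat.lt_succ_iff.mp (Finset.mem_range.mp hi))]


theorem laurentTail_succ_of (π : F) (m : ℕ) (c : ℕ → K) (a : K) (c' : ℕ → K)
    (h1 : c' (m + 1) = a) (h2 : ∀ i ≤ m, c' i = c i) :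
    laurentTail π (m + 1) c' = laurentTail π m c + algebraMap K F a * π⁻¹ ^ (m + 1) := by
  rw [laurentTail_succ, h1, laurentTail_congr π m h2]

theorem HasValueAt.ordGE_one {P : Place K F} {f : F} {c : K} (h : HasValueAt P f c) :
    OrdGE P 1 (f - algebraMap K F c) := by
  rcases HasValueAt.iff_ord.mp h with h | h
  · exact Or.inl h
  · exact Or.inr (by omega)

theorem hasValueAt_of_ordGE_one {P : Place K F} {f : F} {c : K}
    (h : OrdGE P 1 (f - algebraMap K F c)) : HasValueAt P f c := by
  rcases h with h | h
  · exact HasValueAt.iff_ord.mpr (Or.inl h)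
  · exact HasValueAt.iff_ord.mpr (Or.inr (by omega))

/-- **existence of the expansion**. -/
theorem exists_laurentTail {v : Place K F} (hdeg : v.deg = 1) {π : F} (hπ : v.ord π = 1) (m : ℕ)
    {f : F} (hf : OrdGE v (-(m : ℤ)) f) : ∃ c : ℕ → K, OrdGE v 1 (f - laurentTail π m c) := by
  have hπ0 := ne_zero_of_ord_eq_one hπ
  induction m generalizing f with
  | zero =>
    have hmem : f ∈ v.toValuationSubring := by
      rw [← ordGE_zero_iff_mem]
      simpa using hf
    obtain ⟨a, ha⟩ := exists_const_sub_ordGE_one v hdeg hmem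
    exact ⟨fun _ => a, by rw [laurentTail_zero]; exact ha⟩
  | succ m ih =>
    -- `g = π^{m+1} f` is regular
    have hg : OrdGE v 0 (π ^ (m + 1) * f) := by
      have h1 : OrdGE v ((m : ℤ) + 1) (π ^ (m + 1)) := by
        right
        rw [PlaceAux.ord_pow, hπ]
        push_cast
        ring_nf
        rfl
      have := h1.mul hf
      refine this.mono ?_
      push_cast
      omega
    have hmem : π ^ (m + 1) * f ∈ v.toValuationSubring := ordGE_zero_iff_mem.mp hg
    obtain ⟨a, ha⟩ := exists_const_sub_ordGE_one v hdeg hmem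
    -- `f - a π^{-(m+1)} = π^{-(m+1)} (g - a)` has order `≥ -m`
    have hf' : OrdGE v (-(m : ℤ)) (f - algebraMap K F a * π⁻¹ ^ (m + 1)) := by
      have h2 : f - algebraMap K F a * π⁻¹ ^ (m + 1)
          = π⁻¹ ^ (m + 1) * (π ^ (m + 1) * f - algebraMap K F a) := by
        rw [inv_pow]
        field_simp
      rw [h2]
      have h3 : OrdGE v 1 (π ^ (m + 1) * f - algebraMap K F a) := ha
      have := (ordGE_inv_pow hπ (m + 1)).mul h3
      refine this.mono ?_
      push_cast
      omega
    obtain ⟨c, hc⟩ := ih hf'
    refine ⟨fun i => if i = m + 1 then a else c i, ?_⟩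
    rw [laurentTail_succ, if_pos rfl]
    have h4 : laurentTail π m (fun i => if i = m + 1 then a else c i) = laurentTail π m c :=
      laurentTail_congr π m fun i hi => by rw [if_neg (by omega)]
    rw [h4]
    have h5 : f - (laurentTail π m c + algebraMap K F a * π⁻¹ ^ (m + 1))
        = f - algebraMap K F a * π⁻¹ ^ (m + 1) - laurentTail π m c := by ring
    rw [h5]
    exact hc

/-- **uniqueness of the expansion**: a Laurent tail vanishing at the place is zero. -/
theorem laurentTail_eq_zero_of_ordGE {v : Place K F} {π : F} (hπ : v.ord π = 1) (m : ℕ)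
    {c : ℕ → K} (h : OrdGE v 1 (laurentTail π m c)) : ∀ i ≤ m, c i = 0 := by
  have hπ0 := ne_zero_of_ord_eq_one hπ
  induction m with
  | zero =>
    intro i hi
    obtain rfl : i = 0 := by omega
    rw [laurentTail_zero] at h
    by_contra hc
    rcases h with h | h
    · exact hc ((map_eq_zero _).mp h)
    · rw [PlaceAux.ord_algebraMap] at h
      omega
  | succ m ih =>
    have hlast : c (m + 1) = 0 := by
      by_contra hc
      rw [laurentTail_succ] at h
      have hterm0 : algebraMap K F (c (m + 1)) * π⁻¹ ^ (m + 1) ≠ 0 :=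
        mul_ne_zero ((map_ne_zero _).mpr hc) (pow_ne_zero _ (inv_ne_zero hπ0))
      have hterm : v.ord (algebraMap K F (c (m + 1)) * π⁻¹ ^ (m + 1)) = -((m : ℤ) + 1) := by
        rw [v.ord_mul ((map_ne_zero _).mpr hc) (pow_ne_zero _ (inv_ne_zero hπ0)),
          PlaceAux.ord_algebraMap, ord_inv_pow hπ]
        push_cast
        ring
      by_cases ht : laurentTail π m c = 0
      · rw [ht, zero_add] at h
        rcases h with h | h
        · exact hterm0 h
        · rw [hterm] at h
          omega
      · have hlt : v.ord (algebraMap K F (c (m + 1)) * π⁻¹ ^ (m + 1)) < v.ord (laurentTail π m c) := by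
          have := (ordGE_laurentTail hπ m c).resolve_left ht
          rw [hterm]
          omega
        have hsum := PlaceAux.ord_add_eq_of_lt v hterm0 ht hlt
        rw [add_comm] at hsum
        have hne : laurentTail π m c + algebraMap K F (c (m + 1)) * π⁻¹ ^ (m + 1) ≠ 0 := by
          intro h0
          have h1 : v.adicValuation (laurentTail π m c + algebraMap K F (c (m + 1)) * π⁻¹ ^ (m + 1))
              = v.adicValuation (algebraMap K F (c (m + 1)) * π⁻¹ ^ (m + 1)) := by
            rw [v.adicValuation_eq_exp_neg_ord hterm0]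
            by_contra hcon
            rw [h0, map_zero] at hcon
            -- use the ord identity instead
            exact hcon (by
              exfalso
              rw [h0, Place.ord_zero, hterm] at hsum
              omega)
          rw [h0, map_zero] at h1
          exact v.adicValuation_ne_zero hterm0 h1.symm
        rcases h with h | h
        · exact hne h
        · rw [hsum, hterm] at h
          omega
    intro i hi
    rcases Nat.lt_or_ge i (m + 1) with hlt | hge
    · refine ih ?_ i (by omega)
      rw [laurentTail_succ, hlast, map_zero, zero_mul, add_zero] at h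
      exact h
    · obtain rfl : i = m + 1 := by omega
      exact hlast

theorem laurentTail_unique {v : Place K F} {π : F} (hπ : v.ord π = 1) (m : ℕ) {f : F}
    {c c' : ℕ → K} (h : OrdGE v 1 (f - laurentTail π m c))
    (h' : OrdGE v 1 (f - laurentTail π m c')) : ∀ i ≤ m, c i = c' i := by
  have h1 : OrdGE v 1 (laurentTail π m (c - c')) := by
    rw [laurentTail_sub]
    have : laurentTail π m c - laurentTail π m c'
        = (f - laurentTail π m c') - (f - laurentTail π m c) := by ring
    rw [this]
    exact ordGE_sub h' h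
  intro i hi
  have := laurentTail_eq_zero_of_ordGE hπ m h1 i hi
  rwa [Pi.sub_apply, sub_eq_zero] at this

end Fermat.Agent.FG

end
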