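/-
FG — helper5 — [LAT-A] (L3): the base point of a good-reduction datum: `τ` is a Gauss unit, the
residue disc of the base point is parametrised by `τ`, and `τ`-expansions of integral functions
are integral and commute with reduction.
-/
import Mathlib
import Fermat.Agent.FG.LAT_helper5_Eval
import Fermat.Agent.FG.LAT_helper5_Expand

set_option autoImplicit false
set_option linter.unusedSectionVars false
set_option linter.style.haveILetI false

noncomputable section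

namespace Fermat.Agent.FG

open AlgebraicCurve IsLocalRing IntermediateField Fermat.Agent.FF Fermat.Agent.JA
open scoped Classical

namespace GoodRed

variable {Ω : Type*} [Field Ω] {A : ValuationSubring Ω} {𝔽 : Type*} [Field 𝔽] [Algebra Ω 𝔽]
  {𝔽b : Type*} [Field 𝔽b] [Algebra (ResidueField ↥A) 𝔽b] (X : GoodRed Ω A 𝔽 𝔽b)

theorem ord_cuspb_τb : X.cuspb.ord X.τb = 1 := X.ord_r_cusp_τ

theorem τ_ne_zero : X.τ ≠ 0 := ne_zero_of_ord_eq_one X.ord_cusp_τ

theorem τb_ne_zero : X.τb ≠ 0 := ne_zero_of_ord_eq_one X.ord_cuspb_τb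

/-- `τ` is a Gauss unit. -/
theorem τ_inv_mem : X.τ⁻¹ ∈ X.W := (X.inv_mem_W_iff X.τ_mem X.τ_ne_zero).mpr X.τb_ne_zero

theorem ρ_τ_inv : X.ρ ⟨X.τ⁻¹, X.τ_inv_mem⟩ = X.τb⁻¹ := by
  have h1 : (⟨X.τ⁻¹, X.τ_inv_mem⟩ : ↥X.W) * ⟨X.τ, X.τ_mem⟩ = 1 := by
    apply Subtype.ext
    show X.τ⁻¹ * X.τ = 1
    exact inv_mul_cancel₀ X.τ_ne_zero
  have h2 := congrArg X.ρ h1
  rw [map_mul, map_one] at h2
  exact eq_inv_of_mul_eq_one_left h2

theorem τ_regularOn : X.RegularOn X.cuspb X.τ := fun P hP =>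
  (PlaceAux.mem_iff_ord_nonneg' P X.τ_ne_zero).mpr (X.τ_regular P hP)

theorem hasValueAt_cusp_τ : HasValueAt X.cusp X.τ 0 :=
  HasValueAt.zero_iff.mpr (Or.inr (by rw [X.ord_cusp_τ]; exact zero_lt_one))

/-- the only zero of `τ` in the residue disc of the base point is the base point. -/
theorem ord_τ_eq_zero_of_ne {P : Place Ω 𝔽} (hP : X.r P = X.cuspb) (hne : P ≠ X.cusp) :
    P.ord X.τ = 0 := by
  by_contra h0
  have hpos : 0 < P.ord X.τ := lt_of_le_of_ne (X.τ_regular P hP) (Ne.symm h0)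
  have hval : HasValueAt P X.τ 0 := HasValueAt.zero_iff.mpr (Or.inr hpos)
  have hu := X.existsUnique_mem_disc X.cuspb ⟨X.τ, X.τ_mem⟩ X.τ_regularOn X.ord_cuspb_τb
    (a := 0) (by
      rw [ValuationSubring.mem_nonunits_iff_exists_mem_maximalIdeal]
      exact ⟨A.zero_mem, Ideal.zero_mem _⟩)
  exact hne (hu.unique ⟨hP, hval⟩ ⟨rfl, X.hasValueAt_cusp_τ⟩)

theorem τ_inv_mem_of_ne {P : Place Ω 𝔽} (hP : X.r P = X.cuspb) (hne : P ≠ X.cusp) :
    X.τ⁻¹ ∈ P.toValuationSubring := by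
  rw [PlaceAux.mem_iff_ord_nonneg' P (inv_ne_zero X.τ_ne_zero), P.ord_inv,
    X.ord_τ_eq_zero_of_ne hP hne]
  simp

/-- **the residue disc of the base point is parametrised by `τ`.** -/
theorem existsUnique_τ_eq {a : Ω} (ha : a ∈ A.nonunits) :
    ∃! P : Place Ω 𝔽, X.r P = X.cuspb ∧ HasValueAt P X.τ a :=
  X.existsUnique_mem_disc X.cuspb ⟨X.τ, X.τ_mem⟩ X.τ_regularOn X.ord_cuspb_τb ha

theorem τ_value_mem_nonunits {P : Place Ω 𝔽} (hP : X.r P = X.cuspb) {a : Ω}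
    (ha : HasValueAt P X.τ a) : a ∈ A.nonunits :=
  X.value_mem_nonunits X.cuspb ⟨X.τ, X.τ_mem⟩ X.τ_regularOn
    (by rw [show X.ρ ⟨X.τ, X.τ_mem⟩ = X.τb from rfl, X.ord_cuspb_τb]; exact zero_lt_one) hP ha

theorem ord_τ_sub_eq_one {P : Place Ω 𝔽} (hP : X.r P = X.cuspb) {a : Ω}
    (ha : HasValueAt P X.τ a) : P.ord (X.τ - algebraMap Ω 𝔽 a) = 1 :=
  X.ord_sub_eq_one_of_mem_disc X.cuspb ⟨X.τ, X.τ_mem⟩ X.τ_regularOn X.ord_cuspb_τb
    (X.τ_value_mem_nonunits hP ha) hP ha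

/-- every point of the disc has a `τ`-value. -/
theorem exists_τ_value {P : Place Ω 𝔽} (hP : X.r P = X.cuspb) :
    ∃ a : Ω, a ∈ A.nonunits ∧ HasValueAt P X.τ a := by
  obtain ⟨a, ha⟩ := HasValueAt.exists_of_mem (X.deg_gen P) (X.τ_regularOn P hP)
  exact ⟨a, X.τ_value_mem_nonunits hP ha, ha⟩

/-- **(L3) integral `τ`-expansions**: if `f ∈ W` and `τ^m f` is regular on the residue disc of the
base point, the `τ`-expansion of `f` up to the constant term has coefficients in `A`, and their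
reductions give the `τb`-expansion of `ρ f` at the reduced base point. -/
theorem exists_integral_expansion (m : ℕ) (f : ↥X.W)
    (hreg : X.RegularOn X.cuspb (X.τ ^ m * (f : 𝔽))) :
    ∃ c : ℕ → ↥A, OrdGE X.cusp 1 ((f : 𝔽) - laurentTail X.τ m (fun i => (c i : Ω))) ∧
      OrdGE X.cuspb 1 (X.ρ f - laurentTail X.τb m (fun i => residue ↥A (c i))) := by
  induction m generalizing f with
  | zero =>
    have hreg' : X.RegularOn (X.r X.cusp) (f : 𝔽) := fun P hP => by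
      have := hreg P hP
      simpa using this
    obtain ⟨a, ha, hab⟩ := X.exists_value X.cusp f hreg'
    refine ⟨fun _ => a, ?_, ?_⟩
    · rw [laurentTail_zero]
      exact HasValueAt.ordGE_one ha
    · rw [laurentTail_zero]
      exact HasValueAt.ordGE_one hab
  | succ m ih =>
    -- `g = τ^{m+1} f`
    have hgmem : X.τ ^ (m + 1) * (f : 𝔽) ∈ X.W := X.W.mul_mem _ _ (X.W.pow_mem X.τ_mem _) f.2
    obtain ⟨a, ha, hab⟩ := X.exists_value X.cusp ⟨_, hgmem⟩ hreg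
    -- `f₁ = f - a τ^{-(m+1)}`
    have hterm : algebraMap Ω 𝔽 (a : Ω) * X.τ⁻¹ ^ (m + 1) ∈ X.W :=
      X.W.mul_mem _ _ (X.algebraMap_mem_W a.2) (X.W.pow_mem X.τ_inv_mem _)
    have hf₁mem : (f : 𝔽) - algebraMap Ω 𝔽 (a : Ω) * X.τ⁻¹ ^ (m + 1) ∈ X.W := sub_mem f.2 hterm
    have hkey : X.τ ^ m * ((f : 𝔽) - algebraMap Ω 𝔽 (a : Ω) * X.τ⁻¹ ^ (m + 1))
        = X.τ⁻¹ * (X.τ ^ (m + 1) * (f : 𝔽) - algebraMap Ω 𝔽 (a : Ω)) := by
      have := X.τ_ne_zero
      rw [inv_pow]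
      field_simp
      ring
    have hreg₁ : X.RegularOn X.cuspb
        (X.τ ^ m * ((f : 𝔽) - algebraMap Ω 𝔽 (a : Ω) * X.τ⁻¹ ^ (m + 1))) := by
      intro P hP
      rw [hkey]
      by_cases hPc : P = X.cusp
      · subst hPc
        rw [← ordGE_zero_iff_mem]
        have h1 : OrdGE X.cusp 1 (X.τ ^ (m + 1) * (f : 𝔽) - algebraMap Ω 𝔽 (a : Ω)) :=
          HasValueAt.ordGE_one ha
        have h2 : OrdGE X.cusp (-1) X.τ⁻¹ := Or.inr (by rw [Place.ord_inv, X.ord_cusp_τ])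
        have := h2.mul h1
        simpa using this
      · exact P.toValuationSubring.mul_mem _ _ (X.τ_inv_mem_of_ne hP hPc)
          (sub_mem (hreg P hP) (P.algebraMap_mem' _))
    obtain ⟨c, hc1, hc2⟩ := ih ⟨_, hf₁mem⟩ hreg₁
    refine ⟨fun i => if i = m + 1 then a else c i, ?_, ?_⟩
    · have e := laurentTail_succ_of X.τ m (fun i => (c i : Ω)) (a : Ω)
        (fun i => (((if i = m + 1 then a else c i : ↥A)) : Ω)) (by simp)
        (fun i hi => by
          show (((if i = m + 1 then a else c i : ↥A)) : Ω) = (c i : Ω)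
          rw [if_neg (by omega)])
      rw [e]
      have h5 : (f : 𝔽) - (laurentTail X.τ m (fun i => (c i : Ω))
            + algebraMap Ω 𝔽 (a : Ω) * X.τ⁻¹ ^ (m + 1))
          = ((f : 𝔽) - algebraMap Ω 𝔽 (a : Ω) * X.τ⁻¹ ^ (m + 1))
            - laurentTail X.τ m (fun i => (c i : Ω)) := by ring
      rw [h5]
      exact hc1
    · have e := laurentTail_succ_of X.τb m (fun i => residue ↥A (c i)) (residue ↥A a)
        (fun i => residue ↥A (if i = m + 1 then a else c i)) (by simp)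
        (fun i hi => by
          show residue ↥A (if i = m + 1 then a else c i) = residue ↥A (c i)
          rw [if_neg (by omega)])
      rw [e]
      -- `ρ f₁ = ρ f - ā τb^{-(m+1)}`
      have hρ₁ : X.ρ ⟨_, hf₁mem⟩ = X.ρ f
          - algebraMap (ResidueField ↥A) 𝔽b (residue ↥A a) * X.τb⁻¹ ^ (m + 1) := by
        have : (⟨_, hf₁mem⟩ : ↥X.W) = f - ⟨algebraMap Ω 𝔽 (a : Ω), X.algebraMap_mem_W a.2⟩
            * ⟨X.τ⁻¹, X.τ_inv_mem⟩ ^ (m + 1) := rfl
        rw [this, map_sub, map_mul, map_pow, X.ρ_const, X.ρ_τ_inv]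
      rw [hρ₁] at hc2
      have h5 : X.ρ f - (laurentTail X.τb m (fun i => residue ↥A (c i))
            + algebraMap (ResidueField ↥A) 𝔽b (residue ↥A a) * X.τb⁻¹ ^ (m + 1))
          = (X.ρ f - algebraMap (ResidueField ↥A) 𝔽b (residue ↥A a) * X.τb⁻¹ ^ (m + 1))
            - laurentTail X.τb m (fun i => residue ↥A (c i)) := by ring
      rw [h5]
      exact hc2

end GoodRed

end Fermat.Agent.FG

end
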