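/-
FG — helper5 — [LAT-B] generic: the space `L(m·P)` of functions with a pole of order `≤ m` at a
rational place `P` and no other poles, and the principal-part map
`pp : L(m·P) → K^{m+1}`, `f ↦ (c_0, …, c_m)` with `f ≡ ∑ c_i π^{-i}` modulo functions vanishing
at `P`; it is linear and (when regular functions are constant) injective.
-/
import Mathlib
import Fermat.Agent.FG.LAT_helper5_Expand

set_option autoImplicit false
set_option linter.unusedSectionVars false
set_option linter.style.haveILetI false

noncomputable section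

namespace Fermat.Agent.FG

open AlgebraicCurve Fermat.Agent.FF Fermat.Agent.JA

variable {K F : Type*} [Field K] [Field F] [Algebra K F]

/-- `L(m·P)`. -/
def poleSpace (P : Place K F) (m : ℕ) : Submodule K F :=
  riemannRochSpace (K := K) (Finsupp.single P (m : ℤ))

theorem mem_poleSpace_iff {P : Place K F} {m : ℕ} {f : F} :
    f ∈ poleSpace P m ↔ OrdGE P (-(m : ℤ)) f ∧ ∀ Q : Place K F, Q ≠ P → OrdGE Q 0 f := by
  classical
  rw [poleSpace, mem_riemannRochSpace_iff]
  constructor
  · intro h
    refine ⟨?_, fun Q hQ => ?_⟩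
    · have := h P
      rwa [Finsupp.single_eq_same] at this
    · have := h Q
      rwa [Finsupp.single_eq_of_ne hQ, neg_zero] at this
  · rintro ⟨h1, h2⟩ Q
    by_cases hQ : Q = P
    · subst hQ
      rwa [Finsupp.single_eq_same]
    · rw [Finsupp.single_eq_of_ne hQ, neg_zero]
      exact h2 Q hQ

theorem poleSpace_mono (P : Place K F) {m n : ℕ} (h : m ≤ n) : poleSpace P m ≤ poleSpace P n := by
  intro f hf
  rw [mem_poleSpace_iff] at hf ⊢
  exact ⟨hf.1.mono (by omega), hf.2⟩

theorem algebraMap_mem_poleSpace (P : Place K F) (m : ℕ) (a : K) :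
    algebraMap K F a ∈ poleSpace P m := by
  rw [mem_poleSpace_iff]
  exact ⟨(ordGE_algebraMap P a).mono (by omega), fun Q _ => ordGE_algebraMap Q a⟩

section PP

variable (P : Place K F) (hdeg : P.deg = 1) (π : F) (hπ : P.ord π = 1) (m : ℕ)

/-- the coefficients of the Laurent tail of `f` (junk `0` if `ord f < -m`). -/
def ppFun (f : F) : ℕ → K :=
  open Classical in
  if h : OrdGE P (-(m : ℤ)) f then (exists_laurentTail hdeg hπ m h).choose else 0

theorem ppFun_spec {f : F} (h : OrdGE P (-(m : ℤ)) f) :
    OrdGE P 1 (f - laurentTail π m (ppFun P hdeg π hπ m f)) := by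
  unfold ppFun
  rw [dif_pos h]
  exact (exists_laurentTail hdeg hπ m h).choose_spec

theorem ppFun_eq {f : F} {c : ℕ → K} (h : OrdGE P 1 (f - laurentTail π m c)) :
    ∀ i ≤ m, ppFun P hdeg π hπ m f i = c i := by
  have hf : OrdGE P (-(m : ℤ)) f := by
    have h1 : f = (f - laurentTail π m c) + laurentTail π m c := by ring
    rw [h1]
    exact (h.mono (by omega)).add (ordGE_laurentTail hπ m c)
  exact laurentTail_unique hπ m (ppFun_spec P hdeg π hπ m hf) h

/-- **the principal part map** `L(m·P) → K^{m+1}`. -/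
def ppMap : ↥(poleSpace P m) →ₗ[K] (Fin (m + 1) → K) where
  toFun f := fun i => ppFun P hdeg π hπ m (f : F) i
  map_add' f g := by
    funext i
    have hf := ppFun_spec P hdeg π hπ m ((mem_poleSpace_iff.mp f.2).1)
    have hg := ppFun_spec P hdeg π hπ m ((mem_poleSpace_iff.mp g.2).1)
    have h : OrdGE P 1 (((f : F) + (g : F)) - laurentTail π m
        (ppFun P hdeg π hπ m (f : F) + ppFun P hdeg π hπ m (g : F))) := by
      rw [laurentTail_add]
      have : ((f : F) + (g : F)) - (laurentTail π m (ppFun P hdeg π hπ m (f : F))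
          + laurentTail π m (ppFun P hdeg π hπ m (g : F)))
          = ((f : F) - laurentTail π m (ppFun P hdeg π hπ m (f : F)))
            + ((g : F) - laurentTail π m (ppFun P hdeg π hπ m (g : F))) := by ring
      rw [this]
      exact hf.add hg
    exact ppFun_eq P hdeg π hπ m h i (Nat.lt_succ_iff.mp i.2)
  map_smul' a f := by
    funext i
    have hf := ppFun_spec P hdeg π hπ m ((mem_poleSpace_iff.mp f.2).1)
    have h : OrdGE P 1 ((a • (f : F)) - laurentTail π m (a • ppFun P hdeg π hπ m (f : F))) := by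
      rw [laurentTail_smul, Algebra.smul_def, ← mul_sub]
      exact ordGE_const_mul a hf
    exact ppFun_eq P hdeg π hπ m h i (Nat.lt_succ_iff.mp i.2)

theorem ppMap_apply (f : ↥(poleSpace P m)) (i : Fin (m + 1)) :
    ppMap P hdeg π hπ m f i = ppFun P hdeg π hπ m (f : F) i := rfl

/-- characterisation of the principal part. -/
theorem ppMap_eq_of_ordGE (f : ↥(poleSpace P m)) {c : ℕ → K}
    (h : OrdGE P 1 ((f : F) - laurentTail π m c)) (i : Fin (m + 1)) :
    ppMap P hdeg π hπ m f i = c i :=
  ppFun_eq P hdeg π hπ m h i (Nat.lt_succ_iff.mp i.2)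

theorem ppMap_spec (f : ↥(poleSpace P m)) :
    OrdGE P 1 ((f : F) - laurentTail π m (ppFun P hdeg π hπ m (f : F))) :=
  ppFun_spec P hdeg π hπ m ((mem_poleSpace_iff.mp f.2).1)

/-- the Laurent tail attached to a vector of `K^{m+1}`. -/
def tailOfVec (c : Fin (m + 1) → K) : ℕ → K := fun i => if h : i < m + 1 then c ⟨i, h⟩ else 0

theorem tailOfVec_apply (c : Fin (m + 1) → K) (i : Fin (m + 1)) : tailOfVec m c i = c i := by
  unfold tailOfVec
  rw [dif_pos i.2]

theorem ppMap_spec' (f : ↥(poleSpace P m)) :
    OrdGE P 1 ((f : F) - laurentTail π m (tailOfVec m (ppMap P hdeg π hπ m f))) := by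
  have h := ppMap_spec P hdeg π hπ m f
  have e : laurentTail π m (tailOfVec m (ppMap P hdeg π hπ m f))
      = laurentTail π m (ppFun P hdeg π hπ m (f : F)) :=
    laurentTail_congr π m fun i hi => by
      rw [tailOfVec, dif_pos (Nat.lt_succ_of_le hi)]
      rfl
  rw [e]
  exact h

/-- **the principal part map is injective** when functions without poles are constant. -/
theorem ppMap_injective
    (hconst : ∀ f : F, (∀ Q : Place K F, 0 ≤ Q.ord f) → ∃ a : K, f = algebraMap K F a) :
    Function.Injective (ppMap P hdeg π hπ m) := by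
  rw [← LinearMap.ker_eq_bot, LinearMap.ker_eq_bot']
  intro f hf
  have h := ppMap_spec' P hdeg π hπ m f
  rw [hf] at h
  have hz : laurentTail π m (tailOfVec m (0 : Fin (m + 1) → K)) = 0 := by
    unfold laurentTail tailOfVec
    refine Finset.sum_eq_zero fun i _ => ?_
    split_ifs <;> simp
  rw [hz, sub_zero] at h
  -- `f` vanishes at `P` and has no poles
  apply Subtype.ext
  show (f : F) = 0
  by_contra hf0
  have hP : 1 ≤ P.ord (f : F) := h.resolve_left hf0
  have hreg : ∀ Q : Place K F, 0 ≤ Q.ord (f : F) := fun Q => by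
    by_cases hQ : Q = P
    · subst hQ; omega
    · exact ((mem_poleSpace_iff.mp f.2).2 Q hQ).resolve_left hf0
  obtain ⟨a, ha⟩ := hconst (f : F) hreg
  rw [ha, PlaceAux.ord_algebraMap] at hP
  omega

end PP

end Fermat.Agent.FG

end
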