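/-
FG — helper5 — [LAT-B] (L4): the lattice `𝓛(m∞) = L(m∞) ∩ W` at the base point of a good-reduction
datum: principal parts of integral functions are integral and commute with reduction; a function
of `L(m∞)` with integral principal part is integral (the principal part map is an isometry).
-/
import Mathlib
import Fermat.Agent.FG.LAT_helper5_Cusp
import Fermat.Agent.FG.LAT_helper5_PP

set_option autoImplicit false
set_option linter.unusedSectionVars false
set_option linter.style.haveILetI false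

noncomputable section

namespace Fermat.Agent.FG

open AlgebraicCurve IsLocalRing IntermediateField Fermat.Agent.FF Fermat.Agent.JA
open scoped Classical

namespace GoodRed

variable {Ω : Type*} [Field Ω] {A : ValuationSubring Ω} {𝔽 : Type*} [Field 𝔽] [Algebra Ω 𝔽]
  {𝔽b : Type*} [Field 𝔽b] [Algebra (ResidueField ↥A) 𝔽b] (X : GoodRed Ω A 𝔽 𝔽b)

/-- the principal part map at the base point (generic fibre). -/
def pp (m : ℕ) : ↥(poleSpace X.cusp m) →ₗ[Ω] (Fin (m + 1) → Ω) :=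
  ppMap X.cusp (X.deg_gen _) X.τ X.ord_cusp_τ m

/-- the principal part map at the reduced base point (special fibre). -/
def ppb (m : ℕ) : ↥(poleSpace X.cuspb m) →ₗ[ResidueField ↥A] (Fin (m + 1) → ResidueField ↥A) :=
  ppMap X.cuspb (X.deg_red _) X.τb X.ord_cuspb_τb m

theorem pp_injective (m : ℕ) : Function.Injective (X.pp m) :=
  ppMap_injective _ _ _ _ _ X.const_gen

theorem ppb_injective (m : ℕ) : Function.Injective (X.ppb m) :=
  ppMap_injective _ _ _ _ _ X.const_red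

/-- the coefficient of the reduced divisor at any point is the sum over the residue disc. -/
theorem redDiv_apply_eq_sum (D : Divisor Ω 𝔽) (Q : Place (ResidueField ↥A) 𝔽b) :
    X.redDiv D Q = ∑ P ∈ D.support with X.r P = Q, D P := by
  rw [redDiv_apply, Finsupp.mapDomain, Finsupp.sum_apply, Finsupp.sum, Finset.sum_filter]
  refine Finset.sum_congr rfl fun P _ => ?_
  rw [Finsupp.single_apply]

/-- for `y ∈ W` with `ρ y ≠ 0`: `ord_Q (ρ y)` is the sum of `ord_P y` over the disc of `Q`. -/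
theorem ord_ρ_eq_sum' (y : ↥X.W) (hy : X.ρ y ≠ 0) (D : Divisor Ω 𝔽)
    (hD : ∀ P, D P = P.ord (y : 𝔽)) (Q : Place (ResidueField ↥A) 𝔽b) :
    Q.ord (X.ρ y) = ∑ P ∈ D.support with X.r P = Q, P.ord (y : 𝔽) := by
  rw [← X.r_div y hy D hD Q, ← redDiv_apply, X.redDiv_apply_eq_sum]
  exact Finset.sum_congr rfl fun P _ => hD P

/-- if `y ∈ W` is regular on the residue disc of `Q` then `ρ y` is regular at `Q`. -/
theorem ρ_regular (y : ↥X.W) (Q : Place (ResidueField ↥A) 𝔽b) (hreg : X.RegularOn Q (y : 𝔽)) :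
    OrdGE Q 0 (X.ρ y) := by
  by_cases hy : X.ρ y = 0
  · exact Or.inl hy
  right
  have hy0 : (y : 𝔽) ≠ 0 := X.ρ_ne_zero_imp_ne_zero y.2 hy
  obtain ⟨D, hD⟩ := X.exists_div (y : 𝔽) hy0
  rw [X.ord_ρ_eq_sum' y hy D hD Q]
  exact Finset.sum_nonneg fun P hP => hreg.ord_nonneg X (Finset.mem_filter.mp hP).2

theorem regularOn_of_mem_poleSpace {m : ℕ} {f : 𝔽} (hf : f ∈ poleSpace X.cusp m) :
    X.RegularOn X.cuspb (X.τ ^ m * f) := by
  intro P hP
  obtain ⟨h1, h2⟩ := mem_poleSpace_iff.mp hf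
  by_cases hPc : P = X.cusp
  · subst hPc
    rw [← ordGE_zero_iff_mem]
    have h3 : OrdGE X.cusp (m : ℤ) (X.τ ^ m) := Or.inr (by
      rw [PlaceAux.ord_pow, X.ord_cusp_τ, mul_one])
    have := h3.mul h1
    simpa using this
  · exact P.toValuationSubring.mul_mem _ _
      (P.toValuationSubring.pow_mem (X.τ_regularOn P hP) _) (ordGE_zero_iff_mem.mp (h2 P hPc))

theorem regularOn_of_mem_poleSpace' {m : ℕ} {f : 𝔽} (hf : f ∈ poleSpace X.cusp m)
    {Q : Place (ResidueField ↥A) 𝔽b} (hQ : Q ≠ X.cuspb) : X.RegularOn Q f := by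
  intro P hP
  have hPc : P ≠ X.cusp := by
    rintro rfl
    exact hQ hP.symm
  exact ordGE_zero_iff_mem.mp ((mem_poleSpace_iff.mp hf).2 P hPc)

/-- **(L4b)** integral functions of `L(m∞)` have integral principal parts, reduce into `L̄(m∞̄)`,
and the principal part commutes with reduction. -/
theorem pp_of_mem_W {m : ℕ} (f : ↥(poleSpace X.cusp m)) (hf : (f : 𝔽) ∈ X.W) :
    ∃ (c : Fin (m + 1) → ↥A) (hρ : X.ρ ⟨(f : 𝔽), hf⟩ ∈ poleSpace X.cuspb m),
      (∀ i, X.pp m f i = (c i : Ω)) ∧ ∀ i, X.ppb m ⟨_, hρ⟩ i = residue ↥A (c i) := by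
  obtain ⟨c, hc1, hc2⟩ := X.exists_integral_expansion m ⟨(f : 𝔽), hf⟩
    (X.regularOn_of_mem_poleSpace f.2)
  have hρ : X.ρ ⟨(f : 𝔽), hf⟩ ∈ poleSpace X.cuspb m := by
    rw [mem_poleSpace_iff]
    refine ⟨?_, fun Q hQ => ?_⟩
    · have h1 : X.ρ ⟨(f : 𝔽), hf⟩ = (X.ρ ⟨(f : 𝔽), hf⟩
          - laurentTail X.τb m (fun i => residue ↥A (c i)))
          + laurentTail X.τb m (fun i => residue ↥A (c i)) := by ring
      rw [h1]
      exact (hc2.mono (by omega)).add (ordGE_laurentTail X.ord_cuspb_τb m _)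
    · exact X.ρ_regular ⟨(f : 𝔽), hf⟩ Q (X.regularOn_of_mem_poleSpace' f.2 hQ)
  refine ⟨fun i => c i, hρ, fun i => ?_, fun i => ?_⟩
  · exact ppMap_eq_of_ordGE _ _ _ _ _ f hc1 i
  · exact ppMap_eq_of_ordGE _ _ _ _ _ ⟨_, hρ⟩ hc2 i

/-- **(L4a)** a function of `L(m∞)` with integral principal part is integral. -/
theorem mem_W_of_pp_mem {m : ℕ} (f : ↥(poleSpace X.cusp m)) (h : ∀ i, X.pp m f i ∈ A) :
    (f : 𝔽) ∈ X.W := by
  by_cases hf0 : (f : 𝔽) = 0
  · rw [hf0]; exact X.W.zero_mem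
  obtain ⟨a, ha, h1, h2⟩ := X.exists_smul_unit (f : 𝔽) hf0
  -- `a • f` is a Gauss unit of `L(m∞)`
  have haf : a • (f : 𝔽) ∈ poleSpace X.cusp m := Submodule.smul_mem _ a f.2
  obtain ⟨c, hρ, hc1, hc2⟩ := X.pp_of_mem_W ⟨_, haf⟩ h1
  have hρ0 : X.ρ ⟨a • (f : 𝔽), h1⟩ ≠ 0 := X.ρ_ne_zero_of_inv_mem h1 h2 (smul_ne_zero ha hf0)
  -- some coefficient of `a • f` is a unit of `A`
  have hex : ∃ i, residue ↥A (c i) ≠ 0 := by
    by_contra hcon
    push Not at hcon
    have hz : X.ppb m ⟨_, hρ⟩ = 0 := by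
      funext i
      rw [hc2 i, hcon i]
      rfl
    have := X.ppb_injective m (hz.trans (map_zero (X.ppb m)).symm)
    exact hρ0 (congrArg Subtype.val this)
  obtain ⟨i, hi⟩ := hex
  -- `pp (a • f) = a • pp f`
  have hsm : X.pp m ⟨_, haf⟩ i = a * X.pp m f i := by
    have : (⟨_, haf⟩ : ↥(poleSpace X.cusp m)) = a • f := rfl
    rw [this, map_smul]
    rfl
  -- if `a⁻¹ ∉ A` then `a ∈ 𝔪`, so `c i = a * pp f i ∈ 𝔪`
  by_contra hfW
  have hainv : a⁻¹ ∉ A := by
    intro hA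
    apply hfW
    have : (f : 𝔽) = a⁻¹ • (a • (f : 𝔽)) := by rw [smul_smul, inv_mul_cancel₀ ha, one_smul]
    rw [this]
    exact X.smul_mem_W hA h1
  have haA : a ∈ A := (A.mem_or_inv_mem a).resolve_right hainv
  have hanu : a ∈ A.nonunits := by
    rw [ValuationSubring.mem_nonunits_iff_exists_mem_maximalIdeal]
    refine ⟨haA, ?_⟩
    rw [mem_maximalIdeal, mem_nonunits_iff]
    intro hu
    obtain ⟨v, hv⟩ := hu
    apply hainv
    have h3 : ((v⁻¹ : (↥A)ˣ) : ↥A).1 = a⁻¹ := by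
      have h4 : ((v : ↥A) * ((v⁻¹ : (↥A)ˣ) : ↥A)).1 = 1 := by
        rw [Units.mul_inv]; rfl
      rw [MulMemClass.coe_mul, hv] at h4
      exact eq_inv_of_mul_eq_one_right h4
    rw [← h3]
    exact Subtype.coe_prop _
  obtain ⟨_, hres⟩ := (mem_nonunits_iff' (A := A)).mp hanu
  apply hi
  have hci : c i = ⟨a, haA⟩ * ⟨X.pp m f i, h i⟩ := by
    apply Subtype.ext
    rw [← hc1 i, hsm]
    rfl
  rw [hci, map_mul, hres, zero_mul]

end GoodRed

end Fermat.Agent.FG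

end
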