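/-
FG — helper5 — [LAT-B] (N2 at the base point): for `m ≥ 2g - 1` the lattice `𝓛(m∞) = L(m∞) ∩ W`
is free of rank `m + 1 - g`, with a basis which is an `Ω`-basis of `L(m∞)` and whose reduction is
a `k`-basis of `L̄(m∞̄)`.
-/
import Mathlib
import Fermat.Agent.FG.LAT_helper5_Lattice
import Fermat.Agent.FG.LATT_helper2_Gauss

set_option autoImplicit false
set_option linter.unusedSectionVars false
set_option linter.style.haveILetI false

noncomputable section

namespace Fermat.Agent.FG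

open AlgebraicCurve IsLocalRing IntermediateField Fermat.Agent.FF Fermat.Agent.JA
open scoped Classical

namespace GoodRed

variable {Ω : Type*} [Field Ω] {A : ValuationSubring Ω} {𝔽 : Type*} [Field 𝔽] [Algebra Ω 𝔽]
  {𝔽b : Type*} [Field 𝔽b] [Algebra (ResidueField ↥A) 𝔽b] (X : GoodRed Ω A 𝔽 𝔽b)

theorem degree_single_cusp (m : ℕ) :
    Divisor.degree (Finsupp.single X.cusp (m : ℤ)) = m := by
  rw [Divisor.degree_single, X.deg_gen]; simp

theorem degree_single_cuspb (m : ℕ) :
    Divisor.degree (Finsupp.single X.cuspb (m : ℤ)) = m := by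
  rw [Divisor.degree_single, X.deg_red]; simp

theorem finite_poleSpace (m : ℕ) : Module.Finite Ω ↥(poleSpace X.cusp m) :=
  (X.riemann_gen _).1

theorem le_finrank_poleSpace (m : ℕ) :
    (m : ℤ) + 1 - X.g ≤ (Module.finrank Ω ↥(poleSpace X.cusp m) : ℤ) := by
  have := (X.riemann_gen (Finsupp.single X.cusp (m : ℤ))).2
  rwa [X.degree_single_cusp] at this

theorem finite_poleSpaceb {m : ℕ} (hm : 2 * (X.g : ℤ) - 1 ≤ m) :
    Module.Finite (ResidueField ↥A) ↥(poleSpace X.cuspb m) :=
  (X.rr_red _ (by rwa [X.degree_single_cuspb])).1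

theorem finrank_poleSpaceb {m : ℕ} (hm : 2 * (X.g : ℤ) - 1 ≤ m) :
    (Module.finrank (ResidueField ↥A) ↥(poleSpace X.cuspb m) : ℤ) = (m : ℤ) + 1 - X.g := by
  have := (X.rr_red (Finsupp.single X.cuspb (m : ℤ)) (by rwa [X.degree_single_cuspb])).2
  rwa [X.degree_single_cuspb] at this

/-- the reduction of an integral element of `L(m∞)`, as an element of `L̄(m∞̄)`. -/
def redPole {m : ℕ} (f : ↥(poleSpace X.cusp m)) (hf : (f : 𝔽) ∈ X.W) : ↥(poleSpace X.cuspb m) :=
  ⟨X.ρ ⟨(f : 𝔽), hf⟩, (X.pp_of_mem_W f hf).choose_spec.choose⟩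

theorem coe_redPole {m : ℕ} (f : ↥(poleSpace X.cusp m)) (hf : (f : 𝔽) ∈ X.W) :
    (X.redPole f hf : 𝔽b) = X.ρ ⟨(f : 𝔽), hf⟩ := rfl

/-- principal parts commute with reduction. -/
theorem ppb_redPole {m : ℕ} (f : ↥(poleSpace X.cusp m)) (hf : (f : 𝔽) ∈ X.W) (i : Fin (m + 1))
    (hi : X.pp m f i ∈ A) : X.ppb m (X.redPole f hf) i = residue ↥A ⟨X.pp m f i, hi⟩ := by
  obtain ⟨h1, h2⟩ := (X.pp_of_mem_W f hf).choose_spec.choose_spec
  have h3 := h2 i
  have h4 := h1 i
  have : (X.pp_of_mem_W f hf).choose i = ⟨X.pp m f i, hi⟩ := Subtype.ext h4.symm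
  rw [← this]
  exact h3

theorem pp_mem_of_mem_W {m : ℕ} (f : ↥(poleSpace X.cusp m)) (hf : (f : 𝔽) ∈ X.W)
    (i : Fin (m + 1)) : X.pp m f i ∈ A := by
  obtain ⟨c, -, h1, -⟩ := X.pp_of_mem_W f hf
  rw [h1 i]
  exact (c i).2

/-- **the lattice basis theorem at the base point.** -/
theorem exists_lattice_basis {m : ℕ} (hm : 2 * (X.g : ℤ) - 1 ≤ m) :
    ∃ (r : ℕ) (f : Fin r → ↥(poleSpace X.cusp m)) (hfW : ∀ i, ((f i : 𝔽)) ∈ X.W),
      (r : ℤ) = (m : ℤ) + 1 - X.g ∧
      LinearIndependent Ω f ∧ Submodule.span Ω (Set.range f) = ⊤ ∧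
      (∀ h : ↥(poleSpace X.cusp m), (h : 𝔽) ∈ X.W →
        ∃ c : Fin r → ↥A, h = ∑ i, (c i : Ω) • f i) ∧
      LinearIndependent (ResidueField ↥A) (fun i => X.redPole (f i) (hfW i)) ∧
      Submodule.span (ResidueField ↥A) (Set.range fun i => X.redPole (f i) (hfW i)) = ⊤ := by
  haveI := X.finite_poleSpace m
  haveI := X.finite_poleSpaceb hm
  obtain ⟨r, v, hvLI, hvspan, hvint, hvres⟩ :=
    exists_integral_basis A (LinearMap.range (X.pp m))
  -- preimages
  have hvmem : ∀ i, (fun j => (v i j : Ω)) ∈ LinearMap.range (X.pp m) := fun i => by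
    rw [← hvspan]
    exact Submodule.subset_span ⟨i, rfl⟩
  choose f hf using hvmem
  have hfW : ∀ i, ((f i : 𝔽)) ∈ X.W := fun i =>
    X.mem_W_of_pp_mem (f i) fun j => by rw [hf i]; exact (v i j).2
  have hfLI : LinearIndependent Ω f := by
    have h1 : (X.pp m) ∘ f = fun i j => (v i j : Ω) := funext hf
    exact LinearIndependent.of_comp (X.pp m) (h1 ▸ hvLI)
  have hfspan : Submodule.span Ω (Set.range f) = ⊤ := by
    have h1 : Submodule.map (X.pp m) (Submodule.span Ω (Set.range f))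
        = Submodule.map (X.pp m) ⊤ := by
      rw [Submodule.map_span, Submodule.map_top, ← hvspan, ← Set.range_comp]
      congr 2
      exact funext hf
    exact Submodule.map_injective_of_injective (X.pp_injective m) h1
  -- the reductions
  have hred : ∀ i j, X.ppb m (X.redPole (f i) (hfW i)) j = residue ↥A (v i j) := fun i j => by
    have hmem : X.pp m (f i) j ∈ A := by rw [hf i]; exact (v i j).2
    rw [X.ppb_redPole (f i) (hfW i) j hmem]
    congr 1
    exact Subtype.ext (congrFun (hf i) j)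
  have hbLI : LinearIndependent (ResidueField ↥A) (fun i => X.redPole (f i) (hfW i)) := by
    have h1 : (X.ppb m) ∘ (fun i => X.redPole (f i) (hfW i))
        = fun i j => residue ↥A (v i j) := funext fun i => funext (hred i)
    exact LinearIndependent.of_comp (X.ppb m) (h1 ▸ hvres)
  -- dimension count
  have hr1 : r = Module.finrank Ω ↥(poleSpace X.cusp m) := by
    have := finrank_span_eq_card hfLI
    rw [hfspan, finrank_top, Fintype.card_fin] at this
    exact this.symm
  have hr2 : r ≤ Module.finrank (ResidueField ↥A) ↥(poleSpace X.cuspb m) := by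
    have := hbLI.fintype_card_le_finrank
    rwa [Fintype.card_fin] at this
  have h3 := X.le_finrank_poleSpace m
  have h4 := X.finrank_poleSpaceb hm
  have hr : (r : ℤ) = (m : ℤ) + 1 - X.g := by
    have : (r : ℤ) ≤ (Module.finrank (ResidueField ↥A) ↥(poleSpace X.cuspb m) : ℤ) := by
      exact_mod_cast hr2
    rw [hr1] at this ⊢
    omega
  refine ⟨r, f, hfW, hr, hfLI, hfspan, ?_, hbLI, ?_⟩
  · intro h hhW
    have hmem : X.pp m h ∈ LinearMap.range (X.pp m) := ⟨h, rfl⟩
    obtain ⟨c, hc⟩ := hvint (X.pp m h) hmem (fun j => X.pp_mem_of_mem_W h hhW j)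
    refine ⟨c, X.pp_injective m ?_⟩
    rw [hc, map_sum]
    refine Finset.sum_congr rfl fun i _ => ?_
    rw [map_smul, hf i]
  · have hcard : Fintype.card (Fin r)
        = Module.finrank (ResidueField ↥A) ↥(poleSpace X.cuspb m) := by
      rw [Fintype.card_fin]
      have : ((r : ℤ)) = (Module.finrank (ResidueField ↥A) ↥(poleSpace X.cuspb m) : ℤ) := by
        rw [hr, h4]
      exact_mod_cast this
    exact hbLI.span_eq_top_of_card_eq_finrank' hcard

end GoodRed

end Fermat.Agent.FG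

end
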