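/-
FG — helper5 — [LAT-B] (L5, generic part): Weierstrass nongaps at a rational place `P` of a function
field, in terms of the principal part maps: `dim L(mP) = #{ν ≤ m nongap}` and a function of
`L(mP)` whose principal part vanishes at all nongap positions is zero.
-/
import Mathlib
import Fermat.Agent.FG.LAT_helper5_PP

set_option autoImplicit false
set_option linter.unusedSectionVars false
set_option linter.style.haveILetI false

noncomputable section

namespace Fermat.Agent.FG

open AlgebraicCurve Fermat.Agent.FF Fermat.Agent.JA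
open scoped Classical

variable {K F : Type*} [Field K] [Field F] [Algebra K F]

theorem laurentTail_eq_of_zero_above (π : F) {ν m : ℕ} (hνm : ν ≤ m) {c : ℕ → K}
    (h : ∀ i, ν < i → i ≤ m → c i = 0) : laurentTail π m c = laurentTail π ν c := by
  induction m with
  | zero =>
    obtain rfl : ν = 0 := by omega
    rfl
  | succ m ih =>
    rcases Nat.lt_or_ge ν (m + 1) with hlt | hge
    · rw [laurentTail_succ, h (m + 1) hlt le_rfl, map_zero, zero_mul, add_zero]
      exact ih (by omega) fun i hi him => h i hi (by omega)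
    · obtain rfl : ν = m + 1 := by omega
      rfl

section

variable (P : Place K F) (hdeg : P.deg = 1) (π : F) (hπ : P.ord π = 1)

/-- compatibility of the principal part maps in different degrees. -/
theorem ppFun_of_le {ν m : ℕ} (hνm : ν ≤ m) {f : F} (hf : OrdGE P (-(ν : ℤ)) f) :
    (∀ i ≤ ν, ppFun P hdeg π hπ m f i = ppFun P hdeg π hπ ν f i) ∧
      ∀ i, ν < i → i ≤ m → ppFun P hdeg π hπ m f i = 0 := by
  have h1 := ppFun_spec P hdeg π hπ ν hf
  set c : ℕ → K := fun i => if i ≤ ν then ppFun P hdeg π hπ ν f i else 0 with hc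
  have e1 : laurentTail π ν c = laurentTail π ν (ppFun P hdeg π hπ ν f) :=
    laurentTail_congr π ν fun i hi => by rw [hc]; simp only; rw [if_pos hi]
  have e2 : laurentTail π m c = laurentTail π ν c :=
    laurentTail_eq_of_zero_above π hνm fun i hi _ => by
      rw [hc]; simp only; rw [if_neg (by omega)]
  have h2 : OrdGE P 1 (f - laurentTail π m c) := by rw [e2, e1]; exact h1
  have h3 := ppFun_eq P hdeg π hπ m h2
  refine ⟨fun i hi => ?_, fun i hi him => ?_⟩
  · rw [h3 i (by omega), hc]; simp only; rw [if_pos hi]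
  · rw [h3 i him, hc]; simp only; rw [if_neg (by omega)]

/-- if the top coefficients of the principal part vanish, the pole order is smaller. -/
theorem ordGE_of_ppFun_eq_zero {ν m : ℕ} (hνm : ν ≤ m) {f : F} (hf : OrdGE P (-(m : ℤ)) f)
    (h : ∀ i, ν < i → i ≤ m → ppFun P hdeg π hπ m f i = 0) : OrdGE P (-(ν : ℤ)) f := by
  have h1 := ppFun_spec P hdeg π hπ m hf
  have e : laurentTail π m (ppFun P hdeg π hπ m f) = laurentTail π ν (ppFun P hdeg π hπ m f) :=
    laurentTail_eq_of_zero_above π hνm h
  have h2 : f = (f - laurentTail π m (ppFun P hdeg π hπ m f))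
      + laurentTail π ν (ppFun P hdeg π hπ m f) := by rw [← e]; ring
  rw [h2]
  exact (h1.mono (by omega)).add (ordGE_laurentTail hπ ν _)

/-- `ν` is a **nongap** at `P`: the leading coefficient functional on `L(νP)` is nonzero. -/
def IsNongap (ν : ℕ) : Prop :=
  ∃ h : ↥(poleSpace P ν), ppMap P hdeg π hπ ν h (Fin.last ν) ≠ 0

theorem isNongap_zero : IsNongap P hdeg π hπ 0 := by
  refine ⟨⟨1, by simpa using algebraMap_mem_poleSpace P 0 (1 : K)⟩, ?_⟩
  have h : OrdGE P 1 ((1 : F) - laurentTail π 0 (fun _ => (1 : K))) := by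
    rw [laurentTail_zero, map_one, sub_self]
    exact Or.inl rfl
  rw [ppMap_eq_of_ordGE P hdeg π hπ 0 ⟨1, _⟩ h]
  exact one_ne_zero

/-- the leading coefficient functional on `L(mP)`. -/
def leadCoeffMap (m : ℕ) : ↥(poleSpace P m) →ₗ[K] K :=
  (LinearMap.proj (Fin.last m)).comp (ppMap P hdeg π hπ m)

theorem leadCoeffMap_apply (m : ℕ) (f : ↥(poleSpace P m)) :
    leadCoeffMap P hdeg π hπ m f = ppMap P hdeg π hπ m f (Fin.last m) := rfl

theorem mem_ker_leadCoeffMap_iff (m : ℕ) (f : ↥(poleSpace P (m + 1))) :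
    f ∈ LinearMap.ker (leadCoeffMap P hdeg π hπ (m + 1)) ↔ (f : F) ∈ poleSpace P m := by
  rw [LinearMap.mem_ker, leadCoeffMap_apply]
  constructor
  · intro h
    rw [mem_poleSpace_iff]
    obtain ⟨h1, h2⟩ := mem_poleSpace_iff.mp f.2
    refine ⟨ordGE_of_ppFun_eq_zero P hdeg π hπ (Nat.le_succ m) h1 fun i hi him => ?_, h2⟩
    obtain rfl : i = m + 1 := by omega
    exact h
  · intro h
    have h1 := (mem_poleSpace_iff.mp h).1
    exact (ppFun_of_le P hdeg π hπ (Nat.le_succ m) h1).2 (m + 1) (Nat.lt_succ_self m) le_rfl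

/-- the inclusion `L(mP) → L((m+1)P)`. -/
def poleSpaceIncl (m : ℕ) : ↥(poleSpace P m) →ₗ[K] ↥(poleSpace P (m + 1)) :=
  Submodule.inclusion (poleSpace_mono P (Nat.le_succ m))

theorem range_poleSpaceIncl (m : ℕ) :
    LinearMap.range (poleSpaceIncl P m) = LinearMap.ker (leadCoeffMap P hdeg π hπ (m + 1)) := by
  ext f
  rw [mem_ker_leadCoeffMap_iff]
  constructor
  · rintro ⟨g, rfl⟩
    exact g.2
  · intro h
    exact ⟨⟨(f : F), h⟩, Subtype.ext rfl⟩

/-- the number of nongaps `≤ m`. -/
def nongapCount (m : ℕ) : ℕ := ((Finset.range (m + 1)).filter (IsNongap P hdeg π hπ)).card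

theorem nongapCount_succ (m : ℕ) : nongapCount P hdeg π hπ (m + 1)
    = nongapCount P hdeg π hπ m + if IsNongap P hdeg π hπ (m + 1) then 1 else 0 := by
  unfold nongapCount
  rw [Finset.range_add_one (n := m + 1), Finset.filter_insert]
  split_ifs with h
  · rw [Finset.card_insert_of_notMem]
    intro hmem
    have := (Finset.mem_filter.mp hmem).1
    rw [Finset.mem_range] at this
    omega
  · rfl

/-- **`dim L(mP)` is the number of nongaps `≤ m`.** -/
theorem finrank_poleSpace_eq_nongapCount
    (hconst : ∀ f : F, (∀ Q : Place K F, 0 ≤ Q.ord f) → ∃ a : K, f = algebraMap K F a)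
    (hfin : ∀ m, Module.Finite K ↥(poleSpace P m)) (m : ℕ) :
    Module.finrank K ↥(poleSpace P m) = nongapCount P hdeg π hπ m := by
  induction m with
  | zero =>
    -- `L(0)` is the constants
    have h1 : nongapCount P hdeg π hπ 0 = 1 := by
      unfold nongapCount
      rw [Finset.filter_true_of_mem]
      · simp
      · intro ν hν
        obtain rfl : ν = 0 := by simpa using hν
        exact isNongap_zero P hdeg π hπ
    rw [h1]
    haveI := hfin 0
    have hinj := ppMap_injective P hdeg π hπ 0 hconst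
    have hle : Module.finrank K ↥(poleSpace P 0) ≤ 1 := by
      have := LinearMap.finrank_le_finrank_of_injective hinj
      simpa using this
    have hpos : 0 < Module.finrank K ↥(poleSpace P 0) := by
      rw [Module.finrank_pos_iff_exists_ne_zero]
      refine ⟨⟨1, by simpa using algebraMap_mem_poleSpace P 0 (1 : K)⟩, ?_⟩
      intro h
      exact one_ne_zero (congrArg Subtype.val h)
    omega
  | succ m ih =>
    haveI := hfin m
    haveI := hfin (m + 1)
    rw [nongapCount_succ, ← ih]
    have h1 := LinearMap.finrank_range_add_finrank_ker (leadCoeffMap P hdeg π hπ (m + 1))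
    rw [← range_poleSpaceIncl] at h1
    have hinj : Function.Injective (poleSpaceIncl P m) :=
      Submodule.inclusion_injective _
    rw [LinearMap.finrank_range_of_inj hinj] at h1
    have h2 : Module.finrank K ↥(LinearMap.range (leadCoeffMap P hdeg π hπ (m + 1)))
        = if IsNongap P hdeg π hπ (m + 1) then 1 else 0 := by
      split_ifs with hng
      · have : LinearMap.range (leadCoeffMap P hdeg π hπ (m + 1)) = ⊤ := by
          obtain ⟨h, hh⟩ := hng
          rw [eq_top_iff]
          intro x _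
          refine ⟨(x / leadCoeffMap P hdeg π hπ (m + 1) h) • h, ?_⟩
          rw [map_smul, smul_eq_mul, leadCoeffMap_apply, div_mul_cancel₀ _ hh]
        rw [this, finrank_top, Module.finrank_self]
      · have : LinearMap.range (leadCoeffMap P hdeg π hπ (m + 1)) = ⊥ := by
          rw [LinearMap.range_eq_bot]
          ext h
          by_contra hne
          exact hng ⟨h, hne⟩
        rw [this, finrank_bot]
    omega

/-- **a function of `L(mP)` whose principal part vanishes at all nongap positions is zero.** -/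
theorem eq_zero_of_ppMap_nongap_eq_zero
    (hconst : ∀ f : F, (∀ Q : Place K F, 0 ≤ Q.ord f) → ∃ a : K, f = algebraMap K F a)
    {m : ℕ} (f : ↥(poleSpace P m))
    (h : ∀ i : Fin (m + 1), IsNongap P hdeg π hπ (i : ℕ) → ppMap P hdeg π hπ m f i = 0) :
    f = 0 := by
  by_contra hf
  have hpp : ppMap P hdeg π hπ m f ≠ 0 := fun h0 =>
    hf (ppMap_injective P hdeg π hπ m hconst (h0.trans (map_zero _).symm))
  -- the largest index with nonzero coefficient
  have hex : ∃ i : Fin (m + 1), ppMap P hdeg π hπ m f i ≠ 0 := by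
    by_contra hcon
    push Not at hcon
    exact hpp (funext hcon)
  obtain ⟨i₀, hi₀, hmax⟩ := Finset.exists_max_image
    (Finset.univ.filter fun i : Fin (m + 1) => ppMap P hdeg π hπ m f i ≠ 0) (fun i => (i : ℕ))
    (by obtain ⟨i, hi⟩ := hex; exact ⟨i, Finset.mem_filter.mpr ⟨Finset.mem_univ _, hi⟩⟩)
  have hi₀' : ppMap P hdeg π hπ m f i₀ ≠ 0 := (Finset.mem_filter.mp hi₀).2
  have habove : ∀ i, (i₀ : ℕ) < i → i ≤ m → ppFun P hdeg π hπ m (f : F) i = 0 := by
    intro i hi him
    by_contra hne
    have := hmax ⟨i, Nat.lt_succ_of_le him⟩ (Finset.mem_filter.mpr ⟨Finset.mem_univ _, hne⟩)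
    simp only at this
    omega
  have hi₀m : (i₀ : ℕ) ≤ m := Nat.lt_succ_iff.mp i₀.2
  obtain ⟨h1, h2⟩ := mem_poleSpace_iff.mp f.2
  have hord := ordGE_of_ppFun_eq_zero P hdeg π hπ hi₀m h1 habove
  have hmem : (f : F) ∈ poleSpace P (i₀ : ℕ) := mem_poleSpace_iff.mpr ⟨hord, h2⟩
  apply hi₀'
  apply h i₀
  refine ⟨⟨(f : F), hmem⟩, ?_⟩
  rw [ppMap_apply]
  have := (ppFun_of_le P hdeg π hπ hi₀m hord).1 (i₀ : ℕ) le_rfl
  show ppFun P hdeg π hπ (i₀ : ℕ) (f : F) ((Fin.last (i₀ : ℕ) : Fin _) : ℕ) ≠ 0
  rw [Fin.val_last, ← this]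
  exact hi₀'

end

end Fermat.Agent.FG

end
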