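/-
FG — helper5 — [LAT-B] (L5): the nongaps of the reduced base point and the **canonical basis** of
`𝓛(m∞)` (`m ≥ 2g - 1`): for every nongap `ν ≤ m` the unique `h_ν ∈ L(m∞)` whose principal part
has coefficient `δ_{νν'}` at all nongap positions `ν' ≤ m`; it is integral.
-/
import Mathlib
import Fermat.Agent.FG.LAT_helper5_Basis
import Fermat.Agent.FG.LAT_helper5_Gaps

set_option autoImplicit false
set_option linter.unusedSectionVars false
set_option linter.style.haveILetI false

noncomputable section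

namespace Fermat.Agent.FG

open AlgebraicCurve IsLocalRing IntermediateField Fermat.Agent.FF Fermat.Agent.JA
open scoped Classical

namespace GoodRed

variable {Ω : Type*} [Field Ω] {A : ValuationSubring Ω} {𝔽 : Type*} [Field 𝔽] [Algebra Ω 𝔽]
  {𝔽b : Type*} [Field 𝔽b] [Algebra (ResidueField ↥A) 𝔽b] (X : GoodRed Ω A 𝔽 𝔽b)

/-- `ν` is a nongap of the reduced base point. -/
def IsNongapb (ν : ℕ) : Prop := IsNongap X.cuspb (X.deg_red _) X.τb X.ord_cuspb_τb ν

theorem isNongapb_zero : X.IsNongapb 0 := isNongap_zero _ _ _ _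

/-- the nongap positions `≤ m`. -/
def nongaps (m : ℕ) : Finset (Fin (m + 1)) := Finset.univ.filter fun i => X.IsNongapb (i : ℕ)

theorem mem_nongaps {m : ℕ} {i : Fin (m + 1)} : i ∈ X.nongaps m ↔ X.IsNongapb (i : ℕ) := by
  simp [nongaps]

theorem finite_poleSpaceb' (m : ℕ) : Module.Finite (ResidueField ↥A) ↥(poleSpace X.cuspb m) := by
  obtain ⟨M, hM1, hM2⟩ : ∃ M : ℕ, m ≤ M ∧ 2 * (X.g : ℤ) - 1 ≤ M :=
    ⟨max m (2 * X.g), le_max_left _ _, by
      have : (2 * X.g : ℕ) ≤ max m (2 * X.g) := le_max_right _ _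
      have h2 : ((2 * X.g : ℕ) : ℤ) ≤ ((max m (2 * X.g) : ℕ) : ℤ) := by exact_mod_cast this
      push_cast at h2 ⊢
      omega⟩
  haveI := X.finite_poleSpaceb hM2
  exact Module.Finite.of_injective (Submodule.inclusion (poleSpace_mono X.cuspb hM1))
    (Submodule.inclusion_injective _)

theorem card_nongaps (m : ℕ) :
    (X.nongaps m).card = Module.finrank (ResidueField ↥A) ↥(poleSpace X.cuspb m) := by
  rw [finrank_poleSpace_eq_nongapCount X.cuspb (X.deg_red _) X.τb X.ord_cuspb_τb X.const_red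
    X.finite_poleSpaceb' m]
  unfold nongaps nongapCount
  refine Finset.card_bij' (fun i _ => (i : ℕ)) (fun ν hν => ⟨ν, Finset.mem_range.mp
    (Finset.mem_filter.mp hν).1⟩) ?_ ?_ ?_ ?_
  · intro i hi
    rw [Finset.mem_filter] at hi ⊢
    exact ⟨Finset.mem_range.mpr i.2, hi.2⟩
  · intro ν hν
    rw [Finset.mem_filter] at hν ⊢
    exact ⟨Finset.mem_univ _, hν.2⟩
  · intro i _; rfl
  · intro ν _; rfl

theorem card_nongaps_eq {m : ℕ} (hm : 2 * (X.g : ℤ) - 1 ≤ m) :
    ((X.nongaps m).card : ℤ) = (m : ℤ) + 1 - X.g := by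
  rw [X.card_nongaps, X.finrank_poleSpaceb hm]

/-- a reduced function whose principal part vanishes at the nongap positions is zero. -/
theorem eq_zero_of_ppb_nongaps {m : ℕ} (f : ↥(poleSpace X.cuspb m))
    (h : ∀ i ∈ X.nongaps m, X.ppb m f i = 0) : f = 0 :=
  eq_zero_of_ppMap_nongap_eq_zero X.cuspb (X.deg_red _) X.τb X.ord_cuspb_τb X.const_red f
    fun i hi => h i (X.mem_nongaps.mpr hi)

/-- **existence of the canonical basis of `𝓛(m∞)`.** -/
theorem exists_canonical_basis {m : ℕ} (hm : 2 * (X.g : ℤ) - 1 ≤ m) :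
    ∃ h : ↥(X.nongaps m) → ↥(poleSpace X.cusp m),
      (∀ ν, ((h ν : 𝔽)) ∈ X.W) ∧
      (∀ ν ν' : ↥(X.nongaps m), X.pp m (h ν) ν' = if ν' = ν then 1 else 0) ∧
      ∀ f : ↥(poleSpace X.cusp m), (∀ ν : ↥(X.nongaps m), X.pp m f ν = 0) → f = 0 := by
  obtain ⟨r, f, hfW, hr, hfLI, hfspan, hfint, hbLI, hbspan⟩ := X.exists_lattice_basis hm
  have hcard : (X.nongaps m).card = r := by
    have := X.card_nongaps_eq hm
    rw [← hr] at this
    exact_mod_cast this
  let e : ↥(X.nongaps m) ≃ Fin r := Finset.equivFinOfCardEq hcard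
  -- the matrix of principal parts at the nongap positions, over `A`
  let M : Matrix (Fin r) (Fin r) ↥A := fun i j =>
    ⟨X.pp m (f i) (e.symm j), X.pp_mem_of_mem_W (f i) (hfW i) _⟩
  -- its reduction is invertible
  have hMbar : (M.map (residue ↥A)).det ≠ 0 := by
    intro hdet
    obtain ⟨a, ha0, ha⟩ := Matrix.exists_vecMul_eq_zero_iff.mpr hdet
    apply ha0
    have hz : ∑ i, a i • X.redPole (f i) (hfW i) = 0 := by
      apply X.eq_zero_of_ppb_nongaps
      intro ν hν
      rw [map_sum, Finset.sum_apply]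
      have := congrFun ha (e ⟨ν, hν⟩)
      rw [Matrix.vecMul, dotProduct] at this
      rw [Pi.zero_apply] at this
      rw [← this]
      refine Finset.sum_congr rfl fun i _ => ?_
      rw [map_smul, Pi.smul_apply, smul_eq_mul, Matrix.map_apply]
      congr 1
      have h1 := X.ppb_redPole (f i) (hfW i) ν (X.pp_mem_of_mem_W (f i) (hfW i) ν)
      rw [h1]
      congr 1
      apply Subtype.ext
      show X.pp m (f i) ν = X.pp m (f i) (e.symm (e ⟨ν, hν⟩))
      rw [Equiv.symm_apply_apply]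
    exact funext fun i => (Fintype.linearIndependent_iff.mp hbLI a hz i)
  have hMunit : IsUnit M.det := by
    have h1 : residue ↥A M.det ≠ 0 := by
      rw [RingHom.map_det]
      exact hMbar
    by_contra hnu
    exact h1 ((residue_eq_zero_iff _).mpr hnu)
  have hMinv : M⁻¹ * M = 1 := Matrix.nonsing_inv_mul M hMunit
  -- the matrix over `Ω`
  have hMΩ : (M.map (algebraMap ↥A Ω)).det ≠ 0 := by
    have h1 : (M.map (algebraMap ↥A Ω)).det = algebraMap ↥A Ω M.det :=
      (RingHom.map_det (algebraMap ↥A Ω) M).symm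
    rw [h1]
    exact (hMunit.map (algebraMap ↥A Ω)).ne_zero
  refine ⟨fun ν => ∑ i, ((M⁻¹ (e ν) i : ↥A) : Ω) • f i, fun ν => ?_, fun ν ν' => ?_, fun g hg => ?_⟩
  · -- integrality
    rw [Submodule.coe_sum]
    refine Subring.sum_mem _ fun i _ => ?_
    rw [Submodule.coe_smul]
    exact X.smul_mem_W (M⁻¹ (e ν) i).2 (hfW i)
  · -- the normalisation
    rw [map_sum, Finset.sum_apply]
    have h1 : ∀ i, (((M⁻¹ (e ν) i : ↥A) : Ω) • X.pp m (f i)) ν'
        = (((M⁻¹ (e ν) i * M i (e ν') : ↥A)) : Ω) := fun i => by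
      rw [Pi.smul_apply, smul_eq_mul]
      show _ = ((M⁻¹ (e ν) i : ↥A) : Ω) * X.pp m (f i) (e.symm (e ν'))
      rw [Equiv.symm_apply_apply]
    simp only [map_smul]
    rw [Finset.sum_congr rfl fun i _ => h1 i]
    have h2 : ∑ i, M⁻¹ (e ν) i * M i (e ν') = (M⁻¹ * M) (e ν) (e ν') := by
      rw [Matrix.mul_apply]
    have h3 : (∑ i, (((M⁻¹ (e ν) i * M i (e ν') : ↥A)) : Ω))
        = ((∑ i, M⁻¹ (e ν) i * M i (e ν') : ↥A) : Ω) := by
      rw [AddSubmonoidClass.coe_finsetSum]
    rw [h3, h2, hMinv, Matrix.one_apply]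
    by_cases hνν : ν' = ν
    · subst hνν; simp
    · rw [if_neg (fun h => hνν (e.injective h).symm), if_neg hνν]; rfl
  · -- uniqueness
    have hgmem : g ∈ Submodule.span Ω (Set.range f) := by rw [hfspan]; trivial
    obtain ⟨b, hb⟩ := (Submodule.mem_span_range_iff_exists_fun Ω).mp hgmem
    have hbz : b = 0 := by
      by_contra hb0
      apply hMΩ
      rw [← Matrix.exists_vecMul_eq_zero_iff]
      refine ⟨b, hb0, funext fun j => ?_⟩
      rw [Matrix.vecMul, dotProduct, Pi.zero_apply]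
      have := hg (e.symm j)
      rw [← hb, map_sum, Finset.sum_apply] at this
      rw [← this]
      refine Finset.sum_congr rfl fun i _ => ?_
      rw [map_smul, Pi.smul_apply, smul_eq_mul, Matrix.map_apply]
      rfl
    rw [← hb, hbz]
    simp

end GoodRed

end Fermat.Agent.FG

end
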