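/-
FG — helper5 — [LAT-B] (L5, API): the canonical basis `X.canon hm ν` of `𝓛(m∞)`, expansion of
functions in it, its reduction, and invariance under rational automorphisms.
-/
import Mathlib
import Fermat.Agent.FG.LAT_helper5_Canon

set_option autoImplicit false
set_option linter.unusedSectionVars false
set_option linter.style.haveILetI false

noncomputable section

namespace Fermat.Agent.FG

open AlgebraicCurve IsLocalRing IntermediateField Fermat.Agent.FF Fermat.Agent.JA
open scoped Classical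

section Transport

variable {K F : Type*} [Field K] [Field F] [Algebra K F]

theorem ordGE_smul (g : SemilinearAut K F) {P : Place K F} {n : ℤ} {f : F} (h : OrdGE P n f) :
    OrdGE (g • P) n (g • f) := by
  rcases h with rfl | h
  · exact Or.inl (smul_zero g)
  · exact Or.inr (by rw [SemilinearAut.ord_smul]; exact h)

theorem smul_laurentTail (g : SemilinearAut K F) (π : F) (m : ℕ) (c : ℕ → K) :
    g • laurentTail π m c = laurentTail (g • π) m (fun i => SemilinearAut.baseAut g (c i)) := by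
  unfold laurentTail
  rw [Finset.smul_sum]
  refine Finset.sum_congr rfl fun i _ => ?_
  rw [smul_mul', SemilinearAut.smul_algebraMap, smul_pow', smul_inv'']

theorem smul_mem_poleSpace (g : SemilinearAut K F) {P : Place K F} {m : ℕ} {f : F}
    (hf : f ∈ poleSpace P m) : g • f ∈ poleSpace (g • P) m := by
  rw [mem_poleSpace_iff] at hf ⊢
  refine ⟨ordGE_smul g hf.1, fun Q hQ => ?_⟩
  have hQ' : g⁻¹ • Q ≠ P := by
    intro h
    apply hQ
    rw [← h, smul_inv_smul]
  have := ordGE_smul g (hf.2 (g⁻¹ • Q) hQ')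
  rwa [smul_inv_smul] at this

end Transport

namespace GoodRed

variable {Ω : Type*} [Field Ω] {A : ValuationSubring Ω} {𝔽 : Type*} [Field 𝔽] [Algebra Ω 𝔽]
  {𝔽b : Type*} [Field 𝔽b] [Algebra (ResidueField ↥A) 𝔽b] (X : GoodRed Ω A 𝔽 𝔽b)

variable {m : ℕ} (hm : 2 * (X.g : ℤ) - 1 ≤ m)

/-- **the canonical basis of `𝓛(m∞)`**, indexed by the nongaps `≤ m`. -/
def canon : ↥(X.nongaps m) → ↥(poleSpace X.cusp m) := (X.exists_canonical_basis hm).choose

theorem canon_mem_W (ν : ↥(X.nongaps m)) : ((X.canon hm ν : 𝔽)) ∈ X.W :=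
  (X.exists_canonical_basis hm).choose_spec.1 ν

theorem pp_canon (ν ν' : ↥(X.nongaps m)) :
    X.pp m (X.canon hm ν) ν' = if ν' = ν then 1 else 0 :=
  (X.exists_canonical_basis hm).choose_spec.2.1 ν ν'

include hm in
theorem eq_zero_of_pp_nongaps (f : ↥(poleSpace X.cusp m))
    (h : ∀ ν : ↥(X.nongaps m), X.pp m f ν = 0) : f = 0 :=
  (X.exists_canonical_basis hm).choose_spec.2.2 f h

/-- every function of `L(m∞)` is the combination of the canonical basis with coefficients its
principal part at the nongap positions. -/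
theorem eq_sum_canon (f : ↥(poleSpace X.cusp m)) :
    f = ∑ ν : ↥(X.nongaps m), X.pp m f ν • X.canon hm ν := by
  rw [← sub_eq_zero]
  apply X.eq_zero_of_pp_nongaps hm
  intro ν'
  rw [map_sub, map_sum, Pi.sub_apply, Finset.sum_apply]
  simp only [map_smul, Pi.smul_apply, smul_eq_mul, X.pp_canon hm]
  rw [Finset.sum_eq_single ν']
  · simp
  · intro ν _ hν
    rw [if_neg (Ne.symm hν), mul_zero]
  · intro h
    exact absurd (Finset.mem_univ _) h

/-- uniqueness of the canonical basis element. -/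
theorem eq_canon_of_pp (ν : ↥(X.nongaps m)) (f : ↥(poleSpace X.cusp m))
    (h : ∀ ν' : ↥(X.nongaps m), X.pp m f ν' = if ν' = ν then 1 else 0) : f = X.canon hm ν := by
  rw [← sub_eq_zero]
  apply X.eq_zero_of_pp_nongaps hm
  intro ν'
  rw [map_sub, Pi.sub_apply, h ν', X.pp_canon hm, sub_self]

theorem zero_mem_nongaps : (0 : Fin (m + 1)) ∈ X.nongaps m :=
  X.mem_nongaps.mpr (by simpa using X.isNongapb_zero)

/-- the principal part of the constant function `1`. -/
theorem pp_one (i : Fin (m + 1)) :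
    X.pp m ⟨1, by simpa using algebraMap_mem_poleSpace X.cusp m (1 : Ω)⟩ i
      = if i = 0 then 1 else 0 := by
  have h : OrdGE X.cusp 1 ((1 : 𝔽) - laurentTail X.τ m (fun i => if i = 0 then (1 : Ω) else 0)) := by
    have e : laurentTail X.τ m (fun i => if i = 0 then (1 : Ω) else 0)
        = laurentTail X.τ 0 (fun i => if i = 0 then (1 : Ω) else 0) :=
      laurentTail_eq_of_zero_above X.τ (Nat.zero_le m) fun i hi _ => by
        show (if i = 0 then (1 : Ω) else 0) = 0
        rw [if_neg (by omega)]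
    rw [e, laurentTail_zero]
    have e2 : (1 : 𝔽) - algebraMap Ω 𝔽 ((fun i : ℕ => if i = 0 then (1 : Ω) else 0) 0) = 0 := by
      simp
    rw [e2]
    exact Or.inl rfl
  have h3 := ppMap_eq_of_ordGE X.cusp (X.deg_gen _) X.τ X.ord_cusp_τ m
    ⟨1, by simpa using algebraMap_mem_poleSpace X.cusp m (1 : Ω)⟩ h i
  show ppMap X.cusp (X.deg_gen _) X.τ X.ord_cusp_τ m ⟨1, _⟩ i = _
  rw [h3]
  by_cases hi : i = 0
  · subst hi; simp
  · rw [if_neg hi]
    show (if (i : ℕ) = 0 then (1 : Ω) else 0) = 0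
    rw [if_neg]
    intro h0
    exact hi (Fin.ext h0)

/-- the canonical basis element at the nongap `0` is the constant `1`. -/
theorem canon_zero : ((X.canon hm ⟨0, X.zero_mem_nongaps⟩ : 𝔽)) = 1 := by
  have h := X.eq_canon_of_pp hm ⟨0, X.zero_mem_nongaps⟩
    ⟨1, by simpa using algebraMap_mem_poleSpace X.cusp m (1 : Ω)⟩ (fun ν' => by
      rw [X.pp_one]
      by_cases h0 : ν' = ⟨0, X.zero_mem_nongaps⟩
      · rw [if_pos h0, if_pos (by rw [h0])]
      · rw [if_neg h0, if_neg]
        intro h1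
        exact h0 (Subtype.ext h1))
  exact (congrArg Subtype.val h).symm

/-- integral functions of `L(m∞)` have integral coordinates in the canonical basis. -/
theorem pp_mem_A_of_mem_W (f : ↥(poleSpace X.cusp m)) (hf : (f : 𝔽) ∈ X.W)
    (ν : ↥(X.nongaps m)) : X.pp m f ν ∈ A := X.pp_mem_of_mem_W f hf ν

/-- the reduction of the canonical basis. -/
def canonb (ν : ↥(X.nongaps m)) : ↥(poleSpace X.cuspb m) :=
  X.redPole (X.canon hm ν) (X.canon_mem_W hm ν)

theorem ppb_canonb (ν ν' : ↥(X.nongaps m)) :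
    X.ppb m (X.canonb hm ν) ν' = if ν' = ν then 1 else 0 := by
  have hmem : X.pp m (X.canon hm ν) ν' ∈ A := X.pp_mem_of_mem_W _ (X.canon_mem_W hm ν) ν'
  rw [canonb, X.ppb_redPole (X.canon hm ν) (X.canon_mem_W hm ν) (ν' : Fin (m + 1)) hmem]
  have : (⟨X.pp m (X.canon hm ν) ν', hmem⟩ : ↥A) = if ν' = ν then 1 else 0 := by
    apply Subtype.ext
    show X.pp m (X.canon hm ν) ν' = _
    rw [X.pp_canon hm]
    split_ifs <;> rfl
  rw [this]
  split_ifs <;> simp

/-- expansion in the reduced canonical basis. -/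
theorem eq_sum_canonb (f : ↥(poleSpace X.cuspb m)) :
    f = ∑ ν : ↥(X.nongaps m), X.ppb m f ν • X.canonb hm ν := by
  rw [← sub_eq_zero]
  apply X.eq_zero_of_ppb_nongaps
  intro i hi
  rw [map_sub, map_sum, Pi.sub_apply, Finset.sum_apply]
  simp only [map_smul, Pi.smul_apply, smul_eq_mul]
  have h1 : ∀ ν : ↥(X.nongaps m), X.ppb m (X.canonb hm ν) i = if (⟨i, hi⟩ : ↥(X.nongaps m)) = ν
      then 1 else 0 := fun ν => X.ppb_canonb hm ν ⟨i, hi⟩
  simp only [h1]
  rw [Finset.sum_eq_single (⟨i, hi⟩ : ↥(X.nongaps m))]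
  · simp
  · intro ν _ hν
    rw [if_neg (Ne.symm hν), mul_zero]
  · intro h
    exact absurd (Finset.mem_univ _) h

/-- **rational automorphisms fix the canonical basis.** -/
theorem smul_canon (g : SemilinearAut Ω 𝔽) (hg : X.IsRatAut g) (ν : ↥(X.nongaps m)) :
    g • ((X.canon hm ν : 𝔽)) = (X.canon hm ν : 𝔽) := by
  have hmem : g • ((X.canon hm ν : 𝔽)) ∈ poleSpace X.cusp m := by
    have := smul_mem_poleSpace g (X.canon hm ν).2
    rwa [hg.smul_cusp] at this
  have h := X.eq_canon_of_pp hm ν ⟨_, hmem⟩ (fun ν' => by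
    -- the principal part of `g • h` is `g` applied to the principal part of `h`
    have h1 := ppMap_spec X.cusp (X.deg_gen _) X.τ X.ord_cusp_τ m (X.canon hm ν)
    have h2 := ordGE_smul g h1
    rw [smul_sub, smul_laurentTail, hg.smul_cusp, hg.smul_τ] at h2
    have h3 := ppMap_eq_of_ordGE X.cusp (X.deg_gen _) X.τ X.ord_cusp_τ m ⟨_, hmem⟩ h2 ν'
    rw [pp, h3]
    have h4 := X.pp_canon hm ν ν'
    rw [pp, ppMap_apply] at h4
    rw [h4]
    split_ifs <;> simp)
  exact congrArg Subtype.val h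

end GoodRed

end Fermat.Agent.FG

end
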