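/-
FG (S19/S32) — helper8 — [COH] (P3): **lifting of sections in the two-chart setting** (abstract,
in the setting of helper9's CONN package).

`B₁ ∋ t`, `B₂ ∋ t⁻¹`, `B₁₂ = B₁[1/t]` subalgebras of an `R`-algebra `E`, `B₁` generated as a module
over `R[t]` by a finite set `s` with `t⁻ᴺ s ⊆ B₂`.  Then for all `m ≥ N`:

* `le_sup_pow_smul` : `B₁₂ ⊆ B₁ + tᵐ B₂`  (vanishing of `H¹(O(m · ∞))`),
* `exists_lift_section` : if `b₁ ∈ B₁`, `b₂ ∈ B₂` and `b₁ - tᵐ b₂ ∈ π B₁₂` then there is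
  `f ∈ B₁ ∩ tᵐ B₂` with `f - b₁ ∈ π B₁`  (sections of the special fibre lift).
-/
import Mathlib
import Fermat.Agent.JA.CONN_helper9_Mod

set_option autoImplicit false

namespace Fermat.Agent.FG

open Fermat.Agent.JA

section Lift

variable {R : Type*} [CommRing R] {E : Type*} [CommRing E] [Algebra R E]

/-- **`H¹(O(m · ∞)) = 0` for `m ≥ N`**: `B₁₂ ⊆ B₁ + tᵐ B₂`. -/
theorem le_sup_pow_smul (t : Eˣ) (B₁ B₂ B₁₂ : Subalgebra R E)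
    (ht₁ : (t : E) ∈ B₁) (ht₂ : ((t⁻¹ : Eˣ) : E) ∈ B₂)
    (hloc₁ : ∀ x ∈ B₁₂, ∃ m : ℕ, (t : E) ^ m * x ∈ B₁)
    (s : Finset E) (hs : ∀ b ∈ s, b ∈ B₁)
    (hgen : ∀ x ∈ B₁, ∃ c : E → Polynomial R,
      x = ∑ b ∈ s, Polynomial.aeval (t : E) (c b) * b)
    (N : ℕ) (hN : ∀ b ∈ s, ((t⁻¹ : Eˣ) : E) ^ N * b ∈ B₂) (m : ℕ) (hm : N ≤ m)
    (y : E) (hy : y ∈ B₁₂) :
    ∃ c₁ ∈ B₁, ∃ c₂ ∈ B₂, y = c₁ + (t : E) ^ m * c₂ := by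
  classical
  set u : E := ((t⁻¹ : Eˣ) : E) with hu
  have hut : u * (t : E) = 1 := by rw [hu]; exact Units.inv_mul t
  have htu : (t : E) * u = 1 := by rw [hu]; exact Units.mul_inv t
  -- the submodule `tᵐ B₂`
  let T : Submodule R E := (Subalgebra.toSubmodule B₂).map (LinearMap.mulLeft R ((t : E) ^ m))
  have hT : ∀ z : E, z ∈ T ↔ ∃ c ∈ B₂, z = (t : E) ^ m * c := by
    intro z
    constructor
    · rintro ⟨c, hc, rfl⟩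
      exact ⟨c, hc, rfl⟩
    · rintro ⟨c, hc, rfl⟩
      exact ⟨c, hc, rfl⟩
  have hpow : ∀ j : ℕ, (t : E) ^ j * u ^ j = 1 := fun j => by rw [← mul_pow, htu, one_pow]
  -- `B₂ ⊆ tᵐ B₂`
  have h2 : Subalgebra.toSubmodule B₂ ≤ T := by
    intro z hz
    rw [hT]
    refine ⟨u ^ m * z, B₂.mul_mem (B₂.pow_mem ht₂ m) hz, ?_⟩
    rw [← mul_assoc, hpow, one_mul]
  -- the polar part lies in `tᵐ B₂`
  have hF : polarSpan R u s N ≤ T := by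
    rw [polarSpan, Submodule.span_le]
    rintro _ ⟨⟨j, b⟩, hjb, rfl⟩
    rw [Finset.mem_coe, Finset.mem_product] at hjb
    have hb : b ∈ s := hjb.2
    show u ^ j * b ∈ T
    rw [hT]
    obtain ⟨l, rfl⟩ := Nat.exists_eq_add_of_le hm
    refine ⟨u ^ (l + j) * (u ^ N * b), B₂.mul_mem (B₂.pow_mem ht₂ _) (hN b hb), ?_⟩
    have h4 : (t : E) ^ (N + l) * u ^ (l + j + N) = u ^ j := by
      have : l + j + N = (N + l) + j := by ring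
      rw [this, pow_add u (N + l) j, ← mul_assoc, hpow, one_mul]
    calc u ^ j * b = (t : E) ^ (N + l) * u ^ (l + j + N) * b := by rw [h4]
      _ = (t : E) ^ (N + l) * (u ^ (l + j) * (u ^ N * b)) := by
        rw [pow_add u (l + j) N]; ring
  have hle := le_polarSpan_sup t B₁ B₂ B₁₂ ht₁ ht₂ hloc₁ s hs hgen N hN
  have hy' : y ∈ Subalgebra.toSubmodule B₁ ⊔ T := by
    have h3 : polarSpan R u s N ⊔ (Subalgebra.toSubmodule B₁ ⊔ Subalgebra.toSubmodule B₂)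
        ≤ Subalgebra.toSubmodule B₁ ⊔ T :=
      sup_le (hF.trans le_sup_right) (sup_le le_sup_left (h2.trans le_sup_right))
    exact h3 (hle hy)
  obtain ⟨c₁, hc₁, z, hz, rfl⟩ := Submodule.mem_sup.mp hy'
  obtain ⟨c₂, hc₂, rfl⟩ := (hT z).mp hz
  exact ⟨c₁, hc₁, c₂, hc₂, rfl⟩

/-- **sections of the special fibre lift**: for `m ≥ N`, if `b₁ ∈ B₁`, `b₂ ∈ B₂` agree modulo
`π B₁₂` (as `b₁ ≡ tᵐ b₂`) then there is `f ∈ B₁ ∩ tᵐ B₂` congruent to `b₁` modulo `π B₁`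
(and `t⁻ᵐ f ≡ b₂` modulo `π B₂`). -/
theorem exists_lift_section (t : Eˣ) (B₁ B₂ B₁₂ : Subalgebra R E)
    (ht₁ : (t : E) ∈ B₁) (ht₂ : ((t⁻¹ : Eˣ) : E) ∈ B₂)
    (hloc₁ : ∀ x ∈ B₁₂, ∃ m : ℕ, (t : E) ^ m * x ∈ B₁)
    (s : Finset E) (hs : ∀ b ∈ s, b ∈ B₁)
    (hgen : ∀ x ∈ B₁, ∃ c : E → Polynomial R,
      x = ∑ b ∈ s, Polynomial.aeval (t : E) (c b) * b)
    (N : ℕ) (hN : ∀ b ∈ s, ((t⁻¹ : Eˣ) : E) ^ N * b ∈ B₂) (m : ℕ) (hm : N ≤ m) (π : R)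
    (b₁ b₂ y : E) (hb₁ : b₁ ∈ B₁) (hb₂ : b₂ ∈ B₂) (hy : y ∈ B₁₂)
    (h : b₁ - (t : E) ^ m * b₂ = π • y) :
    ∃ f c : E, f ∈ B₁ ∧ c ∈ B₂ ∧ f = (t : E) ^ m * c ∧ (∃ z ∈ B₁, f - b₁ = π • z) ∧
      ∃ z ∈ B₂, c - b₂ = π • z := by
  obtain ⟨c₁, hc₁, c₂, hc₂, rfl⟩ :=
    le_sup_pow_smul t B₁ B₂ B₁₂ ht₁ ht₂ hloc₁ s hs hgen N hN m hm y hy
  refine ⟨b₁ - π • c₁, b₂ + π • c₂, B₁.sub_mem hb₁ (B₁.smul_mem hc₁ π),
    B₂.add_mem hb₂ (B₂.smul_mem hc₂ π), ?_, ⟨-c₁, B₁.neg_mem hc₁, ?_⟩, ⟨c₂, hc₂, ?_⟩⟩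
  · rw [smul_add] at h
    rw [mul_add, mul_smul_comm]
    linear_combination (exp := 1) h
  · rw [smul_neg]; ring
  · ring

end Lift

end Fermat.Agent.FG
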