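/-
FG (S19/S32) — helper8 — [COH] (P1a): **Riemann–Roch for pairs of fractional ideals, in any
characteristic.**

Typeclass setting of `FF/RR_helper3_*`: `K` algebraically closed (any characteristic),
`F / K(x)` finite separable, `B` = integral closure of `K[x]`, `Binf` = integral closure of the
local ring at infinity.  For nonzero fractional ideals `I` of `B`, `J` of `Binf`:

* `pairDeg I J = -∑ count P I - ∑ count Q J` (the degree of the corresponding divisor),
* `genusTC K F = dim F / (B + Binf)`,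
* `finrank_pair_ge` : `l(I, J) ≥ pairDeg I J + 1 - g` (Riemann's inequality),
* `finrank_pair_eq` : `l(I, J) = pairDeg I J + 1 - g` if `pairDeg I J ≥ 2 g - 1`.
-/
import Mathlib
import Fermat.Agent.FF.RR_helper3_Main

set_option autoImplicit false
set_option linter.style.haveILetI false
set_option linter.unusedSectionVars false

namespace Fermat.Agent.FG

open Polynomial Module nonZeroDivisors IsDedekindDomain FractionalIdeal Fermat.Agent.FF.RR

section Count

variable {R : Type*} [CommRing R] [IsDedekindDomain R] {L : Type*} [Field L] [Algebra R L]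
  [IsFractionRing R L]

/-- the degree of a fractional ideal: the sum of its exponents. -/
noncomputable def idealDeg (I : FractionalIdeal R⁰ L) : ℤ :=
  ∑ᶠ v : HeightOneSpectrum R, count L v I

theorem support_count_finite (I : FractionalIdeal R⁰ L) :
    (Function.support fun v : HeightOneSpectrum R => count L v I).Finite := by
  have h := finite_factors (K := L) I
  rw [Filter.eventually_cofinite] at h
  exact h

theorem idealDeg_mul {I I' : FractionalIdeal R⁰ L} (hI : I ≠ 0) (hI' : I' ≠ 0) :
    idealDeg (I * I') = idealDeg I + idealDeg I' := by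
  unfold idealDeg
  rw [← finsum_add_distrib (support_count_finite I) (support_count_finite I')]
  exact finsum_congr fun v => count_mul L v hI hI'

theorem idealDeg_one : idealDeg (1 : FractionalIdeal R⁰ L) = 0 := by
  unfold idealDeg
  simp only [count_one]
  exact finsum_zero

theorem idealDeg_inv (I : FractionalIdeal R⁰ L) : idealDeg I⁻¹ = -idealDeg I := by
  unfold idealDeg
  rw [← finsum_neg_distrib]
  exact finsum_congr fun v => count_inv L v I

/-- a larger ideal has smaller degree. -/
theorem idealDeg_le_of_le {I I' : FractionalIdeal R⁰ L} (hI : I ≠ 0)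
    (h : I ≤ I') : idealDeg I' ≤ idealDeg I := by
  unfold idealDeg
  exact finsum_le_finsum' (support_count_finite I') (support_count_finite I)
    (fun v => count_mono L v hI h)

end Count

variable {K F : Type*} [Field K] [IsAlgClosed K] [Field F] [Algebra K F] [Algebra K[X] F]
  [Algebra (RatFunc K) F]
  [IsScalarTower K[X] (RatFunc K) F] [IsScalarTower K K[X] F] [IsScalarTower K (RatFunc K) F]
  [FiniteDimensional (RatFunc K) F] [Algebra.IsSeparable (RatFunc K) F]

local notation "B" => FunctionField.ringOfIntegers K F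
local notation "Binf" => ringAtInfty K F

/-- the degree of the divisor attached to a pair of fractional ideals. -/
noncomputable def pairDeg (I : FractionalIdeal B⁰ F) (J : FractionalIdeal Binf⁰ F) : ℤ :=
  -idealDeg I - idealDeg J

variable (K F) in
/-- the genus, in the currency of the toolbox: `dim F / (B + Binf)`. -/
noncomputable def genusTC : ℕ :=
  finrank K (F ⧸ (finLat (1 : FractionalIdeal B⁰ F) ⊔ infLat (1 : FractionalIdeal Binf⁰ F)))

/-- `χ(1, 1) = 1 - g`. -/
theorem chi_one_one :
    chi (1 : FractionalIdeal B⁰ F) (1 : FractionalIdeal Binf⁰ F) = 1 - (genusTC K F : ℤ) := by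
  rw [chi, finrank_one_one, genusTC]
  rfl

/-- **Riemann–Roch, Euler characteristic form**: `l(I, J) - h¹(I, J) = deg + 1 - g`. -/
theorem chi_eq_pairDeg {I : FractionalIdeal B⁰ F} (hI : I ≠ 0) {J : FractionalIdeal Binf⁰ F}
    (hJ : J ≠ 0) : chi I J = pairDeg I J + 1 - (genusTC K F : ℤ) := by
  rw [chi_eq hI hJ, chi_one_one, pairDeg, idealDeg, idealDeg]
  ring

/-- `l(canonical pair) = g`. -/
theorem finrank_canonical :
    finrank K ↥(finLat (canI K F) ⊓ infLat (canJ K F)) = genusTC K F := by
  rw [genusTC, finrank_quotient_pair 1 one_ne_zero 1 one_ne_zero]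
  rfl

/-- `deg (canonical pair) = 2 g - 2`. -/
theorem pairDeg_canonical : pairDeg (canI K F) (canJ K F) = 2 * (genusTC K F : ℤ) - 2 := by
  have h := two_mul_finrank_canonical (K := K) (F := F)
  rw [finrank_canonical] at h
  rw [pairDeg, idealDeg, idealDeg]
  linarith

/-- the dual pair. -/
theorem dualPair_eq (I : FractionalIdeal B⁰ F) :
    FractionalIdeal.dual K[X] (RatFunc K) I = canI K F * I⁻¹ := by
  rw [canI, dual_eq_mul_inv]

theorem dualPair_eq_inf (J : FractionalIdeal Binf⁰ F) :
    twist (-2) (FractionalIdeal.dual (Oinf K) (RatFunc K) J) = canJ K F * J⁻¹ := by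
  have h : FractionalIdeal.dual (Oinf K) (RatFunc K) J
      = FractionalIdeal.dual (Oinf K) (RatFunc K) 1 * J⁻¹ :=
    dual_eq_mul_inv (Oinf K) (RatFunc K) (I := J)
  rw [h]
  unfold canJ twist
  rw [mul_assoc]

theorem idealDeg_dual_fin {I : FractionalIdeal B⁰ F} (hI : I ≠ 0) :
    idealDeg (FractionalIdeal.dual K[X] (RatFunc K) I) = idealDeg (canI K F) - idealDeg I := by
  have h1 : FractionalIdeal.dual K[X] (RatFunc K) I = canI K F * I⁻¹ := dualPair_eq I
  have h2 : idealDeg (canI K F * I⁻¹) = idealDeg (canI K F) + idealDeg I⁻¹ :=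
    idealDeg_mul (canI_ne_zero (K := K) (F := F)) (inv_ne_zero hI)
  rw [h1, h2, idealDeg_inv]
  ring

theorem idealDeg_dual_inf {J : FractionalIdeal Binf⁰ F} (hJ : J ≠ 0) :
    idealDeg (twist (-2) (FractionalIdeal.dual (Oinf K) (RatFunc K) J))
      = idealDeg (canJ K F) - idealDeg J := by
  have h1 : twist (-2) (FractionalIdeal.dual (Oinf K) (RatFunc K) J) = canJ K F * J⁻¹ :=
    dualPair_eq_inf J
  have h2 : idealDeg (canJ K F * J⁻¹) = idealDeg (canJ K F) + idealDeg J⁻¹ :=
    idealDeg_mul (canJ_ne_zero (K := K) (F := F)) (inv_ne_zero hJ)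
  rw [h1, h2, idealDeg_inv]
  ring

/-- the degree of the dual pair is `2 g - 2 - deg`. -/
theorem pairDeg_dual {I : FractionalIdeal B⁰ F} (hI : I ≠ 0) {J : FractionalIdeal Binf⁰ F}
    (hJ : J ≠ 0) :
    pairDeg (FractionalIdeal.dual K[X] (RatFunc K) I)
      (twist (-2) (FractionalIdeal.dual (Oinf K) (RatFunc K) J))
      = 2 * (genusTC K F : ℤ) - 2 - pairDeg I J := by
  have h := pairDeg_canonical (K := K) (F := F)
  unfold pairDeg at h ⊢
  rw [idealDeg_dual_fin hI, idealDeg_dual_inf hJ]
  linarith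

section Principal

/-- multiplication by a nonzero function, as a `K`-linear automorphism of `F`. -/
noncomputable def mulEquiv (f : F) (hf : f ≠ 0) : F ≃ₗ[K] F :=
  LinearEquiv.ofLinearMap (LinearMap.mulLeft K f) (LinearMap.mulLeft K f⁻¹)
    (by ext x; simp [mul_inv_cancel_left₀ hf])
    (by ext x; simp [inv_mul_cancel_left₀ hf])

@[simp] theorem mulEquiv_apply (f : F) (hf : f ≠ 0) (x : F) : mulEquiv (K := K) f hf x = f * x :=
  rfl

theorem map_finLat_one (f : F) (hf : f ≠ 0) :
    (finLat (1 : FractionalIdeal B⁰ F)).map (mulEquiv (K := K) f hf).toLinearMap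
      = finLat (spanSingleton B⁰ f) := by
  ext x
  rw [Submodule.mem_map, mem_finLat, mem_spanSingleton]
  constructor
  · rintro ⟨y, hy, rfl⟩
    rw [mem_finLat_one] at hy
    refine ⟨⟨y, hy⟩, ?_⟩
    rw [Algebra.smul_def, mul_comm]
    rfl
  · rintro ⟨b, rfl⟩
    refine ⟨(b : F), mem_finLat_one.mpr b.2, ?_⟩
    rw [Algebra.smul_def, mul_comm]
    rfl

theorem map_infLat_one (f : F) (hf : f ≠ 0) :
    (infLat (1 : FractionalIdeal Binf⁰ F)).map (mulEquiv (K := K) f hf).toLinearMap
      = infLat (spanSingleton Binf⁰ f) := by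
  ext x
  rw [Submodule.mem_map, mem_infLat, mem_spanSingleton]
  constructor
  · rintro ⟨y, hy, rfl⟩
    rw [mem_infLat_one] at hy
    refine ⟨⟨y, hy⟩, ?_⟩
    rw [Algebra.smul_def, mul_comm]
    rfl
  · rintro ⟨b, rfl⟩
    refine ⟨(b : F), mem_infLat_one.mpr b.2, ?_⟩
    rw [Algebra.smul_def, mul_comm]
    rfl

/-- the Euler characteristic of a principal pair is that of the trivial pair. -/
theorem chi_principal (f : F) (hf : f ≠ 0) :
    chi (spanSingleton B⁰ f) (spanSingleton Binf⁰ f)
      = chi (1 : FractionalIdeal B⁰ F) (1 : FractionalIdeal Binf⁰ F) := by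
  set e := mulEquiv (K := K) f hf
  have h1 : (finLat (1 : FractionalIdeal B⁰ F) ⊓ infLat (1 : FractionalIdeal Binf⁰ F)).map
      e.toLinearMap = finLat (spanSingleton B⁰ f) ⊓ infLat (spanSingleton Binf⁰ f) := by
    rw [Submodule.map_inf _ e.injective, map_finLat_one, map_infLat_one]
  have h2 : (finLat (1 : FractionalIdeal B⁰ F) ⊔ infLat (1 : FractionalIdeal Binf⁰ F)).map
      e.toLinearMap = finLat (spanSingleton B⁰ f) ⊔ infLat (spanSingleton Binf⁰ f) := by
    rw [Submodule.map_sup, map_finLat_one, map_infLat_one]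
  rw [chi, chi, ← h1, ← h2]
  congr 1
  · exact_mod_cast (e.submoduleMap _).finrank_eq.symm
  · have := (Submodule.Quotient.equiv
      (finLat (1 : FractionalIdeal B⁰ F) ⊔ infLat (1 : FractionalIdeal Binf⁰ F)) _ e rfl).finrank_eq
    exact_mod_cast this.symm

/-- **principal divisors have degree zero.** -/
theorem pairDeg_principal (f : F) (hf : f ≠ 0) :
    pairDeg (spanSingleton B⁰ f) (spanSingleton Binf⁰ f) = 0 := by
  have h0 : spanSingleton B⁰ f ≠ 0 := spanSingleton_ne_zero_iff.mpr hf
  have h0' : spanSingleton Binf⁰ f ≠ 0 := spanSingleton_ne_zero_iff.mpr hf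
  have h := chi_eq_pairDeg (K := K) (F := F) h0 h0'
  rw [chi_principal f hf, chi_one_one] at h
  linarith

end Principal

/-- **a pair of negative degree has no sections.** -/
theorem finLat_inf_infLat_eq_bot {I : FractionalIdeal B⁰ F}
    {J : FractionalIdeal Binf⁰ F} (hdeg : pairDeg I J < 0) :
    finLat I ⊓ infLat J = (⊥ : Submodule K F) := by
  rw [eq_bot_iff]
  intro f hf
  rw [Submodule.mem_bot]
  by_contra hf0
  obtain ⟨hfI, hfJ⟩ := Submodule.mem_inf.mp hf
  rw [mem_finLat] at hfI
  rw [mem_infLat] at hfJ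
  have h0 : spanSingleton B⁰ f ≠ 0 := spanSingleton_ne_zero_iff.mpr hf0
  have h0' : spanSingleton Binf⁰ f ≠ 0 := spanSingleton_ne_zero_iff.mpr hf0
  have h1 : idealDeg I ≤ idealDeg (spanSingleton B⁰ f) :=
    idealDeg_le_of_le h0 (spanSingleton_le_iff_mem.mpr hfI)
  have h2 : idealDeg J ≤ idealDeg (spanSingleton Binf⁰ f) :=
    idealDeg_le_of_le h0' (spanSingleton_le_iff_mem.mpr hfJ)
  have h3 := pairDeg_principal (K := K) f hf0
  rw [pairDeg] at h3 hdeg
  linarith

/-- **Riemann's inequality** for a pair of fractional ideals. -/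
theorem finrank_pair_ge {I : FractionalIdeal B⁰ F} (hI : I ≠ 0) {J : FractionalIdeal Binf⁰ F}
    (hJ : J ≠ 0) :
    pairDeg I J + 1 - (genusTC K F : ℤ) ≤ (finrank K ↥(finLat I ⊓ infLat J) : ℤ) := by
  have h := chi_eq_pairDeg (K := K) (F := F) hI hJ
  rw [chi] at h
  have h2 : (0 : ℤ) ≤ finrank K (F ⧸ (finLat I ⊔ infLat J)) := Int.natCast_nonneg _
  linarith

/-- **Riemann–Roch in large degree** for a pair of fractional ideals. -/
theorem finrank_pair_eq {I : FractionalIdeal B⁰ F} (hI : I ≠ 0) {J : FractionalIdeal Binf⁰ F}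
    (hJ : J ≠ 0) (hdeg : 2 * (genusTC K F : ℤ) - 1 ≤ pairDeg I J) :
    (finrank K ↥(finLat I ⊓ infLat J) : ℤ) = pairDeg I J + 1 - (genusTC K F : ℤ) := by
  have h := chi_eq_pairDeg (K := K) (F := F) hI hJ
  rw [chi, finrank_quotient_pair I hI J hJ] at h
  have hI' : FractionalIdeal.dual K[X] (RatFunc K) I ≠ 0 := dual_ne_zero_iff.mpr hI
  have hJ' : twist (-2) (FractionalIdeal.dual (Oinf K) (RatFunc K) J) ≠ 0 :=
    twist_ne_zero (dual_ne_zero_iff.mpr hJ)
  have hneg : pairDeg (FractionalIdeal.dual K[X] (RatFunc K) I)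
      (twist (-2) (FractionalIdeal.dual (Oinf K) (RatFunc K) J)) < 0 := by
    rw [pairDeg_dual hI hJ]
    linarith
  rw [finLat_inf_infLat_eq_bot hneg, finrank_bot] at h
  push_cast at h
  linarith

/-- vanishing of `h¹` in large degree. -/
theorem finrank_quotient_pair_eq_zero {I : FractionalIdeal B⁰ F} (hI : I ≠ 0)
    {J : FractionalIdeal Binf⁰ F} (hJ : J ≠ 0)
    (hdeg : 2 * (genusTC K F : ℤ) - 1 ≤ pairDeg I J) :
    finrank K (F ⧸ (finLat I ⊔ infLat J)) = 0 := by
  have h := chi_eq_pairDeg (K := K) (F := F) hI hJ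
  rw [chi, finrank_pair_eq hI hJ hdeg] at h
  have : (finrank K (F ⧸ (finLat I ⊔ infLat J)) : ℤ) = 0 := by linarith
  exact_mod_cast this

end Fermat.Agent.FG
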