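/-
FG (S19/S32) — helper8 — [COH] (P1b): **Riemann–Roch in the Prelude's currency, any
characteristic.**

In the typeclass setting of `FF/RR_helper3_*` (`K` algebraically closed of ANY characteristic,
`F / K(x)` finite separable) and for a function field with a separating coordinate
(`coord_exists_riemannRoch`): with `g = genusTC K F = dim F / (B + Binf)`

* `RiemannIneq K F g` : `dim L(D) ≥ deg D + 1 - g` for all divisors `D`,
* `RRLarge K F g` : `dim L(D) = deg D + 1 - g` for `deg D ≥ 2 g - 1`,

in the literal shapes of `FG/CURVE_helper5_Def.lean`.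
-/
import Mathlib
import Fermat.Agent.FG.COH_helper8_RRPair
import Fermat.Agent.FF.PlaceDict
import Fermat.Agent.FG.CURVE_helper5_Def

set_option autoImplicit false
set_option linter.style.haveILetI false
set_option linter.unusedSectionVars false

namespace Fermat.Agent.FG

open Polynomial Module nonZeroDivisors IsDedekindDomain FractionalIdeal AlgebraicCurve WithZero
open Fermat.Agent.FF Fermat.Agent.FF.RR

section General

variable {k F : Type*} [Field k] [Field F] [Algebra k F]
variable {R : Type*} [CommRing R] [IsDedekindDomain R] [Algebra R F] [IsFractionRing R F]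
  [Algebra k R] [IsScalarTower k R F]

/-- the exponents of a divisor on the primes of the chart `R`. -/
noncomputable def divExps (D : Divisor k F) : HeightOneSpectrum R →₀ ℤ :=
  D.comapDomain (fun w : HeightOneSpectrum R => placeOf (k := k) (F := F) w)
    placeOf_injective.injOn

@[simp] theorem divExps_apply (D : Divisor k F) (w : HeightOneSpectrum R) :
    divExps (R := R) D w = D (placeOf (k := k) (F := F) w) := rfl

/-- the fractional ideal of the chart `R` attached to a divisor `D`: `∏ P ^ (-D(P))`. -/
noncomputable def divIdeal (D : Divisor k F) : FractionalIdeal R⁰ F :=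
  (-divExps (R := R) D).prod (fun v e => (v.asIdeal : FractionalIdeal R⁰ F) ^ e)

theorem divIdeal_ne_zero (D : Divisor k F) : divIdeal (R := R) D ≠ 0 := by
  rw [divIdeal, Finsupp.prod, Finset.prod_ne_zero_iff]
  intro v _
  exact zpow_ne_zero _ (coeIdeal_ne_zero.mpr v.ne_bot)

theorem count_divIdeal (D : Divisor k F) (w : HeightOneSpectrum R) :
    count F w (divIdeal (R := R) D) = -D (placeOf (k := k) (F := F) w) := by
  rw [divIdeal, count_finsuppProd]
  rfl

theorem mem_divIdeal_iff (D : Divisor k F) (f : F) :
    f ∈ divIdeal (R := R) D ↔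
      ∀ w : HeightOneSpectrum R, w.valuation F f ≤ exp (D (placeOf (k := k) (F := F) w)) := by
  rw [mem_iff_valuation_le (divIdeal_ne_zero D)]
  refine forall_congr' fun w => ?_
  rw [count_divIdeal, neg_neg]

theorem idealDeg_divIdeal (D : Divisor k F) :
    idealDeg (divIdeal (R := R) D)
      = -∑ᶠ w : HeightOneSpectrum R, D (placeOf (k := k) (F := F) w) := by
  rw [idealDeg, ← finsum_neg_distrib]
  exact finsum_congr fun w => count_divIdeal D w

/-- a quotient by a maximal ideal all of whose classes are represented by constants is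
one-dimensional. -/
theorem finrank_quotient_eq_one (P : Ideal R) [P.IsMaximal]
    (h : ∀ b : R, ∃ c : k, b - algebraMap k R c ∈ P) : finrank k (R ⧸ P) = 1 := by
  rw [finrank_eq_one_iff_of_nonzero' (1 : R ⧸ P) one_ne_zero]
  intro w
  obtain ⟨b, rfl⟩ := Ideal.Quotient.mk_surjective w
  obtain ⟨c, hc⟩ := h b
  refine ⟨c, ?_⟩
  rw [Algebra.smul_def, mul_one, IsScalarTower.algebraMap_apply k R (R ⧸ P),
    Ideal.Quotient.algebraMap_eq, eq_comm, Ideal.Quotient.eq]
  exact hc

end General

section TC

variable {K F : Type*} [Field K] [IsAlgClosed K] [Field F] [Algebra K F] [Algebra K[X] F]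
  [Algebra (RatFunc K) F]
  [IsScalarTower K[X] (RatFunc K) F] [IsScalarTower K K[X] F] [IsScalarTower K (RatFunc K) F]
  [FiniteDimensional (RatFunc K) F] [Algebra.IsSeparable (RatFunc K) F]

local notation "B" => FunctionField.ringOfIntegers K F
local notation "Binf" => ringAtInfty K F

variable (K F) in
/-- all places have degree one (any characteristic). -/
theorem deg_eq_one_TC_anyChar (v : Place K F) : v.deg = 1 := by
  by_cases h : xF K F ∈ v.toValuationSubring
  · obtain ⟨P, rfl⟩ := exists_placeOf_fin_eq v h
    rw [deg_placeOf]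
    haveI := P.isMaximal
    exact finrank_quotient_eq_one P.asIdeal (exists_sub_mem_fin P.asIdeal)
  · obtain ⟨Q, rfl⟩ := exists_placeOf_inf_eq v h
    rw [deg_placeOf]
    haveI := Q.isMaximal
    exact finrank_quotient_eq_one Q.asIdeal (exists_sub_mem_inf Q.asIdeal)

/-- **Riemann–Roch spaces are spaces of sections of pairs of fractional ideals.** -/
theorem riemannRochSpace_eq_pair (D : Divisor K F) :
    riemannRochSpace D
      = finLat (divIdeal (R := B) D) ⊓ infLat (divIdeal (R := Binf) D) := by
  ext f
  rw [mem_riemannRochSpace_iff_valuation, Submodule.mem_inf, mem_finLat, mem_infLat,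
    mem_divIdeal_iff, mem_divIdeal_iff]

/-- the degree of a divisor is the degree of its pair of fractional ideals. -/
theorem degree_eq_pairDeg (D : Divisor K F) :
    Divisor.degree D = pairDeg (divIdeal (R := B) D) (divIdeal (R := Binf) D) := by
  rw [degree_eq_finsum_add_finsum (deg_eq_one_TC_anyChar K F) D, pairDeg,
    idealDeg_divIdeal, idealDeg_divIdeal]
  ring

/-- finite-dimensionality of all Riemann–Roch spaces. -/
theorem finite_riemannRochSpace (D : Divisor K F) :
    Module.Finite K ↥(riemannRochSpace D) := by
  rw [riemannRochSpace_eq_pair]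
  exact (finite_pair _ (divIdeal_ne_zero D) _ (divIdeal_ne_zero D)).1

variable (K F) in
/-- **Riemann's inequality**, any characteristic. -/
theorem riemannIneq_TC : RiemannIneq K F (genusTC K F) := by
  intro D
  refine ⟨finite_riemannRochSpace D, ?_⟩
  rw [degree_eq_pairDeg, riemannRochSpace_eq_pair]
  exact finrank_pair_ge (divIdeal_ne_zero D) (divIdeal_ne_zero D)

/-- **Riemann–Roch in large degree**, any characteristic. -/
theorem finrank_riemannRochSpace_eq (D : Divisor K F)
    (hD : 2 * (genusTC K F : ℤ) - 1 ≤ Divisor.degree D) :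
    (finrank K ↥(riemannRochSpace D) : ℤ) = Divisor.degree D + 1 - (genusTC K F : ℤ) := by
  rw [degree_eq_pairDeg] at hD ⊢
  rw [riemannRochSpace_eq_pair]
  exact finrank_pair_eq (divIdeal_ne_zero D) (divIdeal_ne_zero D) hD

variable (K F) in
/-- **Riemann–Roch in large degree** (`RRLarge`), any characteristic. -/
theorem rrLarge_TC : RRLarge K F (genusTC K F) := by
  intro D hD
  exact ⟨finite_riemannRochSpace D, finrank_riemannRochSpace_eq D hD⟩

end TC

section CoordForm

variable {k F : Type*} [Field k] [Field F] [Algebra k F]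

open IntermediateField

/-- **From a separating `Coord` to the typeclass setting** (any characteristic). -/
theorem coord_exists_typeclass_setting_of_isSeparable (c : Coord k F)
    (hsep : Algebra.IsSeparable ↥k⟮c.x⟯ F) :
    ∃ (_ : Algebra k[X] F) (_ : Algebra (RatFunc k) F) (_ : IsScalarTower k[X] (RatFunc k) F)
      (_ : IsScalarTower k k[X] F) (_ : IsScalarTower k (RatFunc k) F)
      (_ : FiniteDimensional (RatFunc k) F) (_ : Algebra.IsSeparable (RatFunc k) F),
      xF k F = c.x ∧ finrank (RatFunc k) F = finrank ↥k⟮c.x⟯ F ∧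
        ∀ p : k[X], algebraMap k[X] F p = aeval c.x p := by
  letI := c.algPoly
  letI := c.algRat
  haveI := c.tower1
  haveI := c.tower2
  haveI := c.tower3
  haveI : FunctionField k F := c.functionField
  have hs : Algebra.IsSeparable (RatFunc k) F := by
    refine Algebra.IsSeparable.of_equiv_equiv c.ratEquiv.symm (RingEquiv.refl F) ?_
    ext f
    simp only [RingHom.coe_comp, Function.comp_apply, RingEquiv.coe_toRingHom,
      RingEquiv.refl_apply]
    show c.ratEmb (c.ratEquiv.symm f) = (f : F)
    simp [Coord.ratEmb, Coord.ratEquiv]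
  exact ⟨c.algPoly, c.algRat, c.tower1, c.tower2, c.tower3, c.functionField, hs,
    (xF_eq_coord k F).trans c.coord_eq, c.finrank_eq, fun p => rfl⟩

/-- **Riemann–Roch for a function field with a separating coordinate over an algebraically
closed field of any characteristic**: there is `g` with Riemann's inequality for all divisors and
Riemann–Roch (equality) in degree `≥ 2 g - 1`. -/
theorem coord_exists_riemannRoch [IsAlgClosed k] (c : Coord k F)
    (hsep : Algebra.IsSeparable ↥k⟮c.x⟯ F) :
    ∃ g : ℕ, RiemannIneq k F g ∧ RRLarge k F g ∧ (∀ v : Place k F, v.deg = 1) := by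
  obtain ⟨i1, i2, i3, i4, i5, i6, i7, -⟩ :=
    coord_exists_typeclass_setting_of_isSeparable c hsep
  exact ⟨genusTC k F, riemannIneq_TC k F, rrLarge_TC k F, deg_eq_one_TC_anyChar k F⟩

end CoordForm

end Fermat.Agent.FG
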