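/-
FG (S19/S32) — helper8 — [COH] (P2): **the spaces `L(m · (x)_∞)`**, any characteristic.

Typeclass setting of `FF/RR_helper3_*`.  `poleLat m = {f ∈ B : x⁻ᵐ f ∈ Binf}` (functions regular
away from the poles of the coordinate `x`, with poles of order at most `m` times that of `x`
there), `n = [F : K(x)]`:

* `pairDeg_one_twist` : the degree of the pair `(1, xᵐ)` is `m * n`,
* `finrank_poleLat_ge` : `dim L(m (x)_∞) ≥ m n + 1 - g`,
* `finrank_poleLat_eq` : `dim L(m (x)_∞) = m n + 1 - g` as soon as `m n ≥ 2 g - 1`.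
-/
import Mathlib
import Fermat.Agent.FG.COH_helper8_RRDiv
import Fermat.Agent.FF.RRFinal

set_option autoImplicit false
set_option linter.style.haveILetI false
set_option linter.unusedSectionVars false

namespace Fermat.Agent.FG

open Polynomial Module nonZeroDivisors IsDedekindDomain FractionalIdeal AlgebraicCurve WithZero
open Fermat.Agent.FF Fermat.Agent.FF.RR

variable {K F : Type*} [Field K] [IsAlgClosed K] [Field F] [Algebra K F] [Algebra K[X] F]
  [Algebra (RatFunc K) F]
  [IsScalarTower K[X] (RatFunc K) F] [IsScalarTower K K[X] F] [IsScalarTower K (RatFunc K) F]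
  [FiniteDimensional (RatFunc K) F] [Algebra.IsSeparable (RatFunc K) F]

local notation "B" => FunctionField.ringOfIntegers K F
local notation "Binf" => ringAtInfty K F

/-- the order of the coordinate at a finite place is nonnegative. -/
theorem ord_xF_nonneg_fin (P : HeightOneSpectrum B) :
    0 ≤ (placeOf (k := K) (F := F) P).ord (xF K F) :=
  PlaceAux.ord_nonneg_of_mem _ (xF_mem_placeOf P)

/-- **the zeros of the coordinate, counted with multiplicity, are `[F : K(x)]` in number.** -/
theorem idealDeg_span_xF_fin :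
    idealDeg (spanSingleton B⁰ (xF K F)) = (finrank (RatFunc K) F : ℤ) := by
  classical
  have hdeg := deg_eq_one_TC_anyChar K F
  have hsum := sum_zerosOfCoord (k := K) (F := F)
  simp only [hdeg, Nat.cast_one, mul_one] at hsum
  rw [← hsum, idealDeg, zerosOfCoord, Finset.sum_map]
  simp only [Function.Embedding.coeFn_mk]
  rw [finsum_eq_sum_of_support_subset _
    (s := (IsDedekindDomain.primesOverFinset (pX K) B).attach.map
      ⟨zeroPrime K F, zeroPrime_injective⟩), Finset.sum_map]
  · refine Finset.sum_congr rfl fun P _ => ?_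
    simp only [Function.Embedding.coeFn_mk]
    rw [count_spanSingleton_eq_ord (k := K) _ xF_ne_zero, xF_eq_coord]
    rfl
  · intro P hP
    rw [Function.mem_support, count_spanSingleton_eq_ord (k := K) _ xF_ne_zero] at hP
    have hpos : 0 < (placeOf (k := K) (F := F) P).ord (coord K F) := by
      rw [← xF_eq_coord]
      exact lt_of_le_of_ne (ord_xF_nonneg_fin P) (Ne.symm hP)
    have hmem := (mem_zerosOfCoord_iff _).mpr hpos
    rw [zerosOfCoord, Finset.mem_map] at hmem
    obtain ⟨P', hP', hPP'⟩ := hmem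
    simp only [Function.Embedding.coeFn_mk] at hPP'
    rw [Finset.coe_map, Set.mem_image]
    exact ⟨P', hP', placeOf_injective hPP'⟩

/-- the poles of the coordinate, counted with multiplicity, are `[F : K(x)]` in number. -/
theorem idealDeg_span_xF_inf :
    idealDeg (spanSingleton Binf⁰ (xF K F)) = -(finrank (RatFunc K) F : ℤ) := by
  have h := pairDeg_principal (K := K) (xF K F) xF_ne_zero
  rw [pairDeg, idealDeg_span_xF_fin] at h
  linarith

theorem idealDeg_span_xF_zpow_inf (m : ℤ) :
    idealDeg (spanSingleton Binf⁰ (xF K F ^ m)) = -(m * (finrank (RatFunc K) F : ℤ)) := by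
  have h1 : ∀ Q : HeightOneSpectrum Binf,
      count F Q (spanSingleton Binf⁰ (xF K F ^ m))
        = m * count F Q (spanSingleton Binf⁰ (xF K F)) := by
    intro Q
    rw [count_spanSingleton_eq_ord (k := K) Q (zpow_ne_zero m xF_ne_zero),
      count_spanSingleton_eq_ord (k := K) Q xF_ne_zero, Place.ord_zpow]
  have h2 := idealDeg_span_xF_inf (K := K) (F := F)
  rw [idealDeg] at h2 ⊢
  simp only [h1]
  have h3 := mul_finsum (fun Q : HeightOneSpectrum Binf =>
    count F Q (spanSingleton Binf⁰ (xF K F))) m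
  rw [← h3, h2]
  ring

theorem idealDeg_twist (m : ℤ) {J : FractionalIdeal Binf⁰ F} (hJ : J ≠ 0) :
    idealDeg (twist m J) = -(m * (finrank (RatFunc K) F : ℤ)) + idealDeg J := by
  rw [twist, idealDeg_mul (spanSingleton_ne_zero_iff.mpr (zpow_ne_zero m xF_ne_zero)) hJ,
    idealDeg_span_xF_zpow_inf]

/-- the degree of `m · (x)_∞` is `m · [F : K(x)]`. -/
theorem pairDeg_one_twist (m : ℤ) :
    pairDeg (1 : FractionalIdeal B⁰ F) (twist m (1 : FractionalIdeal Binf⁰ F))
      = m * (finrank (RatFunc K) F : ℤ) := by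
  rw [pairDeg, idealDeg_twist m one_ne_zero, idealDeg_one, idealDeg_one]
  ring

variable (K F) in
/-- `L(m · (x)_∞)`: integral over `K[x]`, and `x⁻ᵐ f` integral over the local ring at `∞`. -/
noncomputable def poleLat (m : ℤ) : Submodule K F :=
  finLat (1 : FractionalIdeal B⁰ F) ⊓ infLat (twist m (1 : FractionalIdeal Binf⁰ F))

theorem mem_poleLat {m : ℤ} {f : F} :
    f ∈ poleLat K F m ↔ IsIntegral K[X] f ∧ IsIntegral (Oinf K) (xF K F ^ (-m) * f) := by
  rw [poleLat, Submodule.mem_inf, mem_finLat_one, mem_infLat, mem_twist,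
    FractionalIdeal.mem_one_iff]
  refine and_congr Iff.rfl ?_
  constructor
  · rintro ⟨b, hb⟩
    rw [← hb]
    exact b.2
  · intro h
    exact ⟨⟨_, h⟩, rfl⟩

instance finite_poleLat (m : ℤ) : Module.Finite K ↥(poleLat K F m) :=
  (finite_pair (1 : FractionalIdeal B⁰ F) one_ne_zero (twist m (1 : FractionalIdeal Binf⁰ F))
    (twist_ne_zero one_ne_zero)).1

/-- **Riemann's inequality for `m · (x)_∞`.** -/
theorem finrank_poleLat_ge (m : ℤ) :
    m * (finrank (RatFunc K) F : ℤ) + 1 - (genusTC K F : ℤ) ≤ (finrank K ↥(poleLat K F m) : ℤ) := by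
  have h := finrank_pair_ge (K := K) (F := F) (I := 1) one_ne_zero
    (J := twist m (1 : FractionalIdeal Binf⁰ F)) (twist_ne_zero one_ne_zero)
  rw [pairDeg_one_twist] at h
  exact h

/-- **Riemann–Roch for `m · (x)_∞`, `m` large.** -/
theorem finrank_poleLat_eq (m : ℤ)
    (hm : 2 * (genusTC K F : ℤ) - 1 ≤ m * (finrank (RatFunc K) F : ℤ)) :
    (finrank K ↥(poleLat K F m) : ℤ)
      = m * (finrank (RatFunc K) F : ℤ) + 1 - (genusTC K F : ℤ) := by
  have h := finrank_pair_eq (K := K) (F := F) (I := 1) one_ne_zero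
    (J := twist m (1 : FractionalIdeal Binf⁰ F)) (twist_ne_zero one_ne_zero)
    (by rw [pairDeg_one_twist]; exact hm)
  rw [pairDeg_one_twist] at h
  exact h

end Fermat.Agent.FG
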