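/-
FG (S19/S32) — helper8 — [COH] (P2b): **`L(m · (x)_∞)` in the Prelude's currency (places), and
the coordinate form of Riemann–Roch for these spaces.**

`polePlaceLat c m = {f : f regular where x is, x⁻ᵐ f regular at the poles of x}` for a coordinate
`c : Coord k F` (no typeclass setting needed for the definition).  For `k` algebraically closed of
any characteristic and `c` separating, `coord_exists_riemannRoch_pole` gives ONE `g` with
`RiemannIneq k F g`, `RRLarge k F g` and
`dim polePlaceLat c m ≥ m n + 1 - g` for all `m`, with equality when `m n ≥ 2 g - 1`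
(`n = [F : k(x)]`).
-/
import Mathlib
import Fermat.Agent.FG.COH_helper8_Pole

set_option autoImplicit false
set_option linter.style.haveILetI false
set_option linter.unusedSectionVars false

namespace Fermat.Agent.FG

open Polynomial Module nonZeroDivisors IsDedekindDomain FractionalIdeal AlgebraicCurve WithZero
open Fermat.Agent.FF Fermat.Agent.FF.RR IntermediateField

section General

variable {k F : Type*} [Field k] [Field F] [Algebra k F]

/-- `L(m · (x)_∞)` in terms of places: `f` is regular wherever `x` is, and `x⁻ᵐ f` is regular at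
the poles of `x`. -/
def polePlaceLat (x : F) (m : ℤ) : Submodule k F where
  carrier := {f | ∀ v : Place k F, (x ∈ v.toValuationSubring → f ∈ v.toValuationSubring) ∧
    (x ∉ v.toValuationSubring → x ^ (-m) * f ∈ v.toValuationSubring)}
  zero_mem' := fun v => ⟨fun _ => zero_mem _, fun _ => by rw [mul_zero]; exact zero_mem _⟩
  add_mem' := fun {f g} hf hg v => ⟨fun hx => add_mem ((hf v).1 hx) ((hg v).1 hx),
    fun hx => by rw [mul_add]; exact add_mem ((hf v).2 hx) ((hg v).2 hx)⟩
  smul_mem' := fun a f hf v => ⟨fun hx => by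
      rw [Algebra.smul_def]
      exact mul_mem (v.algebraMap_mem' a) ((hf v).1 hx),
    fun hx => by
      rw [Algebra.smul_def, mul_left_comm]
      exact mul_mem (v.algebraMap_mem' a) ((hf v).2 hx)⟩

theorem mem_polePlaceLat {x : F} {m : ℤ} {f : F} :
    f ∈ polePlaceLat (k := k) x m ↔
      ∀ v : Place k F, (x ∈ v.toValuationSubring → f ∈ v.toValuationSubring) ∧
        (x ∉ v.toValuationSubring → x ^ (-m) * f ∈ v.toValuationSubring) := Iff.rfl

variable {R : Type*} [CommRing R] [IsDedekindDomain R] [Algebra R F] [IsFractionRing R F]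
  [Algebra k R] [IsScalarTower k R F]

/-- a function regular at all places of a Dedekind chart lies in the chart. -/
theorem mem_range_of_forall_mem_placeOf (f : F)
    (h : ∀ w : HeightOneSpectrum R, f ∈ (placeOf (k := k) (F := F) w).toValuationSubring) :
    f ∈ (algebraMap R F).range :=
  HeightOneSpectrum.mem_integers_of_valuation_le_one F f
    (fun w => (mem_placeOf_iff (k := k) w f).mp (h w))

end General

section TC

variable {K F : Type*} [Field K] [IsAlgClosed K] [Field F] [Algebra K F] [Algebra K[X] F]
  [Algebra (RatFunc K) F]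
  [IsScalarTower K[X] (RatFunc K) F] [IsScalarTower K K[X] F] [IsScalarTower K (RatFunc K) F]
  [FiniteDimensional (RatFunc K) F] [Algebra.IsSeparable (RatFunc K) F]

local notation "B" => FunctionField.ringOfIntegers K F
local notation "Binf" => ringAtInfty K F

/-- the two descriptions of `L(m · (x)_∞)` agree. -/
theorem polePlaceLat_eq_poleLat (m : ℤ) :
    polePlaceLat (k := K) (xF K F) m = poleLat K F m := by
  ext f
  rw [mem_polePlaceLat, mem_poleLat]
  constructor
  · intro h
    constructor
    · obtain ⟨b, hb⟩ := mem_range_of_forall_mem_placeOf (k := K) (R := B) f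
        (fun P => (h _).1 (xF_mem_placeOf P))
      rw [← hb]
      exact b.2
    · obtain ⟨b, hb⟩ := mem_range_of_forall_mem_placeOf (k := K) (R := Binf)
        (xF K F ^ (-m) * f) (fun Q => (h _).2 (xF_not_mem_placeOf Q))
      rw [← hb]
      exact b.2
  · rintro ⟨h1, h2⟩ v
    constructor
    · intro hx
      have := ringOfIntegers_mem v (by rwa [← xF_eq_coord]) ⟨f, h1⟩
      exact this
    · intro hx
      exact ringAtInfty_mem v hx ⟨_, h2⟩

end TC

section CoordForm

variable {k F : Type*} [Field k] [Field F] [Algebra k F]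

/-- Riemann's inequality is monotone in the constant. -/
theorem RiemannIneq.mono {g g' : ℕ} (h : RiemannIneq k F g) (hg : g ≤ g') :
    RiemannIneq k F g' := by
  intro D
  obtain ⟨h1, h2⟩ := h D
  refine ⟨h1, ?_⟩
  have : (g : ℤ) ≤ (g' : ℤ) := by exact_mod_cast hg
  linarith

/-- **Riemann–Roch with the spaces `L(m · (x)_∞)`**, for a function field with a separating
coordinate over an algebraically closed field of any characteristic. -/
theorem coord_exists_riemannRoch_pole [IsAlgClosed k] (c : Coord k F)
    (hsep : Algebra.IsSeparable ↥k⟮c.x⟯ F) :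
    ∃ g : ℕ, RiemannIneq k F g ∧ RRLarge k F g ∧ (∀ v : Place k F, v.deg = 1) ∧
      ∀ m : ℤ, Module.Finite k ↥(polePlaceLat (k := k) c.x m) ∧
        m * (c.degree : ℤ) + 1 - (g : ℤ) ≤ (finrank k ↥(polePlaceLat (k := k) c.x m) : ℤ) ∧
        (2 * (g : ℤ) - 1 ≤ m * (c.degree : ℤ) →
          (finrank k ↥(polePlaceLat (k := k) c.x m) : ℤ) = m * (c.degree : ℤ) + 1 - (g : ℤ)) := by
  obtain ⟨i1, i2, i3, i4, i5, i6, i7, hx, hn, -⟩ :=
    coord_exists_typeclass_setting_of_isSeparable c hsep
  refine ⟨genusTC k F, riemannIneq_TC k F, rrLarge_TC k F, deg_eq_one_TC_anyChar k F,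
    fun m => ?_⟩
  have hdeg : (c.degree : ℤ) = (finrank (RatFunc k) F : ℤ) := by
    rw [Coord.degree, hn]
  rw [← hx, polePlaceLat_eq_poleLat, hdeg]
  exact ⟨finite_poleLat m, finrank_poleLat_ge m, finrank_poleLat_eq m⟩

end CoordForm

end Fermat.Agent.FG
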