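/-
FG (S19/S32) — helper8 — [COH] (P4a): **sections of `O(m · (x)_∞)` in integrality currency.**

`IsPoleSection k x m f` : `f` is integral over `k[x]` and `x⁻ᵐ f` is integral over `k[x⁻¹]`
(instance-free: integrality with respect to the ring homomorphisms `aeval x`, `aeval x⁻¹`).
This notion is transported along ring homomorphisms for free.

* `IsPoleSection.mem_polePlaceLat` (no hypothesis): a pole section lies in `L(m · (x)_∞)`,
* `isPoleSection_of_mem_polePlaceLat` (separating coordinate, `k` algebraically closed): converse.
-/
import Mathlib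
import Fermat.Agent.FG.COH_helper8_PolePlace

set_option autoImplicit false
set_option linter.style.haveILetI false
set_option linter.unusedSectionVars false

namespace Fermat.Agent.FG

open Polynomial Module nonZeroDivisors IsDedekindDomain FractionalIdeal AlgebraicCurve WithZero
open Fermat.Agent.FF Fermat.Agent.FF.RR IntermediateField

section Def

variable (k : Type*) {F : Type*} [Field k] [Field F] [Algebra k F]

/-- `f` is integral over `k[x]` and `x⁻ᵐ f` is integral over `k[x⁻¹]`. -/
def IsPoleSection (x : F) (m : ℕ) (f : F) : Prop :=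
  (aeval (R := k) x).toRingHom.IsIntegralElem f ∧
    (aeval (R := k) x⁻¹).toRingHom.IsIntegralElem (x⁻¹ ^ m * f)

variable {k}

/-- an element integral with respect to a ring homomorphism with values in a valuation subring
lies in the valuation subring. -/
theorem mem_valuationSubring_of_isIntegralElem {R : Type*} [CommRing R] (φ : R →+* F)
    (O : ValuationSubring F) (h : ∀ r : R, φ r ∈ O) {f : F} (hf : φ.IsIntegralElem f) : f ∈ O := by
  letI : Algebra R F := φ.toAlgebra
  exact mem_of_isIntegral_of_forall_mem O (A := R) h hf

theorem aeval_mem_of_mem (v : Place k F) {y : F} (hy : y ∈ v.toValuationSubring) (p : k[X]) :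
    aeval y p ∈ v.toValuationSubring := by
  induction p using Polynomial.induction_on with
  | C a =>
    rw [aeval_C]
    exact v.algebraMap_mem' a
  | add p q hp hq => rw [map_add]; exact add_mem hp hq
  | monomial n a h =>
    rw [pow_succ, ← mul_assoc, map_mul, aeval_X]
    exact mul_mem h hy

/-- **a pole section lies in `L(m · (x)_∞)`** (no hypothesis on the field). -/
theorem IsPoleSection.mem_polePlaceLat {x : F} {m : ℕ} {f : F} (h : IsPoleSection k x m f) :
    f ∈ polePlaceLat (k := k) x (m : ℤ) := by
  intro v
  constructor
  · intro hx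
    exact mem_valuationSubring_of_isIntegralElem _ v.toValuationSubring
      (fun p => aeval_mem_of_mem v hx p) h.1
  · intro hx
    have hx' : x⁻¹ ∈ v.toValuationSubring :=
      (v.toValuationSubring.mem_or_inv_mem x).resolve_left hx
    have := mem_valuationSubring_of_isIntegralElem _ v.toValuationSubring
      (fun p => aeval_mem_of_mem v hx' p) h.2
    rwa [zpow_neg, zpow_natCast, ← inv_pow]

/-- transport of pole sections along a ring homomorphism compatible with the constants. -/
theorem IsPoleSection.map {k' F' : Type*} [Field k'] [Field F'] [Algebra k' F']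
    (σ : k →+* k') (φ : F →+* F') (hφ : ∀ a : k, φ (algebraMap k F a) = algebraMap k' F' (σ a))
    {x : F} {m : ℕ} {f : F} (h : IsPoleSection k x m f) : IsPoleSection k' (φ x) m (φ f) := by
  have key : ∀ y : F, ∀ g : F, (aeval (R := k) y).toRingHom.IsIntegralElem g →
      (aeval (R := k') (φ y)).toRingHom.IsIntegralElem (φ g) := by
    intro y g hg
    have h1 := hg.map φ
    have h2 : φ.comp (aeval (R := k) y).toRingHom
        = ((aeval (R := k') (φ y)).toRingHom).comp (Polynomial.mapRingHom σ) := by
      apply Polynomial.ringHom_ext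
      · intro a
        simp [hφ]
      · simp
    rw [h2] at h1
    exact h1.of_comp
  refine ⟨key x f h.1, ?_⟩
  have := key x⁻¹ _ h.2
  rwa [map_mul, map_pow, map_inv₀] at this

/-- descent of pole sections along an injective ring homomorphism which is bijective on the
constants. -/
theorem IsPoleSection.of_map {k' F' : Type*} [Field k'] [Field F'] [Algebra k' F']
    (σ : k →+* k') (hσ : Function.Surjective σ) (φ : F →+* F')
    (hφ : ∀ a : k, φ (algebraMap k F a) = algebraMap k' F' (σ a))
    {x : F} {m : ℕ} {f : F} (h : IsPoleSection k' (φ x) m (φ f)) : IsPoleSection k x m f := by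
  have key : ∀ y : F, ∀ g : F, (aeval (R := k') (φ y)).toRingHom.IsIntegralElem (φ g) →
      (aeval (R := k) y).toRingHom.IsIntegralElem g := by
    intro y g hg
    have h2 : φ.comp (aeval (R := k) y).toRingHom
        = ((aeval (R := k') (φ y)).toRingHom).comp (Polynomial.mapRingHom σ) := by
      apply Polynomial.ringHom_ext
      · intro a
        simp [hφ]
      · simp
    obtain ⟨p, hp, hpe⟩ := hg
    have hσ' : Function.Surjective (Polynomial.mapRingHom σ) := Polynomial.map_surjective σ hσ
    obtain ⟨q, hq, -, hqm⟩ := Polynomial.lifts_and_natDegree_eq_and_monic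
      (f := Polynomial.mapRingHom σ)
      ((Polynomial.mem_lifts p).mpr (Polynomial.map_surjective _ hσ' p)) hp
    refine RingHom.IsIntegralElem.of_map (g := φ) φ.injective ⟨q, hqm, ?_⟩
    rw [h2, ← Polynomial.eval₂_map, hq]
    exact hpe
  refine ⟨key x f h.1, ?_⟩
  apply key x⁻¹
  have := h.2
  rwa [map_mul, map_pow, map_inv₀]

end Def

section Converse

variable {k F : Type*} [Field k] [Field F] [Algebra k F]

/-- regularity at all places where the coordinate is regular implies integrality over `k[x]`. -/
theorem isIntegralElem_aeval_of_forall_mem [IsAlgClosed k] (c : Coord k F)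
    (hsep : Algebra.IsSeparable ↥k⟮c.x⟯ F) {f : F}
    (hf : ∀ v : Place k F, c.x ∈ v.toValuationSubring → f ∈ v.toValuationSubring) :
    (aeval (R := k) c.x).toRingHom.IsIntegralElem f := by
  obtain ⟨i1, i2, i3, i4, i5, i6, i7, hx, -, halg⟩ :=
    coord_exists_typeclass_setting_of_isSeparable c hsep
  obtain ⟨b, hb⟩ := mem_range_of_forall_mem_placeOf (k := k)
    (R := FunctionField.ringOfIntegers k F) f
    (fun P => hf _ (by rw [← hx]; exact xF_mem_placeOf P))
  have h1 : IsIntegral k[X] f := by
    rw [← hb]
    exact b.2
  have h2 : algebraMap k[X] F = (aeval (R := k) c.x).toRingHom := by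
    ext p
    · simp [halg]
    · simp [halg]
  rw [IsIntegral, h2] at h1
  exact h1

/-- **an element of `L(m · (x)_∞)` is a pole section** (separating coordinate, `k` algebraically
closed). -/
theorem isPoleSection_of_mem_polePlaceLat [IsAlgClosed k] (c : Coord k F)
    (hsep : Algebra.IsSeparable ↥k⟮c.x⟯ F) {m : ℕ} {f : F}
    (hf : f ∈ polePlaceLat (k := k) c.x (m : ℤ)) : IsPoleSection k c.x m f := by
  refine ⟨isIntegralElem_aeval_of_forall_mem c hsep (fun v hv => (hf v).1 hv), ?_⟩
  have hsep' : Algebra.IsSeparable ↥k⟮c.inv.x⟯ F := by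
    have h := Coord.adjoin_inv (k := k) c.x
    rw [Coord.inv_x, h]
    exact hsep
  have := isIntegralElem_aeval_of_forall_mem c.inv hsep' (f := c.x⁻¹ ^ m * f) (fun v hv => ?_)
  · exact this
  · rw [Coord.inv_x] at hv
    by_cases hx : c.x ∈ v.toValuationSubring
    · exact mul_mem (pow_mem hv m) ((hf v).1 hx)
    · have := (hf v).2 hx
      rwa [zpow_neg, zpow_natCast, ← inv_pow] at this

end Converse

end Fermat.Agent.FG
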