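/-
FG (S19/S32) — helper8 — [COH] (P4): **base-level lifting of pole sections** in lead's GEO setting
(`GeoHyps`, the charts `B₁ = integralClosure R[t] E`, `B₂ = integralClosure R[t⁻¹] E`, the residue
field `κ(W)` of the unique extension `W` of the Gauss valuation).

* `exists_chart_lift_of_isIntegralElem` : an element of `κ(W)` integral over `k[t̃]` is the
  reduction of an element of the chart `B₁` (`B₁ / π B₁` is a Dedekind domain with fraction field
  `κ(W)`),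
* `exists_lift_poleSection` : there is `m₀` such that for `m ≥ m₀` every pole section
  `f̃ ∈ L(m · (t̃)_∞)` of the special fibre is the reduction of some `f ∈ B₁ ∩ tᵐ B₂`.
-/
import Mathlib
import Fermat.Agent.JA.REDO_helper1_GeoTwo
import Fermat.Agent.JA.CHARTADJ_helper6_Integral
import Fermat.Agent.JA.CHARTADJ_helper7
import Fermat.Agent.FG.COH_helper8_Lift
import Fermat.Agent.FG.COH_helper8_Sect

set_option autoImplicit false
set_option linter.unusedSectionVars false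
set_option linter.style.haveILetI false

open AlgebraicCurve IsLocalRing IsDedekindDomain Polynomial

namespace Fermat.Agent.FG

open Fermat.Agent.FF Fermat.Agent.JA

section BaseLift

variable {R : Type*} [CommRing R] [IsDomain R] [IsDiscreteValuationRing R] [CharZero R]
  {K₁ : Type*} [Field K₁] [Algebra R K₁] [IsFractionRing R K₁]
  {K : Type*} [Field K] [Algebra K₁ K] [Algebra R K] [IsScalarTower R K₁ K]
  {E : Type*} [Field E] [Algebra K E] [Algebra K₁ E] [IsScalarTower K₁ K E]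
  [Algebra R E] [IsScalarTower R K E] [IsScalarTower R K₁ E]
  {π : R} {t : K} {n : ℕ} {S S' : Finset R}
  {k : Type*} [Field k]
  (h : GeoHyps K₁ π t E n S) (h' : GeoHyps K₁ π t⁻¹ E n S')
  (𝒱 : ValuationSubring K) (h𝒱 : IsGaussAt R π t 𝒱) (h𝒱' : IsGaussAt R π t⁻¹ 𝒱)
  [IsLocalRing ↥(integralClosure ↥𝒱 E)]
  (res : R →+* k) (hres : Function.Surjective res)

/-- the reduction `t̃ ∈ κ(W)` of the coordinate. -/
noncomputable def geoTb (h : GeoHyps K₁ π t E n S) (𝒱 : ValuationSubring K)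
    (h𝒱 : IsGaussAt R π t 𝒱) [IsLocalRing ↥(integralClosure ↥𝒱 E)] :
    IsLocalRing.ResidueField ↥(integralClosure ↥𝒱 E) :=
  IsLocalRing.residue _ ⟨algebraMap K E t,
    isIntegral_gauss_of_mem_chart h 𝒱 h𝒱 (geoCoord E t)⟩

theorem geoTb_eq (hint : IsIntegral ↥𝒱 (algebraMap K E t)) :
    geoTb h 𝒱 h𝒱 = IsLocalRing.residue _ ⟨algebraMap K E t, hint⟩ := rfl

set_option maxHeartbeats 800000 in
/-- **an element of `κ(W)` integral over `k[t̃]` lifts to the chart.** -/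
theorem exists_chart_lift_of_isIntegralElem :
    letI := geoAlgKEt h.irreducible 𝒱 (fun r => h𝒱.algebraMap_mem r)
      (residue_gaussConst_pi h 𝒱 h𝒱) res hres
    ∀ fb : IsLocalRing.ResidueField ↥(integralClosure ↥𝒱 E),
      (aeval (R := k) (geoTb h 𝒱 h𝒱)).toRingHom.IsIntegralElem fb →
      ∃ (b : E) (_ : IsIntegral ↥(Algebra.adjoin R {t}) b) (hb' : IsIntegral ↥𝒱 b),
        IsLocalRing.residue _ ⟨b, hb'⟩ = fb := by
  letI := geoAlgKEt h.irreducible 𝒱 (fun r => h𝒱.algebraMap_mem r)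
    (residue_gaussConst_pi h 𝒱 h𝒱) res hres
  letI := geoAlgKBbar E h.irreducible res hres t
  letI := (geoIota h 𝒱 h𝒱).toAlgebra
  haveI := h.isDedekindDomain
  haveI := geoChart_isFractionRing_Bbar h 𝒱 h𝒱
  haveI := geoChart_isScalarTower h 𝒱 h𝒱 res hres
  intro fb hfb
  have htb : geoTb h 𝒱 h𝒱 = algebraMap
      (Bbar ↥(Algebra.adjoin R {t}) ↥(integralClosure ↥(Algebra.adjoin R {t}) E)
        (algebraMap R ↥(Algebra.adjoin R {t}) π))
      (IsLocalRing.ResidueField ↥(integralClosure ↥𝒱 E))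
      (mkB (A := ↥(Algebra.adjoin R {t})) (algebraMap R ↥(Algebra.adjoin R {t}) π)
        (geoCoord E t)) :=
    (geoIota_mkB h 𝒱 h𝒱 (geoCoord E t)
      (isIntegral_gauss_of_mem_chart h 𝒱 h𝒱 (geoCoord E t))).symm
  have hcomp : (aeval (R := k) (geoTb h 𝒱 h𝒱)).toRingHom =
      (algebraMap (Bbar ↥(Algebra.adjoin R {t}) ↥(integralClosure ↥(Algebra.adjoin R {t}) E)
        (algebraMap R ↥(Algebra.adjoin R {t}) π))
        (IsLocalRing.ResidueField ↥(integralClosure ↥𝒱 E))).comp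
      (aeval (R := k) (mkB (A := ↥(Algebra.adjoin R {t}))
        (algebraMap R ↥(Algebra.adjoin R {t}) π) (geoCoord E t))).toRingHom := by
    ext p
    · simp only [AlgHom.toRingHom_eq_coe, RingHom.coe_comp, RingHom.coe_coe, Function.comp_apply,
        aeval_C]
      rw [← IsScalarTower.algebraMap_apply]
    · simp only [AlgHom.toRingHom_eq_coe, RingHom.coe_comp, RingHom.coe_coe, Function.comp_apply,
        aeval_X]
      exact htb
  rw [hcomp] at hfb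
  have h1 : IsIntegral (Bbar ↥(Algebra.adjoin R {t}) ↥(integralClosure ↥(Algebra.adjoin R {t}) E)
      (algebraMap R ↥(Algebra.adjoin R {t}) π)) fb := hfb.of_comp
  obtain ⟨y, hy⟩ := IsIntegrallyClosed.isIntegral_iff.mp h1
  obtain ⟨x, rfl⟩ := Ideal.Quotient.mk_surjective y
  refine ⟨(x : E), x.2, isIntegral_gauss_of_mem_chart h 𝒱 h𝒱 x, ?_⟩
  rw [← hy]
  exact (geoIota_mkB h 𝒱 h𝒱 x _).symm

theorem geoTb_inv_mul : geoTb h' 𝒱 h𝒱' * geoTb h 𝒱 h𝒱 = 1 := by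
  have ht0 : t ≠ 0 := h.ne_zero
  unfold geoTb
  rw [← map_mul, ← map_one (IsLocalRing.residue ↥(integralClosure ↥𝒱 E))]
  congr 1
  apply Subtype.ext
  change algebraMap K E t⁻¹ * algebraMap K E t = 1
  rw [← map_mul, inv_mul_cancel₀ ht0, map_one]

theorem geoTb_inv : geoTb h' 𝒱 h𝒱' = (geoTb h 𝒱 h𝒱)⁻¹ :=
  eq_inv_of_mul_eq_one_left (geoTb_inv_mul h h' 𝒱 h𝒱 h𝒱')

include h' h𝒱' in
theorem geoTb_ne_zero : geoTb h 𝒱 h𝒱 ≠ 0 :=
  right_ne_zero_of_mul_eq_one (geoTb_inv_mul h h' 𝒱 h𝒱 h𝒱')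

include h' h𝒱' in
set_option maxHeartbeats 1600000 in
/-- **base-level lifting of pole sections**: there is `m₀` such that for `m ≥ m₀` every section
of `O(m · (t̃)_∞)` on the special fibre is the reduction of an element of `B₁ ∩ tᵐ B₂`. -/
theorem exists_lift_poleSection :
    letI := geoAlgKEt h.irreducible 𝒱 (fun r => h𝒱.algebraMap_mem r)
      (residue_gaussConst_pi h 𝒱 h𝒱) res hres
    ∃ m₀ : ℕ, ∀ m : ℕ, m₀ ≤ m → ∀ fb : IsLocalRing.ResidueField ↥(integralClosure ↥𝒱 E),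
      IsPoleSection k (geoTb h 𝒱 h𝒱) m fb →
      ∃ f : E, IsIntegral ↥(Algebra.adjoin R {t}) f ∧
        IsIntegral ↥(Algebra.adjoin R {t⁻¹}) ((algebraMap K E t)⁻¹ ^ m * f) ∧
        ∃ hf : IsIntegral ↥𝒱 f, IsLocalRing.residue _ ⟨f, hf⟩ = fb := by
  classical
  letI := geoAlgKEt h.irreducible 𝒱 (fun r => h𝒱.algebraMap_mem r)
    (residue_gaussConst_pi h 𝒱 h𝒱) res hres
  haveI := h.finite
  have ht0 : t ≠ 0 := h.ne_zero
  have hT := aeval_adjoin_bijective (R := R) (K₁ := K₁) t h.transcendental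
  obtain ⟨-, ufd, noeth, cz, hπA, pir⟩ := poly_instances _ hT π h.irreducible
  have frac : IsFractionRing ↥(Algebra.adjoin R {t}) K :=
    isFractionRing_adjoin (R := R) (K₁ := K₁) t h.adjoin_eq_top
  obtain ⟨ic, fin, -⟩ := integralClosure_instances ↥(Algebra.adjoin R {t}) K E
  have hfaith : FaithfulSMul ↥(Algebra.adjoin R {t}) E := by
    rw [faithfulSMul_iff_algebraMap_injective]
    rw [IsScalarTower.algebraMap_eq ↥(Algebra.adjoin R {t}) K E]
    exact (algebraMap K E).injective.comp (IsFractionRing.injective _ K)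
  have h𝒱eq : 𝒱 = primeValSubring K hπA :=
    eq_primeValSubring_of_isGaussAt (K₁ := K₁) π t h.transcendental hπA 𝒱 h𝒱
  set tE : E := algebraMap K E t with htE
  have htE0 : tE ≠ 0 := by rw [htE, Ne, map_eq_zero]; exact ht0
  have ht₁ : IsIntegral ↥(Algebra.adjoin R {t}) tE := by
    have : tE = algebraMap ↥(Algebra.adjoin R {t}) E
        ⟨t, Algebra.self_mem_adjoin_singleton R t⟩ := rfl
    rw [this]; exact isIntegral_algebraMap
  have ht₂ : IsIntegral ↥(Algebra.adjoin R {t⁻¹}) tE⁻¹ := by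
    have : tE⁻¹ = algebraMap ↥(Algebra.adjoin R {t⁻¹}) E
        ⟨t⁻¹, Algebra.self_mem_adjoin_singleton R t⁻¹⟩ := by
      rw [htE, ← map_inv₀]; rfl
    rw [this]; exact isIntegral_algebraMap
  let B₁ : Subalgebra R E := (integralClosure ↥(Algebra.adjoin R {t}) E).restrictScalars R
  let B₂ : Subalgebra R E := (integralClosure ↥(Algebra.adjoin R {t⁻¹}) E).restrictScalars R
  let B₁₂ : Subalgebra R E :=
    { carrier := {x | ∃ m : ℕ, tE ^ m * x ∈ B₁}
      mul_mem' := by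
        rintro x y ⟨m, hx⟩ ⟨m', hy⟩
        refine ⟨m + m', ?_⟩
        have : tE ^ (m + m') * (x * y) = (tE ^ m * x) * (tE ^ m' * y) := by ring
        rw [this]; exact B₁.mul_mem hx hy
      add_mem' := by
        rintro x y ⟨m, hx⟩ ⟨m', hy⟩
        refine ⟨m + m', ?_⟩
        have : tE ^ (m + m') * (x + y) = tE ^ m' * (tE ^ m * x) + tE ^ m * (tE ^ m' * y) := by
          ring
        rw [this]
        exact B₁.add_mem (B₁.mul_mem (B₁.pow_mem ht₁ _) hx) (B₁.mul_mem (B₁.pow_mem ht₁ _) hy)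
      algebraMap_mem' := fun r => ⟨0, by
        rw [pow_zero, one_mul]; exact B₁.algebraMap_mem r⟩ }
  obtain ⟨s, hs, hgen⟩ := exists_finset_span_integralClosure (R := R) (K₁ := K₁) (E := E) t
    h.transcendental h.adjoin_eq_top
  have hpole : ∀ b ∈ s, ∃ N : ℕ, tE⁻¹ ^ N * b ∈ B₂ := by
    intro b hb
    have hb' : IsIntegral ↥(Algebra.adjoin R {t⁻¹⁻¹}) b := by
      rw [inv_inv]; exact hs b hb
    obtain ⟨N, hN⟩ := exists_pow_mul_isIntegral (R := R) t⁻¹ (inv_ne_zero ht0) b hb'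
    refine ⟨N, ?_⟩
    rw [map_inv₀] at hN
    exact hN
  obtain ⟨N, hN⟩ := exists_uniform_pole tE⁻¹ B₂ ht₂ s hpole
  refine ⟨N, fun m hm fb hfb => ?_⟩
  obtain ⟨b₁, hb₁, hb₁', hb₁r⟩ :=
    exists_chart_lift_of_isIntegralElem h 𝒱 h𝒱 res hres fb hfb.1
  have hfb2 : (aeval (R := k) (geoTb h' 𝒱 h𝒱')).toRingHom.IsIntegralElem
      ((geoTb h' 𝒱 h𝒱') ^ m * fb) := by
    rw [geoTb_inv h h' 𝒱 h𝒱 h𝒱']; exact hfb.2
  obtain ⟨b₂, hb₂, hb₂', hb₂r⟩ :=
    exists_chart_lift_of_isIntegralElem h' 𝒱 h𝒱' res hres _ hfb2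
  -- the difference lies in the maximal ideal of `W`
  have htint : IsIntegral ↥𝒱 tE := isIntegral_gauss_of_mem_chart h 𝒱 h𝒱 (geoCoord E t)
  set w₀ : ↥(integralClosure ↥𝒱 E) := ⟨b₁, hb₁'⟩ - ⟨tE, htint⟩ ^ m * ⟨b₂, hb₂'⟩ with hw₀
  have hw₀r : IsLocalRing.residue _ w₀ = 0 := by
    rw [hw₀, map_sub, map_mul, map_pow, hb₁r, hb₂r]
    change fb - geoTb h 𝒱 h𝒱 ^ m * (geoTb h' 𝒱 h𝒱' ^ m * fb) = 0
    rw [← mul_assoc, ← mul_pow, mul_comm (geoTb h 𝒱 h𝒱), geoTb_inv_mul h h' 𝒱 h𝒱 h𝒱', one_pow,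
      one_mul, sub_self]
  have hmem : w₀ ∈ IsLocalRing.maximalIdeal ↥(integralClosure ↥𝒱 E) :=
    (IsLocalRing.residue_eq_zero_iff _).mp hw₀r
  obtain ⟨v, hv, hwv⟩ := ((geo_chart_residue (K₁ := K₁) (E := E) π h.irreducible t
    h.transcendental h.adjoin_eq_top h.gauss 𝒱 h𝒱).1 w₀).mp hmem
  have hw₀E : (w₀ : E) = b₁ - tE ^ m * b₂ := rfl
  -- `v ∈ B₁₂`
  obtain ⟨j, hj⟩ := exists_pow_mul_isIntegral (R := R) t ht0 b₂ hb₂
  have h1 : IsIntegral ↥(Algebra.adjoin R {t}) (tE ^ j * (b₁ - tE ^ m * b₂)) := by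
    have : tE ^ j * (b₁ - tE ^ m * b₂) = tE ^ j * b₁ - tE ^ m * (tE ^ j * b₂) := by ring
    rw [this]
    exact ((ht₁.pow j).mul hb₁).sub ((ht₁.pow m).mul hj)
  have hv' : IsIntegral ↥(primeValSubring K hπA) (tE ^ j * v) :=
    isIntegral_valuationSubring_congr h𝒱eq ((htint.pow j).mul hv)
  have h2 : IsIntegral ↥(Algebra.adjoin R {t}) (tE ^ j * v) := by
    refine isIntegral_of_mul_eq (K := K) hπA h1 hv' ?_
    rw [← hw₀E, hwv]
    have : algebraMap ↥(Algebra.adjoin R {t}) E (algebraMap R ↥(Algebra.adjoin R {t}) π) =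
        algebraMap K E (algebraMap R K π) := rfl
    rw [this]; ring
  have hvB : v ∈ B₁₂ := ⟨j, h2⟩
  have hy : b₁ - ((Units.mk0 tE htE0 : Eˣ) : E) ^ m * b₂ = π • v := by
    rw [Units.val_mk0, ← hw₀E, hwv, Algebra.smul_def, IsScalarTower.algebraMap_apply R K E]
  obtain ⟨f, c, hf, hc, hfc, ⟨z, hz, hfz⟩, -⟩ := exists_lift_section (Units.mk0 tE htE0) B₁ B₂ B₁₂
    ht₁ (by
      change ((Units.mk0 tE htE0)⁻¹ : Eˣ).val ∈ B₂
      rw [Units.val_inv_eq_inv_val, Units.val_mk0]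
      exact ht₂)
    (fun x hx => hx) s hs (fun x hx => hgen x hx) N (by
      intro b hb
      change ((Units.mk0 tE htE0)⁻¹ : Eˣ).val ^ N * b ∈ B₂
      rw [Units.val_inv_eq_inv_val, Units.val_mk0]
      exact hN b hb) m hm π b₁ b₂ v hb₁ hb₂ hvB hy
  have hfint : IsIntegral ↥𝒱 f := isIntegral_gauss_of_mem_chart h 𝒱 h𝒱 ⟨f, hf⟩
  refine ⟨f, hf, ?_, hfint, ?_⟩
  · have : tE⁻¹ ^ m * f = c := by
      rw [hfc, Units.val_mk0, ← mul_assoc, ← mul_pow, inv_mul_cancel₀ htE0, one_pow, one_mul]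
    rw [this]; exact hc
  · have hzint : IsIntegral ↥𝒱 z := isIntegral_gauss_of_mem_chart h 𝒱 h𝒱 ⟨z, hz⟩
    have : (⟨f, hfint⟩ : ↥(integralClosure ↥𝒱 E)) = ⟨b₁, hb₁'⟩ +
        gaussConst (E := E) 𝒱 (fun r => h𝒱.algebraMap_mem r) π * ⟨z, hzint⟩ := by
      apply Subtype.ext
      change f = b₁ + algebraMap R E π * z
      rw [← Algebra.smul_def, ← hfz]; ring
    rw [this, map_add, map_mul, residue_gaussConst_pi h 𝒱 h𝒱, zero_mul, add_zero, hb₁r]

end BaseLift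

end Fermat.Agent.FG
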