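/-
FG (S19/S32) — helper8 — [COH] (P5, abstract): **semicontinuity of the genus from lifting of
sections.**

`Ω ⊇ A` algebraically closed valued field of characteristic zero, `k = A / 𝔪` algebraically
closed, `𝔽 / Ω` and `𝔽b / k` function fields, `W ⊆ 𝔽` a valuation subring with a reduction map
`ρ : W → 𝔽b` compatible with the residue map of `A`; `c`, `cb` coordinates with
`deg c ≤ deg cb`, `cb` separating.  If for all large `m` every pole section of `O(m (x̄)_∞)` on the special fibre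
lifts to an element of `W ∩ L(m (x)_∞)`, then there is ONE `g` with

  `RiemannIneq Ω 𝔽 g`,  `RiemannIneq k 𝔽b g`,  `RRLarge k 𝔽b g`

(`g` = the genus of the special fibre; the proof shows `g_Ω ≤ g`).
-/
import Mathlib
import Fermat.Agent.FG.COH_helper8_Sect

set_option autoImplicit false
set_option linter.style.haveILetI false
set_option linter.unusedSectionVars false

namespace Fermat.Agent.FG

open Polynomial Module AlgebraicCurve IsLocalRing IntermediateField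
open Fermat.Agent.FF

section Indep

variable {Ω : Type*} [Field Ω] {A : ValuationSubring Ω}
  {𝔽 : Type*} [Field 𝔽] [Algebra Ω 𝔽]
  {𝔽b : Type*} [Field 𝔽b] [Algebra (ResidueField ↥A) 𝔽b]
  (W : ValuationSubring 𝔽) (ρ : ↥W →+* 𝔽b)
  (hW : ∀ a : Ω, a ∈ A → algebraMap Ω 𝔽 a ∈ W)
  (hρ : ∀ (a : ↥A) (h : algebraMap Ω 𝔽 (a : Ω) ∈ W),
    ρ ⟨algebraMap Ω 𝔽 (a : Ω), h⟩ = algebraMap (ResidueField ↥A) 𝔽b (residue ↥A a))

include hW hρ in
/-- **elements of `W` with linearly independent reductions are linearly independent.** -/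
theorem linearIndependent_of_reduction {ι : Type*} [Fintype ι] (f : ι → 𝔽) (hf : ∀ i, f i ∈ W)
    (hind : LinearIndependent (ResidueField ↥A) (fun i => ρ ⟨f i, hf i⟩)) :
    LinearIndependent Ω f := by
  classical
  rw [Fintype.linearIndependent_iff]
  intro a ha
  by_contra hne
  push Not at hne
  obtain ⟨j, hj⟩ := hne
  obtain ⟨i₀, -, hmax⟩ := Finset.exists_max_image Finset.univ (fun i => A.valuation (a i))
    ⟨j, Finset.mem_univ j⟩
  have hi₀ : a i₀ ≠ 0 := by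
    intro h0
    have := hmax j (Finset.mem_univ j)
    rw [h0, map_zero] at this
    exact hj ((A.valuation.zero_iff).mp (le_antisymm this zero_le))
  -- the normalised coefficients
  have hc : ∀ i, a i / a i₀ ∈ A := by
    intro i
    rw [← A.valuation_le_one_iff, map_div₀]
    exact div_le_one_of_le₀ (hmax i (Finset.mem_univ i)) zero_le
  let w : ι → ↥W := fun i => ⟨algebraMap Ω 𝔽 (a i / a i₀), hW _ (hc i)⟩ * ⟨f i, hf i⟩
  have hsum : ∑ i, w i = 0 := by
    apply Subtype.ext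
    rw [AddSubmonoidClass.coe_finsetSum]
    have : ∀ i, ((w i : ↥W) : 𝔽) = (a i₀)⁻¹ • (a i • f i) := by
      intro i
      show algebraMap Ω 𝔽 (a i / a i₀) * f i = _
      rw [smul_smul, Algebra.smul_def, div_eq_inv_mul]
    simp only [this]
    rw [← Finset.smul_sum, ha, smul_zero]
    rfl
  have h2 := congrArg ρ hsum
  rw [map_sum, map_zero] at h2
  have h3 : ∀ i, ρ (w i) = residue ↥A ⟨a i / a i₀, hc i⟩ • ρ ⟨f i, hf i⟩ := by
    intro i
    show ρ (⟨algebraMap Ω 𝔽 (a i / a i₀), hW _ (hc i)⟩ * ⟨f i, hf i⟩) = _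
    rw [map_mul, hρ ⟨a i / a i₀, hc i⟩, Algebra.smul_def]
  simp only [h3] at h2
  have h4 := (Fintype.linearIndependent_iff.mp hind) _ h2 i₀
  have h5 : (⟨a i₀ / a i₀, hc i₀⟩ : ↥A) = 1 := Subtype.ext (div_self hi₀)
  rw [h5, map_one] at h4
  exact one_ne_zero h4

end Indep

section Compare

variable {Ω : Type*} [Field Ω] [IsAlgClosed Ω] [CharZero Ω] {A : ValuationSubring Ω}
  [IsAlgClosed (ResidueField ↥A)]
  {𝔽 : Type*} [Field 𝔽] [Algebra Ω 𝔽]
  {𝔽b : Type*} [Field 𝔽b] [Algebra (ResidueField ↥A) 𝔽b]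

/-- **semicontinuity of the genus from lifting of sections** (see the file header). -/
theorem exists_genus_of_lifting (W : ValuationSubring 𝔽) (ρ : ↥W →+* 𝔽b)
    (hW : ∀ a : Ω, a ∈ A → algebraMap Ω 𝔽 a ∈ W)
    (hρ : ∀ (a : ↥A) (h : algebraMap Ω 𝔽 (a : Ω) ∈ W),
      ρ ⟨algebraMap Ω 𝔽 (a : Ω), h⟩ = algebraMap (ResidueField ↥A) 𝔽b (residue ↥A a))
    (c : Coord Ω 𝔽) (cb : Coord (ResidueField ↥A) 𝔽b)
    (hsep : Algebra.IsSeparable ↥(ResidueField ↥A)⟮cb.x⟯ 𝔽b) (hdeg : c.degree ≤ cb.degree)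
    (hlift : ∃ m₀ : ℕ, ∀ m : ℕ, m₀ ≤ m → ∀ fb : 𝔽b, IsPoleSection (ResidueField ↥A) cb.x m fb →
      ∃ (f : 𝔽) (hf : f ∈ W), ρ ⟨f, hf⟩ = fb ∧ f ∈ polePlaceLat (k := Ω) c.x (m : ℤ)) :
    ∃ g : ℕ, RiemannIneq Ω 𝔽 g ∧ RiemannIneq (ResidueField ↥A) 𝔽b g ∧
      RRLarge (ResidueField ↥A) 𝔽b g := by
  classical
  -- the generic fibre
  haveI := c.fin
  haveI : CharZero ↥Ω⟮c.x⟯ := charZero_of_injective_algebraMap (algebraMap Ω ↥Ω⟮c.x⟯).injective
  have hsepΩ : Algebra.IsSeparable ↥Ω⟮c.x⟯ 𝔽 := inferInstance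
  obtain ⟨gΩ, hRΩ, -, -, hpoleΩ⟩ := coord_exists_riemannRoch_pole c hsepΩ
  obtain ⟨gk, hRk, hLk, -, hpolek⟩ := coord_exists_riemannRoch_pole cb hsep
  refine ⟨gk, hRΩ.mono ?_, hRk, hLk⟩
  obtain ⟨m₀, hm₀⟩ := hlift
  have hn : 0 < c.degree := c.degree_pos
  -- a large `m`
  set m : ℕ := m₀ + 2 * gΩ with hm
  have hm1 : m₀ ≤ m := Nat.le_add_right _ _
  have hm2 : 2 * (gΩ : ℤ) - 1 ≤ (m : ℤ) * (c.degree : ℤ) := by
    have h1 : (2 * gΩ : ℤ) ≤ (m : ℤ) := by rw [hm]; push_cast; omega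
    have h2 : (1 : ℤ) ≤ (c.degree : ℤ) := by exact_mod_cast hn
    nlinarith
  obtain ⟨finΩ, -, heqΩ⟩ := hpoleΩ (m : ℤ)
  obtain ⟨fink, hgek, -⟩ := hpolek (m : ℤ)
  have heqΩ' := heqΩ hm2
  -- a basis of the special fibre space and its lift
  set r := finrank (ResidueField ↥A) ↥(polePlaceLat (k := ResidueField ↥A) cb.x (m : ℤ)) with hr
  let b := Module.finBasis (ResidueField ↥A)
    ↥(polePlaceLat (k := ResidueField ↥A) cb.x (m : ℤ))
  have hsec : ∀ i, IsPoleSection (ResidueField ↥A) cb.x m ((b i : ↥(polePlaceLat cb.x (m : ℤ))) : 𝔽b) :=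
    fun i => isPoleSection_of_mem_polePlaceLat cb hsep (b i).2
  choose f hfW hfρ hfL using fun i => hm₀ m hm1 _ (hsec i)
  have hindb : LinearIndependent (ResidueField ↥A) (fun i => ρ ⟨f i, hfW i⟩) := by
    have h1 : (fun i => ρ ⟨f i, hfW i⟩)
        = fun i => ((b i : ↥(polePlaceLat cb.x (m : ℤ))) : 𝔽b) := funext hfρ
    rw [h1]
    exact b.linearIndependent.map' (Submodule.subtype _) (Submodule.ker_subtype _)
  have hind : LinearIndependent Ω f := linearIndependent_of_reduction W ρ hW hρ f hfW hindb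
  -- the lifts form an independent family in `L(m (x)_∞)`
  let f' : Fin r → ↥(polePlaceLat (k := Ω) c.x (m : ℤ)) := fun i => ⟨f i, hfL i⟩
  have hind' : LinearIndependent Ω f' := by
    apply LinearIndependent.of_comp (Submodule.subtype _)
    exact hind
  have hcard := hind'.fintype_card_le_finrank
  rw [Fintype.card_fin] at hcard
  -- compare
  have h1 : (r : ℤ) ≤ (finrank Ω ↥(polePlaceLat (k := Ω) c.x (m : ℤ)) : ℤ) := by
    exact_mod_cast hcard
  rw [heqΩ'] at h1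
  have hdeg' : (m : ℤ) * (c.degree : ℤ) ≤ (m : ℤ) * (cb.degree : ℤ) := by
    have h2 : (c.degree : ℤ) ≤ (cb.degree : ℤ) := by exact_mod_cast hdeg
    exact mul_le_mul_of_nonneg_left h2 (Int.natCast_nonneg m)
  have : (gΩ : ℤ) ≤ (gk : ℤ) := by linarith
  exact_mod_cast this

end Compare

end Fermat.Agent.FG
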