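/-
FG (S19/S32) — helper8 — [COH] (P5, transfer): from the base-level lifting of pole sections
(`exists_lift_poleSection`, lead's GEO setting over a DVR `R ⊂ K₁`) to the algebraically closed
level `Ω ⊇ A`, along a base change `BC : E → 𝔽` and a comparison `ψ : κ(W_{K₁}) → 𝔽b` of the
special fibres, and the resulting common genus.
-/
import Mathlib
import Fermat.Agent.FG.COH_helper8_Base
import Fermat.Agent.FG.COH_helper8_Compare

set_option autoImplicit false
set_option linter.unusedSectionVars false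
set_option linter.style.haveILetI false

open AlgebraicCurve IsLocalRing IsDedekindDomain Polynomial IntermediateField

namespace Fermat.Agent.FG

open Fermat.Agent.FF Fermat.Agent.JA

section Adjoin

variable {R : Type*} [CommRing R] {K : Type*} [Field K] [Algebra R K]
  {E : Type*} [Field E] [Algebra K E] [Algebra R E] [IsScalarTower R K E]

/-- integrality over `R[t]` in the instance-free currency. -/
theorem isIntegralElem_aeval_of_isIntegral_adjoin (t : K) {f : E}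
    (hf : IsIntegral ↥(Algebra.adjoin R {t}) f) :
    (aeval (R := R) (algebraMap K E t)).toRingHom.IsIntegralElem f := by
  obtain ⟨p, hp, hpe⟩ := hf
  set g : ↥(Algebra.adjoin R {t}) := ⟨t, Algebra.self_mem_adjoin_singleton R t⟩ with hg
  have hsurj : Function.Surjective (aeval (R := R) g) := by
    rintro ⟨a, ha⟩
    rw [Algebra.adjoin_singleton_eq_range_aeval] at ha
    obtain ⟨q, rfl⟩ := ha
    refine ⟨q, Subtype.ext ?_⟩
    have : ((aeval g q : ↥(Algebra.adjoin R {t})) : K) =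
        algebraMap ↥(Algebra.adjoin R {t}) K (aeval g q) := rfl
    rw [this, ← aeval_algebraMap_apply]
    rfl
  have hsurj' : Function.Surjective (Polynomial.mapRingHom (aeval (R := R) g).toRingHom) :=
    Polynomial.map_surjective _ hsurj
  obtain ⟨q, hq, -, hqm⟩ := Polynomial.lifts_and_natDegree_eq_and_monic
    (f := (aeval (R := R) g).toRingHom)
    ((Polynomial.mem_lifts p).mpr (hsurj' p)) hp
  have hcomp : (aeval (R := R) (algebraMap K E t)).toRingHom =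
      (algebraMap ↥(Algebra.adjoin R {t}) E).comp (aeval (R := R) g).toRingHom := by
    ext a
    · simp only [AlgHom.toRingHom_eq_coe, RingHom.coe_comp, RingHom.coe_coe, Function.comp_apply,
        aeval_C]
      rw [← IsScalarTower.algebraMap_apply]
    · simp only [AlgHom.toRingHom_eq_coe, RingHom.coe_comp, RingHom.coe_coe, Function.comp_apply,
        aeval_X]
      rfl
  refine ⟨q, hqm, ?_⟩
  rw [hcomp, ← Polynomial.eval₂_map, hq]
  exact hpe

end Adjoin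

section Transfer

variable {R : Type*} [CommRing R] [IsDomain R] [IsDiscreteValuationRing R] [CharZero R]
  {K₁ : Type*} [Field K₁] [Algebra R K₁] [IsFractionRing R K₁]
  {K : Type*} [Field K] [Algebra K₁ K] [Algebra R K] [IsScalarTower R K₁ K]
  {E : Type*} [Field E] [Algebra K E] [Algebra K₁ E] [IsScalarTower K₁ K E]
  [Algebra R E] [IsScalarTower R K E] [IsScalarTower R K₁ E]
  {π : R} {t : K} {n : ℕ} {S S' : Finset R}
  {Ω : Type*} [Field Ω] {A : ValuationSubring Ω}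
  (h : GeoHyps K₁ π t E n S) (h' : GeoHyps K₁ π t⁻¹ E n S')
  (𝒱 : ValuationSubring K) (h𝒱 : IsGaussAt R π t 𝒱) (h𝒱' : IsGaussAt R π t⁻¹ 𝒱)
  [IsLocalRing ↥(integralClosure ↥𝒱 E)]
  (res : R →+* ResidueField ↥A) (hres : Function.Surjective res)
  {𝔽 : Type*} [Field 𝔽] [Algebra Ω 𝔽]
  {𝔽b : Type*} [Field 𝔽b] [Algebra (ResidueField ↥A) 𝔽b]
  (W : ValuationSubring 𝔽) (ρ : ↥W →+* 𝔽b)
  (BC : E →+* 𝔽) (ι : R →+* Ω) (hBC : ∀ r : R, BC (algebraMap R E r) = algebraMap Ω 𝔽 (ι r))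
  (ψ : ResidueField ↥(integralClosure ↥𝒱 E) →+* 𝔽b) (hψs : Function.Surjective ψ)
  (hψ : ∀ (b : E) (hb : IsIntegral ↥𝒱 b), ∃ hW : BC b ∈ W,
    ψ (residue _ ⟨b, hb⟩) = ρ ⟨BC b, hW⟩)
  (hψk : ∀ r : R, ψ (residue _ (gaussConst (E := E) 𝒱 (fun r => h𝒱.algebraMap_mem r) r)) =
    algebraMap (ResidueField ↥A) 𝔽b (res r))

include hBC in
/-- integrality over `R[y]` is transported to integrality over `Ω[BC y]`. -/
theorem isIntegralElem_aeval_map (y g : E)
    (hg : (aeval (R := R) y).toRingHom.IsIntegralElem g) :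
    (aeval (R := Ω) (BC y)).toRingHom.IsIntegralElem (BC g) := by
  have h1 := hg.map BC
  have h2 : BC.comp (aeval (R := R) y).toRingHom
      = ((aeval (R := Ω) (BC y)).toRingHom).comp (Polynomial.mapRingHom ι) := by
    apply Polynomial.ringHom_ext
    · intro a
      simp [hBC]
    · simp
  rw [h2] at h1
  exact h1.of_comp

include h' h𝒱' hres hBC hψs hψ hψk in
set_option maxHeartbeats 800000 in
/-- **lifting of pole sections at the algebraically closed level.** -/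
theorem exists_lift_poleSection_of_comparison :
    ∃ m₀ : ℕ, ∀ m : ℕ, m₀ ≤ m → ∀ fb : 𝔽b,
      IsPoleSection (ResidueField ↥A) (ψ (geoTb h 𝒱 h𝒱)) m fb →
      ∃ (f : 𝔽) (hf : f ∈ W), ρ ⟨f, hf⟩ = fb ∧
        IsPoleSection Ω (BC (algebraMap K E t)) m f := by
  letI := geoAlgKEt h.irreducible 𝒱 (fun r => h𝒱.algebraMap_mem r)
    (residue_gaussConst_pi h 𝒱 h𝒱) res hres
  obtain ⟨m₀, hm₀⟩ := exists_lift_poleSection h h' 𝒱 h𝒱 h𝒱' res hres
  refine ⟨m₀, fun m hm fb hfb => ?_⟩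
  obtain ⟨fb₁, rfl⟩ := hψs fb
  have hlin : ∀ a : ResidueField ↥A,
      ψ (algebraMap (ResidueField ↥A) (ResidueField ↥(integralClosure ↥𝒱 E)) a) =
        algebraMap (ResidueField ↥A) 𝔽b ((RingHom.id _) a) := by
    intro a
    obtain ⟨r, rfl⟩ := hres a
    rw [geoAlgKEt_algebraMap_res]
    exact hψk r
  have h1 : IsPoleSection (ResidueField ↥A) (geoTb h 𝒱 h𝒱) m fb₁ :=
    IsPoleSection.of_map (RingHom.id _) Function.surjective_id ψ hlin hfb
  obtain ⟨f₁, hf₁, hf₂, hfint, hfr⟩ := hm₀ m hm fb₁ h1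
  obtain ⟨hW, hψf⟩ := hψ f₁ hfint
  refine ⟨BC f₁, hW, ?_, ?_, ?_⟩
  · rw [← hψf, hfr]
  · exact isIntegralElem_aeval_map BC ι hBC _ _
      (isIntegralElem_aeval_of_isIntegral_adjoin t hf₁)
  · have h2 := isIntegralElem_aeval_map BC ι hBC _ _
      (isIntegralElem_aeval_of_isIntegral_adjoin t⁻¹ hf₂)
    rw [map_mul, map_pow, map_inv₀, map_inv₀] at h2
    exact h2

include hBC hψ in
/-- the comparison map is automatically linear over the residue field of `A`. -/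
theorem comparison_const (hι : ∀ r : R, ι r ∈ A)
    (hresι : ∀ r : R, res r = residue ↥A ⟨ι r, hι r⟩)
    (hρ : ∀ (a : ↥A) (h : algebraMap Ω 𝔽 (a : Ω) ∈ W),
      ρ ⟨algebraMap Ω 𝔽 (a : Ω), h⟩ = algebraMap (ResidueField ↥A) 𝔽b (residue ↥A a)) (r : R) :
    ψ (residue _ (gaussConst (E := E) 𝒱 (fun r => h𝒱.algebraMap_mem r) r)) =
      algebraMap (ResidueField ↥A) 𝔽b (res r) := by
  obtain ⟨hW, e⟩ := hψ (algebraMap R E r)
    (gaussConst (E := E) 𝒱 (fun r => h𝒱.algebraMap_mem r) r).2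
  have hW' : algebraMap Ω 𝔽 ((⟨ι r, hι r⟩ : ↥A) : Ω) ∈ W := (hBC r) ▸ hW
  have h1 : (⟨BC (algebraMap R E r), hW⟩ : ↥W) =
      ⟨algebraMap Ω 𝔽 ((⟨ι r, hι r⟩ : ↥A) : Ω), hW'⟩ := Subtype.ext (hBC r)
  rw [hresι r, ← hρ ⟨ι r, hι r⟩ hW', ← h1, ← e]
  rfl

include h' h𝒱' hres hBC hψs hψ hψk in
set_option maxHeartbeats 800000 in
/-- **the common genus** of the generic fibre `𝔽 / Ω` and the special fibre `𝔽b / k`, from the GEO
data at one base level and the comparison maps `BC`, `ψ`. -/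
theorem exists_genus_of_comparison [IsAlgClosed Ω] [CharZero Ω] [IsAlgClosed (ResidueField ↥A)]
    (hW : ∀ a : Ω, a ∈ A → algebraMap Ω 𝔽 a ∈ W)
    (hρ : ∀ (a : ↥A) (h : algebraMap Ω 𝔽 (a : Ω) ∈ W),
      ρ ⟨algebraMap Ω 𝔽 (a : Ω), h⟩ = algebraMap (ResidueField ↥A) 𝔽b (residue ↥A a))
    (c : Coord Ω 𝔽) (hc : c.x = BC (algebraMap K E t))
    (cb : Coord (ResidueField ↥A) 𝔽b) (hcb : cb.x = ψ (geoTb h 𝒱 h𝒱))
    (hsep : Algebra.IsSeparable ↥(ResidueField ↥A)⟮cb.x⟯ 𝔽b) (hdeg : c.degree ≤ cb.degree) :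
    ∃ g : ℕ, RiemannIneq Ω 𝔽 g ∧ RiemannIneq (ResidueField ↥A) 𝔽b g ∧
      RRLarge (ResidueField ↥A) 𝔽b g := by
  refine exists_genus_of_lifting W ρ hW hρ c cb hsep hdeg ?_
  obtain ⟨m₀, hm₀⟩ := exists_lift_poleSection_of_comparison h h' 𝒱 h𝒱 h𝒱' res hres W ρ BC ι hBC
    ψ hψs hψ hψk
  refine ⟨m₀, fun m hm fb hfb => ?_⟩
  rw [hcb] at hfb
  obtain ⟨f, hf, hfρ, hfs⟩ := hm₀ m hm fb hfb
  refine ⟨f, hf, hfρ, ?_⟩
  rw [hc]
  exact hfs.mem_polePlaceLat

end Transfer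

end Fermat.Agent.FG
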