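/-
FG (S19/S32) — helper8 — [COH] (P5, concrete): the common genus of `legE Ω N` (resp. `hesE Ω N`)
and of its reduction `legEt hA N hℓ2` (resp. `hesEt hA N hℓ3`), from the GEO data at ONE base
`K₁`, given the comparison `ψ` of the special fibres and a separating reduced coordinate of full
degree.
-/
import Mathlib
import Fermat.Agent.FG.COH_helper8_Transfer
import Fermat.Agent.FG.EDEF_helper6_Leg
import Fermat.Agent.JA.BCD_helper9_HostRat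
import Fermat.Agent.JA.GEOBASE_helper8_Base
import Fermat.Agent.JA.O1_helper6_BaseInst

set_option autoImplicit false
set_option linter.unusedSectionVars false
set_option linter.style.haveILetI false
set_option synthInstance.maxHeartbeats 400000

open HahnSeries IntermediateField AlgebraicCurve ModularCurve IsLocalRing Polynomial

namespace Fermat.Agent.FG

open Fermat.Agent.JA Fermat.Agent.Igusa Fermat.Agent.SS Fermat.Agent.FF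
open scoped Fermat.Agent.JA.Host

/-- `Ω = AlgebraicClosure ℚ`. -/
local notation "Ω" => AlgebraicClosure ℚ

section Leg

variable {ℓ : ℕ} [Fact ℓ.Prime] {A : ValuationSubring Ω} (hA : A.LiesOverPrime ℓ)
  (N : ℕ) [NeZero N] {K₁ : IntermediateField ℚ Ω}

set_option maxHeartbeats 3200000 in
include hA in
/-- **[COH], Legendre tower, from the comparison data.** -/
theorem coh_legE_of_comparison (hℓN : ¬ ℓ ∣ N) (hK₁ : IsBase ℓ K₁) (hℓ2 : ℓ ≠ 2)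
    [IsDiscreteValuationRing ↥(baseRing A K₁)] {ϖ : ↥(baseRing A K₁)} (hϖ : Irreducible ϖ)
    (𝒢t : ValuationSubring ↥(↥K₁)⟮legT ↥K₁⟯)
    (h𝒢t : IsGaussAt ↥(baseRing A K₁) ϖ (AdjoinSimple.gen ↥K₁ (legT ↥K₁)) 𝒢t)
    [IsLocalRing ↥(integralClosure ↥𝒢t ↥(legE ↥K₁ N))]
    (ψ : ResidueField ↥(integralClosure ↥𝒢t ↥(legE ↥K₁ N)) →+* legEt hA N hℓ2)
    (hψs : Function.Surjective ψ)
    (hψ : ∀ (b : ↥(legE ↥K₁ N)) (hb : IsIntegral ↥𝒢t b),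
      ∃ hW : legBC N K₁ b ∈ legWE hA N hℓ2,
        ψ (residue _ ⟨b, hb⟩) = legρ hA N hℓ2 ⟨legBC N K₁ b, hW⟩)
    (htW : (legCoordBar N).x ∈ legWE hA N hℓ2)
    (cb : Coord (ResidueField ↥A) (legEt hA N hℓ2))
    (hcb : cb.x = legρ hA N hℓ2 ⟨(legCoordBar N).x, htW⟩)
    (hsep : Algebra.IsSeparable ↥(ResidueField ↥A)⟮cb.x⟯ (legEt hA N hℓ2))
    (hdeg : (legCoordBar N).degree ≤ cb.degree) :
    ∃ g : ℕ, RiemannIneq Ω ↥(legE Ω N) g ∧ RiemannIneq (ResidueField ↥A) (legEt hA N hℓ2) g ∧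
      RRLarge (ResidueField ↥A) (legEt hA N hℓ2) g := by
  classical
  haveI : CharZero ↥(baseRing A K₁) := charZero_valuationSubring_of_algebraRat _
  haveI : IsAlgClosed (ResidueField ↥A) := isAlgClosed_residueField A
  have hgeo := geoHyps_legE_baseRing hA N hℓN hK₁ hℓ2 hϖ
  obtain ⟨S', hgeo'⟩ := hgeo.inv
  have h𝒢t' : IsGaussAt ↥(baseRing A K₁) ϖ (AdjoinSimple.gen ↥K₁ (legT ↥K₁))⁻¹ 𝒢t :=
    isGaussAt_inv ϖ hϖ.prime _ 𝒢t h𝒢t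
  set res : ↥(baseRing A K₁) →+* ResidueField ↥A :=
    (baseResidueMap A K₁).comp (IsLocalRing.residue ↥(baseRing A K₁)) with hres_def
  have hres : Function.Surjective res :=
    (hK₁.baseResidueMap_bijective hA).2.comp IsLocalRing.residue_surjective
  set ι : ↥(baseRing A K₁) →+* Ω := A.subtype.comp (baseIncl A K₁) with hι_def
  have hBC : ∀ r : ↥(baseRing A K₁), legBC N K₁ (algebraMap ↥(baseRing A K₁) ↥(legE ↥K₁ N) r) =
      algebraMap Ω ↥(legE Ω N) (ι r) := by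
    intro r
    rw [IsScalarTower.algebraMap_apply ↥(baseRing A K₁) ↥K₁ ↥(legE ↥K₁ N), legBC_algebraMap]
    rfl
  have hWA : ∀ a : Ω, a ∈ A → algebraMap Ω ↥(legE Ω N) a ∈ legWE hA N hℓ2 :=
    fun a ha => (algebraMap_mem_legWE_iff hA N hℓ2 a).mpr ha
  have hρ := legρ_algebraMap hA N hℓ2
  have hψk := comparison_const 𝒢t h𝒢t res (legWE hA N hℓ2) (legρ hA N hℓ2) (legBC N K₁) ι hBC ψ hψ
    (fun r => (baseIncl A K₁ r).2) (fun r => rfl) hρ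
  have hc : (legCoordBar N).x = legBC N K₁ (algebraMap ↥(↥K₁)⟮legT ↥K₁⟯ ↥(legE ↥K₁ N)
      (AdjoinSimple.gen ↥K₁ (legT ↥K₁))) :=
    Subtype.ext (coeffMap_legT (algebraMap ↥K₁ Ω)).symm
  have hcb' : cb.x = ψ (geoTb hgeo 𝒢t h𝒢t) := by
    obtain ⟨hW, e⟩ := hψ (algebraMap ↥(↥K₁)⟮legT ↥K₁⟯ ↥(legE ↥K₁ N)
      (AdjoinSimple.gen ↥K₁ (legT ↥K₁)))
      (isIntegral_gauss_of_mem_chart hgeo 𝒢t h𝒢t (geoCoord ↥(legE ↥K₁ N) _))
    rw [hcb]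
    refine Eq.trans ?_ e.symm
    congr 1
  exact exists_genus_of_comparison hgeo hgeo' 𝒢t h𝒢t h𝒢t' res hres (legWE hA N hℓ2)
    (legρ hA N hℓ2) (legBC N K₁) ι hBC ψ hψs hψ hψk hWA hρ (legCoordBar N) hc cb hcb' hsep hdeg

end Leg

section Hes

variable {ℓ : ℕ} [Fact ℓ.Prime] {A : ValuationSubring Ω} (hA : A.LiesOverPrime ℓ)
  (N : ℕ) [NeZero N] {K₁ : IntermediateField ℚ Ω}

set_option maxHeartbeats 3200000 in
include hA in
/-- **[COH], Hesse tower, from the comparison data.** -/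
theorem coh_hesE_of_comparison (hℓN : ¬ ℓ ∣ N) (hK₁ : IsBase ℓ K₁) (hℓ3 : ℓ ≠ 3)
    [IsDiscreteValuationRing ↥(baseRing A K₁)] {ϖ : ↥(baseRing A K₁)} (hϖ : Irreducible ϖ)
    (𝒢t : ValuationSubring ↥(↥K₁)⟮hesT ↥K₁⟯)
    (h𝒢t : IsGaussAt ↥(baseRing A K₁) ϖ (AdjoinSimple.gen ↥K₁ (hesT ↥K₁)) 𝒢t)
    [IsLocalRing ↥(integralClosure ↥𝒢t ↥(hesE ↥K₁ N))]
    (ψ : ResidueField ↥(integralClosure ↥𝒢t ↥(hesE ↥K₁ N)) →+* hesEt hA N hℓ3)
    (hψs : Function.Surjective ψ)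
    (hψ : ∀ (b : ↥(hesE ↥K₁ N)) (hb : IsIntegral ↥𝒢t b),
      ∃ hW : hesBC N K₁ b ∈ hesWE hA N hℓ3,
        ψ (residue _ ⟨b, hb⟩) = hesρ hA N hℓ3 ⟨hesBC N K₁ b, hW⟩)
    (htW : (hesCoordBar N).x ∈ hesWE hA N hℓ3)
    (cb : Coord (ResidueField ↥A) (hesEt hA N hℓ3))
    (hcb : cb.x = hesρ hA N hℓ3 ⟨(hesCoordBar N).x, htW⟩)
    (hsep : Algebra.IsSeparable ↥(ResidueField ↥A)⟮cb.x⟯ (hesEt hA N hℓ3))
    (hdeg : (hesCoordBar N).degree ≤ cb.degree) :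
    ∃ g : ℕ, RiemannIneq Ω ↥(hesE Ω N) g ∧ RiemannIneq (ResidueField ↥A) (hesEt hA N hℓ3) g ∧
      RRLarge (ResidueField ↥A) (hesEt hA N hℓ3) g := by
  classical
  haveI : CharZero ↥(baseRing A K₁) := charZero_valuationSubring_of_algebraRat _
  haveI : IsAlgClosed (ResidueField ↥A) := isAlgClosed_residueField A
  obtain ⟨ω, -, hgeo⟩ := geoHyps_hesE_baseRing hA N hℓN hK₁ hℓ3 hϖ
  obtain ⟨S', hgeo'⟩ := hgeo.inv
  have h𝒢t' : IsGaussAt ↥(baseRing A K₁) ϖ (AdjoinSimple.gen ↥K₁ (hesT ↥K₁))⁻¹ 𝒢t :=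
    isGaussAt_inv ϖ hϖ.prime _ 𝒢t h𝒢t
  set res : ↥(baseRing A K₁) →+* ResidueField ↥A :=
    (baseResidueMap A K₁).comp (IsLocalRing.residue ↥(baseRing A K₁)) with hres_def
  have hres : Function.Surjective res :=
    (hK₁.baseResidueMap_bijective hA).2.comp IsLocalRing.residue_surjective
  set ι : ↥(baseRing A K₁) →+* Ω := A.subtype.comp (baseIncl A K₁) with hι_def
  have hBC : ∀ r : ↥(baseRing A K₁), hesBC N K₁ (algebraMap ↥(baseRing A K₁) ↥(hesE ↥K₁ N) r) =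
      algebraMap Ω ↥(hesE Ω N) (ι r) := by
    intro r
    rw [IsScalarTower.algebraMap_apply ↥(baseRing A K₁) ↥K₁ ↥(hesE ↥K₁ N), hesBC_algebraMap]
    rfl
  have hWA : ∀ a : Ω, a ∈ A → algebraMap Ω ↥(hesE Ω N) a ∈ hesWE hA N hℓ3 :=
    fun a ha => (algebraMap_mem_hesWE_iff hA N hℓ3 a).mpr ha
  have hρ := hesρ_algebraMap hA N hℓ3
  have hψk := comparison_const 𝒢t h𝒢t res (hesWE hA N hℓ3) (hesρ hA N hℓ3) (hesBC N K₁) ι hBC ψ hψ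
    (fun r => (baseIncl A K₁ r).2) (fun r => rfl) hρ
  have hc : (hesCoordBar N).x = hesBC N K₁ (algebraMap ↥(↥K₁)⟮hesT ↥K₁⟯ ↥(hesE ↥K₁ N)
      (AdjoinSimple.gen ↥K₁ (hesT ↥K₁))) :=
    Subtype.ext (coeffMap_hesT (algebraMap ↥K₁ Ω)).symm
  have hcb' : cb.x = ψ (geoTb hgeo 𝒢t h𝒢t) := by
    obtain ⟨hW, e⟩ := hψ (algebraMap ↥(↥K₁)⟮hesT ↥K₁⟯ ↥(hesE ↥K₁ N)
      (AdjoinSimple.gen ↥K₁ (hesT ↥K₁)))
      (isIntegral_gauss_of_mem_chart hgeo 𝒢t h𝒢t (geoCoord ↥(hesE ↥K₁ N) _))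
    rw [hcb]
    refine Eq.trans ?_ e.symm
    congr 1
  exact exists_genus_of_comparison hgeo hgeo' 𝒢t h𝒢t h𝒢t' res hres (hesWE hA N hℓ3)
    (hesρ hA N hℓ3) (hesBC N K₁) ι hBC ψ hψs hψ hψk hWA hρ (hesCoordBar N) hc cb hcb' hsep hdeg

end Hes

end Fermat.Agent.FG
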