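/-
FG (S19/S32) — helper8 — [COH], final form: **the common genus of `legE Ω N` / `hesE Ω N` and of
their reductions `legEt` / `hesEt`, unconditionally** (my `coh_legE_of_comparison` fed with
helper6's bijective comparison maps `legPsi` / `hesPsi` at the base `flatBase ℓ` and the reduced
coordinates `legCoordRed` / `hesCoordRed`).
-/
import Mathlib
import Fermat.Agent.FG.COH_helper8_Leg
import Fermat.Agent.FG.EDEF_helper6_PsiBijHes

set_option autoImplicit false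
set_option linter.unusedSectionVars false
set_option linter.style.haveILetI false
set_option synthInstance.maxHeartbeats 400000

open HahnSeries IntermediateField AlgebraicCurve ModularCurve IsLocalRing Polynomial

namespace Fermat.Agent.FG

open Fermat.Agent.JA Fermat.Agent.Igusa Fermat.Agent.SS Fermat.Agent.FF
open scoped Fermat.Agent.JA.Host

/-- `Ω = AlgebraicClosure ℚ`. -/
local notation "Ω" => AlgebraicClosure ℚ

section Leg

variable {ℓ : ℕ} [Fact ℓ.Prime] {A : ValuationSubring Ω} (hA : A.LiesOverPrime ℓ)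
  (N : ℕ) [NeZero N]

set_option maxHeartbeats 3200000 in
include hA in
/-- **[COH], Legendre tower**: Riemann's inequality on `legE Ω N` and Riemann–Roch in large degree
on its reduction `legEt`, with the same `g`. -/
theorem coh_legE (hℓN : ¬ ℓ ∣ N) (hℓ2 : ℓ ≠ 2) :
    ∃ g : ℕ, RiemannIneq Ω ↥(legE Ω N) g ∧ RiemannIneq (ResidueField ↥A) (legEt hA N hℓ2) g ∧
      RRLarge (ResidueField ↥A) (legEt hA N hℓ2) g := by
  classical
  have hK₁ : IsBase ℓ (flatBase ℓ) := isBase_flatBase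
  haveI := hK₁.isDiscreteValuationRing hA
  haveI : CharZero ↥(baseRing A (flatBase ℓ)) := charZero_valuationSubring_of_algebraRat _
  obtain ⟨ϖ, hϖ⟩ := IsDiscreteValuationRing.exists_irreducible ↥(baseRing A (flatBase ℓ))
  have hgeo := geoHyps_legE_baseRing hA N hℓN hK₁ hℓ2 hϖ
  obtain ⟨𝒢t, h𝒢t⟩ := exists_isGaussAt ϖ hϖ _ hgeo.transcendental hgeo.adjoin_eq_top
  haveI : IsLocalRing ↥(legW₁ N 𝒢t) := hgeo.isLocalRing 𝒢t h𝒢t
  exact coh_legE_of_comparison hA N hℓN hK₁ hℓ2 hϖ 𝒢t h𝒢t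
    (legPsi hA N hℓN hK₁ hℓ2 hϖ 𝒢t h𝒢t) (legPsi_surjective hA N hℓN hK₁ hℓ2 hϖ 𝒢t h𝒢t)
    (legPsi_spec hA N hℓN hK₁ hℓ2 hϖ 𝒢t h𝒢t) (legCoordBar_x_mem_legWE hA N hℓ2)
    (legCoordRed hA N hℓN hℓ2) rfl (legCoordRed_isSeparable hA N hℓN hℓ2)
    (legCoordRed_degree hA N hℓN hℓ2).ge

end Leg

section Hes

variable {ℓ : ℕ} [Fact ℓ.Prime] {A : ValuationSubring Ω} (hA : A.LiesOverPrime ℓ)
  (N : ℕ) [NeZero N]

set_option maxHeartbeats 3200000 in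
include hA in
/-- **[COH], Hesse tower.** -/
theorem coh_hesE (hℓN : ¬ ℓ ∣ N) (hℓ3 : ℓ ≠ 3) :
    ∃ g : ℕ, RiemannIneq Ω ↥(hesE Ω N) g ∧ RiemannIneq (ResidueField ↥A) (hesEt hA N hℓ3) g ∧
      RRLarge (ResidueField ↥A) (hesEt hA N hℓ3) g := by
  classical
  have hK₁ : IsBase ℓ (flatBase ℓ) := isBase_flatBase
  haveI := hK₁.isDiscreteValuationRing hA
  haveI : CharZero ↥(baseRing A (flatBase ℓ)) := charZero_valuationSubring_of_algebraRat _
  obtain ⟨ϖ, hϖ⟩ := IsDiscreteValuationRing.exists_irreducible ↥(baseRing A (flatBase ℓ))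
  obtain ⟨ω, -, hgeo⟩ := geoHyps_hesE_baseRing hA N hℓN hK₁ hℓ3 hϖ
  obtain ⟨𝒢t, h𝒢t⟩ := exists_isGaussAt ϖ hϖ _ hgeo.transcendental hgeo.adjoin_eq_top
  haveI : IsLocalRing ↥(hesW₁ N 𝒢t) := hgeo.isLocalRing 𝒢t h𝒢t
  exact coh_hesE_of_comparison hA N hℓN hK₁ hℓ3 hϖ 𝒢t h𝒢t
    (hesPsi hA N hℓN hK₁ hℓ3 hϖ 𝒢t h𝒢t) (hesPsi_surjective hA N hℓN hK₁ hℓ3 hϖ 𝒢t h𝒢t)
    (hesPsi_spec hA N hℓN hK₁ hℓ3 hϖ 𝒢t h𝒢t) (hesCoordBar_x_mem_hesWE hA N hℓ3)
    (hesCoordRed hA N hℓN hℓ3) rfl (hesCoordRed_isSeparable hA N hℓN hℓ3)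
    (hesCoordRed_degree hA N hℓN hℓ3).ge

end Hes

end Fermat.Agent.FG
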