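/-
FG (S19/S32) — helper6 — [E-RED-a], part 5b: **the degree `[E(K₁) : K₁(t)]` of the tower fields over
the coordinate line is the same over a base `K₁ ⊆ Ω` and over `Ω`**, and equals the degree of the
coordinates `legCoordBar`, `hesCoordBar`.
-/
import Mathlib
import Fermat.Agent.JA.BCDEG_helper7

set_option autoImplicit false
set_option linter.unusedSectionVars false
set_option linter.style.haveILetI false
set_option synthInstance.maxHeartbeats 400000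

open HahnSeries IntermediateField AlgebraicCurve ModularCurve Module

namespace Fermat.Agent.FG

open Fermat.Agent.JA Fermat.Agent.FF Fermat.Agent.Igusa

open scoped Fermat.Agent.JA.Host

section CoordHost

variable {K H : Type*} [Field K] [Field H] [Algebra K H]

/-- the degree of the coordinate `coordOfHost E t` is `[E : K(t)]` (inclusion algebra). -/
theorem coordOfHost_degree (E : IntermediateField K H) (t : H) (htr : Transcendental K t)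
    [hle : Fact (K⟮t⟯ ≤ E)] [hfin : Module.Finite ↥K⟮t⟯ ↥E] :
    (coordOfHost E t htr).degree = Module.finrank ↥K⟮t⟯ ↥E := by
  set x : ↥E := ⟨t, hle.out (IntermediateField.mem_adjoin_simple_self K t)⟩ with hx
  have hmap : (K⟮x⟯).map E.val = K⟮t⟯ := by
    rw [IntermediateField.adjoin_map, Set.image_singleton]
    rfl
  let e₁ : ↥K⟮x⟯ ≃ₐ[K] ↥K⟮t⟯ :=
    (IntermediateField.equivMap K⟮x⟯ E.val).trans (IntermediateField.equivOfEq hmap)
  show Module.finrank ↥K⟮x⟯ ↥E = _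
  refine Algebra.finrank_eq_of_equiv_equiv (e₁ : ↥K⟮x⟯ ≃+* ↥K⟮t⟯) (RingEquiv.refl ↥E) ?_
  ext c
  rfl

end CoordHost

section Bar

/-- `Ω = AlgebraicClosure ℚ`. -/
local notation "Ω" => AlgebraicClosure ℚ

variable (N : ℕ) [NeZero N] (K₁ : IntermediateField ℚ Ω)

theorem legCoordBar_degree :
    (legCoordBar N).degree = Module.finrank ↥Ω⟮legT Ω⟯ ↥(legE Ω N) := by
  letI : Algebra Ω ℂ := ((IsAlgClosed.lift : Ω →ₐ[ℚ] ℂ) : Ω →+* ℂ).toAlgebra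
  haveI := finite_legE Ω N
  exact coordOfHost_degree (legE Ω N) (legT Ω) (transcendental_legT Ω)

theorem hesCoordBar_degree :
    (hesCoordBar N).degree = Module.finrank ↥Ω⟮hesT Ω⟯ ↥(hesE Ω N) := by
  letI : Algebra Ω ℂ := ((IsAlgClosed.lift : Ω →ₐ[ℚ] ℂ) : Ω →+* ℂ).toAlgebra
  haveI := finite_hesE Ω N
  exact coordOfHost_degree (hesE Ω N) (hesT Ω) (transcendental_hesT Ω)

/-- coefficientwise base change `K₁(t) → Ω(t)` (Legendre). -/
noncomputable def legKtBC : ↥(↥K₁)⟮legT ↥K₁⟯ →+* ↥Ω⟮legT Ω⟯ :=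
  coeffHom (algebraMap ↥K₁ Ω) (↥K₁)⟮legT ↥K₁⟯ Ω⟮legT Ω⟯ (fun x hx => by
    have := coeffMap_mem_adjoin_simple (algebraMap ↥K₁ Ω) hx
    rwa [coeffMap_legT] at this)

/-- coefficientwise base change `K₁(t) → Ω(t)` (Hesse). -/
noncomputable def hesKtBC : ↥(↥K₁)⟮hesT ↥K₁⟯ →+* ↥Ω⟮hesT Ω⟯ :=
  coeffHom (algebraMap ↥K₁ Ω) (↥K₁)⟮hesT ↥K₁⟯ Ω⟮hesT Ω⟯ (fun x hx => by
    have := coeffMap_mem_adjoin_simple (algebraMap ↥K₁ Ω) hx
    rwa [coeffMap_hesT] at this)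

set_option maxHeartbeats 1600000 in
/-- **`[E(K₁) : K₁(t)] = [E(Ω) : Ω(t)]`, Legendre.** -/
theorem finrank_legE_adjoin_legT_base :
    Module.finrank ↥(↥K₁)⟮legT ↥K₁⟯ ↥(legE ↥K₁ N) = (legCoordBar N).degree := by
  rw [legCoordBar_degree]
  letI : Algebra Ω ℂ := ((IsAlgClosed.lift : Ω →ₐ[ℚ] ℂ) : Ω →+* ℂ).toAlgebra
  letI : Algebra ↥K₁ ℂ :=
    (((IsAlgClosed.lift : Ω →ₐ[ℚ] ℂ) : Ω →+* ℂ).comp (algebraMap ↥K₁ Ω)).toAlgebra
  haveI : Module.Finite ↥Ω⟮legT Ω⟯ ↥(legE Ω N) := finite_legE Ω N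
  haveI : Module.Finite ↥(↥K₁)⟮legT ↥K₁⟯ ↥(legE ↥K₁ N) := finite_legE ↥K₁ N
  haveI : Algebra.IsAlgebraic ↥Ω⟮legT Ω⟯ ↥(legE Ω N) := Algebra.IsAlgebraic.of_finite _ _
  symm
  refine BCDeg.finrank_eq_of_linearDisjoint (k := ↥K₁) (Ω' := Ω) (legKtBC K₁) (legBC N K₁)
    (fun f => Subtype.ext rfl) (fun a => coeffHom_algebraMap _ _ _ _ a) ?_
    (closure_range_legBC N K₁)
    (fun g hg => phi_coeffHom_eq_zero _ _ _ _ (Basis.ofVectorSpace ↥K₁ Ω).linearIndependent g hg)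
  refine closure_range_coeffHom _ _ _ _ ?_
  rw [adjoin_simple_le_iff]
  exact IntermediateField.subset_adjoin Ω _
    ⟨legT ↥K₁, IntermediateField.mem_adjoin_simple_self _ _, coeffMap_legT _⟩

set_option maxHeartbeats 1600000 in
/-- **`[E(K₁) : K₁(t)] = [E(Ω) : Ω(t)]`, Hesse.** -/
theorem finrank_hesE_adjoin_hesT_base :
    Module.finrank ↥(↥K₁)⟮hesT ↥K₁⟯ ↥(hesE ↥K₁ N) = (hesCoordBar N).degree := by
  rw [hesCoordBar_degree]
  letI : Algebra Ω ℂ := ((IsAlgClosed.lift : Ω →ₐ[ℚ] ℂ) : Ω →+* ℂ).toAlgebra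
  letI : Algebra ↥K₁ ℂ :=
    (((IsAlgClosed.lift : Ω →ₐ[ℚ] ℂ) : Ω →+* ℂ).comp (algebraMap ↥K₁ Ω)).toAlgebra
  haveI : Module.Finite ↥Ω⟮hesT Ω⟯ ↥(hesE Ω N) := finite_hesE Ω N
  haveI : Module.Finite ↥(↥K₁)⟮hesT ↥K₁⟯ ↥(hesE ↥K₁ N) := finite_hesE ↥K₁ N
  haveI : Algebra.IsAlgebraic ↥Ω⟮hesT Ω⟯ ↥(hesE Ω N) := Algebra.IsAlgebraic.of_finite _ _
  symm
  refine BCDeg.finrank_eq_of_linearDisjoint (k := ↥K₁) (Ω' := Ω) (hesKtBC K₁) (hesBC N K₁)
    (fun f => Subtype.ext rfl) (fun a => coeffHom_algebraMap _ _ _ _ a) ?_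
    (closure_range_hesBC N K₁)
    (fun g hg => phi_coeffHom_eq_zero _ _ _ _ (Basis.ofVectorSpace ↥K₁ Ω).linearIndependent g hg)
  refine closure_range_coeffHom _ _ _ _ ?_
  rw [adjoin_simple_le_iff]
  exact IntermediateField.subset_adjoin Ω _
    ⟨hesT ↥K₁, IntermediateField.mem_adjoin_simple_self _ _, coeffMap_hesT _⟩

end Bar

end Fermat.Agent.FG
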