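/-
FG [E-GAL] — helper6 — **the canonical uniformizer at the cusp, Legendre host.**

`legU K ∈ K⸨x⸩` is the Hensel root `x · S(x)`, `S(0) = 16`, of the Legendre sextic for `j(x²)`; it
is defined over `ℤ[1/2]`, hence fixed by all coefficientwise automorphisms and integral at all
primes `ℓ ≠ 2`.  The (non-canonical) Legendre coordinate `legT K` is a Möbius transform of it with
integer coefficients of determinant `±1`, so `K(legU) = K(legT)`.
-/
import Mathlib
import Fermat.Agent.FG.EGAL_helper6_Mob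
import Fermat.Agent.SS.HOSTINT_helper6_Main

set_option autoImplicit false
set_option linter.unusedSectionVars false
set_option linter.style.haveILetI false

open HahnSeries IntermediateField ModularCurve Polynomial

namespace Fermat.Agent.FG

open Fermat.Agent.JA Fermat.Agent.SS Fermat.Agent.Igusa

section Away

/-- `m` is a unit of `ℤ[1/m]`. -/
theorem isUnit_intCast_away (m : ℤ) : IsUnit ((m : ℤ) : Localization.Away m) := by
  have := IsLocalization.Away.algebraMap_isUnit (S := Localization.Away m) m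
  rwa [eq_intCast] at this

/-- the ring homomorphism `ℤ[1/m] → R` when `m ∈ Rˣ`. -/
noncomputable def awayHom (m : ℤ) (R : Type*) [CommRing R] (h : IsUnit ((m : ℤ) : R)) :
    Localization.Away m →+* R :=
  IsLocalization.Away.lift (S := Localization.Away m) m (g := Int.castRingHom R)
    (by rwa [eq_intCast])

end Away

section Universal

/-- `ℤ[1/2]` -/
local notation "Z2" => Localization.Away (2 : ℤ)

theorem isUnit_two_away : IsUnit (2 : Z2) := by
  have := isUnit_intCast_away 2
  rwa [Int.cast_ofNat] at this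

/-- the Hensel root `S ∈ ℤ[1/2]⟦x⟧`, `S(0) = 16`. -/
noncomputable def legSZ : PowerSeries Z2 :=
  Classical.choose (exists_legendre_root_ring isUnit_two_away)

/-- **the universal Legendre uniformizer** `x · S(x) ∈ ℤ[1/2]⸨x⸩`. -/
noncomputable def legUZ : LaurentSeries Z2 :=
  HahnSeries.single (1 : ℤ) (1 : Z2) * HahnSeries.ofPowerSeries ℤ Z2 legSZ

theorem constantCoeff_legSZ : PowerSeries.constantCoeff legSZ = 16 :=
  (Classical.choose_spec (exists_legendre_root_ring isUnit_two_away)).1

theorem legUZ_rel : 256 * (legUZ ^ 2 - legUZ + 1) ^ 3 =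
    jqNModC Z2 2 * (legUZ ^ 2 * (legUZ - 1) ^ 2) :=
  (Classical.choose_spec (exists_legendre_root_ring isUnit_two_away)).2

theorem legUZ_coeff_one : legUZ.coeff 1 = 16 := by
  rw [legUZ, HahnSeries.coeff_single_mul, one_mul, sub_self,
    show (0 : ℤ) = ((0 : ℕ) : ℤ) from rfl, HahnSeries.ofPowerSeries_apply_coeff,
    PowerSeries.coeff_zero_eq_constantCoeff_apply, constantCoeff_legSZ]

theorem legUZ_coeff_of_le {n : ℤ} (hn : n ≤ 0) : legUZ.coeff n = 0 := by
  rw [legUZ, HahnSeries.coeff_single_mul, one_mul]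
  exact ModularCurve.ofPowerSeries_coeff_of_neg _ (by omega)

/-- the coefficients of the image of `legUZ` under any ring homomorphism. -/
theorem coeffMap_legUZ_coeff_one {R : Type*} [CommRing R] (ψ : Z2 →+* R) :
    (coeffMap ψ legUZ).coeff 1 = 16 := by
  rw [coeffMap_coeff, legUZ_coeff_one, map_ofNat]

theorem coeffMap_legUZ_coeff_of_le {R : Type*} [CommRing R] (ψ : Z2 →+* R) {n : ℤ}
    (hn : n ≤ 0) : (coeffMap ψ legUZ).coeff n = 0 := by
  rw [coeffMap_coeff, legUZ_coeff_of_le hn, map_zero]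

/-- over a field in which `2 ≠ 0` the image of `legUZ` has order `1`. -/
theorem coeffMap_legUZ_order {R : Type*} [Field R] (h2 : (2 : R) ≠ 0) (ψ : Z2 →+* R) :
    (coeffMap ψ legUZ).order = 1 := by
  refine laurent_order_eq_of_coeff ?_ (fun m hm => coeffMap_legUZ_coeff_of_le ψ (by omega))
  rw [coeffMap_legUZ_coeff_one]
  have : (16 : R) = 2 ^ 4 := by norm_num
  rw [this]
  exact pow_ne_zero 4 h2

/-- the image of the Legendre relation under any ring homomorphism. -/
theorem coeffMap_legUZ_rel {R : Type*} [CommRing R] (ψ : Z2 →+* R) :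
    256 * (coeffMap ψ legUZ ^ 2 - coeffMap ψ legUZ + 1) ^ 3 =
      jqNModC R 2 * (coeffMap ψ legUZ ^ 2 * (coeffMap ψ legUZ - 1) ^ 2) := by
  have := congrArg (coeffMap ψ) legUZ_rel
  simp only [map_mul, map_pow, map_sub, map_add, map_one, map_ofNat] at this
  rw [coeffMap_jqNModC] at this
  exact this

/-- **the Legendre uniformizer over `ℚ`.** -/
noncomputable def legU₀ : LaurentSeries ℚ :=
  coeffMap (awayHom 2 ℚ (by norm_num)) legUZ

variable (K : Type*) [Field K] [Algebra ℚ K]

/-- **the Legendre uniformizer over `K`**: `x · S(x)`, `S(0) = 16`. -/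
noncomputable def legU : LaurentSeries K := coeffMap (algebraMap ℚ K) legU₀

/-- `legU K` is the image of the universal series under ANY homomorphism `ℤ[1/2] → K`. -/
theorem legU_eq_coeffMap (ψ : Z2 →+* K) : legU K = coeffMap ψ legUZ := by
  rw [legU, legU₀, coeffMap_coeffMap]
  exact coeffMap_congr (ringHom_away_int_ext 2 _ _) _

variable {K} in
/-- compatibility with coefficient extensions (and coefficientwise automorphisms). -/
theorem coeffMap_legU {L : Type*} [Field L] [Algebra ℚ L] (φ : K →+* L) :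
    coeffMap φ (legU K) = legU L := by
  rw [legU, coeffMap_coeffMap, legU]
  exact coeffMap_congr (Subsingleton.elim _ _) _

theorem legU_coeff_one : (legU K).coeff 1 = 16 := by
  rw [legU, legU₀, coeffMap_coeffMap]
  exact coeffMap_legUZ_coeff_one _

theorem legU_coeff_of_le {n : ℤ} (hn : n ≤ 0) : (legU K).coeff n = 0 := by
  rw [legU, legU₀, coeffMap_coeffMap]
  exact coeffMap_legUZ_coeff_of_le _ hn

theorem legU_order : (legU K).order = 1 := by
  haveI : CharZero K := algebraRat.charZero K
  rw [legU, legU₀, coeffMap_coeffMap]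
  exact coeffMap_legUZ_order two_ne_zero _

theorem legU_rel : 256 * (legU K ^ 2 - legU K + 1) ^ 3 =
    jqNModC K 2 * (legU K ^ 2 * (legU K - 1) ^ 2) := by
  rw [legU, legU₀, coeffMap_coeffMap]
  exact coeffMap_legUZ_rel _

theorem transcendental_legU : Transcendental K (legU K) := by
  haveI : CharZero K := algebraRat.charZero K
  refine Host.transcendental_of_coeff_ne_zero (n := 1) one_ne_zero ?_
  rw [legU_coeff_one]
  norm_num

theorem legU_ne_zero : legU K ≠ 0 := by
  intro h
  apply transcendental_legU K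
  rw [h]
  exact isAlgebraic_zero

theorem legU_ne_one : legU K ≠ 1 := by
  intro h
  apply transcendental_legU K
  rw [h]
  exact isAlgebraic_one

/-- **the Legendre coordinate is a Möbius transform of the uniformizer** (over `ℚ`). -/
theorem exists_isMobius_legT₀ : ∃ a b c d : ℤ, (a * d - b * c = 1 ∨ a * d - b * c = -1) ∧
    IsMobius a b c d legT₀ legU₀ := by
  have hrelt : 256 * (legT₀ ^ 2 - legT₀ + 1) ^ 3 =
      jqNModC ℚ 2 * (legT₀ ^ 2 * (legT₀ - 1) ^ 2) := by
    have := legT₀_spec.2.2
    rw [Host.aeval_legA, Host.aeval_legB] at this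
    exact this.symm
  have hrelu : 256 * (legU₀ ^ 2 - legU₀ + 1) ^ 3 =
      jqNModC ℚ 2 * (legU₀ ^ 2 * (legU₀ - 1) ^ 2) := coeffMap_legUZ_rel _
  have hu0 : legU₀ ≠ 0 := by
    have := legU_ne_zero ℚ
    rwa [legU, show algebraMap ℚ ℚ = RingHom.id ℚ from rfl, coeffMap_id] at this
  have hu1 : legU₀ ≠ 1 := by
    have := legU_ne_one ℚ
    rwa [legU, show algebraMap ℚ ℚ = RingHom.id ℚ from rfl, coeffMap_id] at this
  have hu1' : legU₀ - 1 ≠ 0 := sub_ne_zero.mpr hu1
  have hu1'' : (1 : LaurentSeries ℚ) - legU₀ ≠ 0 := sub_ne_zero.mpr (Ne.symm hu1)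
  have hdet : ∀ n : ℤ, (n = 1 ∨ n = -1) → ((n : ℤ) : LaurentSeries ℚ) ≠ 0 := by
    rintro n (rfl | rfl) <;> simp
  rcases legendre_roots (two_ne_zero_laurent ℚ) hrelt hrelu hu0 hu1 with h | h | h | h | h | h
  · refine ⟨1, 0, 0, 1, Or.inl (by norm_num), ⟨?_, hdet _ (Or.inl (by norm_num))⟩⟩
    rw [h]; push_cast; ring
  · refine ⟨-1, 1, 0, 1, Or.inr (by norm_num), ⟨?_, hdet _ (Or.inr (by norm_num))⟩⟩
    rw [h]; push_cast; ring
  · refine ⟨0, 1, 1, 0, Or.inr (by norm_num), ⟨?_, hdet _ (Or.inr (by norm_num))⟩⟩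
    rw [h]; push_cast; field_simp; ring
  · refine ⟨0, 1, -1, 1, Or.inl (by norm_num), ⟨?_, hdet _ (Or.inl (by norm_num))⟩⟩
    rw [h]; push_cast
    have : (-1 : LaurentSeries ℚ) * legU₀ + 1 = 1 - legU₀ := by ring
    rw [this, inv_mul_cancel₀ hu1'']; ring
  · refine ⟨1, -1, 1, 0, Or.inl (by norm_num), ⟨?_, hdet _ (Or.inl (by norm_num))⟩⟩
    rw [h]; push_cast; field_simp; ring
  · refine ⟨1, 0, 1, -1, Or.inr (by norm_num), ⟨?_, hdet _ (Or.inr (by norm_num))⟩⟩
    rw [h]; push_cast
    have : (1 : LaurentSeries ℚ) * legU₀ + -1 = legU₀ - 1 := by ring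
    rw [this, div_mul_cancel₀ _ hu1']; ring

variable {K} in
/-- transport of the Möbius relation to any coefficient field. -/
theorem IsMobius.legT_legU {a b c d : ℤ} (h : IsMobius a b c d legT₀ legU₀) :
    IsMobius a b c d (legT K) (legU K) :=
  h.map (coeffMap (algebraMap ℚ K))

end Universal

end Fermat.Agent.FG
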