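/-
FG [E-GAL] — helper6 — **the cusp and its uniformizer on `legE Ω N`** (generic fibre): the
`GoodRed` fields `cusp`, `τ`, `ord_cusp_τ`, `τ_transcendental`, `τ_finite`, `finrank_τ`, and the
invariance of `τ` and `cusp` under the coefficientwise Galois action (`IsRatAut`).
-/
import Mathlib
import Fermat.Agent.FG.EGAL_helper6_TauLeg
import Fermat.Agent.FG.EDEF_helper6_Deg
import Fermat.Agent.JA.KEYBASE_helper8_Cusp
import Fermat.Agent.SS.IBASE_helper1_Act
import Fermat.Agent.SS.CUSPT_helper3_Host

set_option autoImplicit false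
set_option linter.unusedSectionVars false
set_option linter.style.haveILetI false
set_option synthInstance.maxHeartbeats 400000

open HahnSeries IntermediateField ModularCurve Polynomial AlgebraicCurve

namespace Fermat.Agent.FG

open Fermat.Agent.JA Fermat.Agent.SS Fermat.Agent.Igusa Fermat.Agent.FF
open scoped Fermat.Agent.JA.Host

local notation "Ω" => AlgebraicClosure ℚ
local notation "GQ" => (AlgebraicClosure ℚ ≃ₐ[ℚ] AlgebraicClosure ℚ)

section AnyK

variable (K : Type*) [Field K] [Algebra ℚ K] (N : ℕ) [NeZero N]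

theorem legU_mem_adjoin_legT : legU K ∈ K⟮legT K⟯ := by
  obtain ⟨a, b, c, d, -, hm⟩ := exists_isMobius_legT₀
  exact (hm.legT_legU (K := K)).symm.mem_adjoin K

theorem legU_mem_legE : legU K ∈ legE K N :=
  (adjoin_simple_le_iff.mpr (cuspt_legT_mem_legE K N)) (legU_mem_adjoin_legT K)

/-- **`τ`**: the canonical uniformizer at the cusp as an element of `legE K N`. -/
noncomputable def legTau : ↥(legE K N) := ⟨legU K, legU_mem_legE K N⟩

@[simp] theorem coe_legTau : ((legTau K N : ↥(legE K N)) : LaurentSeries K) = legU K := rfl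

/-- the Legendre coordinate as an element of `legE K N`. -/
noncomputable def legTE : ↥(legE K N) := ⟨legT K, cuspt_legT_mem_legE K N⟩

@[simp] theorem coe_legTE : ((legTE K N : ↥(legE K N)) : LaurentSeries K) = legT K := rfl

theorem legTau_ne_zero : legTau K N ≠ 0 := fun h =>
  legU_ne_zero K (congrArg Subtype.val h)

/-- the Möbius relation inside `legE K N`. -/
theorem exists_isMobius_legTE : ∃ a b c d : ℤ, (a * d - b * c = 1 ∨ a * d - b * c = -1) ∧
    IsMobius a b c d (legTE K N) (legTau K N) := by
  obtain ⟨a, b, c, d, hdet, hm⟩ := exists_isMobius_legT₀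
  have hm' := hm.legT_legU (K := K)
  refine ⟨a, b, c, d, hdet, ⟨?_, ?_⟩⟩
  · apply Subtype.ext
    push_cast
    exact hm'.rel
  · intro h0
    apply hm'.det
    have := congrArg (Subtype.val : ↥(legE K N) → LaurentSeries K) h0
    push_cast at this ⊢
    exact this

theorem adjoin_legTau : K⟮legTau K N⟯ = K⟮legTE K N⟯ := by
  obtain ⟨a, b, c, d, -, hm⟩ := exists_isMobius_legTE K N
  exact (hm.adjoin_eq K).symm

theorem legTau_transcendental : Transcendental K (legTau K N) := by
  intro halg
  apply transcendental_legU K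
  exact (isAlgebraic_algHom_iff (legE K N).val Subtype.val_injective).mpr halg

theorem legCusp_hF : ∃ y : ↥(legE K N), y ≠ 0 ∧ qOrd (legE K N) y ≠ 0 :=
  ⟨legTau K N, legTau_ne_zero K N, by
    show (legU K).order ≠ 0
    rw [legU_order]; exact one_ne_zero⟩

/-- the cusp `x = 0` as a place of `legE K N`. -/
noncomputable def legCusp : Place K ↥(legE K N) :=
  cuspPlace (legE K N) (legCusp_hF K N)

theorem legCusp_ord {x : ↥(legE K N)} (hx : x ≠ 0) :
    (legCusp K N).ord x = (x : LaurentSeries K).order :=
  cuspPlace_ord _ _ ⟨legTau K N, legTau_ne_zero K N, legU_order K⟩ hx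

/-- **`ord_cusp_τ`**. -/
theorem legCusp_ord_legTau : (legCusp K N).ord (legTau K N) = 1 := by
  rw [legCusp_ord K N (legTau_ne_zero K N)]
  exact legU_order K

theorem mem_legCusp_iff {x : ↥(legE K N)} (hx : x ≠ 0) :
    x ∈ (legCusp K N).toValuationSubring ↔ 0 ≤ (x : LaurentSeries K).order :=
  (isOrdFun_qOrd (legE K N) (legCusp_hF K N)).mem_place_iff hx

/-- the coefficientwise Galois action fixes `τ`. -/
theorem legGalois_smul_legTau (σ : K ≃ₐ[ℚ] K) : legGalois K N σ • legTau K N = legTau K N := by
  apply Subtype.ext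
  rw [legGalois, coe_coeffGalois_smul]
  exact coeffMap_legU (σ : K →+* K)

theorem laurent_order_coeffMap_of_injective {R S : Type*} [CommRing R] [CommRing S] (f : R →+* S)
    (hf : Function.Injective f) (x : LaurentSeries R) : (coeffMap f x).order = x.order := by
  by_cases hx : x = 0
  · rw [hx, map_zero, HahnSeries.order_zero, HahnSeries.order_zero]
  · refine laurent_order_eq_of_coeff ?_ (fun m hm => ?_)
    · rw [coeffMap_coeff]
      intro h
      rw [← map_zero f] at h
      exact HahnSeries.coeff_order_eq_zero.not.mpr hx (hf h)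
    · rw [coeffMap_coeff, HahnSeries.coeff_eq_zero_of_lt_order hm, map_zero]

/-- the coefficientwise Galois action fixes the cusp. -/
theorem legGalois_smul_legCusp (σ : K ≃ₐ[ℚ] K) : legGalois K N σ • legCusp K N = legCusp K N := by
  apply Place.toValuationSubring_injective
  rw [SemilinearAut.smul_toValuationSubring]
  ext x
  rw [ValuationSubring.mem_pointwise_smul_iff_inv_smul_mem]
  by_cases hx : x = 0
  · subst hx
    simp only [smul_zero]
  · have hx' : (legGalois K N σ)⁻¹ • x ≠ 0 := by
      rwa [Ne, smul_eq_zero_iff_eq]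
    rw [mem_legCusp_iff K N hx, mem_legCusp_iff K N hx', ← map_inv, legGalois,
      coe_coeffGalois_smul, laurent_order_coeffMap_of_injective _ (RingHom.injective _)]

end AnyK

section Bar

variable (N : ℕ) [NeZero N]

theorem legTE_eq_legCoordBar_x : legTE Ω N = (legCoordBar N).x := Subtype.ext rfl

theorem adjoin_legTau_bar : Ω⟮legTau Ω N⟯ = Ω⟮(legCoordBar N).x⟯ := by
  rw [adjoin_legTau, legTE_eq_legCoordBar_x]

/-- **`τ_finite`**. -/
theorem legTau_finite : FiniteDimensional ↥Ω⟮legTau Ω N⟯ ↥(legE Ω N) := by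
  rw [adjoin_legTau_bar]
  exact (legCoordBar N).fin

/-- **`finrank_τ`** with `d := (legCoordBar N).degree`. -/
theorem finrank_legTau : Module.finrank ↥Ω⟮legTau Ω N⟯ ↥(legE Ω N) = (legCoordBar N).degree := by
  rw [adjoin_legTau_bar]
  rfl

end Bar

end Fermat.Agent.FG
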