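/-
FG [E-GAL] — helper6 — **the canonical uniformizer at the cusp, Hesse host.**

`hesU K ∈ K⸨x⸩` is the Hensel root `s = x · S(x)`, `S(0) = 3`, of the inverted Hesse equation for
`j(x³)`; it is defined over `ℤ[1/3]`, hence fixed by all coefficientwise automorphisms and integral
at all primes `ℓ ≠ 3`.  The (non-canonical) Hesse coordinate `hesT K` is a Möbius transform of it
with integer coefficients of determinant `-1` or `3`, so `K(hesU) = K(hesT)`.
-/
import Mathlib
import Fermat.Agent.FG.EGAL_helper6_TauLeg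

set_option autoImplicit false
set_option linter.unusedSectionVars false
set_option linter.style.haveILetI false

open HahnSeries IntermediateField ModularCurve Polynomial

namespace Fermat.Agent.FG

open Fermat.Agent.JA Fermat.Agent.SS Fermat.Agent.Igusa

section Universal

/-- `ℤ[1/3]` -/
local notation "Z3" => Localization.Away (3 : ℤ)

theorem isUnit_three_away : IsUnit (3 : Z3) := by
  have := isUnit_intCast_away 3
  rwa [Int.cast_ofNat] at this

/-- the Hensel root `S ∈ ℤ[1/3]⟦x⟧`, `S(0) = 3`. -/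
noncomputable def hesSZ : PowerSeries Z3 :=
  Classical.choose (exists_hesse_root_ring isUnit_three_away)

/-- **the universal Hesse uniformizer** `x · S(x) ∈ ℤ[1/3]⸨x⸩`. -/
noncomputable def hesUZ : LaurentSeries Z3 :=
  HahnSeries.ofPowerSeries ℤ Z3 (PowerSeries.X * hesSZ)

theorem constantCoeff_hesSZ : PowerSeries.constantCoeff hesSZ = 3 :=
  (Classical.choose_spec (exists_hesse_root_ring isUnit_three_away)).1

theorem hesUZ_rel : 27 * (1 + 8 * hesUZ ^ 3) ^ 3 =
    jqNModC Z3 3 * (hesUZ ^ 3 * (1 - hesUZ ^ 3) ^ 3) :=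
  (Classical.choose_spec (exists_hesse_root_ring isUnit_three_away)).2

theorem hesUZ_coeff_one : hesUZ.coeff 1 = 3 := by
  rw [hesUZ, show (1 : ℤ) = ((1 : ℕ) : ℤ) from rfl,
    HahnSeries.ofPowerSeries_apply_coeff, show (1 : ℕ) = 0 + 1 from rfl,
    PowerSeries.coeff_succ_X_mul, PowerSeries.coeff_zero_eq_constantCoeff_apply,
    constantCoeff_hesSZ]

theorem hesUZ_coeff_of_le {n : ℤ} (hn : n ≤ 0) : hesUZ.coeff n = 0 := by
  rcases hn.lt_or_eq with h | h
  · exact ModularCurve.ofPowerSeries_coeff_of_neg _ h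
  · subst h
    rw [hesUZ, show (0 : ℤ) = ((0 : ℕ) : ℤ) from rfl, HahnSeries.ofPowerSeries_apply_coeff,
      PowerSeries.coeff_zero_X_mul]

/-- the coefficients of the image of `hesUZ` under any ring homomorphism. -/
theorem coeffMap_hesUZ_coeff_one {R : Type*} [CommRing R] (ψ : Z3 →+* R) :
    (coeffMap ψ hesUZ).coeff 1 = 3 := by
  rw [coeffMap_coeff, hesUZ_coeff_one, map_ofNat]

theorem coeffMap_hesUZ_coeff_of_le {R : Type*} [CommRing R] (ψ : Z3 →+* R) {n : ℤ}
    (hn : n ≤ 0) : (coeffMap ψ hesUZ).coeff n = 0 := by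
  rw [coeffMap_coeff, hesUZ_coeff_of_le hn, map_zero]

/-- over a field in which `3 ≠ 0` the image of `hesUZ` has order `1`. -/
theorem coeffMap_hesUZ_order {R : Type*} [Field R] (h3 : (3 : R) ≠ 0) (ψ : Z3 →+* R) :
    (coeffMap ψ hesUZ).order = 1 := by
  refine laurent_order_eq_of_coeff ?_ (fun m hm => coeffMap_hesUZ_coeff_of_le ψ (by omega))
  rw [coeffMap_hesUZ_coeff_one]
  exact h3

/-- the image of the Hesse relation under any ring homomorphism. -/
theorem coeffMap_hesUZ_rel {R : Type*} [CommRing R] (ψ : Z3 →+* R) :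
    27 * (1 + 8 * coeffMap ψ hesUZ ^ 3) ^ 3 =
      jqNModC R 3 * (coeffMap ψ hesUZ ^ 3 * (1 - coeffMap ψ hesUZ ^ 3) ^ 3) := by
  have := congrArg (coeffMap ψ) hesUZ_rel
  simp only [map_mul, map_pow, map_sub, map_add, map_one, map_ofNat] at this
  rw [coeffMap_jqNModC] at this
  exact this

/-- **the Hesse uniformizer over `ℚ`.** -/
noncomputable def hesU₀ : LaurentSeries ℚ :=
  coeffMap (awayHom 3 ℚ (by norm_num)) hesUZ

variable (K : Type*) [Field K] [Algebra ℚ K]

/-- **the Hesse uniformizer over `K`**: `x · S(x)`, `S(0) = 3`. -/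
noncomputable def hesU : LaurentSeries K := coeffMap (algebraMap ℚ K) hesU₀

/-- `hesU K` is the image of the universal series under ANY homomorphism `ℤ[1/3] → K`. -/
theorem hesU_eq_coeffMap (ψ : Z3 →+* K) : hesU K = coeffMap ψ hesUZ := by
  rw [hesU, hesU₀, coeffMap_coeffMap]
  exact coeffMap_congr (ringHom_away_int_ext 3 _ _) _

variable {K} in
/-- compatibility with coefficient extensions (and coefficientwise automorphisms). -/
theorem coeffMap_hesU {L : Type*} [Field L] [Algebra ℚ L] (φ : K →+* L) :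
    coeffMap φ (hesU K) = hesU L := by
  rw [hesU, coeffMap_coeffMap, hesU]
  exact coeffMap_congr (Subsingleton.elim _ _) _

theorem hesU_coeff_one : (hesU K).coeff 1 = 3 := by
  rw [hesU, hesU₀, coeffMap_coeffMap]
  exact coeffMap_hesUZ_coeff_one _

theorem hesU_coeff_of_le {n : ℤ} (hn : n ≤ 0) : (hesU K).coeff n = 0 := by
  rw [hesU, hesU₀, coeffMap_coeffMap]
  exact coeffMap_hesUZ_coeff_of_le _ hn

theorem hesU_order : (hesU K).order = 1 := by
  haveI : CharZero K := algebraRat.charZero K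
  rw [hesU, hesU₀, coeffMap_coeffMap]
  exact coeffMap_hesUZ_order three_ne_zero _

theorem hesU_rel : 27 * (1 + 8 * hesU K ^ 3) ^ 3 =
    jqNModC K 3 * (hesU K ^ 3 * (1 - hesU K ^ 3) ^ 3) := by
  rw [hesU, hesU₀, coeffMap_coeffMap]
  exact coeffMap_hesUZ_rel _

theorem transcendental_hesU : Transcendental K (hesU K) := by
  haveI : CharZero K := algebraRat.charZero K
  refine Host.transcendental_of_coeff_ne_zero (n := 1) one_ne_zero ?_
  rw [hesU_coeff_one]
  norm_num

theorem hesU_ne_zero : hesU K ≠ 0 := by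
  intro h
  apply transcendental_hesU K
  rw [h]
  exact isAlgebraic_zero

/-- **the Hesse coordinate is a Möbius transform of the uniformizer** (over `ℚ`). -/
theorem exists_isMobius_hesT₀ : ∃ a b c d : ℤ, (a * d - b * c = -1 ∨ a * d - b * c = 3) ∧
    IsMobius a b c d hesT₀ hesU₀ := by
  have hU : hesU ℚ = hesU₀ := by
    rw [hesU, show algebraMap ℚ ℚ = RingHom.id ℚ from rfl, coeffMap_id]
  have hstr : Transcendental ℚ hesU₀ := hU ▸ transcendental_hesU ℚ
  have hrel : 27 * (1 + 8 * hesU₀ ^ 3) ^ 3 =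
      jqNModC ℚ 3 * (hesU₀ ^ 3 * (1 - hesU₀ ^ 3) ^ 3) := coeffMap_hesUZ_rel _
  have hne : (1 + 3 * hesU₀ - hesU₀ ^ 3) * (12 * hesU₀ ^ 2 - 6 * hesU₀) -
      (1 - 6 * hesU₀ + 8 * hesU₀ ^ 3) * (3 * hesU₀ + 3 * hesU₀ ^ 2) ≠ 0 := by
    intro h0
    apply hstr
    refine ⟨(1 + 3 * X - X ^ 3) * (12 * X ^ 2 - 6 * X) -
      (1 - 6 * X + 8 * X ^ 3) * (3 * X + 3 * X ^ 2), ?_, ?_⟩
    · intro hp
      have := congrArg (Polynomial.eval 2) hp
      simp at this
      norm_num at this
    · simpa only [map_sub, map_mul, map_add, map_pow, aeval_X, map_one, map_ofNat] using h0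
  have hT : jqNModC ℚ 3 * (hesT₀ ^ 3 - 1) ^ 3 = 27 * hesT₀ ^ 3 * (hesT₀ ^ 3 + 8) ^ 3 := by
    have := hesT₀_spec.2.2
    rw [Host.aeval_hesA, Host.aeval_hesB] at this
    exact this
  have h3Q : (3 : LaurentSeries ℚ) ≠ 0 := by
    have h : (3 : LaurentSeries ℚ) = algebraMap ℚ (LaurentSeries ℚ) 3 :=
      (map_ofNat (algebraMap ℚ (LaurentSeries ℚ)) 3).symm
    rw [h]
    exact (_root_.map_ne_zero _).mpr (by norm_num)
  rcases hesse_roots h3Q laurentSeries_rat_sq_add_self_add_one_ne_zero hT hrel hne with h | h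
  · refine ⟨0, 1, 1, 0, Or.inl (by norm_num), ⟨?_, by simp⟩⟩
    push_cast
    linear_combination h
  · refine ⟨2, 1, -1, 1, Or.inr (by norm_num), ⟨?_, ?_⟩⟩
    · push_cast
      linear_combination h
    · have : ((2 * 1 - 1 * -1 : ℤ) : LaurentSeries ℚ) = 3 := by norm_num
      rw [this]
      exact h3Q

variable {K} in
/-- transport of the Möbius relation to any coefficient field. -/
theorem IsMobius.hesT_hesU {a b c d : ℤ} (h : IsMobius a b c d hesT₀ hesU₀) :
    IsMobius a b c d (hesT K) (hesU K) :=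
  h.map (coeffMap (algebraMap ℚ K))

end Universal

end Fermat.Agent.FG
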