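/-
FG [E-GAL] — helper6 — **the cusp and its uniformizer on `hesE Ω N`** (generic fibre): the
`GoodRed` fields `cusp`, `τ`, `ord_cusp_τ`, `τ_transcendental`, `τ_finite`, `finrank_τ`, and the
invariance of `τ` and `cusp` under the coefficientwise Galois action (`IsRatAut`).
-/
import Mathlib
import Fermat.Agent.FG.EGAL_helper6_TauHes
import Fermat.Agent.FG.EGAL_helper6_CuspLeg
import Fermat.Agent.FG.EDEF_helper6_Deg
import Fermat.Agent.JA.KEYBASE_helper8_Cusp
import Fermat.Agent.SS.IBASE_helper1_Act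
import Fermat.Agent.SS.CUSPT_helper3_Host

set_option autoImplicit false
set_option linter.unusedSectionVars false
set_option linter.style.haveILetI false
set_option synthInstance.maxHeartbeats 400000

open HahnSeries IntermediateField ModularCurve Polynomial AlgebraicCurve

namespace Fermat.Agent.FG

open Fermat.Agent.JA Fermat.Agent.SS Fermat.Agent.Igusa Fermat.Agent.FF
open scoped Fermat.Agent.JA.Host

local notation "Ω" => AlgebraicClosure ℚ
local notation "GQ" => (AlgebraicClosure ℚ ≃ₐ[ℚ] AlgebraicClosure ℚ)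

section AnyK

variable (K : Type*) [Field K] [Algebra ℚ K] (N : ℕ) [NeZero N]

theorem hesU_mem_adjoin_hesT : hesU K ∈ K⟮hesT K⟯ := by
  obtain ⟨a, b, c, d, -, hm⟩ := exists_isMobius_hesT₀
  exact (hm.hesT_hesU (K := K)).symm.mem_adjoin K

theorem hesU_mem_hesE : hesU K ∈ hesE K N :=
  (adjoin_simple_le_iff.mpr (cuspt_hesT_mem_hesE K N)) (hesU_mem_adjoin_hesT K)

/-- **`τ`**: the canonical uniformizer at the cusp as an element of `hesE K N`. -/
noncomputable def hesTau : ↥(hesE K N) := ⟨hesU K, hesU_mem_hesE K N⟩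

@[simp] theorem coe_hesTau : ((hesTau K N : ↥(hesE K N)) : LaurentSeries K) = hesU K := rfl

/-- the Hesse coordinate as an element of `hesE K N`. -/
noncomputable def hesTE : ↥(hesE K N) := ⟨hesT K, cuspt_hesT_mem_hesE K N⟩

@[simp] theorem coe_hesTE : ((hesTE K N : ↥(hesE K N)) : LaurentSeries K) = hesT K := rfl

theorem hesTau_ne_zero : hesTau K N ≠ 0 := fun h =>
  hesU_ne_zero K (congrArg Subtype.val h)

/-- the Möbius relation inside `hesE K N`. -/
theorem exists_isMobius_hesTE : ∃ a b c d : ℤ, (a * d - b * c = -1 ∨ a * d - b * c = 3) ∧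
    IsMobius a b c d (hesTE K N) (hesTau K N) := by
  obtain ⟨a, b, c, d, hdet, hm⟩ := exists_isMobius_hesT₀
  have hm' := hm.hesT_hesU (K := K)
  refine ⟨a, b, c, d, hdet, ⟨?_, ?_⟩⟩
  · apply Subtype.ext
    push_cast
    exact hm'.rel
  · intro h0
    apply hm'.det
    have := congrArg (Subtype.val : ↥(hesE K N) → LaurentSeries K) h0
    push_cast at this ⊢
    exact this

theorem adjoin_hesTau : K⟮hesTau K N⟯ = K⟮hesTE K N⟯ := by
  obtain ⟨a, b, c, d, -, hm⟩ := exists_isMobius_hesTE K N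
  exact (hm.adjoin_eq K).symm

theorem hesTau_transcendental : Transcendental K (hesTau K N) := by
  intro halg
  apply transcendental_hesU K
  exact (isAlgebraic_algHom_iff (hesE K N).val Subtype.val_injective).mpr halg

theorem hesCusp_hF : ∃ y : ↥(hesE K N), y ≠ 0 ∧ qOrd (hesE K N) y ≠ 0 :=
  ⟨hesTau K N, hesTau_ne_zero K N, by
    show (hesU K).order ≠ 0
    rw [hesU_order]; exact one_ne_zero⟩

/-- the cusp `x = 0` as a place of `hesE K N`. -/
noncomputable def hesCusp : Place K ↥(hesE K N) :=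
  cuspPlace (hesE K N) (hesCusp_hF K N)

theorem hesCusp_ord {x : ↥(hesE K N)} (hx : x ≠ 0) :
    (hesCusp K N).ord x = (x : LaurentSeries K).order :=
  cuspPlace_ord _ _ ⟨hesTau K N, hesTau_ne_zero K N, hesU_order K⟩ hx

/-- **`ord_cusp_τ`**. -/
theorem hesCusp_ord_hesTau : (hesCusp K N).ord (hesTau K N) = 1 := by
  rw [hesCusp_ord K N (hesTau_ne_zero K N)]
  exact hesU_order K

theorem mem_hesCusp_iff {x : ↥(hesE K N)} (hx : x ≠ 0) :
    x ∈ (hesCusp K N).toValuationSubring ↔ 0 ≤ (x : LaurentSeries K).order :=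
  (isOrdFun_qOrd (hesE K N) (hesCusp_hF K N)).mem_place_iff hx

/-- the coefficientwise Galois action fixes `τ`. -/
theorem hesGalois_smul_hesTau (σ : K ≃ₐ[ℚ] K) : hesGalois K N σ • hesTau K N = hesTau K N := by
  apply Subtype.ext
  rw [hesGalois, coe_coeffGalois_smul]
  exact coeffMap_hesU (σ : K →+* K)

/-- the coefficientwise Galois action fixes the cusp. -/
theorem hesGalois_smul_hesCusp (σ : K ≃ₐ[ℚ] K) : hesGalois K N σ • hesCusp K N = hesCusp K N := by
  apply Place.toValuationSubring_injective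
  rw [SemilinearAut.smul_toValuationSubring]
  ext x
  rw [ValuationSubring.mem_pointwise_smul_iff_inv_smul_mem]
  by_cases hx : x = 0
  · subst hx
    simp only [smul_zero]
  · have hx' : (hesGalois K N σ)⁻¹ • x ≠ 0 := by
      rwa [Ne, smul_eq_zero_iff_eq]
    rw [mem_hesCusp_iff K N hx, mem_hesCusp_iff K N hx', ← map_inv, hesGalois,
      coe_coeffGalois_smul, laurent_order_coeffMap_of_injective _ (RingHom.injective _)]

end AnyK

section Bar

variable (N : ℕ) [NeZero N]

theorem hesTE_eq_hesCoordBar_x : hesTE Ω N = (hesCoordBar N).x := Subtype.ext rfl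

theorem adjoin_hesTau_bar : Ω⟮hesTau Ω N⟯ = Ω⟮(hesCoordBar N).x⟯ := by
  rw [adjoin_hesTau, hesTE_eq_hesCoordBar_x]

/-- **`τ_finite`**. -/
theorem hesTau_finite : FiniteDimensional ↥Ω⟮hesTau Ω N⟯ ↥(hesE Ω N) := by
  rw [adjoin_hesTau_bar]
  exact (hesCoordBar N).fin

/-- **`finrank_τ`** with `d := (hesCoordBar N).degree`. -/
theorem finrank_hesTau : Module.finrank ↥Ω⟮hesTau Ω N⟯ ↥(hesE Ω N) = (hesCoordBar N).degree := by
  rw [adjoin_hesTau_bar]
  rfl

end Bar

end Fermat.Agent.FG
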