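/-
FG [E-GAL] — helper6 — **the cusp and its uniformizer on the special fibre, Legendre host**: the
`GoodRed` fields `τ_mem`, `τ_finite_red`, `τ_separable_red`, the reduced cusp `legCuspb` (the
`x`-adic place of `Ẽ ⊆ k⸨x⸩`) with `ord (ρ τ) = 1`, and `k(ρ τ) = k(t̄)`.
-/
import Mathlib
import Fermat.Agent.FG.EGAL_helper6_CuspLeg
import Fermat.Agent.FG.EDEF_helper6_PsiBij

set_option autoImplicit false
set_option linter.unusedSectionVars false
set_option linter.style.haveILetI false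
set_option synthInstance.maxHeartbeats 400000

open HahnSeries IntermediateField ModularCurve Polynomial AlgebraicCurve IsLocalRing

namespace Fermat.Agent.FG

open Fermat.Agent.JA Fermat.Agent.SS Fermat.Agent.Igusa Fermat.Agent.FF
open scoped Fermat.Agent.JA.Host

local notation "Ω" => AlgebraicClosure ℚ

variable {ℓ : ℕ} [Fact ℓ.Prime] {A : ValuationSubring Ω} (hA : A.LiesOverPrime ℓ)
  (N : ℕ) [NeZero N]

include hA in
/-- natural numbers prime to `ℓ` are units of `A`. -/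
theorem isUnit_natCast_valSub {m : ℕ} (hm : ¬ ℓ ∣ m) : IsUnit ((m : ℕ) : ↥A) := by
  rw [ValuationSubring.valuation_eq_one_iff]
  have h1 : (((m : ℕ) : ↥A) : Ω) = (m : Ω) := by push_cast; rfl
  rw [h1]
  exact Fermat.Agent.TW.Kill.valuation_natCast_eq_one (Fact.out : ℓ.Prime) hm hA

include hA in
theorem natCast_residue_ne_zero {m : ℕ} (hm : ¬ ℓ ∣ m) : ((m : ℕ) : ResidueField ↥A) ≠ 0 := by
  have h := (isUnit_natCast_valSub hA hm).map (residue ↥A)
  rw [map_natCast] at h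
  exact h.ne_zero

include hA in
theorem intCast_residue_ne_zero {m : ℤ} (hm : ¬ (ℓ : ℤ) ∣ m) : ((m : ℤ) : ResidueField ↥A) ≠ 0 := by
  have h1 : ¬ ℓ ∣ m.natAbs := fun h => hm (Int.natCast_dvd.mpr h)
  have h2 := natCast_residue_ne_zero hA h1
  intro h0
  apply h2
  rcases Int.natAbs_eq m with h | h
  · have : ((m.natAbs : ℕ) : ResidueField ↥A) = ((m : ℤ) : ResidueField ↥A) := by
      conv_rhs => rw [h]
      simp
    rw [this, h0]
  · have : ((m.natAbs : ℕ) : ResidueField ↥A) = -((m : ℤ) : ResidueField ↥A) := by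
      conv_rhs => rw [h]
      simp
    rw [this, h0, neg_zero]

section Leg

variable (hℓ2 : ℓ ≠ 2)

include hA hℓ2 in
theorem isUnit_two_valSub : IsUnit (((2 : ℤ) : ℤ) : ↥A) := by
  have hℓ2' : ¬ ℓ ∣ 2 := fun h =>
    hℓ2 ((Nat.prime_dvd_prime_iff_eq (Fact.out : ℓ.Prime) Nat.prime_two).mp h)
  have := isUnit_natCast_valSub hA hℓ2'
  exact_mod_cast this

/-- the `A`-model of the uniformizer. -/
noncomputable def legUA : LaurentSeries ↥A :=
  coeffMap (awayHom 2 ↥A (isUnit_two_valSub hA hℓ2)) legUZ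

theorem fEmb_legUA : fEmb A (legUA hA hℓ2) = legU Ω := by
  rw [legUA, fEmb, coeffMap_coeffMap]
  exact (legU_eq_coeffMap Ω _).symm

/-- the reduced uniformizer as a series over `k`. -/
noncomputable def legUb : LaurentSeries (ResidueField ↥A) := fRed A (legUA hA hℓ2)

theorem legUb_eq : legUb hA hℓ2 =
    coeffMap ((residue ↥A).comp (awayHom 2 ↥A (isUnit_two_valSub hA hℓ2))) legUZ := by
  rw [legUb, legUA, fRed, coeffMap_coeffMap]

include hA hℓ2 in
theorem two_residue_ne_zero : (2 : ResidueField ↥A) ≠ 0 := by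
  have hℓ2' : ¬ ℓ ∣ 2 := fun h =>
    hℓ2 ((Nat.prime_dvd_prime_iff_eq (Fact.out : ℓ.Prime) Nat.prime_two).mp h)
  have := natCast_residue_ne_zero hA hℓ2'
  exact_mod_cast this

theorem legUb_order : (legUb hA hℓ2).order = 1 := by
  rw [legUb_eq]
  exact coeffMap_legUZ_order (two_residue_ne_zero hA hℓ2) _

theorem legUb_coeff_one : (legUb hA hℓ2).coeff 1 = 16 := by
  rw [legUb_eq]
  exact coeffMap_legUZ_coeff_one _

theorem legUb_coeff_of_le {n : ℤ} (hn : n ≤ 0) : (legUb hA hℓ2).coeff n = 0 := by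
  rw [legUb_eq]
  exact coeffMap_legUZ_coeff_of_le _ hn

/-- **`τ_mem`**. -/
theorem legTau_mem_legWE : legTau Ω N ∈ legWE hA N hℓ2 := by
  rw [mem_legWE_iff, coe_legTau, ← fEmb_legUA hA hℓ2]
  exact fEmb_mem_fracInt A _

/-- **`ρ τ`**, the reduced uniformizer. -/
noncomputable def legTaub : legEt hA N hℓ2 :=
  legρ hA N hℓ2 ⟨legTau Ω N, legTau_mem_legWE hA N hℓ2⟩

/-- the `x`-expansion of the reduced uniformizer. -/
theorem legEtEmb_legTaub : legEtEmb hA N hℓ2 (legTaub hA N hℓ2) = legUb hA hℓ2 := by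
  rw [legTaub, legEtEmb_legρ, legUb]
  rw [fracRed_eq _ (legUA hA hℓ2) 1 (by rw [map_one]; exact one_ne_zero)
    (by rw [map_one, mul_one, fEmb_legUA]; rfl), map_one, div_one]

theorem legTaub_ne_zero : legTaub hA N hℓ2 ≠ 0 := by
  intro h
  have h1 := legEtEmb_legTaub hA N hℓ2
  rw [h, map_zero] at h1
  have h2 := legUb_order hA hℓ2
  rw [← h1, HahnSeries.order_zero] at h2
  exact zero_ne_one h2

theorem legCuspb_hF : ∃ y : legEt hA N hℓ2, y ≠ 0 ∧ embOrd (legEtEmb hA N hℓ2) y ≠ 0 :=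
  ⟨legTaub hA N hℓ2, legTaub_ne_zero hA N hℓ2, by
    show (legEtEmb hA N hℓ2 (legTaub hA N hℓ2)).order ≠ 0
    rw [legEtEmb_legTaub, legUb_order]; exact one_ne_zero⟩

/-- **the reduced cusp**: the `x`-adic place of `Ẽ ⊆ k⸨x⸩`. -/
noncomputable def legCuspb : Place (ResidueField ↥A) (legEt hA N hℓ2) :=
  embPlace (legEtEmb hA N hℓ2) (legEtEmb_algebraMap hA N hℓ2) (legCuspb_hF hA N hℓ2)

theorem legCuspb_ord {y : legEt hA N hℓ2} (hy : y ≠ 0) :
    (legCuspb hA N hℓ2).ord y = (legEtEmb hA N hℓ2 y).order :=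
  embPlace_ord _ _ _ ⟨legTaub hA N hℓ2, legTaub_ne_zero hA N hℓ2, by
    show (legEtEmb hA N hℓ2 (legTaub hA N hℓ2)).order = 1
    rw [legEtEmb_legTaub, legUb_order]⟩ hy

theorem mem_legCuspb_iff {y : legEt hA N hℓ2} (hy : y ≠ 0) :
    y ∈ (legCuspb hA N hℓ2).toValuationSubring ↔ 0 ≤ (legEtEmb hA N hℓ2 y).order :=
  mem_embPlace_iff _ _ _ hy

/-- the reduced uniformizer is a uniformizer at the reduced cusp. -/
theorem legCuspb_ord_legTaub : (legCuspb hA N hℓ2).ord (legTaub hA N hℓ2) = 1 := by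
  rw [legCuspb_ord hA N hℓ2 (legTaub_ne_zero hA N hℓ2), legEtEmb_legTaub, legUb_order]

/-- the Möbius relation between the reduced coordinate and the reduced uniformizer. -/
theorem exists_isMobius_legTb : ∃ a b c d : ℤ, (a * d - b * c = 1 ∨ a * d - b * c = -1) ∧
    IsMobius a b c d (legTb hA N hℓ2) (legTaub hA N hℓ2) := by
  obtain ⟨a, b, c, d, hdet, hm⟩ := exists_isMobius_legTE Ω N
  refine ⟨a, b, c, d, hdet, ?_⟩
  have h1 : ((a * d - b * c : ℤ) : legEt hA N hℓ2) ≠ 0 := by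
    rcases hdet with h | h <;> rw [h] <;> simp
  exact hm.map_subring (W := (legWE hA N hℓ2).toSubring) (legρ hA N hℓ2)
    (legCoordBar_x_mem_legWE hA N hℓ2) (legTau_mem_legWE hA N hℓ2) h1

/-- **`k(ρ τ) = k(t̄)`**. -/
theorem adjoin_legTaub :
    (ResidueField ↥A)⟮legTaub hA N hℓ2⟯ = (ResidueField ↥A)⟮legTb hA N hℓ2⟯ := by
  obtain ⟨a, b, c, d, -, hm⟩ := exists_isMobius_legTb hA N hℓ2
  exact (hm.adjoin_eq (ResidueField ↥A)).symm

variable (hℓN : ¬ ℓ ∣ N)

include hℓN in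
/-- the facts of `legEt_facts` for the reduced uniformizer. -/
theorem legTaub_facts : Transcendental (ResidueField ↥A) (legTaub hA N hℓ2) ∧
    Module.Finite ↥(ResidueField ↥A)⟮legTaub hA N hℓ2⟯ (legEt hA N hℓ2) ∧
    Algebra.IsSeparable ↥(ResidueField ↥A)⟮legTaub hA N hℓ2⟯ (legEt hA N hℓ2) ∧
    Module.finrank ↥(ResidueField ↥A)⟮legTaub hA N hℓ2⟯ (legEt hA N hℓ2) =
      (legCoordBar N).degree := by
  obtain ⟨h1, h2, h3, h4⟩ := legEt_facts hA N hℓN hℓ2
  refine ⟨?_, ?_⟩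
  · intro halg
    apply h1
    obtain ⟨a, b, c, d, -, hm⟩ := exists_isMobius_legTb hA N hℓ2
    have hmem := hm.mem_adjoin (ResidueField ↥A)
    haveI : Algebra.IsAlgebraic (ResidueField ↥A) ↥(ResidueField ↥A)⟮legTaub hA N hℓ2⟯ :=
      isAlgebraic_adjoin_simple halg.isIntegral
    have := Algebra.IsAlgebraic.isAlgebraic (R := ResidueField ↥A)
      (⟨legTb hA N hℓ2, hmem⟩ : ↥(ResidueField ↥A)⟮legTaub hA N hℓ2⟯)
    exact (isAlgebraic_algHom_iff (ResidueField ↥A)⟮legTaub hA N hℓ2⟯.val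
      Subtype.val_injective).mpr this
  · rw [adjoin_legTaub]
    exact ⟨h2, h3, h4⟩

end Leg

end Fermat.Agent.FG
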