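/-
FG [E-GAL] — helper6 — **the cusp and its uniformizer on the special fibre, Hesse host**: the
`GoodRed` fields `τ_mem`, `τ_finite_red`, `τ_separable_red`, the reduced cusp `hesCuspb` (the
`x`-adic place of `Ẽ ⊆ k⸨x⸩`) with `ord (ρ τ) = 1`, and `k(ρ τ) = k(t̄)`.
-/
import Mathlib
import Fermat.Agent.FG.EGAL_helper6_CuspHes
import Fermat.Agent.FG.EGAL_helper6_CuspRedLeg
import Fermat.Agent.FG.EDEF_helper6_PsiBijHes

set_option autoImplicit false
set_option linter.unusedSectionVars false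
set_option linter.style.haveILetI false
set_option synthInstance.maxHeartbeats 400000

open HahnSeries IntermediateField ModularCurve Polynomial AlgebraicCurve IsLocalRing

namespace Fermat.Agent.FG

open Fermat.Agent.JA Fermat.Agent.SS Fermat.Agent.Igusa Fermat.Agent.FF
open scoped Fermat.Agent.JA.Host

local notation "Ω" => AlgebraicClosure ℚ

variable {ℓ : ℕ} [Fact ℓ.Prime] {A : ValuationSubring Ω} (hA : A.LiesOverPrime ℓ)
  (N : ℕ) [NeZero N]

section Hes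

variable (hℓ3 : ℓ ≠ 3)

include hA hℓ3 in
theorem isUnit_three_valSub : IsUnit (((3 : ℤ) : ℤ) : ↥A) := by
  have hℓ3' : ¬ ℓ ∣ 3 := fun h =>
    hℓ3 ((Nat.prime_dvd_prime_iff_eq (Fact.out : ℓ.Prime) Nat.prime_three).mp h)
  have := isUnit_natCast_valSub hA hℓ3'
  exact_mod_cast this

/-- the `A`-model of the uniformizer. -/
noncomputable def hesUA : LaurentSeries ↥A :=
  coeffMap (awayHom 3 ↥A (isUnit_three_valSub hA hℓ3)) hesUZ

theorem fEmb_hesUA : fEmb A (hesUA hA hℓ3) = hesU Ω := by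
  rw [hesUA, fEmb, coeffMap_coeffMap]
  exact (hesU_eq_coeffMap Ω _).symm

/-- the reduced uniformizer as a series over `k`. -/
noncomputable def hesUb : LaurentSeries (ResidueField ↥A) := fRed A (hesUA hA hℓ3)

theorem hesUb_eq : hesUb hA hℓ3 =
    coeffMap ((residue ↥A).comp (awayHom 3 ↥A (isUnit_three_valSub hA hℓ3))) hesUZ := by
  rw [hesUb, hesUA, fRed, coeffMap_coeffMap]

include hA hℓ3 in
theorem three_residue_ne_zero : (3 : ResidueField ↥A) ≠ 0 := by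
  have hℓ3' : ¬ ℓ ∣ 3 := fun h =>
    hℓ3 ((Nat.prime_dvd_prime_iff_eq (Fact.out : ℓ.Prime) Nat.prime_three).mp h)
  have := natCast_residue_ne_zero hA hℓ3'
  exact_mod_cast this

theorem hesUb_order : (hesUb hA hℓ3).order = 1 := by
  rw [hesUb_eq]
  exact coeffMap_hesUZ_order (three_residue_ne_zero hA hℓ3) _

theorem hesUb_coeff_one : (hesUb hA hℓ3).coeff 1 = 3 := by
  rw [hesUb_eq]
  exact coeffMap_hesUZ_coeff_one _

theorem hesUb_coeff_of_le {n : ℤ} (hn : n ≤ 0) : (hesUb hA hℓ3).coeff n = 0 := by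
  rw [hesUb_eq]
  exact coeffMap_hesUZ_coeff_of_le _ hn

/-- **`τ_mem`**. -/
theorem hesTau_mem_hesWE : hesTau Ω N ∈ hesWE hA N hℓ3 := by
  rw [mem_hesWE_iff, coe_hesTau, ← fEmb_hesUA hA hℓ3]
  exact fEmb_mem_fracInt A _

/-- **`ρ τ`**, the reduced uniformizer. -/
noncomputable def hesTaub : hesEt hA N hℓ3 :=
  hesρ hA N hℓ3 ⟨hesTau Ω N, hesTau_mem_hesWE hA N hℓ3⟩

/-- the `x`-expansion of the reduced uniformizer. -/
theorem hesEtEmb_hesTaub : hesEtEmb hA N hℓ3 (hesTaub hA N hℓ3) = hesUb hA hℓ3 := by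
  rw [hesTaub, hesEtEmb_hesρ, hesUb]
  rw [fracRed_eq _ (hesUA hA hℓ3) 1 (by rw [map_one]; exact one_ne_zero)
    (by rw [map_one, mul_one, fEmb_hesUA]; rfl), map_one, div_one]

theorem hesTaub_ne_zero : hesTaub hA N hℓ3 ≠ 0 := by
  intro h
  have h1 := hesEtEmb_hesTaub hA N hℓ3
  rw [h, map_zero] at h1
  have h2 := hesUb_order hA hℓ3
  rw [← h1, HahnSeries.order_zero] at h2
  exact zero_ne_one h2

theorem hesCuspb_hF : ∃ y : hesEt hA N hℓ3, y ≠ 0 ∧ embOrd (hesEtEmb hA N hℓ3) y ≠ 0 :=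
  ⟨hesTaub hA N hℓ3, hesTaub_ne_zero hA N hℓ3, by
    show (hesEtEmb hA N hℓ3 (hesTaub hA N hℓ3)).order ≠ 0
    rw [hesEtEmb_hesTaub, hesUb_order]; exact one_ne_zero⟩

/-- **the reduced cusp**: the `x`-adic place of `Ẽ ⊆ k⸨x⸩`. -/
noncomputable def hesCuspb : Place (ResidueField ↥A) (hesEt hA N hℓ3) :=
  embPlace (hesEtEmb hA N hℓ3) (hesEtEmb_algebraMap hA N hℓ3) (hesCuspb_hF hA N hℓ3)

theorem hesCuspb_ord {y : hesEt hA N hℓ3} (hy : y ≠ 0) :
    (hesCuspb hA N hℓ3).ord y = (hesEtEmb hA N hℓ3 y).order :=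
  embPlace_ord _ _ _ ⟨hesTaub hA N hℓ3, hesTaub_ne_zero hA N hℓ3, by
    show (hesEtEmb hA N hℓ3 (hesTaub hA N hℓ3)).order = 1
    rw [hesEtEmb_hesTaub, hesUb_order]⟩ hy

theorem mem_hesCuspb_iff {y : hesEt hA N hℓ3} (hy : y ≠ 0) :
    y ∈ (hesCuspb hA N hℓ3).toValuationSubring ↔ 0 ≤ (hesEtEmb hA N hℓ3 y).order :=
  mem_embPlace_iff _ _ _ hy

/-- the reduced uniformizer is a uniformizer at the reduced cusp. -/
theorem hesCuspb_ord_hesTaub : (hesCuspb hA N hℓ3).ord (hesTaub hA N hℓ3) = 1 := by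
  rw [hesCuspb_ord hA N hℓ3 (hesTaub_ne_zero hA N hℓ3), hesEtEmb_hesTaub, hesUb_order]

/-- the Möbius relation between the reduced coordinate and the reduced uniformizer. -/
theorem exists_isMobius_hesTb : ∃ a b c d : ℤ, (a * d - b * c = -1 ∨ a * d - b * c = 3) ∧
    IsMobius a b c d (hesTb hA N hℓ3) (hesTaub hA N hℓ3) := by
  obtain ⟨a, b, c, d, hdet, hm⟩ := exists_isMobius_hesTE Ω N
  refine ⟨a, b, c, d, hdet, ?_⟩
  have h1 : ((a * d - b * c : ℤ) : hesEt hA N hℓ3) ≠ 0 := by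
    rcases hdet with h | h
    · rw [h]; simp
    · rw [h]
      have h3 := three_residue_ne_zero hA hℓ3
      have h4 := (map_ne_zero (algebraMap (ResidueField ↥A) (hesEt hA N hℓ3))).mpr h3
      rw [map_ofNat] at h4
      exact_mod_cast h4
  exact hm.map_subring (W := (hesWE hA N hℓ3).toSubring) (hesρ hA N hℓ3)
    (hesCoordBar_x_mem_hesWE hA N hℓ3) (hesTau_mem_hesWE hA N hℓ3) h1

/-- **`k(ρ τ) = k(t̄)`**. -/
theorem adjoin_hesTaub :
    (ResidueField ↥A)⟮hesTaub hA N hℓ3⟯ = (ResidueField ↥A)⟮hesTb hA N hℓ3⟯ := by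
  obtain ⟨a, b, c, d, -, hm⟩ := exists_isMobius_hesTb hA N hℓ3
  exact (hm.adjoin_eq (ResidueField ↥A)).symm

variable (hℓN : ¬ ℓ ∣ N)

include hℓN in
/-- the facts of `hesEt_facts` for the reduced uniformizer. -/
theorem hesTaub_facts : Transcendental (ResidueField ↥A) (hesTaub hA N hℓ3) ∧
    Module.Finite ↥(ResidueField ↥A)⟮hesTaub hA N hℓ3⟯ (hesEt hA N hℓ3) ∧
    Algebra.IsSeparable ↥(ResidueField ↥A)⟮hesTaub hA N hℓ3⟯ (hesEt hA N hℓ3) ∧
    Module.finrank ↥(ResidueField ↥A)⟮hesTaub hA N hℓ3⟯ (hesEt hA N hℓ3) =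
      (hesCoordBar N).degree := by
  obtain ⟨h1, h2, h3, h4⟩ := hesEt_facts hA N hℓN hℓ3
  refine ⟨?_, ?_⟩
  · intro halg
    apply h1
    obtain ⟨a, b, c, d, -, hm⟩ := exists_isMobius_hesTb hA N hℓ3
    have hmem := hm.mem_adjoin (ResidueField ↥A)
    haveI : Algebra.IsAlgebraic (ResidueField ↥A) ↥(ResidueField ↥A)⟮hesTaub hA N hℓ3⟯ :=
      isAlgebraic_adjoin_simple halg.isIntegral
    have := Algebra.IsAlgebraic.isAlgebraic (R := ResidueField ↥A)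
      (⟨hesTb hA N hℓ3, hmem⟩ : ↥(ResidueField ↥A)⟮hesTaub hA N hℓ3⟯)
    exact (isAlgebraic_algHom_iff (ResidueField ↥A)⟮hesTaub hA N hℓ3⟯.val
      Subtype.val_injective).mpr this
  · rw [adjoin_hesTaub]
    exact ⟨h2, h3, h4⟩

end Hes

end Fermat.Agent.FG
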