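/-
FG (S19/S32) [E-RED-b] — helper1 — **intrinsic centres of the places of `E_Ω` on the special
fibre, with respect to a set of test functions.**

`Ω`-level data: a valuation subring `W` of `E_Ω` (the Gauss ring) and a reduction map
`ρ : W →+* 𝔽b`.  For a set `𝔅 ⊆ E_Ω` of "test functions" (the functions integral on a chart):

  `IsCentreIn W ρ 𝔅 P Q` : every `f ∈ 𝔅` is regular at `P`, lies in `W`, `ρ f` is regular at `Q`, and
  if `ρ f` is a unit at `Q` then `f` is a unit at `P`.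

It is MONOTONE in `𝔅` (`IsCentreIn.mono`), and for `𝔅` = the image of a chart `(B, ρ₁)` of REDO at
a base (with `Ẽ := 𝔽b`) it is `IsChartCentre` (`isChartCentre_iff_isCentreIn`).  Hence existence and
uniqueness of centres for a DIRECTED union of chart images (`exists_isCentreIn_iUnion`).
-/
import Mathlib
import Fermat.Agent.JA.REDO_helper1_TwoChart

set_option autoImplicit false
set_option linter.unusedSectionVars false
set_option linter.style.haveILetI false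

open AlgebraicCurve IsLocalRing IsDedekindDomain

namespace Fermat.Agent.FG

open Fermat.Agent.JA Fermat.Agent.FF

section Omega

variable {Ω EΩ k 𝔽b : Type*} [Field Ω] [Field EΩ] [Algebra Ω EΩ] [Field k] [Field 𝔽b]
  [Algebra k 𝔽b] (W : ValuationSubring EΩ) (ρΩ : ↥W →+* 𝔽b)

/-- `Q` is a centre of `P` with respect to the test functions `𝔅`. -/
def IsCentreIn (𝔅 : Set EΩ) (P : Place Ω EΩ) (Q : Place k 𝔽b) : Prop :=
  ∀ f ∈ 𝔅, f ∈ P.toValuationSubring ∧ ∃ hf : f ∈ W, ρΩ ⟨f, hf⟩ ∈ Q.toValuationSubring ∧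
    (ρΩ ⟨f, hf⟩ ≠ 0 → (ρΩ ⟨f, hf⟩)⁻¹ ∈ Q.toValuationSubring → f⁻¹ ∈ P.toValuationSubring)

variable {W ρΩ}

theorem IsCentreIn.mono {𝔅 𝔅' : Set EΩ} (h : 𝔅 ⊆ 𝔅') {P : Place Ω EΩ} {Q : Place k 𝔽b}
    (hc : IsCentreIn W ρΩ 𝔅' P Q) : IsCentreIn W ρΩ 𝔅 P Q :=
  fun f hf => hc f (h hf)

theorem isCentreIn_iUnion {ι : Sort*} (𝔅 : ι → Set EΩ) (P : Place Ω EΩ) (Q : Place k 𝔽b) :
    IsCentreIn W ρΩ (⋃ i, 𝔅 i) P Q ↔ ∀ i, IsCentreIn W ρΩ (𝔅 i) P Q := by
  constructor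
  · intro h i
    exact h.mono (Set.subset_iUnion 𝔅 i)
  · intro h f hf
    obtain ⟨i, hi⟩ := Set.mem_iUnion.mp hf
    exact h i f hi

/-- **existence of centres for a directed union**: if `P` has a centre on every good member of the
family, unique on the member `i₀`, and every member is dominated by a good member containing
`𝔅 i₀`, then `P` has a centre for the whole union. -/
theorem exists_isCentreIn_iUnion {ι : Sort*} (𝔅 : ι → Set EΩ) (good : ι → Prop)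
    (P : Place Ω EΩ) (i₀ : ι) (hi₀ : good i₀)
    (hdir : ∀ j, ∃ m, good m ∧ 𝔅 i₀ ⊆ 𝔅 m ∧ 𝔅 j ⊆ 𝔅 m)
    (hex : ∀ m, good m → ∃ Q : Place k 𝔽b, IsCentreIn W ρΩ (𝔅 m) P Q)
    (huniq : ∀ Q Q' : Place k 𝔽b, IsCentreIn W ρΩ (𝔅 i₀) P Q → IsCentreIn W ρΩ (𝔅 i₀) P Q' →
      Q = Q') :
    ∃ Q : Place k 𝔽b, IsCentreIn W ρΩ (⋃ i, 𝔅 i) P Q := by
  obtain ⟨Q₀, hQ₀⟩ := hex i₀ hi₀
  refine ⟨Q₀, (isCentreIn_iUnion 𝔅 P Q₀).mpr fun j => ?_⟩
  obtain ⟨m, hm, h0m, hjm⟩ := hdir j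
  obtain ⟨Qm, hQm⟩ := hex m hm
  have h1 : Qm = Q₀ := huniq Qm Q₀ (hQm.mono h0m) hQ₀
  rw [← h1]
  exact hQm.mono hjm

/-- uniqueness of centres for a union containing a member with unique centres. -/
theorem isCentreIn_iUnion_unique {ι : Sort*} (𝔅 : ι → Set EΩ) (P : Place Ω EΩ) (i₀ : ι)
    (huniq : ∀ Q Q' : Place k 𝔽b, IsCentreIn W ρΩ (𝔅 i₀) P Q → IsCentreIn W ρΩ (𝔅 i₀) P Q' →
      Q = Q')
    {Q Q' : Place k 𝔽b} (hQ : IsCentreIn W ρΩ (⋃ i, 𝔅 i) P Q)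
    (hQ' : IsCentreIn W ρΩ (⋃ i, 𝔅 i) P Q') : Q = Q' :=
  huniq Q Q' (hQ.mono (Set.subset_iUnion 𝔅 i₀)) (hQ'.mono (Set.subset_iUnion 𝔅 i₀))

end Omega

section SingleChart

variable {R₁ : Type*} [CommRing R₁] [IsDomain R₁] [IsDiscreteValuationRing R₁]
  {K₁ : Type*} [Field K₁] [Algebra R₁ K₁] [IsFractionRing R₁ K₁]
  {E : Type*} [Field E] [Algebra K₁ E] [Algebra R₁ E] [IsScalarTower R₁ K₁ E]
  {B : Type*} [CommRing B] [IsDomain B] [IsNoetherianRing B] [Algebra R₁ B] [Algebra B E]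
  [IsScalarTower R₁ B E] [IsFractionRing B E]
  {k 𝔽b : Type*} [Field k] [Field 𝔽b] [Algebra k 𝔽b]
  {Bb : Type*} [CommRing Bb] [IsDedekindDomain Bb] [Algebra k Bb] [Algebra Bb 𝔽b]
  [IsFractionRing Bb 𝔽b] [IsScalarTower k Bb 𝔽b]
  {Ω EΩ : Type*} [Field Ω] [Algebra K₁ Ω] [Algebra.IsAlgebraic K₁ Ω]
  [Field EΩ] [Algebra Ω EΩ] [CharZero EΩ]
  {W : ValuationSubring EΩ} {ρΩ : ↥W →+* 𝔽b}

/-- the image of a chart in `E_Ω`. -/
def chartSet (φ : E →+* EΩ) (B : Type*) [CommRing B] [Algebra B E] : Set EΩ :=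
  Set.range fun b : B => φ (algebraMap B E b)

theorem mem_chartSet (φ : E →+* EΩ) (b : B) : φ (algebraMap B E b) ∈ chartSet φ B := ⟨b, rfl⟩

/-- **a chart centre is an intrinsic centre with respect to the image of the chart.** -/
theorem isChartCentre_iff_isCentreIn {φ : E →+* EΩ} {ρ₁ : B →+* Bb}
    (hρ : Function.Surjective ρ₁)
    (hcompat : ∀ b : B, ∃ hb : φ (algebraMap B E b) ∈ W,
      ρΩ ⟨φ (algebraMap B E b), hb⟩ = algebraMap Bb 𝔽b (ρ₁ b))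
    (P : Place Ω EΩ) (Q : Place k 𝔽b) :
    IsChartCentre φ ρ₁ P Q ↔ IsCentreIn W ρΩ (chartSet φ B) P Q := by
  constructor
  · rintro ⟨w, rfl, hcw⟩ f ⟨b, rfl⟩
    obtain ⟨hb, hred⟩ := hcompat b
    refine ⟨hcw.1 b, hb, ?_, ?_⟩
    · rw [hred]
      exact algebraMap_mem_placeOf (k := k) (F := 𝔽b) w _
    · intro hne hinv
      apply hcw.2 b
      intro hmem
      rw [hred] at hne hinv
      have hb0 : ρ₁ b ≠ 0 := by
        intro h0
        apply hne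
        rw [h0, map_zero]
      have hpos := (ord_placeOf_algebraMap_pos_iff (k := k) (F := 𝔽b) w (ρ₁ b) hb0).mpr hmem
      have hnn := PlaceAux.ord_nonneg_of_mem _ hinv
      rw [Place.ord_inv] at hnn
      omega
  · intro hc
    have hall : ∀ x : Bb, algebraMap Bb 𝔽b x ∈ Q.toValuationSubring := by
      intro x
      obtain ⟨b, rfl⟩ := hρ x
      obtain ⟨hb, hred⟩ := hcompat b
      obtain ⟨-, hb', hmem, -⟩ := hc _ (mem_chartSet φ b)
      rw [← hred]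
      exact hmem
    obtain ⟨w, rfl⟩ := exists_placeOf_eq (k := k) (R := Bb) Q hall
    refine ⟨w, rfl, fun b => (hc _ (mem_chartSet φ b)).1, fun b hb => ?_⟩
    obtain ⟨hbW, hred⟩ := hcompat b
    obtain ⟨-, hb', -, himp⟩ := hc _ (mem_chartSet φ b)
    have hbw : ρ₁ b ∉ w.asIdeal := hb
    have hb0 : ρ₁ b ≠ 0 := by
      intro h0
      apply hbw
      rw [h0]
      exact w.asIdeal.zero_mem
    have hne : algebraMap Bb 𝔽b (ρ₁ b) ≠ 0 := by
      intro h0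
      exact hb0 ((map_eq_zero_iff _ (IsFractionRing.injective Bb 𝔽b)).mp h0)
    have hnn := PlaceAux.ord_nonneg_of_mem _
      (algebraMap_mem_placeOf (k := k) (F := 𝔽b) w (ρ₁ b))
    have hnpos : ¬ 0 < (placeOf (k := k) (F := 𝔽b) w).ord (algebraMap Bb 𝔽b (ρ₁ b)) := by
      intro hpos
      exact hbw ((ord_placeOf_algebraMap_pos_iff (k := k) (F := 𝔽b) w (ρ₁ b) hb0).mp hpos)
    have hinv : (algebraMap Bb 𝔽b (ρ₁ b))⁻¹ ∈ (placeOf (k := k) (F := 𝔽b) w).toValuationSubring := by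
      rw [PlaceAux.mem_iff_ord_nonneg' _ (inv_ne_zero hne), Place.ord_inv]
      omega
    apply himp
    · rw [hred]
      exact hne
    · rw [hred]
      exact hinv

/-- **existence of a centre in the image of a chart** on which the place has integral values. -/
theorem exists_isCentreIn_chartSet {φ : E →+* EΩ}
    (hφ : ∀ c : K₁, φ (algebraMap K₁ E c) = algebraMap Ω EΩ (algebraMap K₁ Ω c))
    (hgen : Subfield.closure (Set.range φ ∪ Set.range (algebraMap Ω EΩ)) = ⊤)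
    {ρ₁ : B →+* Bb} (hρ : Function.Surjective ρ₁) {π : R₁} (hπ : Irreducible π)
    (hker : RingHom.ker ρ₁ = Ideal.span {algebraMap R₁ B π}) (hnf : ¬ IsField Bb)
    (hcompat : ∀ b : B, ∃ hb : φ (algebraMap B E b) ∈ W,
      ρΩ ⟨φ (algebraMap B E b), hb⟩ = algebraMap Bb 𝔽b (ρ₁ b))
    (P : Place Ω EΩ)
    (hB : ∀ x : B, algebraMap B E x ∈ (restrictBC φ hφ hgen P).toValuationSubring)
    (hval : HasIntegralValues (R₁ := R₁) B (restrictBC φ hφ hgen P)) :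
    ∃ Q : Place k 𝔽b, IsCentreIn W ρΩ (chartSet φ B) P Q := by
  obtain ⟨Q, hQ⟩ := exists_isChartCentre (k := k) (Et := 𝔽b) hφ hgen hρ hπ hker hnf P hB hval
  exact ⟨Q, (isChartCentre_iff_isCentreIn hρ hcompat P Q).mp hQ⟩

/-- **uniqueness of the centre in the image of a chart** for a place with rational restriction. -/
theorem isCentreIn_chartSet_unique {φ : E →+* EΩ}
    (hφ : ∀ c : K₁, φ (algebraMap K₁ E c) = algebraMap Ω EΩ (algebraMap K₁ Ω c))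
    (hgen : Subfield.closure (Set.range φ ∪ Set.range (algebraMap Ω EΩ)) = ⊤)
    {ρ₁ : B →+* Bb} (hρ : Function.Surjective ρ₁) {π : R₁} (hπ : Irreducible π)
    (hker : RingHom.ker ρ₁ = Ideal.span {algebraMap R₁ B π})
    (hcompat : ∀ b : B, ∃ hb : φ (algebraMap B E b) ∈ W,
      ρΩ ⟨φ (algebraMap B E b), hb⟩ = algebraMap Bb 𝔽b (ρ₁ b))
    {P : Place Ω EΩ} (hrat : IsRationalPlace (restrictBC φ hφ hgen P)) {Q Q' : Place k 𝔽b}
    (hQ : IsCentreIn W ρΩ (chartSet φ B) P Q) (hQ' : IsCentreIn W ρΩ (chartSet φ B) P Q') :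
    Q = Q' :=
  ((isChartCentre_iff_isCentreIn hρ hcompat P Q).mpr hQ).unique hφ hgen hρ hπ hker
    ((isChartCentre_iff_isCentreIn hρ hcompat P Q').mpr hQ') hrat

end SingleChart

end Fermat.Agent.FG
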