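/-
FG (S19/S32) [E-RED-b] — helper1 — **two charts: intrinsic two-chart centres and their comparison
with the two-chart centre of REDO at a base.**

`IsTwoCentre W ρ A s 𝔅¹ 𝔅² P Q` : if the coordinate `s` has a value in `A` at `P`, `Q` is a centre
of `P` with respect to `𝔅¹`, otherwise with respect to `𝔅²`.

At a base satisfying `TwoChartHyps` (with `Ẽ := 𝔽b`), for the places `P` with rational restriction:
existence (`exists_isTwoCentre_base`), uniqueness (`IsTwoCentre.unique_base`), comparison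
(`IsTwoCentre.isTwoChartCentre`), and the divisor formula `r_*(div φ(y)) = div ỹ` for any map `r`
which gives intrinsic two-chart centres (`mapDomain_eq_ord_of_isTwoCentre`).
-/
import Mathlib
import Fermat.Agent.FG.ERED_helper1_Centre

set_option autoImplicit false
set_option linter.unusedSectionVars false
set_option linter.style.haveILetI false

open AlgebraicCurve IsLocalRing IsDedekindDomain

namespace Fermat.Agent.FG

open Fermat.Agent.JA Fermat.Agent.FF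

section OmegaTwo

variable {Ω EΩ k 𝔽b : Type*} [Field Ω] [Field EΩ] [Algebra Ω EΩ] [Field k] [Field 𝔽b]
  [Algebra k 𝔽b] (W : ValuationSubring EΩ) (ρΩ : ↥W →+* 𝔽b) (A : ValuationSubring Ω)

/-- the function `s` has a value in `A` at `P`. -/
def HasIntValue (s : EΩ) (P : Place Ω EΩ) : Prop := ∃ a ∈ A, HasValueAt P s a

/-- `Q` is the two-chart centre of `P`: with respect to `𝔅¹` if `s` has an integral value at `P`,
with respect to `𝔅²` otherwise. -/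
def IsTwoCentre (s : EΩ) (𝔅₁ 𝔅₂ : Set EΩ) (P : Place Ω EΩ) (Q : Place k 𝔽b) : Prop :=
  (HasIntValue A s P ∧ IsCentreIn W ρΩ 𝔅₁ P Q) ∨ (¬ HasIntValue A s P ∧ IsCentreIn W ρΩ 𝔅₂ P Q)

variable {W ρΩ A}

theorem IsTwoCentre.mono {s : EΩ} {𝔅₁ 𝔅₂ 𝔅₁' 𝔅₂' : Set EΩ} (h₁ : 𝔅₁ ⊆ 𝔅₁') (h₂ : 𝔅₂ ⊆ 𝔅₂')
    {P : Place Ω EΩ} {Q : Place k 𝔽b} (hc : IsTwoCentre W ρΩ A s 𝔅₁' 𝔅₂' P Q) :
    IsTwoCentre W ρΩ A s 𝔅₁ 𝔅₂ P Q := by
  rcases hc with ⟨h, hc⟩ | ⟨h, hc⟩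
  · exact Or.inl ⟨h, hc.mono h₁⟩
  · exact Or.inr ⟨h, hc.mono h₂⟩

end OmegaTwo

section TwoBase

variable {R₁ : Type*} [CommRing R₁] [IsDomain R₁] [IsDiscreteValuationRing R₁]
  {K₁ : Type*} [Field K₁] [Algebra R₁ K₁] [IsFractionRing R₁ K₁]
  {E : Type*} [Field E] [Algebra K₁ E] [Algebra R₁ E] [IsScalarTower R₁ K₁ E]
  {k 𝔽b : Type*} [Field k] [Field 𝔽b] [Algebra k 𝔽b]
  {B₁ : Type*} [CommRing B₁] [IsDomain B₁] [IsNoetherianRing B₁] [Algebra R₁ B₁] [Algebra B₁ E]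
  [IsScalarTower R₁ B₁ E] [IsFractionRing B₁ E]
  {Bb₁ : Type*} [CommRing Bb₁] [IsDedekindDomain Bb₁] [Algebra k Bb₁] [Algebra Bb₁ 𝔽b]
  [IsFractionRing Bb₁ 𝔽b] [IsScalarTower k Bb₁ 𝔽b]
  {B₂ : Type*} [CommRing B₂] [IsDomain B₂] [IsNoetherianRing B₂] [Algebra R₁ B₂] [Algebra B₂ E]
  [IsScalarTower R₁ B₂ E] [IsFractionRing B₂ E]
  {Bb₂ : Type*} [CommRing Bb₂] [IsDedekindDomain Bb₂] [Algebra k Bb₂] [Algebra Bb₂ 𝔽b]
  [IsFractionRing Bb₂ 𝔽b] [IsScalarTower k Bb₂ 𝔽b]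
  {Ω EΩ : Type*} [Field Ω] [Algebra K₁ Ω] [Algebra.IsAlgebraic K₁ Ω]
  [Field EΩ] [Algebra Ω EΩ] [CharZero EΩ]
  {W : ValuationSubring EΩ} {ρΩ : ↥W →+* 𝔽b} {A : ValuationSubring Ω}
  {π : R₁} {res : R₁ →+* k} {ρ₁ : B₁ →+* Bb₁} {ρ₂ : B₂ →+* Bb₂} {s₁ : B₁} {s₂ : B₂}
  {φ : E →+* EΩ}
  (hφ : ∀ c : K₁, φ (algebraMap K₁ E c) = algebraMap Ω EΩ (algebraMap K₁ Ω c))
  (hgen : Subfield.closure (Set.range φ ∪ Set.range (algebraMap Ω EΩ)) = ⊤)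

include hφ hgen in
/-- values at `P` and at its restriction. -/
theorem hasValueAt_restrictBC_iff (P : Place Ω EΩ) (x : E) (c : K₁) :
    HasValueAt (restrictBC φ hφ hgen P) x c ↔ HasValueAt P (φ x) (algebraMap K₁ Ω c) := by
  rw [HasValueAt.iff_ord, HasValueAt.iff_ord, ord_restrictBC, map_sub, hφ]
  constructor
  · rintro (h | h)
    · left
      rw [← hφ, ← map_sub, h, map_zero]
    · exact Or.inr h
  · rintro (h | h)
    · left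
      rw [← hφ, ← map_sub] at h
      exact (map_eq_zero φ).mp h
    · exact Or.inr h

include hφ hgen in
/-- integrality of the value at `P` and at its (rational) restriction. -/
theorem hasIntValue_iff_base
    (hAK : ∀ c : K₁, algebraMap K₁ Ω c ∈ A ↔ ∃ r : R₁, algebraMap R₁ K₁ r = c)
    {P : Place Ω EΩ} (hrat : IsRationalPlace (restrictBC φ hφ hgen P)) (x : E) :
    HasIntValue A (φ x) P ↔
      ∃ r : R₁, HasValueAt (restrictBC φ hφ hgen P) x (algebraMap R₁ K₁ r) := by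
  constructor
  · rintro ⟨a, ha, hv⟩
    have hx : x ∈ (restrictBC φ hφ hgen P).toValuationSubring :=
      (mem_restrictBC_iff φ hφ hgen P x).mpr hv.mem
    obtain ⟨c, hc⟩ := (isRationalPlace_iff_hasValueAt _).mp hrat x hx
    have hc' := (hasValueAt_restrictBC_iff hφ hgen P x c).mp hc
    have hac : a = algebraMap K₁ Ω c := hv.unique hc'
    rw [hac] at ha
    obtain ⟨r, rfl⟩ := (hAK c).mp ha
    exact ⟨r, hc⟩
  · rintro ⟨r, hr⟩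
    exact ⟨_, (hAK _).mpr ⟨r, rfl⟩, (hasValueAt_restrictBC_iff hφ hgen P x _).mp hr⟩

variable (hAK : ∀ c : K₁, algebraMap K₁ Ω c ∈ A ↔ ∃ r : R₁, algebraMap R₁ K₁ r = c)
  (hc₁ : ∀ b : B₁, ∃ hb : φ (algebraMap B₁ E b) ∈ W,
    ρΩ ⟨φ (algebraMap B₁ E b), hb⟩ = algebraMap Bb₁ 𝔽b (ρ₁ b))
  (hc₂ : ∀ b : B₂, ∃ hb : φ (algebraMap B₂ E b) ∈ W,
    ρΩ ⟨φ (algebraMap B₂ E b), hb⟩ = algebraMap Bb₂ 𝔽b (ρ₂ b))

include hφ hgen hAK hc₁ hc₂ in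
/-- **existence of the intrinsic two-chart centre at a base.** -/
theorem exists_isTwoCentre_base (H : TwoChartHyps K₁ E 𝔽b π res ρ₁ ρ₂ s₁ s₂)
    (P : Place Ω EΩ) (hrat : IsRationalPlace (restrictBC φ hφ hgen P)) :
    ∃ Q : Place k 𝔽b, IsTwoCentre W ρΩ A (φ (algebraMap B₁ E s₁)) (chartSet φ B₁)
      (chartSet φ B₂) P Q := by
  by_cases hint : HasIntValue A (φ (algebraMap B₁ E s₁)) P
  · obtain ⟨r, hr⟩ := (hasIntValue_iff_base hφ hgen hAK hrat _).mp hint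
    obtain ⟨hB, hval⟩ := H.val₁ _ hrat ⟨r, hr⟩
    obtain ⟨Q, hQ⟩ := exists_isCentreIn_chartSet (k := k) hφ hgen H.surj₁ H.irr H.ker₁ H.nf₁ hc₁
      P hB hval
    exact ⟨Q, Or.inl ⟨hint, hQ⟩⟩
  · rcases exists_hasValueAt_or_inv (R₁ := R₁) (restrictBC φ hφ hgen P) hrat H.coord with h | h
    · exact absurd ((hasIntValue_iff_base hφ hgen hAK hrat _).mpr h) hint
    · obtain ⟨hB, hval⟩ := H.val₂ _ hrat h
      obtain ⟨Q, hQ⟩ := exists_isCentreIn_chartSet (k := k) hφ hgen H.surj₂ H.irr H.ker₂ H.nf₂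
        hc₂ P hB hval
      exact ⟨Q, Or.inr ⟨hint, hQ⟩⟩

include hφ hgen hc₁ hc₂ in
/-- **uniqueness of the intrinsic two-chart centre at a base.** -/
theorem IsTwoCentre.unique_base (H : TwoChartHyps K₁ E 𝔽b π res ρ₁ ρ₂ s₁ s₂)
    {s : EΩ} {P : Place Ω EΩ} (hrat : IsRationalPlace (restrictBC φ hφ hgen P))
    {Q Q' : Place k 𝔽b}
    (hQ : IsTwoCentre W ρΩ A s (chartSet φ B₁) (chartSet φ B₂) P Q)
    (hQ' : IsTwoCentre W ρΩ A s (chartSet φ B₁) (chartSet φ B₂) P Q') : Q = Q' := by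
  rcases hQ with ⟨h, hQ⟩ | ⟨h, hQ⟩
  · rcases hQ' with ⟨-, hQ'⟩ | ⟨h', -⟩
    · exact isCentreIn_chartSet_unique hφ hgen H.surj₁ H.irr H.ker₁ hc₁ hrat hQ hQ'
    · exact absurd h h'
  · rcases hQ' with ⟨h', -⟩ | ⟨-, hQ'⟩
    · exact absurd h' h
    · exact isCentreIn_chartSet_unique hφ hgen H.surj₂ H.irr H.ker₂ hc₂ hrat hQ hQ'

include hφ hgen hAK hc₁ hc₂ in
/-- **comparison**: an intrinsic two-chart centre is the two-chart centre of REDO at every base at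
which the place is rational. -/
theorem IsTwoCentre.isTwoChartCentre (H : TwoChartHyps K₁ E 𝔽b π res ρ₁ ρ₂ s₁ s₂)
    {𝔅₁ 𝔅₂ : Set EΩ} (h𝔅₁ : chartSet φ B₁ ⊆ 𝔅₁) (h𝔅₂ : chartSet φ B₂ ⊆ 𝔅₂)
    {P : Place Ω EΩ} (hrat : IsRationalPlace (restrictBC φ hφ hgen P)) {Q : Place k 𝔽b}
    (hQ : IsTwoCentre W ρΩ A (φ (algebraMap B₁ E s₁)) 𝔅₁ 𝔅₂ P Q) :
    IsTwoChartCentre φ ρ₁ ρ₂ P Q := by
  rcases hQ with ⟨-, hQ⟩ | ⟨hint, hQ⟩
  · exact Or.inl ((isChartCentre_iff_isCentreIn H.surj₁ hc₁ P Q).mpr (hQ.mono h𝔅₁))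
  · refine Or.inr ⟨(isChartCentre_iff_isCentreIn H.surj₂ hc₂ P Q).mpr (hQ.mono h𝔅₂), ?_⟩
    rintro ⟨Q', hQ'⟩
    apply hint
    obtain ⟨-, hval⟩ := hQ'.hasIntegralValues hφ hgen H.irr H.ker₁ hrat
    obtain ⟨r, hr⟩ := (hasIntegralValues_iff_hasValueAt _).mp hval s₁
    exact (hasIntValue_iff_base hφ hgen hAK hrat _).mpr ⟨r, hr⟩

include hφ hgen hAK hc₁ hc₂ in
/-- **the divisor formula at a base** for a map `r` of places which gives intrinsic two-chart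
centres: `r_*(div φ(y)) = div ỹ` for `y ∈ E` with chart representations `a_i / b_i` (nonzero
reductions) all of whose zeros and poles over `Ω` have rational restriction. -/
theorem mapDomain_eq_ord_of_isTwoCentre (H : TwoChartHyps K₁ E 𝔽b π res ρ₁ ρ₂ s₁ s₂)
    {𝔅₁ 𝔅₂ : Set EΩ} (h𝔅₁ : chartSet φ B₁ ⊆ 𝔅₁) (h𝔅₂ : chartSet φ B₂ ⊆ 𝔅₂)
    (r : Place Ω EΩ → Place k 𝔽b)
    (hr : ∀ P : Place Ω EΩ, IsRationalPlace (restrictBC φ hφ hgen P) →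
      IsTwoCentre W ρΩ A (φ (algebraMap B₁ E s₁)) 𝔅₁ 𝔅₂ P (r P))
    (y : E) (yt : 𝔽b)
    (a₁ b₁ : B₁) (ha₁ : ρ₁ a₁ ≠ 0) (hb₁ : ρ₁ b₁ ≠ 0)
    (hy₁ : y = algebraMap B₁ E a₁ / algebraMap B₁ E b₁)
    (hyt₁ : yt = algebraMap Bb₁ 𝔽b (ρ₁ a₁) / algebraMap Bb₁ 𝔽b (ρ₁ b₁))
    (a₂ b₂ : B₂) (ha₂ : ρ₂ a₂ ≠ 0) (hb₂ : ρ₂ b₂ ≠ 0)
    (hy₂ : y = algebraMap B₂ E a₂ / algebraMap B₂ E b₂)
    (hyt₂ : yt = algebraMap Bb₂ 𝔽b (ρ₂ a₂) / algebraMap Bb₂ 𝔽b (ρ₂ b₂))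
    (hrat : ∀ P : Place Ω EΩ, P.ord (φ y) ≠ 0 → IsRationalPlace (restrictBC φ hφ hgen P))
    (D : Divisor Ω EΩ) (hD : ∀ P, D P = P.ord (φ y)) (Q : Place k 𝔽b) :
    Finsupp.mapDomain r D Q = Q.ord yt := by
  have hcongr : Finsupp.mapDomain r D = Finsupp.mapDomain (twoChartCentre φ ρ₁ ρ₂ Q) D := by
    refine Finsupp.mapDomain_congr fun P hP => ?_
    have hne : P.ord (φ y) ≠ 0 := by
      rw [← hD P]
      exact Finsupp.mem_support_iff.mp hP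
    have hratP := hrat P hne
    have h1 := (hr P hratP).isTwoChartCentre hφ hgen hAK hc₁ hc₂ H h𝔅₁ h𝔅₂ hratP
    exact ((H.twoChartCentre_eq_iff hφ hgen Q hratP (r P)).mpr h1).symm
  rw [hcongr]
  exact H.mapDomain_twoChartCentre_eq_ord hφ hgen Q y yt a₁ b₁ ha₁ hb₁ hy₁ hyt₁ a₂ b₂ ha₂ hb₂
    hy₂ hyt₂ hrat D hD Q

end TwoBase

end Fermat.Agent.FG
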