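/-
FG (S19/S32) [E-RED-b] — helper1 — **the `Ω`-level assembly of the reduction map of points.**

Abstract form.  `𝔅₁ 𝔅₂ ⊆ E_Ω` are the intrinsic test-function sets of the two charts (the integral
closures of `A[s]`, `A[s⁻¹]`), `C₁ i ⊆ 𝔅₁`, `C₂ i ⊆ 𝔅₂` their parts defined over the base `i`
(images of the charts of REDO), `rat i P` says that the place `P` is rational at the base `i`.
If at every base the places rational there have a unique two-chart centre (REDO), the bases cover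
all places and are directed (every test function lies in a chart over a larger base), then EVERY
place has a unique intrinsic two-chart centre:

  `exists_isTwoCentre_of_bases`, `isTwoCentre_unique_of_bases`, `centreMap`,
  `isTwoCentre_centreMap`, `centreMap_eq_iff`.
-/
import Mathlib
import Fermat.Agent.FG.ERED_helper1_Two

set_option autoImplicit false
set_option linter.unusedSectionVars false
set_option linter.style.haveILetI false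

open AlgebraicCurve IsLocalRing

namespace Fermat.Agent.FG

open Fermat.Agent.JA Fermat.Agent.FF

section Assembly

variable {Ω EΩ k 𝔽b : Type*} [Field Ω] [Field EΩ] [Algebra Ω EΩ] [Field k] [Field 𝔽b]
  [Algebra k 𝔽b] {W : ValuationSubring EΩ} {ρΩ : ↥W →+* 𝔽b} {A : ValuationSubring Ω} {s : EΩ}
  {ι : Type*} {C₁ C₂ : ι → Set EΩ} {𝔅₁ 𝔅₂ : Set EΩ} {rat : ι → Place Ω EΩ → Prop}

/-- the two disjuncts of `IsTwoCentre` are exclusive: in the integral case the centre is a centre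
for the first chart. -/
theorem IsTwoCentre.isCentreIn_of_hasIntValue {𝔅 𝔅' : Set EΩ} {P : Place Ω EΩ} {Q : Place k 𝔽b}
    (h : IsTwoCentre W ρΩ A s 𝔅 𝔅' P Q) (hint : HasIntValue A s P) : IsCentreIn W ρΩ 𝔅 P Q := by
  rcases h with ⟨-, h⟩ | ⟨h', -⟩
  · exact h
  · exact absurd hint h'

theorem IsTwoCentre.isCentreIn_of_not_hasIntValue {𝔅 𝔅' : Set EΩ} {P : Place Ω EΩ}
    {Q : Place k 𝔽b} (h : IsTwoCentre W ρΩ A s 𝔅 𝔅' P Q) (hint : ¬ HasIntValue A s P) :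
    IsCentreIn W ρΩ 𝔅' P Q := by
  rcases h with ⟨h', -⟩ | ⟨-, h⟩
  · exact absurd h' hint
  · exact h

variable (hsub₁ : ∀ i, C₁ i ⊆ 𝔅₁) (hsub₂ : ∀ i, C₂ i ⊆ 𝔅₂)
  (hex : ∀ i P, rat i P → ∃ Q : Place k 𝔽b, IsTwoCentre W ρΩ A s (C₁ i) (C₂ i) P Q)
  (huniq : ∀ i P, rat i P → ∀ Q Q' : Place k 𝔽b, IsTwoCentre W ρΩ A s (C₁ i) (C₂ i) P Q →
    IsTwoCentre W ρΩ A s (C₁ i) (C₂ i) P Q' → Q = Q')
  (hcover : ∀ P, ∃ i, rat i P)
  (hdir₁ : ∀ i P, rat i P → ∀ f ∈ 𝔅₁, ∃ m, rat m P ∧ C₁ i ⊆ C₁ m ∧ C₂ i ⊆ C₂ m ∧ f ∈ C₁ m)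
  (hdir₂ : ∀ i P, rat i P → ∀ f ∈ 𝔅₂, ∃ m, rat m P ∧ C₁ i ⊆ C₁ m ∧ C₂ i ⊆ C₂ m ∧ f ∈ C₂ m)

include hex huniq hdir₁ hdir₂ in
/-- the centre at a base at which `P` is rational is an intrinsic two-chart centre. -/
theorem isTwoCentre_of_base {i : ι} {P : Place Ω EΩ} (hi : rat i P) {Q : Place k 𝔽b}
    (hQ : IsTwoCentre W ρΩ A s (C₁ i) (C₂ i) P Q) : IsTwoCentre W ρΩ A s 𝔅₁ 𝔅₂ P Q := by
  by_cases hint : HasIntValue A s P
  · refine Or.inl ⟨hint, fun f hf => ?_⟩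
    obtain ⟨m, hm, h1, h2, hfm⟩ := hdir₁ i P hi f hf
    obtain ⟨Qm, hQm⟩ := hex m P hm
    have hQQ : Qm = Q := huniq i P hi Qm Q (hQm.mono h1 h2) hQ
    rw [← hQQ]
    exact (hQm.isCentreIn_of_hasIntValue hint) f hfm
  · refine Or.inr ⟨hint, fun f hf => ?_⟩
    obtain ⟨m, hm, h1, h2, hfm⟩ := hdir₂ i P hi f hf
    obtain ⟨Qm, hQm⟩ := hex m P hm
    have hQQ : Qm = Q := huniq i P hi Qm Q (hQm.mono h1 h2) hQ
    rw [← hQQ]
    exact (hQm.isCentreIn_of_not_hasIntValue hint) f hfm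

include hex huniq hcover hdir₁ hdir₂ in
/-- **existence of the intrinsic two-chart centre** of every place. -/
theorem exists_isTwoCentre_of_bases (P : Place Ω EΩ) :
    ∃ Q : Place k 𝔽b, IsTwoCentre W ρΩ A s 𝔅₁ 𝔅₂ P Q := by
  obtain ⟨i, hi⟩ := hcover P
  obtain ⟨Q, hQ⟩ := hex i P hi
  exact ⟨Q, isTwoCentre_of_base hex huniq hdir₁ hdir₂ hi hQ⟩

include hsub₁ hsub₂ huniq hcover in
/-- **uniqueness of the intrinsic two-chart centre.** -/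
theorem isTwoCentre_unique_of_bases {P : Place Ω EΩ} {Q Q' : Place k 𝔽b}
    (hQ : IsTwoCentre W ρΩ A s 𝔅₁ 𝔅₂ P Q) (hQ' : IsTwoCentre W ρΩ A s 𝔅₁ 𝔅₂ P Q') : Q = Q' := by
  obtain ⟨i, hi⟩ := hcover P
  exact huniq i P hi Q Q' (hQ.mono (hsub₁ i) (hsub₂ i)) (hQ'.mono (hsub₁ i) (hsub₂ i))

end Assembly

section CentreMap

variable {Ω EΩ k 𝔽b : Type*} [Field Ω] [Field EΩ] [Algebra Ω EΩ] [Field k] [Field 𝔽b]
  [Algebra k 𝔽b] (W : ValuationSubring EΩ) (ρΩ : ↥W →+* 𝔽b) (A : ValuationSubring Ω) (s : EΩ)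
  (𝔅₁ 𝔅₂ : Set EΩ)

open Classical in
/-- **the reduction map of points**: the intrinsic two-chart centre (junk value `Q₀` if there is
none). -/
noncomputable def centreMap (Q₀ : Place k 𝔽b) (P : Place Ω EΩ) : Place k 𝔽b :=
  if h : ∃ Q : Place k 𝔽b, IsTwoCentre W ρΩ A s 𝔅₁ 𝔅₂ P Q then h.choose else Q₀

variable {W ρΩ A s 𝔅₁ 𝔅₂}

theorem isTwoCentre_centreMap (Q₀ : Place k 𝔽b) {P : Place Ω EΩ}
    (h : ∃ Q : Place k 𝔽b, IsTwoCentre W ρΩ A s 𝔅₁ 𝔅₂ P Q) :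
    IsTwoCentre W ρΩ A s 𝔅₁ 𝔅₂ P (centreMap W ρΩ A s 𝔅₁ 𝔅₂ Q₀ P) := by
  unfold centreMap
  rw [dif_pos h]
  exact h.choose_spec

theorem centreMap_eq_of_isTwoCentre (Q₀ : Place k 𝔽b) {P : Place Ω EΩ}
    (huniq : ∀ Q Q' : Place k 𝔽b, IsTwoCentre W ρΩ A s 𝔅₁ 𝔅₂ P Q →
      IsTwoCentre W ρΩ A s 𝔅₁ 𝔅₂ P Q' → Q = Q')
    {Q : Place k 𝔽b} (hQ : IsTwoCentre W ρΩ A s 𝔅₁ 𝔅₂ P Q) :
    centreMap W ρΩ A s 𝔅₁ 𝔅₂ Q₀ P = Q :=
  huniq _ _ (isTwoCentre_centreMap Q₀ ⟨Q, hQ⟩) hQ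

end CentreMap

end Fermat.Agent.FG
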