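/-
FG (S19/S32) [E-RED-b] — helper1 — **evaluation at a centre.**

If `Q` is a centre of `P` with respect to the test functions `𝔅`, `f ∈ 𝔅` has the value `a ∈ A` at
`P` and `f - a ∈ 𝔅`, then `ρ f` has the value `ā` at `Q` (`IsCentreIn.hasValueAt`).  For a two-chart
centre: the coordinate `s` has an integral value at `P` iff `ρ s` is regular at the centre, and then
the values correspond (`IsTwoCentre.hasValueAt_coord`, `IsTwoCentre.hasValueAt_inv_coord`).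
-/
import Mathlib
import Fermat.Agent.FG.ERED_helper1_Asm

set_option autoImplicit false
set_option linter.unusedSectionVars false
set_option linter.style.haveILetI false

open AlgebraicCurve IsLocalRing

namespace Fermat.Agent.FG

open Fermat.Agent.JA Fermat.Agent.FF

section Eval

variable {Ω EΩ 𝔽b : Type*} [Field Ω] [Field EΩ] [Algebra Ω EΩ] [Field 𝔽b]
  {A : ValuationSubring Ω} [Algebra (ResidueField ↥A) 𝔽b]
  {W : ValuationSubring EΩ} {ρΩ : ↥W →+* 𝔽b}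
  (hρA : ∀ (a : ↥A) (h : algebraMap Ω EΩ (a : Ω) ∈ W),
    ρΩ ⟨algebraMap Ω EΩ (a : Ω), h⟩ = algebraMap (ResidueField ↥A) 𝔽b (residue ↥A a))

include hρA in
/-- **evaluation at a centre**: values in `A` of test functions reduce to the values of the reduced
functions at the centre. -/
theorem IsCentreIn.hasValueAt {𝔅 : Set EΩ} {P : Place Ω EΩ}
    {Q : Place (ResidueField ↥A) 𝔽b} (hc : IsCentreIn W ρΩ 𝔅 P Q) {f : EΩ} (hfW : f ∈ W)
    (a : ↥A) (haW : algebraMap Ω EΩ (a : Ω) ∈ W)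
    (hfa : f - algebraMap Ω EΩ (a : Ω) ∈ 𝔅) (hv : HasValueAt P f (a : Ω)) :
    HasValueAt Q (ρΩ ⟨f, hfW⟩) (residue ↥A a) := by
  obtain ⟨-, hf'W, hmem, himp⟩ := hc _ hfa
  have hred : ρΩ ⟨f - algebraMap Ω EΩ (a : Ω), hf'W⟩ =
      ρΩ ⟨f, hfW⟩ - algebraMap (ResidueField ↥A) 𝔽b (residue ↥A a) := by
    rw [← hρA a haW, ← map_sub]
    rfl
  rw [HasValueAt.iff_ord, ← hred]
  by_cases h0 : ρΩ ⟨f - algebraMap Ω EΩ (a : Ω), hf'W⟩ = 0
  · exact Or.inl h0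
  right
  by_contra hpos
  have hnn := PlaceAux.ord_nonneg_of_mem _ hmem
  have hord0 : Q.ord (ρΩ ⟨f - algebraMap Ω EΩ (a : Ω), hf'W⟩) = 0 := by omega
  have hinv : (ρΩ ⟨f - algebraMap Ω EΩ (a : Ω), hf'W⟩)⁻¹ ∈ Q.toValuationSubring := by
    rw [PlaceAux.mem_iff_ord_nonneg' _ (inv_ne_zero h0), Place.ord_inv, hord0]
    simp
  have hP := himp h0 hinv
  have hf0 : f - algebraMap Ω EΩ (a : Ω) ≠ 0 := by
    intro h
    apply h0
    have : (⟨f - algebraMap Ω EΩ (a : Ω), hf'W⟩ : ↥W) = 0 := Subtype.ext h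
    rw [this, map_zero]
  rcases HasValueAt.iff_ord.mp hv with h | h
  · exact hf0 h
  · have h2 := PlaceAux.ord_nonneg_of_mem _ hP
    rw [Place.ord_inv] at h2
    omega

include hρA in
/-- a test function with value in `𝔪_A` at `P` reduces to a function vanishing at the centre. -/
theorem IsCentreIn.hasValueAt_zero {𝔅 : Set EΩ} {P : Place Ω EΩ}
    {Q : Place (ResidueField ↥A) 𝔽b} (hc : IsCentreIn W ρΩ 𝔅 P Q) {f : EΩ} (hfW : f ∈ W)
    (a : ↥A) (ha : a ∈ maximalIdeal ↥A) (haW : algebraMap Ω EΩ (a : Ω) ∈ W)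
    (hfa : f - algebraMap Ω EΩ (a : Ω) ∈ 𝔅) (hv : HasValueAt P f (a : Ω)) :
    HasValueAt Q (ρΩ ⟨f, hfW⟩) 0 := by
  have h := hc.hasValueAt hρA hfW a haW hfa hv
  rwa [(residue_eq_zero_iff a).mpr ha] at h

variable (hAW : ∀ a : Ω, a ∈ A → algebraMap Ω EΩ a ∈ W)

include hρA hAW in
/-- **the coordinate at a two-chart centre, integral case**: the value of `s` at `P` reduces to the
value of `ρ s` at the centre. -/
theorem IsTwoCentre.hasValueAt_coord {s : EΩ} {𝔅₁ 𝔅₂ : Set EΩ} {P : Place Ω EΩ}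
    {Q : Place (ResidueField ↥A) 𝔽b} (hQ : IsTwoCentre W ρΩ A s 𝔅₁ 𝔅₂ P Q)
    (hsW : s ∈ W) (hsub : ∀ a : Ω, a ∈ A → s - algebraMap Ω EΩ a ∈ 𝔅₁)
    (hint : HasIntValue A s P) :
    ∃ a : ↥A, HasValueAt P s (a : Ω) ∧ HasValueAt Q (ρΩ ⟨s, hsW⟩) (residue ↥A a) := by
  obtain ⟨a, ha, hv⟩ := hint
  exact ⟨⟨a, ha⟩, hv, (hQ.isCentreIn_of_hasIntValue ⟨a, ha, hv⟩).hasValueAt hρA hsW ⟨a, ha⟩
    (hAW a ha) (hsub a ha) hv⟩

include hρA hAW in
/-- **the coordinate at a two-chart centre, non-integral case**: `ρ (s⁻¹)` vanishes at the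
centre. -/
theorem IsTwoCentre.hasValueAt_inv_coord {s : EΩ} {𝔅₁ 𝔅₂ : Set EΩ} {P : Place Ω EΩ}
    {Q : Place (ResidueField ↥A) 𝔽b} (hQ : IsTwoCentre W ρΩ A s 𝔅₁ 𝔅₂ P Q) (hdeg : P.deg = 1)
    (hs0 : s ≠ 0) (hsW : s⁻¹ ∈ W) (hsub : ∀ a : Ω, a ∈ A → s⁻¹ - algebraMap Ω EΩ a ∈ 𝔅₂)
    (hint : ¬ HasIntValue A s P) :
    HasValueAt Q (ρΩ ⟨s⁻¹, hsW⟩) 0 := by
  have hc := hQ.isCentreIn_of_not_hasIntValue hint
  by_cases hsP : s ∈ P.toValuationSubring
  · obtain ⟨c, hcv⟩ := HasValueAt.exists_of_mem hdeg hsP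
    have hcA : c ∉ A := fun h => hint ⟨c, h, hcv⟩
    have hc0 : c ≠ 0 := by
      rintro rfl
      exact hcA A.zero_mem
    have hcinv : c⁻¹ ∈ A := (A.mem_or_inv_mem c).resolve_left hcA
    have hmax : (⟨c⁻¹, hcinv⟩ : ↥A) ∈ maximalIdeal ↥A := by
      rw [mem_maximalIdeal, mem_nonunits_iff]
      intro hu
      apply hcA
      have := (A.valuation_eq_one_iff ⟨c⁻¹, hcinv⟩).mp hu
      have h2 : A.valuation c = 1 := by
        have h3 : A.valuation (c⁻¹ : Ω) = 1 := this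
        rw [map_inv₀, inv_eq_one] at h3
        exact h3
      exact (A.valuation_le_one_iff c).mp (le_of_eq h2)
    exact hc.hasValueAt_zero hρA hsW ⟨c⁻¹, hcinv⟩ hmax (hAW _ hcinv) (hsub _ hcinv)
      (hcv.inv hc0)
  · have hinvP : s⁻¹ ∈ P.toValuationSubring := (P.toValuationSubring.mem_or_inv_mem s).resolve_left hsP
    have hpos : 0 < P.ord s⁻¹ := by
      have h1 : ¬ 0 ≤ P.ord s := fun h => hsP ((PlaceAux.mem_iff_ord_nonneg' _ hs0).mpr h)
      rw [Place.ord_inv]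
      omega
    have hv : HasValueAt P s⁻¹ ((0 : ↥A) : Ω) := by
      rw [HasValueAt.iff_ord]
      right
      simpa using hpos
    have h0W : algebraMap Ω EΩ ((0 : ↥A) : Ω) ∈ W := hAW _ A.zero_mem
    have := hc.hasValueAt hρA hsW (0 : ↥A) h0W (hsub _ A.zero_mem) hv
    rwa [map_zero] at this

end Eval

end Fermat.Agent.FG
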