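/-
FG (S19/S32) [E-RED-b] — helper1 — **equivariance of the reduction of points.**

A semilinear automorphism `g` of `E_Ω / Ω` which preserves `A` and the Gauss ring `W` induces a
semilinear automorphism `redAut g` of `𝔽b / k` with `redAut g • ρ f = ρ (g • f)`.  It transports
centres: if `g` fixes the coordinate `s` and preserves the test-function sets, then
`IsTwoCentre P Q → IsTwoCentre (g • P) (redAut g • Q)`; for a reduction map `r` given by unique
two-chart centres this is `r (g • P) = redAut g • r P`, i.e. the literal `GoodRed.IsAut.r_smul`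
(`r_smul_of_isTwoCentre`).
-/
import Mathlib
import Fermat.Agent.FG.ERED_helper1_Eval

set_option autoImplicit false
set_option linter.unusedSectionVars false
set_option linter.style.haveILetI false

open AlgebraicCurve IsLocalRing

namespace Fermat.Agent.FG

open Fermat.Agent.JA Fermat.Agent.FF
open scoped Pointwise

section Lift

variable {W₀ 𝔽b : Type*} [CommRing W₀] [IsLocalRing W₀] [Field 𝔽b] {ρ : W₀ →+* 𝔽b}

/-- the kernel of a surjection of a local ring onto a field is the maximal ideal. -/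
theorem ker_eq_maximalIdeal_of_surjective (hρ : Function.Surjective ρ) :
    RingHom.ker ρ = maximalIdeal W₀ :=
  haveI := RingHom.ker_isMaximal_of_surjective ρ hρ
  IsLocalRing.eq_maximalIdeal inferInstance

theorem ker_le_ker_comp_ringEquiv (hρ : Function.Surjective ρ) (e : W₀ ≃+* W₀) :
    RingHom.ker ρ ≤ RingHom.ker (ρ.comp (e : W₀ →+* W₀)) := by
  intro x hx
  rw [ker_eq_maximalIdeal_of_surjective hρ, mem_maximalIdeal, mem_nonunits_iff] at hx
  rw [RingHom.mem_ker, RingHom.comp_apply, ← RingHom.mem_ker,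
    ker_eq_maximalIdeal_of_surjective hρ, mem_maximalIdeal, mem_nonunits_iff]
  intro hu
  apply hx
  have := hu.map (e.symm : W₀ →+* W₀)
  simpa using this

/-- the endomorphism of the residue field induced by an automorphism of the local ring. -/
noncomputable def liftRingHom (hρ : Function.Surjective ρ) (e : W₀ ≃+* W₀) : 𝔽b →+* 𝔽b :=
  ρ.liftOfSurjective hρ ⟨ρ.comp (e : W₀ →+* W₀), ker_le_ker_comp_ringEquiv hρ e⟩

theorem liftRingHom_apply (hρ : Function.Surjective ρ) (e : W₀ ≃+* W₀) (x : W₀) :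
    liftRingHom hρ e (ρ x) = ρ (e x) :=
  RingHom.liftOfSurjective_comp_apply ρ hρ ⟨ρ.comp (e : W₀ →+* W₀), _⟩ x

/-- the automorphism of the residue field induced by an automorphism of the local ring. -/
noncomputable def liftRingEquiv (hρ : Function.Surjective ρ) (e : W₀ ≃+* W₀) : 𝔽b ≃+* 𝔽b :=
  RingEquiv.ofRingHom (liftRingHom hρ e) (liftRingHom hρ e.symm)
    (by
      ext y
      obtain ⟨x, rfl⟩ := hρ y
      rw [RingHom.comp_apply, liftRingHom_apply, liftRingHom_apply, RingEquiv.apply_symm_apply,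
        RingHom.id_apply])
    (by
      ext y
      obtain ⟨x, rfl⟩ := hρ y
      rw [RingHom.comp_apply, liftRingHom_apply, liftRingHom_apply, RingEquiv.symm_apply_apply,
        RingHom.id_apply])

theorem liftRingEquiv_apply (hρ : Function.Surjective ρ) (e : W₀ ≃+* W₀) (x : W₀) :
    liftRingEquiv hρ e (ρ x) = ρ (e x) :=
  liftRingHom_apply hρ e x

end Lift

section RedAut

variable {Ω EΩ 𝔽b : Type*} [Field Ω] [Field EΩ] [Algebra Ω EΩ] [Field 𝔽b]
  {A : ValuationSubring Ω} [Algebra (ResidueField ↥A) 𝔽b]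
  {W : ValuationSubring EΩ} {ρΩ : ↥W →+* 𝔽b}

/-- a semilinear automorphism preserves `A` and `W`. -/
structure PreservesGauss (A : ValuationSubring Ω) (W : ValuationSubring EΩ)
    (g : SemilinearAut Ω EΩ) : Prop where
  base_mem : ∀ a : Ω, SemilinearAut.baseAut g a ∈ A ↔ a ∈ A
  smul_mem : ∀ f : EΩ, g • f ∈ W ↔ f ∈ W

theorem PreservesGauss.inv {g : SemilinearAut Ω EΩ} (hg : PreservesGauss A W g) :
    PreservesGauss A W g⁻¹ where
  base_mem a := by
    rw [← hg.base_mem ((SemilinearAut.baseAut g⁻¹) a), SemilinearAut.baseAut_inv,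
      RingEquiv.apply_symm_apply]
  smul_mem f := by
    rw [← hg.smul_mem (g⁻¹ • f), smul_inv_smul]

/-- the restriction of `g` to the Gauss ring. -/
noncomputable def gaussAut {g : SemilinearAut Ω EΩ} (hg : PreservesGauss A W g) : ↥W ≃+* ↥W where
  toFun f := ⟨g • (f : EΩ), (hg.smul_mem _).mpr f.2⟩
  invFun f := ⟨g⁻¹ • (f : EΩ), (hg.inv.smul_mem _).mpr f.2⟩
  left_inv f := Subtype.ext (inv_smul_smul g (f : EΩ))
  right_inv f := Subtype.ext (smul_inv_smul g (f : EΩ))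
  map_mul' f f' := Subtype.ext (smul_mul' g (f : EΩ) (f' : EΩ))
  map_add' f f' := Subtype.ext (smul_add g (f : EΩ) (f' : EΩ))

@[simp]
theorem coe_gaussAut {g : SemilinearAut Ω EΩ} (hg : PreservesGauss A W g) (f : ↥W) :
    ((gaussAut hg f : ↥W) : EΩ) = g • (f : EΩ) := rfl

/-- the restriction of the base automorphism to `A`. -/
noncomputable def baseValAut {g : SemilinearAut Ω EΩ} (hg : PreservesGauss A W g) : ↥A ≃+* ↥A where
  toFun a := ⟨SemilinearAut.baseAut g (a : Ω), (hg.base_mem _).mpr a.2⟩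
  invFun a := ⟨(SemilinearAut.baseAut g).symm (a : Ω), by
    have := (hg.inv.base_mem (a : Ω)).mpr a.2
    rwa [SemilinearAut.baseAut_inv] at this⟩
  left_inv a := Subtype.ext ((SemilinearAut.baseAut g).symm_apply_apply (a : Ω))
  right_inv a := Subtype.ext ((SemilinearAut.baseAut g).apply_symm_apply (a : Ω))
  map_mul' a a' := Subtype.ext (map_mul (SemilinearAut.baseAut g) (a : Ω) (a' : Ω))
  map_add' a a' := Subtype.ext (map_add (SemilinearAut.baseAut g) (a : Ω) (a' : Ω))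

@[simp]
theorem coe_baseValAut {g : SemilinearAut Ω EΩ} (hg : PreservesGauss A W g) (a : ↥A) :
    ((baseValAut hg a : ↥A) : Ω) = SemilinearAut.baseAut g (a : Ω) := rfl

variable (hρs : Function.Surjective ρΩ)
  (hρA : ∀ (a : ↥A) (h : algebraMap Ω EΩ (a : Ω) ∈ W),
    ρΩ ⟨algebraMap Ω EΩ (a : Ω), h⟩ = algebraMap (ResidueField ↥A) 𝔽b (residue ↥A a))
  (hAW : ∀ a : Ω, a ∈ A → algebraMap Ω EΩ a ∈ W)

include hρA hAW in
theorem liftRingEquiv_gaussAut_algebraMap {g : SemilinearAut Ω EΩ} (hg : PreservesGauss A W g)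
    (c : ResidueField ↥A) :
    liftRingEquiv hρs (gaussAut hg) (algebraMap (ResidueField ↥A) 𝔽b c) =
      algebraMap (ResidueField ↥A) 𝔽b (ResidueField.mapEquiv (baseValAut hg) c) := by
  obtain ⟨a, rfl⟩ := residue_surjective c
  rw [← hρA a (hAW _ a.2), liftRingEquiv_apply, ResidueField.mapEquiv_apply,
    ResidueField.map_residue]
  have h1 : (gaussAut hg ⟨algebraMap Ω EΩ (a : Ω), hAW _ a.2⟩ : ↥W) =
      ⟨algebraMap Ω EΩ ((baseValAut hg a : ↥A) : Ω), hAW _ (baseValAut hg a).2⟩ := by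
    apply Subtype.ext
    show g • algebraMap Ω EΩ (a : Ω) = algebraMap Ω EΩ (SemilinearAut.baseAut g (a : Ω))
    exact SemilinearAut.smul_algebraMap g (a : Ω)
  rw [h1, hρA]
  rfl

/-- **the reduction of a semilinear automorphism** preserving `A` and `W`. -/
noncomputable def redAut {g : SemilinearAut Ω EΩ} (hg : PreservesGauss A W g) :
    SemilinearAut (ResidueField ↥A) 𝔽b :=
  ⟨(liftRingEquiv hρs (gaussAut hg), ResidueField.mapEquiv (baseValAut hg)),
    fun c => liftRingEquiv_gaussAut_algebraMap hρs hρA hAW hg c⟩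

theorem redAut_smul {g : SemilinearAut Ω EΩ} (hg : PreservesGauss A W g) (f : ↥W) :
    redAut hρs hρA hAW hg • ρΩ f = ρΩ ⟨g • (f : EΩ), (hg.smul_mem _).mpr f.2⟩ :=
  liftRingEquiv_apply hρs (gaussAut hg) f

theorem redAut_smul' {g : SemilinearAut Ω EΩ} (hg : PreservesGauss A W g) (f : EΩ) (hf : f ∈ W)
    (hgf : g • f ∈ W) :
    ρΩ ⟨g • f, hgf⟩ = redAut hρs hρA hAW hg • ρΩ ⟨f, hf⟩ :=
  (redAut_smul hρs hρA hAW hg ⟨f, hf⟩).symm

/-- membership in the transported place. -/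
theorem mem_redAut_smul_iff {g : SemilinearAut Ω EΩ} (hg : PreservesGauss A W g)
    (Q : Place (ResidueField ↥A) 𝔽b) (f : EΩ) (hf : f ∈ W) (hgf : g • f ∈ W) :
    ρΩ ⟨g • f, hgf⟩ ∈ (redAut hρs hρA hAW hg • Q).toValuationSubring ↔
      ρΩ ⟨f, hf⟩ ∈ Q.toValuationSubring := by
  rw [redAut_smul' hρs hρA hAW hg f hf hgf, SemilinearAut.smul_toValuationSubring]
  exact ValuationSubring.smul_mem_pointwise_smul_iff

include hρs hρA hAW in
/-- **transport of centres.** -/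
theorem IsCentreIn.smul {g : SemilinearAut Ω EΩ} (hg : PreservesGauss A W g) {𝔅 : Set EΩ}
    (h𝔅 : ∀ f ∈ 𝔅, g⁻¹ • f ∈ 𝔅) {P : Place Ω EΩ} {Q : Place (ResidueField ↥A) 𝔽b}
    (hc : IsCentreIn W ρΩ 𝔅 P Q) :
    IsCentreIn W ρΩ 𝔅 (g • P) (redAut hρs hρA hAW hg • Q) := by
  intro f hf
  obtain ⟨hP, hW', hQ, himp⟩ := hc _ (h𝔅 f hf)
  have hfg : g • (g⁻¹ • f) = f := smul_inv_smul g f
  have hfW : f ∈ W := by
    have := (hg.smul_mem (g⁻¹ • f)).mpr hW'
    rwa [hfg] at this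
  have hred : ρΩ ⟨f, hfW⟩ = redAut hρs hρA hAW hg • ρΩ ⟨g⁻¹ • f, hW'⟩ := by
    rw [redAut_smul]
    congr 1
    exact Subtype.ext hfg.symm
  refine ⟨?_, hfW, ?_, ?_⟩
  · rw [SemilinearAut.smul_toValuationSubring,
      ValuationSubring.mem_pointwise_smul_iff_inv_smul_mem]
    exact hP
  · rw [hred, SemilinearAut.smul_toValuationSubring]
    exact ValuationSubring.smul_mem_pointwise_smul _ _ _ hQ
  · intro hne hinv
    rw [hred] at hne hinv
    have hne' : ρΩ ⟨g⁻¹ • f, hW'⟩ ≠ 0 := by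
      intro h0
      apply hne
      rw [h0, smul_zero]
    have hinv' : (ρΩ ⟨g⁻¹ • f, hW'⟩)⁻¹ ∈ Q.toValuationSubring := by
      rw [SemilinearAut.smul_toValuationSubring, ← smul_inv'' ] at hinv
      exact ValuationSubring.smul_mem_pointwise_smul_iff.mp hinv
    have h3 := himp hne' hinv'
    rw [SemilinearAut.smul_toValuationSubring,
      ValuationSubring.mem_pointwise_smul_iff_inv_smul_mem, smul_inv'']
    exact h3

theorem hasIntValue_smul_iff {g : SemilinearAut Ω EΩ} (hg : PreservesGauss A W g) {s : EΩ}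
    (hs : g • s = s) (P : Place Ω EΩ) : HasIntValue A s (g • P) ↔ HasIntValue A s P := by
  constructor
  · rintro ⟨a, ha, hv⟩
    refine ⟨(SemilinearAut.baseAut g).symm a, ?_, ?_⟩
    · have := (hg.inv.base_mem a).mpr ha
      rwa [SemilinearAut.baseAut_inv] at this
    · have h1 := hv.smul g⁻¹
      rw [inv_smul_smul, SemilinearAut.baseAut_inv] at h1
      have h2 : g⁻¹ • s = s := by
        conv_lhs => rw [← hs]
        exact inv_smul_smul g s
      rwa [h2] at h1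
  · rintro ⟨a, ha, hv⟩
    refine ⟨SemilinearAut.baseAut g a, (hg.base_mem a).mpr ha, ?_⟩
    have h1 := hv.smul g
    rwa [hs] at h1

include hρs hρA hAW in
/-- **transport of two-chart centres.** -/
theorem IsTwoCentre.smul {g : SemilinearAut Ω EΩ} (hg : PreservesGauss A W g) {s : EΩ}
    (hs : g • s = s) {𝔅₁ 𝔅₂ : Set EΩ} (h𝔅₁ : ∀ f ∈ 𝔅₁, g⁻¹ • f ∈ 𝔅₁)
    (h𝔅₂ : ∀ f ∈ 𝔅₂, g⁻¹ • f ∈ 𝔅₂) {P : Place Ω EΩ} {Q : Place (ResidueField ↥A) 𝔽b}
    (hQ : IsTwoCentre W ρΩ A s 𝔅₁ 𝔅₂ P Q) :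
    IsTwoCentre W ρΩ A s 𝔅₁ 𝔅₂ (g • P) (redAut hρs hρA hAW hg • Q) := by
  rcases hQ with ⟨hint, hc⟩ | ⟨hint, hc⟩
  · exact Or.inl ⟨(hasIntValue_smul_iff hg hs P).mpr hint, hc.smul hρs hρA hAW hg h𝔅₁⟩
  · exact Or.inr ⟨fun h => hint ((hasIntValue_smul_iff hg hs P).mp h),
      hc.smul hρs hρA hAW hg h𝔅₂⟩

include hρs hρA hAW in
/-- **equivariance of a reduction map given by unique two-chart centres**, in the literal form
of `GoodRed.IsAut.r_smul`. -/
theorem r_smul_of_isTwoCentre {g : SemilinearAut Ω EΩ} (hg : PreservesGauss A W g) {s : EΩ}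
    (hs : g • s = s) {𝔅₁ 𝔅₂ : Set EΩ} (h𝔅₁ : ∀ f ∈ 𝔅₁, g⁻¹ • f ∈ 𝔅₁)
    (h𝔅₂ : ∀ f ∈ 𝔅₂, g⁻¹ • f ∈ 𝔅₂)
    (r : Place Ω EΩ → Place (ResidueField ↥A) 𝔽b)
    (hr : ∀ P, IsTwoCentre W ρΩ A s 𝔅₁ 𝔅₂ P (r P))
    (huniq : ∀ (P : Place Ω EΩ) (Q Q' : Place (ResidueField ↥A) 𝔽b),
      IsTwoCentre W ρΩ A s 𝔅₁ 𝔅₂ P Q → IsTwoCentre W ρΩ A s 𝔅₁ 𝔅₂ P Q' → Q = Q')
    (P : Place Ω EΩ) (f : ↥W) (hf : g • (f : EΩ) ∈ W) :
    ρΩ ⟨g • (f : EΩ), hf⟩ ∈ (r (g • P)).toValuationSubring ↔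
      ρΩ f ∈ (r P).toValuationSubring := by
  have h1 : r (g • P) = redAut hρs hρA hAW hg • r P :=
    huniq (g • P) _ _ (hr (g • P)) ((hr P).smul hρs hρA hAW hg hs h𝔅₁ h𝔅₂)
  rw [h1]
  exact mem_redAut_smul_iff hρs hρA hAW hg (r P) (f : EΩ) f.2 hf

end RedAut

end Fermat.Agent.FG
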