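/-
FG (S19/S32) [E-RED-b] — helper1 — **the intrinsic test-function sets.**

`intRing A s = A[s] ⊆ E_Ω` (the subring generated by the constants of `A` and the coordinate `s`),
`intSet A s` = its integral closure in `E_Ω` (as a set).  Integrality over subrings in polynomial
form (`isIntegral_subring_iff`), transport along ring homs (`IsIntegral.map_subring`,
`isIntegral_subring_of_map`), stability of `intSet` under subtraction of constants and under the
semilinear automorphisms preserving `A` and fixing `s`, `intSet ⊆ W`, values in `A`.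
-/
import Mathlib
import Fermat.Agent.FG.ERED_helper1_Aut
import Fermat.Agent.JA.RED_helper7_CompVal

set_option autoImplicit false
set_option linter.unusedSectionVars false
set_option linter.style.haveILetI false

open AlgebraicCurve IsLocalRing Polynomial

namespace Fermat.Agent.FG

open Fermat.Agent.JA Fermat.Agent.FF

section SubringIntegral

variable {E E' : Type*} [CommRing E] [CommRing E']

/-- integrality over a subring in polynomial form. -/
theorem isIntegral_subring_iff {S : Subring E} {b : E} :
    IsIntegral ↥S b ↔ ∃ p : E[X], p.Monic ∧ (∀ n, p.coeff n ∈ S) ∧ p.eval b = 0 := by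
  constructor
  · rintro ⟨p, hp, h0⟩
    refine ⟨p.map S.subtype, hp.map _, fun n => ?_, ?_⟩
    · rw [coeff_map]
      exact (p.coeff n).2
    · rw [eval_map]
      exact h0
  · rintro ⟨p, hp, hc, h0⟩
    have hl : p ∈ lifts S.subtype := by
      rw [lifts_iff_coeff_lifts]
      intro n
      exact ⟨⟨p.coeff n, hc n⟩, rfl⟩
    obtain ⟨q, hq, -, hqm⟩ := lifts_and_natDegree_eq_and_monic hl hp
    refine ⟨q, hqm, ?_⟩
    have : eval₂ (algebraMap ↥S E) b q = eval b (q.map S.subtype) := (eval_map _ _).symm
    rw [this, hq, h0]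

/-- integrality is transported by ring homomorphisms. -/
theorem IsIntegral.map_subring (φ : E →+* E') {S : Subring E} {S' : Subring E'}
    (h : ∀ x ∈ S, φ x ∈ S') {b : E} (hb : IsIntegral ↥S b) : IsIntegral ↥S' (φ b) := by
  obtain ⟨p, hp, hc, h0⟩ := isIntegral_subring_iff.mp hb
  refine isIntegral_subring_iff.mpr ⟨p.map φ, hp.map φ, fun n => ?_, ?_⟩
  · rw [coeff_map]
    exact h _ (hc n)
  · rw [eval_map, eval₂_hom, h0, map_zero]

/-- integrality descends along an injective ring homomorphism when the coefficient ring is in the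
image. -/
theorem isIntegral_subring_of_map (φ : E →+* E') (hφ : Function.Injective φ) {S : Subring E}
    {S' : Subring E'} (h : S' ≤ S.map φ) {b : E} (hb : IsIntegral ↥S' (φ b)) :
    IsIntegral ↥S b := by
  obtain ⟨p, hp, hc, h0⟩ := isIntegral_subring_iff.mp hb
  have hl : p ∈ lifts (φ.comp S.subtype) := by
    rw [lifts_iff_coeff_lifts]
    intro n
    obtain ⟨x, hx, hxn⟩ := h (hc n)
    exact ⟨⟨x, hx⟩, hxn⟩
  obtain ⟨q, hq, -, hqm⟩ := lifts_and_natDegree_eq_and_monic hl hp
  refine ⟨q, hqm, hφ ?_⟩
  have h1 : φ (eval₂ (algebraMap ↥S E) b q) = eval (φ b) (q.map (φ.comp S.subtype)) := by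
    rw [eval_map, hom_eval₂]
    rfl
  rw [h1, hq, h0, map_zero]

theorem isIntegral_subring_mono {S S' : Subring E} (h : S ≤ S') {b : E}
    (hb : IsIntegral ↥S b) : IsIntegral ↥S' b := by
  have := IsIntegral.map_subring (RingHom.id E) (S := S) (S' := S') (fun x hx => h hx) hb
  simpa using this

end SubringIntegral

section IntSet

variable {Ω EΩ : Type*} [Field Ω] [Field EΩ] [Algebra Ω EΩ]

/-- `A[s] ⊆ E_Ω`. -/
def intRing (A : ValuationSubring Ω) (s : EΩ) : Subring EΩ :=
  Subring.closure ((algebraMap Ω EΩ) '' (A : Set Ω) ∪ {s})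

/-- the integral closure of `A[s]` in `E_Ω`. -/
def intSet (A : ValuationSubring Ω) (s : EΩ) : Set EΩ := {f | IsIntegral ↥(intRing A s) f}

variable {A : ValuationSubring Ω} {s : EΩ}

theorem algebraMap_mem_intRing {a : Ω} (ha : a ∈ A) : algebraMap Ω EΩ a ∈ intRing A s :=
  Subring.subset_closure (Or.inl ⟨a, ha, rfl⟩)

theorem self_mem_intRing : s ∈ intRing A s :=
  Subring.subset_closure (Or.inr rfl)

theorem intRing_le {S : Subring EΩ} (hA : ∀ a ∈ A, algebraMap Ω EΩ a ∈ S) (hs : s ∈ S) :
    intRing A s ≤ S := by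
  rw [intRing, Subring.closure_le]
  rintro x (⟨a, ha, rfl⟩ | rfl)
  · exact hA a ha
  · exact hs

theorem mem_intSet_of_mem_intRing {f : EΩ} (hf : f ∈ intRing A s) : f ∈ intSet A s := by
  have : f = algebraMap ↥(intRing A s) EΩ ⟨f, hf⟩ := rfl
  show IsIntegral ↥(intRing A s) f
  rw [this]
  exact isIntegral_algebraMap

theorem self_mem_intSet : s ∈ intSet A s := mem_intSet_of_mem_intRing self_mem_intRing

theorem algebraMap_mem_intSet {a : Ω} (ha : a ∈ A) : algebraMap Ω EΩ a ∈ intSet A s :=
  mem_intSet_of_mem_intRing (algebraMap_mem_intRing ha)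

theorem sub_mem_intSet {f f' : EΩ} (hf : f ∈ intSet A s) (hf' : f' ∈ intSet A s) :
    f - f' ∈ intSet A s :=
  IsIntegral.sub hf hf'

/-- `intSet` is stable under subtraction of constants of `A`. -/
theorem sub_algebraMap_mem_intSet {f : EΩ} (hf : f ∈ intSet A s) {a : Ω} (ha : a ∈ A) :
    f - algebraMap Ω EΩ a ∈ intSet A s :=
  sub_mem_intSet hf (algebraMap_mem_intSet ha)

/-- the test functions lie in every valuation ring containing `A` and `s`. -/
theorem mem_of_mem_intSet (O : ValuationSubring EΩ) (hA : ∀ a ∈ A, algebraMap Ω EΩ a ∈ O)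
    (hs : s ∈ O) {f : EΩ} (hf : f ∈ intSet A s) : f ∈ O :=
  mem_of_isIntegral_of_forall_mem (A := ↥(intRing A s)) O
    (fun x => (intRing_le (S := O.toSubring) hA hs) x.2) hf

/-- **values of test functions**: at a place of degree one where `s` has a value in `A`, every
test function has a value in `A`. -/
theorem exists_hasValueAt_of_mem_intSet {P : Place Ω EΩ} (hdeg : P.deg = 1)
    (hint : HasIntValue A s P) {f : EΩ} (hf : f ∈ intSet A s) :
    ∃ a : ↥A, HasValueAt P f (a : Ω) := by
  refine exists_hasValueAt_of_isIntegral A P hdeg (intRing A s) ?_ hf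
  intro x hx
  have hle : intRing A s ≤ (compVal A P hdeg).toSubring := by
    apply intRing_le
    · intro a ha
      exact ⟨⟨a, ha⟩, HasValueAt.algebraMap' P a⟩
    · obtain ⟨a, ha, hv⟩ := hint
      exact ⟨⟨a, ha⟩, hv⟩
  exact hle hx

/-- `intSet` is stable under the semilinear automorphisms preserving `A` and fixing `s`. -/
theorem smul_mem_intSet {W : ValuationSubring EΩ} {g : SemilinearAut Ω EΩ}
    (hg : PreservesGauss A W g) (hs : g • s = s) {f : EΩ} (hf : f ∈ intSet A s) :
    g • f ∈ intSet A s := by
  refine IsIntegral.map_subring (SemilinearAut.toRingAut g : EΩ →+* EΩ)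
    (S := intRing A s) (S' := intRing A s) ?_ hf
  have hle : intRing A s ≤ (intRing A s).comap (SemilinearAut.toRingAut g : EΩ →+* EΩ) := by
    apply intRing_le
    · intro a ha
      show SemilinearAut.toRingAut g (algebraMap Ω EΩ a) ∈ intRing A s
      rw [SemilinearAut.commutes]
      exact algebraMap_mem_intRing ((hg.base_mem a).mpr ha)
    · show SemilinearAut.toRingAut g s ∈ intRing A s
      have : SemilinearAut.toRingAut g s = s := hs
      rw [this]
      exact self_mem_intRing
  exact fun x hx => hle hx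

theorem inv_smul_mem_intSet {W : ValuationSubring EΩ} {g : SemilinearAut Ω EΩ}
    (hg : PreservesGauss A W g) (hs : g • s = s) {f : EΩ} (hf : f ∈ intSet A s) :
    g⁻¹ • f ∈ intSet A s := by
  refine smul_mem_intSet hg.inv ?_ hf
  conv_lhs => rw [← hs]
  exact inv_smul_smul g s

end IntSet

end Fermat.Agent.FG
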