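/-
FG (S19/S32) [E-RED-b] — helper1 — **the chart images at the bases of a tower field and the
intrinsic test-function set.**

`E(K) ⊆ K⸨x⸩` a tower field functorial in the coefficient field (`hE`, `hgenE`), `s(K) ∈ E(K)` a
coordinate compatible with coefficient extension.  For a base `K₁ ⊂ Ω`, `R₁ = A ∩ K₁`:

* `towerBC K₁ : E(K₁) →+* E(Ω)` the coefficientwise base change;
* `baseIntRing K₁ = R₁[s] ⊆ E(K₁)`, `baseChartSet K₁ ⊆ E(Ω)` the image of its integral closure;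
* `baseChartSet_subset_intSet`, `baseChartSet_mono`, and the directedness statement
  `exists_isBase_mem_baseChartSet`: every `f` integral over `A[s]` lies in `baseChartSet K₁` for a
  base `K₁` above any given base.
* `isIntegral_adjoin_iff_closure`: integrality over `Algebra.adjoin R {σ} ⊆ K` of elements of a
  `K`-algebra in subring form.
-/
import Mathlib
import Fermat.Agent.FG.ERED_helper1_Int
import Fermat.Agent.FG.EDEF_helper6_Desc

set_option autoImplicit false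
set_option linter.unusedSectionVars false
set_option linter.style.haveILetI false
set_option synthInstance.maxHeartbeats 200000

open HahnSeries IntermediateField ModularCurve IsLocalRing AlgebraicCurve Polynomial

namespace Fermat.Agent.FG

open Fermat.Agent.JA Fermat.Agent.Igusa Fermat.Agent.FF

section AdjoinClosure

variable {R K E : Type*} [CommRing R] [CommRing K] [CommRing E] [Algebra R K] [Algebra K E]
  [Algebra R E] [IsScalarTower R K E]

theorem algebraMap_mem_closure_of_mem_adjoin (σ : K) {a : K} (ha : a ∈ Algebra.adjoin R {σ}) :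
    algebraMap K E a ∈ Subring.closure (Set.range (algebraMap R E) ∪ {algebraMap K E σ}) := by
  induction ha using Algebra.adjoin_induction with
  | mem x hx =>
    rw [Set.mem_singleton_iff.mp hx]
    exact Subring.subset_closure (Or.inr rfl)
  | algebraMap r =>
    rw [← IsScalarTower.algebraMap_apply R K E]
    exact Subring.subset_closure (Or.inl ⟨r, rfl⟩)
  | add x y _ _ hx hy =>
    rw [map_add]
    exact add_mem hx hy
  | mul x y _ _ hx hy =>
    rw [map_mul]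
    exact mul_mem hx hy

theorem exists_adjoin_of_mem_closure (σ : K) {c : E}
    (hc : c ∈ Subring.closure (Set.range (algebraMap R E) ∪ {algebraMap K E σ})) :
    ∃ a : ↥(Algebra.adjoin R {σ}), algebraMap K E (a : K) = c := by
  induction hc using Subring.closure_induction with
  | mem x hx =>
    rcases hx with ⟨r, rfl⟩ | hx
    · exact ⟨⟨algebraMap R K r, Subalgebra.algebraMap_mem _ r⟩,
        (IsScalarTower.algebraMap_apply R K E r).symm⟩
    · rw [Set.mem_singleton_iff.mp hx]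
      exact ⟨⟨σ, Algebra.self_mem_adjoin_singleton R σ⟩, rfl⟩
  | zero => exact ⟨0, map_zero _⟩
  | one => exact ⟨1, map_one _⟩
  | add x y _ _ hx hy =>
    obtain ⟨a, rfl⟩ := hx
    obtain ⟨b, rfl⟩ := hy
    exact ⟨a + b, map_add _ _ _⟩
  | neg x _ hx =>
    obtain ⟨a, rfl⟩ := hx
    exact ⟨-a, map_neg _ _⟩
  | mul x y _ _ hx hy =>
    obtain ⟨a, rfl⟩ := hx
    obtain ⟨b, rfl⟩ := hy
    exact ⟨a * b, map_mul _ _ _⟩

/-- integrality over `R[σ] ⊆ K` of an element of a `K`-algebra `E`, in subring form. -/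
theorem isIntegral_adjoin_iff_closure (σ : K) (b : E) :
    IsIntegral ↥(Algebra.adjoin R {σ}) b ↔
      IsIntegral ↥(Subring.closure (Set.range (algebraMap R E) ∪ {algebraMap K E σ})) b := by
  constructor
  · rintro ⟨p, hp, h0⟩
    refine isIntegral_subring_iff.mpr
      ⟨p.map (algebraMap ↥(Algebra.adjoin R {σ}) E), hp.map _, fun n => ?_, ?_⟩
    · rw [coeff_map]
      exact algebraMap_mem_closure_of_mem_adjoin σ (p.coeff n).2
    · rw [eval_map]
      exact h0
  · intro hb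
    obtain ⟨p, hp, hc, h0⟩ := isIntegral_subring_iff.mp hb
    have hl : p ∈ lifts (algebraMap ↥(Algebra.adjoin R {σ}) E) := by
      rw [lifts_iff_coeff_lifts]
      intro n
      obtain ⟨a, ha⟩ := exists_adjoin_of_mem_closure σ (hc n)
      exact ⟨a, ha⟩
    obtain ⟨q, hq, -, hqm⟩ := lifts_and_natDegree_eq_and_monic hl hp
    refine ⟨q, hqm, ?_⟩
    have : eval₂ (algebraMap ↥(Algebra.adjoin R {σ}) E) b q =
        eval b (q.map (algebraMap ↥(Algebra.adjoin R {σ}) E)) := (eval_map _ _).symm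
    rw [this, hq, h0]

end AdjoinClosure

/-- `Ω = AlgebraicClosure ℚ`. -/
local notation "Ω" => AlgebraicClosure ℚ

section Tower

variable {ℓ : ℕ} (A : ValuationSubring Ω)
  (E : ∀ (K : Type) [Field K] [Algebra ℚ K], IntermediateField K (LaurentSeries K))
  (hE : ∀ (K L : Type) [Field K] [Field L] [Algebra ℚ K] [Algebra ℚ L] (φ : K →+* L),
    ∀ x ∈ E K, coeffMap φ x ∈ E L)
  (hgenE : ∀ (K L : Type) [Field K] [Field L] [Algebra ℚ K] [Algebra ℚ L] (φ : K →+* L),
    E L ≤ IntermediateField.adjoin L (⇑(coeffMap φ) '' (E K : Set (LaurentSeries K))))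
  (s : ∀ (K : Type) [Field K] [Algebra ℚ K], LaurentSeries K)
  (hs : ∀ (K : Type) [Field K] [Algebra ℚ K], s K ∈ E K)
  (hsmap : ∀ (K L : Type) [Field K] [Field L] [Algebra ℚ K] [Algebra ℚ L] (φ : K →+* L),
    coeffMap φ (s K) = s L)

/-- the coefficientwise base change `E(K₁) → E(Ω)`. -/
noncomputable def towerBC (K₁ : IntermediateField ℚ Ω) : ↥(E ↥K₁) →+* ↥(E Ω) :=
  coeffHom (algebraMap ↥K₁ Ω) (E ↥K₁) (E Ω) (hE ↥K₁ Ω (algebraMap ↥K₁ Ω))

/-- the coefficientwise map `E(K₁) → E(K₂)` for `K₁ ≤ K₂`. -/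
noncomputable def towerIncl {K₁ K₂ : IntermediateField ℚ Ω} (h : K₁ ≤ K₂) :
    ↥(E ↥K₁) →+* ↥(E ↥K₂) :=
  coeffHom (IntermediateField.inclusion h : ↥K₁ →+* ↥K₂) (E ↥K₁) (E ↥K₂)
    (hE ↥K₁ ↥K₂ (IntermediateField.inclusion h : ↥K₁ →+* ↥K₂))

theorem towerBC_towerIncl {K₁ K₂ : IntermediateField ℚ Ω} (h : K₁ ≤ K₂) (x : ↥(E ↥K₁)) :
    towerBC E hE K₂ (towerIncl E hE h x) = towerBC E hE K₁ x := by
  apply Subtype.ext
  show coeffMap (algebraMap ↥K₂ Ω) (coeffMap (IntermediateField.inclusion h : ↥K₁ →+* ↥K₂)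
    (x : LaurentSeries ↥K₁)) = coeffMap (algebraMap ↥K₁ Ω) (x : LaurentSeries ↥K₁)
  rw [coeffMap_coeffMap]
  rfl

theorem towerBC_injective (K₁ : IntermediateField ℚ Ω) :
    Function.Injective (towerBC E hE K₁) :=
  (towerBC E hE K₁).injective

/-- the coordinate as an element of `E(K)`. -/
def towerCoord (K : Type) [Field K] [Algebra ℚ K] : ↥(E K) := ⟨s K, hs K⟩

include hsmap in
theorem towerBC_towerCoord (K₁ : IntermediateField ℚ Ω) :
    towerBC E hE K₁ (towerCoord E s hs ↥K₁) = towerCoord E s hs Ω :=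
  Subtype.ext (hsmap ↥K₁ Ω (algebraMap ↥K₁ Ω))

include hsmap in
theorem towerIncl_towerCoord {K₁ K₂ : IntermediateField ℚ Ω} (h : K₁ ≤ K₂) :
    towerIncl E hE h (towerCoord E s hs ↥K₁) = towerCoord E s hs ↥K₂ :=
  Subtype.ext (hsmap ↥K₁ ↥K₂ (IntermediateField.inclusion h : ↥K₁ →+* ↥K₂))

/-- `R₁[s] ⊆ E(K₁)`, `R₁ = A ∩ K₁`. -/
noncomputable def baseIntRing (K₁ : IntermediateField ℚ Ω) : Subring ↥(E ↥K₁) :=
  Subring.closure (Set.range (fun r : ↥(baseRing A K₁) => algebraMap ↥K₁ ↥(E ↥K₁) (r : ↥K₁)) ∪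
    {towerCoord E s hs ↥K₁})

/-- the image in `E(Ω)` of the integral closure of `R₁[s]` in `E(K₁)`. -/
def baseChartSet (K₁ : IntermediateField ℚ Ω) : Set ↥(E Ω) :=
  {f | ∃ b : ↥(E ↥K₁), IsIntegral ↥(baseIntRing A E s hs K₁) b ∧ towerBC E hE K₁ b = f}

theorem towerBC_algebraMap (K₁ : IntermediateField ℚ Ω) (a : ↥K₁) :
    towerBC E hE K₁ (algebraMap ↥K₁ ↥(E ↥K₁) a) = algebraMap Ω ↥(E Ω) (algebraMap ↥K₁ Ω a) :=
  coeffHom_algebraMap _ _ _ _ a

theorem towerIncl_algebraMap {K₁ K₂ : IntermediateField ℚ Ω} (h : K₁ ≤ K₂) (a : ↥K₁) :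
    towerIncl E hE h (algebraMap ↥K₁ ↥(E ↥K₁) a) =
      algebraMap ↥K₂ ↥(E ↥K₂) (IntermediateField.inclusion h a) :=
  coeffHom_algebraMap _ _ _ _ a

include hsmap in
/-- the base change maps `R₁[s]` into `A[s]`. -/
theorem towerBC_mem_intRing (K₁ : IntermediateField ℚ Ω) {x : ↥(E ↥K₁)}
    (hx : x ∈ baseIntRing A E s hs K₁) :
    towerBC E hE K₁ x ∈ intRing A (towerCoord E s hs Ω) := by
  have hle : baseIntRing A E s hs K₁ ≤
      (intRing A (towerCoord E s hs Ω)).comap (towerBC E hE K₁) := by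
    rw [baseIntRing, Subring.closure_le]
    rintro y (⟨r, rfl⟩ | hy)
    · refine Subring.mem_comap.mpr ?_
      rw [towerBC_algebraMap]
      exact algebraMap_mem_intRing r.2
    · rw [Set.mem_singleton_iff.mp hy]
      refine Subring.mem_comap.mpr ?_
      rw [towerBC_towerCoord E hE s hs hsmap]
      exact self_mem_intRing
  exact hle hx

include hsmap in
theorem baseChartSet_subset_intSet (K₁ : IntermediateField ℚ Ω) :
    baseChartSet A E hE s hs K₁ ⊆ intSet A (towerCoord E s hs Ω) := by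
  rintro f ⟨b, hb, rfl⟩
  exact IsIntegral.map_subring (towerBC E hE K₁)
    (fun x hx => towerBC_mem_intRing A E hE s hs hsmap K₁ hx) hb

include hsmap in
theorem towerIncl_mem_baseIntRing {K₁ K₂ : IntermediateField ℚ Ω} (h : K₁ ≤ K₂)
    {x : ↥(E ↥K₁)} (hx : x ∈ baseIntRing A E s hs K₁) :
    towerIncl E hE h x ∈ baseIntRing A E s hs K₂ := by
  have hle : baseIntRing A E s hs K₁ ≤ (baseIntRing A E s hs K₂).comap (towerIncl E hE h) := by
    rw [baseIntRing, Subring.closure_le]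
    rintro y (⟨r, rfl⟩ | hy)
    · refine Subring.mem_comap.mpr ?_
      rw [towerIncl_algebraMap]
      exact Subring.subset_closure (Or.inl ⟨baseRingIncl A h r, rfl⟩)
    · rw [Set.mem_singleton_iff.mp hy]
      refine Subring.mem_comap.mpr ?_
      rw [towerIncl_towerCoord E hE s hs hsmap]
      exact Subring.subset_closure (Or.inr rfl)
  exact hle hx

include hsmap in
/-- the chart images grow with the base. -/
theorem baseChartSet_mono {K₁ K₂ : IntermediateField ℚ Ω} (h : K₁ ≤ K₂) :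
    baseChartSet A E hE s hs K₁ ⊆ baseChartSet A E hE s hs K₂ := by
  rintro f ⟨b, hb, rfl⟩
  refine ⟨towerIncl E hE h b, ?_, towerBC_towerIncl E hE h b⟩
  exact IsIntegral.map_subring (towerIncl E hE h)
    (fun x hx => towerIncl_mem_baseIntRing A E hE s hs hsmap h hx) hb

include hsmap in
theorem map_baseIntRing_mono {K₁ K₂ : IntermediateField ℚ Ω} (h : K₁ ≤ K₂) :
    (baseIntRing A E s hs K₁).map (towerBC E hE K₁) ≤
      (baseIntRing A E s hs K₂).map (towerBC E hE K₂) := by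
  rintro c ⟨x, hx, rfl⟩
  exact ⟨towerIncl E hE h x, towerIncl_mem_baseIntRing A E hE s hs hsmap h hx,
    towerBC_towerIncl E hE h x⟩

include hsmap in
/-- every element of `A[s]` comes from `R₁[s]` for a base `K₁` above any given base. -/
theorem exists_isBase_mem_map_baseIntRing {c : ↥(E Ω)}
    (hc : c ∈ intRing A (towerCoord E s hs Ω)) :
    ∀ K₀ : IntermediateField ℚ Ω, IsBase ℓ K₀ → ∃ K₁ : IntermediateField ℚ Ω,
      IsBase ℓ K₁ ∧ K₀ ≤ K₁ ∧ c ∈ (baseIntRing A E s hs K₁).map (towerBC E hE K₁) := by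
  unfold intRing at hc
  induction hc using Subring.closure_induction with
  | mem x hx =>
    intro K₀ hK₀
    rcases hx with ⟨a, ha, rfl⟩ | hx
    · classical
      obtain ⟨K₁, hK₁, hle, hmem⟩ := hK₀.exists_ge_forall_mem {a}
      have haK : a ∈ K₁ := hmem a (Finset.mem_singleton_self a)
      have haR : (⟨a, haK⟩ : ↥K₁) ∈ baseRing A K₁ := ha
      refine ⟨K₁, hK₁, hle, algebraMap ↥K₁ ↥(E ↥K₁) ⟨a, haK⟩,
        Subring.subset_closure (Or.inl ⟨⟨⟨a, haK⟩, haR⟩, rfl⟩), ?_⟩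
      show towerBC E hE K₁ (algebraMap ↥K₁ ↥(E ↥K₁) ⟨a, haK⟩) = _
      rw [towerBC_algebraMap]
      rfl
    · rw [Set.mem_singleton_iff.mp hx]
      exact ⟨K₀, hK₀, le_rfl, towerCoord E s hs ↥K₀, Subring.subset_closure (Or.inr rfl),
        towerBC_towerCoord E hE s hs hsmap K₀⟩
  | zero => exact fun K₀ hK₀ => ⟨K₀, hK₀, le_rfl, Subring.zero_mem _⟩
  | one => exact fun K₀ hK₀ => ⟨K₀, hK₀, le_rfl, Subring.one_mem _⟩
  | add x y _ _ hx hy =>
    intro K₀ hK₀
    obtain ⟨K₁, hK₁, h01, hx1⟩ := hx K₀ hK₀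
    obtain ⟨K₂, hK₂, h12, hy2⟩ := hy K₁ hK₁
    exact ⟨K₂, hK₂, h01.trans h12,
      add_mem (map_baseIntRing_mono A E hE s hs hsmap h12 hx1) hy2⟩
  | neg x _ hx =>
    intro K₀ hK₀
    obtain ⟨K₁, hK₁, h01, hx1⟩ := hx K₀ hK₀
    exact ⟨K₁, hK₁, h01, neg_mem hx1⟩
  | mul x y _ _ hx hy =>
    intro K₀ hK₀
    obtain ⟨K₁, hK₁, h01, hx1⟩ := hx K₀ hK₀
    obtain ⟨K₂, hK₂, h12, hy2⟩ := hy K₁ hK₁
    exact ⟨K₂, hK₂, h01.trans h12,
      mul_mem (map_baseIntRing_mono A E hE s hs hsmap h12 hx1) hy2⟩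

include hsmap in
/-- finitely many coefficients: a polynomial with coefficients in `A[s]` has its coefficients in
`R₁[s]` for a base `K₁` above any given base. -/
theorem exists_isBase_forall_coeff_mem (p : (↥(E Ω))[X])
    (hp : ∀ n, p.coeff n ∈ intRing A (towerCoord E s hs Ω))
    (K₀ : IntermediateField ℚ Ω) (hK₀ : IsBase ℓ K₀) :
    ∃ K₁ : IntermediateField ℚ Ω, IsBase ℓ K₁ ∧ K₀ ≤ K₁ ∧
      ∀ n, p.coeff n ∈ (baseIntRing A E s hs K₁).map (towerBC E hE K₁) := by
  have key : ∀ m : ℕ, ∃ K₁ : IntermediateField ℚ Ω, IsBase ℓ K₁ ∧ K₀ ≤ K₁ ∧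
      ∀ n < m, p.coeff n ∈ (baseIntRing A E s hs K₁).map (towerBC E hE K₁) := by
    intro m
    induction m with
    | zero => exact ⟨K₀, hK₀, le_rfl, fun n hn => absurd hn (Nat.not_lt_zero n)⟩
    | succ m ih =>
      obtain ⟨K₁, hK₁, h01, h1⟩ := ih
      obtain ⟨K₂, hK₂, h12, h2⟩ :=
        exists_isBase_mem_map_baseIntRing A E hE s hs hsmap (hp m) K₁ hK₁
      refine ⟨K₂, hK₂, h01.trans h12, fun n hn => ?_⟩
      rcases Nat.lt_succ_iff_lt_or_eq.mp hn with h | rfl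
      · exact map_baseIntRing_mono A E hE s hs hsmap h12 (h1 n h)
      · exact h2
  obtain ⟨K₁, hK₁, h01, h1⟩ := key (p.natDegree + 1)
  refine ⟨K₁, hK₁, h01, fun n => ?_⟩
  by_cases hn : n < p.natDegree + 1
  · exact h1 n hn
  · rw [coeff_eq_zero_of_natDegree_lt (by omega)]
    exact Subring.zero_mem _

include hsmap hgenE in
/-- **directedness**: every function integral over `A[s]` lies in the chart image of a base above
any given base. -/
theorem exists_isBase_mem_baseChartSet {f : ↥(E Ω)}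
    (hf : f ∈ intSet A (towerCoord E s hs Ω)) (K₀ : IntermediateField ℚ Ω)
    (hK₀ : IsBase ℓ K₀) :
    ∃ K₁ : IntermediateField ℚ Ω, IsBase ℓ K₁ ∧ K₀ ≤ K₁ ∧ f ∈ baseChartSet A E hE s hs K₁ := by
  obtain ⟨p, hp, hc, h0⟩ := isIntegral_subring_iff.mp hf
  obtain ⟨K₁, hK₁, h01, h1⟩ := exists_isBase_forall_coeff_mem A E hE s hs hsmap p hc K₀ hK₀
  obtain ⟨K₂, hK₂, h12, -, f₂, hf₂, hff⟩ :=
    IsBase.exists_ge_descent_tower E hE hgenE hK₁ ∅ f.2
  refine ⟨K₂, hK₂, h01.trans h12, ⟨f₂, hf₂⟩, ?_, Subtype.ext hff⟩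
  have hfe : towerBC E hE K₂ ⟨f₂, hf₂⟩ = f := Subtype.ext hff
  refine isIntegral_subring_of_map (towerBC E hE K₂) (towerBC_injective E hE K₂)
    (S := baseIntRing A E s hs K₂)
    (S' := (baseIntRing A E s hs K₂).map (towerBC E hE K₂)) le_rfl ?_
  rw [hfe]
  exact isIntegral_subring_iff.mpr
    ⟨p, hp, fun n => map_baseIntRing_mono A E hE s hs hsmap h12 (h1 n), h0⟩

end Tower

end Fermat.Agent.FG
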