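/-
FG (S19/S32) [E-RED-b] — helper1 — **the reduction map of points of a tower field `E(Ω)`, from the
per-base packages.**

`E(K) ⊆ K⸨x⸩` a tower field functorial in the coefficient field, `s` a compatible coordinate,
`W ⊆ E(Ω)` the Gauss valuation ring with reduction `ρ : W → 𝔽b`.  If at every base `K₁` the places of
`E(Ω)` with rational restriction to `E(K₁)` have a unique two-chart centre with respect to the chart
images `baseChartSet` of the base and the divisor formula holds there (`TowerBaseHyps`, supplied by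
GEO + REDO through `ERED_helper1_GeoPkg`), then:

* `tower_exists_isTwoCentre`, `tower_isTwoCentre_unique` : every place has a unique intrinsic
  two-chart centre (test functions: the integral closures of `A[s]`, `A[s⁻¹]` in `E(Ω)`);
* `tower_isTwoCentre_centreMap` : `centreMap … Q₀` gives it;
* `tower_mapDomain_centreMap` : **`r_*(div y) = div (ρ y)`** in the literal form of `GoodRed.r_div`.
-/
import Mathlib
import Fermat.Agent.FG.ERED_helper1_Asm
import Fermat.Agent.FG.ERED_helper1_Eval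
import Fermat.Agent.FG.ERED_helper1_Aut
import Fermat.Agent.FG.ERED_helper1_Tower
import Fermat.Agent.JA.BCD_helper9_HostRat

set_option autoImplicit false
set_option linter.unusedSectionVars false
set_option linter.style.haveILetI false
set_option synthInstance.maxHeartbeats 200000

open HahnSeries IntermediateField ModularCurve IsLocalRing AlgebraicCurve Polynomial

namespace Fermat.Agent.FG

open Fermat.Agent.JA Fermat.Agent.Igusa Fermat.Agent.FF

/-- `Ω = AlgebraicClosure ℚ`. -/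
local notation "Ω" => AlgebraicClosure ℚ

section TowerRed

variable (ℓ : ℕ) (A : ValuationSubring Ω)
  (E : ∀ (K : Type) [Field K] [Algebra ℚ K], IntermediateField K (LaurentSeries K))
  (hE : ∀ (K L : Type) [Field K] [Field L] [Algebra ℚ K] [Algebra ℚ L] (φ : K →+* L),
    ∀ x ∈ E K, coeffMap φ x ∈ E L)
  (hgenE : ∀ (K L : Type) [Field K] [Field L] [Algebra ℚ K] [Algebra ℚ L] (φ : K →+* L),
    E L ≤ IntermediateField.adjoin L (⇑(coeffMap φ) '' (E K : Set (LaurentSeries K))))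
  (s : ∀ (K : Type) [Field K] [Algebra ℚ K], LaurentSeries K)
  (hs : ∀ (K : Type) [Field K] [Algebra ℚ K], s K ∈ E K)
  (hsmap : ∀ (K L : Type) [Field K] [Field L] [Algebra ℚ K] [Algebra ℚ L] (φ : K →+* L),
    coeffMap φ (s K) = s L)
  {𝔽b : Type*} [Field 𝔽b] [Algebra (ResidueField ↥A) 𝔽b]
  (W : ValuationSubring ↥(E Ω)) (ρΩ : ↥W →+* 𝔽b)

include hgenE in
/-- `hgen` of `restrictBC` for `towerBC`. -/
theorem towerBC_closure (K₁ : IntermediateField ℚ Ω) :
    Subfield.closure (Set.range (towerBC E hE K₁) ∪ Set.range (algebraMap Ω ↥(E Ω))) = ⊤ :=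
  closure_range_coeffHom _ _ _ _ (hgenE ↥K₁ Ω (algebraMap ↥K₁ Ω))

/-- the place `P` of `E(Ω)` restricts to a rational place of `E(K₁)`. -/
def IsRatAt (K₁ : IntermediateField ℚ Ω) (P : Place Ω ↥(E Ω)) : Prop :=
  IsRationalPlace (restrictBC (towerBC E hE K₁) (towerBC_algebraMap E hE K₁)
    (towerBC_closure E hE hgenE K₁) P)

/-- the inverse coordinate. -/
noncomputable abbrev invCoord : ∀ (K : Type) [Field K] [Algebra ℚ K], LaurentSeries K :=
  fun K _ _ => (s K)⁻¹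

include hs in
theorem invCoord_mem (K : Type) [Field K] [Algebra ℚ K] : invCoord s K ∈ E K :=
  inv_mem (hs K)

include hsmap in
theorem coeffMap_invCoord (K L : Type) [Field K] [Field L] [Algebra ℚ K] [Algebra ℚ L]
    (φ : K →+* L) : coeffMap φ (invCoord s K) = invCoord s L := by
  show coeffMap φ (s K)⁻¹ = (s L)⁻¹
  rw [map_inv₀, hsmap]

theorem towerCoord_invCoord (K : Type) [Field K] [Algebra ℚ K] :
    towerCoord E (invCoord s) (invCoord_mem E s hs) K = (towerCoord E s hs K)⁻¹ := rfl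

/-- **the per-base package** (existence and uniqueness of two-chart centres of the places rational
at the base, and the divisor formula there). -/
structure TowerBaseHyps : Prop where
  ex : ∀ K₁ : IntermediateField ℚ Ω, IsBase ℓ K₁ → ∀ P : Place Ω ↥(E Ω),
    IsRatAt E hE hgenE K₁ P →
    ∃ Q : Place (ResidueField ↥A) 𝔽b, IsTwoCentre W ρΩ A (towerCoord E s hs Ω)
      (baseChartSet A E hE s hs K₁)
      (baseChartSet A E hE (invCoord s) (invCoord_mem E s hs) K₁) P Q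
  uniq : ∀ K₁ : IntermediateField ℚ Ω, IsBase ℓ K₁ → ∀ P : Place Ω ↥(E Ω),
    IsRatAt E hE hgenE K₁ P → ∀ Q Q' : Place (ResidueField ↥A) 𝔽b,
    IsTwoCentre W ρΩ A (towerCoord E s hs Ω) (baseChartSet A E hE s hs K₁)
      (baseChartSet A E hE (invCoord s) (invCoord_mem E s hs) K₁) P Q →
    IsTwoCentre W ρΩ A (towerCoord E s hs Ω) (baseChartSet A E hE s hs K₁)
      (baseChartSet A E hE (invCoord s) (invCoord_mem E s hs) K₁) P Q' → Q = Q'
  div : ∀ K₁ : IntermediateField ℚ Ω, IsBase ℓ K₁ →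
    ∀ r : Place Ω ↥(E Ω) → Place (ResidueField ↥A) 𝔽b,
    (∀ P, IsRatAt E hE hgenE K₁ P → IsTwoCentre W ρΩ A (towerCoord E s hs Ω)
      (intSet A (towerCoord E s hs Ω)) (intSet A (towerCoord E s hs Ω)⁻¹) P (r P)) →
    ∀ (y : ↥(E ↥K₁)) (hW : towerBC E hE K₁ y ∈ W), ρΩ ⟨towerBC E hE K₁ y, hW⟩ ≠ 0 →
    (∀ P : Place Ω ↥(E Ω), P.ord (towerBC E hE K₁ y) ≠ 0 → IsRatAt E hE hgenE K₁ P) →
    ∀ D : Divisor Ω ↥(E Ω), (∀ P, D P = P.ord (towerBC E hE K₁ y)) →
    ∀ Q, Finsupp.mapDomain r D Q = Q.ord (ρΩ ⟨towerBC E hE K₁ y, hW⟩)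

variable {ℓ A E hE hgenE s hs W ρΩ}
variable (H : TowerBaseHyps ℓ A E hE hgenE s hs W ρΩ)
  (c₀ : Coord ↥(flatBase ℓ) ↥(E ↥(flatBase ℓ))) (hdeg : ∀ P : Place Ω ↥(E Ω), P.deg = 1)

/-- rationality at all bases above `K₁`. -/
def IsRatAbove (ℓ : ℕ)
    (E : ∀ (K : Type) [Field K] [Algebra ℚ K], IntermediateField K (LaurentSeries K))
    (hE : ∀ (K L : Type) [Field K] [Field L] [Algebra ℚ K] [Algebra ℚ L] (φ : K →+* L),
      ∀ x ∈ E K, coeffMap φ x ∈ E L)
    (hgenE : ∀ (K L : Type) [Field K] [Field L] [Algebra ℚ K] [Algebra ℚ L] (φ : K →+* L),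
      E L ≤ IntermediateField.adjoin L (⇑(coeffMap φ) '' (E K : Set (LaurentSeries K))))
    (K₁ : IntermediateField ℚ Ω) (P : Place Ω ↥(E Ω)) : Prop :=
  IsBase ℓ K₁ ∧ ∀ K₂ : IntermediateField ℚ Ω, IsBase ℓ K₂ → K₁ ≤ K₂ → IsRatAt E hE hgenE K₂ P

theorem IsRatAbove.mono {K₁ K₂ : IntermediateField ℚ Ω} {P : Place Ω ↥(E Ω)}
    (h : IsRatAbove ℓ E hE hgenE K₁ P) (hK₂ : IsBase ℓ K₂) (h12 : K₁ ≤ K₂) :
    IsRatAbove ℓ E hE hgenE K₂ P :=
  ⟨hK₂, fun K₃ hK₃ h23 => h.2 K₃ hK₃ (h12.trans h23)⟩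

include c₀ hdeg in
/-- finitely many places are rational above a common base. -/
theorem exists_isRatAbove (K₁ : IntermediateField ℚ Ω) (hK₁ : IsBase ℓ K₁)
    (T : Finset (Place Ω ↥(E Ω))) :
    ∃ K₂ : IntermediateField ℚ Ω, IsBase ℓ K₂ ∧ K₁ ≤ K₂ ∧
      ∀ P ∈ T, IsRatAbove ℓ E hE hgenE K₂ P := by
  obtain ⟨t, ht⟩ := exists_finset_forall_isRationalPlace_tower E hE hgenE (flatBase ℓ) c₀ hdeg T
  obtain ⟨K₂, hK₂, h12, hmem⟩ := hK₁.exists_ge_forall_mem t
  refine ⟨K₂, hK₂, h12, fun P hP => ⟨hK₂, fun K₃ hK₃ h23 => ?_⟩⟩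
  exact ht K₃ hK₃.flatBase_le (fun c hc => h23 (hmem c hc)) P hP

include H c₀ hdeg hsmap in
/-- **existence of the intrinsic two-chart centre** of every place of `E(Ω)`. -/
theorem tower_exists_isTwoCentre (P : Place Ω ↥(E Ω)) :
    ∃ Q : Place (ResidueField ↥A) 𝔽b, IsTwoCentre W ρΩ A (towerCoord E s hs Ω)
      (intSet A (towerCoord E s hs Ω)) (intSet A (towerCoord E s hs Ω)⁻¹) P Q := by
  classical
  refine exists_isTwoCentre_of_bases (ι := IntermediateField ℚ Ω)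
    (C₁ := fun K₁ => baseChartSet A E hE s hs K₁)
    (C₂ := fun K₁ => baseChartSet A E hE (invCoord s) (invCoord_mem E s hs) K₁)
    (rat := fun K₁ P => IsRatAbove ℓ E hE hgenE K₁ P) ?_ ?_ ?_ ?_ ?_ P
  · intro K₁ P hr
    exact H.ex K₁ hr.1 P (hr.2 K₁ hr.1 le_rfl)
  · intro K₁ P hr Q Q' hQ hQ'
    exact H.uniq K₁ hr.1 P (hr.2 K₁ hr.1 le_rfl) Q Q' hQ hQ'
  · intro P
    obtain ⟨K₂, -, -, h⟩ := exists_isRatAbove c₀ hdeg (flatBase ℓ) isBase_flatBase {P}
    exact ⟨K₂, h P (Finset.mem_singleton_self P)⟩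
  · intro K₁ P hr f hf
    obtain ⟨K₂, hK₂, h12, hf₂⟩ :=
      exists_isBase_mem_baseChartSet A E hE hgenE s hs hsmap hf K₁ hr.1
    exact ⟨K₂, hr.mono hK₂ h12, baseChartSet_mono A E hE s hs hsmap h12,
      baseChartSet_mono A E hE (invCoord s) (invCoord_mem E s hs) (coeffMap_invCoord s hsmap) h12,
      hf₂⟩
  · intro K₁ P hr f hf
    obtain ⟨K₂, hK₂, h12, hf₂⟩ :=
      exists_isBase_mem_baseChartSet A E hE hgenE (invCoord s) (invCoord_mem E s hs)
        (coeffMap_invCoord s hsmap) hf K₁ hr.1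
    exact ⟨K₂, hr.mono hK₂ h12, baseChartSet_mono A E hE s hs hsmap h12,
      baseChartSet_mono A E hE (invCoord s) (invCoord_mem E s hs) (coeffMap_invCoord s hsmap) h12,
      hf₂⟩

include H c₀ hdeg hsmap in
/-- **uniqueness of the intrinsic two-chart centre.** -/
theorem tower_isTwoCentre_unique {P : Place Ω ↥(E Ω)} {Q Q' : Place (ResidueField ↥A) 𝔽b}
    (hQ : IsTwoCentre W ρΩ A (towerCoord E s hs Ω)
      (intSet A (towerCoord E s hs Ω)) (intSet A (towerCoord E s hs Ω)⁻¹) P Q)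
    (hQ' : IsTwoCentre W ρΩ A (towerCoord E s hs Ω)
      (intSet A (towerCoord E s hs Ω)) (intSet A (towerCoord E s hs Ω)⁻¹) P Q') : Q = Q' := by
  classical
  refine isTwoCentre_unique_of_bases (ι := IntermediateField ℚ Ω)
    (C₁ := fun K₁ => baseChartSet A E hE s hs K₁)
    (C₂ := fun K₁ => baseChartSet A E hE (invCoord s) (invCoord_mem E s hs) K₁)
    (rat := fun K₁ P => IsRatAbove ℓ E hE hgenE K₁ P) ?_ ?_ ?_ ?_ hQ hQ'
  · intro K₁
    exact baseChartSet_subset_intSet A E hE s hs hsmap K₁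
  · intro K₁
    exact baseChartSet_subset_intSet A E hE (invCoord s) (invCoord_mem E s hs)
      (coeffMap_invCoord s hsmap) K₁
  · intro K₁ P hr Q Q' hQ hQ'
    exact H.uniq K₁ hr.1 P (hr.2 K₁ hr.1 le_rfl) Q Q' hQ hQ'
  · intro P
    obtain ⟨K₂, -, -, h⟩ := exists_isRatAbove c₀ hdeg (flatBase ℓ) isBase_flatBase {P}
    exact ⟨K₂, h P (Finset.mem_singleton_self P)⟩

include H c₀ hdeg hsmap in
/-- the reduction map gives the intrinsic two-chart centres. -/
theorem tower_isTwoCentre_centreMap (Q₀ : Place (ResidueField ↥A) 𝔽b) (P : Place Ω ↥(E Ω)) :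
    IsTwoCentre W ρΩ A (towerCoord E s hs Ω)
      (intSet A (towerCoord E s hs Ω)) (intSet A (towerCoord E s hs Ω)⁻¹) P
      (centreMap W ρΩ A (towerCoord E s hs Ω) (intSet A (towerCoord E s hs Ω))
        (intSet A (towerCoord E s hs Ω)⁻¹) Q₀ P) :=
  isTwoCentre_centreMap Q₀ (tower_exists_isTwoCentre hsmap H c₀ hdeg P)

include H c₀ hdeg hsmap in
theorem tower_centreMap_eq (Q₀ : Place (ResidueField ↥A) 𝔽b) {P : Place Ω ↥(E Ω)}
    {Q : Place (ResidueField ↥A) 𝔽b}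
    (hQ : IsTwoCentre W ρΩ A (towerCoord E s hs Ω)
      (intSet A (towerCoord E s hs Ω)) (intSet A (towerCoord E s hs Ω)⁻¹) P Q) :
    centreMap W ρΩ A (towerCoord E s hs Ω) (intSet A (towerCoord E s hs Ω))
        (intSet A (towerCoord E s hs Ω)⁻¹) Q₀ P = Q :=
  tower_isTwoCentre_unique hsmap H c₀ hdeg (tower_isTwoCentre_centreMap hsmap H c₀ hdeg Q₀ P) hQ

include H c₀ hdeg hsmap in
set_option maxHeartbeats 1600000 in
/-- **the reduction axiom** `r_*(div y) = div (ρ y)`, in the literal form of `GoodRed.r_div`. -/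
theorem tower_mapDomain_centreMap (Q₀ : Place (ResidueField ↥A) 𝔽b) (y : ↥W) (hy : ρΩ y ≠ 0)
    (D : Divisor Ω ↥(E Ω)) (hD : ∀ P, D P = P.ord (y : ↥(E Ω)))
    (Q : Place (ResidueField ↥A) 𝔽b) :
    Finsupp.mapDomain (centreMap W ρΩ A (towerCoord E s hs Ω) (intSet A (towerCoord E s hs Ω))
      (intSet A (towerCoord E s hs Ω)⁻¹) Q₀) D Q = Q.ord (ρΩ y) := by
  classical
  have key : ∀ (f : ↥(E Ω)) (hfW : f ∈ W), ρΩ ⟨f, hfW⟩ ≠ 0 → (∀ P, D P = P.ord f) →
      Finsupp.mapDomain (centreMap W ρΩ A (towerCoord E s hs Ω) (intSet A (towerCoord E s hs Ω))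
        (intSet A (towerCoord E s hs Ω)⁻¹) Q₀) D Q = Q.ord (ρΩ ⟨f, hfW⟩) := by
    intro f hfW hf0 hDf
    obtain ⟨K₁, hK₁, -, -, f₁, hf₁, hff⟩ :=
      IsBase.exists_ge_descent_tower E hE hgenE (isBase_flatBase (ℓ := ℓ)) ∅ f.2
    obtain ⟨K₂, hK₂, h12, hrat⟩ := exists_isRatAbove (hE := hE) (hgenE := hgenE) c₀ hdeg K₁ hK₁
      D.support
    have hy₂ : towerBC E hE K₂ (towerIncl E hE h12 ⟨f₁, hf₁⟩) = f := by
      rw [towerBC_towerIncl]
      exact Subtype.ext hff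
    subst hy₂
    refine H.div K₂ hK₂ _ (fun P _ => tower_isTwoCentre_centreMap hsmap H c₀ hdeg Q₀ P)
      (towerIncl E hE h12 ⟨f₁, hf₁⟩) hfW hf0 ?_ D hDf Q
    intro P hP
    have hPs : P ∈ D.support := by
      rw [Finsupp.mem_support_iff, hDf]
      exact hP
    exact (hrat P hPs).2 K₂ hK₂ le_rfl
  exact key (y : ↥(E Ω)) y.2 hy hD

variable (hρs : Function.Surjective ρΩ)
  (hρA : ∀ (a : ↥A) (h : algebraMap Ω ↥(E Ω) (a : Ω) ∈ W),
    ρΩ ⟨algebraMap Ω ↥(E Ω) (a : Ω), h⟩ = algebraMap (ResidueField ↥A) 𝔽b (residue ↥A a))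
  (hAW : ∀ a : Ω, a ∈ A → algebraMap Ω ↥(E Ω) a ∈ W)

include H c₀ hdeg hsmap hρs hρA hAW in
/-- **equivariance of the reduction map** under the semilinear automorphisms preserving `A`, `W`
and fixing the coordinate, in the literal form of `GoodRed.IsAut.r_smul`. -/
theorem tower_r_smul (Q₀ : Place (ResidueField ↥A) 𝔽b) {g : SemilinearAut Ω ↥(E Ω)}
    (hg : PreservesGauss A W g) (hgs : g • towerCoord E s hs Ω = towerCoord E s hs Ω)
    (P : Place Ω ↥(E Ω)) (f : ↥W) (hf : g • (f : ↥(E Ω)) ∈ W) :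
    ρΩ ⟨g • (f : ↥(E Ω)), hf⟩ ∈
        (centreMap W ρΩ A (towerCoord E s hs Ω) (intSet A (towerCoord E s hs Ω))
          (intSet A (towerCoord E s hs Ω)⁻¹) Q₀ (g • P)).toValuationSubring ↔
      ρΩ f ∈ (centreMap W ρΩ A (towerCoord E s hs Ω) (intSet A (towerCoord E s hs Ω))
          (intSet A (towerCoord E s hs Ω)⁻¹) Q₀ P).toValuationSubring := by
  have hgs' : g • (towerCoord E s hs Ω)⁻¹ = (towerCoord E s hs Ω)⁻¹ := by
    rw [smul_inv'', hgs]
  exact r_smul_of_isTwoCentre hρs hρA hAW hg hgs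
    (fun f hf => inv_smul_mem_intSet hg hgs hf) (fun f hf => inv_smul_mem_intSet hg hgs' hf) _
    (fun P => tower_isTwoCentre_centreMap hsmap H c₀ hdeg Q₀ P)
    (fun P Q Q' hQ hQ' => tower_isTwoCentre_unique hsmap H c₀ hdeg hQ hQ') P f hf

include H c₀ hdeg hsmap hρA hAW in
/-- **evaluation commutes with reduction, first chart**: at a place where the coordinate has an
integral value, the values in `A` of the test functions of the first chart reduce to the values at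
the reduced point. -/
theorem tower_hasValueAt_centreMap₁ (Q₀ : Place (ResidueField ↥A) 𝔽b) {P : Place Ω ↥(E Ω)}
    (hint : HasIntValue A (towerCoord E s hs Ω) P) {f : ↥(E Ω)}
    (hf : f ∈ intSet A (towerCoord E s hs Ω)) (hfW : f ∈ W) (a : ↥A)
    (hv : HasValueAt P f (a : Ω)) :
    HasValueAt (centreMap W ρΩ A (towerCoord E s hs Ω) (intSet A (towerCoord E s hs Ω))
      (intSet A (towerCoord E s hs Ω)⁻¹) Q₀ P) (ρΩ ⟨f, hfW⟩) (residue ↥A a) :=
  ((tower_isTwoCentre_centreMap hsmap H c₀ hdeg Q₀ P).isCentreIn_of_hasIntValue hint).hasValueAt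
    hρA hfW a (hAW _ a.2) (sub_algebraMap_mem_intSet hf a.2) hv

include H c₀ hdeg hsmap hρA hAW in
/-- **evaluation commutes with reduction, second chart.** -/
theorem tower_hasValueAt_centreMap₂ (Q₀ : Place (ResidueField ↥A) 𝔽b) {P : Place Ω ↥(E Ω)}
    (hint : ¬ HasIntValue A (towerCoord E s hs Ω) P) {f : ↥(E Ω)}
    (hf : f ∈ intSet A (towerCoord E s hs Ω)⁻¹) (hfW : f ∈ W) (a : ↥A)
    (hv : HasValueAt P f (a : Ω)) :
    HasValueAt (centreMap W ρΩ A (towerCoord E s hs Ω) (intSet A (towerCoord E s hs Ω))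
      (intSet A (towerCoord E s hs Ω)⁻¹) Q₀ P) (ρΩ ⟨f, hfW⟩) (residue ↥A a) :=
  ((tower_isTwoCentre_centreMap hsmap H c₀ hdeg Q₀ P).isCentreIn_of_not_hasIntValue
    hint).hasValueAt hρA hfW a (hAW _ a.2) (sub_algebraMap_mem_intSet hf a.2) hv

include H c₀ hdeg hsmap hρA hAW in
/-- **the chart of a point is determined by its reduction**: the coordinate has an integral value
at `P` iff the reduced coordinate is regular at the reduced point. -/
theorem tower_hasIntValue_iff (Q₀ : Place (ResidueField ↥A) 𝔽b) (P : Place Ω ↥(E Ω))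
    (hsW : towerCoord E s hs Ω ∈ W) (hsW' : (towerCoord E s hs Ω)⁻¹ ∈ W) :
    HasIntValue A (towerCoord E s hs Ω) P ↔
      ρΩ ⟨towerCoord E s hs Ω, hsW⟩ ∈
        (centreMap W ρΩ A (towerCoord E s hs Ω) (intSet A (towerCoord E s hs Ω))
          (intSet A (towerCoord E s hs Ω)⁻¹) Q₀ P).toValuationSubring := by
  have hQ := tower_isTwoCentre_centreMap hsmap H c₀ hdeg Q₀ P
  constructor
  · intro hint
    obtain ⟨-, hW', hmem, -⟩ := (hQ.isCentreIn_of_hasIntValue hint) _ self_mem_intSet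
    exact hmem
  · intro hmem
    by_contra hint
    have hs0 : towerCoord E s hs Ω ≠ 0 := by
      intro h0
      apply hint
      refine ⟨0, A.zero_mem, ?_⟩
      rw [h0, HasValueAt.iff_ord]
      left
      simp
    have h0 := hQ.hasValueAt_inv_coord hρA hAW (hdeg P) hs0 hsW'
      (fun a ha => sub_algebraMap_mem_intSet self_mem_intSet ha) hint
    have hmul : ρΩ ⟨towerCoord E s hs Ω, hsW⟩ * ρΩ ⟨(towerCoord E s hs Ω)⁻¹, hsW'⟩ = 1 := by
      rw [← map_mul, ← map_one ρΩ]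
      congr 1
      exact Subtype.ext (mul_inv_cancel₀ hs0)
    have hne : ρΩ ⟨(towerCoord E s hs Ω)⁻¹, hsW'⟩ ≠ 0 := right_ne_zero_of_mul_eq_one hmul
    have hne' : ρΩ ⟨towerCoord E s hs Ω, hsW⟩ ≠ 0 := left_ne_zero_of_mul_eq_one hmul
    rw [HasValueAt.iff_ord, map_zero, sub_zero] at h0
    rcases h0 with h0 | h0
    · exact hne h0
    · have h1 := PlaceAux.ord_nonneg_of_mem _ hmem
      have h2 : ρΩ ⟨(towerCoord E s hs Ω)⁻¹, hsW'⟩ = (ρΩ ⟨towerCoord E s hs Ω, hsW⟩)⁻¹ :=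
        eq_inv_of_mul_eq_one_right hmul
      rw [h2, Place.ord_inv] at h0
      omega

end TowerRed

section ChartEq

variable (A : ValuationSubring Ω)
  (E : ∀ (K : Type) [Field K] [Algebra ℚ K], IntermediateField K (LaurentSeries K))
  (hE : ∀ (K L : Type) [Field K] [Field L] [Algebra ℚ K] [Algebra ℚ L] (φ : K →+* L),
    ∀ x ∈ E K, coeffMap φ x ∈ E L)
  (s : ∀ (K : Type) [Field K] [Algebra ℚ K], LaurentSeries K)
  (hs : ∀ (K : Type) [Field K] [Algebra ℚ K], s K ∈ E K)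

/-- **the image of the chart `integralClosure R₁[σ] E(K₁)` of GEO is the chart image
`baseChartSet`** (`σ ∈ K = K₁(s)` the coordinate, `R₁` an abstract copy of `A ∩ K₁`). -/
theorem chartSet_eq_baseChartSet (K₁ : IntermediateField ℚ Ω) {R : Type*} [CommRing R]
    [Algebra R ↥K₁]
    (hR : ∀ x : ↥K₁, x ∈ baseRing A K₁ ↔ ∃ r : R, algebraMap R ↥K₁ r = x)
    {K : Type*} [Field K]
    [Algebra ↥K₁ K] [Algebra R K] [IsScalarTower R ↥K₁ K]
    [Algebra K ↥(E ↥K₁)] [IsScalarTower ↥K₁ K ↥(E ↥K₁)]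
    [Algebra R ↥(E ↥K₁)] [IsScalarTower R K ↥(E ↥K₁)]
    [IsScalarTower R ↥K₁ ↥(E ↥K₁)]
    (σ : K) (hσ : algebraMap K ↥(E ↥K₁) σ = towerCoord E s hs ↥K₁) :
    chartSet (towerBC E hE K₁)
      ↥(integralClosure ↥(Algebra.adjoin R {σ}) ↥(E ↥K₁)) =
      baseChartSet A E hE s hs K₁ := by
  have hcl : Subring.closure (Set.range (algebraMap R ↥(E ↥K₁)) ∪
      {algebraMap K ↥(E ↥K₁) σ}) = baseIntRing A E s hs K₁ := by
    rw [baseIntRing, hσ]
    congr 2
    ext x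
    constructor
    · rintro ⟨r, rfl⟩
      obtain hr := (hR (algebraMap R ↥K₁ r)).mpr ⟨r, rfl⟩
      exact ⟨⟨algebraMap R ↥K₁ r, hr⟩, (IsScalarTower.algebraMap_apply R ↥K₁ ↥(E ↥K₁) r).symm⟩
    · rintro ⟨r, rfl⟩
      obtain ⟨r', hr'⟩ := (hR (r : ↥K₁)).mp r.2
      exact ⟨r', by rw [IsScalarTower.algebraMap_apply R ↥K₁ ↥(E ↥K₁) r', hr']⟩
  ext f
  constructor
  · rintro ⟨b, rfl⟩
    refine ⟨(b : ↥(E ↥K₁)), ?_, rfl⟩
    have := (isIntegral_adjoin_iff_closure (R := R) σ (b : ↥(E ↥K₁))).mp b.2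
    rwa [hcl] at this
  · rintro ⟨b, hb, rfl⟩
    rw [← hcl] at hb
    exact ⟨⟨b, (isIntegral_adjoin_iff_closure (R := R) σ b).mpr hb⟩, rfl⟩

end ChartEq

end Fermat.Agent.FG
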