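/-
FG (S19/S32) [E-RED-b] — helper1 — **the per-base package for the Hesse tower** `hesE`:
`hesTowerBaseHyps : TowerBaseHyps ℓ A (hesTower N) … (hesWE hA N hℓ3) (hesρ hA N hℓ3)`, from GEO at the
bases (`geoHyps_hesE_baseRing`, `exists_gauss_hesE_baseRing`), the comparison `hesPsi` of the special
fibres (helper6) and the per-base package `ERED_helper1_GeoPkg`.
-/
import Mathlib
import Fermat.Agent.FG.ERED_helper1_TowerRed
import Fermat.Agent.FG.ERED_helper1_GeoPkg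
import Fermat.Agent.FG.EDEF_helper6_Psi
import Fermat.Agent.FG.COH_helper8_Transfer

set_option autoImplicit false
set_option linter.unusedSectionVars false
set_option linter.style.haveILetI false
set_option synthInstance.maxHeartbeats 400000

open HahnSeries IntermediateField ModularCurve IsLocalRing AlgebraicCurve Polynomial

namespace Fermat.Agent.FG

open Fermat.Agent.JA Fermat.Agent.Igusa Fermat.Agent.SS Fermat.Agent.FF

open scoped Fermat.Agent.JA.Host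

/-- `Ω = AlgebraicClosure ℚ`. -/
local notation "Ω" => AlgebraicClosure ℚ

section Hes

variable {ℓ : ℕ} [Fact ℓ.Prime] {A : ValuationSubring Ω} (hA : A.LiesOverPrime ℓ)
  (N : ℕ) [NeZero N]

/-- functoriality of the Hesse tower. -/
theorem hesTower_map (K L : Type) [Field K] [Field L] [Algebra ℚ K] [Algebra ℚ L] (φ : K →+* L) :
    ∀ x ∈ hesTower N K, coeffMap φ x ∈ hesTower N L :=
  fun _ hx => coeffMap_mem_hesE φ N hx

/-- generation of the Hesse tower. -/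
theorem hesTower_gen (K L : Type) [Field K] [Field L] [Algebra ℚ K] [Algebra ℚ L] (φ : K →+* L) :
    hesTower N L ≤ IntermediateField.adjoin L
      (⇑(coeffMap φ) '' (hesTower N K : Set (LaurentSeries K))) :=
  hesE_le_adjoin_image φ N

/-- the Hesse coordinate as a functor. -/
noncomputable abbrev hesTCoord : ∀ (K : Type) [Field K] [Algebra ℚ K], LaurentSeries K :=
  fun K _ _ => hesT K

theorem hesTCoord_mem (K : Type) [Field K] [Algebra ℚ K] : hesTCoord K ∈ hesTower N K :=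
  hesT_mem_hesE N

theorem hesTCoord_map (K L : Type) [Field K] [Field L] [Algebra ℚ K] [Algebra ℚ L] (φ : K →+* L) :
    coeffMap φ (hesTCoord K) = hesTCoord L :=
  coeffMap_hesT φ

theorem towerBC_hesTower (K₁ : IntermediateField ℚ Ω) :
    towerBC (hesTower N) (hesTower_map N) K₁ = hesBC N K₁ := rfl

/-- the surjectivity of the comparison maps `ψ_{K₁}` (helper6's `EDEF_helper6_PsiBij`), as a
hypothesis. -/
def HesPsiSurj (hℓN : ¬ ℓ ∣ N) (hℓ3 : ℓ ≠ 3) : Prop :=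
  ∀ (K₁ : IntermediateField ℚ Ω) (hK₁ : IsBase ℓ K₁) [IsDiscreteValuationRing ↥(baseRing A K₁)]
    {ϖ : ↥(baseRing A K₁)} (hϖ : Irreducible ϖ) (𝒢t : ValuationSubring ↥(↥K₁)⟮hesT ↥K₁⟯)
    (h𝒢t : IsGaussAt ↥(baseRing A K₁) ϖ (AdjoinSimple.gen ↥K₁ (hesT ↥K₁)) 𝒢t)
    [IsLocalRing ↥(integralClosure ↥𝒢t ↥(hesE ↥K₁ N))],
    Function.Surjective (hesPsi hA N hℓN hK₁ hℓ3 hϖ 𝒢t h𝒢t)

set_option maxHeartbeats 3200000 in
/-- **the per-base package at a base `K₁`, Hesse tower.** -/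
theorem hes_base_package (hℓN : ¬ ℓ ∣ N) (hℓ3 : ℓ ≠ 3) (hψs : HesPsiSurj hA N hℓN hℓ3)
    (K₁ : IntermediateField ℚ Ω) (hK₁ : IsBase ℓ K₁) :
    (∀ P : Place Ω ↥(hesE Ω N),
      IsRatAt (hesTower N) (hesTower_map N) (hesTower_gen N) K₁ P →
      ∃ Q : Place (ResidueField ↥A) (hesEt hA N hℓ3),
        IsTwoCentre (hesWE hA N hℓ3) (hesρ hA N hℓ3) A
          (towerCoord (hesTower N) hesTCoord (hesTCoord_mem N) Ω)
          (baseChartSet A (hesTower N) (hesTower_map N) hesTCoord (hesTCoord_mem N) K₁)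
          (baseChartSet A (hesTower N) (hesTower_map N) (invCoord hesTCoord)
            (invCoord_mem (hesTower N) hesTCoord (hesTCoord_mem N)) K₁) P Q) ∧
    (∀ P : Place Ω ↥(hesE Ω N),
      IsRatAt (hesTower N) (hesTower_map N) (hesTower_gen N) K₁ P →
      ∀ Q Q' : Place (ResidueField ↥A) (hesEt hA N hℓ3),
        IsTwoCentre (hesWE hA N hℓ3) (hesρ hA N hℓ3) A
          (towerCoord (hesTower N) hesTCoord (hesTCoord_mem N) Ω)
          (baseChartSet A (hesTower N) (hesTower_map N) hesTCoord (hesTCoord_mem N) K₁)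
          (baseChartSet A (hesTower N) (hesTower_map N) (invCoord hesTCoord)
            (invCoord_mem (hesTower N) hesTCoord (hesTCoord_mem N)) K₁) P Q →
        IsTwoCentre (hesWE hA N hℓ3) (hesρ hA N hℓ3) A
          (towerCoord (hesTower N) hesTCoord (hesTCoord_mem N) Ω)
          (baseChartSet A (hesTower N) (hesTower_map N) hesTCoord (hesTCoord_mem N) K₁)
          (baseChartSet A (hesTower N) (hesTower_map N) (invCoord hesTCoord)
            (invCoord_mem (hesTower N) hesTCoord (hesTCoord_mem N)) K₁) P Q' → Q = Q') ∧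
    (∀ r : Place Ω ↥(hesE Ω N) → Place (ResidueField ↥A) (hesEt hA N hℓ3),
      (∀ P, IsRatAt (hesTower N) (hesTower_map N) (hesTower_gen N) K₁ P →
        IsTwoCentre (hesWE hA N hℓ3) (hesρ hA N hℓ3) A
          (towerCoord (hesTower N) hesTCoord (hesTCoord_mem N) Ω)
          (intSet A (towerCoord (hesTower N) hesTCoord (hesTCoord_mem N) Ω))
          (intSet A (towerCoord (hesTower N) hesTCoord (hesTCoord_mem N) Ω)⁻¹) P (r P)) →
      ∀ (y : ↥(hesE ↥K₁ N)) (hW : towerBC (hesTower N) (hesTower_map N) K₁ y ∈ hesWE hA N hℓ3),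
        hesρ hA N hℓ3 ⟨towerBC (hesTower N) (hesTower_map N) K₁ y, hW⟩ ≠ 0 →
        (∀ P : Place Ω ↥(hesE Ω N), P.ord (towerBC (hesTower N) (hesTower_map N) K₁ y) ≠ 0 →
          IsRatAt (hesTower N) (hesTower_map N) (hesTower_gen N) K₁ P) →
        ∀ D : Divisor Ω ↥(hesE Ω N),
          (∀ P, D P = P.ord (towerBC (hesTower N) (hesTower_map N) K₁ y)) →
          ∀ Q, Finsupp.mapDomain r D Q =
            Q.ord (hesρ hA N hℓ3 ⟨towerBC (hesTower N) (hesTower_map N) K₁ y, hW⟩)) := by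
  classical
  haveI := hK₁.isDiscreteValuationRing hA
  haveI : CharZero ↥(baseRing A K₁) := charZero_valuationSubring_of_algebraRat _
  obtain ⟨ϖ, hϖ⟩ := IsDiscreteValuationRing.exists_irreducible ↥(baseRing A K₁)
  obtain ⟨ω, -, hgeo⟩ := geoHyps_hesE_baseRing hA N hℓN hK₁ hℓ3 hϖ
  obtain ⟨S', hgeo'⟩ := hgeo.inv
  obtain ⟨𝒢t, h𝒢t, h𝒢t', -⟩ := exists_gauss_hesE_baseRing hA (K₁ := K₁) hℓ3 hϖ
  haveI := hgeo.isLocalRing 𝒢t h𝒢t
  set res : ↥(baseRing A K₁) →+* ResidueField ↥A := o1res A K₁ with hres_def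
  have hres : Function.Surjective res :=
    (hK₁.baseResidueMap_bijective hA).2.comp IsLocalRing.residue_surjective
  set ψ := hesPsi hA N hℓN hK₁ hℓ3 hϖ 𝒢t h𝒢t with hψ_def
  have hψs' : Function.Surjective ψ := hψs K₁ hK₁ hϖ 𝒢t h𝒢t
  -- compatibility of `ψ` with `ρ`
  have hψW : ∀ (b : ↥(hesE ↥K₁ N)) (hb : IsIntegral ↥𝒢t b),
      ∃ hW : hesBC N K₁ b ∈ hesWE hA N hℓ3,
        hesρ hA N hℓ3 ⟨hesBC N K₁ b, hW⟩ = ψ (IsLocalRing.residue _ ⟨b, hb⟩) := by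
    intro b hb
    refine ⟨(hesPsiHom hA N hℓN hK₁ hℓ3 hϖ 𝒢t h𝒢t ⟨b, hb⟩).2, ?_⟩
    rw [hψ_def, hesPsi_residue]
    rfl
  have hψ' : ∀ (b : ↥(hesE ↥K₁ N)) (hb : IsIntegral ↥𝒢t b),
      ∃ hW : hesBC N K₁ b ∈ hesWE hA N hℓ3,
        ψ (IsLocalRing.residue _ ⟨b, hb⟩) = hesρ hA N hℓ3 ⟨hesBC N K₁ b, hW⟩ := by
    intro b hb
    obtain ⟨hW, e⟩ := hψW b hb
    exact ⟨hW, e.symm⟩
  set ι : ↥(baseRing A K₁) →+* Ω := A.subtype.comp (baseIncl A K₁) with hι_def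
  have hBC : ∀ r : ↥(baseRing A K₁), hesBC N K₁ (algebraMap ↥(baseRing A K₁) ↥(hesE ↥K₁ N) r) =
      algebraMap Ω ↥(hesE Ω N) (ι r) := by
    intro r
    rw [IsScalarTower.algebraMap_apply ↥(baseRing A K₁) ↥K₁ ↥(hesE ↥K₁ N), hesBC_algebraMap]
    rfl
  have hψk := comparison_const 𝒢t h𝒢t res (hesWE hA N hℓ3) (hesρ hA N hℓ3) (hesBC N K₁) ι hBC ψ
    hψ' (fun r => (baseIncl A K₁ r).2) (fun r => rfl) (hesρ_algebraMap hA N hℓ3)
  have hAK : ∀ c : ↥K₁, algebraMap ↥K₁ Ω c ∈ A ↔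
      ∃ r : ↥(baseRing A K₁), algebraMap ↥(baseRing A K₁) ↥K₁ r = c := by
    intro c
    constructor
    · intro hc
      exact ⟨⟨c, hc⟩, rfl⟩
    · rintro ⟨r, rfl⟩
      exact r.2
  have hπres : res ϖ = 0 := by
    have hm : ϖ ∈ IsLocalRing.maximalIdeal ↥(baseRing A K₁) :=
      (IsLocalRing.mem_maximalIdeal ϖ).mpr hϖ.not_isUnit
    rw [hres_def, o1res, RingHom.comp_apply, (IsLocalRing.residue_eq_zero_iff ϖ).mpr hm, map_zero]
  -- the coordinate and the chart images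
  have hcoord : hesBC N K₁ (algebraMap ↥(↥K₁)⟮hesT ↥K₁⟯ ↥(hesE ↥K₁ N)
      (AdjoinSimple.gen ↥K₁ (hesT ↥K₁))) =
      towerCoord (hesTower N) hesTCoord (hesTCoord_mem N) Ω :=
    Subtype.ext (coeffMap_hesT (algebraMap ↥K₁ Ω))
  have hσ : algebraMap ↥(↥K₁)⟮hesT ↥K₁⟯ ↥(hesE ↥K₁ N) (AdjoinSimple.gen ↥K₁ (hesT ↥K₁)) =
      towerCoord (hesTower N) hesTCoord (hesTCoord_mem N) ↥K₁ := Subtype.ext rfl
  have hσ' : algebraMap ↥(↥K₁)⟮hesT ↥K₁⟯ ↥(hesE ↥K₁ N) (AdjoinSimple.gen ↥K₁ (hesT ↥K₁))⁻¹ =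
      towerCoord (hesTower N) (invCoord hesTCoord)
        (invCoord_mem (hesTower N) hesTCoord (hesTCoord_mem N)) ↥K₁ := by
    rw [map_inv₀, hσ]
    rfl
  have hR : ∀ x : ↥K₁, x ∈ baseRing A K₁ ↔
      ∃ r : ↥(baseRing A K₁), algebraMap ↥(baseRing A K₁) ↥K₁ r = x := by
    intro x
    constructor
    · intro hx
      exact ⟨⟨x, hx⟩, rfl⟩
    · rintro ⟨r, rfl⟩
      exact r.2
  have hC₁ := chartSet_eq_baseChartSet A (hesTower N) (hesTower_map N) hesTCoord (hesTCoord_mem N)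
    K₁ (R := ↥(baseRing A K₁)) hR (AdjoinSimple.gen ↥K₁ (hesT ↥K₁)) hσ
  have hC₂ := chartSet_eq_baseChartSet A (hesTower N) (hesTower_map N) (invCoord hesTCoord)
    (invCoord_mem (hesTower N) hesTCoord (hesTCoord_mem N)) K₁ (R := ↥(baseRing A K₁)) hR
    (AdjoinSimple.gen ↥K₁ (hesT ↥K₁))⁻¹ hσ'
  refine ⟨?_, ?_, ?_⟩
  · intro P hrat
    obtain ⟨Q, hQ⟩ := geo_exists_isTwoCentre hgeo hgeo' 𝒢t h𝒢t h𝒢t' res hres ψ
      (hesBC_algebraMap N K₁) (closure_range_hesBC N K₁) hAK hπres hψs' hψk hψW P hrat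
    refine ⟨Q, ?_⟩
    rw [← hC₁, ← hC₂, ← hcoord]
    exact hQ
  · intro P hrat Q Q' hQ hQ'
    rw [← hC₁, ← hC₂] at hQ hQ'
    exact geo_isTwoCentre_unique hgeo hgeo' 𝒢t h𝒢t h𝒢t' res hres ψ
      (hesBC_algebraMap N K₁) (closure_range_hesBC N K₁) hπres hψs' hψk hψW hrat hQ hQ'
  · intro r hr y hW hy0 hrat D hD Q
    have hy := (isIntegral_hesE_iff_mem_gaussInt hA N hℓN hK₁ hℓ3 hϖ 𝒢t h𝒢t y).2
      ((hesBC_mem_hesWE_iff hA N K₁ hℓ3 y).1 hW)
    obtain ⟨hW', e⟩ := hψW y hy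
    have hres0 := fun h0 => hy0 (e.trans h0)
    have h𝔅₁ := hC₁.subset.trans (baseChartSet_subset_intSet A (hesTower N) (hesTower_map N)
      hesTCoord (hesTCoord_mem N) hesTCoord_map K₁)
    have h𝔅₂ := hC₂.subset.trans (baseChartSet_subset_intSet A (hesTower N) (hesTower_map N)
      (invCoord hesTCoord) (invCoord_mem (hesTower N) hesTCoord (hesTCoord_mem N))
      (coeffMap_invCoord hesTCoord hesTCoord_map) K₁)
    have hr' : ∀ P : Place Ω ↥(hesE Ω N),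
        IsRationalPlace (restrictBC (hesBC N K₁) (hesBC_algebraMap N K₁)
          (closure_range_hesBC N K₁) P) →
        IsTwoCentre (hesWE hA N hℓ3) (hesρ hA N hℓ3) A
          (hesBC N K₁ (algebraMap ↥(↥K₁)⟮hesT ↥K₁⟯ ↥(hesE ↥K₁ N)
            (AdjoinSimple.gen ↥K₁ (hesT ↥K₁))))
          (intSet A (towerCoord (hesTower N) hesTCoord (hesTCoord_mem N) Ω))
          (intSet A (towerCoord (hesTower N) hesTCoord (hesTCoord_mem N) Ω)⁻¹) P (r P) := by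
      intro P hP
      rw [hcoord]
      exact hr P hP
    have := geoT_mapDomain_eq_ord hgeo hgeo' 𝒢t h𝒢t h𝒢t' res hres ψ
      (hesBC_algebraMap N K₁) (closure_range_hesBC N K₁) hAK hπres hψs' hψk hψW
      (𝔅₁ := intSet A (towerCoord (hesTower N) hesTCoord (hesTCoord_mem N) Ω))
      (𝔅₂ := intSet A (towerCoord (hesTower N) hesTCoord (hesTCoord_mem N) Ω)⁻¹)
      h𝔅₁ h𝔅₂ r hr' y hy hres0 hrat D hD Q
    exact this.trans (congrArg Q.ord e.symm)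

/-- **the per-base packages of the Hesse tower.** -/
theorem hesTowerBaseHyps (hℓN : ¬ ℓ ∣ N) (hℓ3 : ℓ ≠ 3) (hψs : HesPsiSurj hA N hℓN hℓ3) :
    TowerBaseHyps ℓ A (hesTower N) (hesTower_map N) (hesTower_gen N) hesTCoord (hesTCoord_mem N)
      (hesWE hA N hℓ3) (hesρ hA N hℓ3) where
  ex K₁ hK₁ := (hes_base_package hA N hℓN hℓ3 hψs K₁ hK₁).1
  uniq K₁ hK₁ := (hes_base_package hA N hℓN hℓ3 hψs K₁ hK₁).2.1
  div K₁ hK₁ := (hes_base_package hA N hℓN hℓ3 hψs K₁ hK₁).2.2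

/-- the Hesse coordinate as an element of `hesE Ω N`. -/
noncomputable def hesTΩ : ↥(hesE Ω N) := towerCoord (hesTower N) hesTCoord (hesTCoord_mem N) Ω

theorem coe_hesTΩ : ((hesTΩ N : ↥(hesE Ω N)) : LaurentSeries Ω) = hesT Ω := rfl

/-- **the reduction map of points of the Hesse tower** (`Q₀` a junk value, never used). -/
noncomputable def hesR (hℓ3 : ℓ ≠ 3) (Q₀ : Place (ResidueField ↥A) (hesEt hA N hℓ3)) :
    Place Ω ↥(hesE Ω N) → Place (ResidueField ↥A) (hesEt hA N hℓ3) :=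
  centreMap (hesWE hA N hℓ3) (hesρ hA N hℓ3) A (hesTΩ N) (intSet A (hesTΩ N))
    (intSet A (hesTΩ N)⁻¹) Q₀

section API

variable (hℓN : ¬ ℓ ∣ N) (hℓ3 : ℓ ≠ 3) (hψs : HesPsiSurj hA N hℓN hℓ3)
  (Q₀ : Place (ResidueField ↥A) (hesEt hA N hℓ3))

include hℓN hψs in
/-- `hesR P` is the intrinsic two-chart centre of `P`. -/
theorem hesR_isTwoCentre (P : Place Ω ↥(hesE Ω N)) :
    IsTwoCentre (hesWE hA N hℓ3) (hesρ hA N hℓ3) A (hesTΩ N) (intSet A (hesTΩ N))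
      (intSet A (hesTΩ N)⁻¹) P (hesR hA N hℓ3 Q₀ P) :=
  tower_isTwoCentre_centreMap hesTCoord_map (hesTowerBaseHyps hA N hℓN hℓ3 hψs)
    (hesCoordBase N (flatBase ℓ)) (bcd_deg_eq_one_hesE N) Q₀ P

include hℓN hψs in
/-- characterisation of `hesR P`. -/
theorem hesR_eq_of_isTwoCentre {P : Place Ω ↥(hesE Ω N)}
    {Q : Place (ResidueField ↥A) (hesEt hA N hℓ3)}
    (hQ : IsTwoCentre (hesWE hA N hℓ3) (hesρ hA N hℓ3) A (hesTΩ N) (intSet A (hesTΩ N))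
      (intSet A (hesTΩ N)⁻¹) P Q) : hesR hA N hℓ3 Q₀ P = Q :=
  tower_centreMap_eq hesTCoord_map (hesTowerBaseHyps hA N hℓN hℓ3 hψs)
    (hesCoordBase N (flatBase ℓ)) (bcd_deg_eq_one_hesE N) Q₀ hQ

include hℓN hψs in
/-- **the reduction axiom** (`GoodRed.r_div`) for the Hesse tower. -/
theorem hesR_div (y : ↥(hesWE hA N hℓ3)) (hy : hesρ hA N hℓ3 y ≠ 0) (D : Divisor Ω ↥(hesE Ω N))
    (hD : ∀ P, D P = P.ord (y : ↥(hesE Ω N))) (Q : Place (ResidueField ↥A) (hesEt hA N hℓ3)) :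
    Finsupp.mapDomain (hesR hA N hℓ3 Q₀) D Q = Q.ord (hesρ hA N hℓ3 y) :=
  tower_mapDomain_centreMap hesTCoord_map (hesTowerBaseHyps hA N hℓN hℓ3 hψs)
    (hesCoordBase N (flatBase ℓ)) (bcd_deg_eq_one_hesE N) Q₀ y hy D hD Q

include hℓN hψs in
/-- **equivariance** (`GoodRed.IsAut.r_smul`) for the semilinear automorphisms preserving `A`,
`hesWE` and fixing the Hesse coordinate. -/
theorem hesR_smul {g : SemilinearAut Ω ↥(hesE Ω N)} (hg : PreservesGauss A (hesWE hA N hℓ3) g)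
    (hgs : g • hesTΩ N = hesTΩ N) (P : Place Ω ↥(hesE Ω N)) (f : ↥(hesWE hA N hℓ3))
    (hf : g • (f : ↥(hesE Ω N)) ∈ hesWE hA N hℓ3) :
    hesρ hA N hℓ3 ⟨g • (f : ↥(hesE Ω N)), hf⟩ ∈
        (hesR hA N hℓ3 Q₀ (g • P)).toValuationSubring ↔
      hesρ hA N hℓ3 f ∈ (hesR hA N hℓ3 Q₀ P).toValuationSubring :=
  tower_r_smul hesTCoord_map (hesTowerBaseHyps hA N hℓN hℓ3 hψs)
    (hesCoordBase N (flatBase ℓ)) (bcd_deg_eq_one_hesE N) (hesρ_surjective hA N hℓ3)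
    (hesρ_algebraMap hA N hℓ3) (fun a ha => (algebraMap_mem_hesWE_iff hA N hℓ3 a).mpr ha) Q₀ hg hgs
    P f hf

include hℓN hψs in
/-- evaluation commutes with reduction (first chart). -/
theorem hesR_hasValueAt₁ {P : Place Ω ↥(hesE Ω N)} (hint : HasIntValue A (hesTΩ N) P)
    {f : ↥(hesE Ω N)} (hf : f ∈ intSet A (hesTΩ N)) (hfW : f ∈ hesWE hA N hℓ3) (a : ↥A)
    (hv : HasValueAt P f (a : Ω)) :
    HasValueAt (hesR hA N hℓ3 Q₀ P) (hesρ hA N hℓ3 ⟨f, hfW⟩) (residue ↥A a) :=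
  tower_hasValueAt_centreMap₁ hesTCoord_map (hesTowerBaseHyps hA N hℓN hℓ3 hψs)
    (hesCoordBase N (flatBase ℓ)) (bcd_deg_eq_one_hesE N)
    (hesρ_algebraMap hA N hℓ3) (fun a ha => (algebraMap_mem_hesWE_iff hA N hℓ3 a).mpr ha) Q₀ hint
    hf hfW a hv

include hℓN hψs in
/-- evaluation commutes with reduction (second chart). -/
theorem hesR_hasValueAt₂ {P : Place Ω ↥(hesE Ω N)} (hint : ¬ HasIntValue A (hesTΩ N) P)
    {f : ↥(hesE Ω N)} (hf : f ∈ intSet A (hesTΩ N)⁻¹) (hfW : f ∈ hesWE hA N hℓ3) (a : ↥A)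
    (hv : HasValueAt P f (a : Ω)) :
    HasValueAt (hesR hA N hℓ3 Q₀ P) (hesρ hA N hℓ3 ⟨f, hfW⟩) (residue ↥A a) :=
  tower_hasValueAt_centreMap₂ hesTCoord_map (hesTowerBaseHyps hA N hℓN hℓ3 hψs)
    (hesCoordBase N (flatBase ℓ)) (bcd_deg_eq_one_hesE N)
    (hesρ_algebraMap hA N hℓ3) (fun a ha => (algebraMap_mem_hesWE_iff hA N hℓ3 a).mpr ha) Q₀ hint
    hf hfW a hv

include hℓN hψs in
/-- the chart of a point is determined by its reduction. -/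
theorem hesR_hasIntValue_iff (P : Place Ω ↥(hesE Ω N)) (hsW : hesTΩ N ∈ hesWE hA N hℓ3)
    (hsW' : (hesTΩ N)⁻¹ ∈ hesWE hA N hℓ3) :
    HasIntValue A (hesTΩ N) P ↔
      hesρ hA N hℓ3 ⟨hesTΩ N, hsW⟩ ∈ (hesR hA N hℓ3 Q₀ P).toValuationSubring :=
  tower_hasIntValue_iff hesTCoord_map (hesTowerBaseHyps hA N hℓN hℓ3 hψs)
    (hesCoordBase N (flatBase ℓ)) (bcd_deg_eq_one_hesE N)
    (hesρ_algebraMap hA N hℓ3) (fun a ha => (algebraMap_mem_hesWE_iff hA N hℓ3 a).mpr ha) Q₀ P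
    hsW hsW'

end API

end Hes

end Fermat.Agent.FG
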