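/-
FG (S19/S32) [E-RED-b] — helper1 — **the per-base package for the Legendre tower** `legE`:
`legTowerBaseHyps : TowerBaseHyps ℓ A (legTower N) … (legWE hA N hℓ2) (legρ hA N hℓ2)`, from GEO at the
bases (`geoHyps_legE_baseRing`, `exists_gauss_legE_baseRing`), the comparison `legPsi` of the special
fibres (helper6) and the per-base package `ERED_helper1_GeoPkg`.
-/
import Mathlib
import Fermat.Agent.FG.ERED_helper1_TowerRed
import Fermat.Agent.FG.ERED_helper1_GeoPkg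
import Fermat.Agent.FG.EDEF_helper6_Psi
import Fermat.Agent.FG.COH_helper8_Transfer

set_option autoImplicit false
set_option linter.unusedSectionVars false
set_option linter.style.haveILetI false
set_option synthInstance.maxHeartbeats 400000

open HahnSeries IntermediateField ModularCurve IsLocalRing AlgebraicCurve Polynomial

namespace Fermat.Agent.FG

open Fermat.Agent.JA Fermat.Agent.Igusa Fermat.Agent.SS Fermat.Agent.FF

open scoped Fermat.Agent.JA.Host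

/-- `Ω = AlgebraicClosure ℚ`. -/
local notation "Ω" => AlgebraicClosure ℚ

section Leg

variable {ℓ : ℕ} [Fact ℓ.Prime] {A : ValuationSubring Ω} (hA : A.LiesOverPrime ℓ)
  (N : ℕ) [NeZero N]

/-- functoriality of the Legendre tower. -/
theorem legTower_map (K L : Type) [Field K] [Field L] [Algebra ℚ K] [Algebra ℚ L] (φ : K →+* L) :
    ∀ x ∈ legTower N K, coeffMap φ x ∈ legTower N L :=
  fun _ hx => coeffMap_mem_legE φ N hx

/-- generation of the Legendre tower. -/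
theorem legTower_gen (K L : Type) [Field K] [Field L] [Algebra ℚ K] [Algebra ℚ L] (φ : K →+* L) :
    legTower N L ≤ IntermediateField.adjoin L
      (⇑(coeffMap φ) '' (legTower N K : Set (LaurentSeries K))) :=
  legE_le_adjoin_image φ N

/-- the Legendre coordinate as a functor. -/
noncomputable abbrev legTCoord : ∀ (K : Type) [Field K] [Algebra ℚ K], LaurentSeries K :=
  fun K _ _ => legT K

theorem legTCoord_mem (K : Type) [Field K] [Algebra ℚ K] : legTCoord K ∈ legTower N K :=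
  legT_mem_legE N

theorem legTCoord_map (K L : Type) [Field K] [Field L] [Algebra ℚ K] [Algebra ℚ L] (φ : K →+* L) :
    coeffMap φ (legTCoord K) = legTCoord L :=
  coeffMap_legT φ

theorem towerBC_legTower (K₁ : IntermediateField ℚ Ω) :
    towerBC (legTower N) (legTower_map N) K₁ = legBC N K₁ := rfl

/-- the surjectivity of the comparison maps `ψ_{K₁}` (helper6's `EDEF_helper6_PsiBij`), as a
hypothesis. -/
def LegPsiSurj (hℓN : ¬ ℓ ∣ N) (hℓ2 : ℓ ≠ 2) : Prop :=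
  ∀ (K₁ : IntermediateField ℚ Ω) (hK₁ : IsBase ℓ K₁) [IsDiscreteValuationRing ↥(baseRing A K₁)]
    {ϖ : ↥(baseRing A K₁)} (hϖ : Irreducible ϖ) (𝒢t : ValuationSubring ↥(↥K₁)⟮legT ↥K₁⟯)
    (h𝒢t : IsGaussAt ↥(baseRing A K₁) ϖ (AdjoinSimple.gen ↥K₁ (legT ↥K₁)) 𝒢t)
    [IsLocalRing ↥(integralClosure ↥𝒢t ↥(legE ↥K₁ N))],
    Function.Surjective (legPsi hA N hℓN hK₁ hℓ2 hϖ 𝒢t h𝒢t)

set_option maxHeartbeats 3200000 in
/-- **the per-base package at a base `K₁`, Legendre tower.** -/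
theorem leg_base_package (hℓN : ¬ ℓ ∣ N) (hℓ2 : ℓ ≠ 2) (hψs : LegPsiSurj hA N hℓN hℓ2)
    (K₁ : IntermediateField ℚ Ω) (hK₁ : IsBase ℓ K₁) :
    (∀ P : Place Ω ↥(legE Ω N),
      IsRatAt (legTower N) (legTower_map N) (legTower_gen N) K₁ P →
      ∃ Q : Place (ResidueField ↥A) (legEt hA N hℓ2),
        IsTwoCentre (legWE hA N hℓ2) (legρ hA N hℓ2) A
          (towerCoord (legTower N) legTCoord (legTCoord_mem N) Ω)
          (baseChartSet A (legTower N) (legTower_map N) legTCoord (legTCoord_mem N) K₁)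
          (baseChartSet A (legTower N) (legTower_map N) (invCoord legTCoord)
            (invCoord_mem (legTower N) legTCoord (legTCoord_mem N)) K₁) P Q) ∧
    (∀ P : Place Ω ↥(legE Ω N),
      IsRatAt (legTower N) (legTower_map N) (legTower_gen N) K₁ P →
      ∀ Q Q' : Place (ResidueField ↥A) (legEt hA N hℓ2),
        IsTwoCentre (legWE hA N hℓ2) (legρ hA N hℓ2) A
          (towerCoord (legTower N) legTCoord (legTCoord_mem N) Ω)
          (baseChartSet A (legTower N) (legTower_map N) legTCoord (legTCoord_mem N) K₁)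
          (baseChartSet A (legTower N) (legTower_map N) (invCoord legTCoord)
            (invCoord_mem (legTower N) legTCoord (legTCoord_mem N)) K₁) P Q →
        IsTwoCentre (legWE hA N hℓ2) (legρ hA N hℓ2) A
          (towerCoord (legTower N) legTCoord (legTCoord_mem N) Ω)
          (baseChartSet A (legTower N) (legTower_map N) legTCoord (legTCoord_mem N) K₁)
          (baseChartSet A (legTower N) (legTower_map N) (invCoord legTCoord)
            (invCoord_mem (legTower N) legTCoord (legTCoord_mem N)) K₁) P Q' → Q = Q') ∧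
    (∀ r : Place Ω ↥(legE Ω N) → Place (ResidueField ↥A) (legEt hA N hℓ2),
      (∀ P, IsRatAt (legTower N) (legTower_map N) (legTower_gen N) K₁ P →
        IsTwoCentre (legWE hA N hℓ2) (legρ hA N hℓ2) A
          (towerCoord (legTower N) legTCoord (legTCoord_mem N) Ω)
          (intSet A (towerCoord (legTower N) legTCoord (legTCoord_mem N) Ω))
          (intSet A (towerCoord (legTower N) legTCoord (legTCoord_mem N) Ω)⁻¹) P (r P)) →
      ∀ (y : ↥(legE ↥K₁ N)) (hW : towerBC (legTower N) (legTower_map N) K₁ y ∈ legWE hA N hℓ2),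
        legρ hA N hℓ2 ⟨towerBC (legTower N) (legTower_map N) K₁ y, hW⟩ ≠ 0 →
        (∀ P : Place Ω ↥(legE Ω N), P.ord (towerBC (legTower N) (legTower_map N) K₁ y) ≠ 0 →
          IsRatAt (legTower N) (legTower_map N) (legTower_gen N) K₁ P) →
        ∀ D : Divisor Ω ↥(legE Ω N),
          (∀ P, D P = P.ord (towerBC (legTower N) (legTower_map N) K₁ y)) →
          ∀ Q, Finsupp.mapDomain r D Q =
            Q.ord (legρ hA N hℓ2 ⟨towerBC (legTower N) (legTower_map N) K₁ y, hW⟩)) := by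
  classical
  haveI := hK₁.isDiscreteValuationRing hA
  haveI : CharZero ↥(baseRing A K₁) := charZero_valuationSubring_of_algebraRat _
  obtain ⟨ϖ, hϖ⟩ := IsDiscreteValuationRing.exists_irreducible ↥(baseRing A K₁)
  have hgeo := geoHyps_legE_baseRing hA N hℓN hK₁ hℓ2 hϖ
  obtain ⟨S', hgeo'⟩ := hgeo.inv
  obtain ⟨𝒢t, h𝒢t, h𝒢t', -⟩ := exists_gauss_legE_baseRing hA (K₁ := K₁) hℓ2 hϖ
  haveI := hgeo.isLocalRing 𝒢t h𝒢t
  set res : ↥(baseRing A K₁) →+* ResidueField ↥A := o1res A K₁ with hres_def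
  have hres : Function.Surjective res :=
    (hK₁.baseResidueMap_bijective hA).2.comp IsLocalRing.residue_surjective
  set ψ := legPsi hA N hℓN hK₁ hℓ2 hϖ 𝒢t h𝒢t with hψ_def
  have hψs' : Function.Surjective ψ := hψs K₁ hK₁ hϖ 𝒢t h𝒢t
  -- compatibility of `ψ` with `ρ`
  have hψW : ∀ (b : ↥(legE ↥K₁ N)) (hb : IsIntegral ↥𝒢t b),
      ∃ hW : legBC N K₁ b ∈ legWE hA N hℓ2,
        legρ hA N hℓ2 ⟨legBC N K₁ b, hW⟩ = ψ (IsLocalRing.residue _ ⟨b, hb⟩) := by
    intro b hb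
    refine ⟨(legPsiHom hA N hℓN hK₁ hℓ2 hϖ 𝒢t h𝒢t ⟨b, hb⟩).2, ?_⟩
    rw [hψ_def, legPsi_residue]
    rfl
  have hψ' : ∀ (b : ↥(legE ↥K₁ N)) (hb : IsIntegral ↥𝒢t b),
      ∃ hW : legBC N K₁ b ∈ legWE hA N hℓ2,
        ψ (IsLocalRing.residue _ ⟨b, hb⟩) = legρ hA N hℓ2 ⟨legBC N K₁ b, hW⟩ := by
    intro b hb
    obtain ⟨hW, e⟩ := hψW b hb
    exact ⟨hW, e.symm⟩
  set ι : ↥(baseRing A K₁) →+* Ω := A.subtype.comp (baseIncl A K₁) with hι_def
  have hBC : ∀ r : ↥(baseRing A K₁), legBC N K₁ (algebraMap ↥(baseRing A K₁) ↥(legE ↥K₁ N) r) =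
      algebraMap Ω ↥(legE Ω N) (ι r) := by
    intro r
    rw [IsScalarTower.algebraMap_apply ↥(baseRing A K₁) ↥K₁ ↥(legE ↥K₁ N), legBC_algebraMap]
    rfl
  have hψk := comparison_const 𝒢t h𝒢t res (legWE hA N hℓ2) (legρ hA N hℓ2) (legBC N K₁) ι hBC ψ
    hψ' (fun r => (baseIncl A K₁ r).2) (fun r => rfl) (legρ_algebraMap hA N hℓ2)
  have hAK : ∀ c : ↥K₁, algebraMap ↥K₁ Ω c ∈ A ↔
      ∃ r : ↥(baseRing A K₁), algebraMap ↥(baseRing A K₁) ↥K₁ r = c := by
    intro c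
    constructor
    · intro hc
      exact ⟨⟨c, hc⟩, rfl⟩
    · rintro ⟨r, rfl⟩
      exact r.2
  have hπres : res ϖ = 0 := by
    have hm : ϖ ∈ IsLocalRing.maximalIdeal ↥(baseRing A K₁) :=
      (IsLocalRing.mem_maximalIdeal ϖ).mpr hϖ.not_isUnit
    rw [hres_def, o1res, RingHom.comp_apply, (IsLocalRing.residue_eq_zero_iff ϖ).mpr hm, map_zero]
  -- the coordinate and the chart images
  have hcoord : legBC N K₁ (algebraMap ↥(↥K₁)⟮legT ↥K₁⟯ ↥(legE ↥K₁ N)
      (AdjoinSimple.gen ↥K₁ (legT ↥K₁))) =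
      towerCoord (legTower N) legTCoord (legTCoord_mem N) Ω :=
    Subtype.ext (coeffMap_legT (algebraMap ↥K₁ Ω))
  have hσ : algebraMap ↥(↥K₁)⟮legT ↥K₁⟯ ↥(legE ↥K₁ N) (AdjoinSimple.gen ↥K₁ (legT ↥K₁)) =
      towerCoord (legTower N) legTCoord (legTCoord_mem N) ↥K₁ := Subtype.ext rfl
  have hσ' : algebraMap ↥(↥K₁)⟮legT ↥K₁⟯ ↥(legE ↥K₁ N) (AdjoinSimple.gen ↥K₁ (legT ↥K₁))⁻¹ =
      towerCoord (legTower N) (invCoord legTCoord)
        (invCoord_mem (legTower N) legTCoord (legTCoord_mem N)) ↥K₁ := by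
    rw [map_inv₀, hσ]
    rfl
  have hR : ∀ x : ↥K₁, x ∈ baseRing A K₁ ↔
      ∃ r : ↥(baseRing A K₁), algebraMap ↥(baseRing A K₁) ↥K₁ r = x := by
    intro x
    constructor
    · intro hx
      exact ⟨⟨x, hx⟩, rfl⟩
    · rintro ⟨r, rfl⟩
      exact r.2
  have hC₁ := chartSet_eq_baseChartSet A (legTower N) (legTower_map N) legTCoord (legTCoord_mem N)
    K₁ (R := ↥(baseRing A K₁)) hR (AdjoinSimple.gen ↥K₁ (legT ↥K₁)) hσ
  have hC₂ := chartSet_eq_baseChartSet A (legTower N) (legTower_map N) (invCoord legTCoord)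
    (invCoord_mem (legTower N) legTCoord (legTCoord_mem N)) K₁ (R := ↥(baseRing A K₁)) hR
    (AdjoinSimple.gen ↥K₁ (legT ↥K₁))⁻¹ hσ'
  refine ⟨?_, ?_, ?_⟩
  · intro P hrat
    obtain ⟨Q, hQ⟩ := geo_exists_isTwoCentre hgeo hgeo' 𝒢t h𝒢t h𝒢t' res hres ψ
      (legBC_algebraMap N K₁) (closure_range_legBC N K₁) hAK hπres hψs' hψk hψW P hrat
    refine ⟨Q, ?_⟩
    rw [← hC₁, ← hC₂, ← hcoord]
    exact hQ
  · intro P hrat Q Q' hQ hQ'
    rw [← hC₁, ← hC₂] at hQ hQ'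
    exact geo_isTwoCentre_unique hgeo hgeo' 𝒢t h𝒢t h𝒢t' res hres ψ
      (legBC_algebraMap N K₁) (closure_range_legBC N K₁) hπres hψs' hψk hψW hrat hQ hQ'
  · intro r hr y hW hy0 hrat D hD Q
    have hy := (isIntegral_legE_iff_mem_gaussInt hA N hℓN hK₁ hℓ2 hϖ 𝒢t h𝒢t y).2
      ((legBC_mem_legWE_iff hA N K₁ hℓ2 y).1 hW)
    obtain ⟨hW', e⟩ := hψW y hy
    have hres0 := fun h0 => hy0 (e.trans h0)
    have h𝔅₁ := hC₁.subset.trans (baseChartSet_subset_intSet A (legTower N) (legTower_map N)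
      legTCoord (legTCoord_mem N) legTCoord_map K₁)
    have h𝔅₂ := hC₂.subset.trans (baseChartSet_subset_intSet A (legTower N) (legTower_map N)
      (invCoord legTCoord) (invCoord_mem (legTower N) legTCoord (legTCoord_mem N))
      (coeffMap_invCoord legTCoord legTCoord_map) K₁)
    have hr' : ∀ P : Place Ω ↥(legE Ω N),
        IsRationalPlace (restrictBC (legBC N K₁) (legBC_algebraMap N K₁)
          (closure_range_legBC N K₁) P) →
        IsTwoCentre (legWE hA N hℓ2) (legρ hA N hℓ2) A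
          (legBC N K₁ (algebraMap ↥(↥K₁)⟮legT ↥K₁⟯ ↥(legE ↥K₁ N)
            (AdjoinSimple.gen ↥K₁ (legT ↥K₁))))
          (intSet A (towerCoord (legTower N) legTCoord (legTCoord_mem N) Ω))
          (intSet A (towerCoord (legTower N) legTCoord (legTCoord_mem N) Ω)⁻¹) P (r P) := by
      intro P hP
      rw [hcoord]
      exact hr P hP
    have := geoT_mapDomain_eq_ord hgeo hgeo' 𝒢t h𝒢t h𝒢t' res hres ψ
      (legBC_algebraMap N K₁) (closure_range_legBC N K₁) hAK hπres hψs' hψk hψW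
      (𝔅₁ := intSet A (towerCoord (legTower N) legTCoord (legTCoord_mem N) Ω))
      (𝔅₂ := intSet A (towerCoord (legTower N) legTCoord (legTCoord_mem N) Ω)⁻¹)
      h𝔅₁ h𝔅₂ r hr' y hy hres0 hrat D hD Q
    exact this.trans (congrArg Q.ord e.symm)

/-- **the per-base packages of the Legendre tower.** -/
theorem legTowerBaseHyps (hℓN : ¬ ℓ ∣ N) (hℓ2 : ℓ ≠ 2) (hψs : LegPsiSurj hA N hℓN hℓ2) :
    TowerBaseHyps ℓ A (legTower N) (legTower_map N) (legTower_gen N) legTCoord (legTCoord_mem N)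
      (legWE hA N hℓ2) (legρ hA N hℓ2) where
  ex K₁ hK₁ := (leg_base_package hA N hℓN hℓ2 hψs K₁ hK₁).1
  uniq K₁ hK₁ := (leg_base_package hA N hℓN hℓ2 hψs K₁ hK₁).2.1
  div K₁ hK₁ := (leg_base_package hA N hℓN hℓ2 hψs K₁ hK₁).2.2

/-- the Legendre coordinate as an element of `legE Ω N`. -/
noncomputable def legTΩ : ↥(legE Ω N) := towerCoord (legTower N) legTCoord (legTCoord_mem N) Ω

theorem coe_legTΩ : ((legTΩ N : ↥(legE Ω N)) : LaurentSeries Ω) = legT Ω := rfl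

/-- **the reduction map of points of the Legendre tower** (`Q₀` a junk value, never used). -/
noncomputable def legR (hℓ2 : ℓ ≠ 2) (Q₀ : Place (ResidueField ↥A) (legEt hA N hℓ2)) :
    Place Ω ↥(legE Ω N) → Place (ResidueField ↥A) (legEt hA N hℓ2) :=
  centreMap (legWE hA N hℓ2) (legρ hA N hℓ2) A (legTΩ N) (intSet A (legTΩ N))
    (intSet A (legTΩ N)⁻¹) Q₀

section API

variable (hℓN : ¬ ℓ ∣ N) (hℓ2 : ℓ ≠ 2) (hψs : LegPsiSurj hA N hℓN hℓ2)
  (Q₀ : Place (ResidueField ↥A) (legEt hA N hℓ2))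

include hℓN hψs in
/-- `legR P` is the intrinsic two-chart centre of `P`. -/
theorem legR_isTwoCentre (P : Place Ω ↥(legE Ω N)) :
    IsTwoCentre (legWE hA N hℓ2) (legρ hA N hℓ2) A (legTΩ N) (intSet A (legTΩ N))
      (intSet A (legTΩ N)⁻¹) P (legR hA N hℓ2 Q₀ P) :=
  tower_isTwoCentre_centreMap legTCoord_map (legTowerBaseHyps hA N hℓN hℓ2 hψs)
    (legCoordBase N (flatBase ℓ)) (bcd_deg_eq_one_legE N) Q₀ P

include hℓN hψs in
/-- characterisation of `legR P`. -/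
theorem legR_eq_of_isTwoCentre {P : Place Ω ↥(legE Ω N)}
    {Q : Place (ResidueField ↥A) (legEt hA N hℓ2)}
    (hQ : IsTwoCentre (legWE hA N hℓ2) (legρ hA N hℓ2) A (legTΩ N) (intSet A (legTΩ N))
      (intSet A (legTΩ N)⁻¹) P Q) : legR hA N hℓ2 Q₀ P = Q :=
  tower_centreMap_eq legTCoord_map (legTowerBaseHyps hA N hℓN hℓ2 hψs)
    (legCoordBase N (flatBase ℓ)) (bcd_deg_eq_one_legE N) Q₀ hQ

include hℓN hψs in
/-- **the reduction axiom** (`GoodRed.r_div`) for the Legendre tower. -/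
theorem legR_div (y : ↥(legWE hA N hℓ2)) (hy : legρ hA N hℓ2 y ≠ 0) (D : Divisor Ω ↥(legE Ω N))
    (hD : ∀ P, D P = P.ord (y : ↥(legE Ω N))) (Q : Place (ResidueField ↥A) (legEt hA N hℓ2)) :
    Finsupp.mapDomain (legR hA N hℓ2 Q₀) D Q = Q.ord (legρ hA N hℓ2 y) :=
  tower_mapDomain_centreMap legTCoord_map (legTowerBaseHyps hA N hℓN hℓ2 hψs)
    (legCoordBase N (flatBase ℓ)) (bcd_deg_eq_one_legE N) Q₀ y hy D hD Q

include hℓN hψs in
/-- **equivariance** (`GoodRed.IsAut.r_smul`) for the semilinear automorphisms preserving `A`,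
`legWE` and fixing the Legendre coordinate. -/
theorem legR_smul {g : SemilinearAut Ω ↥(legE Ω N)} (hg : PreservesGauss A (legWE hA N hℓ2) g)
    (hgs : g • legTΩ N = legTΩ N) (P : Place Ω ↥(legE Ω N)) (f : ↥(legWE hA N hℓ2))
    (hf : g • (f : ↥(legE Ω N)) ∈ legWE hA N hℓ2) :
    legρ hA N hℓ2 ⟨g • (f : ↥(legE Ω N)), hf⟩ ∈
        (legR hA N hℓ2 Q₀ (g • P)).toValuationSubring ↔
      legρ hA N hℓ2 f ∈ (legR hA N hℓ2 Q₀ P).toValuationSubring :=
  tower_r_smul legTCoord_map (legTowerBaseHyps hA N hℓN hℓ2 hψs)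
    (legCoordBase N (flatBase ℓ)) (bcd_deg_eq_one_legE N) (legρ_surjective hA N hℓ2)
    (legρ_algebraMap hA N hℓ2) (fun a ha => (algebraMap_mem_legWE_iff hA N hℓ2 a).mpr ha) Q₀ hg hgs
    P f hf

include hℓN hψs in
/-- evaluation commutes with reduction (first chart). -/
theorem legR_hasValueAt₁ {P : Place Ω ↥(legE Ω N)} (hint : HasIntValue A (legTΩ N) P)
    {f : ↥(legE Ω N)} (hf : f ∈ intSet A (legTΩ N)) (hfW : f ∈ legWE hA N hℓ2) (a : ↥A)
    (hv : HasValueAt P f (a : Ω)) :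
    HasValueAt (legR hA N hℓ2 Q₀ P) (legρ hA N hℓ2 ⟨f, hfW⟩) (residue ↥A a) :=
  tower_hasValueAt_centreMap₁ legTCoord_map (legTowerBaseHyps hA N hℓN hℓ2 hψs)
    (legCoordBase N (flatBase ℓ)) (bcd_deg_eq_one_legE N)
    (legρ_algebraMap hA N hℓ2) (fun a ha => (algebraMap_mem_legWE_iff hA N hℓ2 a).mpr ha) Q₀ hint
    hf hfW a hv

include hℓN hψs in
/-- evaluation commutes with reduction (second chart). -/
theorem legR_hasValueAt₂ {P : Place Ω ↥(legE Ω N)} (hint : ¬ HasIntValue A (legTΩ N) P)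
    {f : ↥(legE Ω N)} (hf : f ∈ intSet A (legTΩ N)⁻¹) (hfW : f ∈ legWE hA N hℓ2) (a : ↥A)
    (hv : HasValueAt P f (a : Ω)) :
    HasValueAt (legR hA N hℓ2 Q₀ P) (legρ hA N hℓ2 ⟨f, hfW⟩) (residue ↥A a) :=
  tower_hasValueAt_centreMap₂ legTCoord_map (legTowerBaseHyps hA N hℓN hℓ2 hψs)
    (legCoordBase N (flatBase ℓ)) (bcd_deg_eq_one_legE N)
    (legρ_algebraMap hA N hℓ2) (fun a ha => (algebraMap_mem_legWE_iff hA N hℓ2 a).mpr ha) Q₀ hint
    hf hfW a hv

include hℓN hψs in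
/-- the chart of a point is determined by its reduction. -/
theorem legR_hasIntValue_iff (P : Place Ω ↥(legE Ω N)) (hsW : legTΩ N ∈ legWE hA N hℓ2)
    (hsW' : (legTΩ N)⁻¹ ∈ legWE hA N hℓ2) :
    HasIntValue A (legTΩ N) P ↔
      legρ hA N hℓ2 ⟨legTΩ N, hsW⟩ ∈ (legR hA N hℓ2 Q₀ P).toValuationSubring :=
  tower_hasIntValue_iff legTCoord_map (legTowerBaseHyps hA N hℓN hℓ2 hψs)
    (legCoordBase N (flatBase ℓ)) (bcd_deg_eq_one_legE N)
    (legρ_algebraMap hA N hℓ2) (fun a ha => (algebraMap_mem_legWE_iff hA N hℓ2 a).mpr ha) Q₀ P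
    hsW hsW'

end API

end Leg

end Fermat.Agent.FG
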