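/-
FG (S19/S32) [E-RED-b] — helper1 — **the reduction maps of points `legR`, `hesR`, unconditionally**
(the surjectivity hypotheses `LegPsiSurj`, `HesPsiSurj` of `ERED_helper1_{Leg,Hes}` are
helper6's `legPsi_surjective`, `hesPsi_surjective`).  The `GoodRed` fields `r`, `r_div` and the
`IsAut` field `r_smul` in literal form:

* `legR hA N hℓ2 Q₀`, `legR_div_final`, `legR_smul_final`, `legR_isTwoCentre_final`,
  `legR_eq_of_isTwoCentre_final`, `legR_hasValueAt₁_final`, `legR_hasValueAt₂_final`,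
  `legR_hasIntValue_iff_final` (and the Hesse twins).
-/
import Mathlib
import Fermat.Agent.FG.ERED_helper1_Leg
import Fermat.Agent.FG.ERED_helper1_Hes
import Fermat.Agent.FG.EDEF_helper6_PsiBijHes

set_option autoImplicit false
set_option linter.unusedSectionVars false
set_option linter.style.haveILetI false
set_option synthInstance.maxHeartbeats 400000

open HahnSeries IntermediateField ModularCurve IsLocalRing AlgebraicCurve Polynomial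

namespace Fermat.Agent.FG

open Fermat.Agent.JA Fermat.Agent.Igusa Fermat.Agent.SS Fermat.Agent.FF

open scoped Fermat.Agent.JA.Host

/-- `Ω = AlgebraicClosure ℚ`. -/
local notation "Ω" => AlgebraicClosure ℚ

section LegFinal

variable {ℓ : ℕ} [Fact ℓ.Prime] {A : ValuationSubring Ω} (hA : A.LiesOverPrime ℓ)
  (N : ℕ) [NeZero N] (hℓN : ¬ ℓ ∣ N) (hℓ2 : ℓ ≠ 2)
  (Q₀ : Place (ResidueField ↥A) (legEt hA N hℓ2))

theorem legPsiSurj : LegPsiSurj hA N hℓN hℓ2 :=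
  fun _ hK₁ _ _ hϖ 𝒢t h𝒢t _ => legPsi_surjective hA N hℓN hK₁ hℓ2 hϖ 𝒢t h𝒢t

include hℓN in
/-- `legR P` is the intrinsic two-chart centre of `P`. -/
theorem legR_isTwoCentre_final (P : Place Ω ↥(legE Ω N)) :
    IsTwoCentre (legWE hA N hℓ2) (legρ hA N hℓ2) A (legTΩ N) (intSet A (legTΩ N))
      (intSet A (legTΩ N)⁻¹) P (legR hA N hℓ2 Q₀ P) :=
  legR_isTwoCentre hA N hℓN hℓ2 (legPsiSurj hA N hℓN hℓ2) Q₀ P

include hℓN in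
theorem legR_eq_of_isTwoCentre_final {P : Place Ω ↥(legE Ω N)}
    {Q : Place (ResidueField ↥A) (legEt hA N hℓ2)}
    (hQ : IsTwoCentre (legWE hA N hℓ2) (legρ hA N hℓ2) A (legTΩ N) (intSet A (legTΩ N))
      (intSet A (legTΩ N)⁻¹) P Q) : legR hA N hℓ2 Q₀ P = Q :=
  legR_eq_of_isTwoCentre hA N hℓN hℓ2 (legPsiSurj hA N hℓN hℓ2) Q₀ hQ

include hℓN in
/-- **`GoodRed.r_div` for the Legendre tower.** -/
theorem legR_div_final (y : ↥(legWE hA N hℓ2)) (hy : legρ hA N hℓ2 y ≠ 0)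
    (D : Divisor Ω ↥(legE Ω N)) (hD : ∀ P, D P = P.ord (y : ↥(legE Ω N)))
    (Q : Place (ResidueField ↥A) (legEt hA N hℓ2)) :
    Finsupp.mapDomain (legR hA N hℓ2 Q₀) D Q = Q.ord (legρ hA N hℓ2 y) :=
  legR_div hA N hℓN hℓ2 (legPsiSurj hA N hℓN hℓ2) Q₀ y hy D hD Q

include hℓN in
/-- **`GoodRed.IsAut.r_smul` for the Legendre tower.** -/
theorem legR_smul_final {g : SemilinearAut Ω ↥(legE Ω N)}
    (hg : PreservesGauss A (legWE hA N hℓ2) g)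
    (hgs : g • legTΩ N = legTΩ N) (P : Place Ω ↥(legE Ω N)) (f : ↥(legWE hA N hℓ2))
    (hf : g • (f : ↥(legE Ω N)) ∈ legWE hA N hℓ2) :
    legρ hA N hℓ2 ⟨g • (f : ↥(legE Ω N)), hf⟩ ∈
        (legR hA N hℓ2 Q₀ (g • P)).toValuationSubring ↔
      legρ hA N hℓ2 f ∈ (legR hA N hℓ2 Q₀ P).toValuationSubring :=
  legR_smul hA N hℓN hℓ2 (legPsiSurj hA N hℓN hℓ2) Q₀ hg hgs P f hf

include hℓN in
theorem legR_hasValueAt₁_final {P : Place Ω ↥(legE Ω N)} (hint : HasIntValue A (legTΩ N) P)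
    {f : ↥(legE Ω N)} (hf : f ∈ intSet A (legTΩ N)) (hfW : f ∈ legWE hA N hℓ2) (a : ↥A)
    (hv : HasValueAt P f (a : Ω)) :
    HasValueAt (legR hA N hℓ2 Q₀ P) (legρ hA N hℓ2 ⟨f, hfW⟩) (residue ↥A a) :=
  legR_hasValueAt₁ hA N hℓN hℓ2 (legPsiSurj hA N hℓN hℓ2) Q₀ hint hf hfW a hv

include hℓN in
theorem legR_hasValueAt₂_final {P : Place Ω ↥(legE Ω N)} (hint : ¬ HasIntValue A (legTΩ N) P)
    {f : ↥(legE Ω N)} (hf : f ∈ intSet A (legTΩ N)⁻¹) (hfW : f ∈ legWE hA N hℓ2) (a : ↥A)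
    (hv : HasValueAt P f (a : Ω)) :
    HasValueAt (legR hA N hℓ2 Q₀ P) (legρ hA N hℓ2 ⟨f, hfW⟩) (residue ↥A a) :=
  legR_hasValueAt₂ hA N hℓN hℓ2 (legPsiSurj hA N hℓN hℓ2) Q₀ hint hf hfW a hv

include hℓN in
theorem legR_hasIntValue_iff_final (P : Place Ω ↥(legE Ω N)) (hsW : legTΩ N ∈ legWE hA N hℓ2)
    (hsW' : (legTΩ N)⁻¹ ∈ legWE hA N hℓ2) :
    HasIntValue A (legTΩ N) P ↔
      legρ hA N hℓ2 ⟨legTΩ N, hsW⟩ ∈ (legR hA N hℓ2 Q₀ P).toValuationSubring :=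
  legR_hasIntValue_iff hA N hℓN hℓ2 (legPsiSurj hA N hℓN hℓ2) Q₀ P hsW hsW'

end LegFinal

section HesFinal

variable {ℓ : ℕ} [Fact ℓ.Prime] {A : ValuationSubring Ω} (hA : A.LiesOverPrime ℓ)
  (N : ℕ) [NeZero N] (hℓN : ¬ ℓ ∣ N) (hℓ3 : ℓ ≠ 3)
  (Q₀ : Place (ResidueField ↥A) (hesEt hA N hℓ3))

theorem hesPsiSurj : HesPsiSurj hA N hℓN hℓ3 :=
  fun _ hK₁ _ _ hϖ 𝒢t h𝒢t _ => hesPsi_surjective hA N hℓN hK₁ hℓ3 hϖ 𝒢t h𝒢t

include hℓN in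
/-- `hesR P` is the intrinsic two-chart centre of `P`. -/
theorem hesR_isTwoCentre_final (P : Place Ω ↥(hesE Ω N)) :
    IsTwoCentre (hesWE hA N hℓ3) (hesρ hA N hℓ3) A (hesTΩ N) (intSet A (hesTΩ N))
      (intSet A (hesTΩ N)⁻¹) P (hesR hA N hℓ3 Q₀ P) :=
  hesR_isTwoCentre hA N hℓN hℓ3 (hesPsiSurj hA N hℓN hℓ3) Q₀ P

include hℓN in
theorem hesR_eq_of_isTwoCentre_final {P : Place Ω ↥(hesE Ω N)}
    {Q : Place (ResidueField ↥A) (hesEt hA N hℓ3)}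
    (hQ : IsTwoCentre (hesWE hA N hℓ3) (hesρ hA N hℓ3) A (hesTΩ N) (intSet A (hesTΩ N))
      (intSet A (hesTΩ N)⁻¹) P Q) : hesR hA N hℓ3 Q₀ P = Q :=
  hesR_eq_of_isTwoCentre hA N hℓN hℓ3 (hesPsiSurj hA N hℓN hℓ3) Q₀ hQ

include hℓN in
/-- **`GoodRed.r_div` for the Hesse tower.** -/
theorem hesR_div_final (y : ↥(hesWE hA N hℓ3)) (hy : hesρ hA N hℓ3 y ≠ 0)
    (D : Divisor Ω ↥(hesE Ω N)) (hD : ∀ P, D P = P.ord (y : ↥(hesE Ω N)))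
    (Q : Place (ResidueField ↥A) (hesEt hA N hℓ3)) :
    Finsupp.mapDomain (hesR hA N hℓ3 Q₀) D Q = Q.ord (hesρ hA N hℓ3 y) :=
  hesR_div hA N hℓN hℓ3 (hesPsiSurj hA N hℓN hℓ3) Q₀ y hy D hD Q

include hℓN in
/-- **`GoodRed.IsAut.r_smul` for the Hesse tower.** -/
theorem hesR_smul_final {g : SemilinearAut Ω ↥(hesE Ω N)}
    (hg : PreservesGauss A (hesWE hA N hℓ3) g)
    (hgs : g • hesTΩ N = hesTΩ N) (P : Place Ω ↥(hesE Ω N)) (f : ↥(hesWE hA N hℓ3))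
    (hf : g • (f : ↥(hesE Ω N)) ∈ hesWE hA N hℓ3) :
    hesρ hA N hℓ3 ⟨g • (f : ↥(hesE Ω N)), hf⟩ ∈
        (hesR hA N hℓ3 Q₀ (g • P)).toValuationSubring ↔
      hesρ hA N hℓ3 f ∈ (hesR hA N hℓ3 Q₀ P).toValuationSubring :=
  hesR_smul hA N hℓN hℓ3 (hesPsiSurj hA N hℓN hℓ3) Q₀ hg hgs P f hf

include hℓN in
theorem hesR_hasValueAt₁_final {P : Place Ω ↥(hesE Ω N)} (hint : HasIntValue A (hesTΩ N) P)
    {f : ↥(hesE Ω N)} (hf : f ∈ intSet A (hesTΩ N)) (hfW : f ∈ hesWE hA N hℓ3) (a : ↥A)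
    (hv : HasValueAt P f (a : Ω)) :
    HasValueAt (hesR hA N hℓ3 Q₀ P) (hesρ hA N hℓ3 ⟨f, hfW⟩) (residue ↥A a) :=
  hesR_hasValueAt₁ hA N hℓN hℓ3 (hesPsiSurj hA N hℓN hℓ3) Q₀ hint hf hfW a hv

include hℓN in
theorem hesR_hasValueAt₂_final {P : Place Ω ↥(hesE Ω N)} (hint : ¬ HasIntValue A (hesTΩ N) P)
    {f : ↥(hesE Ω N)} (hf : f ∈ intSet A (hesTΩ N)⁻¹) (hfW : f ∈ hesWE hA N hℓ3) (a : ↥A)
    (hv : HasValueAt P f (a : Ω)) :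
    HasValueAt (hesR hA N hℓ3 Q₀ P) (hesρ hA N hℓ3 ⟨f, hfW⟩) (residue ↥A a) :=
  hesR_hasValueAt₂ hA N hℓN hℓ3 (hesPsiSurj hA N hℓN hℓ3) Q₀ hint hf hfW a hv

include hℓN in
theorem hesR_hasIntValue_iff_final (P : Place Ω ↥(hesE Ω N)) (hsW : hesTΩ N ∈ hesWE hA N hℓ3)
    (hsW' : (hesTΩ N)⁻¹ ∈ hesWE hA N hℓ3) :
    HasIntValue A (hesTΩ N) P ↔
      hesρ hA N hℓ3 ⟨hesTΩ N, hsW⟩ ∈ (hesR hA N hℓ3 Q₀ P).toValuationSubring :=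
  hesR_hasIntValue_iff hA N hℓN hℓ3 (hesPsiSurj hA N hℓN hℓ3) Q₀ P hsW hsW'

end HesFinal

end Fermat.Agent.FG
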