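/-
FG [E-GAL] — helper6 — **the coefficientwise Galois action on `legE Ω N` / `hesE Ω N` and the
good-reduction datum**: `IsRatAut` for all of `G_ℚ` (`τ`, `cusp` fixed) and the `IsAut` fields
`base_mem`, `smul_mem` (helper1's `PreservesGauss`) for the decomposition group of `A`.
-/
import Mathlib
import Fermat.Agent.FG.EGAL_helper6_CuspRedHes
import Fermat.Agent.FG.ERED_helper1_Final

set_option autoImplicit false
set_option linter.unusedSectionVars false
set_option linter.style.haveILetI false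
set_option synthInstance.maxHeartbeats 400000

open HahnSeries IntermediateField ModularCurve Polynomial AlgebraicCurve IsLocalRing

namespace Fermat.Agent.FG

open Fermat.Agent.JA Fermat.Agent.SS Fermat.Agent.Igusa Fermat.Agent.FF
open scoped Fermat.Agent.JA.Host

local notation "Ω" => AlgebraicClosure ℚ
local notation "GQ" => (AlgebraicClosure ℚ ≃ₐ[ℚ] AlgebraicClosure ℚ)

section Frac

variable {K : Type*} [Field K] {A : ValuationSubring K}

/-- the restriction to `A` of an endomorphism of `K` preserving `A`. -/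
noncomputable def resEnd (σ : K →+* K) (hσ : ∀ a ∈ A, σ a ∈ A) : ↥A →+* ↥A :=
  (σ.comp A.subtype).codRestrict A.toSubring (fun a => hσ a a.2)

theorem coe_resEnd (σ : K →+* K) (hσ : ∀ a ∈ A, σ a ∈ A) (a : ↥A) :
    ((resEnd σ hσ a : ↥A) : K) = σ (a : K) := rfl

theorem fEmb_coeffMap_resEnd (σ : K →+* K) (hσ : ∀ a ∈ A, σ a ∈ A) (f : LaurentSeries ↥A) :
    fEmb A (coeffMap (resEnd σ hσ) f) = coeffMap σ (fEmb A f) := by
  rw [fEmb, coeffMap_coeffMap, coeffMap_coeffMap]
  exact coeffMap_congr (RingHom.ext fun a => rfl) _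

/-- **coefficientwise endomorphisms preserving `A` preserve the coefficientwise Gauss ring.** -/
theorem coeffMap_mem_fracInt (σ : K →+* K) (hσ : ∀ a ∈ A, σ a ∈ A) {x : LaurentSeries K}
    (hx : x ∈ fracInt A) : coeffMap σ x ∈ fracInt A := by
  obtain ⟨f, g, hg, h⟩ := hx
  refine ⟨coeffMap (resEnd σ hσ) f, coeffMap (resEnd σ hσ) g, ?_, ?_⟩
  · obtain ⟨n, hn⟩ := exists_isUnit_coeff hg
    intro h0
    have h1 := congrArg (fun z : LaurentSeries (ResidueField ↥A) => z.coeff n) h0
    simp only [fRed_coeff, coeffMap_coeff, HahnSeries.coeff_zero] at h1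
    exact ((hn.map (resEnd σ hσ)).map (residue ↥A)).ne_zero h1
  · rw [fEmb_coeffMap_resEnd, fEmb_coeffMap_resEnd, ← map_mul, h]

theorem coeffMap_mem_fracInt_iff (σ : K ≃+* K) (hσ : ∀ a, σ a ∈ A ↔ a ∈ A)
    {x : LaurentSeries K} : coeffMap (σ : K →+* K) x ∈ fracInt A ↔ x ∈ fracInt A := by
  refine ⟨fun h => ?_, coeffMap_mem_fracInt _ (fun a ha => (hσ a).mpr ha)⟩
  have h1 := coeffMap_mem_fracInt (A := A) (σ.symm : K →+* K)
    (fun a ha => by
      have := (hσ (σ.symm a))
      rw [show σ (σ.symm a) = a from σ.apply_symm_apply a] at this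
      exact this.mp ha) h
  rw [coeffMap_coeffMap] at h1
  have h2 : ((σ.symm : K →+* K).comp (σ : K →+* K)) = RingHom.id K :=
    RingHom.ext fun a => σ.symm_apply_apply a
  rwa [coeffMap_congr h2, coeffMap_id] at h1

end Frac

section Decomp

open scoped Pointwise

variable {A : ValuationSubring Ω}

/-- elements of the decomposition group preserve `A`. -/
theorem apply_mem_iff_of_mem_decompositionSubgroup {σ : GQ}
    (hσ : σ ∈ A.decompositionSubgroup ℚ) (a : Ω) : σ a ∈ A ↔ a ∈ A := by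
  have h1 : σ • A = A := MulAction.mem_stabilizer_iff.mp hσ
  constructor
  · intro h
    have h2 : σ a ∈ σ • A := by rw [h1]; exact h
    rw [ValuationSubring.mem_pointwise_smul_iff_inv_smul_mem] at h2
    have h3 : σ⁻¹ • σ a = a := by
      show σ⁻¹ (σ a) = a
      exact σ.symm_apply_apply a
    rwa [h3] at h2
  · intro h
    have h2 : σ • a ∈ σ • A := ValuationSubring.smul_mem_pointwise_smul σ a A h
    rw [h1] at h2
    exact h2

end Decomp

section Leg

variable {ℓ : ℕ} [Fact ℓ.Prime] {A : ValuationSubring Ω} (hA : A.LiesOverPrime ℓ)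
  (N : ℕ) [NeZero N]

theorem baseAut_legGalois (σ : GQ) (a : Ω) :
    SemilinearAut.baseAut (legGalois Ω N σ) a = σ a := rfl

theorem baseAut_hesGalois (σ : GQ) (a : Ω) :
    SemilinearAut.baseAut (hesGalois Ω N σ) a = σ a := rfl

/-- **`IsAut.smul_mem`** for the coefficientwise action of an automorphism preserving `A`
(Legendre). -/
theorem legGalois_smul_mem_legWE_iff (hℓ2 : ℓ ≠ 2) {σ : GQ} (hσ : ∀ a, σ a ∈ A ↔ a ∈ A)
    (f : ↥(legE Ω N)) : legGalois Ω N σ • f ∈ legWE hA N hℓ2 ↔ f ∈ legWE hA N hℓ2 := by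
  rw [mem_legWE_iff, mem_legWE_iff, legGalois, coe_coeffGalois_smul]
  exact coeffMap_mem_fracInt_iff σ.toRingEquiv hσ

/-- **`IsAut.smul_mem`** (Hesse). -/
theorem hesGalois_smul_mem_hesWE_iff (hℓ3 : ℓ ≠ 3) {σ : GQ} (hσ : ∀ a, σ a ∈ A ↔ a ∈ A)
    (f : ↥(hesE Ω N)) : hesGalois Ω N σ • f ∈ hesWE hA N hℓ3 ↔ f ∈ hesWE hA N hℓ3 := by
  rw [mem_hesWE_iff, mem_hesWE_iff, hesGalois, coe_coeffGalois_smul]
  exact coeffMap_mem_fracInt_iff σ.toRingEquiv hσ

/-- helper1's `PreservesGauss` for the decomposition group (Legendre). -/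
theorem preservesGauss_legGalois (hℓ2 : ℓ ≠ 2) {σ : GQ}
    (hσ : σ ∈ A.decompositionSubgroup ℚ) :
    PreservesGauss A (legWE hA N hℓ2) (legGalois Ω N σ) where
  base_mem a := apply_mem_iff_of_mem_decompositionSubgroup hσ a
  smul_mem f := legGalois_smul_mem_legWE_iff hA N hℓ2
    (apply_mem_iff_of_mem_decompositionSubgroup hσ) f

/-- helper1's `PreservesGauss` for the decomposition group (Hesse). -/
theorem preservesGauss_hesGalois (hℓ3 : ℓ ≠ 3) {σ : GQ}
    (hσ : σ ∈ A.decompositionSubgroup ℚ) :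
    PreservesGauss A (hesWE hA N hℓ3) (hesGalois Ω N σ) where
  base_mem a := apply_mem_iff_of_mem_decompositionSubgroup hσ a
  smul_mem f := hesGalois_smul_mem_hesWE_iff hA N hℓ3
    (apply_mem_iff_of_mem_decompositionSubgroup hσ) f

/-- the coefficientwise action fixes the Legendre coordinate. -/
theorem legGalois_smul_legTΩ (σ : GQ) : legGalois Ω N σ • legTΩ N = legTΩ N := by
  apply Subtype.ext
  rw [legGalois, coe_coeffGalois_smul]
  exact coeffMap_legT (σ : Ω →+* Ω)

/-- the coefficientwise action fixes the Hesse coordinate. -/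
theorem hesGalois_smul_hesTΩ (σ : GQ) : hesGalois Ω N σ • hesTΩ N = hesTΩ N := by
  apply Subtype.ext
  rw [hesGalois, coe_coeffGalois_smul]
  exact coeffMap_hesT (σ : Ω →+* Ω)

end Leg

end Fermat.Agent.FG
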