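/-
FG (S19/S32) [E-RED-b] — helper1 — **the q-expansion principle over a discrete valuation ring.**

`R` a discrete valuation ring with fraction field `L`.  An element `b ∈ Frac(R⸨x⸩) ⊆ L⸨x⸩`
(`gaussField R L`) which is integral over `R⟦x⟧` lies in `R⟦x⟧` (`qexp_principle`): `R⟦x⟧` is a
unique factorisation domain (Mathlib), hence integrally closed.
-/
import Mathlib
import Fermat.Agent.FG.ERED_helper1_Int
import Fermat.Agent.Igusa.V_helper5_Gauss

set_option autoImplicit false
set_option linter.unusedSectionVars false
set_option linter.style.haveILetI false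

open HahnSeries ModularCurve Polynomial

namespace Fermat.Agent.FG

open Fermat.Agent.Igusa

section QExp

variable (R : Type*) [CommRing R] [IsDomain R] [IsDiscreteValuationRing R]
  (L : Type*) [Field L] [Algebra R L] [IsFractionRing R L]

/-- `R⟦x⟧ → L⸨x⸩`. -/
noncomputable def psEmb : PowerSeries R →+* LaurentSeries L :=
  (emb R L).comp (HahnSeries.ofPowerSeries ℤ R)

theorem psEmb_apply (p : PowerSeries R) :
    psEmb R L p = emb R L (HahnSeries.ofPowerSeries ℤ R p) := rfl

theorem psEmb_injective : Function.Injective (psEmb R L) :=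
  (emb_injective R L).comp HahnSeries.ofPowerSeries_injective

theorem psEmb_X_pow (n : ℕ) : psEmb R L (PowerSeries.X ^ n) = HahnSeries.single (n : ℤ) 1 := by
  rw [psEmb_apply, HahnSeries.ofPowerSeries_X_pow]
  show coeffMap (algebraMap R L) _ = _
  rw [coeffMap_single, map_one]

theorem emb_single_one (n : ℤ) :
    emb R L (HahnSeries.single n (1 : R)) = HahnSeries.single n (1 : L) := by
  show coeffMap (algebraMap R L) _ = _
  rw [coeffMap_single, map_one]

variable {R L}

/-- every element of `Frac(R⸨x⸩)` is a fraction of power series. -/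
theorem exists_psEmb_fraction {b : LaurentSeries L} (hb : b ∈ gaussField R L) :
    ∃ a c : PowerSeries R, c ≠ 0 ∧ b * psEmb R L c = psEmb R L a := by
  obtain ⟨f, g, hg, h⟩ := hb
  set m₁ : ℕ := (f.order - g.order).toNat with hm₁
  set m₂ : ℕ := (g.order - f.order).toNat with hm₂
  have hm : (m₂ : ℤ) + f.order = (m₁ : ℤ) + g.order := by
    rw [hm₁, hm₂]
    rcases le_total f.order g.order with hle | hle
    · rw [Int.toNat_of_nonneg (sub_nonneg.mpr hle), Int.toNat_eq_zero.mpr (by omega)]
      push_cast
      ring
    · rw [Int.toNat_of_nonneg (sub_nonneg.mpr hle), Int.toNat_eq_zero.mpr (by omega)]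
      push_cast
      ring
  refine ⟨PowerSeries.X ^ m₁ * f.powerSeriesPart, PowerSeries.X ^ m₂ * g.powerSeriesPart, ?_, ?_⟩
  · refine mul_ne_zero (pow_ne_zero _ PowerSeries.X_ne_zero) ?_
    rwa [Ne, LaurentSeries.powerSeriesPart_eq_zero]
  · have hf : emb R L f = HahnSeries.single f.order 1 * psEmb R L f.powerSeriesPart := by
      rw [psEmb_apply, ← emb_single_one R L, ← map_mul,
        LaurentSeries.single_order_mul_powerSeriesPart]
    have hg' : emb R L g = HahnSeries.single g.order 1 * psEmb R L g.powerSeriesPart := by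
      rw [psEmb_apply, ← emb_single_one R L, ← map_mul,
        LaurentSeries.single_order_mul_powerSeriesPart]
    rw [hf, hg'] at h
    rw [map_mul, map_mul, psEmb_X_pow, psEmb_X_pow]
    have h1 : (HahnSeries.single (m₁ : ℤ) (1 : L) : LaurentSeries L) *
        HahnSeries.single g.order 1 = HahnSeries.single (m₂ : ℤ) 1 * HahnSeries.single f.order 1 := by
      rw [HahnSeries.single_mul_single, HahnSeries.single_mul_single, hm]
    have hs : (HahnSeries.single g.order (1 : L) : LaurentSeries L) ≠ 0 :=
      HahnSeries.single_ne_zero one_ne_zero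
    apply mul_left_cancel₀ hs
    calc HahnSeries.single g.order 1 *
          (b * (HahnSeries.single (m₂ : ℤ) 1 * psEmb R L g.powerSeriesPart))
        = HahnSeries.single (m₂ : ℤ) 1 *
          (b * (HahnSeries.single g.order 1 * psEmb R L g.powerSeriesPart)) := by ring
      _ = HahnSeries.single (m₂ : ℤ) 1 *
          (HahnSeries.single f.order 1 * psEmb R L f.powerSeriesPart) := by rw [h]
      _ = (HahnSeries.single (m₂ : ℤ) 1 * HahnSeries.single f.order 1) *
          psEmb R L f.powerSeriesPart := by ring
      _ = (HahnSeries.single (m₁ : ℤ) 1 * HahnSeries.single g.order 1) *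
          psEmb R L f.powerSeriesPart := by rw [h1]
      _ = HahnSeries.single g.order 1 *
          (HahnSeries.single (m₁ : ℤ) 1 * psEmb R L f.powerSeriesPart) := by ring

/-- **the q-expansion principle**: an element of `Frac(R⸨x⸩)` integral over `R⟦x⟧` lies in
`R⟦x⟧`. -/
theorem qexp_principle {b : LaurentSeries L} (hb : b ∈ gaussField R L)
    (hint : IsIntegral ↥(psEmb R L).range b) : b ∈ (psEmb R L).range := by
  obtain ⟨a, c, hc, hbc⟩ := exists_psEmb_fraction hb
  -- a monic polynomial over `R⟦x⟧`
  obtain ⟨p, hp, hcoef, h0⟩ := isIntegral_subring_iff.mp hint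
  have hl : p ∈ lifts (psEmb R L) := by
    rw [lifts_iff_coeff_lifts]
    intro n
    exact hcoef n
  obtain ⟨q, hq, -, hqm⟩ := lifts_and_natDegree_eq_and_monic hl hp
  -- the fraction field of `R⟦x⟧`
  let j : FractionRing (PowerSeries R) →+* LaurentSeries L :=
    IsFractionRing.lift (psEmb_injective R L)
  have hj : ∀ x : PowerSeries R, j (algebraMap _ _ x) = psEmb R L x :=
    fun x => IsFractionRing.lift_algebraMap (psEmb_injective R L) x
  have hcL : psEmb R L c ≠ 0 := (map_ne_zero_iff _ (psEmb_injective R L)).mpr hc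
  have hcF : algebraMap (PowerSeries R) (FractionRing (PowerSeries R)) c ≠ 0 :=
    (map_ne_zero_iff _ (IsFractionRing.injective _ _)).mpr hc
  set β : FractionRing (PowerSeries R) :=
    algebraMap _ _ a / algebraMap _ _ c with hβ
  have hjβ : j β = b := by
    rw [hβ, map_div₀, hj, hj, ← hbc, mul_div_cancel_right₀ _ hcL]
  have hβint : IsIntegral (PowerSeries R) β := by
    refine ⟨q, hqm, j.injective ?_⟩
    rw [map_zero, Polynomial.hom_eval₂, hjβ]
    have : j.comp (algebraMap (PowerSeries R) (FractionRing (PowerSeries R))) = psEmb R L :=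
      RingHom.ext hj
    rw [this, ← Polynomial.eval_map, hq, h0]
  obtain ⟨y, hy⟩ := IsIntegrallyClosed.isIntegral_iff.mp hβint
  exact ⟨y, by rw [← hj, hy, hjβ]⟩

end QExp

end Fermat.Agent.FG
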