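/-
FG (S19/S32) [CUSP-RED] — helper1 — **the reduction of the cusp, abstractly.**

* `IsPSInt A f` : `f ∈ A⟦x⟧ ⊆ K⸨x⸩`; `isCentreIn_of_isPSInt` : if all test functions are power
  series with coefficients in `A`, the `x`-adic place of the special fibre is a centre of the
  `x`-adic place of the generic fibre; `hasValueAt_of_isPSInt` (value = constant coefficient).
* `isPSInt_of_mem_intSet` : the `q`-expansion principle for a tower (descent to a base + the
  `q`-expansion principle over the discrete valuation ring `R₁`).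
* `IsMobius.mem_psEmb_range`, `IsMobius.inv_mem_psEmb_range`, `IsMobius.inv_left`.
* `tower_isTwoCentre_cusp` : the two-chart centre of the cusp is the reduced cusp.
-/
import Mathlib
import Fermat.Agent.FG.ERED_helper1_QExp
import Fermat.Agent.FG.ERED_helper1_Final
import Fermat.Agent.FG.EGAL_helper6_CuspRedHes

set_option autoImplicit false
set_option linter.unusedSectionVars false
set_option linter.style.haveILetI false
set_option synthInstance.maxHeartbeats 400000

open HahnSeries IntermediateField ModularCurve IsLocalRing AlgebraicCurve Polynomial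

namespace Fermat.Agent.FG

open Fermat.Agent.JA Fermat.Agent.Igusa Fermat.Agent.SS Fermat.Agent.FF

section PSInt

variable {K : Type*} [Field K] (A : ValuationSubring K)

/-- `f ∈ A⟦x⟧ ⊆ K⸨x⸩`. -/
def IsPSInt (f : LaurentSeries K) : Prop :=
  ∃ p : PowerSeries ↥A, f = fEmb A (HahnSeries.ofPowerSeries ℤ ↥A p)

variable {A}

theorem laurent_order_nonneg_of_coeff {R : Type*} [Semiring R] {f : LaurentSeries R}
    (h : ∀ n : ℤ, n < 0 → f.coeff n = 0) : 0 ≤ f.order := by
  by_cases hf : f = 0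
  · rw [hf, HahnSeries.order_zero]
  · by_contra hlt
    exact hf (HahnSeries.coeff_order_eq_zero.mp (h _ (not_le.mp hlt)))

theorem laurent_order_pos_of_coeff {R : Type*} [Semiring R] {f : LaurentSeries R} (hf : f ≠ 0)
    (h : ∀ n : ℤ, n ≤ 0 → f.coeff n = 0) : 0 < f.order := by
  by_contra hlt
  exact hf (HahnSeries.coeff_order_eq_zero.mp (h _ (not_lt.mp hlt)))

theorem fEmb_ofPowerSeries_coeff_of_neg (p : PowerSeries ↥A) {n : ℤ} (hn : n < 0) :
    (fEmb A (HahnSeries.ofPowerSeries ℤ ↥A p)).coeff n = 0 := by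
  rw [fEmb_coeff, ModularCurve.ofPowerSeries_coeff_of_neg _ hn]
  rfl

theorem fEmb_ofPowerSeries_coeff_zero (p : PowerSeries ↥A) :
    (fEmb A (HahnSeries.ofPowerSeries ℤ ↥A p)).coeff 0 =
      ((PowerSeries.constantCoeff p : ↥A) : K) := by
  rw [fEmb_coeff, show (0 : ℤ) = ((0 : ℕ) : ℤ) from rfl, HahnSeries.ofPowerSeries_apply_coeff,
    PowerSeries.coeff_zero_eq_constantCoeff_apply]

theorem IsPSInt.mem_fracInt {f : LaurentSeries K} (h : IsPSInt A f) : f ∈ fracInt A := by
  obtain ⟨p, rfl⟩ := h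
  exact fEmb_mem_fracInt A _

theorem IsPSInt.order_nonneg {f : LaurentSeries K} (h : IsPSInt A f) : 0 ≤ f.order := by
  obtain ⟨p, rfl⟩ := h
  exact laurent_order_nonneg_of_coeff (fun n hn => fEmb_ofPowerSeries_coeff_of_neg p hn)

theorem fracRed_fEmb_ofPowerSeries (p : PowerSeries ↥A)
    (h : fEmb A (HahnSeries.ofPowerSeries ℤ ↥A p) ∈ fracInt A) :
    fracRed A ⟨fEmb A (HahnSeries.ofPowerSeries ℤ ↥A p), h⟩ =
      HahnSeries.ofPowerSeries ℤ (ResidueField ↥A) (PowerSeries.map (residue ↥A) p) := by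
  rw [fracRed_fEmb]
  exact coeffMap_ofPowerSeries (residue ↥A) p

end PSInt

section CentrePS

variable {K : Type*} [Field K] {A : ValuationSubring K}
  {E : IntermediateField K (LaurentSeries K)}
  {𝔽b : Type*} [Field 𝔽b] [Algebra (ResidueField ↥A) 𝔽b]

/-- **centres at the cusp**: if every test function is a power series with coefficients in `A`,
then the `x`-adic place of the special fibre is a centre of the `x`-adic place of the generic
fibre. -/
theorem isCentreIn_of_isPSInt (W : ValuationSubring ↥E) (ρΩ : ↥W →+* 𝔽b)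
    (hW : ∀ x : ↥E, x ∈ W ↔ (x : LaurentSeries K) ∈ fracInt A)
    (e : 𝔽b →+* LaurentSeries (ResidueField ↥A))
    (he : ∀ (x : ↥E) (hx : x ∈ W),
      e (ρΩ ⟨x, hx⟩) = fracRed A ⟨(x : LaurentSeries K), (hW x).mp hx⟩)
    (P : Place K ↥E)
    (hP : ∀ x : ↥E, x ≠ 0 → (x ∈ P.toValuationSubring ↔ 0 ≤ (x : LaurentSeries K).order))
    (Q : Place (ResidueField ↥A) 𝔽b)
    (hQ : ∀ y : 𝔽b, y ≠ 0 → (y ∈ Q.toValuationSubring ↔ 0 ≤ (e y).order))
    (𝔅 : Set ↥E) (h𝔅 : ∀ f ∈ 𝔅, IsPSInt A (f : LaurentSeries K)) :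
    IsCentreIn W ρΩ 𝔅 P Q := by
  intro f hf
  have hps := h𝔅 f hf
  obtain ⟨p, hp⟩ := hps
  have hfW : f ∈ W := (hW f).mpr (h𝔅 f hf).mem_fracInt
  have hef : e (ρΩ ⟨f, hfW⟩) =
      HahnSeries.ofPowerSeries ℤ (ResidueField ↥A) (PowerSeries.map (residue ↥A) p) := by
    rw [he f hfW]
    have : (⟨(f : LaurentSeries K), (hW f).mp hfW⟩ : fracInt A) =
        ⟨fEmb A (HahnSeries.ofPowerSeries ℤ ↥A p), fEmb_mem_fracInt A _⟩ := Subtype.ext hp
    rw [this]
    exact fracRed_fEmb_ofPowerSeries p _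
  have hord : 0 ≤ (e (ρΩ ⟨f, hfW⟩)).order := by
    rw [hef]
    exact laurent_order_nonneg_of_coeff
      (fun n hn => ModularCurve.ofPowerSeries_coeff_of_neg _ hn)
  refine ⟨?_, hfW, ?_, ?_⟩
  · by_cases hf0 : f = 0
    · rw [hf0]; exact zero_mem _
    · exact (hP f hf0).mpr (h𝔅 f hf).order_nonneg
  · by_cases hf0 : ρΩ ⟨f, hfW⟩ = 0
    · rw [hf0]; exact zero_mem _
    · exact (hQ _ hf0).mpr hord
  · intro hne hinv
    have hinv0 : (ρΩ ⟨f, hfW⟩)⁻¹ ≠ 0 := inv_ne_zero hne
    have h1 := (hQ _ hinv0).mp hinv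
    have hene : e (ρΩ ⟨f, hfW⟩) ≠ 0 := (map_ne_zero e).mpr hne
    have h2 : (e (ρΩ ⟨f, hfW⟩)).order + (e (ρΩ ⟨f, hfW⟩)⁻¹).order = 0 := by
      rw [← HahnSeries.order_mul hene ((map_ne_zero e).mpr hinv0), ← map_mul,
        mul_inv_cancel₀ hne, map_one, HahnSeries.order_one]
    have h3 : (e (ρΩ ⟨f, hfW⟩)).order = 0 := by omega
    -- the constant coefficient of `p` is a unit
    have h4 : (e (ρΩ ⟨f, hfW⟩)).coeff 0 ≠ 0 := by
      have := HahnSeries.coeff_order_eq_zero.not.mpr hene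
      rwa [h3] at this
    rw [hef, show (0 : ℤ) = ((0 : ℕ) : ℤ) from rfl, HahnSeries.ofPowerSeries_apply_coeff,
      PowerSeries.coeff_map] at h4
    have h5 : PowerSeries.coeff 0 p ≠ 0 := fun h0 => h4 (by rw [h0, map_zero])
    have h6 : (f : LaurentSeries K).coeff 0 ≠ 0 := by
      rw [hp, fEmb_coeff, show (0 : ℤ) = ((0 : ℕ) : ℤ) from rfl,
        HahnSeries.ofPowerSeries_apply_coeff]
      exact fun h0 => h5 (Subtype.ext h0)
    have hf0 : f ≠ 0 := by
      rintro rfl
      exact h6 rfl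
    have hfL : (f : LaurentSeries K) ≠ 0 := fun h0 => hf0 (Subtype.ext h0)
    have h7 : (f : LaurentSeries K).order = 0 :=
      le_antisymm (HahnSeries.order_le_of_coeff_ne_zero h6) (h𝔅 f hf).order_nonneg
    have hfinv0 : f⁻¹ ≠ 0 := inv_ne_zero hf0
    refine (hP _ hfinv0).mpr ?_
    have h8 : (f : LaurentSeries K).order + ((f⁻¹ : ↥E) : LaurentSeries K).order = 0 := by
      have hinvL : ((f⁻¹ : ↥E) : LaurentSeries K) ≠ 0 := fun h0 => hfinv0 (Subtype.ext h0)
      rw [← HahnSeries.order_mul hfL hinvL]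
      have : (f : LaurentSeries K) * ((f⁻¹ : ↥E) : LaurentSeries K) = 1 := by
        rw [← MulMemClass.coe_mul, mul_inv_cancel₀ hf0]
        rfl
      rw [this, HahnSeries.order_one]
    omega

/-- the value at the cusp of a power series is its constant coefficient. -/
theorem hasValueAt_of_isPSInt (P : Place K ↥E)
    (hPord : ∀ x : ↥E, x ≠ 0 → P.ord x = (x : LaurentSeries K).order)
    {f : ↥E} {p : PowerSeries ↥A}
    (hf : (f : LaurentSeries K) = fEmb A (HahnSeries.ofPowerSeries ℤ ↥A p)) :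
    HasValueAt P f ((PowerSeries.constantCoeff p : ↥A) : K) := by
  rw [HasValueAt.iff_ord]
  by_cases h0 : f - algebraMap K ↥E ((PowerSeries.constantCoeff p : ↥A) : K) = 0
  · exact Or.inl h0
  · right
    rw [hPord _ h0]
    have hL : ((f - algebraMap K ↥E ((PowerSeries.constantCoeff p : ↥A) : K) : ↥E) :
        LaurentSeries K) ≠ 0 := fun h => h0 (Subtype.ext h)
    refine laurent_order_pos_of_coeff hL (fun n hn => ?_)
    have hcoe : ((f - algebraMap K ↥E ((PowerSeries.constantCoeff p : ↥A) : K) : ↥E) :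
        LaurentSeries K) = (f : LaurentSeries K) -
          HahnSeries.C ((PowerSeries.constantCoeff p : ↥A) : K) := by
      rw [AddSubgroupClass.coe_sub, IntermediateField.coe_algebraMap_apply,
        HahnSeries.algebraMap_apply']
      simp
    rw [hcoe, HahnSeries.coeff_sub, hf]
    rcases lt_or_eq_of_le hn with hlt | rfl
    · rw [fEmb_ofPowerSeries_coeff_of_neg p hlt, HahnSeries.C_apply,
        HahnSeries.coeff_single_of_ne (ne_of_lt hlt), sub_zero]
    · rw [fEmb_ofPowerSeries_coeff_zero, HahnSeries.C_apply, HahnSeries.coeff_single_same,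
        sub_self]

end CentrePS

section MobiusPS

theorem IsMobius.inv_left {F : Type*} [Field F] {a b c d : ℤ} {t u : F}
    (h : IsMobius a b c d t u) (ht : t ≠ 0) : IsMobius c d a b t⁻¹ u := by
  refine ⟨?_, ?_⟩
  · rw [← h.rel, ← mul_assoc, inv_mul_cancel₀ ht, one_mul]
  · have := h.det
    intro h0
    apply this
    have h1 : (a * d - b * c : ℤ) = -(c * b - d * a) := by ring
    rw [h1, Int.cast_neg, h0, neg_zero]

variable {R : Type*} [CommRing R] [IsDomain R] [IsDiscreteValuationRing R]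
  {L : Type*} [Field L] [Algebra R L] [IsFractionRing R L]

/-- a Möbius transform `(a u + b) / (c u + d)` of a power series `u` without constant term is a
power series when `d` is a unit. -/
theorem IsMobius.mem_psEmb_range {a b c d : ℤ} {t : LaurentSeries L} {pu : PowerSeries R}
    (hpu : PowerSeries.constantCoeff pu = 0)
    (h : IsMobius a b c d t (psEmb R L pu)) (hd : IsUnit ((d : ℤ) : R)) :
    t ∈ (psEmb R L).range := by
  set D : PowerSeries R := (c : PowerSeries R) * pu + (d : PowerSeries R) with hD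
  have hDu : IsUnit D := by
    rw [PowerSeries.isUnit_iff_constantCoeff, hD, map_add, map_mul, hpu, mul_zero, zero_add,
      map_intCast]
    exact hd
  obtain ⟨Du, hDu'⟩ := hDu
  refine ⟨((a : PowerSeries R) * pu + (b : PowerSeries R)) * ↑Du⁻¹, ?_⟩
  have hrel : t * psEmb R L D = psEmb R L ((a : PowerSeries R) * pu + (b : PowerSeries R)) := by
    rw [hD, map_add, map_add, map_mul, map_mul, map_intCast, map_intCast, map_intCast,
      map_intCast]
    exact h.rel
  rw [map_mul, ← hrel, mul_assoc, ← map_mul, ← hDu', Units.mul_inv, map_one, mul_one]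

/-- ... and its inverse is a power series when `b` is a unit. -/
theorem IsMobius.inv_mem_psEmb_range {a b c d : ℤ} {t : LaurentSeries L} {pu : PowerSeries R}
    (hpu : PowerSeries.constantCoeff pu = 0)
    (h : IsMobius a b c d t (psEmb R L pu)) (hb : IsUnit ((b : ℤ) : R)) :
    t⁻¹ ∈ (psEmb R L).range := by
  have ht : t ≠ 0 := by
    rintro rfl
    have h1 := h.rel
    rw [zero_mul] at h1
    have h2 : psEmb R L ((a : PowerSeries R) * pu + (b : PowerSeries R)) = 0 := by
      rw [map_add, map_mul, map_intCast, map_intCast]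
      exact h1.symm
    have h3 := (map_eq_zero_iff _ (psEmb_injective R L)).mp h2
    have h4 := congrArg PowerSeries.constantCoeff h3
    rw [map_add, map_mul, hpu, mul_zero, zero_add, map_intCast, map_zero] at h4
    rw [h4] at hb
    exact not_isUnit_zero hb
  exact (h.inv_left ht).mem_psEmb_range hpu hb

/-- the image of `x · S(x)` under a ring homomorphism, as an element of `R⟦x⟧`. -/
theorem emb_coeffMap_single_mul_ofPowerSeries {Z : Type*} [CommRing Z] (ψ : Z →+* R)
    (S : PowerSeries Z) :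
    emb R L (coeffMap ψ (HahnSeries.single (1 : ℤ) (1 : Z) * HahnSeries.ofPowerSeries ℤ Z S)) =
      psEmb R L (PowerSeries.X * PowerSeries.map ψ S) := by
  rw [psEmb_apply, map_mul (HahnSeries.ofPowerSeries ℤ R), HahnSeries.ofPowerSeries_X, map_mul,
    coeffMap_ofPowerSeries, coeffMap_single, map_one]

end MobiusPS

/-- `Ω = AlgebraicClosure ℚ`. -/
local notation "Ω" => AlgebraicClosure ℚ

section TowerPS

variable {ℓ : ℕ} [Fact ℓ.Prime] {A : ValuationSubring Ω} (hA : A.LiesOverPrime ℓ)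
  (E : ∀ (K : Type) [Field K] [Algebra ℚ K], IntermediateField K (LaurentSeries K))
  (hE : ∀ (K L : Type) [Field K] [Field L] [Algebra ℚ K] [Algebra ℚ L] (φ : K →+* L),
    ∀ x ∈ E K, coeffMap φ x ∈ E L)
  (hgenE : ∀ (K L : Type) [Field K] [Field L] [Algebra ℚ K] [Algebra ℚ L] (φ : K →+* L),
    E L ≤ IntermediateField.adjoin L (⇑(coeffMap φ) '' (E K : Set (LaurentSeries K))))
  (s : ∀ (K : Type) [Field K] [Algebra ℚ K], LaurentSeries K)
  (hs : ∀ (K : Type) [Field K] [Algebra ℚ K], s K ∈ E K)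
  (hsmap : ∀ (K L : Type) [Field K] [Field L] [Algebra ℚ K] [Algebra ℚ L] (φ : K →+* L),
    coeffMap φ (s K) = s L)

include hA hE hgenE hsmap in
/-- **the `q`-expansion principle for the tower**: if the coordinate `s` is a power series with
integral coefficients over every base, then so is every function integral over `A[s]`. -/
theorem isPSInt_of_mem_intSet
    (hgauss : ∀ (K₁ : IntermediateField ℚ Ω) [IsDiscreteValuationRing ↥(baseRing A K₁)],
      E ↥K₁ ≤ gaussField ↥(baseRing A K₁) ↥K₁)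
    (hsps : ∀ (K₁ : IntermediateField ℚ Ω), IsBase ℓ K₁ →
      ∀ [IsDiscreteValuationRing ↥(baseRing A K₁)],
      s ↥K₁ ∈ (psEmb ↥(baseRing A K₁) ↥K₁).range)
    {f : ↥(E Ω)} (hf : f ∈ intSet A (towerCoord E s hs Ω)) :
    IsPSInt A (f : LaurentSeries Ω) := by
  obtain ⟨K₁, hK₁, -, b, hb, rfl⟩ :=
    exists_isBase_mem_baseChartSet A E hE hgenE s hs hsmap hf (flatBase ℓ) isBase_flatBase
  haveI := hK₁.isDiscreteValuationRing hA
  -- integrality over `R₁⟦x⟧`
  have hint : IsIntegral ↥(psEmb ↥(baseRing A K₁) ↥K₁).range (b : LaurentSeries ↥K₁) := by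
    refine IsIntegral.map_subring (algebraMap ↥(E ↥K₁) (LaurentSeries ↥K₁))
      (S := baseIntRing A E s hs K₁) (S' := (psEmb ↥(baseRing A K₁) ↥K₁).range) ?_ hb
    have hle : baseIntRing A E s hs K₁ ≤
        (psEmb ↥(baseRing A K₁) ↥K₁).range.comap (algebraMap ↥(E ↥K₁) (LaurentSeries ↥K₁)) := by
      rw [baseIntRing, Subring.closure_le]
      rintro y (⟨r, rfl⟩ | hy)
      · refine Subring.mem_comap.mpr ⟨PowerSeries.C r, ?_⟩
        rw [psEmb_apply, HahnSeries.ofPowerSeries_C, emb_C]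
        show HahnSeries.C _ = algebraMap ↥K₁ (LaurentSeries ↥K₁) _
        rw [HahnSeries.algebraMap_apply']
        simp
      · rw [Set.mem_singleton_iff.mp hy]
        exact Subring.mem_comap.mpr (hsps K₁ hK₁)
    exact fun x hx => hle hx
  obtain ⟨p, hp⟩ := qexp_principle (hgauss K₁ b.2) hint
  refine ⟨PowerSeries.map (baseIncl A K₁) p, ?_⟩
  rw [← coeffMap_ofPowerSeries, fEmb_coeffMap_baseIncl]
  show coeffMap (algebraMap ↥K₁ Ω) (b : LaurentSeries ↥K₁) = _
  rw [← hp]
  rfl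

end TowerPS

section TowerCusp

variable {ℓ : ℕ} [Fact ℓ.Prime] {A : ValuationSubring Ω} (hA : A.LiesOverPrime ℓ)
  (E : ∀ (K : Type) [Field K] [Algebra ℚ K], IntermediateField K (LaurentSeries K))
  (hE : ∀ (K L : Type) [Field K] [Field L] [Algebra ℚ K] [Algebra ℚ L] (φ : K →+* L),
    ∀ x ∈ E K, coeffMap φ x ∈ E L)
  (hgenE : ∀ (K L : Type) [Field K] [Field L] [Algebra ℚ K] [Algebra ℚ L] (φ : K →+* L),
    E L ≤ IntermediateField.adjoin L (⇑(coeffMap φ) '' (E K : Set (LaurentSeries K))))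
  (s : ∀ (K : Type) [Field K] [Algebra ℚ K], LaurentSeries K)
  (hs : ∀ (K : Type) [Field K] [Algebra ℚ K], s K ∈ E K)
  (hsmap : ∀ (K L : Type) [Field K] [Field L] [Algebra ℚ K] [Algebra ℚ L] (φ : K →+* L),
    coeffMap φ (s K) = s L)
  {𝔽b : Type*} [Field 𝔽b] [Algebra (ResidueField ↥A) 𝔽b]

include hA hE hgenE hsmap in
/-- **the two-chart centre of the cusp**: if the coordinate `s` is a Möbius transform (with
determinant prime to `ℓ`) of a uniformizer `u = x · S(x)` with integral coefficients, then the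
`x`-adic place of the special fibre is the two-chart centre of the `x`-adic place of the generic
fibre. -/
theorem tower_isTwoCentre_cusp
    (hgauss : ∀ (K₁ : IntermediateField ℚ Ω) [IsDiscreteValuationRing ↥(baseRing A K₁)],
      E ↥K₁ ≤ gaussField ↥(baseRing A K₁) ↥K₁)
    (u : ∀ (K : Type) [Field K] [Algebra ℚ K], LaurentSeries K)
    (hu : ∀ (K₁ : IntermediateField ℚ Ω), IsBase ℓ K₁ →
      ∀ [IsDiscreteValuationRing ↥(baseRing A K₁)],
      ∃ pu : PowerSeries ↥(baseRing A K₁), PowerSeries.constantCoeff pu = 0 ∧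
        u ↥K₁ = psEmb ↥(baseRing A K₁) ↥K₁ pu)
    {a b c d : ℤ} (hdet : ¬ (ℓ : ℤ) ∣ a * d - b * c)
    (hmob : ∀ (K : Type) [Field K] [Algebra ℚ K], IsMobius a b c d (s K) (u K))
    (W : ValuationSubring ↥(E Ω)) (ρΩ : ↥W →+* 𝔽b)
    (hW : ∀ x : ↥(E Ω), x ∈ W ↔ (x : LaurentSeries Ω) ∈ fracInt A)
    (e : 𝔽b →+* LaurentSeries (ResidueField ↥A))
    (he : ∀ (x : ↥(E Ω)) (hx : x ∈ W),
      e (ρΩ ⟨x, hx⟩) = fracRed A ⟨(x : LaurentSeries Ω), (hW x).mp hx⟩)
    (P : Place Ω ↥(E Ω))
    (hPord : ∀ x : ↥(E Ω), x ≠ 0 → P.ord x = (x : LaurentSeries Ω).order)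
    (Q : Place (ResidueField ↥A) 𝔽b)
    (hQ : ∀ y : 𝔽b, y ≠ 0 → (y ∈ Q.toValuationSubring ↔ 0 ≤ (e y).order))
    (huΩ : u Ω ∈ E Ω) (huord : 0 < (u Ω).order) :
    IsTwoCentre W ρΩ A (towerCoord E s hs Ω) (intSet A (towerCoord E s hs Ω))
      (intSet A (towerCoord E s hs Ω)⁻¹) P Q := by
  have hP : ∀ x : ↥(E Ω), x ≠ 0 →
      (x ∈ P.toValuationSubring ↔ 0 ≤ (x : LaurentSeries Ω).order) := by
    intro x hx
    rw [PlaceAux.mem_iff_ord_nonneg' P hx, hPord x hx]
  haveI hchar : CharP (ResidueField ↥A) ℓ := Fermat.Agent.JA.charP_residueField hA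
  have hunit : ∀ (K₁ : IntermediateField ℚ Ω) (m : ℤ), ¬ (ℓ : ℤ) ∣ m →
      IsUnit ((m : ℤ) : ↥(baseRing A K₁)) := by
    intro K₁ m hm
    have h1 : ¬ ℓ ∣ m.natAbs := fun h => hm (Int.natCast_dvd.mpr h)
    have h2 := isUnit_natCast_baseRing hA (K₁ := K₁) h1
    rcases Int.natAbs_eq m with h | h
    · rw [h, Int.cast_natCast]
      exact h2
    · rw [h, Int.cast_neg, Int.cast_natCast]
      exact h2.neg
  by_cases hd : (ℓ : ℤ) ∣ d
  · -- the second chart
    have hb : ¬ (ℓ : ℤ) ∣ b := by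
      intro hb
      exact hdet (dvd_sub (Dvd.dvd.mul_left hd a) (Dvd.dvd.mul_right hb c))
    right
    have hps : ∀ f ∈ intSet A (towerCoord E s hs Ω)⁻¹, IsPSInt A (f : LaurentSeries Ω) := by
      intro f hf
      refine isPSInt_of_mem_intSet hA E hE hgenE (invCoord s) (invCoord_mem E s hs)
        (coeffMap_invCoord s hsmap) hgauss ?_ hf
      intro K₁ hK₁ _
      obtain ⟨pu, hpu0, hpu⟩ := hu K₁ hK₁
      have hm := hmob ↥K₁
      rw [hpu] at hm
      exact hm.inv_mem_psEmb_range hpu0 (hunit K₁ b hb)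
    refine ⟨?_, isCentreIn_of_isPSInt W ρΩ hW e he P hP Q hQ _ hps⟩
    rintro ⟨a₀, ha₀, hv⟩
    -- the uniformizer vanishes at the cusp
    set uΩ : ↥(E Ω) := ⟨u Ω, huΩ⟩ with huΩ_def
    have hu0 : uΩ ≠ 0 := by
      intro h0
      have : u Ω = 0 := congrArg Subtype.val h0
      rw [this, HahnSeries.order_zero] at huord
      exact lt_irrefl _ huord
    have hvu : HasValueAt P uΩ 0 := by
      rw [HasValueAt.zero_iff]
      right
      rw [hPord uΩ hu0]
      exact huord
    have hint : ∀ n : ℤ, HasValueAt P ((n : ℤ) : ↥(E Ω)) ((n : ℤ) : Ω) := by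
      intro n
      refine HasValueAt.of_eq ?_
      rw [map_intCast]
    have hrel : towerCoord E s hs Ω * ((c : ↥(E Ω)) * uΩ + (d : ↥(E Ω))) =
        (a : ↥(E Ω)) * uΩ + (b : ↥(E Ω)) := by
      apply Subtype.ext
      push_cast
      exact (hmob Ω).rel
    have h1 := hv.mul (((hint c).mul hvu).add (hint d))
    rw [hrel] at h1
    have h2 := ((hint a).mul hvu).add (hint b)
    have h3 := h1.unique h2
    rw [mul_zero, zero_add, mul_zero, zero_add] at h3
    -- reduce modulo the maximal ideal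
    have h4 : (⟨a₀, ha₀⟩ : ↥A) * ((d : ℤ) : ↥A) = ((b : ℤ) : ↥A) := by
      apply Subtype.ext
      push_cast
      exact h3
    have h5 := congrArg (residue ↥A) h4
    rw [map_mul, map_intCast, map_intCast, (CharP.intCast_eq_zero_iff (ResidueField ↥A) ℓ d).mpr hd,
      mul_zero] at h5
    exact hb ((CharP.intCast_eq_zero_iff (ResidueField ↥A) ℓ b).mp h5.symm)
  · -- the first chart
    left
    have hps : ∀ f ∈ intSet A (towerCoord E s hs Ω), IsPSInt A (f : LaurentSeries Ω) := by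
      intro f hf
      refine isPSInt_of_mem_intSet hA E hE hgenE s hs hsmap hgauss ?_ hf
      intro K₁ hK₁ _
      obtain ⟨pu, hpu0, hpu⟩ := hu K₁ hK₁
      have hm := hmob ↥K₁
      rw [hpu] at hm
      exact hm.mem_psEmb_range hpu0 (hunit K₁ d hd)
    refine ⟨?_, isCentreIn_of_isPSInt W ρΩ hW e he P hP Q hQ _ hps⟩
    obtain ⟨p, hp⟩ := hps _ self_mem_intSet
    exact ⟨_, (PowerSeries.constantCoeff p).2, hasValueAt_of_isPSInt P hPord hp⟩

end TowerCusp

end Fermat.Agent.FG
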