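/-
FG (S19/S32) [CUSP-RED] — helper1 — **the reduction of the cusp, Legendre tower**: the `GoodRed` input
`r cusp = the x-adic place of the reduced function field` and hence `ord_r_cusp_τ`
(legR_cusp, legR_cusp_ord_legTaub, legU_eq_psEmb_base).
-/
import Mathlib
import Fermat.Agent.FG.ERED_helper1_Cusp

set_option autoImplicit false
set_option linter.unusedSectionVars false
set_option linter.style.haveILetI false
set_option synthInstance.maxHeartbeats 400000

open HahnSeries IntermediateField ModularCurve IsLocalRing AlgebraicCurve Polynomial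

namespace Fermat.Agent.FG

open Fermat.Agent.JA Fermat.Agent.Igusa Fermat.Agent.SS Fermat.Agent.FF

/-- `Ω = AlgebraicClosure ℚ`. -/
local notation "Ω" => AlgebraicClosure ℚ

section LegCusp

variable {ℓ : ℕ} [Fact ℓ.Prime] {A : ValuationSubring Ω} (hA : A.LiesOverPrime ℓ)
  (N : ℕ) [NeZero N] (hℓN : ¬ ℓ ∣ N) (hℓ2 : ℓ ≠ 2)
  (Q₀ : Place (ResidueField ↥A) (legEt hA N hℓ2))

include hA hℓ2 in
/-- the Legendre uniformizer is a power series without constant term over every base. -/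
theorem legU_eq_psEmb_base (K₁ : IntermediateField ℚ Ω)
    [IsDiscreteValuationRing ↥(baseRing A K₁)] :
    ∃ pu : PowerSeries ↥(baseRing A K₁), PowerSeries.constantCoeff pu = 0 ∧
      legU ↥K₁ = psEmb ↥(baseRing A K₁) ↥K₁ pu := by
  have hℓ2' : ¬ ℓ ∣ 2 := fun h =>
    hℓ2 ((Nat.prime_dvd_prime_iff_eq (Fact.out : ℓ.Prime) Nat.prime_two).mp h)
  have h2 : IsUnit (((2 : ℤ) : ℤ) : ↥(baseRing A K₁)) := by
    have := isUnit_natCast_baseRing hA (K₁ := K₁) hℓ2'
    exact_mod_cast this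
  refine ⟨PowerSeries.X * PowerSeries.map (awayHom 2 ↥(baseRing A K₁) h2) legSZ, ?_, ?_⟩
  · rw [map_mul, PowerSeries.constantCoeff_X, zero_mul]
  · rw [← emb_coeffMap_single_mul_ofPowerSeries,
      legU_eq_coeffMap ↥K₁ ((algebraMap ↥(baseRing A K₁) ↥K₁).comp
        (awayHom 2 ↥(baseRing A K₁) h2)), ← coeffMap_coeffMap]
    rfl

include hℓN in
/-- **`GoodRed`: the reduction of the cusp is the reduced cusp** (Legendre tower). -/
theorem legR_cusp : legR hA N hℓ2 Q₀ (legCusp Ω N) = legCuspb hA N hℓ2 := by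
  obtain ⟨a, b, c, d, hdet, hm⟩ := exists_isMobius_legT₀
  have hdet' : ¬ (ℓ : ℤ) ∣ a * d - b * c := by
    have hℓ1 : ¬ (ℓ : ℤ) ∣ 1 := by
      intro h
      have := Int.natCast_dvd_natCast.mp (by simpa using h : (ℓ : ℤ) ∣ ((1 : ℕ) : ℤ))
      exact (Fact.out : ℓ.Prime).one_lt.ne' (Nat.dvd_one.mp this)
    rcases hdet with h | h
    · rw [h]; exact hℓ1
    · rw [h]; exact fun h' => hℓ1 ((dvd_neg).mp h')
  refine legR_eq_of_isTwoCentre_final hA N hℓN hℓ2 Q₀ ?_
  exact tower_isTwoCentre_cusp hA (legTower N) (legTower_map N) (legTower_gen N) legTCoord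
    (legTCoord_mem N) legTCoord_map
    (fun K₁ _ => legE_le_gaussField_base hA N hℓ2 K₁)
    (fun K _ _ => legU K)
    (fun K₁ _ _ => legU_eq_psEmb_base hA hℓ2 K₁)
    hdet'
    (fun K _ _ => hm.legT_legU)
    (legWE hA N hℓ2) (legρ hA N hℓ2) (fun x => mem_legWE_iff hA N hℓ2 x)
    (legEtEmb hA N hℓ2) (fun x hx => legEtEmb_legρ hA N hℓ2 ⟨x, hx⟩)
    (legCusp Ω N) (fun x hx => legCusp_ord Ω N hx)
    (legCuspb hA N hℓ2) (fun y hy => mem_legCuspb_iff hA N hℓ2 hy)
    (legU_mem_legE Ω N) (by rw [legU_order]; exact one_pos)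

include hℓN in
/-- **`GoodRed.ord_r_cusp_τ`** (Legendre tower). -/
theorem legR_cusp_ord_legTaub :
    (legR hA N hℓ2 Q₀ (legCusp Ω N)).ord (legTaub hA N hℓ2) = 1 := by
  rw [legR_cusp hA N hℓN hℓ2 Q₀]
  exact legCuspb_ord_legTaub hA N hℓ2

end LegCusp

end Fermat.Agent.FG
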