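/-
FG (S19/S32) — helper8 — [OB]: **orthogonal bases** for the `GoodRed` data of the Igusa covers:
`d = [Ẽ : k(x̄)]` elements of the Gauss ring `W_E` whose reductions are linearly independent over
`k(x̄)`; in particular for `x̄ = t̄`, `d = [E_Ω : Ω(t)]` (helper6's `legEt_facts` / `hesEt_facts`).
-/
import Mathlib
import Fermat.Agent.FG.EDEF_helper6_PsiBijHes

set_option autoImplicit false
set_option linter.unusedSectionVars false
set_option linter.style.haveILetI false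
set_option synthInstance.maxHeartbeats 400000

open HahnSeries IntermediateField AlgebraicCurve ModularCurve IsLocalRing Polynomial

namespace Fermat.Agent.FG

open Fermat.Agent.JA Fermat.Agent.Igusa Fermat.Agent.SS Fermat.Agent.FF
open scoped Fermat.Agent.JA.Host

/-- `Ω = AlgebraicClosure ℚ`. -/
local notation "Ω" => AlgebraicClosure ℚ

/-- **abstract orthogonal basis**: if `ρ : W → 𝔽b` is surjective and `𝔽b / k(x)` is finite of
degree `d`, there are `d` elements of `W` whose reductions are linearly independent over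
`k(x)`. -/
theorem exists_orthogonal_basis_of_surjective {k 𝔽 𝔽b : Type*} [Field k] [Field 𝔽] [Field 𝔽b]
    [Algebra k 𝔽b] (W : ValuationSubring 𝔽) (ρ : ↥W →+* 𝔽b) (hρ : Function.Surjective ρ)
    (x : 𝔽b) [Module.Finite ↥k⟮x⟯ 𝔽b] {d : ℕ} (hd : Module.finrank ↥k⟮x⟯ 𝔽b = d) :
    ∃ (b : Fin d → 𝔽) (hb : ∀ i, b i ∈ W),
      LinearIndependent ↥k⟮x⟯ (fun i => ρ ⟨b i, hb i⟩) := by
  classical
  subst hd
  let B := Module.finBasis ↥k⟮x⟯ 𝔽b
  choose w hw using hρ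
  refine ⟨fun i => (w (B i) : 𝔽), fun i => (w (B i)).2, ?_⟩
  have h1 : (fun i : Fin (Module.finrank ↥k⟮x⟯ 𝔽b) =>
      ρ ⟨(w (B i) : 𝔽), (w (B i)).2⟩) = fun i => B i := by
    funext i
    exact hw _
  rw [h1]
  exact B.linearIndependent

section Leg

variable {ℓ : ℕ} [Fact ℓ.Prime] {A : ValuationSubring Ω} (hA : A.LiesOverPrime ℓ)
  (N : ℕ) [NeZero N]

/-- **[OB], Legendre tower, any coordinate** `x̄ ∈ Ẽ`. -/
theorem exists_orthogonal_basis_legE_of_finrank (hℓ2 : ℓ ≠ 2) (x : legEt hA N hℓ2)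
    [Module.Finite ↥(ResidueField ↥A)⟮x⟯ (legEt hA N hℓ2)] {d : ℕ}
    (hd : Module.finrank ↥(ResidueField ↥A)⟮x⟯ (legEt hA N hℓ2) = d) :
    ∃ (b : Fin d → ↥(legE Ω N)) (hb : ∀ i, b i ∈ legWE hA N hℓ2),
      LinearIndependent ↥(ResidueField ↥A)⟮x⟯ (fun i => legρ hA N hℓ2 ⟨b i, hb i⟩) :=
  exists_orthogonal_basis_of_surjective (legWE hA N hℓ2) (legρ hA N hℓ2)
    (legρ_surjective hA N hℓ2) x hd

include hA in
/-- **[OB], Legendre tower**: `[E_Ω : Ω(t)]` elements of `W_E` whose reductions are linearly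
independent over `k(t̄)`. -/
theorem exists_orthogonal_basis_legE (hℓN : ¬ ℓ ∣ N) (hℓ2 : ℓ ≠ 2) :
    ∃ (b : Fin (legCoordBar N).degree → ↥(legE Ω N)) (hb : ∀ i, b i ∈ legWE hA N hℓ2),
      LinearIndependent ↥(ResidueField ↥A)⟮legTb hA N hℓ2⟯
        (fun i => legρ hA N hℓ2 ⟨b i, hb i⟩) := by
  obtain ⟨-, hfin, -, hfr⟩ := legEt_facts hA N hℓN hℓ2
  haveI := hfin
  exact exists_orthogonal_basis_legE_of_finrank hA N hℓ2 (legTb hA N hℓ2) hfr

end Leg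

section Hes

variable {ℓ : ℕ} [Fact ℓ.Prime] {A : ValuationSubring Ω} (hA : A.LiesOverPrime ℓ)
  (N : ℕ) [NeZero N]

/-- **[OB], Hesse tower, any coordinate** `x̄ ∈ Ẽ`. -/
theorem exists_orthogonal_basis_hesE_of_finrank (hℓ3 : ℓ ≠ 3) (x : hesEt hA N hℓ3)
    [Module.Finite ↥(ResidueField ↥A)⟮x⟯ (hesEt hA N hℓ3)] {d : ℕ}
    (hd : Module.finrank ↥(ResidueField ↥A)⟮x⟯ (hesEt hA N hℓ3) = d) :
    ∃ (b : Fin d → ↥(hesE Ω N)) (hb : ∀ i, b i ∈ hesWE hA N hℓ3),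
      LinearIndependent ↥(ResidueField ↥A)⟮x⟯ (fun i => hesρ hA N hℓ3 ⟨b i, hb i⟩) :=
  exists_orthogonal_basis_of_surjective (hesWE hA N hℓ3) (hesρ hA N hℓ3)
    (hesρ_surjective hA N hℓ3) x hd

include hA in
/-- **[OB], Hesse tower.** -/
theorem exists_orthogonal_basis_hesE (hℓN : ¬ ℓ ∣ N) (hℓ3 : ℓ ≠ 3) :
    ∃ (b : Fin (hesCoordBar N).degree → ↥(hesE Ω N)) (hb : ∀ i, b i ∈ hesWE hA N hℓ3),
      LinearIndependent ↥(ResidueField ↥A)⟮hesTb hA N hℓ3⟯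
        (fun i => hesρ hA N hℓ3 ⟨b i, hb i⟩) := by
  obtain ⟨-, hfin, -, hfr⟩ := hesEt_facts hA N hℓN hℓ3
  haveI := hfin
  exact exists_orthogonal_basis_hesE_of_finrank hA N hℓ3 (hesTb hA N hℓ3) hfr

end Hes

end Fermat.Agent.FG
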