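/-
FG (S19/S32) — helper2 — [TAUREG]: **`τ_regular` is a consequence of the reduction axiom
`r_div`** (abstract, instance-free).

For a coordinate `τ ∈ W` of the generic fibre whose reduction `τ̄ = ρ τ` is a separating coordinate
of the special fibre with `[𝔽 : Ω(τ)] ≤ [𝔽b : k(τ̄)]`, every pole of `τ` reduces to a pole of `τ̄`:
the poles of `τ` carry total multiplicity `d = [𝔽 : Ω(τ)]`, those of `τ̄` total multiplicity
`d̄ = [𝔽b : k(τ̄)] ≥ d`, and by `r_* (div τ) = div τ̄` the multiplicity of a pole `Q` of `τ̄` is at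
most the total multiplicity of the poles of `τ` reducing to `Q`.
-/
import Mathlib
import Fermat.Agent.FG.CURVE_helper5_Red
import Fermat.Agent.FF.RiemannHurwitz
import Fermat.Agent.FF.Principal
import Fermat.Agent.JA.CONST_helper6

set_option autoImplicit false
set_option linter.unusedSectionVars false
set_option linter.style.haveILetI false

namespace Fermat.Agent.FG

open AlgebraicCurve IsLocalRing IntermediateField Fermat.Agent.FF Fermat.Agent.JA

section Sep

variable {k F : Type*} [Field k] [Field F] [Algebra k F]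

/-- **zeros of a separating coordinate** (any characteristic). -/
theorem coord_exists_zeros_of_isSeparable (c : Coord k F)
    (hsep : Algebra.IsSeparable k⟮c.x⟯ F) :
    ∃ S : Finset (Place k F), (∀ v, v ∈ S ↔ 0 < v.ord c.x) ∧
      ∑ v ∈ S, v.ord c.x * (v.deg : ℤ) = Module.finrank k⟮c.x⟯ F := by
  letI := c.algPoly
  letI := c.algRat
  haveI := c.tower1
  haveI := c.tower2
  haveI := c.tower3
  haveI : FunctionField k F := c.functionField
  haveI : Algebra.IsSeparable (RatFunc k) F := isSeparable_algRat_of_isSeparable c hsep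
  refine ⟨zerosOfCoord k F, fun v => ?_, ?_⟩
  · rw [mem_zerosOfCoord_iff, c.coord_eq]
  · rw [← c.finrank_eq, ← sum_zerosOfCoord, c.coord_eq]

/-- **poles of a separating coordinate** (any characteristic). -/
theorem coord_exists_poles_of_isSeparable (c : Coord k F)
    (hsep : Algebra.IsSeparable k⟮c.x⟯ F) :
    ∃ S : Finset (Place k F), (∀ v, v ∈ S ↔ v.ord c.x < 0) ∧
      ∑ v ∈ S, (-v.ord c.x) * (v.deg : ℤ) = c.degree := by
  have hsep' : Algebra.IsSeparable k⟮c.inv.x⟯ F := by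
    have h : k⟮c.x⟯ = k⟮c.inv.x⟯ := (Coord.adjoin_inv c.x).symm
    exact h ▸ hsep
  obtain ⟨S, h1, h2⟩ := coord_exists_zeros_of_isSeparable c.inv hsep'
  refine ⟨S, fun v => ?_, ?_⟩
  · rw [h1, Coord.inv_x, v.ord_inv]; omega
  · have h3 : (c.degree : ℤ) = (Module.finrank k⟮c.inv.x⟯ F : ℤ) :=
      congrArg _ c.finrank_inv.symm
    rw [h3, ← h2]
    refine Finset.sum_congr rfl fun v _ => ?_
    rw [Coord.inv_x, v.ord_inv]

end Sep

section Main

variable {Ω : Type*} [Field Ω] [CharZero Ω] {A : ValuationSubring Ω}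
  {𝔽 : Type*} [Field 𝔽] [Algebra Ω 𝔽] {𝔽b : Type*} [Field 𝔽b] [Algebra (ResidueField ↥A) 𝔽b]

/-- the value of a push-forward divisor as a sum over a finite set containing the support. -/
theorem mapDomain_apply_eq_sum_filter {α β : Type*} [DecidableEq β] (f : α → β) (D : α →₀ ℤ)
    (T : Finset α) (hT : D.support ⊆ T) (b : β) :
    Finsupp.mapDomain f D b = ∑ a ∈ T.filter (fun a => f a = b), D a := by
  classical
  rw [Finsupp.mapDomain, Finsupp.sum_apply, Finsupp.sum_of_support_subset D hT _ (by simp)]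
  rw [Finset.sum_filter]
  refine Finset.sum_congr rfl fun a _ => ?_
  rw [Finsupp.single_apply]

/-- **[TAUREG]** every pole of `τ` reduces to a pole of `τ̄`; in the contrapositive form of
`GoodRed.τ_regular`. -/
theorem tau_regular_of_r_div
    (W : ValuationSubring 𝔽) (ρ : ↥W →+* 𝔽b)
    (r : Place Ω 𝔽 → Place (ResidueField ↥A) 𝔽b)
    (r_div : ∀ (y : ↥W), ρ y ≠ 0 → ∀ D : Divisor Ω 𝔽, (∀ P, D P = P.ord (y : 𝔽)) →
      ∀ Q, Finsupp.mapDomain r D Q = Q.ord (ρ y))
    (deg_gen : ∀ P : Place Ω 𝔽, P.deg = 1)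
    (deg_red : ∀ Q : Place (ResidueField ↥A) 𝔽b, Q.deg = 1)
    (c : Coord Ω 𝔽) (hτW : c.x ∈ W) (cb : Coord (ResidueField ↥A) 𝔽b)
    (hcb : cb.x = ρ ⟨c.x, hτW⟩)
    (hsep : Algebra.IsSeparable ↥(ResidueField ↥A)⟮cb.x⟯ 𝔽b) (hdeg : c.degree ≤ cb.degree)
    (Q₀ : Place (ResidueField ↥A) 𝔽b) (hQ₀ : 0 ≤ Q₀.ord cb.x) (P : Place Ω 𝔽)
    (hP : r P = Q₀) : 0 ≤ P.ord c.x := by
  classical
  -- the divisor of `τ`
  have hx0 : c.x - algebraMap Ω 𝔽 0 = c.x := by rw [map_zero, sub_zero]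
  set T : Finset (Place Ω 𝔽) := c.zeros 0 ∪ c.poles with hT
  have hmemT : ∀ v : Place Ω 𝔽, v.ord c.x ≠ 0 → v ∈ T := by
    intro v hv
    rcases lt_or_gt_of_ne hv with h | h
    · exact Finset.mem_union_right _ (c.mem_poles.mpr h)
    · refine Finset.mem_union_left _ (c.mem_zeros.mpr ?_)
      rwa [hx0]
  set D : Divisor Ω 𝔽 := Finsupp.onFinset T (fun v => v.ord c.x) hmemT with hD
  have hDv : ∀ v, D v = v.ord c.x := fun v => rfl
  have hDT : D.support ⊆ T := Finsupp.support_onFinset_subset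
  -- the reduction of `τ` is nonzero
  have hρ0 : ρ ⟨c.x, hτW⟩ ≠ 0 := by
    rw [← hcb]
    intro h0
    apply cb.trans
    rw [h0]
    exact isAlgebraic_zero
  have hdiv : ∀ Q, Finsupp.mapDomain r D Q = Q.ord cb.x := by
    intro Q
    rw [hcb]
    exact r_div ⟨c.x, hτW⟩ hρ0 D hDv Q
  -- the poles of `τ̄`
  obtain ⟨Sb, hSb, hsumb⟩ := coord_exists_poles_of_isSeparable cb hsep
  have hsumb' : ∑ Q ∈ Sb, (-Q.ord cb.x) = cb.degree := by
    rw [← hsumb]
    refine Finset.sum_congr rfl fun Q _ => ?_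
    rw [deg_red Q]; simp
  have hsum : ∑ v ∈ c.poles, (-v.ord c.x) = c.degree := by
    rw [← c.sum_poles]
    refine Finset.sum_congr rfl fun v _ => ?_
    rw [deg_gen v]; simp
  -- the key inequality at a pole `Q` of `τ̄`
  have hkey : ∀ Q, -Q.ord cb.x ≤ ∑ v ∈ c.poles.filter (fun v => r v = Q), (-v.ord c.x) := by
    intro Q
    rw [← hdiv Q, mapDomain_apply_eq_sum_filter r D T hDT Q, ← Finset.sum_neg_distrib]
    have hsplit := Finset.sum_filter_add_sum_filter_not (T.filter (fun v => r v = Q))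
      (fun v => v.ord c.x < 0) (fun v => -D v)
    rw [← hsplit]
    have h1 : (T.filter (fun v => r v = Q)).filter (fun v => v.ord c.x < 0) =
        c.poles.filter (fun v => r v = Q) := by
      ext v
      simp only [Finset.mem_filter]
      constructor
      · rintro ⟨⟨_, h2⟩, h3⟩
        exact ⟨c.mem_poles.mpr h3, h2⟩
      · rintro ⟨h2, h3⟩
        have h4 := c.mem_poles.mp h2
        exact ⟨⟨hmemT v (ne_of_lt h4), h3⟩, h4⟩
    rw [h1]
    have h2 : ∑ v ∈ (T.filter (fun v => r v = Q)).filter (fun v => ¬ v.ord c.x < 0), (-D v)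
        ≤ 0 := by
      apply Finset.sum_nonpos
      intro v hv
      rw [Finset.mem_filter] at hv
      rw [hDv]
      have := hv.2
      omega
    have h3 : ∑ v ∈ c.poles.filter (fun v => r v = Q), (-D v) =
        ∑ v ∈ c.poles.filter (fun v => r v = Q), (-v.ord c.x) :=
      Finset.sum_congr rfl fun v _ => by rw [hDv]
    rw [h3]
    linarith
  -- summing over the poles of `τ̄`
  have hfib : ∑ Q ∈ Sb, ∑ v ∈ c.poles.filter (fun v => r v = Q), (-v.ord c.x) =
      ∑ v ∈ c.poles.filter (fun v => r v ∈ Sb), (-v.ord c.x) := by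
    have h := Finset.sum_fiberwise_of_maps_to (s := c.poles.filter (fun v => r v ∈ Sb)) (t := Sb)
      (g := r) (fun v hv => (Finset.mem_filter.mp hv).2) (fun v => -v.ord c.x)
    rw [← h]
    refine Finset.sum_congr rfl fun Q hQ => ?_
    refine Finset.sum_congr ?_ fun _ _ => rfl
    ext v
    simp only [Finset.mem_filter]
    constructor
    · rintro ⟨h1, h2⟩
      exact ⟨⟨h1, h2 ▸ hQ⟩, h2⟩
    · rintro ⟨⟨h1, _⟩, h2⟩
      exact ⟨h1, h2⟩
  have hge : (cb.degree : ℤ) ≤ ∑ v ∈ c.poles.filter (fun v => r v ∈ Sb), (-v.ord c.x) := by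
    rw [← hsumb', ← hfib]
    exact Finset.sum_le_sum fun Q _ => hkey Q
  -- conclusion
  by_contra hneg
  push_neg at hneg
  have hPpole : P ∈ c.poles := c.mem_poles.mpr hneg
  have hPnot : P ∉ c.poles.filter (fun v => r v ∈ Sb) := by
    intro h
    have h1 := (Finset.mem_filter.mp h).2
    rw [hP, hSb] at h1
    omega
  have hlt : ∑ v ∈ c.poles.filter (fun v => r v ∈ Sb), (-v.ord c.x) <
      ∑ v ∈ c.poles, (-v.ord c.x) := by
    have hsub : insert P (c.poles.filter (fun v => r v ∈ Sb)) ⊆ c.poles := by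
      intro v hv
      rcases Finset.mem_insert.mp hv with rfl | hv
      · exact hPpole
      · exact (Finset.mem_filter.mp hv).1
    have h1 : ∑ v ∈ insert P (c.poles.filter (fun v => r v ∈ Sb)), (-v.ord c.x) ≤
        ∑ v ∈ c.poles, (-v.ord c.x) := by
      apply Finset.sum_le_sum_of_subset_of_nonneg hsub
      intro v hv _
      have := c.mem_poles.mp hv
      omega
    rw [Finset.sum_insert hPnot] at h1
    linarith
  rw [hsum] at hlt
  have : (c.degree : ℤ) ≤ cb.degree := by exact_mod_cast hdeg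
  linarith

/-- **[TAUREG], in the shape of the fields of `GoodRed`**: `τ_regular` follows from `r_div`,
`deg_gen`, `deg_red`, `ord_r_cusp_τ`, the `τ`-fields and the orthogonal basis `b`
(no further input: `ρ τ` is transcendental since it has order `1` at `r cusp`). -/
theorem tau_regular_of_fields
    (W : ValuationSubring 𝔽) (ρ : ↥W →+* 𝔽b)
    (r : Place Ω 𝔽 → Place (ResidueField ↥A) 𝔽b)
    (r_div : ∀ (y : ↥W), ρ y ≠ 0 → ∀ D : Divisor Ω 𝔽, (∀ P, D P = P.ord (y : 𝔽)) →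
      ∀ Q, Finsupp.mapDomain r D Q = Q.ord (ρ y))
    (deg_gen : ∀ P : Place Ω 𝔽, P.deg = 1)
    (deg_red : ∀ Q : Place (ResidueField ↥A) 𝔽b, Q.deg = 1)
    (cusp : Place Ω 𝔽) (τ : 𝔽) (τ_mem : τ ∈ W)
    (ord_r_cusp_τ : (r cusp).ord (ρ ⟨τ, τ_mem⟩) = 1)
    (τ_transcendental : Transcendental Ω τ)
    (τ_finite : FiniteDimensional ↥Ω⟮τ⟯ 𝔽)
    (τ_finite_red : FiniteDimensional ↥(ResidueField ↥A)⟮ρ ⟨τ, τ_mem⟩⟯ 𝔽b)
    (τ_separable_red : Algebra.IsSeparable ↥(ResidueField ↥A)⟮ρ ⟨τ, τ_mem⟩⟯ 𝔽b)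
    (d : ℕ) (finrank_τ : Module.finrank ↥Ω⟮τ⟯ 𝔽 = d)
    (b : Fin d → 𝔽) (b_mem : ∀ i, b i ∈ W)
    (b_red_indep : LinearIndependent ↥(ResidueField ↥A)⟮ρ ⟨τ, τ_mem⟩⟯
      (fun i => ρ ⟨b i, b_mem i⟩)) :
    ∀ P : Place Ω 𝔽, r P = r cusp → 0 ≤ P.ord τ := by
  intro P hP
  have τb_transcendental : Transcendental (ResidueField ↥A) (ρ ⟨τ, τ_mem⟩) := by
    intro halg
    have h1 := ord_eq_zero_of_isAlgebraic (r cusp) halg
    rw [h1] at ord_r_cusp_τ
    exact zero_ne_one ord_r_cusp_τ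
  set c : Coord Ω 𝔽 := ⟨τ, τ_transcendental, τ_finite⟩ with hc
  set cb : Coord (ResidueField ↥A) 𝔽b := ⟨ρ ⟨τ, τ_mem⟩, τb_transcendental, τ_finite_red⟩ with hcb
  have hdeg : c.degree ≤ cb.degree := by
    have h1 : c.degree = d := finrank_τ
    have h2 : cb.degree = Module.finrank ↥(ResidueField ↥A)⟮ρ ⟨τ, τ_mem⟩⟯ 𝔽b := rfl
    rw [h1, h2]
    have h3 := b_red_indep.fintype_card_le_finrank
    rwa [Fintype.card_fin] at h3
  refine tau_regular_of_r_div W ρ r r_div deg_gen deg_red c τ_mem cb rfl τ_separable_red hdeg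
    (r cusp) ?_ P hP
  show 0 ≤ (r cusp).ord (ρ ⟨τ, τ_mem⟩)
  rw [ord_r_cusp_τ]
  exact zero_le_one

end Main

end Fermat.Agent.FG
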