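/-
FG — helper5 — (II) THE INSTANCE, Legendre: the good-reduction datum of the Legendre host
`legE Ω N` at a valuation ring `A` of `Ω = ℚ̄` over an odd prime `ℓ ∤ N`, assembled from
helper6's [E-RED-a]/[E-GAL], helper1's [E-RED-b]/[CUSP-RED], helper8's [COH]/[OB], helper2's
[TAUREG]; the Galois action is by automorphisms of the datum.
-/
import Mathlib
import Fermat.Agent.FG.CURVE_helper5_Red
import Fermat.Agent.FG.EDEF_helper6_Fields
import Fermat.Agent.FG.ERED_helper1_CuspLeg
import Fermat.Agent.FG.EGAL_helper6_CuspRedHes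
import Fermat.Agent.FG.EGAL_helper6_Aut
import Fermat.Agent.FG.OB_helper8_Leg
import Fermat.Agent.FG.COH_helper8_Final
import Fermat.Agent.FG.TAUREG_helper2

set_option autoImplicit false
set_option linter.unusedSectionVars false
set_option linter.style.haveILetI false

noncomputable section

namespace Fermat.Agent.FG

open ModularCurve AlgebraicCurve IsLocalRing IntermediateField Fermat.Agent.JA Fermat.Agent.SS
  Fermat.Agent.Igusa

local notation "Ω" => AlgebraicClosure ℚ
local notation "GQ" => (AlgebraicClosure ℚ ≃ₐ[ℚ] AlgebraicClosure ℚ)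

section Leg

variable {ℓ : ℕ} [Fact ℓ.Prime] {A : ValuationSubring Ω} (hA : A.LiesOverPrime ℓ)
  (N : ℕ) [NeZero N] (hℓN : ¬ ℓ ∣ N) (hℓ2 : ℓ ≠ 2)

/-- the reduction of points of the Legendre host (junk value: the reduced cusp). -/
def legRed : Place Ω ↥(legE Ω N) → Place (ResidueField ↥A) (legEt hA N hℓ2) :=
  legR hA N hℓ2 (legCuspb hA N hℓ2)

include hℓN in
theorem legOB : ∃ (b : Fin (legCoordBar N).degree → ↥(legE Ω N))
    (hb : ∀ i, b i ∈ legWE hA N hℓ2),
    LinearIndependent ↥(ResidueField ↥A)⟮legTaub hA N hℓ2⟯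
      (fun i => legρ hA N hℓ2 ⟨b i, hb i⟩) := by
  obtain ⟨-, h2, -, h4⟩ := legTaub_facts hA N hℓ2 hℓN
  haveI := h2
  exact exists_orthogonal_basis_legE_of_finrank hA N hℓ2 (legTaub hA N hℓ2) h4

/-- **the good-reduction datum of the Legendre host.** -/
def legGoodRed : GoodRed Ω A ↥(legE Ω N) (legEt hA N hℓ2) where
  W := legWE hA N hℓ2
  ρ := legρ hA N hℓ2
  ρ_surjective := legρ_surjective hA N hℓ2
  algebraMap_mem_iff := algebraMap_mem_legWE_iff hA N hℓ2
  ρ_algebraMap := legρ_algebraMap hA N hℓ2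
  exists_smul_unit := legWE_exists_smul_unit hA N hℓ2
  deg_gen := legE_deg_gen N
  deg_red := legEt_deg_red hA N hℓN hℓ2
  principal_gen := legE_principal_gen N
  principal_red := legEt_principal_red hA N hℓN hℓ2
  const_gen := legE_const_gen N
  const_red := legEt_const_red hA N hℓN hℓ2
  r := legRed hA N hℓ2
  r_div := legR_div_final hA N hℓN hℓ2 (legCuspb hA N hℓ2)
  g := (coh_legE hA N hℓN hℓ2).choose
  riemann_gen := (coh_legE hA N hℓN hℓ2).choose_spec.1
  rr_red := (coh_legE hA N hℓN hℓ2).choose_spec.2.2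
  cusp := legCusp Ω N
  τ := legTau Ω N
  τ_mem := legTau_mem_legWE hA N hℓ2
  ord_cusp_τ := legCusp_ord_legTau Ω N
  ord_r_cusp_τ := legR_cusp_ord_legTaub hA N hℓN hℓ2 (legCuspb hA N hℓ2)
  τ_regular := tau_regular_of_fields (legWE hA N hℓ2) (legρ hA N hℓ2) (legRed hA N hℓ2)
    (legR_div_final hA N hℓN hℓ2 (legCuspb hA N hℓ2)) (legE_deg_gen N)
    (legEt_deg_red hA N hℓN hℓ2) (legCusp Ω N) (legTau Ω N) (legTau_mem_legWE hA N hℓ2)
    (legR_cusp_ord_legTaub hA N hℓN hℓ2 (legCuspb hA N hℓ2)) (legTau_transcendental Ω N)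
    (legTau_finite N) (legTaub_facts hA N hℓ2 hℓN).2.1 (legTaub_facts hA N hℓ2 hℓN).2.2.1
    (legCoordBar N).degree (finrank_legTau N) (legOB hA N hℓN hℓ2).choose
    (legOB hA N hℓN hℓ2).choose_spec.choose (legOB hA N hℓN hℓ2).choose_spec.choose_spec
  τ_transcendental := legTau_transcendental Ω N
  τ_finite := legTau_finite N
  τ_finite_red := (legTaub_facts hA N hℓ2 hℓN).2.1
  τ_separable_red := (legTaub_facts hA N hℓ2 hℓN).2.2.1
  d := (legCoordBar N).degree
  finrank_τ := finrank_legTau N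
  b := (legOB hA N hℓN hℓ2).choose
  b_mem := (legOB hA N hℓN hℓ2).choose_spec.choose
  b_red_indep := (legOB hA N hℓN hℓ2).choose_spec.choose_spec

/-- every element of `G_ℚ` acts by a rational automorphism. -/
theorem legGoodRed_isRatAut (σ : GQ) :
    (legGoodRed hA N hℓN hℓ2).IsRatAut (legGalois Ω N σ) where
  smul_τ := legGalois_smul_legTau Ω N σ
  smul_cusp := legGalois_smul_legCusp Ω N σ

/-- the decomposition group acts by automorphisms of the datum. -/
theorem legGoodRed_isAut {σ : GQ} (hσ : σ ∈ A.decompositionSubgroup ℚ) :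
    (legGoodRed hA N hℓN hℓ2).IsAut (legGalois Ω N σ) where
  base_mem := apply_mem_iff_of_mem_decompositionSubgroup hσ
  smul_mem := legGalois_smul_mem_legWE_iff hA N hℓ2
    (apply_mem_iff_of_mem_decompositionSubgroup hσ)
  smul_τ := legGalois_smul_legTau Ω N σ
  smul_cusp := legGalois_smul_legCusp Ω N σ
  r_smul := legR_smul_final hA N hℓN hℓ2 (legCuspb hA N hℓ2)
    (preservesGauss_legGalois hA N hℓ2 hσ) (legGalois_smul_legTΩ N σ)

end Leg

end Fermat.Agent.FG

end
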