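/-
FG [E-GAL] — helper6 — **the kernel of the pullback of divisor classes along a Galois cover.**

`φ : F →ₐ[K] F'` an integral embedding of function fields over an algebraically closed field `K`,
`H` the group of automorphisms of `F'` fixing `φ F`, with `F'^H = φ F`.  If the pullback of a
divisor `D` of `F` is principal, `= div f`, then `h f = c(h) f` for a character `c : H →* Kˣ`; if
every character of `H` is killed by `e` then `f ^ e ∈ φ F` and `e • D` is principal
(`isPrincipal_nsmul_of_pullbackAlong`).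
-/
import Mathlib
import Fermat.Agent.GR.TSWAP_helper4_Transport
import Fermat.Agent.GR.DESC_helper3_Gal

set_option autoImplicit false
set_option linter.unusedSectionVars false
set_option linter.style.haveILetI false

open AlgebraicCurve

namespace Fermat.Agent.FG

open Fermat.Agent.GR Fermat.Agent.FF

section Kernel

variable {K F F' : Type*} [Field K] [Field F] [Field F'] [Algebra K F] [Algebra K F']

/-- the group of `K`-automorphisms of `F'` fixing the image of `φ` pointwise -/
def fixingAlong (φ : F →ₐ[K] F') : Subgroup (F' ≃ₐ[K] F') where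
  carrier := {h | ∀ x : F, h (φ x) = φ x}
  one_mem' := fun _ => rfl
  mul_mem' := fun {a b} ha hb x => by
    show a (b (φ x)) = φ x
    rw [hb x, ha x]
  inv_mem' := fun {a} ha x => by
    show a.symm (φ x) = φ x
    rw [AlgEquiv.symm_apply_eq, ha x]

theorem mem_fixingAlong {φ : F →ₐ[K] F'} {h : F' ≃ₐ[K] F'} :
    h ∈ fixingAlong φ ↔ ∀ x : F, h (φ x) = φ x := Iff.rfl

variable [HasPrincipalDivisors K F'] (φ : F →ₐ[K] F') (hφ : φ.toRingHom.IsIntegral)

/-- pullbacks of divisors are invariant under the automorphisms of the cover -/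
theorem ofAlgAut_smul_pullbackAlong {h : F' ≃ₐ[K] F'} (hh : h ∈ fixingAlong φ)
    (D : Divisor K F) :
    SemilinearAut.ofAlgAut h • Divisor.pullbackAlong φ hφ D = Divisor.pullbackAlong φ hφ D := by
  have ht : Transports (1 : SemilinearAut K F) (SemilinearAut.ofAlgAut h) φ φ := by
    intro x
    rw [one_smul]
    exact hh x
  have := ht.pullbackAlong_smul hφ hφ D
  rw [one_smul] at this
  exact this.symm

/-- a function whose divisor is a pullback has the same orders as its conjugates -/
theorem ord_apply_eq_of_pullbackAlong {h : F' ≃ₐ[K] F'} (hh : h ∈ fixingAlong φ)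
    {D : Divisor K F} {f : F'}
    (hf : ∀ W : Place K F', Divisor.pullbackAlong φ hφ D W = W.ord f) (W : Place K F') :
    W.ord (h f) = W.ord f := by
  have h1 := SemilinearAut.ord_smul (SemilinearAut.ofAlgAut h)
    ((SemilinearAut.ofAlgAut h)⁻¹ • W) f
  rw [smul_inv_smul] at h1
  have h2 : W.ord (h f) = ((SemilinearAut.ofAlgAut h)⁻¹ • W).ord f := h1
  rw [h2, ← hf, ← SemilinearAut.divisor_smul_apply, ofAlgAut_smul_pullbackAlong φ hφ hh, hf]

variable [IsAlgClosed K] [CharZero K] (cE : Coord K F')

include cE in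
/-- the conjugates of a function whose divisor is a pullback are its constant multiples -/
theorem exists_const_of_pullbackAlong {h : F' ≃ₐ[K] F'} (hh : h ∈ fixingAlong φ)
    {D : Divisor K F} {f : F'} (hf0 : f ≠ 0)
    (hf : ∀ W : Place K F', Divisor.pullbackAlong φ hφ D W = W.ord f) :
    ∃ c : Kˣ, h f = algebraMap K F' (c : K) * f := by
  have hhf0 : h f ≠ 0 := (map_ne_zero_iff _ h.injective).mpr hf0
  have hord : ∀ W : Place K F', W.ord (h f * f⁻¹) = 0 := by
    intro W
    rw [W.ord_mul hhf0 (inv_ne_zero hf0), W.ord_inv, ord_apply_eq_of_pullbackAlong φ hφ hh hf W]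
    exact add_neg_cancel _
  obtain ⟨a, ha⟩ := exists_const_of_forall_ord_eq_zero cE _ hord
  have ha0 : a ≠ 0 := by
    rintro rfl
    rw [map_zero] at ha
    exact mul_ne_zero hhf0 (inv_ne_zero hf0) ha
  refine ⟨Units.mk0 a ha0, ?_⟩
  rw [Units.val_mk0, ← ha, mul_assoc, inv_mul_cancel₀ hf0, mul_one]

include cE in
/-- **the kernel of the pullback**: if all characters of the automorphism group of the cover are
killed by `e` and the cover is Galois, a divisor with principal pullback is `e`-torsion in the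
class group. -/
theorem isPrincipal_nsmul_of_pullbackAlong
    (hfib : ∀ v : Place K F, ∃ W : Place K F', W.restrictAlong φ hφ = v)
    (hgal : ∀ y : F', (∀ h ∈ fixingAlong φ, h y = y) → y ∈ Set.range φ)
    (e : ℕ) (hexp : ∀ (c : ↥(fixingAlong φ) →* Kˣ) (h : ↥(fixingAlong φ)), c h ^ e = 1)
    (D : Divisor K F) (hD : (Divisor.pullbackAlong φ hφ D).IsPrincipal) :
    (e • D).IsPrincipal := by
  obtain ⟨f, hf0, hf⟩ := hD
  -- the character
  have hex : ∀ h : ↥(fixingAlong φ), ∃ c : Kˣ, (h : F' ≃ₐ[K] F') f = algebraMap K F' (c : K) * f :=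
    fun h => exists_const_of_pullbackAlong φ hφ cE h.2 hf0 hf
  choose c hc using hex
  have hcmul : ∀ a b : ↥(fixingAlong φ), c (a * b) = c a * c b := by
    intro a b
    have h1 : ((a * b : ↥(fixingAlong φ)) : F' ≃ₐ[K] F') f =
        (a : F' ≃ₐ[K] F') ((b : F' ≃ₐ[K] F') f) := rfl
    have h2 := hc (a * b)
    rw [h1, hc b, map_mul, AlgEquiv.commutes, hc a, ← mul_assoc, ← map_mul] at h2
    have h3 := mul_right_cancel₀ hf0 h2
    have h4 := (algebraMap K F').injective h3
    apply Units.ext
    rw [Units.val_mul, ← h4, mul_comm]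
  have hce : ∀ h : ↥(fixingAlong φ), c h ^ e = 1 := fun h => hexp (MonoidHom.mk' c hcmul) h
  -- `f ^ e` descends
  have hfix : ∀ h ∈ fixingAlong φ, h (f ^ e) = f ^ e := by
    intro h hh
    have h1 := hc ⟨h, hh⟩
    have h2 : h f = algebraMap K F' ((c ⟨h, hh⟩ : Kˣ) : K) * f := h1
    rw [map_pow, h2, mul_pow, ← map_pow, ← Units.val_pow_eq_pow_val, hce ⟨h, hh⟩, Units.val_one,
      map_one, one_mul]
  obtain ⟨g, hg⟩ := hgal _ hfix
  have hg0 : g ≠ 0 := by
    rintro rfl
    rw [map_zero] at hg
    exact pow_ne_zero e hf0 hg.symm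
  refine ⟨g, hg0, fun v => ?_⟩
  obtain ⟨W, rfl⟩ := hfib v
  have h1 := Place.ord_restrictAlong φ hφ W g
  have h2 := Divisor.pullbackAlong_apply φ hφ D W
  rw [hf W] at h2
  have h3 : W.ord (φ g) = (e : ℤ) * W.ord f := by
    rw [hg, ← zpow_natCast, W.ord_zpow]
  have hpos : (0 : ℤ) < (Place.ramificationIndexAlong φ W : ℤ) := by
    letI := algebraAlong φ
    haveI := isScalarTower_along φ
    haveI := isIntegral_along φ hφ
    exact_mod_cast Place.ramificationIndex_pos (F := F) W
  have h4 : (Place.ramificationIndexAlong φ W : ℤ) * ((e • D) (W.restrictAlong φ hφ)) =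
      (Place.ramificationIndexAlong φ W : ℤ) * (W.restrictAlong φ hφ).ord g := by
    rw [← h1, h3, h2, Finsupp.smul_apply, nsmul_eq_mul]
    ring
  exact mul_left_cancel₀ hpos.ne' h4

end Kernel

end Fermat.Agent.FG
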