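/-
FG [E-GAL] — helper6 — **the pullback of degree-zero divisor classes along an embedding of function
fields**, its equivariance under semilinear automorphisms and its kernel.
-/
import Mathlib
import Fermat.Agent.FG.EGAL_helper6_Char

set_option autoImplicit false
set_option linter.unusedSectionVars false
set_option linter.style.haveILetI false

open AlgebraicCurve

namespace Fermat.Agent.FG

open Fermat.Agent.GR Fermat.Agent.FF

section Pull

variable {K F F' : Type*} [Field K] [Field F] [Field F'] [Algebra K F] [Algebra K F']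
  [HasPrincipalDivisors K F'] (φ : F →ₐ[K] F') (hφ : φ.toRingHom.IsIntegral)
  (hFI : FundamentalIdentityAlong K φ hφ)

/-- the pullback on degree-zero divisors -/
noncomputable def pullDegZero :
    Divisor.degZero (K := K) (F := F) →+ Divisor.degZero (K := K) (F := F') :=
  ((Divisor.pullbackAlong φ hφ).domRestrict (Divisor.degZero (K := K) (F := F))).codRestrict _
    fun D => Divisor.pullbackAlong_mem_degZero φ hφ hFI D.2

@[simp] theorem coe_pullDegZero (D : Divisor.degZero (K := K) (F := F)) :
    (pullDegZero φ hφ hFI D : Divisor K F') = Divisor.pullbackAlong φ hφ (D : Divisor K F) := rfl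

/-- **the pullback of degree-zero divisor classes** -/
noncomputable def pic0Pull : Pic0 K F →+ Pic0 K F' :=
  QuotientAddGroup.map _ _ (pullDegZero φ hφ hFI) (by
    rintro ⟨D, hD0⟩ hD
    simp only [AddSubgroup.mem_addSubgroupOf] at hD ⊢
    exact Divisor.isPrincipal_pullbackAlong φ hφ hD)

theorem pic0Pull_mk (D : Divisor.degZero (K := K) (F := F)) :
    pic0Pull φ hφ hFI (Pic0.mk D) = Pic0.mk (pullDegZero φ hφ hFI D) := rfl

/-- equivariance of the pullback under compatible semilinear automorphisms -/
theorem pic0Pull_smul {g : SemilinearAut K F} {g' : SemilinearAut K F'}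
    (ht : Transports g g' φ φ) (x : Pic0 K F) :
    pic0Pull φ hφ hFI (g • x) = g' • pic0Pull φ hφ hFI x := by
  obtain ⟨D, rfl⟩ := Pic0.mk_surjective x
  rw [SemilinearAut.pic0_smul_mk, pic0Pull_mk, pic0Pull_mk, SemilinearAut.pic0_smul_mk]
  refine congrArg Pic0.mk (Subtype.ext ?_)
  exact ht.pullbackAlong_smul hφ hφ (D : Divisor K F)

variable [IsAlgClosed K] [CharZero K] (cE : Coord K F')

include cE in
/-- **the kernel of the pullback is killed by the exponent of the character group of the cover.** -/
theorem nsmul_eq_zero_of_pic0Pull_eq_zero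
    (hfib : ∀ v : Place K F, ∃ W : Place K F', W.restrictAlong φ hφ = v)
    (hgal : ∀ y : F', (∀ h ∈ fixingAlong φ, h y = y) → y ∈ Set.range φ)
    (e : ℕ) (hexp : ∀ (c : ↥(fixingAlong φ) →* Kˣ) (h : ↥(fixingAlong φ)), c h ^ e = 1)
    (x : Pic0 K F) (hx : pic0Pull φ hφ hFI x = 0) : e • x = 0 := by
  obtain ⟨D, rfl⟩ := Pic0.mk_surjective x
  rw [pic0Pull_mk] at hx
  have h1 : pullDegZero φ hφ hFI D ∈
      (Divisor.principal (K := K) (F := F')).addSubgroupOf Divisor.degZero :=
    (QuotientAddGroup.eq_zero_iff _).mp hx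
  rw [AddSubgroup.mem_addSubgroupOf, coe_pullDegZero] at h1
  have h2 := isPrincipal_nsmul_of_pullbackAlong φ hφ cE hfib hgal e hexp (D : Divisor K F) h1
  have h3 : e • Pic0.mk D = Pic0.mk (e • D) := rfl
  rw [h3, Pic0.mk, QuotientAddGroup.eq_zero_iff, AddSubgroup.mem_addSubgroupOf]
  exact h2

end Pull

end Fermat.Agent.FG
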