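/-
FG [E-GAL] — helper6 — **Galois covers of function fields along an embedding** `φ : F →ₐ[K] E`:
every place of `F` extends (`exists_restrictAlong_eq`), the fixed field of the automorphisms of the
cover is `φ F` when `E / φ F` is generated by an element all of whose conjugates lie in `E`
(`mem_range_of_fixingAlong_fixed`), and faithfulness of the action on a generator.
-/
import Mathlib
import Fermat.Agent.FG.EGAL_helper6_Pull
import Fermat.Agent.JA.UP_helper7_Coord

set_option autoImplicit false
set_option linter.unusedSectionVars false
set_option linter.style.haveILetI false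

open AlgebraicCurve Polynomial

namespace Fermat.Agent.FG

open Fermat.Agent.GR Fermat.Agent.FF Fermat.Agent.JA

section Fibre

variable {K F E : Type*} [Field K] [Field F] [Field E] [Algebra K F] [Algebra K E]
  [CharZero K] [IsAlgClosed K]

/-- **every place extends** along a finite embedding of function fields. -/
theorem exists_restrictAlong_eq (c : Coord K F) (φ : F →ₐ[K] E) (hfin : FiniteAlong K φ)
    (hφ : φ.toRingHom.IsIntegral) (v : Place K F) :
    ∃ W : Place K E, W.restrictAlong φ hφ = v := by
  letI := algebraAlong φ
  haveI := isScalarTower_along φ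
  haveI := isIntegral_along φ (isIntegral_of_finiteAlong φ hfin)
  haveI : HasPrincipalDivisors K E := (c.extendAlong φ hfin).hasPrincipalDivisors
  haveI : Module.Finite F E := hfin
  obtain ⟨-, -, hsum⟩ := upstairs_of_coord c φ hfin
  have hpos : (0 : ℤ) < (Module.finrank F E : ℤ) := by exact_mod_cast Module.finrank_pos
  have hne : (v.fiber E).Nonempty := by
    by_contra hempty
    rw [Finset.not_nonempty_iff_eq_empty] at hempty
    have := hsum v
    rw [hempty, Finset.sum_empty] at this
    omega
  obtain ⟨W, hW⟩ := hne
  exact ⟨W, Place.mem_fiber.mp hW⟩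

end Fibre

section Galois

variable {K F E : Type*} [Field K] [Field F] [Field E] [Algebra K F] [Algebra K E]
  (φ : F →ₐ[K] E)

/-- an automorphism of `E` over `F` (along `φ`) as an element of `fixingAlong φ`. -/
theorem restrictScalars_mem_fixingAlong
    (f : letI := algebraAlong φ; E ≃ₐ[F] E) :
    letI := algebraAlong φ
    haveI := isScalarTower_along φ
    (f.restrictScalars K) ∈ fixingAlong φ := by
  letI := algebraAlong φ
  haveI := isScalarTower_along φ
  intro x
  exact f.commutes x

/-- an element of `fixingAlong φ` as an automorphism of `E` over `F`. -/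
noncomputable def fixingAlongToAlgEquiv (h : ↥(fixingAlong φ)) :
    letI := algebraAlong φ; E ≃ₐ[F] E :=
  letI := algebraAlong φ
  { (h : E ≃ₐ[K] E).toRingEquiv with
    commutes' := fun x => h.2 x }

theorem fixingAlongToAlgEquiv_apply (h : ↥(fixingAlong φ)) (y : E) :
    letI := algebraAlong φ
    fixingAlongToAlgEquiv φ h y = (h : E ≃ₐ[K] E) y := rfl

variable [CharZero K]

/-- **Galois-ness from a generator with split minimal equation**: if `E = φ F (t)` and `t` is a
root of a nonzero polynomial over `F` splitting in `E`, then `E / φ F` is Galois. -/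
theorem isGalois_along_of_splits (hfin : FiniteAlong K φ) (t : E)
    (hgen : letI := algebraAlong φ; IntermediateField.adjoin F {t} = ⊤)
    (p : F[X]) (hp : p ≠ 0) (hpt : (p.map φ.toRingHom).eval t = 0)
    (hsplit : (p.map φ.toRingHom).Splits) :
    letI := algebraAlong φ; IsGalois F E := by
  letI := algebraAlong φ
  haveI := isScalarTower_along φ
  haveI : Module.Finite F E := hfin
  haveI : CharZero F := charZero_of_injective_algebraMap (algebraMap K F).injective
  haveI : Algebra.IsSeparable F E := Algebra.IsAlgebraic.isSeparable_of_perfectField
  have hsplit' : (p.map (algebraMap F E)).Splits := hsplit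
  haveI : p.IsSplittingField F E := by
    rw [isSplittingField_iff_intermediateField]
    refine ⟨hsplit', ?_⟩
    rw [eq_top_iff, ← hgen, IntermediateField.adjoin_le_iff, Set.singleton_subset_iff]
    apply IntermediateField.subset_adjoin
    rw [mem_rootSet]
    refine ⟨hp, ?_⟩
    rw [aeval_def, eval₂_eq_eval_map]
    exact hpt
  haveI : Normal F E := Normal.of_isSplittingField p
  exact ⟨⟩

/-- **the fixed field of the automorphisms of a Galois cover is the base.** -/
theorem mem_range_of_fixingAlong_fixed (hfin : FiniteAlong K φ)
    (hgal : letI := algebraAlong φ; IsGalois F E) (y : E)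
    (hy : ∀ h ∈ fixingAlong φ, h y = y) : y ∈ Set.range φ := by
  letI := algebraAlong φ
  haveI := isScalarTower_along φ
  haveI : Module.Finite F E := hfin
  haveI : IsGalois F E := hgal
  have h1 : y ∈ Set.range (algebraMap F E) := by
    rw [IsGalois.mem_range_algebraMap_iff_fixed]
    intro f
    exact hy _ (restrictScalars_mem_fixingAlong φ f)
  exact h1

omit [CharZero K] in
/-- **faithfulness**: an automorphism of the cover fixing a generator is trivial. -/
theorem eq_one_of_apply_generator (t : E)
    (hgen : letI := algebraAlong φ; IntermediateField.adjoin F {t} = ⊤)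
    (halg : letI := algebraAlong φ; IsIntegral F t)
    {h : E ≃ₐ[K] E} (hh : h ∈ fixingAlong φ) (ht : h t = t) : h = 1 := by
  letI := algebraAlong φ
  haveI := isScalarTower_along φ
  have hgen' : Algebra.adjoin F {t} = ⊤ := by
    have := IntermediateField.adjoin_simple_toSubalgebra_of_isAlgebraic halg.isAlgebraic
    rw [hgen] at this
    exact this.symm
  have h1 : (fixingAlongToAlgEquiv φ ⟨h, hh⟩ : E →ₐ[F] E) = AlgHom.id F E := by
    apply AlgHom.ext_of_adjoin_eq_top hgen'
    intro x hx
    rw [Set.mem_singleton_iff] at hx
    subst hx
    exact ht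
  ext y
  have := congrArg (fun g : E →ₐ[F] E => g y) h1
  exact this

end Galois

end Fermat.Agent.FG
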