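/-
FG — helper2 — [REFL] (R2) [OB], part 1: the Gauss lemma on `Ω(τ)` for a good-reduction datum.

* `transcendental_τb` : the reduced uniformizer is transcendental over the residue field;
* `aeval_τ_mem_W_iff` : `∑ a_j τ^j ∈ W ↔ ∀ j, a_j ∈ A`;
* `ρ_evalW` : reduction of an integral polynomial in `τ`;
* `exists_smul_unit_of_mem_adjoin` : every nonzero element of `Ω(τ)` is a constant times a Gauss
  unit whose reduction lies in `k(τ̄)`;
* `ρ_mem_adjoin` : `ρ (W ∩ Ω(τ)) ⊆ k(τ̄)`.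
-/
import Mathlib
import Fermat.Agent.FG.LAT_helper5_Gauss
import Fermat.Agent.FG.LATT_helper2_Gauss
import Fermat.Agent.FF.Principal

set_option autoImplicit false
set_option linter.unusedSectionVars false
set_option linter.style.haveILetI false

noncomputable section

namespace Fermat.Agent.FG

open AlgebraicCurve IsLocalRing IntermediateField Polynomial Fermat.Agent.FF Fermat.Agent.JA

namespace GoodRed

variable {Ω : Type*} [Field Ω] {A : ValuationSubring Ω} {𝔽 : Type*} [Field 𝔽] [Algebra Ω 𝔽]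
  {𝔽b : Type*} [Field 𝔽b] [Algebra (ResidueField ↥A) 𝔽b] (X : GoodRed Ω A 𝔽 𝔽b)

/-- the reduced uniformizer is not a constant -/
theorem transcendental_τb : Transcendental (ResidueField ↥A) X.τb := by
  intro halg
  have h1 := ord_eq_zero_of_isAlgebraic X.cuspb halg
  have h2 : X.cuspb.ord X.τb = 1 := X.ord_r_cusp_τ
  rw [h1] at h2
  exact zero_ne_one h2

/-- the constants of `W` -/
def constW : ↥A →+* ↥X.W where
  toFun a := ⟨algebraMap Ω 𝔽 (a : Ω), X.algebraMap_mem_W a.2⟩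
  map_one' := Subtype.ext (by simp)
  map_mul' a b := Subtype.ext (by simp)
  map_zero' := Subtype.ext (by simp)
  map_add' a b := Subtype.ext (by simp)

@[simp]
theorem coe_constW (a : ↥A) : ((X.constW a : ↥X.W) : 𝔽) = algebraMap Ω 𝔽 (a : Ω) := rfl

theorem ρ_constW (a : ↥A) :
    X.ρ (X.constW a) = algebraMap (ResidueField ↥A) 𝔽b (residue ↥A a) := X.ρ_const a

/-- evaluation of an integral polynomial at `τ`, as an element of `W` -/
def evalW (p : (↥A)[X]) : ↥X.W := eval₂ X.constW ⟨X.τ, X.τ_mem⟩ p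

theorem coe_evalW (p : (↥A)[X]) :
    ((X.evalW p : ↥X.W) : 𝔽) = aeval X.τ (p.map (algebraMap ↥A Ω)) := by
  rw [evalW, aeval_def, eval₂_map]
  have h := hom_eval₂ p X.constW X.W.subtype ⟨X.τ, X.τ_mem⟩
  exact h

/-- reduction of an integral polynomial in `τ` -/
theorem ρ_evalW (p : (↥A)[X]) : X.ρ (X.evalW p) = aeval X.τb (p.map (residue ↥A)) := by
  rw [evalW, hom_eval₂, aeval_def, eval₂_map]
  congr 1
  ext a
  exact X.ρ_constW a

theorem ρ_evalW_ne_zero {p : (↥A)[X]} (hp : p.map (residue ↥A) ≠ 0) : X.ρ (X.evalW p) ≠ 0 := by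
  rw [X.ρ_evalW]
  intro h0
  exact hp ((transcendental_iff.1 X.transcendental_τb) _ h0)

theorem ρ_evalW_mem (p : (↥A)[X]) : X.ρ (X.evalW p) ∈ (ResidueField ↥A)⟮X.τb⟯ := by
  rw [X.ρ_evalW, aeval_eq_sum_range]
  refine sum_mem fun i _ => ?_
  rw [Algebra.smul_def]
  exact mul_mem (IntermediateField.algebraMap_mem _ _)
    (pow_mem (mem_adjoin_simple_self (ResidueField ↥A) X.τb) _)

/-- a polynomial over `Ω` with coefficients in `A`, as a polynomial over `A` -/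
def liftPoly (p : Polynomial Ω) (hp : ∀ j, p.coeff j ∈ A) : (↥A)[X] :=
  p.toSubring A.toSubring (fun c hc => by
    rw [Finset.mem_coe, mem_coeffs_iff] at hc
    obtain ⟨n, -, rfl⟩ := hc
    exact hp n)

theorem coeff_liftPoly (p : Polynomial Ω) (hp : ∀ j, p.coeff j ∈ A) (j : ℕ) :
    ((liftPoly p hp).coeff j : Ω) = p.coeff j := by
  rw [liftPoly, coeff_toSubring]

theorem map_liftPoly (p : Polynomial Ω) (hp : ∀ j, p.coeff j ∈ A) :
    (liftPoly p hp).map (algebraMap ↥A Ω) = p := by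
  ext j
  rw [coeff_map]
  exact coeff_liftPoly p hp j

/-- **normalisation of a polynomial in `τ`**: a nonzero polynomial in `τ` is a constant times a
Gauss unit with reduction in `k(τ̄)`. -/
theorem exists_smul_unit_aeval {p : Polynomial Ω} (hp : p ≠ 0) :
    ∃ (a : Ω) (hu : a • aeval X.τ p ∈ X.W), a ≠ 0 ∧ (∀ j, a * p.coeff j ∈ A) ∧
      X.ρ ⟨_, hu⟩ ≠ 0 ∧ X.ρ ⟨_, hu⟩ ∈ (ResidueField ↥A)⟮X.τb⟯ := by
  classical
  -- normalise the coefficient vector
  set x : Fin (p.natDegree + 1) → Ω := fun j => p.coeff j with hx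
  have hx0 : x ≠ 0 := by
    intro h0
    have h1 : p.coeff p.natDegree = 0 := congrFun h0 ⟨p.natDegree, Nat.lt_succ_self _⟩
    exact hp (leadingCoeff_eq_zero.1 h1)
  obtain ⟨j₁, a, ha0, haA, ha1⟩ := exists_normalised_multiple (A := A) hx0
  have hcoeff : ∀ j, (C a * p).coeff j ∈ A := by
    intro j
    rw [coeff_C_mul]
    by_cases hj : j < p.natDegree + 1
    · exact haA ⟨j, hj⟩
    · rw [coeff_eq_zero_of_natDegree_lt (by omega), mul_zero]
      exact A.zero_mem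
  set q : (↥A)[X] := liftPoly (C a * p) hcoeff with hq
  have hqτ : ((X.evalW q : ↥X.W) : 𝔽) = a • aeval X.τ p := by
    rw [X.coe_evalW, hq, map_liftPoly, map_mul, aeval_C, Algebra.smul_def]
  have hu : a • aeval X.τ p ∈ X.W := hqτ ▸ (X.evalW q).2
  have hqe : X.evalW q = ⟨_, hu⟩ := Subtype.ext hqτ
  have hq1 : (q.map (residue ↥A)).coeff (j₁ : ℕ) = 1 := by
    rw [coeff_map]
    have h1 : q.coeff (j₁ : ℕ) = 1 := by
      apply Subtype.ext
      rw [hq, coeff_liftPoly, coeff_C_mul]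
      exact ha1
    rw [h1, map_one]
  have hq0 : q.map (residue ↥A) ≠ 0 := by
    intro h0
    rw [h0, coeff_zero] at hq1
    exact zero_ne_one hq1
  refine ⟨a, hu, ha0, fun j => ?_, ?_, ?_⟩
  · have := hcoeff j
    rwa [coeff_C_mul] at this
  · rw [← hqe]
    exact X.ρ_evalW_ne_zero hq0
  · rw [← hqe]
    exact X.ρ_evalW_mem q

/-- a unit of `W` with a unit constant multiple in `W`: the constant is integral -/
theorem mem_of_smul_unit {a : Ω} {f : 𝔽} (hf : f ∈ X.W) (hu : a • f ∈ X.W) (ha : a ≠ 0)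
    (hρ : X.ρ ⟨_, hu⟩ ≠ 0) : a⁻¹ ∈ A := by
  have hu0 : a • f ≠ 0 := X.ρ_ne_zero_imp_ne_zero hu hρ
  have hinv : (a • f)⁻¹ ∈ X.W := (X.inv_mem_W_iff hu hu0).2 hρ
  have h1 : algebraMap Ω 𝔽 a⁻¹ = f * (a • f)⁻¹ := by
    have hf0 : f ≠ 0 := by
      rintro rfl
      exact hu0 (smul_zero a)
    rw [Algebra.smul_def, mul_inv, map_inv₀]
    field_simp
  rw [← X.algebraMap_mem_iff, h1]
  exact X.W.mul_mem _ _ hf hinv

/-- **Gauss lemma**: a polynomial in `τ` is integral iff its coefficients are. -/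
theorem aeval_τ_mem_W_iff (p : Polynomial Ω) : aeval X.τ p ∈ X.W ↔ ∀ j, p.coeff j ∈ A := by
  constructor
  · intro h j
    by_cases hp : p = 0
    · rw [hp, coeff_zero]; exact A.zero_mem
    obtain ⟨a, hu, ha0, haA, hρ, -⟩ := X.exists_smul_unit_aeval hp
    have hinv := X.mem_of_smul_unit h hu ha0 hρ
    have h1 : p.coeff j = a⁻¹ * (a * p.coeff j) := by
      rw [← mul_assoc, inv_mul_cancel₀ ha0, one_mul]
    rw [h1]
    exact A.mul_mem _ _ hinv (haA j)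
  · intro h
    rw [aeval_eq_sum_range]
    refine sum_mem fun i _ => ?_
    exact X.smul_mem_W (h i) (pow_mem X.τ_mem i)

/-- **the value group of `W ∩ Ω(τ)` is that of `A`**, and residues stay in `k(τ̄)`. -/
theorem exists_smul_unit_of_mem_adjoin {f : 𝔽} (hf : f ∈ Ω⟮X.τ⟯) (hf0 : f ≠ 0) :
    ∃ (a : Ω) (hu : a • f ∈ X.W), a ≠ 0 ∧
      X.ρ ⟨_, hu⟩ ≠ 0 ∧ X.ρ ⟨_, hu⟩ ∈ (ResidueField ↥A)⟮X.τb⟯ := by
  obtain ⟨p, q, rfl⟩ := (mem_adjoin_simple_iff Ω f).1 hf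
  have hp0 : p ≠ 0 := by
    rintro rfl
    rw [map_zero, zero_div] at hf0
    exact hf0 rfl
  have hq0 : q ≠ 0 := by
    rintro rfl
    rw [map_zero, div_zero] at hf0
    exact hf0 rfl
  obtain ⟨a, hua, ha0, -, hρa, hma⟩ := X.exists_smul_unit_aeval hp0
  obtain ⟨b, hub, hb0, -, hρb, hmb⟩ := X.exists_smul_unit_aeval hq0
  have hub0 : b • aeval X.τ q ≠ 0 := X.ρ_ne_zero_imp_ne_zero hub hρb
  have hinv : (b • aeval X.τ q)⁻¹ ∈ X.W := (X.inv_mem_W_iff hub hub0).2 hρb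
  have hq1 : aeval X.τ q ≠ 0 := by
    intro h0
    rw [h0, smul_zero] at hub0
    exact hub0 rfl
  have heq : (a / b) • (aeval X.τ p / aeval X.τ q) =
      (a • aeval X.τ p) * (b • aeval X.τ q)⁻¹ := by
    rw [Algebra.smul_def, Algebra.smul_def, Algebra.smul_def, map_div₀, mul_inv]
    have hb' : algebraMap Ω 𝔽 b ≠ 0 := (_root_.map_ne_zero _).2 hb0
    field_simp
  have hu : (a / b) • (aeval X.τ p / aeval X.τ q) ∈ X.W := by
    rw [heq]
    exact X.W.mul_mem _ _ hua hinv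
  have hmul : (⟨_, hu⟩ : ↥X.W) * ⟨_, hub⟩ = ⟨_, hua⟩ := by
    apply Subtype.ext
    show (a / b) • (aeval X.τ p / aeval X.τ q) * (b • aeval X.τ q) = a • aeval X.τ p
    rw [heq, inv_mul_cancel_right₀ hub0]
  have hρmul := congrArg X.ρ hmul
  rw [map_mul] at hρmul
  have hρeq : X.ρ ⟨_, hu⟩ = X.ρ ⟨_, hua⟩ / X.ρ ⟨_, hub⟩ := by
    rw [eq_div_iff hρb]
    exact hρmul
  refine ⟨a / b, hu, div_ne_zero ha0 hb0, ?_, ?_⟩
  · rw [hρeq]
    exact div_ne_zero hρa hρb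
  · rw [hρeq]
    exact div_mem hma hmb

/-- **`ρ (W ∩ Ω(τ)) ⊆ k(τ̄)`** -/
theorem ρ_mem_adjoin {f : 𝔽} (hf : f ∈ Ω⟮X.τ⟯) (hfW : f ∈ X.W) :
    X.ρ ⟨f, hfW⟩ ∈ (ResidueField ↥A)⟮X.τb⟯ := by
  by_cases hf0 : f = 0
  · have : (⟨f, hfW⟩ : ↥X.W) = 0 := Subtype.ext hf0
    rw [this, map_zero]
    exact zero_mem _
  obtain ⟨a, hu, ha0, hρ, hm⟩ := X.exists_smul_unit_of_mem_adjoin hf hf0
  have hinv : a⁻¹ ∈ A := X.mem_of_smul_unit hfW hu ha0 hρ
  have h1 : (⟨f, hfW⟩ : ↥X.W) = ⟨(a⁻¹ : Ω) • (a • f), X.smul_mem_W hinv hu⟩ := by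
    apply Subtype.ext
    show f = a⁻¹ • a • f
    rw [smul_smul, inv_mul_cancel₀ ha0, one_smul]
  rw [h1, X.ρ_smul ⟨a⁻¹, hinv⟩ ⟨_, hu⟩]
  exact IntermediateField.smul_mem _ hm

end GoodRed

end Fermat.Agent.FG

end
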