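/-
FG — helper2 — [REFL] (R2) [OB], part 2: the orthogonal basis of a good-reduction datum.

* `Wτ = W ∩ Ω(τ)` (a valuation subring of `Ω(τ)`), `ρτ : Wτ →+* k(τ̄)`;
* `b_linearIndependent`, `basisτ` : `b` is an `Ω(τ)`-basis of `𝔽`;
* `repr_mem_Wτ` : `W = ⊕ Wτ b_i`;
* `basisτb` : `ρ b` is a `k(τ̄)`-basis of `𝔽b`, `finrank_τb`; `repr_ρ` : coordinates commute
  with reduction.
-/
import Mathlib
import Fermat.Agent.FG.OB_helper2_Gauss

set_option autoImplicit false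
set_option linter.unusedSectionVars false
set_option linter.style.haveILetI false

noncomputable section

namespace Fermat.Agent.FG

open AlgebraicCurve IsLocalRing IntermediateField Polynomial Fermat.Agent.FF Fermat.Agent.JA

namespace GoodRed

variable {Ω : Type*} [Field Ω] {A : ValuationSubring Ω} {𝔽 : Type*} [Field 𝔽] [Algebra Ω 𝔽]
  {𝔽b : Type*} [Field 𝔽b] [Algebra (ResidueField ↥A) 𝔽b] (X : GoodRed Ω A 𝔽 𝔽b)

instance finiteDimensional_τ_OB : FiniteDimensional ↥Ω⟮X.τ⟯ 𝔽 := X.τ_finite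

instance finiteDimensional_τb_OB : FiniteDimensional ↥(ResidueField ↥A)⟮X.τb⟯ 𝔽b := X.τ_finite_red

/-- the Gauss valuation ring of `Ω(τ)` -/
def Wτ : ValuationSubring ↥Ω⟮X.τ⟯ := X.W.comap (algebraMap ↥Ω⟮X.τ⟯ 𝔽)

theorem mem_Wτ_iff (c : ↥Ω⟮X.τ⟯) : c ∈ X.Wτ ↔ (c : 𝔽) ∈ X.W := Iff.rfl

/-- the inclusion `Wτ → W` -/
def inclWτ : ↥X.Wτ →+* ↥X.W where
  toFun c := ⟨((c : ↥Ω⟮X.τ⟯) : 𝔽), c.2⟩
  map_one' := rfl
  map_mul' _ _ := rfl
  map_zero' := rfl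
  map_add' _ _ := rfl

@[simp]
theorem coe_inclWτ (c : ↥X.Wτ) : ((X.inclWτ c : ↥X.W) : 𝔽) = ((c : ↥Ω⟮X.τ⟯) : 𝔽) := rfl

/-- reduction on `Ω(τ)` -/
def ρτ : ↥X.Wτ →+* ↥(ResidueField ↥A)⟮X.τb⟯ :=
  (X.ρ.comp X.inclWτ).codRestrict _ (fun c => X.ρ_mem_adjoin (c : ↥Ω⟮X.τ⟯).2 c.2)

@[simp]
theorem coe_ρτ (c : ↥X.Wτ) : ((X.ρτ c : ↥(ResidueField ↥A)⟮X.τb⟯) : 𝔽b) = X.ρ (X.inclWτ c) := rfl

/-- the orthogonal basis as elements of `W` -/
def bW (i : Fin X.d) : ↥X.W := ⟨X.b i, X.b_mem i⟩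

@[simp]
theorem coe_bW (i : Fin X.d) : ((X.bW i : ↥X.W) : 𝔽) = X.b i := rfl

theorem ρ_bW_linearIndependent :
    LinearIndependent ↥(ResidueField ↥A)⟮X.τb⟯ (fun i => X.ρ (X.bW i)) := X.b_red_indep

theorem ρ_sum_eq (c : Fin X.d → ↥X.Wτ) :
    X.ρ (∑ i, X.inclWτ (c i) * X.bW i) = ∑ i, X.ρτ (c i) • X.ρ (X.bW i) := by
  rw [map_sum]
  refine Finset.sum_congr rfl fun i _ => ?_
  rw [map_mul, IntermediateField.smul_def, smul_eq_mul, coe_ρτ]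

theorem ρτ_eq_zero_of_sum (c : Fin X.d → ↥X.Wτ)
    (h : X.ρ (∑ i, X.inclWτ (c i) * X.bW i) = 0) (i : Fin X.d) : X.ρτ (c i) = 0 := by
  rw [X.ρ_sum_eq] at h
  exact Fintype.linearIndependent_iff.1 X.ρ_bW_linearIndependent _ h i

theorem coe_sum_incl_mul (c : Fin X.d → ↥X.Wτ) :
    ((∑ i, X.inclWτ (c i) * X.bW i : ↥X.W) : 𝔽) = ∑ i, ((c i : ↥Ω⟮X.τ⟯) : 𝔽) * X.b i := by
  rw [← ValuationSubring.subtype_apply, map_sum]
  rfl

/-- the `b i` are linearly independent over `Ω(τ)` -/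
theorem b_linearIndependent : LinearIndependent ↥Ω⟮X.τ⟯ X.b := by
  rw [Fintype.linearIndependent_iff]
  intro c hc
  by_contra hne
  have hc0 : c ≠ 0 := by
    intro h0
    apply hne
    intro i
    rw [h0]; rfl
  obtain ⟨j₁, a, ha0, haA, ha1⟩ := exists_normalised_multiple (A := X.Wτ) hc0
  set c' : Fin X.d → ↥X.Wτ := fun i => ⟨a * c i, haA i⟩ with hc'
  have h1 : (∑ i, X.inclWτ (c' i) * X.bW i : ↥X.W) = 0 := by
    apply Subtype.ext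
    rw [X.coe_sum_incl_mul]
    have h2 : ∀ i, ((c' i : ↥Ω⟮X.τ⟯) : 𝔽) * X.b i = (a : 𝔽) * (c i • X.b i) := by
      intro i
      rw [IntermediateField.smul_def, smul_eq_mul, ← mul_assoc]
      rfl
    rw [Finset.sum_congr rfl (fun i _ => h2 i), ← Finset.mul_sum, hc, mul_zero]
    rfl
  have h3 := X.ρτ_eq_zero_of_sum c' (by rw [h1, map_zero]) j₁
  have h4 : c' j₁ = 1 := Subtype.ext ha1
  rw [h4, map_one] at h3
  exact one_ne_zero h3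

theorem d_pos : 0 < X.d := by
  rw [← X.finrank_τ]
  exact Module.finrank_pos

instance nonempty_fin_d_OB : Nonempty (Fin X.d) := ⟨⟨0, X.d_pos⟩⟩

/-- `b` as an `Ω(τ)`-basis of `𝔽` -/
def basisτ : Module.Basis (Fin X.d) ↥Ω⟮X.τ⟯ 𝔽 :=
  basisOfLinearIndependentOfCardEqFinrank X.b_linearIndependent
    (by rw [Fintype.card_fin, X.finrank_τ])

@[simp]
theorem basisτ_apply (i : Fin X.d) : X.basisτ i = X.b i := by
  rw [basisτ, coe_basisOfLinearIndependentOfCardEqFinrank]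

/-- a non-unit of `Wτ` reduces to zero in `W` -/
theorem ρ_incl_eq_zero_of_inv_notMem {a : ↥Ω⟮X.τ⟯} (ha : a ∈ X.Wτ) (hinv : a⁻¹ ∉ X.Wτ) :
    X.ρ (X.inclWτ ⟨a, ha⟩) = 0 := by
  by_contra hne
  apply hinv
  have ha0 : (a : 𝔽) ≠ 0 := X.ρ_ne_zero_imp_ne_zero ha hne
  have h1 : (a : 𝔽)⁻¹ ∈ X.W := (X.inv_mem_W_iff ha ha0).2 hne
  rw [mem_Wτ_iff]
  have : ((a⁻¹ : ↥Ω⟮X.τ⟯) : 𝔽) = (a : 𝔽)⁻¹ := rfl
  rw [this]
  exact h1

/-- **`W = ⊕ Wτ b_i`**: the coordinates of an integral function are integral -/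
theorem repr_mem_Wτ {f : 𝔽} (hf : f ∈ X.W) (i : Fin X.d) : X.basisτ.repr f i ∈ X.Wτ := by
  set c : Fin X.d → ↥Ω⟮X.τ⟯ := fun i => X.basisτ.repr f i with hc
  have hsum : ∑ i, c i • X.b i = f := by
    have := X.basisτ.sum_repr f
    simpa only [basisτ_apply] using this
  by_cases hc0 : c = 0
  · have : c i = 0 := by rw [hc0]; rfl
    rw [show X.basisτ.repr f i = c i from rfl, this]
    exact zero_mem _
  obtain ⟨j₁, a, ha0, haA, ha1⟩ := exists_normalised_multiple (A := X.Wτ) hc0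
  by_cases hinv : a⁻¹ ∈ X.Wτ
  · have h1 : c i = a⁻¹ * (a * c i) := by
      rw [← mul_assoc, inv_mul_cancel₀ ha0, one_mul]
    rw [show X.basisτ.repr f i = c i from rfl, h1]
    exact mul_mem hinv (haA i)
  exfalso
  have haW : a ∈ X.Wτ := (X.Wτ.mem_or_inv_mem a).resolve_right hinv
  have hρa := X.ρ_incl_eq_zero_of_inv_notMem haW hinv
  set c' : Fin X.d → ↥X.Wτ := fun i => ⟨a * c i, haA i⟩ with hc'
  have h1 : (∑ i, X.inclWτ (c' i) * X.bW i : ↥X.W) = X.inclWτ ⟨a, haW⟩ * ⟨f, hf⟩ := by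
    apply Subtype.ext
    rw [X.coe_sum_incl_mul]
    have h2 : ∀ i, ((c' i : ↥Ω⟮X.τ⟯) : 𝔽) * X.b i = (a : 𝔽) * (c i • X.b i) := by
      intro i
      rw [IntermediateField.smul_def, smul_eq_mul, ← mul_assoc]
      rfl
    rw [Finset.sum_congr rfl (fun i _ => h2 i), ← Finset.mul_sum, hsum]
    rfl
  have h3 := X.ρτ_eq_zero_of_sum c' (by rw [h1, map_mul, hρa, zero_mul]) j₁
  have h4 : c' j₁ = 1 := Subtype.ext ha1
  rw [h4, map_one] at h3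
  exact one_ne_zero h3

/-- the integral coordinates of an integral function -/
def coordW (f : ↥X.W) (i : Fin X.d) : ↥X.Wτ := ⟨X.basisτ.repr (f : 𝔽) i, X.repr_mem_Wτ f.2 i⟩

theorem sum_coordW (f : ↥X.W) : ∑ i, X.inclWτ (X.coordW f i) * X.bW i = f := by
  apply Subtype.ext
  rw [X.coe_sum_incl_mul]
  have := X.basisτ.sum_repr (f : 𝔽)
  simp only [basisτ_apply, IntermediateField.smul_def, smul_eq_mul] at this
  exact this

theorem ρ_eq_sum_coordW (f : ↥X.W) : X.ρ f = ∑ i, X.ρτ (X.coordW f i) • X.ρ (X.bW i) := by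
  conv_lhs => rw [← X.sum_coordW f]
  exact X.ρ_sum_eq _

theorem span_ρ_bW :
    ⊤ ≤ Submodule.span ↥(ResidueField ↥A)⟮X.τb⟯ (Set.range fun i => X.ρ (X.bW i)) := by
  intro y _
  obtain ⟨f, rfl⟩ := X.ρ_surjective y
  rw [X.ρ_eq_sum_coordW f]
  exact Submodule.sum_mem _ fun i _ =>
    Submodule.smul_mem _ _ (Submodule.subset_span ⟨i, rfl⟩)

/-- `ρ b` as a `k(τ̄)`-basis of `𝔽b` -/
def basisτb : Module.Basis (Fin X.d) ↥(ResidueField ↥A)⟮X.τb⟯ 𝔽b :=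
  Module.Basis.mk X.ρ_bW_linearIndependent X.span_ρ_bW

@[simp]
theorem basisτb_apply (i : Fin X.d) : X.basisτb i = X.ρ (X.bW i) := by
  rw [basisτb, Module.Basis.mk_apply]

/-- `[𝔽b : k(τ̄)] = [𝔽 : Ω(τ)]` -/
theorem finrank_τb : Module.finrank ↥(ResidueField ↥A)⟮X.τb⟯ 𝔽b = X.d := by
  rw [Module.finrank_eq_card_basis X.basisτb, Fintype.card_fin]

/-- coordinates commute with reduction -/
theorem repr_ρ (f : ↥X.W) (i : Fin X.d) :
    X.basisτb.repr (X.ρ f) i = X.ρτ (X.coordW f i) := by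
  rw [X.ρ_eq_sum_coordW f]
  have h1 : ∑ i, X.ρτ (X.coordW f i) • X.ρ (X.bW i) =
      ∑ i, X.ρτ (X.coordW f i) • X.basisτb i := by
    refine Finset.sum_congr rfl fun i _ => ?_
    rw [basisτb_apply]
  rw [h1, Module.Basis.repr_sum_self]

end GoodRed

end Fermat.Agent.FG

end
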