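/-
FG [E-GAL] — helper6 — **the tower field `E = K(t) · F_w` is generated by `t` over the image of
the modular function field `F`** (along `fullToEtu`), and the parity of the `x`-expansions of the
elements of the image.
-/
import Mathlib
import Fermat.Agent.FG.EGAL_helper6_Gal
import Fermat.Agent.JA.UP_helper7_Emb

set_option autoImplicit false
set_option linter.unusedSectionVars false
set_option linter.style.haveILetI false
set_option synthInstance.maxHeartbeats 400000

open HahnSeries IntermediateField AlgebraicCurve ModularCurve Polynomial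

namespace Fermat.Agent.FG

open Fermat.Agent.JA Fermat.Agent.FF
open scoped Fermat.Agent.JA.Host

variable (K : Type*) [Field K] [Algebra ℚ K] (N w : ℕ) [NeZero N] [NeZero w]
  (t : LaurentSeries K)

theorem self_mem_Etu : t ∈ Host.Etu (keyFw K N w) t 1 := by
  rw [Etu_one_eq_sup]
  exact (le_sup_right : K⟮t⟯ ≤ keyFw K N w ⊔ K⟮t⟯) (mem_adjoin_simple_self K t)

/-- **`E = φ(F)(t)`**. -/
theorem adjoin_fullToEtu_eq_top :
    letI := algebraAlong (fullToEtu K N w t)
    IntermediateField.adjoin ↥(keyFq K N)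
      {(⟨t, self_mem_Etu K N w t⟩ : ↥(Host.Etu (keyFw K N w) t 1))} = ⊤ := by
  letI := algebraAlong (fullToEtu K N w t)
  haveI := isScalarTower_along (fullToEtu K N w t)
  rw [eq_top_iff]
  intro e _
  set S := IntermediateField.adjoin ↥(keyFq K N)
    {(⟨t, self_mem_Etu K N w t⟩ : ↥(Host.Etu (keyFw K N w) t 1))} with hS
  let T : IntermediateField K (LaurentSeries K) :=
    (S.restrictScalars K).map (Host.Etu (keyFw K N w) t 1).val
  have h1 : keyFw K N w ≤ T := by
    intro x hx
    obtain ⟨y, hy, rfl⟩ := (IntermediateField.mem_map _).mp hx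
    refine (IntermediateField.mem_map _).mpr ⟨fullToEtu K N w t ⟨y, hy⟩, ?_, rfl⟩
    show fullToEtu K N w t ⟨y, hy⟩ ∈ S
    exact S.algebraMap_mem ⟨y, hy⟩
  have h2 : K⟮t⟯ ≤ T := by
    rw [adjoin_simple_le_iff]
    refine (IntermediateField.mem_map _).mpr ⟨⟨t, self_mem_Etu K N w t⟩, ?_, rfl⟩
    show (⟨t, self_mem_Etu K N w t⟩ : ↥(Host.Etu (keyFw K N w) t 1)) ∈ S
    exact IntermediateField.mem_adjoin_simple_self _ _
  have h3 : Host.Etu (keyFw K N w) t 1 ≤ T := by
    rw [Etu_one_eq_sup]
    exact sup_le h1 h2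
  obtain ⟨s, hs, hse⟩ := (IntermediateField.mem_map _).mp (h3 e.2)
  have : s = e := Subtype.ext hse
  rw [← this]
  exact hs

/-- the `x`-order of an element of the image of `F` is divisible by `w`. -/
theorem dvd_order_fullToEtu (f : ↥(keyFq K N)) :
    (w : ℤ) ∣ ((fullToEtu K N w t f : ↥(Host.Etu (keyFw K N w) t 1)) : LaurentSeries K).order := by
  rw [coe_fullToEtu, order_qExpand]
  exact dvd_mul_right _ _

end Fermat.Agent.FG
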