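/-
FG [E-GAL] — helper6 — **characters of the automorphism group of a Legendre cover have order ≤ 2.**

`E / K` a field extension, `H` a group of `K`-automorphisms of `E` acting faithfully through an
element `t ≠ 0, 1` with `j(h t) = j(t)` for the Legendre `j`-function
`j(t) = 256 (t² − t + 1)³ / (t² (t − 1)²)`.  Then `h t` is one of the six anharmonic transforms of
`t`; if `H` contains an element negating `d(t) = (t + 1)(t − 2)(2 t − 1) / (t (t − 1))` (a
"transposition"), every character `c : H →* M` into a commutative group satisfies `c h ^ 2 = 1`.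
-/
import Mathlib

set_option autoImplicit false
set_option linter.unusedSectionVars false

namespace Fermat.Agent.FG

section Six

variable {E : Type*} [Field E]

/-- the six solutions of `j(y) = j(t)` -/
theorem legendre_six {y t : E} (ht0 : t ≠ 0) (ht1 : t ≠ 1)
    (h : (y ^ 2 - y + 1) ^ 3 * (t ^ 2 * (t - 1) ^ 2) =
      (t ^ 2 - t + 1) ^ 3 * (y ^ 2 * (y - 1) ^ 2)) :
    y = t ∨ y = 1 - t ∨ y = t⁻¹ ∨ y = (1 - t)⁻¹ ∨ y = (t - 1) / t ∨ y = t / (t - 1) := by
  have h1 : t - 1 ≠ 0 := sub_ne_zero.mpr ht1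
  have h1' : 1 - t ≠ 0 := sub_ne_zero.mpr (Ne.symm ht1)
  have hprod : (y - t) * (y - (1 - t)) * (y * t - 1) * (y * (1 - t) - 1) * (y * t - (t - 1)) *
      (y * (t - 1) - t) = 0 := by
    have : (y ^ 2 - y + 1) ^ 3 * (t ^ 2 * (t - 1) ^ 2) -
        (t ^ 2 - t + 1) ^ 3 * (y ^ 2 * (y - 1) ^ 2) =
        -((y - t) * (y - (1 - t)) * (y * t - 1) * (y * (1 - t) - 1) * (y * t - (t - 1)) *
          (y * (t - 1) - t)) := by ring
    rw [h, sub_self] at this
    exact neg_eq_zero.mp this.symm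
  simp only [mul_eq_zero] at hprod
  rcases hprod with ((((h | h) | h) | h) | h) | h
  · exact Or.inl (sub_eq_zero.mp h)
  · exact Or.inr (Or.inl (sub_eq_zero.mp h))
  · refine Or.inr (Or.inr (Or.inl ?_))
    exact eq_inv_of_mul_eq_one_left (sub_eq_zero.mp h)
  · refine Or.inr (Or.inr (Or.inr (Or.inl ?_)))
    exact eq_inv_of_mul_eq_one_left (sub_eq_zero.mp h)
  · refine Or.inr (Or.inr (Or.inr (Or.inr (Or.inl ?_))))
    rw [eq_div_iff ht0]
    exact sub_eq_zero.mp h
  · refine Or.inr (Or.inr (Or.inr (Or.inr (Or.inr ?_))))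
    rw [eq_div_iff h1]
    exact sub_eq_zero.mp h

/-- the numerator of `d` -/
def legDnum (t : E) : E := (t + 1) * (t - 2) * (2 * t - 1)

/-- the denominator of `d` -/
def legDden (t : E) : E := t * (t - 1)

/-- `d(t)² = (j(t) − 1728) / 64` -/
theorem legD_sq (t : E) :
    4 * (t ^ 2 - t + 1) ^ 3 - 27 * (t ^ 2 * (t - 1) ^ 2) = legDnum t ^ 2 := by
  unfold legDnum
  ring

end Six

section Char

variable {K E : Type*} [Field K] [Field E] [Algebra K E] (H : Subgroup (E ≃ₐ[K] E)) (t : E)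

/-- `h t` is a "transposition" of `t` -/
def IsLegTransp (h : E ≃ₐ[K] E) : Prop := h t = 1 - t ∨ h t = t⁻¹ ∨ h t = t / (t - 1)

variable {H t}

theorem sq_apply_of_isLegTransp (ht0 : t ≠ 0) (ht1 : t ≠ 1) {h : E ≃ₐ[K] E}
    (hh : IsLegTransp t h) : (h * h) t = t := by
  have h1 : t - 1 ≠ 0 := sub_ne_zero.mpr ht1
  show h (h t) = t
  rcases hh with hh | hh | hh
  · rw [hh, map_sub, map_one, hh]
    ring
  · rw [hh, map_inv₀, hh, inv_inv]
  · rw [hh, map_div₀, map_sub, map_one, hh]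
    field_simp
    ring

/-- the product of a transposition and a `3`-cycle is a transposition -/
theorem isLegTransp_mul (ht0 : t ≠ 0) (ht1 : t ≠ 1) {s h : E ≃ₐ[K] E}
    (hs : IsLegTransp t s) (hh : h t = (1 - t)⁻¹ ∨ h t = (t - 1) / t) :
    IsLegTransp t (s * h) := by
  have h1 : t - 1 ≠ 0 := sub_ne_zero.mpr ht1
  have h1' : 1 - t ≠ 0 := sub_ne_zero.mpr (Ne.symm ht1)
  have hmul : (s * h) t = s (h t) := rfl
  unfold IsLegTransp
  rw [hmul]
  rcases hs with hs | hs | hs <;> rcases hh with hh | hh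
  · refine Or.inr (Or.inl ?_)
    rw [hh, map_inv₀, map_sub, map_one, hs, sub_sub_cancel]
  · refine Or.inr (Or.inr ?_)
    rw [hh, map_div₀, map_sub, map_one, hs]
    field_simp
    ring
  · refine Or.inr (Or.inr ?_)
    rw [hh, map_inv₀, map_sub, map_one, hs]
    field_simp
  · refine Or.inl ?_
    rw [hh, map_div₀, map_sub, map_one, hs]
    field_simp
  · refine Or.inl ?_
    rw [hh, map_inv₀, map_sub, map_one, hs]
    field_simp
    ring
  · refine Or.inr (Or.inl ?_)
    rw [hh, map_div₀, map_sub, map_one, hs]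
    field_simp
    ring

/-- **characters of a Legendre automorphism group are killed by `2`**, provided the group contains
a transposition. -/
theorem char_sq_eq_one_of_legendre (ht0 : t ≠ 0) (ht1 : t ≠ 1)
    (hfaith : ∀ h ∈ H, h t = t → h = 1)
    (hj : ∀ h ∈ H, ((h t) ^ 2 - h t + 1) ^ 3 * (t ^ 2 * (t - 1) ^ 2) =
      (t ^ 2 - t + 1) ^ 3 * ((h t) ^ 2 * (h t - 1) ^ 2))
    (hs : ∃ s ∈ H, IsLegTransp t s)
    {M : Type*} [CommGroup M] (c : ↥H →* M) (h : ↥H) : c h ^ 2 = 1 := by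
  -- transpositions
  have htr : ∀ (a : ↥H), IsLegTransp t (a : E ≃ₐ[K] E) → c a ^ 2 = 1 := by
    intro a ha
    have h0 : ((a * a : ↥H) : E ≃ₐ[K] E) = (a : E ≃ₐ[K] E) * a := Subgroup.coe_mul H a a
    have h1 : ((a * a : ↥H) : E ≃ₐ[K] E) = 1 := by
      apply hfaith _ (a * a).2
      rw [h0]
      exact sq_apply_of_isLegTransp ht0 ht1 ha
    have h2 : a * a = 1 := Subtype.ext h1
    rw [pow_two, ← map_mul, h2, map_one]
  -- `3`-cycles
  have hcyc : ∀ (a : ↥H), ((a : E ≃ₐ[K] E) t = (1 - t)⁻¹ ∨ (a : E ≃ₐ[K] E) t = (t - 1) / t) →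
      c a ^ 2 = 1 := by
    intro a ha
    obtain ⟨s, hsH, hs⟩ := hs
    have h0 : (((⟨s, hsH⟩ : ↥H) * a : ↥H) : E ≃ₐ[K] E) = s * (a : E ≃ₐ[K] E) :=
      Subgroup.coe_mul H ⟨s, hsH⟩ a
    have h1 : IsLegTransp t (((⟨s, hsH⟩ : ↥H) * a : ↥H) : E ≃ₐ[K] E) := by
      rw [h0]
      exact isLegTransp_mul ht0 ht1 hs ha
    have h2 := htr _ h1
    have h3 := htr ⟨s, hsH⟩ hs
    rw [map_mul, mul_pow, h3, one_mul] at h2
    exact h2
  rcases legendre_six ht0 ht1 (hj h h.2) with hh | hh | hh | hh | hh | hh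
  · have : (h : E ≃ₐ[K] E) = 1 := hfaith _ h.2 hh
    have h2 : h = 1 := Subtype.ext this
    rw [h2, map_one, one_pow]
  · exact htr h (Or.inl hh)
  · exact htr h (Or.inr (Or.inl hh))
  · exact hcyc h (Or.inl hh)
  · exact hcyc h (Or.inr hh)
  · exact htr h (Or.inr (Or.inr hh))

/-- automorphisms act on `d(t)` through `t` -/
theorem map_legDnum (s : E ≃ₐ[K] E) : s (legDnum t) = legDnum (s t) := by
  simp only [legDnum, map_mul, map_add, map_sub, map_one, map_ofNat]

theorem map_legDden (s : E ≃ₐ[K] E) : s (legDden t) = legDden (s t) := by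
  simp only [legDden, map_mul, map_sub, map_one]

/-- `d` is invariant under the `3`-cycle `t ↦ 1 / (1 - t)` -/
theorem legD_cross_of_mul_one_sub {y : E} (hy : y * (1 - t) = 1) :
    legDnum y * legDden t = legDnum t * legDden y := by
  unfold legDnum legDden
  linear_combination
    (-2 * y + 2 * t + 2 * t * y - 2 * t * y ^ 2 - 2 * t ^ 2 + 2 * t ^ 2 * y) * hy

/-- `d` is invariant under the `3`-cycle `t ↦ (t - 1) / t` -/
theorem legD_cross_of_mul_eq_sub_one {y : E} (hy : y * t = t - 1) :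
    legDnum y * legDden t = legDnum t * legDden y := by
  unfold legDnum legDden
  linear_combination
    (2 * y - 2 * y ^ 2 - 2 * t + 2 * t * y + 2 * t * y ^ 2 - 2 * t ^ 2 * y) * hy

/-- an automorphism negating `d(t)` is a transposition -/
theorem isLegTransp_of_map_legD_eq_neg (ht0 : t ≠ 0) (ht1 : t ≠ 1) (h2 : (2 : E) ≠ 0)
    (hd0 : legDnum t ≠ 0) {s : E ≃ₐ[K] E}
    (hj : ((s t) ^ 2 - s t + 1) ^ 3 * (t ^ 2 * (t - 1) ^ 2) =
      (t ^ 2 - t + 1) ^ 3 * ((s t) ^ 2 * (s t - 1) ^ 2))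
    (hsd : s (legDnum t / legDden t) = -(legDnum t / legDden t)) : IsLegTransp t s := by
  have h1 : t - 1 ≠ 0 := sub_ne_zero.mpr ht1
  have h1' : 1 - t ≠ 0 := sub_ne_zero.mpr (Ne.symm ht1)
  have hdd : legDden t ≠ 0 := mul_ne_zero ht0 h1
  have hdds : legDden (s t) ≠ 0 := by
    rw [← map_legDden]
    exact (map_ne_zero_iff _ s.injective).mpr hdd
  -- the cross-multiplied form of `hsd`
  have hcross : legDnum (s t) * legDden t = -(legDnum t * legDden (s t)) := by
    rw [map_div₀, map_legDnum, map_legDden, div_eq_iff hdds] at hsd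
    rw [hsd]
    field_simp
  -- the contradiction in the invariant cases
  have hcontra : legDnum (s t) * legDden t = legDnum t * legDden (s t) → False := by
    intro h
    rw [h] at hcross
    have h3 : 2 * (legDnum t * legDden (s t)) = 0 := by linear_combination hcross
    rcases mul_eq_zero.mp h3 with h4 | h4
    · exact h2 h4
    · exact mul_ne_zero hd0 hdds h4
  rcases legendre_six ht0 ht1 hj with hh | hh | hh | hh | hh | hh
  · exfalso
    apply hcontra
    rw [hh]
  · exact Or.inl hh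
  · exact Or.inr (Or.inl hh)
  · exfalso
    apply hcontra
    apply legD_cross_of_mul_one_sub
    rw [hh]
    exact inv_mul_cancel₀ h1'
  · exfalso
    apply hcontra
    apply legD_cross_of_mul_eq_sub_one
    rw [hh]
    exact div_mul_cancel₀ _ ht0
  · exact Or.inr (Or.inr hh)

end Char

end Fermat.Agent.FG
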