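/-
FG [E-GAL] — helper6 — **the pullback `π^* : J₀(N) → Pic⁰(legE Ω N)`** along the Legendre cover:
it is `G_ℚ`-equivariant and its kernel is killed by `2`.

`F = keyFq Ω N` (the function field of `X₀(N)` over `Ω = ℚ̄`), `E = legE Ω N = F_2(t)`,
`φ = fullToLegE Ω N` (`q = x²`).  `E / φ F` is Galois (generated by `t`, whose conjugates are its
anharmonic transforms), its group contains a transposition (because `√(j − 1728)` has an odd
`x`-expansion, so does not lie in `φ F`), hence all its characters are killed by `2`.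
-/
import Mathlib
import Fermat.Agent.FG.EGAL_helper6_Gen
import Fermat.Agent.FG.EGAL_helper6_S3
import Fermat.Agent.FG.EGAL_helper6_CuspLeg
import Fermat.Agent.FG.EDEF_helper6_Fields
import Fermat.Agent.SS.CUSPORD_helper9_Main

set_option autoImplicit false
set_option linter.unusedSectionVars false
set_option linter.style.haveILetI false
set_option synthInstance.maxHeartbeats 400000

open IntermediateField AlgebraicCurve ModularCurve Polynomial

namespace Fermat.Agent.FG

open Fermat.Agent.JA Fermat.Agent.SS Fermat.Agent.GR Fermat.Agent.FF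
open scoped Fermat.Agent.JA.Host

local notation "Ω" => AlgebraicClosure ℚ
local notation "GQ" => (AlgebraicClosure ℚ ≃ₐ[ℚ] AlgebraicClosure ℚ)

variable (N : ℕ) [NeZero N]

/-- `j` as an element of the function field of `X₀(N)` -/
noncomputable def egalJ : ↥(keyFq Ω N) := ⟨jqModC Ω, jqModC_mem_keyFq N⟩

theorem fullToLegE_egalJ : fullToLegE Ω N (egalJ N) = legJE Ω N := Subtype.ext rfl

/-- the Legendre relation in `legE Ω N` -/
theorem legTE_rel :
    legJE Ω N * (legTE Ω N ^ 2 * (legTE Ω N - 1) ^ 2) =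
      256 * (legTE Ω N ^ 2 - legTE Ω N + 1) ^ 3 := by
  apply Subtype.ext
  have h := jqNModC_mul_aeval_legT Ω
  rw [Host.aeval_legA, Host.aeval_legB] at h
  exact h

theorem legTE_ne_zero : legTE Ω N ≠ 0 := by
  intro h
  apply transcendental_legT Ω
  have : legT Ω = 0 := congrArg Subtype.val h
  rw [this]
  exact isAlgebraic_zero

theorem legTE_ne_one : legTE Ω N ≠ 1 := by
  intro h
  apply transcendental_legT Ω
  have : legT Ω = 1 := congrArg Subtype.val h
  rw [this]
  exact isAlgebraic_one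

theorem finiteAlong_fullToLegE' : FiniteAlong Ω (fullToLegE Ω N) := finiteAlong_fullToLegE N

theorem isIntegral_fullToLegE_bar : (fullToLegE Ω N).toRingHom.IsIntegral :=
  isIntegral_of_finiteAlong _ (finiteAlong_fullToLegE N)

/-- `E = φ(F)(t)` -/
theorem adjoin_legTE_eq_top :
    letI := algebraAlong (fullToLegE Ω N)
    IntermediateField.adjoin ↥(keyFq Ω N) {legTE Ω N} = ⊤ :=
  adjoin_fullToEtu_eq_top Ω N 2 (legT Ω)

/-- the Legendre sextic over `F` -/
noncomputable def legSextic : (↥(keyFq Ω N))[X] :=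
  C 256 * (X ^ 2 - X + 1) ^ 3 - C (egalJ N) * (X ^ 2 * (X - 1) ^ 2)

theorem legSextic_ne_zero : legSextic N ≠ 0 := by
  intro h
  have h1 := congrArg (Polynomial.eval 0) h
  simp [legSextic] at h1

theorem legSextic_map : (legSextic N).map (fullToLegE Ω N).toRingHom =
    C 256 * (X ^ 2 - X + 1) ^ 3 - C (legJE Ω N) * (X ^ 2 * (X - 1) ^ 2) := by
  have h : (fullToLegE Ω N).toRingHom (egalJ N) = legJE Ω N := fullToLegE_egalJ N
  simp only [legSextic, Polynomial.map_sub, Polynomial.map_mul, Polynomial.map_pow,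
    Polynomial.map_add, Polynomial.map_one, map_X, map_C, h, map_ofNat, Polynomial.map_ofNat]

theorem legSextic_eval : ((legSextic N).map (fullToLegE Ω N).toRingHom).eval (legTE Ω N) = 0 := by
  rw [legSextic_map]
  simp only [eval_sub, eval_mul, eval_pow, eval_add, eval_one, eval_X, eval_C]
  linear_combination -(legTE_rel N)

theorem legSextic_splits : ((legSextic N).map (fullToLegE Ω N).toRingHom).Splits := by
  set t := legTE Ω N with ht
  have ht0 : t ≠ 0 := legTE_ne_zero N
  have ht1 : t - 1 ≠ 0 := sub_ne_zero.mpr (legTE_ne_one N)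
  have hc : t ^ 2 * (t - 1) ^ 2 ≠ 0 := mul_ne_zero (pow_ne_zero 2 ht0) (pow_ne_zero 2 ht1)
  set P : (↥(legE Ω N))[X] := (X - C t) * (X - C (1 - t)) * (C t * X - 1) * (C (1 - t) * X - 1) *
    (C t * X - C (t - 1)) * (C (t - 1) * X - C t) with hP
  have hPs : P.Splits := by
    have hlin : ∀ a b : ↥(legE Ω N), (C a * X - C b : (↥(legE Ω N))[X]).Splits := fun a b =>
      Splits.of_degree_le_one (by
        rw [sub_eq_add_neg, ← C_neg]
        exact degree_linear_le)
    have h1 : (C t * X - 1 : (↥(legE Ω N))[X]) = C t * X - C 1 := by rw [C_1]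
    have h2 : (C (1 - t) * X - 1 : (↥(legE Ω N))[X]) = C (1 - t) * X - C 1 := by rw [C_1]
    rw [hP, h1, h2]
    exact ((((((Splits.X_sub_C t).mul (Splits.X_sub_C (1 - t))).mul (hlin t 1)).mul
      (hlin (1 - t) 1)).mul (hlin t (t - 1))).mul (hlin (t - 1) t))
  have key : (legSextic N).map (fullToLegE Ω N).toRingHom =
      C (-256 / (t ^ 2 * (t - 1) ^ 2)) * P := by
    apply mul_left_cancel₀ (C_ne_zero.mpr hc)
    rw [← mul_assoc, ← C_mul, mul_div_cancel₀ _ hc, legSextic_map]
    have hrel : C (legJE Ω N) * C (t ^ 2 * (t - 1) ^ 2) =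
        (C (256 * (t ^ 2 - t + 1) ^ 3) : (↥(legE Ω N))[X]) := by
      rw [← C_mul, legTE_rel N]
    rw [hP]
    simp only [C_mul, C_pow, C_sub, C_add, C_1, C_neg, C_ofNat] at hrel ⊢
    linear_combination (-(X ^ 2 * (X - 1) ^ 2 : (↥(legE Ω N))[X])) * hrel
  rw [key]
  exact hPs.C_mul _

/-- **`E / φ F` is Galois.** -/
theorem isGalois_fullToLegE :
    letI := algebraAlong (fullToLegE Ω N)
    IsGalois ↥(keyFq Ω N) ↥(legE Ω N) :=
  isGalois_along_of_splits (fullToLegE Ω N) (finiteAlong_fullToLegE N) (legTE Ω N)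
    (adjoin_legTE_eq_top N) (legSextic N) (legSextic_ne_zero N) (legSextic_eval N)
    (legSextic_splits N)

/-- the fixed field of the automorphisms of the cover is `φ F`. -/
theorem legE_mem_range_of_fixed (y : ↥(legE Ω N))
    (hy : ∀ h ∈ fixingAlong (fullToLegE Ω N), h y = y) : y ∈ Set.range (fullToLegE Ω N) :=
  mem_range_of_fixingAlong_fixed (fullToLegE Ω N) (finiteAlong_fullToLegE N) (isGalois_fullToLegE N) y hy

/-- faithfulness of the action on `t`. -/
theorem legE_eq_one_of_apply_legTE {h : ↥(legE Ω N) ≃ₐ[Ω] ↥(legE Ω N)}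
    (hh : h ∈ fixingAlong (fullToLegE Ω N)) (ht : h (legTE Ω N) = legTE Ω N) : h = 1 := by
  refine eq_one_of_apply_generator (fullToLegE Ω N) (legTE Ω N) (adjoin_legTE_eq_top N) ?_ hh ht
  letI := algebraAlong (fullToLegE Ω N)
  haveI : Module.Finite ↥(keyFq Ω N) ↥(legE Ω N) := finiteAlong_fullToLegE N
  exact IsIntegral.of_finite _ _

/-- the automorphisms of the cover fix `j`. -/
theorem apply_legJE {h : ↥(legE Ω N) ≃ₐ[Ω] ↥(legE Ω N)}
    (hh : h ∈ fixingAlong (fullToLegE Ω N)) : h (legJE Ω N) = legJE Ω N := by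
  rw [← fullToLegE_egalJ]
  exact hh _

/-- the conjugates of `t` have the same `j`. -/
theorem legE_conj_rel {h : ↥(legE Ω N) ≃ₐ[Ω] ↥(legE Ω N)}
    (hh : h ∈ fixingAlong (fullToLegE Ω N)) :
    ((h (legTE Ω N)) ^ 2 - h (legTE Ω N) + 1) ^ 3 * ((legTE Ω N) ^ 2 * (legTE Ω N - 1) ^ 2) =
      ((legTE Ω N) ^ 2 - legTE Ω N + 1) ^ 3 * ((h (legTE Ω N)) ^ 2 * (h (legTE Ω N) - 1) ^ 2) := by
  have h1 := legTE_rel N
  have h2 := congrArg h h1
  simp only [map_mul, map_pow, map_sub, map_add, map_one, map_ofNat, apply_legJE N hh] at h2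
  have h256 : (256 : ↥(legE Ω N)) ≠ 0 := by norm_num
  apply mul_left_cancel₀ h256
  linear_combination ((h (legTE Ω N)) ^ 2 * (h (legTE Ω N) - 1) ^ 2) * h1 -
    ((legTE Ω N) ^ 2 * (legTE Ω N - 1) ^ 2) * h2

/-- `d = √(j − 1728) / 8` as an element of `E`. -/
noncomputable def legDE : ↥(legE Ω N) := legDnum (legTE Ω N) / legDden (legTE Ω N)

theorem legDden_ne_zero : legDden (legTE Ω N) ≠ 0 :=
  mul_ne_zero (legTE_ne_zero N) (sub_ne_zero.mpr (legTE_ne_one N))

/-- `64 d² = j − 1728`. -/
theorem legDE_sq : 64 * legDE N ^ 2 = legJE Ω N - 1728 := by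
  have hd := legDden_ne_zero N
  have h1 := legD_sq (legTE Ω N)
  have h2 := legTE_rel N
  rw [legDE, div_pow, ← h1]
  have hd2 : legDden (legTE Ω N) ^ 2 ≠ 0 := pow_ne_zero 2 hd
  field_simp
  have h3 : legDden (legTE Ω N) ^ 2 = (legTE Ω N) ^ 2 * (legTE Ω N - 1) ^ 2 := by
    rw [legDden]; ring
  rw [h3]
  linear_combination (-1 : ↥(legE Ω N)) * h2

section Parity

variable {K : Type*} [Field K] [Algebra ℚ K]

theorem ofNat_laurent_eq_algebraMap (n : ℕ) [n.AtLeastTwo] :
    (OfNat.ofNat n : LaurentSeries K) = algebraMap K (LaurentSeries K) (OfNat.ofNat n) :=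
  (map_ofNat (algebraMap K (LaurentSeries K)) n).symm

/-- `j(x^w) − c` has order `-w`. -/
theorem order_jqNModC_sub_const (w : ℕ) [NeZero w] (c : K) :
    (jqNModC K w - algebraMap K (LaurentSeries K) c).order = -(w : ℤ) := by
  have hw : (0 : ℤ) < w := by exact_mod_cast Nat.pos_of_ne_zero (NeZero.ne w)
  have hj := cuspord_order_jqNModC K w
  refine laurent_order_eq_of_coeff ?_ (fun m hm => ?_)
  · rw [HahnSeries.coeff_sub, Host.algebraMap_coeff_of_ne c (by omega), sub_zero]
    have h := ModularCurve.qExpand_coeff_mul (R := K) w (ModularCurve.jqModC K) (-1)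
    rw [ModularCurve.coeff_jqModC_neg_one, mul_neg_one] at h
    rw [jqNModC, h]
    exact one_ne_zero
  · rw [HahnSeries.coeff_sub, Host.algebraMap_coeff_of_ne c (by omega), sub_zero]
    exact HahnSeries.coeff_eq_zero_of_lt_order (by rw [hj]; exact hm)

end Parity

/-- **`√(j − 1728)` does not lie in `φ F`** (its `x`-expansion is odd). -/
theorem legDE_not_mem_range : legDE N ∉ Set.range (fullToLegE Ω N) := by
  rintro ⟨f, hf⟩
  have hsq := congrArg (Subtype.val : ↥(legE Ω N) → LaurentSeries Ω) (legDE_sq N)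
  set d : LaurentSeries Ω := ((legDE N : ↥(legE Ω N)) : LaurentSeries Ω) with hd
  have hsq' : (64 : LaurentSeries Ω) * d ^ 2 =
      jqNModC Ω 2 - algebraMap Ω (LaurentSeries Ω) 1728 := by
    rw [← ofNat_laurent_eq_algebraMap]
    exact hsq
  have hord := order_jqNModC_sub_const (K := Ω) 2 (1728 : Ω)
  rw [← hsq'] at hord
  have h64 : (64 : LaurentSeries Ω) ≠ 0 := by
    rw [ofNat_laurent_eq_algebraMap]
    exact (_root_.map_ne_zero _).mpr (by norm_num)
  have hd0 : d ≠ 0 := by
    intro h0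
    rw [h0] at hord
    simp at hord
  have h64o : (64 : LaurentSeries Ω).order = 0 := by
    rw [ofNat_laurent_eq_algebraMap, LaurentSeries.algebraMap_apply]
    exact HahnSeries.order_C
  rw [HahnSeries.order_mul h64 (pow_ne_zero 2 hd0), h64o, zero_add, pow_two,
    HahnSeries.order_mul hd0 hd0] at hord
  have hdvd : ((2 : ℕ) : ℤ) ∣ d.order := by
    rw [hd, ← hf]
    exact dvd_order_fullToEtu Ω N 2 (legT Ω) f
  obtain ⟨m, hm⟩ := hdvd
  push_cast at hm hord
  omega

/-- **the cover has a transposition.** -/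
theorem exists_isLegTransp :
    ∃ s ∈ fixingAlong (fullToLegE Ω N), IsLegTransp (legTE Ω N) s := by
  have h1 : ¬ ∀ h ∈ fixingAlong (fullToLegE Ω N), h (legDE N) = legDE N := fun hall =>
    legDE_not_mem_range N (legE_mem_range_of_fixed N _ hall)
  push Not at h1
  obtain ⟨s, hs, hsd⟩ := h1
  refine ⟨s, hs, ?_⟩
  have h2 : (2 : ↥(legE Ω N)) ≠ 0 := two_ne_zero
  have hd0 : legDnum (legTE Ω N) ≠ 0 := by
    intro h0
    apply legDE_not_mem_range N
    refine ⟨0, ?_⟩
    rw [map_zero, legDE, h0, zero_div]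
  -- `s d = ± d`
  have hsq : s (legDE N) ^ 2 = legDE N ^ 2 := by
    have h3 := congrArg s (legDE_sq N)
    simp only [map_mul, map_pow, map_sub, map_ofNat, apply_legJE N hs] at h3
    have h64 : (64 : ↥(legE Ω N)) ≠ 0 := by norm_num
    apply mul_left_cancel₀ h64
    rw [h3, legDE_sq]
  have hneg : s (legDE N) = -legDE N := by
    have h4 : (s (legDE N) - legDE N) * (s (legDE N) + legDE N) = 0 := by
      linear_combination hsq
    rcases mul_eq_zero.mp h4 with h5 | h5
    · exact absurd (sub_eq_zero.mp h5) hsd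
    · exact eq_neg_of_add_eq_zero_left h5
  exact isLegTransp_of_map_legD_eq_neg (legTE_ne_zero N) (legTE_ne_one N) h2 hd0
    (legE_conj_rel N hs) hneg

/-- **every character of the automorphism group of the Legendre cover is killed by `2`.** -/
theorem legE_char_sq {M : Type*} [CommGroup M] (c : ↥(fixingAlong (fullToLegE Ω N)) →* M)
    (h : ↥(fixingAlong (fullToLegE Ω N))) : c h ^ 2 = 1 :=
  char_sq_eq_one_of_legendre (legTE_ne_zero N) (legTE_ne_one N)
    (fun _ hh ht => legE_eq_one_of_apply_legTE N hh ht)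
    (fun _ hh => legE_conj_rel N hh) (exists_isLegTransp N) c h

/-! ### the pullback -/

theorem fundamentalIdentityAlong_fullToLegE :
    haveI : HasPrincipalDivisors Ω ↥(legE Ω N) := legE_principal_gen N
    FundamentalIdentityAlong Ω (fullToLegE Ω N) (isIntegral_fullToLegE_bar N) :=
  haveI : HasPrincipalDivisors Ω ↥(legE Ω N) := legE_principal_gen N
  fundamentalIdentityAlong_of_coord (Fermat.Agent.X0N.jCoordBar N) (legCoordBar N)
    (fullToLegE Ω N) _

/-- **`π^* : J₀(N) → Pic⁰(legE Ω N)`**. -/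
noncomputable def legPull : JZero N →+ Pic0 Ω ↥(legE Ω N) :=
  haveI : HasPrincipalDivisors Ω ↥(legE Ω N) := legE_principal_gen N
  pic0Pull (fullToLegE Ω N) (isIntegral_fullToLegE_bar N) (fundamentalIdentityAlong_fullToLegE N)

/-- the coefficientwise actions are compatible with `φ`. -/
theorem transports_fullToLegE (σ : GQ) :
    Transports (arithmeticGalois (modularFunctionFieldFull N) σ) (legGalois Ω N σ)
      (fullToLegE Ω N) (fullToLegE Ω N) := by
  intro f
  apply Subtype.ext
  rw [legGalois, coe_coeffGalois_smul]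
  exact coeffMap_fullToLegE N (σ : Ω →+* Ω) f

/-- **`π^*` is `G_ℚ`-equivariant.** -/
theorem legPull_smul (σ : GQ) (x : JZero N) :
    legPull N (σ • x) = legGalois Ω N σ • legPull N x := by
  haveI : HasPrincipalDivisors Ω ↥(legE Ω N) := legE_principal_gen N
  rw [galois_smul_pic0_def]
  exact pic0Pull_smul _ _ _ (transports_fullToLegE N σ) x

/-- **the kernel of `π^*` is killed by `2`.** -/
theorem two_nsmul_eq_zero_of_legPull_eq_zero (x : JZero N) (hx : legPull N x = 0) :
    2 • x = 0 := by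
  haveI : HasPrincipalDivisors Ω ↥(legE Ω N) := legE_principal_gen N
  exact nsmul_eq_zero_of_pic0Pull_eq_zero (fullToLegE Ω N) (isIntegral_fullToLegE_bar N)
    (fundamentalIdentityAlong_fullToLegE N) (legCoordBar N)
    (fun v => exists_restrictAlong_eq (Fermat.Agent.X0N.jCoordBar N) (fullToLegE Ω N)
      (finiteAlong_fullToLegE N) (isIntegral_fullToLegE_bar N) v)
    (legE_mem_range_of_fixed N) 2 (fun c h => legE_char_sq N c h) x hx

end Fermat.Agent.FG
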