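/-
S19/S32 [HOPF-PACK] — helper1 — **shared definitions.**

`Ω = ℚ̄`, `GQ = Gal(ℚ̄/ℚ)`, `G` a finite abelian group with an action of `GQ`.

* `IsEquivFun φ` : the function `φ : X → Ω` is Galois-equivariant, `φ (σ • x) = σ (φ x)`;
* `equivFun X` : the `ℚ`-algebra of equivariant functions (the coordinate ring of the finite étale
  `ℚ`-scheme with `Ω`-points `X`);
* `IsHopfOrder G p H` : the `ℤ_(p)`-subalgebra `H` of `G → Ω` is a Hopf order: its elements are
  equivariant, it is finitely generated as a module, it separates the points of `G` and it is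
  stable under the comultiplication `φ ↦ ((g, h) ↦ φ (g + h))`.
-/
import Mathlib
import Fermat.Prelude.Def_GaloisRep_Flat

set_option autoImplicit false

namespace Fermat.Agent.FG

local notation "Ω" => AlgebraicClosure ℚ
local notation "GQ" => (AlgebraicClosure ℚ ≃ₐ[ℚ] AlgebraicClosure ℚ)

section equiv

variable {X : Type*} [SMul GQ X]

/-- Galois-equivariant functions with values in `ℚ̄`. -/
def IsEquivFun (φ : X → Ω) : Prop := ∀ (σ : GQ) (x : X), φ (σ • x) = σ (φ x)

theorem IsEquivFun.add {φ ψ : X → Ω} (hφ : IsEquivFun φ) (hψ : IsEquivFun ψ) :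
    IsEquivFun (φ + ψ) := fun σ x => by
  rw [Pi.add_apply, Pi.add_apply, hφ σ x, hψ σ x, map_add]

theorem IsEquivFun.mul {φ ψ : X → Ω} (hφ : IsEquivFun φ) (hψ : IsEquivFun ψ) :
    IsEquivFun (φ * ψ) := fun σ x => by
  rw [Pi.mul_apply, Pi.mul_apply, hφ σ x, hψ σ x, map_mul]

theorem IsEquivFun.neg {φ : X → Ω} (hφ : IsEquivFun φ) : IsEquivFun (-φ) := fun σ x => by
  rw [Pi.neg_apply, Pi.neg_apply, hφ σ x, map_neg]

theorem IsEquivFun.sub {φ ψ : X → Ω} (hφ : IsEquivFun φ) (hψ : IsEquivFun ψ) :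
    IsEquivFun (φ - ψ) := fun σ x => by
  rw [Pi.sub_apply, Pi.sub_apply, hφ σ x, hψ σ x, map_sub]

theorem isEquivFun_algebraMap (r : ℚ) : IsEquivFun (X := X) (algebraMap ℚ (X → Ω) r) :=
  fun σ x => by
    rw [Pi.algebraMap_apply, Pi.algebraMap_apply, σ.commutes]

theorem isEquivFun_zero : IsEquivFun (X := X) 0 := fun σ x => by
  rw [Pi.zero_apply, Pi.zero_apply, map_zero]

theorem isEquivFun_one : IsEquivFun (X := X) 1 := fun σ x => by
  rw [Pi.one_apply, Pi.one_apply, map_one]

theorem IsEquivFun.rat_smul {φ : X → Ω} (hφ : IsEquivFun φ) (r : ℚ) : IsEquivFun (r • φ) :=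
  fun σ x => by
    rw [Pi.smul_apply, Pi.smul_apply, hφ σ x, Algebra.smul_def, Algebra.smul_def, map_mul,
      σ.commutes]

variable (X) in
/-- the `ℚ`-algebra of Galois-equivariant functions `X → ℚ̄`. -/
def equivFun : Subalgebra ℚ (X → Ω) where
  carrier := {φ | IsEquivFun φ}
  mul_mem' := fun ha hb => IsEquivFun.mul ha hb
  add_mem' := fun ha hb => IsEquivFun.add ha hb
  algebraMap_mem' := fun r => isEquivFun_algebraMap r

theorem mem_equivFun {φ : X → Ω} : φ ∈ equivFun X ↔ IsEquivFun φ := Iff.rfl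

end equiv

section order

variable (G : Type) [AddCommGroup G] [DistribMulAction GQ G]

/-- **Hopf orders**: `ℤ_(p)`-subalgebras of `Map(G, ℚ̄)` consisting of equivariant functions,
finitely generated as modules, separating the points of `G`, and stable under the
comultiplication. -/
structure IsHopfOrder (p : ℕ) (H : Subalgebra (GaloisRep.ratLocalizedAt p) (G → Ω)) : Prop where
  equivariant : ∀ φ ∈ H, IsEquivFun φ
  fg : (Subalgebra.toSubmodule H).FG
  separates : ∀ g g' : G, g ≠ g' → ∃ φ ∈ H, φ g ≠ φ g'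
  comul_mem : ∀ φ ∈ H, ∃ (n : ℕ) (a b : Fin n → G → Ω), (∀ i, a i ∈ H) ∧ (∀ i, b i ∈ H) ∧
    ∀ g h : G, φ (g + h) = ∑ i, a i g * b i h

end order

end Fermat.Agent.FG
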