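import Mathlib
import Fermat.Agent.TW.FlatModelA_helper8

set_option autoImplicit false
set_option linter.unusedSectionVars false

/-!
# [HOPF-PACK] (b), part 1: linear algebra of function lattices

* `fo_linearIndependent_prod_mul` : products `f i x * f' j y` of two linearly independent families of
  functions are linearly independent on `X × Y`;
* `fo_injective_of_basis_li` : a linear map sending a basis to a family which is
  linearly independent over a bigger field is injective;
* `fo_qbar_fixed_mem_range` : the fixed field of `Gal(ℚ̄/ℚ)` is `ℚ`;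
* `fo_linearIndependent_qbar_of_equivariant` : equivariant functions `G → ℚ̄`, linearly independent
  over `ℤ_(ℓ)`, are linearly independent over `ℚ̄` (Artin).
-/

namespace Fermat.Agent.FG

open GaloisRep

local notation "Ω" => AlgebraicClosure ℚ
local notation "GQ" => (AlgebraicClosure ℚ ≃ₐ[ℚ] AlgebraicClosure ℚ)

section general

variable {F : Type*} [Field F]

/-- products of two linearly independent families of functions are linearly independent -/
theorem fo_linearIndependent_prod_mul {X Y ι κ : Type*} [Fintype ι] [Fintype κ]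
    {f : ι → X → F} {f' : κ → Y → F} (hf : LinearIndependent F f)
    (hf' : LinearIndependent F f') :
    LinearIndependent F (fun (p : ι × κ) (xy : X × Y) => f p.1 xy.1 * f' p.2 xy.2) := by
  rw [Fintype.linearIndependent_iff] at hf hf' ⊢
  intro c hc p
  have h1 : ∀ (y : Y) (i : ι), ∑ j, c (i, j) * f' j y = 0 := by
    intro y
    apply hf
    funext x
    have := congrFun hc (x, y)
    simp only [Finset.sum_apply, Pi.smul_apply, smul_eq_mul, Pi.zero_apply] at this ⊢
    rw [Fintype.sum_prod_type] at this
    rw [← this]
    refine Finset.sum_congr rfl fun i _ => ?_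
    rw [Finset.sum_mul]
    refine Finset.sum_congr rfl fun j _ => ?_
    ring
  have h2 : ∀ (i : ι) (j : κ), c (i, j) = 0 := by
    intro i
    apply hf'
    funext y
    have := h1 y i
    simp only [Finset.sum_apply, Pi.smul_apply, smul_eq_mul, Pi.zero_apply]
    exact this
  exact h2 p.1 p.2

/-- a linear map sending a basis to an `F`-linearly independent family is injective -/
theorem fo_injective_of_basis_li {R M V κ : Type*} [CommRing R] [Algebra R F]
    [AddCommMonoid M] [Module R M] [AddCommGroup V] [Module R V] [Module F V]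
    [IsScalarTower R F V] [Fintype κ] (hinj : Function.Injective (algebraMap R F))
    (e : Module.Basis κ R M) (φ : M →ₗ[R] V) (hli : LinearIndependent F (fun k => φ (e k))) :
    Function.Injective φ := by
  intro t₁ t₂ ht
  rw [Fintype.linearIndependent_iff] at hli
  have hφ : ∀ t : M, φ t = ∑ k, algebraMap R F (e.repr t k) • φ (e k) := by
    intro t
    conv_lhs => rw [← e.sum_repr t, map_sum]
    refine Finset.sum_congr rfl fun k _ => ?_
    rw [map_smul, algebraMap_smul]
  have h1 : ∑ k, (algebraMap R F (e.repr t₁ k) - algebraMap R F (e.repr t₂ k)) • φ (e k) = 0 := by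
    simp only [sub_smul, Finset.sum_sub_distrib]
    rw [← hφ t₁, ← hφ t₂, ht, sub_self]
  have h2 := hli _ h1
  have h3 : ∀ k, e.repr t₁ k = e.repr t₂ k := fun k => hinj (sub_eq_zero.mp (h2 k))
  apply e.repr.injective
  ext k
  exact h3 k

end general

/-- the fixed field of the absolute Galois group is `ℚ` -/
theorem fo_qbar_fixed_mem_range (z : Ω) (hz : ∀ g : GQ, g • z = z) :
    z ∈ Set.range (algebraMap ℚ Ω) := by
  have : Algebra.IsAlgebraic ℚ Ω := AlgebraicClosure.isAlgebraic ℚ
  have : IsAlgClosure ℚ Ω := ⟨inferInstance, inferInstance⟩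
  have : IsGalois ℚ Ω := IsAlgClosure.isGalois ℚ Ω
  exact (InfiniteGalois.mem_range_algebraMap_iff_fixed z).mpr hz

section ratLoc

variable (ℓ : ℕ) [Fact ℓ.Prime]

theorem fo_ratLoc_algebraMap (r : ratLocalizedAt ℓ) :
    algebraMap (ratLocalizedAt ℓ) Ω r = algebraMap ℚ Ω (r : ℚ) := rfl

theorem fo_ratLoc_algebraMap_injective :
    Function.Injective (algebraMap (ratLocalizedAt ℓ) Ω) := by
  intro r s h
  rw [fo_ratLoc_algebraMap, fo_ratLoc_algebraMap] at h
  exact Subtype.ext ((algebraMap ℚ Ω).injective h)

theorem fo_ratLoc_smul_apply {X : Type*} (r : ratLocalizedAt ℓ) (φ : X → Ω) (x : X) :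
    (r • φ) x = algebraMap (ratLocalizedAt ℓ) Ω r * φ x := by
  rw [Pi.smul_apply, Algebra.smul_def]

instance fo_ratLoc_isTorsionFree_fun (X : Type*) :
    Module.IsTorsionFree (ratLocalizedAt ℓ) (X → Ω) := by
  apply Module.IsTorsionFree.of_smul_eq_zero
  intro r φ h
  by_cases hr : r = 0
  · exact Or.inl hr
  · right
    funext x
    have := congrFun h x
    rw [fo_ratLoc_smul_apply, Pi.zero_apply] at this
    rcases mul_eq_zero.mp this with h' | h'
    · exact absurd (fo_ratLoc_algebraMap_injective ℓ (by rw [h', map_zero])) hr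
    · exact h'

/-- an algebra map into a function algebra sending a basis to a `ℚ̄`-linearly independent family
is injective -/
theorem fo_injective_of_basis_li_fun {A : Type*} [Ring A] [Algebra (ratLocalizedAt ℓ) A]
    {Y κ : Type*} [Fintype κ] (e : Module.Basis κ (ratLocalizedAt ℓ) A)
    (φ : A →ₐ[ratLocalizedAt ℓ] (Y → Ω)) (hli : LinearIndependent Ω (fun k => φ (e k))) :
    Function.Injective φ := by
  rw [injective_iff_map_eq_zero]
  intro t ht
  rw [Fintype.linearIndependent_iff] at hli
  have h1 : ∑ k, algebraMap (ratLocalizedAt ℓ) Ω (e.repr t k) • φ (e k) = 0 := by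
    rw [← ht]
    conv_rhs => rw [← e.sum_repr t, map_sum]
    refine Finset.sum_congr rfl fun k _ => ?_
    rw [map_smul]
    funext y
    rw [fo_ratLoc_smul_apply, Pi.smul_apply, smul_eq_mul]
  have h2 := hli _ h1
  have h3 : ∀ k, e.repr t k = 0 := fun k =>
    fo_ratLoc_algebraMap_injective ℓ (by rw [h2 k, map_zero])
  rw [← e.sum_repr t]
  exact Finset.sum_eq_zero fun k _ => by rw [h3 k, zero_smul]

/-- **Artin**: equivariant functions linearly independent over `ℤ_(ℓ)` are linearly independent
over `ℚ̄` -/
theorem fo_linearIndependent_qbar_of_equivariant {V : Type*} [MulAction GQ V] {ι : Type*}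
    (f : ι → V → Ω) (hf : ∀ (σ : GQ) (i : ι) (y : V), f i (σ • y) = σ (f i y))
    (hind : LinearIndependent (ratLocalizedAt ℓ) f) : LinearIndependent Ω f := by
  have h1 : LinearIndependent ℚ f :=
    LinearIndependent.localization ℚ (nonZeroDivisors (ratLocalizedAt ℓ)) hind
  exact Fermat.Agent.TW.Flat.linearIndependent_of_equivariant (G := GQ) ℚ
    fo_qbar_fixed_mem_range f (fun σ i y => hf σ i y) h1

end ratLoc

end Fermat.Agent.FG
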