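import Mathlib
import Fermat.Agent.FG.HOPF_helper8_Lin

set_option autoImplicit false
set_option linter.unusedSectionVars false

/-!
# [HOPF-PACK] (b), part 2: function orders and the embeddings of their tensor powers

General setting: `R` a commutative ring, `Ω` a field which is an `R`-algebra, `G` an additive group.
A *function order* (core form) is an `R`-subalgebra `H` of the algebra of functions `G → Ω` which
is finitely generated as a module, whose `R`-linearly independent families are `Ω`-linearly
independent, which separates the points of `G`, takes values in `R` at `0`, and is closed under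
comultiplication `h ↦ ((g, g') ↦ h (g + g'))`.

This file: `H ⊗ H → Fun(G × G)` and `H ⊗ (H ⊗ H) → Fun(G × G × G)` are injective algebra maps.
-/

namespace Fermat.Agent.FG

open TensorProduct

/-- a function order on `G` (core form) -/
structure FunOrderCore (R : Type*) [CommRing R] (Ω : Type*) [Field Ω] [Algebra R Ω]
    (G : Type*) [AddCommGroup G] where
  /-- the order, a subalgebra of the function algebra -/
  H : Subalgebra R (G → Ω)
  inj : Function.Injective (algebraMap R Ω)
  fg : H.toSubmodule.FG
  li : ∀ (n : ℕ) (b : Fin n → H), LinearIndependent R b →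
    LinearIndependent Ω (fun i => ((b i : H) : G → Ω))
  sep : ∀ g g' : G, g ≠ g' → ∃ h ∈ H, h g ≠ h g'
  counit_mem : ∀ h ∈ H, ∃ r : R, algebraMap R Ω r = h 0
  comul_mem : ∀ h ∈ H, ∃ (n : ℕ) (u v : Fin n → G → Ω), (∀ i, u i ∈ H) ∧ (∀ i, v i ∈ H) ∧
    ∀ g g' : G, h (g + g') = ∑ i, u i g * v i g'

/-- pulling back functions along a map, as an algebra homomorphism -/
def foPullback (R : Type*) [CommSemiring R] (A : Type*) [Semiring A] [Algebra R A]
    {X Y : Type*} (α : X → Y) : (Y → A) →ₐ[R] (X → A) where
  toFun φ := φ ∘ α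
  map_one' := rfl
  map_mul' _ _ := rfl
  map_zero' := rfl
  map_add' _ _ := rfl
  commutes' _ := rfl

@[simp] theorem foPullback_apply (R : Type*) [CommSemiring R] (A : Type*) [Semiring A]
    [Algebra R A] {X Y : Type*} (α : X → Y) (φ : Y → A) (x : X) :
    foPullback R A α φ x = φ (α x) := rfl

theorem fo_smul_apply {R : Type*} [CommRing R] {Ω : Type*} [Field Ω] [Algebra R Ω] {X : Type*}
    (r : R) (φ : X → Ω) (x : X) : (r • φ) x = algebraMap R Ω r * φ x := by
  rw [Pi.smul_apply, Algebra.smul_def]

section embeddings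

variable {R : Type*} [CommRing R] {Ω : Type*} [Field Ω] [Algebra R Ω] {X : Type*}
  (H : Subalgebra R (X → Ω))

/-- `H ⊗ H → Fun(X × X)` -/
noncomputable def foJ₂ : H ⊗[R] H →ₐ[R] (X × X → Ω) :=
  Algebra.TensorProduct.productMap ((foPullback R Ω Prod.fst).comp H.val)
    ((foPullback R Ω Prod.snd).comp H.val)

theorem foJ₂_tmul (a b : H) (p : X × X) :
    foJ₂ H (a ⊗ₜ b) p = (a : X → Ω) p.1 * (b : X → Ω) p.2 := by
  rw [foJ₂, Algebra.TensorProduct.productMap_apply_tmul]
  rfl

/-- `H ⊗ (H ⊗ H) → Fun(X × (X × X))` -/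
noncomputable def foJ₃ : H ⊗[R] (H ⊗[R] H) →ₐ[R] (X × (X × X) → Ω) :=
  Algebra.TensorProduct.productMap ((foPullback R Ω Prod.fst).comp H.val)
    ((foPullback R Ω Prod.snd).comp (foJ₂ H))

theorem foJ₃_tmul (a : H) (t : H ⊗[R] H) (p : X × (X × X)) :
    foJ₃ H (a ⊗ₜ t) p = (a : X → Ω) p.1 * foJ₂ H t p.2 := by
  rw [foJ₃, Algebra.TensorProduct.productMap_apply_tmul]
  rfl

variable (hinj : Function.Injective (algebraMap R Ω)) {n : ℕ} (b : Module.Basis (Fin n) R H)
  (hb : LinearIndependent Ω (fun i => ((b i : H) : X → Ω)))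

include hinj b hb in
theorem foJ₂_injective : Function.Injective (foJ₂ H) := by
  have h := fo_linearIndependent_prod_mul hb hb
  have e : (fun p : Fin n × Fin n => (foJ₂ H).toLinearMap ((b.tensorProduct b) p)) =
      fun (p : Fin n × Fin n) (xy : X × X) =>
        ((b p.1 : H) : X → Ω) xy.1 * ((b p.2 : H) : X → Ω) xy.2 := by
    funext p q
    rw [Module.Basis.tensorProduct_apply, AlgHom.toLinearMap_apply, foJ₂_tmul]
  have h' : LinearIndependent Ω
      (fun p : Fin n × Fin n => (foJ₂ H).toLinearMap ((b.tensorProduct b) p)) := by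
    rw [e]; exact h
  exact fo_injective_of_basis_li (κ := Fin n × Fin n) hinj (b.tensorProduct b)
    (foJ₂ H).toLinearMap h'

include hinj b hb in
theorem foJ₃_injective : Function.Injective (foJ₃ H) := by
  have h := fo_linearIndependent_prod_mul hb (fo_linearIndependent_prod_mul hb hb)
  have e : (fun p : Fin n × (Fin n × Fin n) =>
      (foJ₃ H).toLinearMap ((b.tensorProduct (b.tensorProduct b)) p)) =
      fun (p : Fin n × (Fin n × Fin n)) (xy : X × (X × X)) =>
        ((b p.1 : H) : X → Ω) xy.1 *
          (((b p.2.1 : H) : X → Ω) xy.2.1 * ((b p.2.2 : H) : X → Ω) xy.2.2) := by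
    funext p q
    rw [Module.Basis.tensorProduct_apply, AlgHom.toLinearMap_apply, foJ₃_tmul,
      Module.Basis.tensorProduct_apply, foJ₂_tmul]
  have h' : LinearIndependent Ω (fun p : Fin n × (Fin n × Fin n) =>
      (foJ₃ H).toLinearMap ((b.tensorProduct (b.tensorProduct b)) p)) := by
    rw [e]; exact h
  exact fo_injective_of_basis_li (κ := Fin n × (Fin n × Fin n)) hinj
    (b.tensorProduct (b.tensorProduct b)) (foJ₃ H).toLinearMap h'

end embeddings

namespace FunOrderCore

variable {R : Type*} [CommRing R] [IsDomain R] [IsPrincipalIdealRing R] {Ω : Type*} [Field Ω]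
  [Algebra R Ω] {G : Type*} [AddCommGroup G] (D : FunOrderCore R Ω G)

instance instFinite : Module.Finite R D.H := Module.Finite.iff_fg.mpr D.fg

instance instTorsionFree : Module.IsTorsionFree R D.H := by
  apply Module.IsTorsionFree.of_smul_eq_zero
  intro r h hrh
  by_cases hr : r = 0
  · exact Or.inl hr
  · right
    apply Subtype.ext
    funext g
    have h1 : ((r • h : D.H) : G → Ω) g = 0 := by rw [hrh]; rfl
    have h2 : ((r • h : D.H) : G → Ω) g = algebraMap R Ω r * (h : G → Ω) g :=
      fo_smul_apply r (h : G → Ω) g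
    rw [h2] at h1
    rcases mul_eq_zero.mp h1 with h' | h'
    · exact absurd (D.inj (by rw [h', map_zero])) hr
    · exact h'

instance instFree : Module.Free R D.H := Module.free_of_finite_type_torsion_free'

/-- a basis of the order whose members are linearly independent over `Ω` -/
theorem exists_basis : ∃ (n : ℕ) (b : Module.Basis (Fin n) R D.H),
    LinearIndependent Ω (fun i => ((b i : D.H) : G → Ω)) :=
  ⟨_, Module.finBasis R D.H, D.li _ _ (Module.finBasis R D.H).linearIndependent⟩

theorem j₂_injective : Function.Injective (foJ₂ D.H) := by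
  obtain ⟨n, b, hb⟩ := D.exists_basis
  exact foJ₂_injective D.H D.inj b hb

theorem j₃_injective : Function.Injective (foJ₃ D.H) := by
  obtain ⟨n, b, hb⟩ := D.exists_basis
  exact foJ₃_injective D.H D.inj b hb

end FunOrderCore

end Fermat.Agent.FG
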