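import Mathlib
import Fermat.Agent.FG.HOPF_helper8_Struct

set_option autoImplicit false
set_option linter.unusedSectionVars false

/-!
# [HOPF-PACK] (b), part 3: the Hopf algebra structure of a function order

For a function order `D` (core form) over a principal ideal domain `R`, on a finite abelian group
`G`: comultiplication, counit and antipode of `D.H` (as algebra maps), the bialgebra and Hopf
algebra axioms and cocommutativity.  Everything is checked after composing with the injective
maps of `D.H ⊗ D.H` and `D.H ⊗ (D.H ⊗ D.H)` into function algebras.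
-/

namespace Fermat.Agent.FG

open TensorProduct

namespace FunOrderCore

variable {R : Type*} [CommRing R] [IsDomain R] [IsPrincipalIdealRing R] {Ω : Type*} [Field Ω]
  [Algebra R Ω] {G : Type*} [AddCommGroup G] (D : FunOrderCore R Ω G)

/-- `h ↦ ((g, g') ↦ h (g + g'))` -/
noncomputable def comulFun : D.H →ₐ[R] (G × G → Ω) :=
  (foPullback R Ω (fun p : G × G => p.1 + p.2)).comp D.H.val

theorem comulFun_apply (h : D.H) (p : G × G) :
    D.comulFun h p = (h : G → Ω) (p.1 + p.2) := rfl

theorem comulFun_mem_range (h : D.H) : D.comulFun h ∈ (foJ₂ D.H).range := by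
  obtain ⟨n, u, v, hu, hv, huv⟩ := D.comul_mem h h.2
  refine ⟨∑ i, (⟨u i, hu i⟩ : D.H) ⊗ₜ[R] (⟨v i, hv i⟩ : D.H), ?_⟩
  funext p
  rw [map_sum, Finset.sum_apply, comulFun_apply, huv]
  refine Finset.sum_congr rfl fun i _ => ?_
  exact foJ₂_tmul D.H _ _ p

/-- the comultiplication of a function order -/
noncomputable def comulAlg : D.H →ₐ[R] D.H ⊗[R] D.H :=
  ((AlgEquiv.ofInjective (foJ₂ D.H) D.j₂_injective).symm : (foJ₂ D.H).range →ₐ[R] _).comp
    (D.comulFun.codRestrict (foJ₂ D.H).range D.comulFun_mem_range)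

theorem foJ₂_comulAlg (h : D.H) : foJ₂ D.H (D.comulAlg h) = D.comulFun h := by
  have h1 := (AlgEquiv.ofInjective (foJ₂ D.H) D.j₂_injective).apply_symm_apply
    (D.comulFun.codRestrict (foJ₂ D.H).range D.comulFun_mem_range h)
  have h2 := congrArg Subtype.val h1
  rw [AlgEquiv.ofInjective_apply] at h2
  exact h2

theorem foJ₂_comulAlg_apply (h : D.H) (p : G × G) :
    foJ₂ D.H (D.comulAlg h) p = (h : G → Ω) (p.1 + p.2) := by
  rw [foJ₂_comulAlg, comulFun_apply]

/-- evaluation at `0` -/
noncomputable def evalZero : D.H →ₐ[R] Ω :=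
  (Pi.evalAlgHom R (fun _ : G => Ω) 0).comp D.H.val

theorem evalZero_apply (h : D.H) : D.evalZero h = (h : G → Ω) 0 := rfl

theorem evalZero_mem_range (h : D.H) : D.evalZero h ∈ (Algebra.ofId R Ω).range := by
  obtain ⟨r, hr⟩ := D.counit_mem h h.2
  exact ⟨r, hr⟩

include D in
theorem ofId_injective : Function.Injective (Algebra.ofId R Ω) := D.inj

/-- the counit of a function order -/
noncomputable def counitAlg : D.H →ₐ[R] R :=
  ((AlgEquiv.ofInjective (Algebra.ofId R Ω) D.ofId_injective).symm :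
      (Algebra.ofId R Ω).range →ₐ[R] _).comp
    (D.evalZero.codRestrict (Algebra.ofId R Ω).range D.evalZero_mem_range)

theorem algebraMap_counitAlg (h : D.H) : algebraMap R Ω (D.counitAlg h) = (h : G → Ω) 0 := by
  have h1 := (AlgEquiv.ofInjective (Algebra.ofId R Ω) D.ofId_injective).apply_symm_apply
    (D.evalZero.codRestrict (Algebra.ofId R Ω).range D.evalZero_mem_range h)
  have h2 := congrArg Subtype.val h1
  rw [AlgEquiv.ofInjective_apply] at h2
  exact h2

/-! ### the antipode -/

theorem const_mem (h : G → Ω) (hh : h ∈ D.H) : (fun _ : G => h 0) ∈ D.H := by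
  obtain ⟨r, hr⟩ := D.counit_mem h hh
  have e : (fun _ : G => h 0) = algebraMap R (G → Ω) r := by
    funext g
    rw [Pi.algebraMap_apply, hr]
  rw [e]
  exact D.H.algebraMap_mem r

theorem comp_nsmul_mem (m : ℕ) : ∀ h ∈ D.H, (fun g : G => h (m • g)) ∈ D.H := by
  induction m with
  | zero =>
    intro h hh
    simp only [zero_smul]
    exact D.const_mem h hh
  | succ m ih =>
    intro h hh
    obtain ⟨n, u, v, hu, hv, huv⟩ := D.comul_mem h hh
    have e : (fun g : G => h ((m + 1) • g)) = ∑ i, (fun g => u i (m • g)) * v i := by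
      funext g
      rw [succ_nsmul, huv, Finset.sum_apply]
      rfl
    rw [e]
    exact D.H.sum_mem fun i _ => D.H.mul_mem (ih _ (hu i)) (hv i)

theorem comp_neg_mem [Finite G] (h : G → Ω) (hh : h ∈ D.H) : (fun g : G => h (-g)) ∈ D.H := by
  have hN : 0 < Nat.card G := Nat.card_pos
  have e : (fun g : G => h (-g)) = fun g => h ((Nat.card G - 1) • g) := by
    funext g
    congr 1
    have h1 : (Nat.card G - 1) • g + g = 0 := by
      rw [← succ_nsmul, Nat.sub_add_cancel hN, card_nsmul_eq_zero']
    exact (eq_neg_of_add_eq_zero_left h1).symm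
  rw [e]
  exact D.comp_nsmul_mem _ h hh

/-- the antipode of a function order -/
noncomputable def antipodeAlg [Finite G] : D.H →ₐ[R] D.H :=
  ((foPullback R Ω (Neg.neg : G → G)).comp D.H.val).codRestrict D.H
    (fun h => D.comp_neg_mem h h.2)

theorem antipodeAlg_apply [Finite G] (h : D.H) (g : G) :
    ((D.antipodeAlg h : D.H) : G → Ω) g = (h : G → Ω) (-g) := rfl

/-! ### pointwise formulas -/

theorem foJ₃_assoc_tmul (s : D.H ⊗[R] D.H) (b : D.H) (p : G × (G × G)) :
    foJ₃ D.H (Algebra.TensorProduct.assoc R R R D.H D.H D.H (s ⊗ₜ[R] b)) p =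
      foJ₂ D.H s (p.1, p.2.1) * (b : G → Ω) p.2.2 := by
  induction s using TensorProduct.induction_on with
  | zero => rw [zero_tmul, map_zero, map_zero, Pi.zero_apply, map_zero, Pi.zero_apply, zero_mul]
  | tmul a₁ a₂ =>
    rw [Algebra.TensorProduct.assoc_tmul, foJ₃_tmul, foJ₂_tmul, foJ₂_tmul, mul_assoc]
  | add s₁ s₂ h₁ h₂ =>
    rw [add_tmul, map_add, map_add, map_add, Pi.add_apply, Pi.add_apply, h₁, h₂, add_mul]

theorem foJ₃_assoc_map_comul (t : D.H ⊗[R] D.H) (p : G × (G × G)) :
    foJ₃ D.H (Algebra.TensorProduct.assoc R R R D.H D.H D.H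
      (Algebra.TensorProduct.map D.comulAlg (AlgHom.id R D.H) t)) p =
      foJ₂ D.H t (p.1 + p.2.1, p.2.2) := by
  induction t using TensorProduct.induction_on with
  | zero => rw [map_zero, map_zero, map_zero, map_zero, Pi.zero_apply, Pi.zero_apply]
  | tmul a b =>
    rw [Algebra.TensorProduct.map_tmul, foJ₃_assoc_tmul, foJ₂_comulAlg_apply, foJ₂_tmul]
    rfl
  | add t₁ t₂ h₁ h₂ =>
    rw [map_add, map_add, map_add, map_add, Pi.add_apply, Pi.add_apply, h₁, h₂]

theorem foJ₃_map_comul (t : D.H ⊗[R] D.H) (p : G × (G × G)) :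
    foJ₃ D.H (Algebra.TensorProduct.map (AlgHom.id R D.H) D.comulAlg t) p =
      foJ₂ D.H t (p.1, p.2.1 + p.2.2) := by
  induction t using TensorProduct.induction_on with
  | zero => rw [map_zero, map_zero, map_zero, Pi.zero_apply, Pi.zero_apply]
  | tmul a b =>
    rw [Algebra.TensorProduct.map_tmul, foJ₃_tmul, foJ₂_comulAlg_apply, foJ₂_tmul]
    rfl
  | add t₁ t₂ h₁ h₂ =>
    rw [map_add, map_add, map_add, Pi.add_apply, Pi.add_apply, h₁, h₂]

theorem lid_map_counit (t : D.H ⊗[R] D.H) (g : G) :
    ((Algebra.TensorProduct.lid R D.H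
      (Algebra.TensorProduct.map D.counitAlg (AlgHom.id R D.H) t) : D.H) : G → Ω) g =
      foJ₂ D.H t (0, g) := by
  induction t using TensorProduct.induction_on with
  | zero => rw [map_zero, map_zero, map_zero]; rfl
  | tmul a b =>
    rw [Algebra.TensorProduct.map_tmul, Algebra.TensorProduct.lid_tmul, foJ₂_tmul]
    show (D.counitAlg a • ((b : D.H) : G → Ω)) g = _
    rw [fo_smul_apply, algebraMap_counitAlg]
  | add t₁ t₂ h₁ h₂ =>
    rw [map_add, map_add, map_add, Pi.add_apply, ← h₁, ← h₂]
    rfl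

theorem rid_map_counit (t : D.H ⊗[R] D.H) (g : G) :
    ((Algebra.TensorProduct.rid R R D.H
      (Algebra.TensorProduct.map (AlgHom.id R D.H) D.counitAlg t) : D.H) : G → Ω) g =
      foJ₂ D.H t (g, 0) := by
  induction t using TensorProduct.induction_on with
  | zero => rw [map_zero, map_zero, map_zero]; rfl
  | tmul a b =>
    rw [Algebra.TensorProduct.map_tmul, Algebra.TensorProduct.rid_tmul, foJ₂_tmul]
    show (D.counitAlg b • ((a : D.H) : G → Ω)) g = _
    rw [fo_smul_apply, algebraMap_counitAlg, mul_comm]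
  | add t₁ t₂ h₁ h₂ =>
    rw [map_add, map_add, map_add, Pi.add_apply, ← h₁, ← h₂]
    rfl

theorem foJ₂_comm (t : D.H ⊗[R] D.H) (p : G × G) :
    foJ₂ D.H (TensorProduct.comm R D.H D.H t) p = foJ₂ D.H t (p.2, p.1) := by
  induction t using TensorProduct.induction_on with
  | zero => rw [map_zero, map_zero, Pi.zero_apply, Pi.zero_apply]
  | tmul a b => rw [TensorProduct.comm_tmul, foJ₂_tmul, foJ₂_tmul, mul_comm]
  | add t₁ t₂ h₁ h₂ => rw [map_add, map_add, map_add, Pi.add_apply, Pi.add_apply, h₁, h₂]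

theorem lift_antipode_id [Finite G] (t : D.H ⊗[R] D.H) (g : G) :
    ((Algebra.TensorProduct.lift D.antipodeAlg (AlgHom.id R D.H) (fun _ _ => Commute.all _ _) t :
      D.H) : G → Ω) g = foJ₂ D.H t (-g, g) := by
  induction t using TensorProduct.induction_on with
  | zero => rw [map_zero, map_zero]; rfl
  | tmul a b =>
    rw [Algebra.TensorProduct.lift_tmul, foJ₂_tmul]
    rfl
  | add t₁ t₂ h₁ h₂ =>
    rw [map_add, map_add, Pi.add_apply, ← h₁, ← h₂]
    rfl

theorem lift_id_antipode [Finite G] (t : D.H ⊗[R] D.H) (g : G) :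
    ((Algebra.TensorProduct.lift (AlgHom.id R D.H) D.antipodeAlg (fun _ _ => Commute.all _ _) t :
      D.H) : G → Ω) g = foJ₂ D.H t (g, -g) := by
  induction t using TensorProduct.induction_on with
  | zero => rw [map_zero, map_zero]; rfl
  | tmul a b =>
    rw [Algebra.TensorProduct.lift_tmul, foJ₂_tmul]
    rfl
  | add t₁ t₂ h₁ h₂ =>
    rw [map_add, map_add, Pi.add_apply, ← h₁, ← h₂]
    rfl

/-! ### the structures -/

theorem coassoc_alg :
    (Algebra.TensorProduct.assoc R R R D.H D.H D.H).toAlgHom.comp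
      ((Algebra.TensorProduct.map D.comulAlg (AlgHom.id R D.H)).comp D.comulAlg) =
    (Algebra.TensorProduct.map (AlgHom.id R D.H) D.comulAlg).comp D.comulAlg := by
  apply AlgHom.ext
  intro h
  apply D.j₃_injective
  funext p
  show foJ₃ D.H (Algebra.TensorProduct.assoc R R R D.H D.H D.H
      (Algebra.TensorProduct.map D.comulAlg (AlgHom.id R D.H) (D.comulAlg h))) p =
    foJ₃ D.H (Algebra.TensorProduct.map (AlgHom.id R D.H) D.comulAlg (D.comulAlg h)) p
  rw [foJ₃_assoc_map_comul, foJ₃_map_comul, foJ₂_comulAlg_apply, foJ₂_comulAlg_apply,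
    add_assoc]

theorem rTensor_alg :
    (Algebra.TensorProduct.map D.counitAlg (AlgHom.id R D.H)).comp D.comulAlg =
      (Algebra.TensorProduct.lid R D.H).symm := by
  apply AlgHom.ext
  intro h
  apply (Algebra.TensorProduct.lid R D.H).injective
  show Algebra.TensorProduct.lid R D.H
      (Algebra.TensorProduct.map D.counitAlg (AlgHom.id R D.H) (D.comulAlg h)) =
    Algebra.TensorProduct.lid R D.H ((Algebra.TensorProduct.lid R D.H).symm h)
  rw [AlgEquiv.apply_symm_apply]
  apply Subtype.ext
  funext g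
  rw [lid_map_counit, foJ₂_comulAlg_apply, zero_add]

theorem lTensor_alg :
    (Algebra.TensorProduct.map (AlgHom.id R D.H) D.counitAlg).comp D.comulAlg =
      (Algebra.TensorProduct.rid R R D.H).symm := by
  apply AlgHom.ext
  intro h
  apply (Algebra.TensorProduct.rid R R D.H).injective
  show Algebra.TensorProduct.rid R R D.H
      (Algebra.TensorProduct.map (AlgHom.id R D.H) D.counitAlg (D.comulAlg h)) =
    Algebra.TensorProduct.rid R R D.H ((Algebra.TensorProduct.rid R R D.H).symm h)
  rw [AlgEquiv.apply_symm_apply]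
  apply Subtype.ext
  funext g
  rw [rid_map_counit, foJ₂_comulAlg_apply, add_zero]

/-- the bialgebra structure of a function order -/
@[instance_reducible]
noncomputable def bialgebra : Bialgebra R D.H :=
  Bialgebra.ofAlgHom D.comulAlg D.counitAlg D.coassoc_alg D.rTensor_alg D.lTensor_alg

theorem bialgebra_comul (h : D.H) :
    @Coalgebra.comul R D.H _ _ _ D.bialgebra.toCoalgebra.toCoalgebraStruct h = D.comulAlg h := rfl

theorem bialgebra_counit (h : D.H) :
    @Coalgebra.counit R D.H _ _ _ D.bialgebra.toCoalgebra.toCoalgebraStruct h = D.counitAlg h :=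
  rfl

theorem algebraMap_coe_apply (r : R) (g : G) :
    ((algebraMap R D.H r : D.H) : G → Ω) g = algebraMap R Ω r := rfl

theorem antipode_rTensor_alg [Finite G] :
    letI := D.bialgebra
    ((Algebra.TensorProduct.lift D.antipodeAlg (AlgHom.id R D.H) fun _ => Commute.all _).comp
      (Bialgebra.comulAlgHom R D.H)) =
      (Algebra.ofId R D.H).comp (Bialgebra.counitAlgHom R D.H) := by
  let _ := D.bialgebra
  apply AlgHom.ext
  intro h
  apply Subtype.ext
  funext g
  show ((Algebra.TensorProduct.lift D.antipodeAlg (AlgHom.id R D.H)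
      (fun _ _ => Commute.all _ _) (D.comulAlg h) : D.H) : G → Ω) g =
    ((algebraMap R D.H (D.counitAlg h) : D.H) : G → Ω) g
  rw [lift_antipode_id, foJ₂_comulAlg_apply, algebraMap_coe_apply, algebraMap_counitAlg]
  show (h : G → Ω) (-g + g) = _
  rw [neg_add_cancel]

theorem antipode_lTensor_alg [Finite G] :
    letI := D.bialgebra
    ((Algebra.TensorProduct.lift (AlgHom.id R D.H) D.antipodeAlg fun _ _ => Commute.all _ _).comp
      (Bialgebra.comulAlgHom R D.H)) =
      (Algebra.ofId R D.H).comp (Bialgebra.counitAlgHom R D.H) := by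
  let _ := D.bialgebra
  apply AlgHom.ext
  intro h
  apply Subtype.ext
  funext g
  show ((Algebra.TensorProduct.lift (AlgHom.id R D.H) D.antipodeAlg
      (fun _ _ => Commute.all _ _) (D.comulAlg h) : D.H) : G → Ω) g =
    ((algebraMap R D.H (D.counitAlg h) : D.H) : G → Ω) g
  rw [lift_id_antipode, foJ₂_comulAlg_apply, algebraMap_coe_apply, algebraMap_counitAlg]
  show (h : G → Ω) (g + -g) = _
  rw [add_neg_cancel]

/-- the Hopf algebra structure of a function order on a finite group -/
@[instance_reducible]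
noncomputable def hopfAlgebra [Finite G] : HopfAlgebra R D.H :=
  letI := D.bialgebra
  HopfAlgebra.ofAlgHom D.antipodeAlg D.antipode_rTensor_alg D.antipode_lTensor_alg

theorem isCocomm : @Coalgebra.IsCocomm R D.H _ _ _ D.bialgebra.toCoalgebra := by
  let _ := D.bialgebra
  refine ⟨?_⟩
  apply LinearMap.ext
  intro h
  apply D.j₂_injective
  funext p
  show foJ₂ D.H (TensorProduct.comm R D.H D.H (D.comulAlg h)) p = foJ₂ D.H (D.comulAlg h) p
  rw [foJ₂_comm, foJ₂_comulAlg_apply, foJ₂_comulAlg_apply, add_comm]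

end FunOrderCore

end Fermat.Agent.FG
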