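import Mathlib
import Fermat.Agent.FG.HOPF_helper8_Hopf

set_option autoImplicit false
set_option linter.unusedSectionVars false

/-!
# [HOPF-PACK] (b), part 4: the points of a function order

For a function order `D` on a finite abelian group `G` (core form, over a principal ideal domain
`R`, functions with values in the field `Ω`): every `R`-algebra map `D.H → Ω` is the evaluation at
a unique point of `G`, and the convolution product of evaluations is the evaluation at the sum.
-/

namespace Fermat.Agent.FG

open TensorProduct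

namespace FunOrderCore

variable {R : Type*} [CommRing R] [IsDomain R] [IsPrincipalIdealRing R] {Ω : Type*} [Field Ω]
  [Algebra R Ω] {G : Type*} [AddCommGroup G] (D : FunOrderCore R Ω G)

/-- evaluation at a point -/
noncomputable def evalPt (g : G) : D.H →ₐ[R] Ω :=
  (Pi.evalAlgHom R (fun _ : G => Ω) g).comp D.H.val

theorem evalPt_apply (g : G) (h : D.H) : D.evalPt g h = (h : G → Ω) g := rfl

theorem evalPt_injective : Function.Injective D.evalPt := by
  intro g g' hgg'
  by_contra hne
  obtain ⟨h, hh, hne'⟩ := D.sep g g' hne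
  exact hne' (DFunLike.congr_fun hgg' (⟨h, hh⟩ : D.H))

/-- the rank of a function order is at most the order of the group -/
theorem rank_le_card [Fintype G] {n : ℕ} (b : Module.Basis (Fin n) R D.H)
    (hb : LinearIndependent Ω (fun i => ((b i : D.H) : G → Ω))) : n ≤ Fintype.card G := by
  have h1 := hb.fintype_card_le_finrank
  rw [Fintype.card_fin, Module.finrank_fintype_fun_eq_card] at h1
  exact h1

/-- an algebra map is determined on a basis -/
theorem algHom_apply_eq_sum {n : ℕ} (b : Module.Basis (Fin n) R D.H) (f : D.H →ₐ[R] Ω)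
    (h : D.H) : f h = ∑ i, algebraMap R Ω (b.repr h i) * f (b i) := by
  conv_lhs => rw [← b.sum_repr h, map_sum]
  refine Finset.sum_congr rfl fun i _ => ?_
  rw [map_smul, Algebra.smul_def]

theorem evalPt_surjective [Finite G] : Function.Surjective D.evalPt := by
  classical
  cases nonempty_fintype G
  intro f
  by_contra hf
  have hf' : ∀ g : G, D.evalPt g ≠ f := fun g hg => hf ⟨g, hg⟩
  obtain ⟨n, b, hb⟩ := D.exists_basis
  have hn : n ≤ Fintype.card G := D.rank_le_card b hb
  -- the family of characters
  let χ : Option G → (D.H →* Ω) := fun k => k.elim (f : D.H →* Ω) (fun g => (D.evalPt g : D.H →* Ω))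
  have hχ : Function.Injective χ := by
    intro k k' hkk'
    have hcoe : ∀ (a : D.H →ₐ[R] Ω) (a' : D.H →ₐ[R] Ω),
        ((a : D.H →* Ω) = (a' : D.H →* Ω)) → a = a' := by
      intro a a' haa'
      apply AlgHom.ext
      intro h
      exact DFunLike.congr_fun haa' h
    rcases k with _ | g <;> rcases k' with _ | g'
    · rfl
    · exact absurd (hcoe _ _ hkk').symm (hf' g')
    · exact absurd (hcoe _ _ hkk') (hf' g)
    · exact congrArg some (D.evalPt_injective (hcoe _ _ hkk'))
  have hli : LinearIndependent Ω (fun k => (χ k : D.H → Ω)) :=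
    (linearIndependent_monoidHom D.H Ω).comp χ hχ
  -- the vectors of values on the basis
  let v : Option G → (Fin n → Ω) := fun k i => χ k (b i)
  have hv : ¬ LinearIndependent Ω v := by
    intro hv
    have h1 := hv.fintype_card_le_finrank
    rw [Fintype.card_option, Module.finrank_fintype_fun_eq_card, Fintype.card_fin] at h1
    omega
  rw [Fintype.not_linearIndependent_iff] at hv
  obtain ⟨c, hc, k₀, hk₀⟩ := hv
  rw [Fintype.linearIndependent_iff] at hli
  refine hk₀ (hli c ?_ k₀)
  funext h
  have hχh : ∀ k, χ k h = ∑ i, algebraMap R Ω (b.repr h i) * χ k (b i) := by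
    intro k
    rcases k with _ | g
    · exact D.algHom_apply_eq_sum b f h
    · exact D.algHom_apply_eq_sum b (D.evalPt g) h
  have hc' : ∀ i, ∑ k, c k * χ k (b i) = 0 := by
    intro i
    have := congrFun hc i
    simpa [v, Finset.sum_apply, Pi.smul_apply, smul_eq_mul] using this
  simp only [Finset.sum_apply, Pi.smul_apply, smul_eq_mul, Pi.zero_apply]
  calc ∑ k, c k * χ k h = ∑ k, c k * ∑ i, algebraMap R Ω (b.repr h i) * χ k (b i) := by
        refine Finset.sum_congr rfl fun k _ => ?_
        rw [hχh k]
    _ = ∑ i, algebraMap R Ω (b.repr h i) * ∑ k, c k * χ k (b i) := by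
        simp only [Finset.mul_sum]
        rw [Finset.sum_comm]
        refine Finset.sum_congr rfl fun i _ => Finset.sum_congr rfl fun k _ => ?_
        ring
    _ = 0 := by
        refine Finset.sum_eq_zero fun i _ => ?_
        rw [hc' i, mul_zero]

theorem evalPt_bijective [Finite G] : Function.Bijective D.evalPt :=
  ⟨D.evalPt_injective, D.evalPt_surjective⟩

theorem lift_evalPt (x y : G) (t : D.H ⊗[R] D.H) :
    Algebra.TensorProduct.lift (D.evalPt x) (D.evalPt y) (fun _ _ => Commute.all _ _) t =
      foJ₂ D.H t (x, y) := by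
  induction t using TensorProduct.induction_on with
  | zero => rw [map_zero, map_zero]; rfl
  | tmul a b =>
    rw [Algebra.TensorProduct.lift_tmul, foJ₂_tmul]
    rfl
  | add t₁ t₂ h₁ h₂ =>
    rw [map_add, map_add, Pi.add_apply, h₁, h₂]

/-- the points of a function order are the points of the group -/
noncomputable def pointsEquiv [Finite G] : WithConv (D.H →ₐ[R] Ω) ≃ G :=
  (WithConv.equiv (D.H →ₐ[R] Ω)).trans (Equiv.ofBijective D.evalPt D.evalPt_bijective).symm

theorem evalPt_pointsEquiv [Finite G] (f : WithConv (D.H →ₐ[R] Ω)) :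
    D.evalPt (D.pointsEquiv f) = f.ofConv :=
  (Equiv.ofBijective D.evalPt D.evalPt_bijective).apply_symm_apply f.ofConv

theorem apply_eq_pointsEquiv [Finite G] (f : WithConv (D.H →ₐ[R] Ω)) (h : D.H) :
    f h = (h : G → Ω) (D.pointsEquiv f) :=
  (DFunLike.congr_fun (D.evalPt_pointsEquiv f) h).symm

theorem pointsEquiv_eq_iff [Finite G] (f : WithConv (D.H →ₐ[R] Ω)) (x : G) :
    D.pointsEquiv f = x ↔ ∀ h : D.H, f h = (h : G → Ω) x := by
  constructor
  · rintro rfl h
    exact D.apply_eq_pointsEquiv f h
  · intro hx
    apply D.evalPt_injective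
    rw [evalPt_pointsEquiv]
    apply AlgHom.ext
    intro h
    exact hx h

theorem pointsEquiv_mul [Finite G] :
    letI := D.bialgebra
    ∀ f g : WithConv (D.H →ₐ[R] Ω),
      D.pointsEquiv (f * g) = D.pointsEquiv f + D.pointsEquiv g := by
  let _ := D.bialgebra
  intro f g
  rw [pointsEquiv_eq_iff]
  intro h
  rw [AlgHom.convMul_apply, ← D.evalPt_pointsEquiv f, ← D.evalPt_pointsEquiv g]
  rw [lift_evalPt]
  show foJ₂ D.H (D.comulAlg h) (_, _) = _
  rw [foJ₂_comulAlg_apply]

/-- **The Hopf algebra of a function order**: it is finite, flat and cocommutative, and its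
points with values in `Ω`, with the convolution product, form the group `G`. -/
theorem hopf_points [Finite G] :
    letI := D.hopfAlgebra
    Module.Finite R D.H ∧ Module.Flat R D.H ∧ Coalgebra.IsCocomm R D.H ∧
      ∃ e : WithConv (D.H →ₐ[R] Ω) ≃ G, (∀ f g, e (f * g) = e f + e g) ∧
        ∀ (f : WithConv (D.H →ₐ[R] Ω)) (h : D.H), f h = (h : G → Ω) (e f) := by
  let _ := D.hopfAlgebra
  exact ⟨D.instFinite, inferInstance, D.isCocomm, D.pointsEquiv, D.pointsEquiv_mul,
    D.apply_eq_pointsEquiv⟩

end FunOrderCore

end Fermat.Agent.FG
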