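import Mathlib
import Fermat.Agent.FG.HOPF_helper8_Points
import Fermat.Agent.TW.FlatModule_helper6

set_option autoImplicit false
set_option linter.unusedSectionVars false

/-!
# [HOPF-PACK] (b): a Galois-stable function order gives a flat Galois module

`isFlatGaloisModule_of_funOrder`: let `G` be a finite abelian group with an action of
`Gal(ℚ̄/ℚ)` and let `H` be a `ℤ_(ℓ)`-subalgebra of the algebra of functions `G → ℚ̄` which consists
of Galois-equivariant functions, is a finitely generated module, separates the points of `G` and is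
closed under comultiplication.  Then `G` is a flat Galois module at `ℓ` (it is the group of
`ℚ̄`-points of the finite flat cocommutative Hopf algebra `H`).
-/

namespace Fermat.Agent.FG

open GaloisRep

local notation "Ω" => AlgebraicClosure ℚ
local notation "GQ" => (AlgebraicClosure ℚ ≃ₐ[ℚ] AlgebraicClosure ℚ)

section

variable (ℓ : ℕ) [Fact ℓ.Prime] (G : Type) [AddCommGroup G] [DistribMulAction GQ G]
  (H : Subalgebra (ratLocalizedAt ℓ) (G → Ω))
  (hequiv : ∀ h ∈ H, ∀ (σ : GQ) (g : G), h (σ • g) = σ (h g))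
  (hfg : H.toSubmodule.FG)

include hequiv hfg in
/-- the values at `0` of the functions of a function order lie in `ℤ_(ℓ)` -/
theorem funOrder_counit_mem (h : G → Ω) (hh : h ∈ H) :
    ∃ r : ratLocalizedAt ℓ, algebraMap (ratLocalizedAt ℓ) Ω r = h 0 := by
  -- rationality
  have hfix : ∀ σ : GQ, σ • h 0 = h 0 := by
    intro σ
    have := hequiv h hh σ 0
    rw [smul_zero] at this
    exact this.symm
  obtain ⟨q, hq⟩ := fo_qbar_fixed_mem_range (h 0) hfix
  -- integrality
  have : Module.Finite (ratLocalizedAt ℓ) H := Module.Finite.iff_fg.mpr hfg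
  have hint : IsIntegral (ratLocalizedAt ℓ) (⟨h, hh⟩ : H) := Algebra.IsIntegral.isIntegral _
  have hint' : IsIntegral (ratLocalizedAt ℓ) (h 0) :=
    hint.map ((Pi.evalAlgHom (ratLocalizedAt ℓ) (fun _ : G => Ω) 0).comp H.val)
  rw [← hq] at hint'
  have hint'' : IsIntegral (ratLocalizedAt ℓ) q :=
    (isIntegral_algebraMap_iff (algebraMap ℚ Ω).injective).mp hint'
  obtain ⟨r, hr⟩ := IsIntegrallyClosed.isIntegral_iff.mp hint''
  refine ⟨r, ?_⟩
  rw [← hq, ← hr]
  rfl

variable (hsep : ∀ g g' : G, g ≠ g' → ∃ h ∈ H, h g ≠ h g')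
  (hcomul : ∀ h ∈ H, ∃ (n : ℕ) (u v : Fin n → G → Ω), (∀ i, u i ∈ H) ∧ (∀ i, v i ∈ H) ∧
    ∀ g g' : G, h (g + g') = ∑ i, u i g * v i g')

/-- the core structure of a Galois-stable function order -/
noncomputable def funOrderCore : FunOrderCore (ratLocalizedAt ℓ) Ω G where
  H := H
  inj := fo_ratLoc_algebraMap_injective ℓ
  fg := hfg
  li := fun n b hb => by
    apply fo_linearIndependent_qbar_of_equivariant ℓ (fun i => ((b i : H) : G → Ω))
      (fun σ i y => hequiv _ (b i).2 σ y)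
    exact hb.map' H.val.toLinearMap (LinearMap.ker_eq_bot.mpr Subtype.val_injective)
  sep := hsep
  counit_mem := funOrder_counit_mem ℓ G H hequiv hfg
  comul_mem := hcomul

theorem funOrderCore_H : (funOrderCore ℓ G H hequiv hfg hsep hcomul).H = H := rfl

/-- **[HOPF-PACK] (b)**: a Galois-stable function order on a finite Galois module makes it a flat
Galois module. -/
theorem isFlatGaloisModule_of_funOrder (ℓ : ℕ) [Fact ℓ.Prime] (G : Type) [AddCommGroup G]
    [Finite G] [DistribMulAction GQ G] (H : Subalgebra (ratLocalizedAt ℓ) (G → Ω))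
    (hequiv : ∀ h ∈ H, ∀ (σ : GQ) (g : G), h (σ • g) = σ (h g))
    (hfg : H.toSubmodule.FG)
    (hsep : ∀ g g' : G, g ≠ g' → ∃ h ∈ H, h g ≠ h g')
    (hcomul : ∀ h ∈ H, ∃ (n : ℕ) (u v : Fin n → G → Ω), (∀ i, u i ∈ H) ∧ (∀ i, v i ∈ H) ∧
      ∀ g g' : G, h (g + g') = ∑ i, u i g * v i g') :
    Fermat.Agent.TW.IsFlatGaloisModule ℓ G (fun σ g => σ • g) := by
  obtain ⟨h1, h2, h3, e, he1, he2⟩ := (funOrderCore ℓ G H hequiv hfg hsep hcomul).hopf_points
  refine ⟨H, inferInstance, (funOrderCore ℓ G H hequiv hfg hsep hcomul).hopfAlgebra, h1, h2, h3,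
    e, he1, fun σ f g hfg' => ?_⟩
  by_contra hne
  obtain ⟨h, hh, hne'⟩ := hsep _ _ hne
  apply hne'
  have e1 := he2 g ⟨h, hh⟩
  have e2 := he2 f ⟨h, hh⟩
  have e3 := hfg' ⟨h, hh⟩
  have e4 := hequiv h hh σ (e f)
  show h (e g) = h (σ • e f)
  rw [e4]
  change g.ofConv ⟨h, hh⟩ = h (e g) at e1
  change f.ofConv ⟨h, hh⟩ = h (e f) at e2
  rw [← e1, ← e2]
  exact e3

end

end Fermat.Agent.FG
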