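import Mathlib
import Fermat.Agent.FG.HOPF_helper8_Main
import Fermat.Agent.FG.HOPF_helper1_Def

set_option autoImplicit false
set_option linter.unusedSectionVars false

/-!
# [HOPF-PACK] (b): interface forms

* `IsHopfOrder.isFlatGaloisModule` : a Hopf order (in the sense of `HOPF_helper1_Def`) on a finite
  Galois module makes it a flat Galois module;
* `IsHopfOrder.exists_hopfAlgebra` : the same with the definition of flatness unfolded (this is
  the literal shape of the conclusion of the flatness statements).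
-/

namespace Fermat.Agent.FG

open GaloisRep

local notation "Ω" => AlgebraicClosure ℚ
local notation "GQ" => (AlgebraicClosure ℚ ≃ₐ[ℚ] AlgebraicClosure ℚ)

theorem IsHopfOrder.isFlatGaloisModule {G : Type} [AddCommGroup G] [Finite G]
    [DistribMulAction GQ G] {p : ℕ} [Fact p.Prime] {H : Subalgebra (ratLocalizedAt p) (G → Ω)}
    (hH : IsHopfOrder G p H) :
    Fermat.Agent.TW.IsFlatGaloisModule p G (fun σ g => σ • g) :=
  isFlatGaloisModule_of_funOrder p G H hH.equivariant hH.fg hH.separates hH.comul_mem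

theorem IsHopfOrder.exists_hopfAlgebra {G : Type} [AddCommGroup G] [Finite G]
    [DistribMulAction GQ G] {p : ℕ} [Fact p.Prime] {H : Subalgebra (ratLocalizedAt p) (G → Ω)}
    (hH : IsHopfOrder G p H) :
    ∃ (H : Type) (_ : CommRing H) (_ : HopfAlgebra (GaloisRep.ratLocalizedAt p) H),
      Module.Finite (GaloisRep.ratLocalizedAt p) H ∧
      Module.Flat (GaloisRep.ratLocalizedAt p) H ∧
      Coalgebra.IsCocomm (GaloisRep.ratLocalizedAt p) H ∧
      ∃ e : WithConv (H →ₐ[GaloisRep.ratLocalizedAt p] AlgebraicClosure ℚ) ≃ G,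
        (∀ f g : WithConv (H →ₐ[GaloisRep.ratLocalizedAt p] AlgebraicClosure ℚ),
          e (f * g) = e f + e g) ∧
        ∀ (σ : AlgebraicClosure ℚ ≃ₐ[ℚ] AlgebraicClosure ℚ)
          (f g : WithConv (H →ₐ[GaloisRep.ratLocalizedAt p] AlgebraicClosure ℚ)),
          (∀ h : H, g h = σ (f h)) → e g = σ • e f :=
  hH.isFlatGaloisModule

end Fermat.Agent.FG
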