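/-
S19/S32 [HOPF-PACK] — helper1 — **equivariant functions separate points.**

For a `GQ`-set `X` on which the action is continuous (every point is fixed by the Galois group of
a finite extension), the Galois-equivariant functions `X → ℚ̄` separate the points of `X`:
on the orbit of `x` take `σ • x ↦ σ a` for an element `a` of the fixed field of the stabiliser of
`x` which is moved by `τ` (infinite Galois correspondence: stabilisers are open, hence closed).
-/
import Mathlib
import Fermat.Agent.FG.HOPF_helper1_Def

set_option autoImplicit false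
set_option linter.style.haveILetI false

namespace Fermat.Agent.FG

local notation "Ω" => AlgebraicClosure ℚ
local notation "GQ" => (AlgebraicClosure ℚ ≃ₐ[ℚ] AlgebraicClosure ℚ)

/-- `ℚ̄ / ℚ` is Galois. -/
theorem isGalois_qbar : IsGalois ℚ Ω := by
  haveI : Algebra.IsAlgebraic ℚ Ω := AlgebraicClosure.isAlgebraic ℚ
  haveI : IsAlgClosure ℚ Ω := ⟨inferInstance, inferInstance⟩
  exact IsAlgClosure.isGalois ℚ Ω

/-- elements of `ℚ̄` fixed by the whole Galois group are rational. -/
theorem mem_range_of_fixed (z : Ω) (hz : ∀ σ : GQ, σ z = z) :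
    z ∈ Set.range (algebraMap ℚ Ω) := by
  haveI := isGalois_qbar
  exact (InfiniteGalois.mem_range_algebraMap_iff_fixed z).mpr hz

section sep

variable {X : Type*} [MulAction GQ X]

/-- the action is continuous at `x`: `x` is fixed by the Galois group of a finite extension. -/
def IsContAt (x : X) : Prop :=
  ∃ L : IntermediateField ℚ Ω, FiniteDimensional ℚ L ∧ ∀ σ : GQ, (∀ a ∈ L, σ a = a) → σ • x = x

/-- the stabiliser of a point at which the action is continuous is closed. -/
theorem isClosed_stabilizer {x : X} (hx : IsContAt x) :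
    IsClosed ((MulAction.stabilizer GQ x : Subgroup GQ) : Set GQ) := by
  obtain ⟨L, hL, hfix⟩ := hx
  have hle : L.fixingSubgroup ≤ MulAction.stabilizer GQ x := by
    intro σ hσ
    rw [MulAction.mem_stabilizer_iff]
    refine hfix σ fun a ha => ?_
    exact (IntermediateField.mem_fixingSubgroup_iff L σ).mp hσ a ha
  have hopen : IsOpen ((MulAction.stabilizer GQ x : Subgroup GQ) : Set GQ) :=
    Subgroup.isOpen_mono hle (IntermediateField.fixingSubgroup_isOpen L)
  exact Subgroup.isClosed_of_isOpen _ hopen

/-- an element of `GQ` not in the stabiliser of `x` moves some element of the fixed field of the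
stabiliser. -/
theorem exists_fixed_moved {x : X} (hx : IsContAt x) (τ : GQ) (hτ : τ • x ≠ x) :
    ∃ a : Ω, (∀ σ : GQ, σ • x = x → σ a = a) ∧ τ a ≠ a := by
  haveI := isGalois_qbar
  have key := InfiniteGalois.fixingSubgroup_fixedField
    (⟨MulAction.stabilizer GQ x, isClosed_stabilizer hx⟩ : ClosedSubgroup GQ)
  by_contra hcon
  push Not at hcon
  apply hτ
  have hmem : τ ∈ (IntermediateField.fixedField
      (⟨MulAction.stabilizer GQ x, isClosed_stabilizer hx⟩ : ClosedSubgroup GQ).toSubgroup
        ).fixingSubgroup := by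
    rw [IntermediateField.mem_fixingSubgroup_iff]
    intro a ha
    refine hcon a fun σ hσ => ?_
    exact (IntermediateField.mem_fixedField_iff _ a).mp ha σ (MulAction.mem_stabilizer_iff.mpr hσ)
  rw [key] at hmem
  exact MulAction.mem_stabilizer_iff.mp hmem

/-- **equivariant functions separate points.** -/
theorem exists_isEquivFun_separating (hcont : ∀ x : X, IsContAt x) (x x' : X) (hne : x ≠ x') :
    ∃ φ : X → Ω, IsEquivFun φ ∧ φ x ≠ φ x' := by
  classical
  by_cases horb : x' ∈ MulAction.orbit GQ x
  · obtain ⟨τ, hτ⟩ := MulAction.mem_orbit_iff.mp horb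
    have hτx : τ • x ≠ x := by
      rw [hτ]
      exact fun h => hne h.symm
    obtain ⟨a, ha, hτa⟩ := exists_fixed_moved (hcont x) τ hτx
    -- the function `σ • x ↦ σ a` on the orbit of `x`
    have hwd : ∀ σ σ' : GQ, σ • x = σ' • x → σ a = σ' a := by
      intro σ σ' h
      have h1 : (σ'⁻¹ * σ) • x = x := by
        rw [mul_smul, h, inv_smul_smul]
      have h2 := ha _ h1
      have h3 : σ' ((σ'⁻¹ * σ) a) = σ a := by
        rw [AlgEquiv.mul_apply]
        exact AlgEquiv.apply_symm_apply σ' (σ a)
      rw [← h3, h2]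
    obtain ⟨φ, hφ⟩ : ∃ φ : X → Ω, ∀ y, φ y =
        if h : y ∈ MulAction.orbit GQ x then (Classical.choose (MulAction.mem_orbit_iff.mp h)) a
        else 0 := ⟨_, fun _ => rfl⟩
    have hφorb : ∀ σ : GQ, φ (σ • x) = σ a := by
      intro σ
      have h : σ • x ∈ MulAction.orbit GQ x := MulAction.mem_orbit x σ
      rw [hφ, dif_pos h]
      exact hwd _ _ (Classical.choose_spec (MulAction.mem_orbit_iff.mp h))
    refine ⟨φ, ?_, ?_⟩
    · intro σ y
      by_cases hy : y ∈ MulAction.orbit GQ x
      · obtain ⟨ρ, rfl⟩ := MulAction.mem_orbit_iff.mp hy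
        rw [← mul_smul, hφorb, hφorb, AlgEquiv.mul_apply]
      · have hy' : σ • y ∉ MulAction.orbit GQ x := by
          intro h
          apply hy
          obtain ⟨ρ, hρ⟩ := MulAction.mem_orbit_iff.mp h
          refine MulAction.mem_orbit_iff.mpr ⟨σ⁻¹ * ρ, ?_⟩
          rw [mul_smul, hρ, inv_smul_smul]
        rw [hφ, hφ, dif_neg hy, dif_neg hy', map_zero]
    · have h1 : φ x = a := by
        have := hφorb 1
        rwa [one_smul, AlgEquiv.one_apply] at this
      have h2 : φ x' = τ a := by
        rw [← hτ]
        exact hφorb τ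
      rw [h1, h2]
      exact fun h => hτa h.symm
  · refine ⟨fun y => if y ∈ MulAction.orbit GQ x then 1 else 0, ?_, ?_⟩
    · intro σ y
      have hiff : σ • y ∈ MulAction.orbit GQ x ↔ y ∈ MulAction.orbit GQ x := by
        constructor
        · intro h
          obtain ⟨ρ, hρ⟩ := MulAction.mem_orbit_iff.mp h
          refine MulAction.mem_orbit_iff.mpr ⟨σ⁻¹ * ρ, ?_⟩
          rw [mul_smul, hρ, inv_smul_smul]
        · intro h
          obtain ⟨ρ, hρ⟩ := MulAction.mem_orbit_iff.mp h
          refine MulAction.mem_orbit_iff.mpr ⟨σ * ρ, ?_⟩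
          rw [mul_smul, hρ]
      by_cases hy : y ∈ MulAction.orbit GQ x
      · simp only [if_pos hy, if_pos (hiff.mpr hy), map_one]
      · simp only [if_neg hy, if_neg (fun h => hy (hiff.mp h)), map_zero]
    · simp only [if_pos (MulAction.mem_orbit_self x), if_neg horb]
      exact one_ne_zero

end sep

/-- **equivariant functions separate points** (the shape consumed by the closure lemmas). -/
theorem exists_equivariant_separating (G : Type) [AddCommGroup G] [Finite G]
    [DistribMulAction GQ G]
    (hcont : ∀ g : G, ∃ L : IntermediateField ℚ Ω, FiniteDimensional ℚ L ∧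
      ∀ σ : GQ, (∀ a ∈ L, σ a = a) → σ • g = g)
    (g g' : G) (hne : g ≠ g') :
    ∃ φ : G → Ω, (∀ (σ : GQ) (x : G), φ (σ • x) = σ (φ x)) ∧ φ g ≠ φ g' :=
  exists_isEquivFun_separating (fun x => hcont x) g g' hne

end Fermat.Agent.FG
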