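/-
S19/S32 [HOPF-PACK] — helper1 — **the generic fibre `A = Map_GQ(X, ℚ̄)`.**

For a finite `GQ`-set `X` with continuous action:
* `subalgebra_eq_top_of_separates` : a subalgebra of `X → F` separating points is everything;
* `span_equivFun_eq_top` : the equivariant functions span `X → ℚ̄` over `ℚ̄`;
* `linearIndependent_of_isEquivFun` (Artin) : `ℚ`-independent equivariant functions are
  `ℚ̄`-independent; `rational_of_isEquivFun_sum` : the coefficients of an equivariant function in a
  `ℚ̄`-independent family of equivariant functions are rational;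
* `finrank_equivFun : finrank ℚ (equivFun X) = Nat.card X`;
* `equivFunEval : X → (equivFun X →ₐ[ℚ] ℚ̄)` is bijective and equivariant.
-/
import Mathlib
import Fermat.Agent.FG.HOPF_helper1_Sep
import Fermat.Agent.TW.FlatModelA_helper8

set_option autoImplicit false
set_option linter.style.haveILetI false
set_option linter.unusedSectionVars false

namespace Fermat.Agent.FG

local notation "Ω" => AlgebraicClosure ℚ
local notation "GQ" => (AlgebraicClosure ℚ ≃ₐ[ℚ] AlgebraicClosure ℚ)

/-- **finite Stone–Weierstrass**: a subalgebra of `X → F` (`X` finite, `F` a field) which separates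
the points of `X` is everything. -/
theorem subalgebra_eq_top_of_separates {F : Type*} [Field F] {X : Type*} [Finite X]
    (S : Subalgebra F (X → F)) (hS : ∀ x y : X, x ≠ y → ∃ f ∈ S, f x ≠ f y) : S = ⊤ := by
  classical
  haveI := Fintype.ofFinite X
  have hind : ∀ x : X, (Pi.single x 1 : X → F) ∈ S := by
    intro x
    choose! f hfS hf using fun y (hy : x ≠ y) => hS x y hy
    have he : (∏ y ∈ Finset.univ.erase x, (algebraMap F (X → F) ((f y x - f y y)⁻¹) *
        (f y - algebraMap F (X → F) (f y y)))) = Pi.single x 1 := by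
      funext z
      rw [Finset.prod_apply]
      by_cases hz : z = x
      · subst hz
        rw [Pi.single_eq_same]
        refine Finset.prod_eq_one fun y hy => ?_
        have hy' : z ≠ y := (Finset.ne_of_mem_erase hy).symm
        have hne : f y z - f y y ≠ 0 := sub_ne_zero.mpr (hf y hy')
        simp only [Pi.mul_apply, Pi.sub_apply, Pi.algebraMap_apply, Algebra.algebraMap_self_apply]
        exact inv_mul_cancel₀ hne
      · rw [Pi.single_eq_of_ne hz]
        refine Finset.prod_eq_zero (i := z) (Finset.mem_erase.mpr ⟨hz, Finset.mem_univ z⟩) ?_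
        simp only [Pi.mul_apply, Pi.sub_apply, Pi.algebraMap_apply, Algebra.algebraMap_self_apply,
          sub_self, mul_zero]
    rw [← he]
    refine Subalgebra.prod_mem _ fun y hy => ?_
    exact S.mul_mem (S.algebraMap_mem _)
      (S.sub_mem (hfS y (Finset.ne_of_mem_erase hy).symm) (S.algebraMap_mem _))
  rw [eq_top_iff]
  intro g _
  have hg : g = ∑ x, g x • (Pi.single x 1 : X → F) := by
    funext z
    rw [Finset.sum_apply]
    simp [Pi.single_apply]
  rw [hg]
  exact S.sum_mem fun x _ => S.smul_mem (hind x) _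

section fibre

variable {X : Type*} [MulAction GQ X]

/-- **Artin**: `ℚ`-independent equivariant functions are `ℚ̄`-independent. -/
theorem linearIndependent_of_isEquivFun {ι : Type*} (f : ι → X → Ω) (hf : ∀ i, IsEquivFun (f i))
    (hind : LinearIndependent ℚ f) : LinearIndependent Ω f :=
  Fermat.Agent.TW.Flat.linearIndependent_of_equivariant (G := GQ) (F := Ω) ℚ
    (fun z hz => mem_range_of_fixed z hz) f (fun σ i y => hf i σ y) hind

/-- the coefficients of an equivariant function with respect to a `ℚ̄`-independent family of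
equivariant functions are rational. -/
theorem rational_of_isEquivFun_sum {ι : Type*} [Fintype ι] (f : ι → X → Ω)
    (hf : ∀ i, IsEquivFun (f i)) (hind : LinearIndependent Ω f) (c : ι → Ω)
    (hψ : IsEquivFun (∑ i, c i • f i)) (i : ι) : c i ∈ Set.range (algebraMap ℚ Ω) := by
  refine mem_range_of_fixed _ fun σ => ?_
  have h0 : ∑ j, (σ (c j) - c j) • f j = 0 := by
    funext z
    have h1 := hψ σ (σ⁻¹ • z)
    rw [smul_inv_smul, Finset.sum_apply, Finset.sum_apply, map_sum] at h1
    rw [Finset.sum_apply, Pi.zero_apply]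
    have h2 : ∀ j, σ ((c j • f j) (σ⁻¹ • z)) = σ (c j) * f j z := by
      intro j
      rw [Pi.smul_apply, smul_eq_mul, map_mul, ← hf j σ, smul_inv_smul]
    simp only [h2] at h1
    simp only [Pi.smul_apply, smul_eq_mul, sub_mul, Finset.sum_sub_distrib]
    rw [← h1]
    simp only [Pi.smul_apply, smul_eq_mul, sub_self]
  have := (Fintype.linearIndependent_iff.mp hind) _ h0 i
  exact sub_eq_zero.mp this

variable [Finite X]

/-- the equivariant functions span all functions. -/
theorem span_equivFun_eq_top (hcont : ∀ x : X, IsContAt x) :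
    Submodule.span Ω ((equivFun X : Subalgebra ℚ (X → Ω)) : Set (X → Ω)) = ⊤ := by
  have h1 : Algebra.adjoin Ω ((equivFun X : Subalgebra ℚ (X → Ω)) : Set (X → Ω)) = ⊤ := by
    refine subalgebra_eq_top_of_separates _ fun x y hxy => ?_
    obtain ⟨φ, hφ, hne⟩ := exists_isEquivFun_separating hcont x y hxy
    exact ⟨φ, Algebra.subset_adjoin hφ, hne⟩
  have h2 := Algebra.adjoin_eq_span Ω ((equivFun X : Subalgebra ℚ (X → Ω)) : Set (X → Ω))
  have h3 : Submonoid.closure ((equivFun X : Subalgebra ℚ (X → Ω)) : Set (X → Ω)) =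
      (equivFun X).toSubsemiring.toSubmonoid := Submonoid.closure_eq _
  rw [h1, h3] at h2
  rw [← Algebra.top_toSubmodule, h2]
  rfl

/-- the equivariant functions form a finite-dimensional `ℚ`-vector space. -/
theorem finite_equivFun : Module.Finite ℚ (equivFun X) := by
  classical
  haveI := Fintype.ofFinite X
  rw [← Module.rank_lt_aleph0_iff]
  refine lt_of_le_of_lt (rank_le (n := Fintype.card X) fun s hs => ?_) Cardinal.natCast_lt_aleph0
  have h1 : LinearIndependent ℚ (fun i : s => (((i : equivFun X) : X → Ω))) :=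
    hs.map' (Subalgebra.val (equivFun X)).toLinearMap (LinearMap.ker_eq_bot.mpr Subtype.val_injective)
  have h2 := linearIndependent_of_isEquivFun _ (fun i : s => (i : equivFun X).2) h1
  have h3 := h2.fintype_card_le_finrank
  rw [Fintype.card_coe, Module.finrank_fintype_fun_eq_card] at h3
  exact h3

/-- a `ℚ`-basis of the equivariant functions is a `ℚ̄`-basis of all functions. -/
theorem equivFun_basis_spec (hcont : ∀ x : X, IsContAt x) {ι : Type*} [Fintype ι]
    (b : Module.Basis ι ℚ (equivFun X)) :
    LinearIndependent Ω (fun i => ((b i : equivFun X) : X → Ω)) ∧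
      Submodule.span Ω (Set.range fun i => ((b i : equivFun X) : X → Ω)) = ⊤ := by
  have h1 : LinearIndependent ℚ (fun i => ((b i : equivFun X) : X → Ω)) :=
    b.linearIndependent.map' (Subalgebra.val (equivFun X)).toLinearMap
      (LinearMap.ker_eq_bot.mpr Subtype.val_injective)
  refine ⟨linearIndependent_of_isEquivFun _ (fun i => (b i).2) h1, ?_⟩
  rw [eq_top_iff, ← span_equivFun_eq_top hcont, Submodule.span_le]
  intro φ hφ
  have h2 := b.sum_repr ⟨φ, hφ⟩
  have h3 : φ = ∑ i, (algebraMap ℚ Ω (b.repr ⟨φ, hφ⟩ i)) • ((b i : equivFun X) : X → Ω) := by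
    have := congrArg (fun a : equivFun X => (a : X → Ω)) h2
    simp only at this
    refine this.symm.trans ?_
    rw [AddSubmonoidClass.coe_finsetSum]
    refine Finset.sum_congr rfl fun i _ => ?_
    funext x
    simp [Algebra.smul_def]
  rw [h3]
  exact Submodule.sum_mem _ fun i _ =>
    Submodule.smul_mem _ _ (Submodule.subset_span ⟨i, rfl⟩)

/-- **the dimension of the generic fibre.** -/
theorem finrank_equivFun (hcont : ∀ x : X, IsContAt x) :
    Module.finrank ℚ (equivFun X) = Nat.card X := by
  classical
  haveI := Fintype.ofFinite X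
  haveI := finite_equivFun (X := X)
  obtain ⟨hli, hsp⟩ := equivFun_basis_spec hcont (Module.finBasis ℚ (equivFun X))
  have hb := Module.Basis.mk hli hsp.ge
  have h1 := Module.finrank_eq_card_basis hb
  rw [Module.finrank_fintype_fun_eq_card, Fintype.card_fin] at h1
  rw [Nat.card_eq_fintype_card, h1]

/-- evaluation at a point, as a `ℚ`-algebra homomorphism on the generic fibre. -/
noncomputable def equivFunEval (x : X) : equivFun X →ₐ[ℚ] Ω :=
  (Pi.evalAlgHom ℚ (fun _ : X => Ω) x).comp (Subalgebra.val (equivFun X))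

theorem equivFunEval_apply (x : X) (φ : equivFun X) : equivFunEval x φ = (φ : X → Ω) x := rfl

/-- the Galois action on points is the action on homomorphisms through the coefficients. -/
theorem equivFunEval_smul (σ : GQ) (x : X) (φ : equivFun X) :
    equivFunEval (σ • x) φ = σ (equivFunEval x φ) := φ.2 σ x

/-- **the `ℚ̄`-points of the generic fibre are the points of `X`.** -/
theorem equivFunEval_bijective (hcont : ∀ x : X, IsContAt x) :
    Function.Bijective (equivFunEval (X := X)) := by
  haveI := finite_equivFun (X := X)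
  have hinj : Function.Injective (equivFunEval (X := X)) := by
    intro x y hxy
    by_contra hne
    obtain ⟨φ, hφ, hφne⟩ := exists_isEquivFun_separating hcont x y hne
    exact hφne (DFunLike.congr_fun hxy ⟨φ, hφ⟩)
  refine hinj.bijective_of_nat_card_le ?_
  rw [← finrank_equivFun hcont]
  exact card_algHom_le_finrank ℚ (equivFun X) Ω

end fibre

section tensor

/-- products of two `F`-independent families of functions are independent. -/
theorem linearIndependent_prod_mul {F : Type*} [Field F] {X Y ι κ : Type*} [Fintype ι] [Fintype κ]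
    (f : ι → X → F) (g : κ → Y → F) (hf : LinearIndependent F f) (hg : LinearIndependent F g) :
    LinearIndependent F (fun p : ι × κ => fun z : X × Y => f p.1 z.1 * g p.2 z.2) := by
  rw [Fintype.linearIndependent_iff]
  intro c hc
  have h1 : ∀ (y : Y) (i : ι), ∑ j, c (i, j) * g j y = 0 := by
    intro y
    have h2 : ∑ i, (∑ j, c (i, j) * g j y) • f i = 0 := by
      funext x
      have h3 := congrFun hc (x, y)
      rw [Finset.sum_apply, Fintype.sum_prod_type, Pi.zero_apply] at h3
      rw [Finset.sum_apply, Pi.zero_apply, ← h3]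
      refine Finset.sum_congr rfl fun i _ => ?_
      rw [Pi.smul_apply, smul_eq_mul, Finset.sum_mul]
      refine Finset.sum_congr rfl fun j _ => ?_
      simp only [Pi.smul_apply, smul_eq_mul]
      ring
    exact Fintype.linearIndependent_iff.mp hf _ h2
  rintro ⟨i, j⟩
  have h4 : ∑ j, c (i, j) • g j = 0 := by
    funext y
    rw [Finset.sum_apply, Pi.zero_apply, ← h1 y i]
    rfl
  exact Fintype.linearIndependent_iff.mp hg _ h4 j

variable {X Y : Type*} [MulAction GQ X] [MulAction GQ Y] [Finite X] [Finite Y]

/-- **`Map_GQ(X × Y, ℚ̄) = A_X ⊗ A_Y`**: every equivariant function on `X × Y` is a finite sum of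
products of equivariant functions on the factors. -/
theorem exists_sum_mul_of_isEquivFun_prod (hX : ∀ x : X, IsContAt x) (hY : ∀ y : Y, IsContAt y)
    (ψ : X × Y → Ω) (hψ : IsEquivFun ψ) :
    ∃ (n : ℕ) (a : Fin n → X → Ω) (b : Fin n → Y → Ω), (∀ i, IsEquivFun (a i)) ∧
      (∀ i, IsEquivFun (b i)) ∧ ∀ x y, ψ (x, y) = ∑ i, a i x * b i y := by
  classical
  haveI := Fintype.ofFinite X
  haveI := Fintype.ofFinite Y
  haveI := finite_equivFun (X := X)
  haveI := finite_equivFun (X := Y)
  set bX := Module.finBasis ℚ (equivFun X) with hbX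
  set bY := Module.finBasis ℚ (equivFun Y) with hbY
  obtain ⟨hXli, -⟩ := equivFun_basis_spec hX bX
  obtain ⟨hYli, -⟩ := equivFun_basis_spec hY bY
  have hli := linearIndependent_prod_mul _ _ hXli hYli
  have hcard : Fintype.card (Fin (Module.finrank ℚ (equivFun X)) ×
      Fin (Module.finrank ℚ (equivFun Y))) = Module.finrank Ω (X × Y → Ω) := by
    rw [Fintype.card_prod, Fintype.card_fin, Fintype.card_fin, finrank_equivFun hX,
      finrank_equivFun hY, Module.finrank_fintype_fun_eq_card, Fintype.card_prod,
      Nat.card_eq_fintype_card, Nat.card_eq_fintype_card]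
  have hsp := hli.span_eq_top_of_card_eq_finrank' hcard
  have hmem : ψ ∈ Submodule.span Ω (Set.range fun p : Fin (Module.finrank ℚ (equivFun X)) ×
      Fin (Module.finrank ℚ (equivFun Y)) =>
      fun z : X × Y => ((bX p.1 : equivFun X) : X → Ω) z.1 * ((bY p.2 : equivFun Y) : Y → Ω) z.2) := by
    rw [hsp]
    exact Submodule.mem_top
  obtain ⟨c, hc⟩ := (Submodule.mem_span_range_iff_exists_fun Ω).mp hmem
  have hFeq : ∀ p : Fin (Module.finrank ℚ (equivFun X)) × Fin (Module.finrank ℚ (equivFun Y)),
      IsEquivFun (fun z : X × Y =>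
        ((bX p.1 : equivFun X) : X → Ω) z.1 * ((bY p.2 : equivFun Y) : Y → Ω) z.2) := by
    intro p σ z
    show ((bX p.1 : equivFun X) : X → Ω) (σ • z.1) * ((bY p.2 : equivFun Y) : Y → Ω) (σ • z.2) = _
    rw [(bX p.1).2 σ z.1, (bY p.2).2 σ z.2, map_mul]
  have hrat := rational_of_isEquivFun_sum _ hFeq hli c (by rw [hc]; exact hψ)
  choose r hr using hrat
  let e := Fintype.equivFin (Fin (Module.finrank ℚ (equivFun X)) ×
    Fin (Module.finrank ℚ (equivFun Y)))
  refine ⟨_, fun i => r (e.symm i) • ((bX (e.symm i).1 : equivFun X) : X → Ω),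
    fun i => ((bY (e.symm i).2 : equivFun Y) : Y → Ω), fun i => ?_, fun i => (bY _).2, ?_⟩
  · exact IsEquivFun.rat_smul (bX _).2 _
  · intro x y
    have h1 := congrFun hc (x, y)
    rw [Finset.sum_apply] at h1
    rw [← h1, ← e.symm.sum_comp]
    refine Finset.sum_congr rfl fun i _ => ?_
    simp only [Pi.smul_apply, smul_eq_mul, ← hr, Algebra.smul_def]
    ring

end tensor

section group

variable {G : Type*} [AddCommGroup G] [Finite G] [DistribMulAction GQ G]

/-- **the comultiplication of the generic fibre**: for an equivariant `φ`, the function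
`(g, h) ↦ φ (g + h)` is a finite sum of products of equivariant functions. -/
theorem equivFun_comul (hcont : ∀ g : G, IsContAt g) (φ : G → Ω) (hφ : IsEquivFun φ) :
    ∃ (n : ℕ) (a b : Fin n → G → Ω), (∀ i, IsEquivFun (a i)) ∧ (∀ i, IsEquivFun (b i)) ∧
      ∀ g h : G, φ (g + h) = ∑ i, a i g * b i h := by
  have hψ : IsEquivFun (fun z : G × G => φ (z.1 + z.2)) := by
    intro σ z
    show φ (σ • z.1 + σ • z.2) = σ (φ (z.1 + z.2))
    rw [← smul_add, hφ]
  obtain ⟨n, a, b, ha, hb, hab⟩ := exists_sum_mul_of_isEquivFun_prod hcont hcont _ hψ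
  exact ⟨n, a, b, ha, hb, fun g h => hab g h⟩

/-- the counit of the generic fibre is rational. -/
theorem equivFun_counit_mem (φ : G → Ω) (hφ : IsEquivFun φ) :
    φ 0 ∈ Set.range (algebraMap ℚ Ω) :=
  mem_range_of_fixed _ fun σ => by rw [← hφ σ 0, smul_zero]

/-- the antipode of the generic fibre. -/
theorem equivFun_antipode (φ : G → Ω) (hφ : IsEquivFun φ) : IsEquivFun (fun g => φ (-g)) :=
  fun σ g => by
    show φ (-(σ • g)) = σ (φ (-g))
    rw [← smul_neg, hφ]

end group

end Fermat.Agent.FG
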