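import Mathlib
import Fermat.Agent.FG.HOPF_helper8_Struct

set_option autoImplicit false
set_option linter.unusedSectionVars false

/-!
# [HOPF-PACK] (c), part 1: the comultiplication condition as a subalgebra

For a subalgebra `H` of the function algebra `G → Ω`, the functions `φ` such that
`(g, g') ↦ φ (g + g')` is a finite sum of products `u i g * v i g'` with `u i, v i ∈ H` form a
subalgebra `comulSub H`.
-/

namespace Fermat.Agent.FG

open TensorProduct

section

variable {R : Type*} [CommRing R] {Ω : Type*} [Field Ω] [Algebra R Ω] {X : Type*}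
  (H : Subalgebra R (X → Ω))

/-- every element of the image of `H ⊗ H` is a finite sum of products -/
theorem foJ₂_exists_sum (t : H ⊗[R] H) : ∃ (n : ℕ) (u v : Fin n → X → Ω),
    (∀ i, u i ∈ H) ∧ (∀ i, v i ∈ H) ∧ ∀ p : X × X, foJ₂ H t p = ∑ i, u i p.1 * v i p.2 := by
  induction t using TensorProduct.induction_on with
  | zero =>
    refine ⟨0, fun i => i.elim0, fun i => i.elim0, fun i => i.elim0, fun i => i.elim0, ?_⟩
    intro p
    rw [map_zero, Finset.univ_eq_empty, Finset.sum_empty]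
    rfl
  | tmul a b =>
    refine ⟨1, fun _ => a, fun _ => b, fun _ => a.2, fun _ => b.2, ?_⟩
    intro p
    rw [foJ₂_tmul, Fin.sum_univ_one]
  | add t₁ t₂ h₁ h₂ =>
    obtain ⟨n₁, u₁, v₁, hu₁, hv₁, e₁⟩ := h₁
    obtain ⟨n₂, u₂, v₂, hu₂, hv₂, e₂⟩ := h₂
    refine ⟨n₁ + n₂, Fin.append u₁ u₂, Fin.append v₁ v₂, ?_, ?_, ?_⟩
    · intro i
      induction i using Fin.addCases with
      | left i => rw [Fin.append_left]; exact hu₁ i
      | right i => rw [Fin.append_right]; exact hu₂ i
    · intro i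
      induction i using Fin.addCases with
      | left i => rw [Fin.append_left]; exact hv₁ i
      | right i => rw [Fin.append_right]; exact hv₂ i
    · intro p
      rw [map_add, Pi.add_apply, e₁, e₂, Fin.sum_univ_add]
      simp only [Fin.append_left, Fin.append_right]

/-- a finite sum of products lies in the image of `H ⊗ H` -/
theorem sum_mem_foJ₂_range {F : X × X → Ω} {n : ℕ} {u v : Fin n → X → Ω} (hu : ∀ i, u i ∈ H)
    (hv : ∀ i, v i ∈ H) (hF : ∀ p : X × X, F p = ∑ i, u i p.1 * v i p.2) :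
    F ∈ (foJ₂ H).range := by
  refine ⟨∑ i, (⟨u i, hu i⟩ : H) ⊗ₜ[R] (⟨v i, hv i⟩ : H), ?_⟩
  funext p
  rw [map_sum, Finset.sum_apply, hF]
  refine Finset.sum_congr rfl fun i _ => ?_
  exact foJ₂_tmul H _ _ p

end

section

variable {R : Type*} [CommRing R] {Ω : Type*} [Field Ω] [Algebra R Ω] {G : Type*} [Add G]
  (H : Subalgebra R (G → Ω))

/-- the functions whose comultiplication lies in the image of `H ⊗ H` -/
noncomputable def comulSub : Subalgebra R (G → Ω) :=
  (foJ₂ H).range.comap (foPullback R Ω (fun p : G × G => p.1 + p.2))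

theorem mem_comulSub_iff {φ : G → Ω} : φ ∈ comulSub H ↔
    ∃ (n : ℕ) (u v : Fin n → G → Ω), (∀ i, u i ∈ H) ∧ (∀ i, v i ∈ H) ∧
      ∀ g g' : G, φ (g + g') = ∑ i, u i g * v i g' := by
  constructor
  · rintro ⟨t, ht⟩
    obtain ⟨n, u, v, hu, hv, e⟩ := foJ₂_exists_sum H t
    refine ⟨n, u, v, hu, hv, fun g g' => ?_⟩
    have := e (g, g')
    rw [← this]
    exact (congrFun ht (g, g')).symm
  · rintro ⟨n, u, v, hu, hv, e⟩
    exact sum_mem_foJ₂_range H hu hv (fun p => e p.1 p.2)

end

end Fermat.Agent.FG
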