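import Mathlib
import Fermat.Agent.FG.HOPF_helper8_Comul
import Fermat.Agent.FG.HOPF_helper1_Def

set_option autoImplicit false
set_option linter.unusedSectionVars false

/-!
# [HOPF-PACK] (c), part 2: Hopf orders on subgroups and on products

* `IsHopfOrder.of_injective` : restriction of a Hopf order along an injective equivariant
  homomorphism `G' → G` is a Hopf order on `G'`;
* `IsHopfOrder.prod` : the product of two Hopf orders is a Hopf order on `G₁ × G₂`.
-/

namespace Fermat.Agent.FG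

open GaloisRep

local notation "Ω" => AlgebraicClosure ℚ
local notation "GQ" => (AlgebraicClosure ℚ ≃ₐ[ℚ] AlgebraicClosure ℚ)

/-- the equivariant functions, as an algebra over `ℤ_(p)` -/
def equivSub (p : ℕ) (X : Type*) [SMul GQ X] : Subalgebra (ratLocalizedAt p) (X → Ω) where
  carrier := {φ | IsEquivFun φ}
  mul_mem' := fun ha hb => IsEquivFun.mul ha hb
  add_mem' := fun ha hb => IsEquivFun.add ha hb
  algebraMap_mem' := fun r σ x => by
    rw [Pi.algebraMap_apply, Pi.algebraMap_apply]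
    exact (σ.commutes (r : ℚ)).symm

theorem mem_equivSub {p : ℕ} {X : Type*} [SMul GQ X] {φ : X → Ω} :
    φ ∈ equivSub p X ↔ IsEquivFun φ := Iff.rfl

section sub

variable {G G' : Type} [AddCommGroup G] [AddCommGroup G'] [DistribMulAction GQ G]
  [DistribMulAction GQ G'] {p : ℕ} {H : Subalgebra (ratLocalizedAt p) (G → Ω)}

/-- **restriction of a Hopf order** along an injective equivariant homomorphism -/
theorem IsHopfOrder.of_injective (hH : IsHopfOrder G p H) (ι : G' →+ G)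
    (hι : Function.Injective ι) (hσ : ∀ (σ : GQ) (g : G'), ι (σ • g) = σ • ι g) :
    IsHopfOrder G' p (H.map (foPullback (ratLocalizedAt p) Ω ι)) where
  equivariant := by
    rintro ψ ⟨φ, hφ, rfl⟩ σ g
    show φ (ι (σ • g)) = σ (φ (ι g))
    rw [hσ]
    exact hH.equivariant φ hφ σ (ι g)
  fg := by
    rw [Subalgebra.map_toSubmodule]
    exact hH.fg.map _
  separates := by
    intro g g' hne
    obtain ⟨φ, hφ, hne'⟩ := hH.separates (ι g) (ι g') (fun h => hne (hι h))
    exact ⟨_, ⟨φ, hφ, rfl⟩, hne'⟩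
  comul_mem := by
    rintro ψ ⟨φ, hφ, rfl⟩
    obtain ⟨n, a, b, ha, hb, e⟩ := hH.comul_mem φ hφ
    refine ⟨n, fun i => a i ∘ ι, fun i => b i ∘ ι, fun i => ⟨a i, ha i, rfl⟩,
      fun i => ⟨b i, hb i, rfl⟩, fun g h => ?_⟩
    show φ (ι (g + h)) = _
    rw [map_add, e]
    rfl

end sub

section prod

variable {G₁ G₂ : Type} [AddCommGroup G₁] [AddCommGroup G₂] [DistribMulAction GQ G₁]
  [DistribMulAction GQ G₂] {p : ℕ} {H₁ : Subalgebra (ratLocalizedAt p) (G₁ → Ω)}
  {H₂ : Subalgebra (ratLocalizedAt p) (G₂ → Ω)}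

/-- the product of two function orders -/
noncomputable def prodOrder (H₁ : Subalgebra (ratLocalizedAt p) (G₁ → Ω))
    (H₂ : Subalgebra (ratLocalizedAt p) (G₂ → Ω)) :
    Subalgebra (ratLocalizedAt p) (G₁ × G₂ → Ω) :=
  H₁.map (foPullback (ratLocalizedAt p) Ω Prod.fst) ⊔
    H₂.map (foPullback (ratLocalizedAt p) Ω Prod.snd)

theorem fst_mem_prodOrder {φ : G₁ → Ω} (hφ : φ ∈ H₁) :
    (fun x : G₁ × G₂ => φ x.1) ∈ prodOrder H₁ H₂ :=
  (le_sup_left : _ ≤ prodOrder H₁ H₂) ⟨φ, hφ, rfl⟩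

theorem snd_mem_prodOrder {φ : G₂ → Ω} (hφ : φ ∈ H₂) :
    (fun x : G₁ × G₂ => φ x.2) ∈ prodOrder H₁ H₂ :=
  (le_sup_right : _ ≤ prodOrder H₁ H₂) ⟨φ, hφ, rfl⟩

/-- **the product of two Hopf orders** -/
theorem IsHopfOrder.prod (h₁ : IsHopfOrder G₁ p H₁) (h₂ : IsHopfOrder G₂ p H₂) :
    IsHopfOrder (G₁ × G₂) p (prodOrder H₁ H₂) where
  equivariant := by
    have hle : prodOrder H₁ H₂ ≤ equivSub p (G₁ × G₂) := by
      apply sup_le
      · rintro ψ ⟨φ, hφ, rfl⟩ σ x
        exact h₁.equivariant φ hφ σ x.1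
      · rintro ψ ⟨φ, hφ, rfl⟩ σ x
        exact h₂.equivariant φ hφ σ x.2
    exact fun φ hφ => hle hφ
  fg := by
    have f₁ : Module.Finite (ratLocalizedAt p)
        (H₁.map (foPullback (ratLocalizedAt p) Ω (Prod.fst : G₁ × G₂ → G₁))) := by
      have : (Subalgebra.toSubmodule
          (H₁.map (foPullback (ratLocalizedAt p) Ω (Prod.fst : G₁ × G₂ → G₁)))).FG := by
        rw [Subalgebra.map_toSubmodule]
        exact h₁.fg.map _
      exact Module.Finite.iff_fg.mpr this
    have f₂ : Module.Finite (ratLocalizedAt p)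
        (H₂.map (foPullback (ratLocalizedAt p) Ω (Prod.snd : G₁ × G₂ → G₂))) := by
      have : (Subalgebra.toSubmodule
          (H₂.map (foPullback (ratLocalizedAt p) Ω (Prod.snd : G₁ × G₂ → G₂)))).FG := by
        rw [Subalgebra.map_toSubmodule]
        exact h₂.fg.map _
      exact Module.Finite.iff_fg.mpr this
    exact Module.Finite.iff_fg.mp (Subalgebra.finite_sup _ _)
  separates := by
    intro x y hne
    by_cases h1 : x.1 = y.1
    · have h2 : x.2 ≠ y.2 := fun h2 => hne (Prod.ext h1 h2)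
      obtain ⟨φ, hφ, hne'⟩ := h₂.separates _ _ h2
      exact ⟨_, snd_mem_prodOrder hφ, hne'⟩
    · obtain ⟨φ, hφ, hne'⟩ := h₁.separates _ _ h1
      exact ⟨_, fst_mem_prodOrder hφ, hne'⟩
  comul_mem := by
    have hle : prodOrder H₁ H₂ ≤ comulSub (prodOrder H₁ H₂) := by
      apply sup_le
      · rintro ψ ⟨φ, hφ, rfl⟩
        rw [mem_comulSub_iff]
        obtain ⟨n, a, b, ha, hb, e⟩ := h₁.comul_mem φ hφ
        refine ⟨n, fun i x => a i x.1, fun i x => b i x.1, fun i => fst_mem_prodOrder (ha i),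
          fun i => fst_mem_prodOrder (hb i), fun x y => ?_⟩
        exact e x.1 y.1
      · rintro ψ ⟨φ, hφ, rfl⟩
        rw [mem_comulSub_iff]
        obtain ⟨n, a, b, ha, hb, e⟩ := h₂.comul_mem φ hφ
        refine ⟨n, fun i x => a i x.2, fun i x => b i x.2, fun i => snd_mem_prodOrder (ha i),
          fun i => snd_mem_prodOrder (hb i), fun x y => ?_⟩
        exact e x.2 y.2
    exact fun φ hφ => (mem_comulSub_iff _).mp (hle hφ)

end prod

end Fermat.Agent.FG
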