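import Mathlib
import Fermat.Agent.FG.HOPF_helper8_Main
import Fermat.Agent.FG.HOPF_helper8_SubProd
import Fermat.Agent.FG.HOPF_helper1_Fibre

set_option autoImplicit false
set_option linter.unusedSectionVars false

/-!
# [HOPF-PACK] (c), part 3: tools for quotients of Hopf orders

* `exists_li_basis_of_fg` : a finitely generated `ℤ_(p)`-module of equivariant functions has a basis
  which is linearly independent over `ℚ̄`;
* `slice_exists`, `slice_invariant` : rewriting `∑ a i x * b i y` along a basis in the second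
  variable, and uniqueness of the coefficients;
* `IsHopfOrder.isContAt` : the Galois action on a group carrying a Hopf order is continuous;
* `IsHopfOrder.exists_smul_mem` : every equivariant function has a nonzero multiple in the order.
-/

namespace Fermat.Agent.FG

open GaloisRep

local notation "Ω" => AlgebraicClosure ℚ
local notation "GQ" => (AlgebraicClosure ℚ ≃ₐ[ℚ] AlgebraicClosure ℚ)

section slice

variable {R : Type*} [CommRing R] {Ω' : Type*} [Field Ω'] [Algebra R Ω'] {X Y : Type*}

/-- rewriting a sum of products along a spanning family in the second variable -/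
theorem slice_exists (A : Submodule R (X → Ω')) {m : ℕ} (e : Fin m → Y → Ω') {n : ℕ}
    (a : Fin n → X → Ω') (b : Fin n → Y → Ω') (ha : ∀ i, a i ∈ A)
    (hb : ∀ i, ∃ s : Fin m → R, b i = ∑ j, s j • e j) :
    ∃ c : Fin m → X → Ω', (∀ j, c j ∈ A) ∧
      ∀ x y, ∑ i, a i x * b i y = ∑ j, c j x * e j y := by
  choose s hs using hb
  refine ⟨fun j => ∑ i, s i j • a i, fun j => A.sum_mem fun i _ => A.smul_mem _ (ha i), ?_⟩
  intro x y
  have h1 : ∀ i, a i x * b i y = ∑ j, algebraMap R Ω' (s i j) * a i x * e j y := by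
    intro i
    rw [hs i, Finset.sum_apply, Finset.mul_sum]
    refine Finset.sum_congr rfl fun j _ => ?_
    rw [fo_smul_apply]
    ring
  have h2 : ∀ j, (∑ i, s i j • a i) x * e j y =
      ∑ i, algebraMap R Ω' (s i j) * a i x * e j y := by
    intro j
    rw [Finset.sum_apply, Finset.sum_mul]
    refine Finset.sum_congr rfl fun i _ => ?_
    rw [fo_smul_apply]
  simp only [h1, h2]
  exact Finset.sum_comm

/-- the coefficients along a linearly independent family are unique -/
theorem slice_invariant {m : ℕ} (e : Fin m → Y → Ω') (he : LinearIndependent Ω' e)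
    (c : Fin m → X → Ω') (x x' : X)
    (h : ∀ y, ∑ j, c j x * e j y = ∑ j, c j x' * e j y) (j : Fin m) : c j x = c j x' := by
  have h0 : ∑ j, (c j x - c j x') • e j = 0 := by
    funext y
    rw [Finset.sum_apply, Pi.zero_apply]
    simp only [Pi.smul_apply, smul_eq_mul, sub_mul, Finset.sum_sub_distrib]
    rw [h y, sub_self]
  exact sub_eq_zero.mp (Fintype.linearIndependent_iff.mp he _ h0 j)

/-- a function which is constant on the fibres of a surjection factors through it -/
theorem exists_factor_of_surjective {G G'' : Type*} (π : G → G'') (hπ : Function.Surjective π)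
    (c : G → Ω') (hc : ∀ g g', π g = π g' → c g = c g') :
    ∃ c'' : G'' → Ω', ∀ g, c'' (π g) = c g :=
  ⟨fun x => c (Function.surjInv hπ x), fun g => hc _ _ (Function.surjInv_eq hπ (π g))⟩

end slice

section basis

variable (p : ℕ) [Fact p.Prime] {X : Type*} [MulAction GQ X]

/-- a finitely generated module of equivariant functions has a basis which is linearly
independent over `ℚ̄` -/
theorem exists_li_basis_of_fg (N : Submodule (ratLocalizedAt p) (X → Ω)) (hfg : N.FG)
    (heq : ∀ φ ∈ N, IsEquivFun φ) :
    ∃ (n : ℕ) (b : Fin n → X → Ω), (∀ i, b i ∈ N) ∧ LinearIndependent Ω b ∧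
      ∀ φ ∈ N, ∃ c : Fin n → ratLocalizedAt p, φ = ∑ i, c i • b i := by
  have : Module.Finite (ratLocalizedAt p) N := Module.Finite.iff_fg.mpr hfg
  have : Module.Free (ratLocalizedAt p) N := Module.free_of_finite_type_torsion_free'
  let B := Module.finBasis (ratLocalizedAt p) N
  refine ⟨_, fun i => ((B i : N) : X → Ω), fun i => (B i).2, ?_, ?_⟩
  · apply fo_linearIndependent_qbar_of_equivariant p _ (fun σ i y => heq _ (B i).2 σ y)
    exact B.linearIndependent.map' N.subtype (Submodule.ker_subtype N)
  · intro φ hφ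
    refine ⟨fun i => B.repr ⟨φ, hφ⟩ i, ?_⟩
    have h1 := B.sum_repr ⟨φ, hφ⟩
    have h2 := congrArg N.subtype h1
    rw [map_sum] at h2
    simp only [map_smul, Submodule.subtype_apply] at h2
    exact h2.symm

end basis

section order

variable {G : Type} [AddCommGroup G] [DistribMulAction GQ G] {p : ℕ} [Fact p.Prime]
  {H : Subalgebra (ratLocalizedAt p) (G → Ω)}

/-- a basis of a Hopf order, linearly independent over `ℚ̄` -/
theorem IsHopfOrder.exists_li_basis (hH : IsHopfOrder G p H) :
    ∃ (n : ℕ) (b : Fin n → G → Ω), (∀ i, b i ∈ H) ∧ LinearIndependent Ω b ∧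
      ∀ φ ∈ H, ∃ c : Fin n → ratLocalizedAt p, φ = ∑ i, c i • b i :=
  exists_li_basis_of_fg p (Subalgebra.toSubmodule H) hH.fg hH.equivariant

/-- **automatic continuity**: the Galois action on a group carrying a Hopf order is continuous -/
theorem IsHopfOrder.isContAt (hH : IsHopfOrder G p H) (g : G) : IsContAt g := by
  obtain ⟨n, b, hb, -, hspan⟩ := hH.exists_li_basis
  refine ⟨IntermediateField.adjoin ℚ (Set.range fun i => b i g), ?_, ?_⟩
  · have : Algebra.IsAlgebraic ℚ Ω := AlgebraicClosure.isAlgebraic ℚ
    exact IntermediateField.finiteDimensional_adjoin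
      (fun x _ => (Algebra.IsAlgebraic.isAlgebraic x).isIntegral)
  · intro σ hσ
    by_contra hne
    obtain ⟨φ, hφ, hne'⟩ := hH.separates _ _ hne
    apply hne'
    obtain ⟨c, rfl⟩ := hspan φ hφ
    have hbi : ∀ i, b i (σ • g) = b i g := by
      intro i
      rw [hH.equivariant (b i) (hb i) σ g]
      exact hσ _ (IntermediateField.subset_adjoin ℚ _ ⟨i, rfl⟩)
    simp only [Finset.sum_apply, fo_smul_apply, hbi]

/-- **`ℚ·H` contains all equivariant functions** -/
theorem IsHopfOrder.exists_smul_mem [Finite G] (hH : IsHopfOrder G p H) (φ : G → Ω)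
    (hφ : IsEquivFun φ) : ∃ r : ratLocalizedAt p, r ≠ 0 ∧ r • φ ∈ H := by
  obtain ⟨n, b, hb, hli, hspan⟩ := hH.exists_li_basis
  -- the span over `ℚ̄` is everything
  have h1 : Algebra.adjoin Ω ((H : Set (G → Ω))) = ⊤ := by
    apply subalgebra_eq_top_of_separates
    intro x y hxy
    obtain ⟨f, hf, hne⟩ := hH.separates x y hxy
    exact ⟨f, Algebra.subset_adjoin hf, hne⟩
  have h2 : Submodule.span Ω ((H : Set (G → Ω))) = ⊤ := by
    have h3 := Algebra.adjoin_eq_span Ω ((H : Set (G → Ω)))
    rw [h1] at h3
    have h4 : ((Submonoid.closure ((H : Set (G → Ω))) : Submonoid (G → Ω)) : Set (G → Ω)) =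
        (H : Set (G → Ω)) := by
      have := Submonoid.closure_eq H.toSubmonoid
      exact congrArg (fun S : Submonoid (G → Ω) => (S : Set (G → Ω))) this
    rw [h4] at h3
    rw [← h3]
    rfl
  have h5 : (H : Set (G → Ω)) ⊆ Submodule.span Ω (Set.range b) := by
    intro h hh
    obtain ⟨c, rfl⟩ := hspan h hh
    refine Submodule.sum_mem _ fun i _ => ?_
    have : c i • b i = algebraMap (ratLocalizedAt p) Ω (c i) • b i := by
      funext x
      rw [fo_smul_apply, Pi.smul_apply, smul_eq_mul]
    rw [this]
    exact Submodule.smul_mem _ _ (Submodule.subset_span ⟨i, rfl⟩)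
  have h6 : φ ∈ Submodule.span Ω (Set.range b) := by
    have : φ ∈ Submodule.span Ω ((H : Set (G → Ω))) := by rw [h2]; trivial
    exact Submodule.span_le.mpr h5 this
  obtain ⟨c, hc⟩ := (Submodule.mem_span_range_iff_exists_fun Ω).mp h6
  -- the coefficients are rational
  have hrat : ∀ i, c i ∈ Set.range (algebraMap ℚ Ω) :=
    rational_of_isEquivFun_sum b (fun i => hH.equivariant _ (hb i)) hli c (by rw [hc]; exact hφ)
  choose q hq using hrat
  -- clear denominators
  obtain ⟨r, hr⟩ := IsLocalization.exist_integer_multiples_of_finite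
    (nonZeroDivisors (ratLocalizedAt p)) q
  choose s hs using hr
  refine ⟨r, nonZeroDivisors.coe_ne_zero r, ?_⟩
  have h7 : (r : ratLocalizedAt p) • φ = ∑ i, s i • b i := by
    rw [← hc, Finset.smul_sum]
    refine Finset.sum_congr rfl fun i _ => ?_
    funext x
    rw [fo_smul_apply (r : ratLocalizedAt p) (c i • b i) x, fo_smul_apply (s i) (b i) x,
      Pi.smul_apply, smul_eq_mul, ← hq i, ← mul_assoc]
    congr 1
    have := hs i
    rw [Algebra.smul_def] at this
    rw [fo_ratLoc_algebraMap, fo_ratLoc_algebraMap, ← map_mul]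
    congr 1
    exact this.symm
  rw [h7]
  exact H.sum_mem fun i _ => H.smul_mem (hb i) _

end order

end Fermat.Agent.FG
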