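import Mathlib
import Fermat.Agent.FG.HOPF_helper8_QuotA

set_option autoImplicit false
set_option linter.unusedSectionVars false

/-!
# [HOPF-PACK] (c), part 4: Hopf orders on quotients

`IsHopfOrder.of_surjective` : if `π : G → G''` is a surjective equivariant homomorphism and `H` is a
Hopf order on `G`, then the functions `ψ` on `G''` with `ψ ∘ π ∈ H` form a Hopf order on `G''`.
-/

namespace Fermat.Agent.FG

open GaloisRep

local notation "Ω" => AlgebraicClosure ℚ
local notation "GQ" => (AlgebraicClosure ℚ ≃ₐ[ℚ] AlgebraicClosure ℚ)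

section quot

variable {G G'' : Type} [AddCommGroup G] [AddCommGroup G''] [DistribMulAction GQ G]
  [DistribMulAction GQ G''] {p : ℕ} {H : Subalgebra (ratLocalizedAt p) (G → Ω)}

/-- the quotient order: functions on the quotient whose pullback lies in the order -/
noncomputable def quotOrder (H : Subalgebra (ratLocalizedAt p) (G → Ω)) (π : G →+ G'') :
    Subalgebra (ratLocalizedAt p) (G'' → Ω) :=
  H.comap (foPullback (ratLocalizedAt p) Ω π)

theorem mem_quotOrder {π : G →+ G''} {ψ : G'' → Ω} :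
    ψ ∈ quotOrder H π ↔ (fun g => ψ (π g)) ∈ H := Iff.rfl

variable [Fact p.Prime]

theorem quotOrder_equivariant (hH : IsHopfOrder G p H) (π : G →+ G'')
    (hπ : Function.Surjective π) (hσ : ∀ (σ : GQ) (g : G), π (σ • g) = σ • π g) :
    ∀ ψ ∈ quotOrder H π, IsEquivFun ψ := by
  intro ψ hψ σ x
  obtain ⟨g, rfl⟩ := hπ x
  rw [← hσ]
  exact hH.equivariant _ hψ σ g

theorem quotOrder_fg (hH : IsHopfOrder G p H) (π : G →+ G'') (hπ : Function.Surjective π) :
    (Subalgebra.toSubmodule (quotOrder H π)).FG := by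
  have hN : IsNoetherian (ratLocalizedAt p) (Subalgebra.toSubmodule H) :=
    isNoetherian_of_fg_of_noetherian _ hH.fg
  have hf : Function.Injective (foPullback (ratLocalizedAt p) Ω π).toLinearMap := by
    intro ψ ψ' h
    funext x
    obtain ⟨g, rfl⟩ := hπ x
    exact congrFun h g
  apply Submodule.fg_of_fg_map_injective _ hf
  have hle : (Subalgebra.toSubmodule (quotOrder H π)).map
      (foPullback (ratLocalizedAt p) Ω π).toLinearMap ≤ Subalgebra.toSubmodule H := by
    rintro _ ⟨ψ, hψ, rfl⟩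
    exact hψ
  have := isNoetherian_of_le hle
  exact (Submodule.fg_top _).mp (IsNoetherian.noetherian ⊤)

theorem quotOrder_separates [Finite G] (hH : IsHopfOrder G p H) (π : G →+ G'')
    (hπ : Function.Surjective π) (hσ : ∀ (σ : GQ) (g : G), π (σ • g) = σ • π g) :
    ∀ x y : G'', x ≠ y → ∃ ψ ∈ quotOrder H π, ψ x ≠ ψ y := by
  intro x y hne
  have hcont : ∀ z : G'', IsContAt z := by
    intro z
    obtain ⟨g, rfl⟩ := hπ z
    obtain ⟨L, hL, hfix⟩ := hH.isContAt g
    exact ⟨L, hL, fun σ hσL => by rw [← hσ, hfix σ hσL]⟩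
  obtain ⟨ψ₀, hψ₀, hne'⟩ := exists_isEquivFun_separating hcont x y hne
  have hφ : IsEquivFun (fun g => ψ₀ (π g)) := by
    intro σ g
    show ψ₀ (π (σ • g)) = _
    rw [hσ]
    exact hψ₀ σ (π g)
  obtain ⟨r, hr0, hr⟩ := hH.exists_smul_mem _ hφ
  refine ⟨r • ψ₀, hr, ?_⟩
  rw [fo_smul_apply, fo_smul_apply]
  intro h
  refine hne' (mul_left_cancel₀ ?_ h)
  intro h0
  exact hr0 (fo_ratLoc_algebraMap_injective p (by rw [h0, map_zero]))

theorem quotOrder_comul_mem (hH : IsHopfOrder G p H) (π : G →+ G'')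
    (hπ : Function.Surjective π) (hσ : ∀ (σ : GQ) (g : G), π (σ • g) = σ • π g) :
    ∀ ψ ∈ quotOrder H π, ∃ (n : ℕ) (u v : Fin n → G'' → Ω), (∀ i, u i ∈ quotOrder H π) ∧
      (∀ i, v i ∈ quotOrder H π) ∧ ∀ x y : G'', ψ (x + y) = ∑ i, u i x * v i y := by
  intro ψ hψ
  -- the comultiplication of the pullback
  obtain ⟨n, a, b, ha, hb, hab⟩ := hH.comul_mem _ hψ
  have hab' : ∀ g g' : G, ψ (π g + π g') = ∑ i, a i g * b i g' := by
    intro g g'
    rw [← map_add]
    exact hab g g'
  -- first slicing: along a basis of `H`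
  obtain ⟨m, e, he, heli, hespan⟩ := hH.exists_li_basis
  obtain ⟨c, hc, hce⟩ := slice_exists (Subalgebra.toSubmodule H) e a b ha
    (fun i => hespan (b i) (hb i))
  have hcinv : ∀ j (g₁ g₂ : G), π g₁ = π g₂ → c j g₁ = c j g₂ := by
    intro j g₁ g₂ h12
    refine slice_invariant e heli c g₁ g₂ (fun y => ?_) j
    rw [← hce, ← hce, ← hab', ← hab', h12]
  choose c'' hc'' using fun j => exists_factor_of_surjective π hπ (c j) (hcinv j)
  have hc''mem : ∀ j, c'' j ∈ quotOrder H π := by
    intro j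
    have : (fun g => c'' j (π g)) = c j := funext (hc'' j)
    rw [mem_quotOrder, this]
    exact hc j
  have h1 : ∀ (x : G'') (g' : G), ψ (x + π g') = ∑ j, e j g' * c'' j x := by
    intro x g'
    obtain ⟨g, rfl⟩ := hπ x
    rw [hab', hce]
    refine Finset.sum_congr rfl fun j _ => ?_
    rw [hc'' j, mul_comm]
  -- second slicing: along a basis of the quotient order
  obtain ⟨m'', f, hf, hfli, hfspan⟩ := exists_li_basis_of_fg p
    (Subalgebra.toSubmodule (quotOrder H π)) (quotOrder_fg hH π hπ)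
    (quotOrder_equivariant hH π hπ hσ)
  obtain ⟨d, hd, hdf⟩ := slice_exists (Subalgebra.toSubmodule H) f e c'' he
    (fun j => hfspan (c'' j) (hc''mem j))
  have hdinv : ∀ l (g₁ g₂ : G), π g₁ = π g₂ → d l g₁ = d l g₂ := by
    intro l g₁ g₂ h12
    refine slice_invariant f hfli d g₁ g₂ (fun x => ?_) l
    rw [← hdf, ← hdf, ← h1, ← h1, h12]
  choose d'' hd'' using fun l => exists_factor_of_surjective π hπ (d l) (hdinv l)
  have hd''mem : ∀ l, d'' l ∈ quotOrder H π := by
    intro l
    have : (fun g => d'' l (π g)) = d l := funext (hd'' l)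
    rw [mem_quotOrder, this]
    exact hd l
  refine ⟨m'', f, d'', hf, hd''mem, ?_⟩
  intro x y
  obtain ⟨g', rfl⟩ := hπ y
  rw [h1, hdf]
  refine Finset.sum_congr rfl fun l _ => ?_
  rw [hd'' l, mul_comm]

/-- **the quotient of a Hopf order** by a surjective equivariant homomorphism -/
theorem IsHopfOrder.of_surjective [Finite G] (hH : IsHopfOrder G p H) (π : G →+ G'')
    (hπ : Function.Surjective π) (hσ : ∀ (σ : GQ) (g : G), π (σ • g) = σ • π g) :
    IsHopfOrder G'' p (quotOrder H π) where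
  equivariant := quotOrder_equivariant hH π hπ hσ
  fg := quotOrder_fg hH π hπ
  separates := quotOrder_separates hH π hπ hσ
  comul_mem := quotOrder_comul_mem hH π hπ hσ

end quot

end Fermat.Agent.FG
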