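import Mathlib
import Fermat.Agent.FG.HOPF_helper8_Quot
import Fermat.Agent.FG.HOPF_helper8_Iface

set_option autoImplicit false
set_option linter.unusedSectionVars false

/-!
# [HOPF-PACK] (c): closure properties of "carrying a Hopf order"

`HasHopfOrder p G` : the finite Galois module `G` carries a Hopf order over `ℤ_(p)`.  It implies
that `G` is a flat Galois module at `p`, and it is stable under equivariant injections (subobjects),
equivariant surjections (quotients), products, finite powers and subquotients.
-/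

namespace Fermat.Agent.FG

open GaloisRep

local notation "Ω" => AlgebraicClosure ℚ
local notation "GQ" => (AlgebraicClosure ℚ ≃ₐ[ℚ] AlgebraicClosure ℚ)

/-- the Galois module `G` carries a Hopf order over `ℤ_(p)` -/
def HasHopfOrder (p : ℕ) (G : Type) [AddCommGroup G] [DistribMulAction GQ G] : Prop :=
  ∃ H : Subalgebra (ratLocalizedAt p) (G → Ω), IsHopfOrder G p H

section

variable {p : ℕ} {G G' : Type} [AddCommGroup G] [AddCommGroup G'] [DistribMulAction GQ G]
  [DistribMulAction GQ G']

theorem HasHopfOrder.isFlatGaloisModule [Fact p.Prime] [Finite G] (h : HasHopfOrder p G) :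
    Fermat.Agent.TW.IsFlatGaloisModule p G (fun σ g => σ • g) := by
  obtain ⟨H, hH⟩ := h
  exact hH.isFlatGaloisModule

/-- subobjects -/
theorem HasHopfOrder.of_injective (h : HasHopfOrder p G) (ι : G' →+ G)
    (hι : Function.Injective ι) (hσ : ∀ (σ : GQ) (g : G'), ι (σ • g) = σ • ι g) :
    HasHopfOrder p G' := by
  obtain ⟨H, hH⟩ := h
  exact ⟨_, hH.of_injective ι hι hσ⟩

/-- quotients -/
theorem HasHopfOrder.of_surjective [Fact p.Prime] [Finite G] (h : HasHopfOrder p G) (π : G →+ G')
    (hπ : Function.Surjective π) (hσ : ∀ (σ : GQ) (g : G), π (σ • g) = σ • π g) :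
    HasHopfOrder p G' := by
  obtain ⟨H, hH⟩ := h
  exact ⟨_, hH.of_surjective π hπ hσ⟩

/-- isomorphic objects -/
theorem HasHopfOrder.of_equiv (h : HasHopfOrder p G) (e : G ≃+ G')
    (hσ : ∀ (σ : GQ) (g : G), e (σ • g) = σ • e g) : HasHopfOrder p G' := by
  refine h.of_injective e.symm.toAddMonoidHom e.symm.injective fun σ g => ?_
  apply e.injective
  show e (e.symm (σ • g)) = e (σ • e.symm g)
  rw [hσ, e.apply_symm_apply, e.apply_symm_apply]

/-- products -/
theorem HasHopfOrder.prod (h : HasHopfOrder p G) (h' : HasHopfOrder p G') :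
    HasHopfOrder p (G × G') := by
  obtain ⟨H, hH⟩ := h
  obtain ⟨H', hH'⟩ := h'
  exact ⟨_, hH.prod hH'⟩

/-- subquotients -/
theorem HasHopfOrder.of_subquotient [Fact p.Prime] [Finite G] (h : HasHopfOrder p G)
    {W M : Type} [AddCommGroup W] [AddCommGroup M] [DistribMulAction GQ W] [DistribMulAction GQ M]
    (ι : W →+ G) (hι : Function.Injective ι) (hισ : ∀ (σ : GQ) (w : W), ι (σ • w) = σ • ι w)
    (π : W →+ M) (hπ : Function.Surjective π) (hπσ : ∀ (σ : GQ) (w : W), π (σ • w) = σ • π w) :
    HasHopfOrder p M := by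
  have : Finite W := Finite.of_injective ι hι
  exact (h.of_injective ι hι hισ).of_surjective π hπ hπσ

end

section trivial

variable (p : ℕ) (G : Type) [AddCommGroup G] [DistribMulAction GQ G]

/-- the trivial group carries a Hopf order -/
theorem hasHopfOrder_of_subsingleton [Subsingleton G] : HasHopfOrder p G := by
  refine ⟨⊥, ?_, ?_, ?_, ?_⟩
  · rintro φ hφ σ g
    obtain ⟨r, rfl⟩ := Algebra.mem_bot.mp hφ
    rw [Pi.algebraMap_apply, Pi.algebraMap_apply]
    exact (σ.commutes (r : ℚ)).symm
  · rw [Algebra.toSubmodule_bot, Submodule.one_eq_span]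
    exact Submodule.fg_span_singleton (R := ratLocalizedAt p) (1 : G → Ω)
  · intro g g' hne
    exact absurd (Subsingleton.elim g g') hne
  · intro φ hφ
    refine ⟨1, fun _ => φ, fun _ => 1, fun _ => hφ, fun _ => (⊥ : Subalgebra _ _).one_mem, ?_⟩
    intro g g'
    rw [Fin.sum_univ_one]
    show φ (g + g') = φ g * 1
    rw [mul_one, Subsingleton.elim (g + g') g]

end trivial

section pi

variable {p : ℕ} {G : Type} [AddCommGroup G] [DistribMulAction GQ G]

/-- finite powers -/
theorem HasHopfOrder.pi_fin (h : HasHopfOrder p G) (r : ℕ) : HasHopfOrder p (Fin r → G) := by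
  induction r with
  | zero => exact hasHopfOrder_of_subsingleton p _
  | succ r ih =>
    let ι : (Fin (r + 1) → G) →+ G × (Fin r → G) :=
      { toFun := fun f => (f 0, fun i => f i.succ)
        map_zero' := rfl
        map_add' := fun _ _ => rfl }
    refine (h.prod ih).of_injective ι ?_ (fun σ f => rfl)
    intro f f' hff'
    funext i
    refine Fin.cases ?_ (fun j => ?_) i
    · exact congrArg Prod.fst hff'
    · exact congrFun (congrArg Prod.snd hff') j

end pi

end Fermat.Agent.FG
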