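import Mathlib
import Fermat.Agent.FG.HOPF_helper8_Closure

set_option autoImplicit false
set_option linter.unusedSectionVars false

/-!
# [HOPF-PACK] (c'): closure properties of flat Galois modules

`IsFlatGaloisModule p G act` (the group `G` with the action `act` is the group of `ℚ̄`-points of a
finite flat cocommutative Hopf algebra over `ℤ_(p)`) implies that `act` is an action by additive
maps, that `G` carries a Hopf order (the image of the Hopf algebra in the algebra of functions on
`G`) and that `G` is finite.  Hence flat Galois modules are stable under subobjects, quotients,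
products, finite powers and subquotients.
-/

namespace Fermat.Agent.FG

open GaloisRep Fermat.Agent.TW

local notation "Ω" => AlgebraicClosure ℚ
local notation "GQ" => (AlgebraicClosure ℚ ≃ₐ[ℚ] AlgebraicClosure ℚ)

/-- `act` is an action of the Galois group by additive maps -/
structure IsGalAddAction {G : Type*} [AddCommGroup G] (act : GQ → G → G) : Prop where
  one : ∀ x, act 1 x = x
  mul : ∀ σ τ x, act (σ * τ) x = act σ (act τ x)
  add : ∀ σ x y, act σ (x + y) = act σ x + act σ y

theorem IsGalAddAction.zero {G : Type*} [AddCommGroup G] {act : GQ → G → G}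
    (h : IsGalAddAction act) (σ : GQ) : act σ 0 = 0 := by
  have := h.add σ 0 0
  rw [add_zero] at this
  exact left_eq_add.mp this

/-- the module structure attached to an action by additive maps -/
@[reducible] def IsGalAddAction.toDistribMulAction {G : Type*} [AddCommGroup G]
    {act : GQ → G → G} (h : IsGalAddAction act) : DistribMulAction GQ G where
  smul := act
  one_smul := h.one
  mul_smul := h.mul
  smul_zero := h.zero
  smul_add := h.add

theorem IsGalAddAction.of_injective {G W : Type*} [AddCommGroup G] [AddCommGroup W]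
    {actG : GQ → G → G} {actW : GQ → W → W} (h : IsGalAddAction actG) (ι : W →+ G)
    (hι : Function.Injective ι) (hισ : ∀ σ w, ι (actW σ w) = actG σ (ι w)) :
    IsGalAddAction actW where
  one x := hι (by rw [hισ, h.one])
  mul σ τ x := hι (by rw [hισ, hισ, hισ, h.mul])
  add σ x y := hι (by rw [hισ, map_add, map_add, hισ, hισ, h.add])

theorem IsGalAddAction.of_surjective {G M : Type*} [AddCommGroup G] [AddCommGroup M]
    {actG : GQ → G → G} {actM : GQ → M → M} (h : IsGalAddAction actG) (π : G →+ M)
    (hπ : Function.Surjective π) (hπσ : ∀ σ g, π (actG σ g) = actM σ (π g)) :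
    IsGalAddAction actM where
  one x := by
    obtain ⟨g, rfl⟩ := hπ x
    rw [← hπσ, h.one]
  mul σ τ x := by
    obtain ⟨g, rfl⟩ := hπ x
    rw [← hπσ, ← hπσ, ← hπσ, h.mul]
  add σ x y := by
    obtain ⟨g, rfl⟩ := hπ x
    obtain ⟨g', rfl⟩ := hπ y
    rw [← map_add, ← hπσ, ← hπσ, ← hπσ, h.add, map_add]

/-- a Galois automorphism as an algebra map over `ℤ_(p)` -/
noncomputable def galRatLoc (p : ℕ) (σ : GQ) : Ω →ₐ[ratLocalizedAt p] Ω :=
  (σ : Ω →ₐ[ℚ] Ω).restrictScalars (ratLocalizedAt p)

theorem galRatLoc_apply (p : ℕ) (σ : GQ) (x : Ω) : galRatLoc p σ x = σ x := rfl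

section extract

variable {p : ℕ} {G : Type} [AddCommGroup G] {act : GQ → G → G}
  {A : Type} [CommRing A] [HopfAlgebra (ratLocalizedAt p) A]
  (e : WithConv (A →ₐ[ratLocalizedAt p] Ω) ≃ G)
  (hmul : ∀ f g : WithConv (A →ₐ[ratLocalizedAt p] Ω), e (f * g) = e f + e g)
  (hact : ∀ (σ : GQ) (f g : WithConv (A →ₐ[ratLocalizedAt p] Ω)),
    (∀ a : A, g a = σ (f a)) → e g = act σ (e f))

include hact in
theorem pts_act_eq (σ : GQ) (f : WithConv (A →ₐ[ratLocalizedAt p] Ω)) :
    act σ (e f) = e (WithConv.toConv ((galRatLoc p σ).comp f.ofConv)) :=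
  (hact σ f _ (fun _ => rfl)).symm

include hmul hact in
theorem isGalAddAction_of_points : IsGalAddAction act where
  one x := by
    obtain ⟨f, rfl⟩ := e.surjective x
    rw [pts_act_eq e hact]
    congr 1
  mul σ τ x := by
    obtain ⟨f, rfl⟩ := e.surjective x
    rw [pts_act_eq e hact, pts_act_eq e hact, pts_act_eq e hact]
    congr 1
  add σ x y := by
    obtain ⟨f, rfl⟩ := e.surjective x
    obtain ⟨f', rfl⟩ := e.surjective y
    rw [← hmul, pts_act_eq e hact, pts_act_eq e hact, pts_act_eq e hact, ← hmul]
    congr 1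
    apply WithConv.ext
    exact AlgHom.comp_convMul_distrib (galRatLoc p σ) f f'

end extract

section order

variable {p : ℕ} {G : Type} [AddCommGroup G] [DistribMulAction GQ G]
  {A : Type} [CommRing A] [HopfAlgebra (ratLocalizedAt p) A]
  (e : WithConv (A →ₐ[ratLocalizedAt p] Ω) ≃ G)
  (hmul : ∀ f g : WithConv (A →ₐ[ratLocalizedAt p] Ω), e (f * g) = e f + e g)
  (hact : ∀ (σ : GQ) (f g : WithConv (A →ₐ[ratLocalizedAt p] Ω)),
    (∀ a : A, g a = σ (f a)) → e g = σ • e f)

/-- the map from a Hopf algebra to the functions on its points -/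
noncomputable def ptsMap : A →ₐ[ratLocalizedAt p] (G → Ω) :=
  AlgHom.pi (fun g : G => (e.symm g).ofConv)

theorem ptsMap_apply (a : A) (g : G) : ptsMap e a g = (e.symm g).ofConv a := rfl

include hact in
theorem ptsMap_smul (a : A) (σ : GQ) (g : G) : ptsMap e a (σ • g) = σ (ptsMap e a g) := by
  have h1 := pts_act_eq (act := fun σ g => σ • g) e hact σ (e.symm g)
  rw [e.apply_symm_apply] at h1
  have h1' : σ • g = e (WithConv.toConv ((galRatLoc p σ).comp (e.symm g).ofConv)) := h1
  rw [ptsMap_apply, h1', e.symm_apply_apply]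
  rfl

include hmul in
theorem ptsMap_add (a : A) (g g' : G) :
    ptsMap e a (g + g') = ∑ i ∈ (Coalgebra.Repr.arbitrary (ratLocalizedAt p) a).index,
      ptsMap e ((Coalgebra.Repr.arbitrary (ratLocalizedAt p) a).left i) g *
        ptsMap e ((Coalgebra.Repr.arbitrary (ratLocalizedAt p) a).right i) g' := by
  have h1 : e.symm (g + g') = e.symm g * e.symm g' := by
    apply e.injective
    rw [hmul, e.apply_symm_apply, e.apply_symm_apply, e.apply_symm_apply]
  rw [ptsMap_apply, h1]
  show (e.symm g * e.symm g') a = _
  rw [AlgHom.convMul_apply, ← (Coalgebra.Repr.arbitrary (ratLocalizedAt p) a).eq, map_sum]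
  refine Finset.sum_congr rfl fun i _ => ?_
  rw [Algebra.TensorProduct.lift_tmul]
  rfl

include hmul hact in
/-- the image of a finite Hopf algebra in the functions on its points is a Hopf order -/
theorem isHopfOrder_range_ptsMap [Module.Finite (ratLocalizedAt p) A] :
    IsHopfOrder G p (ptsMap e).range where
  equivariant := by
    rintro _ ⟨a, rfl⟩ σ g
    exact ptsMap_smul e hact a σ g
  fg := by
    have : Module.Finite (ratLocalizedAt p) (ptsMap e).range :=
      Module.Finite.of_surjective (ptsMap e).rangeRestrict.toLinearMap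
        (ptsMap e).rangeRestrict_surjective
    exact (Module.Finite.iff_fg (N := Subalgebra.toSubmodule (ptsMap e).range)).mp this
  separates := by
    intro g g' hne
    by_contra hall
    push Not at hall
    apply hne
    apply e.symm.injective
    apply WithConv.ext
    apply AlgHom.ext
    intro a
    exact hall _ ⟨a, rfl⟩
  comul_mem := by
    rintro _ ⟨a, rfl⟩
    rw [← mem_comulSub_iff]
    refine ⟨∑ i ∈ (Coalgebra.Repr.arbitrary (ratLocalizedAt p) a).index,
      (⟨ptsMap e ((Coalgebra.Repr.arbitrary (ratLocalizedAt p) a).left i), ⟨_, rfl⟩⟩ :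
        (ptsMap e).range) ⊗ₜ[ratLocalizedAt p]
      (⟨ptsMap e ((Coalgebra.Repr.arbitrary (ratLocalizedAt p) a).right i), ⟨_, rfl⟩⟩ :
        (ptsMap e).range), ?_⟩
    funext x
    rw [map_sum, Finset.sum_apply]
    show _ = ptsMap e a (x.1 + x.2)
    rw [ptsMap_add e hmul]
    refine Finset.sum_congr rfl fun i _ => ?_
    exact foJ₂_tmul _ _ _ x

end order

/-- a flat Galois module carries a Hopf order -/
theorem hasHopfOrder_of_isFlatGaloisModule {p : ℕ} {G : Type} [AddCommGroup G]
    [DistribMulAction GQ G] (h : IsFlatGaloisModule p G (fun σ g => σ • g)) :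
    HasHopfOrder p G := by
  obtain ⟨A, iA, iH, hfin, -, -, e, hmul, hact⟩ := h
  exact ⟨_, isHopfOrder_range_ptsMap e hmul hact⟩

section finite

/-- a set whose points are separated by a finitely generated algebra of functions with values in a
field is finite -/
theorem finite_of_separating_fg {R : Type*} [CommRing R] {Ω' : Type*} [Field Ω'] [Algebra R Ω']
    {X : Type*} (H : Subalgebra R (X → Ω')) (hfg : (Subalgebra.toSubmodule H).FG)
    (hsep : ∀ x y : X, x ≠ y → ∃ h ∈ H, h x ≠ h y) : Finite X := by
  classical
  obtain ⟨n, s, hs⟩ := Submodule.fg_iff_exists_fin_generating_family.mp hfg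
  by_contra hinf
  rw [not_finite_iff_infinite] at hinf
  obtain ⟨S, hS⟩ := Infinite.exists_subset_card_eq X (n + 1)
  -- the characters attached to the points of `S`
  let χ : S → (H →* Ω') := fun x =>
    ((Pi.evalMonoidHom (fun _ : X => Ω') (x : X)).comp H.toSubmonoid.subtype)
  have hχ : Function.Injective χ := by
    intro x y hxy
    by_contra hne
    have hne' : (x : X) ≠ (y : X) := fun h => hne (Subtype.ext h)
    obtain ⟨h, hh, hh'⟩ := hsep _ _ hne'
    exact hh' (DFunLike.congr_fun hxy (⟨h, hh⟩ : H))
  have hli : LinearIndependent Ω' (fun x : S => (χ x : H → Ω')) :=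
    (linearIndependent_monoidHom H Ω').comp χ hχ
  -- the vectors of values on the generators are dependent
  let v : S → (Fin n → Ω') := fun x i => s i (x : X)
  have hv : ¬ LinearIndependent Ω' v := by
    intro hv
    have h1 := hv.fintype_card_le_finrank
    rw [Module.finrank_fintype_fun_eq_card, Fintype.card_fin, Fintype.card_coe, hS] at h1
    omega
  rw [Fintype.not_linearIndependent_iff] at hv
  obtain ⟨c, hc, x₀, hx₀⟩ := hv
  rw [Fintype.linearIndependent_iff] at hli
  refine hx₀ (hli c ?_ x₀)
  funext h
  simp only [Finset.sum_apply, Pi.smul_apply, smul_eq_mul, Pi.zero_apply]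
  have hmem : (h : X → Ω') ∈ Submodule.span R (Set.range s) := by
    rw [hs]
    exact h.2
  have key : ∀ φ ∈ Submodule.span R (Set.range s), ∑ x : S, c x * φ (x : X) = 0 := by
    intro φ hφ
    induction hφ using Submodule.span_induction with
    | mem φ hφ =>
      obtain ⟨i, rfl⟩ := hφ
      have := congrFun hc i
      simpa [v, Finset.sum_apply, Pi.smul_apply, smul_eq_mul] using this
    | zero => simp
    | add φ ψ _ _ h₁ h₂ =>
      simp only [Pi.add_apply, mul_add, Finset.sum_add_distrib, h₁, h₂, add_zero]
    | smul r φ _ h₁ =>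
      have : ∀ x : S, c x * (r • φ) (x : X) = algebraMap R Ω' r * (c x * φ (x : X)) := by
        intro x
        rw [fo_smul_apply]
        ring
      simp only [this, ← Finset.mul_sum, h₁, mul_zero]
  exact key _ hmem

theorem IsHopfOrder.finite {p : ℕ} {G : Type} [AddCommGroup G] [DistribMulAction GQ G]
    {H : Subalgebra (ratLocalizedAt p) (G → Ω)} (hH : IsHopfOrder G p H) : Finite G :=
  finite_of_separating_fg H hH.fg hH.separates

theorem HasHopfOrder.finite {p : ℕ} {G : Type} [AddCommGroup G] [DistribMulAction GQ G]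
    (h : HasHopfOrder p G) : Finite G := by
  obtain ⟨H, hH⟩ := h
  exact hH.finite

end finite

section closure

variable {p : ℕ}

/-- the action on a flat Galois module is an action by additive maps -/
theorem _root_.Fermat.Agent.TW.IsFlatGaloisModule.isGalAddAction {G : Type} [AddCommGroup G] {act : GQ → G → G}
    (h : IsFlatGaloisModule p G act) : IsGalAddAction act := by
  obtain ⟨A, iA, iH, -, -, -, e, hmul, hact⟩ := h
  exact isGalAddAction_of_points e hmul hact

/-- a flat Galois module is finite -/
theorem _root_.Fermat.Agent.TW.IsFlatGaloisModule.finite {G : Type} [AddCommGroup G] {act : GQ → G → G}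
    (h : IsFlatGaloisModule p G act) : Finite G := by
  let := h.isGalAddAction.toDistribMulAction
  exact (hasHopfOrder_of_isFlatGaloisModule (G := G) h).finite

variable [Fact p.Prime]

/-- **subquotients of flat Galois modules are flat** -/
theorem _root_.Fermat.Agent.TW.IsFlatGaloisModule.of_subquotient {G W M : Type} [AddCommGroup G] [AddCommGroup W]
    [AddCommGroup M] {actG : GQ → G → G} {actW : GQ → W → W} {actM : GQ → M → M}
    (hG : IsFlatGaloisModule p G actG)
    (ι : W →+ G) (hι : Function.Injective ι) (hισ : ∀ σ w, ι (actW σ w) = actG σ (ι w))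
    (π : W →+ M) (hπ : Function.Surjective π) (hπσ : ∀ σ w, π (actW σ w) = actM σ (π w)) :
    IsFlatGaloisModule p M actM := by
  have aG := hG.isGalAddAction
  have aW := aG.of_injective ι hι hισ
  have aM := aW.of_surjective π hπ hπσ
  let iG : DistribMulAction GQ G := aG.toDistribMulAction
  let iW : DistribMulAction GQ W := aW.toDistribMulAction
  let iM : DistribMulAction GQ M := aM.toDistribMulAction
  have h1 : HasHopfOrder p G := hasHopfOrder_of_isFlatGaloisModule hG
  have : Finite G := h1.finite
  have h2 : HasHopfOrder p M := h1.of_subquotient ι hι hισ π hπ hπσ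
  have : Finite M := h2.finite
  exact h2.isFlatGaloisModule

/-- subobjects of flat Galois modules are flat -/
theorem _root_.Fermat.Agent.TW.IsFlatGaloisModule.of_injective {G W : Type} [AddCommGroup G] [AddCommGroup W]
    {actG : GQ → G → G} {actW : GQ → W → W} (hG : IsFlatGaloisModule p G actG)
    (ι : W →+ G) (hι : Function.Injective ι) (hισ : ∀ σ w, ι (actW σ w) = actG σ (ι w)) :
    IsFlatGaloisModule p W actW :=
  hG.of_subquotient ι hι hισ (AddMonoidHom.id W) Function.surjective_id (fun _ _ => rfl)

/-- quotients of flat Galois modules are flat -/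
theorem _root_.Fermat.Agent.TW.IsFlatGaloisModule.of_surjective {G M : Type} [AddCommGroup G] [AddCommGroup M]
    {actG : GQ → G → G} {actM : GQ → M → M} (hG : IsFlatGaloisModule p G actG)
    (π : G →+ M) (hπ : Function.Surjective π) (hπσ : ∀ σ g, π (actG σ g) = actM σ (π g)) :
    IsFlatGaloisModule p M actM :=
  hG.of_subquotient (AddMonoidHom.id G) Function.injective_id (fun _ _ => rfl) π hπ hπσ

/-- products of flat Galois modules are flat -/
theorem _root_.Fermat.Agent.TW.IsFlatGaloisModule.prod {G₁ G₂ : Type} [AddCommGroup G₁] [AddCommGroup G₂]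
    {act₁ : GQ → G₁ → G₁} {act₂ : GQ → G₂ → G₂} (h₁ : IsFlatGaloisModule p G₁ act₁)
    (h₂ : IsFlatGaloisModule p G₂ act₂) :
    IsFlatGaloisModule p (G₁ × G₂) (fun σ x => (act₁ σ x.1, act₂ σ x.2)) := by
  let i₁ : DistribMulAction GQ G₁ := h₁.isGalAddAction.toDistribMulAction
  let i₂ : DistribMulAction GQ G₂ := h₂.isGalAddAction.toDistribMulAction
  have H : HasHopfOrder p (G₁ × G₂) :=
    (hasHopfOrder_of_isFlatGaloisModule h₁).prod (hasHopfOrder_of_isFlatGaloisModule h₂)
  have : Finite (G₁ × G₂) := H.finite
  exact H.isFlatGaloisModule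

/-- finite powers of flat Galois modules are flat -/
theorem _root_.Fermat.Agent.TW.IsFlatGaloisModule.pi_fin {G : Type} [AddCommGroup G] {act : GQ → G → G}
    (h : IsFlatGaloisModule p G act) (r : ℕ) :
    IsFlatGaloisModule p (Fin r → G) (fun σ f i => act σ (f i)) := by
  let i₁ : DistribMulAction GQ G := h.isGalAddAction.toDistribMulAction
  have H : HasHopfOrder p (Fin r → G) := (hasHopfOrder_of_isFlatGaloisModule h).pi_fin r
  have : Finite (Fin r → G) := H.finite
  exact H.isFlatGaloisModule

/-- for a Galois module, being flat is the same as carrying a Hopf order -/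
theorem isFlatGaloisModule_iff_hasHopfOrder {G : Type} [AddCommGroup G] [DistribMulAction GQ G] :
    IsFlatGaloisModule p G (fun σ g => σ • g) ↔ HasHopfOrder p G :=
  ⟨hasHopfOrder_of_isFlatGaloisModule, fun h => by
    have : Finite G := h.finite
    exact h.isFlatGaloisModule⟩

end closure

end Fermat.Agent.FG
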