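/-
FG — helper5 — top-level reduction of S19: the frozen statement at level `N`, prime `ℓ`,
exponent `k` follows from a Hopf order on the Galois module `J₀(N)[ℓ^k]`; finiteness and
continuity of this Galois module.
-/
import Mathlib
import Fermat.Agent.FG.HOPF_helper8_Flat
import Fermat.Agent.S32.TOP32_helper6
import Fermat.Agent.GR.FIX_helper3

set_option autoImplicit false
set_option linter.unusedSectionVars false
set_option linter.style.haveILetI false

noncomputable section

namespace Fermat.Agent.FG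

open ModularCurve AlgebraicCurve Fermat.Agent.GR

local notation "Ω" => AlgebraicClosure ℚ
local notation "GQ" => (AlgebraicClosure ℚ ≃ₐ[ℚ] AlgebraicClosure ℚ)

/-- the Galois-module structure on the `a`-torsion of a Galois module. -/
@[reducible] def torsByAction (J : Type*) [AddCommGroup J] {G : Type*} [Monoid G]
    [DistribMulAction G J] (a : ℤ) : DistribMulAction G ↥(Submodule.torsionBy ℤ J a) where
  smul σ x := ⟨σ • (x : J), by
    have h := x.2
    rw [Submodule.mem_torsionBy_iff] at h ⊢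
    rw [← smul_comm, h, smul_zero]⟩
  one_smul x := Subtype.ext (one_smul G (x : J))
  mul_smul σ τ x := Subtype.ext (mul_smul σ τ (x : J))
  smul_zero σ := Subtype.ext (smul_zero σ)
  smul_add σ x y := Subtype.ext (smul_add σ (x : J) (y : J))

theorem coe_torsByAction_smul (J : Type*) [AddCommGroup J] {G : Type*} [Monoid G]
    [DistribMulAction G J] (a : ℤ) (σ : G) (x : ↥(Submodule.torsionBy ℤ J a)) :
    letI := torsByAction J (G := G) a
    ((σ • x : ↥(Submodule.torsionBy ℤ J a)) : J) = σ • (x : J) := rfl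

variable (N : ℕ) [NeZero N]

/-- `J₀(N)[ℓ^k]` is finite. -/
theorem finite_torsionBy_jzero (ℓ : ℕ) [Fact ℓ.Prime] (k : ℕ) :
    Finite ↥(Submodule.torsionBy ℤ (JZero N) ((ℓ : ℤ) ^ k)) := by
  haveI := (stageIData N ℓ).D.finite_torsion k
  exact Finite.of_equiv _ (Fermat.Agent.S32.torsionByEquivTorsionNat (JZero N) ℓ k).symm.toEquiv

/-- the Galois action on `J₀(N)[a]` is continuous. -/
theorem isContAt_torsionBy_jzero (a : ℤ) (x : ↥(Submodule.torsionBy ℤ (JZero N) a)) :
    letI := torsByAction (JZero N) (G := GQ) a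
    IsContAt x := by
  letI := torsByAction (JZero N) (G := GQ) a
  obtain ⟨L, hL, hfix⟩ := jzero_fix N (x : JZero N)
  exact ⟨L, hL, fun σ hσ => Subtype.ext (hfix σ hσ)⟩

/-- **S19 at `(N, ℓ, k)` from a Hopf order on `J₀(N)[ℓ^k]`.** -/
theorem s19At_of_hasHopfOrder (ℓ : ℕ) [Fact ℓ.Prime] (k : ℕ)
    (h : letI := torsByAction (JZero N) (G := GQ) ((ℓ : ℤ) ^ k)
      HasHopfOrder ℓ ↥(Submodule.torsionBy ℤ (JZero N) ((ℓ : ℤ) ^ k))) :
    Fermat.Agent.S32.S19At N ℓ k := by
  letI := torsByAction (JZero N) (G := GQ) ((ℓ : ℤ) ^ k)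
  haveI := finite_torsionBy_jzero N ℓ k
  obtain ⟨H, i1, i2, h1, h2, h3, e, he1, he2⟩ := h.isFlatGaloisModule
  refine ⟨H, i1, i2, h1, h2, h3, e, he1, fun σ f g hfg => ?_⟩
  have := he2 σ f g hfg
  rw [this]
  rfl

end Fermat.Agent.FG

end
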