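/-
FG (S19/S32) [E-RED] — helper1 — **the model of the special fibre of a field `E ⊆ Ω((x))`**
(decision "M1": coefficientwise reduction).

For a field `L` with a valuation subring `A` (`k = A / 𝔪`) and an intermediate field
`E ⊆ L((x))`:

* `eIntRing A E ⊆ A((x))` : the series over `A` whose image in `L((x))` lies in `E`;
* `eRedField A E ⊆ k((x))` : **the reduced field `Ẽ`** = the field generated over `k` by the
  coefficientwise reductions of the elements of `eIntRing A E` (hypothesis-free, so that its TYPE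
  can be used everywhere);
* `IsGaussValued A E` : the hypothesis (G): every nonzero `f ∈ E` is a constant times a PRIMITIVE
  series over `A` (true for `legE Ω N`, `hesE Ω N` by descent to a discretely valued base);
* under (G): `eGaussW A E h : ValuationSubring E` (**the Gauss valuation ring `W_E`** = the elements
  with all coefficients in `A`) and `eGaussRed A E h : W_E →+* Ẽ` (**the reduction `ρ_E`**), with the
  first `GoodRed` fields: `eGaussRed_surjective`, `algebraMap_mem_eGaussW_iff`,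
  `eGaussRed_algebraMap`, `exists_smul_unit_eGaussW`, and `eGaussRed_eq_zero_iff`,
  `inv_mem_eGaussW_iff`.
-/
import Mathlib
import Fermat.Prelude.Def_ModularCurve_LaurentCoeff

set_option autoImplicit false
set_option linter.unusedSectionVars false
set_option linter.style.haveILetI false

namespace Fermat.Agent.FG

open ModularCurve IsLocalRing

section defs

variable {L : Type*} [Field L] (A : ValuationSubring L) (E : IntermediateField L (LaurentSeries L))

/-- the series over `A` whose image in `L((x))` lies in `E`. -/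
noncomputable def eIntRing : Subring (LaurentSeries ↥A) :=
  E.toSubring.comap (coeffMap A.subtype)

theorem mem_eIntRing_iff {y : LaurentSeries ↥A} :
    y ∈ eIntRing A E ↔ coeffMap A.subtype y ∈ E := Iff.rfl

/-- **the reduced field `Ẽ ⊆ k((x))`.** -/
noncomputable def eRedField :
    IntermediateField (ResidueField ↥A) (LaurentSeries (ResidueField ↥A)) :=
  IntermediateField.adjoin _
    ((coeffMap (residue ↥A)) '' (eIntRing A E : Set (LaurentSeries ↥A)))

/-- **(G)**: every nonzero element of `E` is a constant times a primitive series over `A`. -/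
def IsGaussValued : Prop :=
  ∀ f : ↥E, f ≠ 0 → ∃ a : L, a ≠ 0 ∧ ∃ y : LaurentSeries ↥A,
    coeffMap A.subtype y = ((algebraMap L ↥E a * f : ↥E) : LaurentSeries L) ∧
      coeffMap (residue ↥A) y ≠ 0

variable {A} in
theorem coeffMap_subtype_injective_ered :
    Function.Injective (coeffMap A.subtype : LaurentSeries ↥A → LaurentSeries L) := by
  intro x y h
  ext n
  have h1 := congrArg (fun s : LaurentSeries L => s.coeff n) h
  simp only [coeffMap_coeff] at h1
  exact congrArg Subtype.val (Subtype.ext h1)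

variable {A} in
/-- a series over `L` with coefficients in `A` comes from a series over `A`. -/
theorem exists_coeffMap_subtype_eq_ered (f : LaurentSeries L) (h : ∀ n, f.coeff n ∈ A) :
    ∃ y : LaurentSeries ↥A, coeffMap A.subtype y = f := by
  refine ⟨⟨fun n => ⟨f.coeff n, h n⟩, ?_⟩, ?_⟩
  · refine f.isPWO_support.mono fun n hn => ?_
    simp only [Function.mem_support, ne_eq] at hn ⊢
    intro h0
    exact hn (Subtype.ext h0)
  · ext n
    rw [coeffMap_coeff]
    rfl

variable {A} in
/-- the constant series. -/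
theorem coeffMap_subtype_C (a : ↥A) :
    coeffMap A.subtype (HahnSeries.C a : LaurentSeries ↥A) =
      algebraMap L (LaurentSeries L) (a : L) := by
  rw [HahnSeries.C_apply, coeffMap_single, algebraMap_laurentSeries_eq_single]
  rfl

variable {A} in
theorem coeffMap_residue_C (a : ↥A) :
    coeffMap (residue ↥A) (HahnSeries.C a : LaurentSeries ↥A) =
      algebraMap (ResidueField ↥A) (LaurentSeries (ResidueField ↥A)) (residue ↥A a) := by
  rw [HahnSeries.C_apply, coeffMap_single, algebraMap_laurentSeries_eq_single]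

variable {A E} in
theorem coe_algebraMap_ered (a : L) :
    ((algebraMap L ↥E a : ↥E) : LaurentSeries L) = algebraMap L (LaurentSeries L) a := rfl

/-- a series over `A` which is a constant of `L` is a constant of `A`. -/
theorem eq_C_of_coeffMap_subtype_eq {y : LaurentSeries ↥A} {c : L}
    (hy : coeffMap A.subtype y = algebraMap L (LaurentSeries L) c) :
    ∃ hc : c ∈ A, y = HahnSeries.C (⟨c, hc⟩ : ↥A) := by
  have h0 : ((y.coeff 0 : ↥A) : L) = c := by
    have h1 := congrArg (fun s : LaurentSeries L => s.coeff 0) hy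
    simp only [coeffMap_coeff, algebraMap_laurentSeries_eq_single,
      HahnSeries.coeff_single_same] at h1
    exact h1
  have hc : c ∈ A := h0 ▸ (y.coeff 0).2
  refine ⟨hc, ?_⟩
  apply coeffMap_subtype_injective_ered
  rw [hy, coeffMap_subtype_C]

end defs

section gauss

variable {L : Type*} [Field L] (A : ValuationSubring L) (E : IntermediateField L (LaurentSeries L))
  (h : IsGaussValued A E)

include h in
/-- the key consequence of (G): `f` or `f⁻¹` has coefficients in `A`; more precisely, with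
`a f = y` primitive: `f` is integral iff `a⁻¹ ∈ A`, and `f⁻¹` is integral iff `a ∈ A`. -/
theorem exists_lift_or_inv (f : ↥E) :
    (∃ y : LaurentSeries ↥A, coeffMap A.subtype y = (f : LaurentSeries L)) ∨
      (∃ y : LaurentSeries ↥A, coeffMap A.subtype y = ((f⁻¹ : ↥E) : LaurentSeries L)) := by
  by_cases hf : f = 0
  · left
    exact ⟨0, by rw [hf, map_zero]; rfl⟩
  obtain ⟨a, ha, y, hy, hyr⟩ := h f hf
  obtain ⟨b, hb, y', hy', hyr'⟩ := h f⁻¹ (inv_ne_zero hf)
  -- `y y'` is the constant `a b`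
  have hprod : coeffMap A.subtype (y * y') = algebraMap L (LaurentSeries L) (a * b) := by
    rw [map_mul, hy, hy', ← MulMemClass.coe_mul, ← coe_algebraMap_ered (E := E)]
    congr 1
    rw [map_mul]
    field_simp
  obtain ⟨hc, hyc⟩ := eq_C_of_coeffMap_subtype_eq A hprod
  have hcunit : IsUnit (⟨a * b, hc⟩ : ↥A) := by
    by_contra hnu
    have h0 : residue ↥A ⟨a * b, hc⟩ = 0 :=
      (residue_eq_zero_iff _).mpr ((mem_maximalIdeal _).mpr hnu)
    have h1 : coeffMap (residue ↥A) (y * y') = 0 := by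
      rw [hyc, coeffMap_residue_C, h0, map_zero]
    rw [map_mul] at h1
    rcases mul_eq_zero.mp h1 with h2 | h2
    · exact hyr h2
    · exact hyr' h2
  rcases A.mem_or_inv_mem a with haA | haA
  · -- `b⁻¹ ∈ A`, so `f⁻¹ = b⁻¹ (b f⁻¹)` is integral
    right
    obtain ⟨u, hu⟩ := hcunit
    have hbinv : b⁻¹ ∈ A := by
      have h1 : b⁻¹ = a * (((u⁻¹ : (↥A)ˣ) : ↥A) : L) := by
        have h2 : ((u : ↥A) : L) * (((u⁻¹ : (↥A)ˣ) : ↥A) : L) = 1 := by
          rw [← MulMemClass.coe_mul, Units.mul_inv]; rfl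
        rw [hu] at h2
        have h3 : a * b * (((u⁻¹ : (↥A)ˣ) : ↥A) : L) = 1 := h2
        field_simp
        rw [← h3]
        ring
      rw [h1]
      exact A.mul_mem _ _ haA (Subtype.coe_prop _)
    refine ⟨HahnSeries.C (⟨b⁻¹, hbinv⟩ : ↥A) * y', ?_⟩
    rw [map_mul, hy', coeffMap_subtype_C, ← coe_algebraMap_ered (E := E), ← MulMemClass.coe_mul,
      ← mul_assoc, ← map_mul, inv_mul_cancel₀ hb, map_one, one_mul]
  · left
    refine ⟨HahnSeries.C (⟨a⁻¹, haA⟩ : ↥A) * y, ?_⟩
    rw [map_mul, hy, coeffMap_subtype_C, ← coe_algebraMap_ered (E := E), ← MulMemClass.coe_mul,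
      ← mul_assoc, ← map_mul, inv_mul_cancel₀ ha, map_one, one_mul]

/-- **the Gauss valuation ring `W_E`** of `E`: the elements with all coefficients in `A`. -/
def eGaussW : ValuationSubring ↥E where
  carrier := {f | ∃ y : LaurentSeries ↥A, coeffMap A.subtype y = (f : LaurentSeries L)}
  mul_mem' := by
    rintro f g ⟨y, hy⟩ ⟨z, hz⟩
    exact ⟨y * z, by rw [map_mul, hy, hz]; rfl⟩
  one_mem' := ⟨1, by rw [map_one]; rfl⟩
  add_mem' := by
    rintro f g ⟨y, hy⟩ ⟨z, hz⟩
    exact ⟨y + z, by rw [map_add, hy, hz]; rfl⟩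
  zero_mem' := ⟨0, by rw [map_zero]; rfl⟩
  neg_mem' := by
    rintro f ⟨y, hy⟩
    exact ⟨-y, by rw [map_neg, hy]; rfl⟩
  mem_or_inv_mem' := exists_lift_or_inv A E h

variable {A E} in
theorem mem_eGaussW_iff_exists {f : ↥E} :
    f ∈ eGaussW A E h ↔ ∃ y : LaurentSeries ↥A, coeffMap A.subtype y = (f : LaurentSeries L) :=
  Iff.rfl

variable {A E} in
theorem mem_eGaussW_iff {f : ↥E} :
    f ∈ eGaussW A E h ↔ ∀ n, (f : LaurentSeries L).coeff n ∈ A := by
  constructor
  · rintro ⟨y, hy⟩ n
    rw [← hy, coeffMap_coeff]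
    exact (y.coeff n).2
  · intro hf
    exact exists_coeffMap_subtype_eq_ered _ hf

/-- the lift of an element of `W_E` to a series over `A`. -/
noncomputable def eLift (f : ↥(eGaussW A E h)) : LaurentSeries ↥A := f.2.choose

variable {A E} in
@[simp] theorem coeffMap_subtype_eLift (f : ↥(eGaussW A E h)) :
    coeffMap A.subtype (eLift A E h f) = ((f : ↥E) : LaurentSeries L) := f.2.choose_spec

variable {A E} in
theorem eLift_eq {f : ↥(eGaussW A E h)} {y : LaurentSeries ↥A}
    (hy : coeffMap A.subtype y = ((f : ↥E) : LaurentSeries L)) : eLift A E h f = y :=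
  coeffMap_subtype_injective_ered ((coeffMap_subtype_eLift h f).trans hy.symm)

variable {A E} in
theorem eLift_mem (f : ↥(eGaussW A E h)) : eLift A E h f ∈ eIntRing A E := by
  rw [mem_eIntRing_iff, coeffMap_subtype_eLift]
  exact (f : ↥E).2

/-- **the reduction `ρ_E : W_E → Ẽ`** (coefficientwise). -/
noncomputable def eGaussRed : ↥(eGaussW A E h) →+* ↥(eRedField A E) where
  toFun f := ⟨coeffMap (residue ↥A) (eLift A E h f),
    IntermediateField.subset_adjoin _ _ ⟨_, eLift_mem h f, rfl⟩⟩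
  map_one' := by
    apply Subtype.ext
    show coeffMap (residue ↥A) (eLift A E h 1) = 1
    rw [eLift_eq h (y := 1) (by rw [map_one]; rfl), map_one]
  map_mul' f g := by
    apply Subtype.ext
    show coeffMap (residue ↥A) (eLift A E h (f * g)) =
      coeffMap (residue ↥A) (eLift A E h f) * coeffMap (residue ↥A) (eLift A E h g)
    rw [eLift_eq h (y := eLift A E h f * eLift A E h g)
      (by rw [map_mul, coeffMap_subtype_eLift, coeffMap_subtype_eLift]; rfl), map_mul]
  map_zero' := by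
    apply Subtype.ext
    show coeffMap (residue ↥A) (eLift A E h 0) = 0
    rw [eLift_eq h (y := 0) (by rw [map_zero]; rfl), map_zero]
  map_add' f g := by
    apply Subtype.ext
    show coeffMap (residue ↥A) (eLift A E h (f + g)) =
      coeffMap (residue ↥A) (eLift A E h f) + coeffMap (residue ↥A) (eLift A E h g)
    rw [eLift_eq h (y := eLift A E h f + eLift A E h g)
      (by rw [map_add, coeffMap_subtype_eLift, coeffMap_subtype_eLift]; rfl), map_add]

variable {A E} in
/-- the defining property of `ρ_E`. -/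
theorem coe_eGaussRed {f : ↥(eGaussW A E h)} {y : LaurentSeries ↥A}
    (hy : coeffMap A.subtype y = ((f : ↥E) : LaurentSeries L)) :
    ((eGaussRed A E h f : ↥(eRedField A E)) : LaurentSeries (ResidueField ↥A)) =
      coeffMap (residue ↥A) y := by
  show coeffMap (residue ↥A) (eLift A E h f) = _
  rw [eLift_eq h hy]

variable {A E} in
theorem coeff_eGaussRed (f : ↥(eGaussW A E h)) (n : ℤ) :
    ((eGaussRed A E h f : ↥(eRedField A E)) : LaurentSeries (ResidueField ↥A)).coeff n =
      residue ↥A ⟨(((f : ↥E) : LaurentSeries L)).coeff n, (mem_eGaussW_iff h).mp f.2 n⟩ := by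
  show (coeffMap (residue ↥A) (eLift A E h f)).coeff n = _
  rw [coeffMap_coeff]
  congr 1
  apply Subtype.ext
  have h1 : (coeffMap A.subtype (eLift A E h f)).coeff n =
      (((f : ↥E) : LaurentSeries L)).coeff n := by
    rw [coeffMap_subtype_eLift]
  rw [coeffMap_coeff] at h1
  exact h1

variable {A E} in
/-- constants: `W_E ∩ L = A`. -/
theorem algebraMap_mem_eGaussW_iff (a : L) : algebraMap L ↥E a ∈ eGaussW A E h ↔ a ∈ A := by
  constructor
  · rintro ⟨y, hy⟩
    rw [coe_algebraMap_ered] at hy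
    exact (eq_C_of_coeffMap_subtype_eq A hy).1
  · intro ha
    exact ⟨HahnSeries.C (⟨a, ha⟩ : ↥A), by rw [coeffMap_subtype_C]; rfl⟩

variable {A E} in
/-- `ρ_E` restricted to `A` is the residue map. -/
theorem eGaussRed_algebraMap (a : ↥A) (ha : algebraMap L ↥E (a : L) ∈ eGaussW A E h) :
    eGaussRed A E h ⟨algebraMap L ↥E (a : L), ha⟩ =
      algebraMap (ResidueField ↥A) ↥(eRedField A E) (residue ↥A a) := by
  apply Subtype.ext
  rw [coe_eGaussRed h (f := ⟨algebraMap L ↥E (a : L), ha⟩) (y := HahnSeries.C a)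
    (by rw [coeffMap_subtype_C]; rfl), coeffMap_residue_C]
  rfl

variable {A E} in
/-- an element of `W_E` with nonzero reduction is a unit of `W_E`. -/
theorem inv_mem_eGaussW_of_red_ne_zero {f : ↥(eGaussW A E h)} (hf : eGaussRed A E h f ≠ 0) :
    ((f : ↥E))⁻¹ ∈ eGaussW A E h := by
  have hf0 : (f : ↥E) ≠ 0 := by
    intro h0
    apply hf
    have : f = 0 := Subtype.ext h0
    rw [this, map_zero]
  by_contra hinv
  -- `f` is a non-unit: write `g = f⁻¹`; then `g⁻¹ = f ∈ W` and `g ∉ W`
  obtain ⟨a, ha, y, hy, hyr⟩ := h (f : ↥E) hf0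
  obtain ⟨b, hb, y', hy', hyr'⟩ := h (f : ↥E)⁻¹ (inv_ne_zero hf0)
  have hprod : coeffMap A.subtype (y * y') = algebraMap L (LaurentSeries L) (a * b) := by
    rw [map_mul, hy, hy', ← MulMemClass.coe_mul, ← coe_algebraMap_ered (E := E)]
    congr 1
    rw [map_mul]
    field_simp
  obtain ⟨hc, hyc⟩ := eq_C_of_coeffMap_subtype_eq A hprod
  have hcres : residue ↥A ⟨a * b, hc⟩ ≠ 0 := by
    intro h0
    have h1 : coeffMap (residue ↥A) (y * y') = 0 := by
      rw [hyc, coeffMap_residue_C, h0, map_zero]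
    rw [map_mul] at h1
    rcases mul_eq_zero.mp h1 with h2 | h2
    · exact hyr h2
    · exact hyr' h2
  -- `a` is a unit of `A`
  have hfy : coeffMap A.subtype (eLift A E h f) = ((f : ↥E) : LaurentSeries L) :=
    coeffMap_subtype_eLift h f
  have hfr : coeffMap (residue ↥A) (eLift A E h f) ≠ 0 := by
    intro h0
    apply hf
    apply Subtype.ext
    exact h0
  have haunit : a ∈ A ∧ a⁻¹ ∈ A := by
    rcases A.mem_or_inv_mem a with haA | haA
    · refine ⟨haA, ?_⟩
      -- `y = C a * lift f`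
      have h1 : y = HahnSeries.C (⟨a, haA⟩ : ↥A) * eLift A E h f := by
        apply coeffMap_subtype_injective_ered
        rw [hy, map_mul, coeffMap_subtype_C, hfy]
        rfl
      have h2 : residue ↥A ⟨a, haA⟩ ≠ 0 := by
        intro h0
        apply hyr
        rw [h1, map_mul, coeffMap_residue_C, h0, map_zero, zero_mul]
      have h3 : IsUnit (⟨a, haA⟩ : ↥A) := by
        by_contra hnu
        exact h2 ((residue_eq_zero_iff _).mpr ((mem_maximalIdeal _).mpr hnu))
      obtain ⟨u, hu⟩ := h3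
      have h4 : a⁻¹ = (((u⁻¹ : (↥A)ˣ) : ↥A) : L) := by
        have h5 : ((u : ↥A) : L) * (((u⁻¹ : (↥A)ˣ) : ↥A) : L) = 1 := by
          rw [← MulMemClass.coe_mul, Units.mul_inv]; rfl
        rw [hu] at h5
        exact inv_eq_of_mul_eq_one_right h5
      rw [h4]
      exact Subtype.coe_prop _
    · refine ⟨?_, haA⟩
      -- `lift f = C a⁻¹ * y`
      have h1 : eLift A E h f = HahnSeries.C (⟨a⁻¹, haA⟩ : ↥A) * y := by
        apply coeffMap_subtype_injective_ered
        rw [hfy, map_mul, coeffMap_subtype_C, hy, ← coe_algebraMap_ered (E := E),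
          ← MulMemClass.coe_mul, ← mul_assoc, ← map_mul, inv_mul_cancel₀ ha, map_one, one_mul]
      have h2 : residue ↥A ⟨a⁻¹, haA⟩ ≠ 0 := by
        intro h0
        apply hfr
        rw [h1, map_mul, coeffMap_residue_C, h0, map_zero, zero_mul]
      have h3 : IsUnit (⟨a⁻¹, haA⟩ : ↥A) := by
        by_contra hnu
        exact h2 ((residue_eq_zero_iff _).mpr ((mem_maximalIdeal _).mpr hnu))
      obtain ⟨u, hu⟩ := h3
      have h4 : a = (((u⁻¹ : (↥A)ˣ) : ↥A) : L) := by
        have h5 : ((u : ↥A) : L) * (((u⁻¹ : (↥A)ˣ) : ↥A) : L) = 1 := by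
          rw [← MulMemClass.coe_mul, Units.mul_inv]; rfl
        rw [hu] at h5
        have h6 : a⁻¹ * (((u⁻¹ : (↥A)ˣ) : ↥A) : L) = 1 := h5
        rw [← inv_inv a]
        exact inv_eq_of_mul_eq_one_right h6
      rw [h4]
      exact Subtype.coe_prop _
  -- `b⁻¹ = a (ab)⁻¹ ∈ A`
  have hcunit : IsUnit (⟨a * b, hc⟩ : ↥A) := by
    by_contra hnu
    exact hcres ((residue_eq_zero_iff _).mpr ((mem_maximalIdeal _).mpr hnu))
  obtain ⟨u, hu⟩ := hcunit
  have hbinv : b⁻¹ ∈ A := by
    have h1 : b⁻¹ = a * (((u⁻¹ : (↥A)ˣ) : ↥A) : L) := by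
      have h2 : ((u : ↥A) : L) * (((u⁻¹ : (↥A)ˣ) : ↥A) : L) = 1 := by
        rw [← MulMemClass.coe_mul, Units.mul_inv]; rfl
      rw [hu] at h2
      have h3 : a * b * (((u⁻¹ : (↥A)ˣ) : ↥A) : L) = 1 := h2
      field_simp
      rw [← h3]
      ring
    rw [h1]
    exact A.mul_mem _ _ haunit.1 (Subtype.coe_prop _)
  apply hinv
  refine ⟨HahnSeries.C (⟨b⁻¹, hbinv⟩ : ↥A) * y', ?_⟩
  rw [map_mul, hy', coeffMap_subtype_C, ← coe_algebraMap_ered (E := E), ← MulMemClass.coe_mul,
    ← mul_assoc, ← map_mul, inv_mul_cancel₀ hb, map_one, one_mul]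

variable {A E} in
/-- units of `W_E` = elements with nonzero reduction. -/
theorem inv_mem_eGaussW_iff (f : ↥(eGaussW A E h)) :
    ((f : ↥E))⁻¹ ∈ eGaussW A E h ∧ (f : ↥E) ≠ 0 ↔ eGaussRed A E h f ≠ 0 := by
  constructor
  · rintro ⟨hinv, hf0⟩ h0
    have h1 : f * ⟨((f : ↥E))⁻¹, hinv⟩ = 1 := by
      apply Subtype.ext
      show (f : ↥E) * ((f : ↥E))⁻¹ = 1
      exact mul_inv_cancel₀ hf0
    have h2 := congrArg (eGaussRed A E h) h1
    rw [map_mul, h0, zero_mul, map_one] at h2
    exact zero_ne_one h2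
  · intro hf
    refine ⟨inv_mem_eGaussW_of_red_ne_zero h hf, ?_⟩
    intro h0
    apply hf
    have : f = 0 := Subtype.ext h0
    rw [this, map_zero]

variable {A E} in
/-- **`ρ_E` is surjective.** -/
theorem eGaussRed_surjective : Function.Surjective (eGaussRed A E h) := by
  rintro ⟨z, hz⟩
  suffices hs : ∃ f : ↥(eGaussW A E h),
      ((eGaussRed A E h f : ↥(eRedField A E)) : LaurentSeries (ResidueField ↥A)) = z by
    obtain ⟨f, hf⟩ := hs
    exact ⟨f, Subtype.ext hf⟩
  unfold eRedField at hz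
  induction hz using IntermediateField.adjoin_induction with
  | mem z hz =>
    obtain ⟨y, hy, rfl⟩ := hz
    have hmem : (⟨coeffMap A.subtype y, hy⟩ : ↥E) ∈ eGaussW A E h := ⟨y, rfl⟩
    exact ⟨⟨_, hmem⟩, coe_eGaussRed h (f := ⟨_, hmem⟩) rfl⟩
  | algebraMap c =>
    obtain ⟨a, rfl⟩ := residue_surjective c
    have hmem : algebraMap L ↥E (a : L) ∈ eGaussW A E h :=
      (algebraMap_mem_eGaussW_iff h _).mpr a.2
    refine ⟨⟨_, hmem⟩, ?_⟩
    rw [eGaussRed_algebraMap h a hmem]
    rfl
  | add z w _ _ hz hw =>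
    obtain ⟨f, rfl⟩ := hz
    obtain ⟨g, rfl⟩ := hw
    exact ⟨f + g, by rw [map_add]; rfl⟩
  | mul z w _ _ hz hw =>
    obtain ⟨f, rfl⟩ := hz
    obtain ⟨g, rfl⟩ := hw
    exact ⟨f * g, by rw [map_mul]; rfl⟩
  | inv z _ hz =>
    obtain ⟨f, rfl⟩ := hz
    by_cases hf : eGaussRed A E h f = 0
    · refine ⟨0, ?_⟩
      rw [hf, map_zero]
      simp
    · have hinv := inv_mem_eGaussW_of_red_ne_zero h hf
      refine ⟨⟨((f : ↥E))⁻¹, hinv⟩, ?_⟩
      have hf0 : (f : ↥E) ≠ 0 := ((inv_mem_eGaussW_iff h f).mpr hf).2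
      have h1 : f * ⟨((f : ↥E))⁻¹, hinv⟩ = 1 := by
        apply Subtype.ext
        show (f : ↥E) * ((f : ↥E))⁻¹ = 1
        exact mul_inv_cancel₀ hf0
      have h2 := congrArg (eGaussRed A E h) h1
      rw [map_mul, map_one] at h2
      have h3 : eGaussRed A E h ⟨((f : ↥E))⁻¹, hinv⟩ = (eGaussRed A E h f)⁻¹ :=
        eq_inv_of_mul_eq_one_right h2
      rw [h3]
      rfl

variable {A E} in
/-- every nonzero function is a constant times a Gauss unit (product form). -/
theorem exists_mul_unit_eGaussW (f : ↥E) (hf : f ≠ 0) :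
    ∃ a : L, a ≠ 0 ∧ ∃ hm : algebraMap L ↥E a * f ∈ eGaussW A E h,
      eGaussRed A E h ⟨_, hm⟩ ≠ 0 ∧ (algebraMap L ↥E a * f)⁻¹ ∈ eGaussW A E h := by
  obtain ⟨a, ha, y, hy, hyr⟩ := h f hf
  have hmem : algebraMap L ↥E a * f ∈ eGaussW A E h := ⟨y, hy⟩
  have hred : eGaussRed A E h ⟨_, hmem⟩ ≠ 0 := by
    intro h0
    apply hyr
    have h1 := coe_eGaussRed h (f := ⟨_, hmem⟩) (y := y) hy
    rw [← h1, h0]
    rfl
  have hinv := inv_mem_eGaussW_of_red_ne_zero h (f := ⟨_, hmem⟩) hred
  exact ⟨a, ha, hmem, hred, hinv⟩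

variable {A E} in
/-- **the value group of `W_E` is that of `A`.** -/
theorem exists_smul_unit_eGaussW (f : ↥E) (hf : f ≠ 0) :
    ∃ a : L, a ≠ 0 ∧ a • f ∈ eGaussW A E h ∧ (a • f)⁻¹ ∈ eGaussW A E h := by
  obtain ⟨a, ha, hm, -, hinv⟩ := exists_mul_unit_eGaussW h f hf
  have hsm : a • f = algebraMap L ↥E a * f := Algebra.smul_def a f
  refine ⟨a, ha, ?_, ?_⟩
  · rw [hsm]; exact hm
  · rw [hsm]; exact hinv
variable {A E} in
/-- the kernel of `ρ_E`: the series all of whose coefficients are in `𝔪_A`. -/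
theorem eGaussRed_eq_zero_iff (f : ↥(eGaussW A E h)) :
    eGaussRed A E h f = 0 ↔
      ∀ n, A.valuation ((((f : ↥E) : LaurentSeries L)).coeff n) < 1 := by
  constructor
  · intro h0 n
    have h1 := coeff_eGaussRed h f n
    rw [h0] at h1
    have h2 : residue ↥A ⟨(((f : ↥E) : LaurentSeries L)).coeff n,
        (mem_eGaussW_iff h).mp f.2 n⟩ = 0 := by
      rw [← h1]; rfl
    have h3 := (residue_eq_zero_iff _).mp h2
    exact (A.valuation_lt_one_iff _).mp h3
  · intro hlt
    apply Subtype.ext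
    ext n
    rw [coeff_eGaussRed h f n]
    show _ = (0 : LaurentSeries (ResidueField ↥A)).coeff n
    rw [HahnSeries.coeff_zero, residue_eq_zero_iff]
    exact (A.valuation_lt_one_iff _).mpr (hlt n)

end gauss

end Fermat.Agent.FG
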