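/-
FG (S19/S32) — helper8 — [LIFT] part 2: **separation by Riemann–Roch in large degree.**

On a function field with `RRLarge K F g` and all places of degree one: for a divisor `D` of degree
`≥ 2g` and a place `Q₀` there is `f ∈ L(D)` with `ord_{Q₀} f = -D(Q₀)` exactly.  Consequences for
`L(m · ∞)`, `m ≥ 2g + 1`: simple zeros at a given point, separation of two points.
-/
import Mathlib
import Fermat.Agent.FG.LAT_helper5_PP
import Fermat.Agent.FG.CURVE_helper5_Def

set_option autoImplicit false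
set_option linter.unusedSectionVars false
set_option linter.style.haveILetI false

noncomputable section

namespace Fermat.Agent.FG

open AlgebraicCurve Fermat.Agent.FF Fermat.Agent.JA
open scoped Classical

section Strict

variable {K F : Type*} [Field K] [Field F] [Algebra K F] {g : ℕ}

/-- **strictness** `L(D - Q₀) ⊊ L(D)` for `deg D ≥ 2g`: an element of `L(D)` of exact order
`-D(Q₀)` at `Q₀`. -/
theorem RRLarge.exists_ord_eq (h : RRLarge K F g) (hdeg : ∀ v : Place K F, v.deg = 1)
    (D : Divisor K F) (hD : 2 * (g : ℤ) ≤ Divisor.degree D) (Q₀ : Place K F) :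
    ∃ f : F, f ∈ riemannRochSpace (K := K) D ∧ f ≠ 0 ∧ Q₀.ord f = -D Q₀ := by
  set D' : Divisor K F := D - Finsupp.single Q₀ 1 with hD'
  have hdegD' : Divisor.degree D' = Divisor.degree D - 1 := by
    rw [hD', map_sub, Divisor.degree_single, hdeg Q₀]
    simp
  obtain ⟨hfin, hrk⟩ := h D (by omega)
  obtain ⟨hfin', hrk'⟩ := h D' (by rw [hdegD']; omega)
  haveI := hfin
  haveI := hfin'
  have hle : riemannRochSpace (K := K) D' ≤ riemannRochSpace (K := K) D := by
    intro f hf
    rw [mem_riemannRochSpace_iff] at hf ⊢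
    intro v
    rcases hf v with h0 | h1
    · exact Or.inl h0
    · right
      have h2 : D' v = D v - (Finsupp.single Q₀ (1 : ℤ)) v := by
        rw [hD', Finsupp.sub_apply]
      have h3 : (0 : ℤ) ≤ (Finsupp.single Q₀ (1 : ℤ)) v := by
        by_cases hv : v = Q₀
        · subst hv; rw [Finsupp.single_eq_same]; exact zero_le_one
        · rw [Finsupp.single_eq_of_ne hv]
      omega
  have hex : ∃ f : F, f ∈ riemannRochSpace (K := K) D ∧ f ∉ riemannRochSpace (K := K) D' := by
    by_contra hcon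
    push Not at hcon
    have heq : riemannRochSpace (K := K) D' = riemannRochSpace (K := K) D :=
      le_antisymm hle hcon
    rw [hdegD', heq, hrk] at hrk'
    omega
  obtain ⟨f, hfD, hfD'⟩ := hex
  have hf0 : f ≠ 0 := by
    rintro rfl
    exact hfD' (Submodule.zero_mem _)
  refine ⟨f, hfD, hf0, ?_⟩
  rw [mem_riemannRochSpace_iff] at hfD
  have h1 := (hfD Q₀).resolve_left hf0
  by_contra hne
  apply hfD'
  rw [mem_riemannRochSpace_iff]
  intro v
  right
  have h2 : D' v = D v - (Finsupp.single Q₀ (1 : ℤ)) v := by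
    rw [hD', Finsupp.sub_apply]
  by_cases hv : v = Q₀
  · subst hv
    rw [h2, Finsupp.single_eq_same]
    omega
  · rw [h2, Finsupp.single_eq_of_ne hv]
    have := (hfD v).resolve_left hf0
    omega

/-- an element of `L(m·P - Q)`, `Q ≠ P`, lies in `L(m·P)`. -/
theorem mem_poleSpace_of_mem_sub {P Q : Place K F} {m : ℕ} {n : ℤ} (hn : 0 ≤ n) {f : F}
    (hf : f ∈ riemannRochSpace (K := K) (Finsupp.single P (m : ℤ) - Finsupp.single Q n)) :
    f ∈ poleSpace P m := by
  rw [poleSpace, mem_riemannRochSpace_iff]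
  rw [mem_riemannRochSpace_iff] at hf
  intro v
  rcases hf v with h0 | h1
  · exact Or.inl h0
  · right
    rw [Finsupp.sub_apply] at h1
    have h3 : (0 : ℤ) ≤ (Finsupp.single Q n) v := by
      by_cases hv : v = Q
      · subst hv; rw [Finsupp.single_eq_same]; exact hn
      · rw [Finsupp.single_eq_of_ne hv]
    omega

/-- **a function with a simple zero at `Q`** in `L(m·P)`, `m ≥ 2g + 1`, `Q ≠ P`. -/
theorem RRLarge.exists_simple_zero (h : RRLarge K F g) (hdeg : ∀ v : Place K F, v.deg = 1)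
    (P Q : Place K F) (hQP : Q ≠ P) {m : ℕ} (hm : 2 * (g : ℤ) + 1 ≤ m) :
    ∃ f : F, f ∈ poleSpace P m ∧ Q.ord f = 1 := by
  have hdegD : Divisor.degree (Finsupp.single P (m : ℤ) - Finsupp.single Q 1) = (m : ℤ) - 1 := by
    rw [map_sub, Divisor.degree_single, Divisor.degree_single, hdeg P, hdeg Q]
    simp
  obtain ⟨f, hf, hf0, hord⟩ := h.exists_ord_eq hdeg
    (Finsupp.single P (m : ℤ) - Finsupp.single Q 1) (by rw [hdegD]; omega) Q
  refine ⟨f, mem_poleSpace_of_mem_sub zero_le_one hf, ?_⟩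
  rw [hord, Finsupp.sub_apply, Finsupp.single_eq_same, Finsupp.single_eq_of_ne hQP]
  simp

/-- **separation of points** by `L(m·P)`, `m ≥ 2g + 1`: a function vanishing at `Q` but not at
`Q'`. -/
theorem RRLarge.exists_separating (h : RRLarge K F g) (hdeg : ∀ v : Place K F, v.deg = 1)
    (P Q Q' : Place K F) (hQP : Q ≠ P) (hQ'P : Q' ≠ P) (hQQ' : Q' ≠ Q) {m : ℕ}
    (hm : 2 * (g : ℤ) + 1 ≤ m) :
    ∃ f : F, f ∈ poleSpace P m ∧ f ≠ 0 ∧ 0 < Q.ord f ∧ Q'.ord f = 0 := by
  have hdegD : Divisor.degree (Finsupp.single P (m : ℤ) - Finsupp.single Q 1) = (m : ℤ) - 1 := by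
    rw [map_sub, Divisor.degree_single, Divisor.degree_single, hdeg P, hdeg Q]
    simp
  obtain ⟨f, hf, hf0, hord⟩ := h.exists_ord_eq hdeg
    (Finsupp.single P (m : ℤ) - Finsupp.single Q 1) (by rw [hdegD]; omega) Q'
  refine ⟨f, mem_poleSpace_of_mem_sub zero_le_one hf, hf0, ?_, ?_⟩
  · have := (mem_riemannRochSpace_iff.mp hf Q).resolve_left hf0
    rw [Finsupp.sub_apply, Finsupp.single_eq_same, Finsupp.single_eq_of_ne hQP] at this
    omega
  · rw [hord, Finsupp.sub_apply, Finsupp.single_eq_of_ne hQ'P, Finsupp.single_eq_of_ne hQQ']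
    simp

end Strict

end Fermat.Agent.FG

end
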