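/-
FG (S19/S32) — helper8 — [LIFT] part 1: **Teichmüller lifts.**

`Ω` algebraically closed with a valuation subring `A`, `k = A / 𝔪`.  Every root of unity of `k`
is the reduction of a root of unity of `A` of the same exponent.
-/
import Mathlib

set_option autoImplicit false
set_option linter.unusedSectionVars false

namespace Fermat.Agent.FG

open IsLocalRing Polynomial

section Teich

variable {Ω : Type*} [Field Ω] (A : ValuationSubring Ω)

/-- an element of `Ω` with a power equal to `1` lies in every valuation subring. -/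
theorem mem_valuationSubring_of_pow_eq_one {n : ℕ} (hn : n ≠ 0) {ζ : Ω} (h : ζ ^ n = 1) :
    ζ ∈ A := by
  rw [← A.valuation_le_one_iff]
  have h1 : A.valuation ζ ^ n = 1 := by rw [← map_pow, h, map_one]
  exact le_of_eq ((pow_eq_one_iff.mp h1).resolve_right hn)

/-- the difference of two elements of `A` with the same residue is a non-unit. -/
theorem valuation_sub_lt_one_iff (a b : ↥A) :
    A.valuation ((a : Ω) - (b : Ω)) < 1 ↔ residue ↥A a = residue ↥A b := by
  rw [← sub_eq_zero, ← map_sub, residue_eq_zero_iff]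
  exact (A.valuation_lt_one_iff (a - b)).symm

/-- **Teichmüller lifts**: an `n`-th root of unity of the residue field is the reduction of an
`n`-th root of unity of `A`. -/
theorem exists_teichmuller [IsAlgClosed Ω] {n : ℕ} (hn : n ≠ 0) (ab : ResidueField ↥A)
    (h : ab ^ n = 1) : ∃ a : ↥A, residue ↥A a = ab ∧ (a : Ω) ^ n = 1 := by
  classical
  obtain ⟨b, rfl⟩ := residue_surjective ab
  set p : Polynomial Ω := X ^ n - 1 with hp
  have hpm : p.Monic := monic_X_pow_sub_C (1 : Ω) hn
  have hev : p.eval (b : Ω) = (p.roots.map ((b : Ω) - ·)).prod :=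
    (IsAlgClosed.splits p).eval_eq_prod_roots_of_monic hpm (b : Ω)
  have hroot : ∀ ζ ∈ p.roots, ζ ^ n = 1 := by
    intro ζ hζ
    have := (mem_roots hpm.ne_zero).mp hζ
    rw [hp, IsRoot.def, eval_sub, eval_pow, eval_X, eval_one, sub_eq_zero] at this
    exact this
  -- `p(b) ∈ 𝔪`
  have hlt : A.valuation (p.eval (b : Ω)) < 1 := by
    have h1 : p.eval (b : Ω) = ((b ^ n : ↥A) : Ω) - ((1 : ↥A) : Ω) := by
      rw [hp, eval_sub, eval_pow, eval_X, eval_one]
      rfl
    rw [h1, valuation_sub_lt_one_iff, map_pow, h, map_one]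
  -- some factor lies in `𝔪`
  have hex : ∃ ζ ∈ p.roots, A.valuation ((b : Ω) - ζ) < 1 := by
    by_contra hcon
    push Not at hcon
    have hall : ∀ x ∈ (p.roots.map ((b : Ω) - ·)).map A.valuation, x = 1 := by
      intro x hx
      rw [Multiset.map_map, Multiset.mem_map] at hx
      obtain ⟨ζ, hζ, rfl⟩ := hx
      have hζA : ζ ∈ A := mem_valuationSubring_of_pow_eq_one A hn (hroot ζ hζ)
      have h1 : A.valuation ((b : Ω) - ζ) ≤ 1 :=
        (A.valuation_le_one_iff _).mpr (sub_mem b.2 hζA)
      exact le_antisymm h1 (hcon ζ hζ)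
    have h2 : A.valuation (p.eval (b : Ω)) = 1 := by
      rw [hev, map_multiset_prod]
      exact Multiset.prod_eq_one hall
    rw [h2] at hlt
    exact lt_irrefl _ hlt
  obtain ⟨ζ, hζ, hζlt⟩ := hex
  have hζA : ζ ∈ A := mem_valuationSubring_of_pow_eq_one A hn (hroot ζ hζ)
  refine ⟨⟨ζ, hζA⟩, ?_, hroot ζ hζ⟩
  exact ((valuation_sub_lt_one_iff A b ⟨ζ, hζA⟩).mp hζlt).symm

/-- the Teichmüller property: `0` or a root of unity of order prime to the residue
characteristic. -/
def IsTeich (a : Ω) : Prop :=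
  a = 0 ∨ ∃ n : ℕ, ((n : ℕ) : ResidueField ↥A) ≠ 0 ∧ a ^ n = 1

theorem isTeich_zero : IsTeich A (0 : Ω) := Or.inl rfl

/-- **every element of the residue field has a Teichmüller lift** when all nonzero elements of
the residue field are roots of unity of order prime to the characteristic. -/
theorem exists_isTeich_lift [IsAlgClosed Ω]
    (hk : ∀ a : ResidueField ↥A, a ≠ 0 → ∃ n : ℕ, ((n : ℕ) : ResidueField ↥A) ≠ 0 ∧ a ^ n = 1)
    (ab : ResidueField ↥A) : ∃ a : ↥A, residue ↥A a = ab ∧ IsTeich A (a : Ω) := by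
  by_cases h0 : ab = 0
  · exact ⟨0, by rw [map_zero, h0], Or.inl rfl⟩
  · obtain ⟨n, hn, hab⟩ := hk ab h0
    have hn0 : n ≠ 0 := by
      rintro rfl
      exact hn (by simp)
    obtain ⟨a, ha, han⟩ := exists_teichmuller A hn0 ab hab
    exact ⟨a, ha, Or.inr ⟨n, hn, han⟩⟩

end Teich

end Fermat.Agent.FG
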