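/-
FG (S19/S32) — helper8 — [LIFT] part 3: **lifting a point of the special fibre to a point of the
generic fibre fixed by all automorphisms of the good-reduction datum fixing finitely many
Teichmüller constants.**
-/
import Mathlib
import Fermat.Agent.FG.LAT_helper5_CanonAPI
import Fermat.Agent.FG.LIFT_helper8_Teich
import Fermat.Agent.FG.LIFT_helper8_RR

set_option autoImplicit false
set_option linter.unusedSectionVars false
set_option linter.style.haveILetI false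

noncomputable section

namespace Fermat.Agent.FG

open AlgebraicCurve IsLocalRing IntermediateField Fermat.Agent.FF Fermat.Agent.JA
open scoped Classical

namespace GoodRed

variable {Ω : Type*} [Field Ω] {A : ValuationSubring Ω} {𝔽 : Type*} [Field 𝔽] [Algebra Ω 𝔽]
  {𝔽b : Type*} [Field 𝔽b] [Algebra (ResidueField ↥A) 𝔽b] (X : GoodRed Ω A 𝔽 𝔽b)

variable {m : ℕ} (hm : 2 * (X.g : ℤ) - 1 ≤ m)

/-- the section of `𝓛(m∞)` with coordinates `a` in the canonical basis. -/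
def liftSec (a : ↥(X.nongaps m) → ↥A) : ↥(poleSpace X.cusp m) :=
  ∑ ν : ↥(X.nongaps m), (a ν : Ω) • X.canon hm ν

theorem coe_liftSec (a : ↥(X.nongaps m) → ↥A) :
    ((X.liftSec hm a : ↥(poleSpace X.cusp m)) : 𝔽)
      = ∑ ν : ↥(X.nongaps m), (a ν : Ω) • ((X.canon hm ν : ↥(poleSpace X.cusp m)) : 𝔽) := by
  rw [liftSec, Submodule.coe_sum]
  rfl

theorem liftSec_mem_W (a : ↥(X.nongaps m) → ↥A) : ((X.liftSec hm a : 𝔽)) ∈ X.W := by
  rw [coe_liftSec]
  exact Subring.sum_mem _ fun ν _ => X.smul_mem_W (a ν).2 (X.canon_mem_W hm ν)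

/-- the reduction of `liftSec a`. -/
theorem ρ_liftSec (a : ↥(X.nongaps m) → ↥A) :
    X.ρ ⟨(X.liftSec hm a : 𝔽), X.liftSec_mem_W hm a⟩
      = ∑ ν : ↥(X.nongaps m), residue ↥A (a ν) • ((X.canonb hm ν : ↥(poleSpace X.cuspb m)) : 𝔽b) := by
  have h1 : (⟨(X.liftSec hm a : 𝔽), X.liftSec_mem_W hm a⟩ : ↥X.W)
      = ∑ ν : ↥(X.nongaps m), ⟨(a ν : Ω) • ((X.canon hm ν : ↥(poleSpace X.cusp m)) : 𝔽),
          X.smul_mem_W (a ν).2 (X.canon_mem_W hm ν)⟩ := by
    apply Subtype.ext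
    rw [AddSubmonoidClass.coe_finsetSum]
    exact X.coe_liftSec hm a
  rw [h1, map_sum]
  refine Finset.sum_congr rfl fun ν _ => ?_
  exact X.ρ_smul (a ν) ⟨_, X.canon_mem_W hm ν⟩

/-- a section of `L̄(m∞̄)` is the reduction of the `liftSec` of any lift of its coordinates. -/
theorem ρ_liftSec_eq (ub : ↥(poleSpace X.cuspb m)) (a : ↥(X.nongaps m) → ↥A)
    (ha : ∀ ν : ↥(X.nongaps m), residue ↥A (a ν) = X.ppb m ub ν) :
    X.ρ ⟨(X.liftSec hm a : 𝔽), X.liftSec_mem_W hm a⟩ = (ub : 𝔽b) := by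
  rw [X.ρ_liftSec hm a]
  conv_rhs => rw [X.eq_sum_canonb hm ub]
  rw [Submodule.coe_sum]
  refine Finset.sum_congr rfl fun ν _ => ?_
  rw [ha ν]
  rfl

/-- rational automorphisms fixing the coordinates fix `liftSec a`. -/
theorem smul_liftSec (g : SemilinearAut Ω 𝔽) (hg : X.IsRatAut g) (a : ↥(X.nongaps m) → ↥A)
    (hga : ∀ ν, SemilinearAut.baseAut g (a ν : Ω) = (a ν : Ω)) :
    g • ((X.liftSec hm a : 𝔽)) = (X.liftSec hm a : 𝔽) := by
  rw [coe_liftSec, Finset.smul_sum]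
  refine Finset.sum_congr rfl fun ν _ => ?_
  rw [Algebra.smul_def, smul_mul', SemilinearAut.smul_algebraMap, hga ν, X.smul_canon hm g hg ν]

theorem IsAut.isRatAut {g : SemilinearAut Ω 𝔽} (hg : X.IsAut g) : X.IsRatAut g :=
  ⟨hg.smul_τ, hg.smul_cusp⟩

/-- a nonzero function of `L̄(m∞̄)` which is regular at `∞̄` is a nonzero constant, hence has
order zero everywhere. -/
theorem ord_eq_zero_of_mem_poleSpaceb_of_mem {ub : 𝔽b} (hub : ub ∈ poleSpace X.cuspb m)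
    (h0 : ub ≠ 0) (hreg : ub ∈ X.cuspb.toValuationSubring) (Q : Place (ResidueField ↥A) 𝔽b) :
    Q.ord ub = 0 := by
  have hall : ∀ Q' : Place (ResidueField ↥A) 𝔽b, 0 ≤ Q'.ord ub := by
    intro Q'
    by_cases hQ' : Q' = X.cuspb
    · subst hQ'
      exact PlaceAux.ord_nonneg_of_mem _ hreg
    · exact ((mem_poleSpace_iff.mp hub).2 Q' hQ').resolve_left h0
  obtain ⟨c, hc⟩ := X.const_red ub hall
  rw [hc]
  exact PlaceAux.ord_algebraMap _ _

/-- values of a linear combination. -/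
theorem hasValueAt_sum_smul {K F : Type*} [Field K] [Field F] [Algebra K F] {ι : Type*}
    (s : Finset ι) (P : Place K F) (c : ι → K) (f : ι → F) (v : ι → K)
    (h : ∀ i ∈ s, HasValueAt P (f i) (v i)) :
    HasValueAt P (∑ i ∈ s, c i • f i) (∑ i ∈ s, c i * v i) := by
  refine HasValueAt.sum s _ _ fun i hi => ?_
  rw [Algebra.smul_def]
  exact (HasValueAt.algebraMap' P (c i)).mul (h i hi)

set_option maxHeartbeats 1600000 in
/-- **lifting of points**: every point `Q` of the special fibre is the reduction of a point `P`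
of the generic fibre which is fixed by every automorphism of the datum fixing a finite set of
Teichmüller constants. -/
theorem exists_lift_point [IsAlgClosed Ω]
    (hk : ∀ a : ResidueField ↥A, a ≠ 0 → ∃ n : ℕ, ((n : ℕ) : ResidueField ↥A) ≠ 0 ∧ a ^ n = 1)
    (Q : Place (ResidueField ↥A) 𝔽b) :
    ∃ (P : Place Ω 𝔽) (T : Finset Ω), X.r P = Q ∧ (∀ a ∈ T, IsTeich A a) ∧
      ∀ g : SemilinearAut Ω 𝔽, X.IsAut g → (∀ a ∈ T, SemilinearAut.baseAut g a = a) →
        g • P = P := by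
  by_cases hQ : Q = X.cuspb
  · exact ⟨X.cusp, ∅, hQ.symm, fun a ha => absurd ha (Finset.notMem_empty a),
      fun g hg _ => hg.smul_cusp⟩
  -- `m = 2g + 1`
  set m : ℕ := 2 * X.g + 1 with hmdef
  have hm : 2 * (X.g : ℤ) - 1 ≤ m := by rw [hmdef]; push_cast; omega
  have hm' : 2 * (X.g : ℤ) + 1 ≤ m := by rw [hmdef]; push_cast; omega
  -- a section with a simple zero at `Q`
  obtain ⟨ub, hub, hubQ⟩ := X.rr_red.exists_simple_zero X.deg_red X.cuspb Q hQ hm'
  have hub0 : ub ≠ 0 := by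
    rintro rfl
    rw [Place.ord_zero] at hubQ
    exact zero_ne_one hubQ
  -- its Teichmüller lift
  choose a ha haT using fun ν : ↥(X.nongaps m) =>
    exists_isTeich_lift A hk (X.ppb m ⟨ub, hub⟩ ν)
  have huW := X.liftSec_mem_W hm a
  have hρu : X.ρ ⟨(X.liftSec hm a : 𝔽), huW⟩ = ub := X.ρ_liftSec_eq hm ⟨ub, hub⟩ a ha
  have hreg : X.RegularOn Q ((X.liftSec hm a : 𝔽)) :=
    X.regularOn_of_mem_poleSpace' (X.liftSec hm a).2 hQ
  have h0nu : (0 : Ω) ∈ A.nonunits := by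
    rw [ValuationSubring.mem_nonunits_iff_exists_mem_maximalIdeal]
    exact ⟨A.zero_mem, Ideal.zero_mem _⟩
  obtain ⟨P, ⟨hPQ, hPval⟩, huniq⟩ := X.existsUnique_mem_disc Q ⟨(X.liftSec hm a : 𝔽), huW⟩ hreg
    (by rw [hρu]; exact hubQ) h0nu
  -- the values of the reduced canonical basis at `Q`
  have hcanQ : ∀ (Q' : Place (ResidueField ↥A) 𝔽b), Q' ≠ X.cuspb → ∀ ν : ↥(X.nongaps m),
      ∃ c : ResidueField ↥A, HasValueAt Q' ((X.canonb hm ν : 𝔽b)) c := by
    intro Q' hQ' ν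
    exact HasValueAt.exists_of_mem (X.deg_red Q')
      (ordGE_zero_iff_mem.mp ((mem_poleSpace_iff.mp (X.canonb hm ν).2).2 Q' hQ'))
  choose c hc using hcanQ Q hQ
  choose b hb hbT using fun ν : ↥(X.nongaps m) => exists_isTeich_lift A hk (c ν)
  refine ⟨P, Finset.univ.image (fun ν => (a ν : Ω)) ∪ Finset.univ.image (fun ν => (b ν : Ω)),
    hPQ, ?_, ?_⟩
  · intro x hx
    rw [Finset.mem_union, Finset.mem_image, Finset.mem_image] at hx
    rcases hx with ⟨ν, -, rfl⟩ | ⟨ν, -, rfl⟩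
    · exact haT ν
    · exact hbT ν
  intro g hg hgT
  have hga : ∀ ν, SemilinearAut.baseAut g (a ν : Ω) = (a ν : Ω) := fun ν =>
    hgT _ (Finset.mem_union_left _ (Finset.mem_image_of_mem _ (Finset.mem_univ ν)))
  have hgb : ∀ ν, SemilinearAut.baseAut g (b ν : Ω) = (b ν : Ω) := fun ν =>
    hgT _ (Finset.mem_union_right _ (Finset.mem_image_of_mem _ (Finset.mem_univ ν)))
  have hgu : g • ((X.liftSec hm a : 𝔽)) = (X.liftSec hm a : 𝔽) :=
    X.smul_liftSec hm g (IsAut.isRatAut X hg) a hga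
  -- Step 1: `r (g • P) ≠ ∞̄`
  have hubQ_mem : ub ∈ Q.toValuationSubring := by
    rw [PlaceAux.mem_iff_ord_nonneg' Q hub0, hubQ]
    exact zero_le_one
  have hstep1 : X.r (g • P) ≠ X.cuspb := by
    intro hcon
    have hfW : g • ((X.liftSec hm a : 𝔽)) ∈ X.W := by rw [hgu]; exact huW
    have h1 := hg.r_smul P ⟨(X.liftSec hm a : 𝔽), huW⟩ hfW
    have h2 : X.ρ ⟨g • ((X.liftSec hm a : 𝔽)), hfW⟩ = ub := by
      rw [← hρu]
      congr 1
      exact Subtype.ext hgu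
    rw [h2, hρu, hPQ, hcon] at h1
    have h3 : ub ∈ X.cuspb.toValuationSubring := h1.mpr hubQ_mem
    have h4 := X.ord_eq_zero_of_mem_poleSpaceb_of_mem hub hub0 h3 Q
    rw [hubQ] at h4
    exact one_ne_zero h4
  -- Step 2: `r (g • P) = Q`
  have hstep2 : X.r (g • P) = Q := by
    by_contra hne
    obtain ⟨wb, hwb, hwb0, hwbQ, hwbQ'⟩ := X.rr_red.exists_separating X.deg_red X.cuspb Q
      (X.r (g • P)) hQ hstep1 hne hm'
    choose c' hc' using hcanQ (X.r (g • P)) hstep1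
    -- some canonical basis element separates
    have hsep : ∃ ν : ↥(X.nongaps m), c ν ≠ c' ν := by
      by_contra hall
      push Not at hall
      have hexp := X.eq_sum_canonb hm ⟨wb, hwb⟩
      have hexp' : wb = ∑ ν : ↥(X.nongaps m),
          X.ppb m ⟨wb, hwb⟩ ν • ((X.canonb hm ν : ↥(poleSpace X.cuspb m)) : 𝔽b) := by
        have := congrArg Subtype.val hexp
        rw [Submodule.coe_sum] at this
        exact this
      have hv1 : HasValueAt Q wb (∑ ν : ↥(X.nongaps m), X.ppb m ⟨wb, hwb⟩ ν * c ν) := by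
        conv_lhs => rw [hexp']
        exact hasValueAt_sum_smul _ Q _ _ _ fun ν _ => hc ν
      have hv2 : HasValueAt (X.r (g • P)) wb
          (∑ ν : ↥(X.nongaps m), X.ppb m ⟨wb, hwb⟩ ν * c' ν) := by
        conv_lhs => rw [hexp']
        exact hasValueAt_sum_smul _ _ _ _ _ fun ν _ => hc' ν
      have hz1 : HasValueAt Q wb 0 := HasValueAt.zero_iff.mpr (Or.inr hwbQ)
      have hs0 : (∑ ν : ↥(X.nongaps m), X.ppb m ⟨wb, hwb⟩ ν * c ν) = 0 := hv1.unique hz1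
      have hs0' : (∑ ν : ↥(X.nongaps m), X.ppb m ⟨wb, hwb⟩ ν * c' ν) = 0 := by
        rw [← hs0]
        exact Finset.sum_congr rfl fun ν _ => by rw [hall ν]
      rw [hs0'] at hv2
      rcases HasValueAt.zero_iff.mp hv2 with h | h
      · exact hwb0 h
      · rw [hwbQ'] at h
        exact lt_irrefl _ h
    obtain ⟨ν, hν⟩ := hsep
    -- `y = canon ν - b ν`
    have hyW : ((X.canon hm ν : ↥(poleSpace X.cusp m)) : 𝔽) - algebraMap Ω 𝔽 (b ν : Ω) ∈ X.W :=
      sub_mem (X.canon_mem_W hm ν) (X.algebraMap_mem_W (b ν).2)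
    have hρy : X.ρ ⟨_, hyW⟩ = ((X.canonb hm ν : ↥(poleSpace X.cuspb m)) : 𝔽b)
        - algebraMap (ResidueField ↥A) 𝔽b (c ν) := by
      have : (⟨_, hyW⟩ : ↥X.W) = ⟨((X.canon hm ν : ↥(poleSpace X.cusp m)) : 𝔽), X.canon_mem_W hm ν⟩
          - ⟨algebraMap Ω 𝔽 (b ν : Ω), X.algebraMap_mem_W (b ν).2⟩ := rfl
      rw [this, map_sub, X.ρ_const, hb ν]
      rfl
    set yb : 𝔽b := ((X.canonb hm ν : ↥(poleSpace X.cuspb m)) : 𝔽b)
        - algebraMap (ResidueField ↥A) 𝔽b (c ν) with hyb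
    have hybQ : HasValueAt Q yb 0 := by
      have := (hc ν).sub (HasValueAt.algebraMap' Q (c ν))
      rwa [sub_self] at this
    have hybQ' : HasValueAt (X.r (g • P)) yb (c' ν - c ν) :=
      (hc' ν).sub (HasValueAt.algebraMap' _ (c ν))
    have hcc : c' ν - c ν ≠ 0 := sub_ne_zero.mpr (Ne.symm hν)
    have hyb0 : yb ≠ 0 := (hybQ'.ord_eq_zero hcc).1
    have hy0 : ((X.canon hm ν : ↥(poleSpace X.cusp m)) : 𝔽) - algebraMap Ω 𝔽 (b ν : Ω) ≠ 0 :=
      X.ρ_ne_zero_imp_ne_zero hyW (by rw [hρy]; exact hyb0)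
    have hyinvW : (((X.canon hm ν : ↥(poleSpace X.cusp m)) : 𝔽) - algebraMap Ω 𝔽 (b ν : Ω))⁻¹
        ∈ X.W := (X.inv_mem_W_iff hyW hy0).mpr (by rw [hρy]; exact hyb0)
    have hρyinv : X.ρ ⟨_, hyinvW⟩ = yb⁻¹ := by
      have h1 : (⟨_, hyinvW⟩ : ↥X.W) * ⟨_, hyW⟩ = 1 := by
        apply Subtype.ext
        exact inv_mul_cancel₀ hy0
      have h2 := congrArg X.ρ h1
      rw [map_mul, map_one, hρy] at h2
      exact eq_inv_of_mul_eq_one_left h2
    have hgy : g • (((X.canon hm ν : ↥(poleSpace X.cusp m)) : 𝔽) - algebraMap Ω 𝔽 (b ν : Ω))⁻¹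
        = (((X.canon hm ν : ↥(poleSpace X.cusp m)) : 𝔽) - algebraMap Ω 𝔽 (b ν : Ω))⁻¹ := by
      rw [smul_inv'', smul_sub, X.smul_canon hm g (IsAut.isRatAut X hg) ν,
        SemilinearAut.smul_algebraMap, hgb ν]
    have hfW : g • (((X.canon hm ν : ↥(poleSpace X.cusp m)) : 𝔽)
        - algebraMap Ω 𝔽 (b ν : Ω))⁻¹ ∈ X.W := by rw [hgy]; exact hyinvW
    have h1 := hg.r_smul P ⟨_, hyinvW⟩ hfW
    have h2 : X.ρ ⟨g • (((X.canon hm ν : ↥(poleSpace X.cusp m)) : 𝔽)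
        - algebraMap Ω 𝔽 (b ν : Ω))⁻¹, hfW⟩ = yb⁻¹ := by
      rw [← hρyinv]
      congr 1
      exact Subtype.ext hgy
    rw [h2, hρyinv, hPQ] at h1
    have h3 : yb⁻¹ ∈ (X.r (g • P)).toValuationSubring := (hybQ'.inv hcc).mem
    have h4 : yb⁻¹ ∈ Q.toValuationSubring := h1.mp h3
    rw [PlaceAux.mem_iff_ord_nonneg' Q (inv_ne_zero hyb0), Place.ord_inv] at h4
    have h5 : 0 < Q.ord yb := (HasValueAt.zero_iff.mp hybQ).resolve_left hyb0
    omega
  -- Step 3: uniqueness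
  refine huniq (g • P) ⟨hstep2, ?_⟩
  have := hPval.smul g
  rwa [map_zero, hgu] at this

end GoodRed

end Fermat.Agent.FG

end
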