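/-
FG (S19/S32) — helper8 — [LIFT] part 4: **`GoodRed.LiftSpec`.**

Every divisor class of the special fibre is the reduction of a divisor class of the generic fibre
which is fixed by all automorphisms of the good-reduction datum fixing a root of unity of order
prime to the residue characteristic.
-/
import Mathlib
import Fermat.Agent.FG.LIFT_helper8_Point

set_option autoImplicit false
set_option linter.unusedSectionVars false
set_option linter.style.haveILetI false

noncomputable section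

namespace Fermat.Agent.FG

open AlgebraicCurve IsLocalRing IntermediateField Fermat.Agent.FF Fermat.Agent.JA
open scoped Classical

section Roots

variable {Ω : Type*} [Field Ω] [IsAlgClosed Ω] [CharZero Ω] (A : ValuationSubring Ω)

/-- **a single root of unity generating finitely many Teichmüller constants**: every ring
automorphism of `Ω` fixing `ζ` fixes all elements of `T`. -/
theorem exists_root_of_unity_of_isTeich (T : Finset Ω) (hT : ∀ a ∈ T, IsTeich A a) :
    ∃ (n : ℕ) (ζ : Ω), ((n : ℕ) : ResidueField ↥A) ≠ 0 ∧ ζ ^ n = 1 ∧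
      ∀ σ : Ω ≃+* Ω, σ ζ = ζ → ∀ a ∈ T, σ a = a := by
  -- exponents
  have hex : ∀ a : Ω, ∃ n : ℕ, ((n : ℕ) : ResidueField ↥A) ≠ 0 ∧ (a ∈ T → a ≠ 0 → a ^ n = 1) := by
    intro a
    by_cases ha : a ∈ T
    · rcases hT a ha with h0 | ⟨n, hn, han⟩
      · exact ⟨1, by simp, fun _ h => absurd h0 h⟩
      · exact ⟨n, hn, fun _ _ => han⟩
    · exact ⟨1, by simp, fun h => absurd h ha⟩
  choose e he hea using hex
  set n : ℕ := ∏ a ∈ T, e a with hn
  have hnk : ((n : ℕ) : ResidueField ↥A) ≠ 0 := by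
    rw [hn, Nat.cast_prod]
    exact Finset.prod_ne_zero_iff.mpr fun a _ => he a
  have hn0 : n ≠ 0 := by
    rintro h
    rw [h] at hnk
    exact hnk (by simp)
  haveI : NeZero n := ⟨hn0⟩
  haveI : NeZero ((n : ℕ) : Ω) := ⟨by exact_mod_cast hn0⟩
  obtain ⟨ζ, hζ⟩ := HasEnoughRootsOfUnity.exists_primitiveRoot Ω n
  refine ⟨n, ζ, hnk, hζ.pow_eq_one, fun σ hσ a ha => ?_⟩
  by_cases ha0 : a = 0
  · rw [ha0, map_zero]
  · have han : a ^ n = 1 := by
      obtain ⟨d, hd⟩ := Finset.dvd_prod_of_mem e ha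
      rw [hn, hd, pow_mul, hea a ha ha0, one_pow]
    obtain ⟨i, -, rfl⟩ := hζ.eq_pow_of_pow_eq_one han
    rw [map_pow, hσ]

end Roots

namespace GoodRed

variable {Ω : Type*} [Field Ω] {A : ValuationSubring Ω} {𝔽 : Type*} [Field 𝔽] [Algebra Ω 𝔽]
  {𝔽b : Type*} [Field 𝔽b] [Algebra (ResidueField ↥A) 𝔽b] (X : GoodRed Ω A 𝔽 𝔽b)

include X in
/-- a map of places preserves degrees of divisors when all places have degree one. -/
theorem degree_mapDomain_lift (Pf : Place (ResidueField ↥A) 𝔽b → Place Ω 𝔽)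
    (D : Divisor (ResidueField ↥A) 𝔽b) :
    Divisor.degree (Finsupp.mapDomain Pf D) = Divisor.degree D := by
  induction D using Finsupp.induction with
  | zero => simp
  | single_add Q n D _ _ ih =>
    rw [Finsupp.mapDomain_add, map_add, map_add, ih, Finsupp.mapDomain_single,
      Divisor.degree_single, Divisor.degree_single, X.deg_gen, X.deg_red]

set_option maxHeartbeats 800000 in
/-- **[LIFT]**: the lifting property of divisor classes. -/
theorem liftSpec [IsAlgClosed Ω] [CharZero Ω]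
    (hk : ∀ a : ResidueField ↥A, a ≠ 0 → ∃ n : ℕ, ((n : ℕ) : ResidueField ↥A) ≠ 0 ∧ a ^ n = 1) :
    X.LiftSpec := by
  intro zb
  obtain ⟨Db, rfl⟩ := Pic0.mk_surjective zb
  choose Pf Tf hPf hTf hgf using X.exists_lift_point hk
  -- the lifted divisor
  set D : Divisor Ω 𝔽 := Finsupp.mapDomain Pf (Db : Divisor (ResidueField ↥A) 𝔽b) with hD
  have hD0 : D ∈ Divisor.degZero (K := Ω) (F := 𝔽) := by
    rw [Divisor.mem_degZero, hD, X.degree_mapDomain_lift]
    exact Db.2
  have hred : X.redDiv D = (Db : Divisor (ResidueField ↥A) 𝔽b) := by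
    rw [redDiv_apply, hD, ← Finsupp.mapDomain_comp]
    have : X.r ∘ Pf = id := funext hPf
    rw [this, Finsupp.mapDomain_id]
  -- the constants
  set T : Finset Ω := (Db : Divisor (ResidueField ↥A) 𝔽b).support.biUnion Tf with hTdef
  have hT : ∀ a ∈ T, IsTeich A a := by
    intro a ha
    rw [hTdef, Finset.mem_biUnion] at ha
    obtain ⟨Q, -, haQ⟩ := ha
    exact hTf Q a haQ
  obtain ⟨n, ζ, hn, hζ, hfix⟩ := exists_root_of_unity_of_isTeich A T hT
  refine ⟨Pic0.mk ⟨D, hD0⟩, ?_, n, ζ, hn, hζ, fun g hg hgζ => ?_⟩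
  · rw [redPic0_mk]
    congr 1
    exact Subtype.ext hred
  · rw [SemilinearAut.pic0_smul_mk]
    congr 1
    apply Subtype.ext
    rw [SemilinearAut.coe_degZeroSMulHom]
    show g • D = D
    rw [SemilinearAut.divisor_smul_def, hD, ← Finsupp.mapDomain_comp]
    refine Finsupp.mapDomain_congr fun Q hQ => ?_
    show g • Pf Q = Pf Q
    refine hgf Q g hg fun a ha => ?_
    exact hfix (SemilinearAut.baseAut g) hgζ a
      (by rw [hTdef, Finset.mem_biUnion]; exact ⟨Q, hQ, ha⟩)

end GoodRed

end Fermat.Agent.FG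

end
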