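/-
FG (S19/S32) — helper8 — [LIFT] part 5: the hypothesis on the residue field for valuation subrings
of `AlgebraicClosure ℚ` over a prime `ℓ`, and the resulting unconditional `LiftSpec`.
-/
import Mathlib
import Fermat.Agent.FG.LIFT_helper8_Main
import Fermat.Agent.JA.BASE_helper1_Res

set_option autoImplicit false
set_option linter.unusedSectionVars false
set_option linter.style.haveILetI false

namespace Fermat.Agent.FG

open AlgebraicCurve IsLocalRing Fermat.Agent.JA

/-- `Ω = AlgebraicClosure ℚ`. -/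
local notation "Ω" => AlgebraicClosure ℚ

section Padic

variable {ℓ : ℕ} [hℓ : Fact ℓ.Prime] {A : ValuationSubring Ω}

/-- **every nonzero element of the residue field of a valuation ring of `ℚ̄` over `ℓ` is a root
of unity of order prime to `ℓ`.** -/
theorem residueField_pow_eq_one (hA : A.LiesOverPrime ℓ) (a : ResidueField ↥A) (ha : a ≠ 0) :
    ∃ n : ℕ, ((n : ℕ) : ResidueField ↥A) ≠ 0 ∧ a ^ n = 1 := by
  haveI : CharP (ResidueField ↥A) ℓ := charP_residueField hA
  obtain ⟨a', rfl⟩ := residue_surjective a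
  obtain ⟨n, -, hℓn, han⟩ := exists_pow_eq_one_of_isAlgebraic (ℓ := ℓ) (isAlgebraic_residue a') ha
  refine ⟨n, ?_, han⟩
  rw [Ne, CharP.cast_eq_zero_iff (ResidueField ↥A) ℓ]
  exact hℓn

/-- **[LIFT] for valuation rings of `ℚ̄`.** -/
theorem GoodRed.liftSpec_of_liesOverPrime {𝔽 : Type*} [Field 𝔽] [Algebra Ω 𝔽] {𝔽b : Type*}
    [Field 𝔽b] [Algebra (ResidueField ↥A) 𝔽b] (X : GoodRed Ω A 𝔽 𝔽b) (hA : A.LiesOverPrime ℓ) :
    X.LiftSpec :=
  X.liftSpec (residueField_pow_eq_one hA)

end Padic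

end Fermat.Agent.FG
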