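/-
FG — helper5 — [LAT-A] (L7): effective divisors supported in the residue disc of the base point
correspond to monic polynomials whose lower coefficients lie in `𝔪_A`
(`E ↦ ∏_P (T - τ(P))^{E(P)}`).
-/
import Mathlib
import Fermat.Agent.FG.LAT_helper5_Cusp

set_option autoImplicit false
set_option linter.unusedSectionVars false
set_option linter.style.haveILetI false

noncomputable section

namespace Fermat.Agent.FG

open AlgebraicCurve IsLocalRing IntermediateField Fermat.Agent.FF Fermat.Agent.JA
open scoped Classical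

namespace GoodRed

variable {Ω : Type*} [Field Ω] {A : ValuationSubring Ω} {𝔽 : Type*} [Field 𝔽] [Algebra Ω 𝔽]
  {𝔽b : Type*} [Field 𝔽b] [Algebra (ResidueField ↥A) 𝔽b] (X : GoodRed Ω A 𝔽 𝔽b)

/-- effective divisors supported in the residue disc of the base point. -/
def InDisc (E : Divisor Ω 𝔽) : Prop := (∀ P, 0 ≤ E P) ∧ ∀ P ∈ E.support, X.r P = X.cuspb

theorem InDisc.add {E E' : Divisor Ω 𝔽} (h : X.InDisc E) (h' : X.InDisc E') :
    X.InDisc (E + E') := by
  refine ⟨fun P => by rw [Finsupp.add_apply]; exact add_nonneg (h.1 P) (h'.1 P), fun P hP => ?_⟩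
  have := Finsupp.support_add hP
  rcases Finset.mem_union.mp this with h1 | h1
  · exact h.2 P h1
  · exact h'.2 P h1

theorem inDisc_zero : X.InDisc 0 := ⟨fun _ => le_refl 0, fun P hP => by simp at hP⟩

/-- the `τ`-coordinate of a point. -/
def tauVal (P : Place Ω 𝔽) : Ω := valueAt P X.τ

theorem hasValueAt_tauVal {P : Place Ω 𝔽} (hP : X.r P = X.cuspb) :
    HasValueAt P X.τ (X.tauVal P) :=
  hasValueAt_valueAt_of_mem (X.deg_gen P) (X.τ_regularOn P hP)

theorem tauVal_mem_nonunits {P : Place Ω 𝔽} (hP : X.r P = X.cuspb) :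
    X.tauVal P ∈ A.nonunits := X.τ_value_mem_nonunits hP (X.hasValueAt_tauVal hP)

theorem tauVal_injOn {P P' : Place Ω 𝔽} (hP : X.r P = X.cuspb) (hP' : X.r P' = X.cuspb)
    (h : X.tauVal P = X.tauVal P') : P = P' :=
  (X.existsUnique_τ_eq (X.tauVal_mem_nonunits hP)).unique ⟨hP, X.hasValueAt_tauVal hP⟩
    ⟨hP', h ▸ X.hasValueAt_tauVal hP'⟩

theorem tauVal_cusp : X.tauVal X.cusp = 0 := X.hasValueAt_cusp_τ.valueAt_eq

/-- the multiset of `τ`-coordinates of an effective divisor. -/
def rootsOf (E : Divisor Ω 𝔽) : Multiset Ω :=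
  ∑ P ∈ E.support, (E P).toNat • ({X.tauVal P} : Multiset Ω)

/-- the polynomial `∏ (T - τ(P))^{E(P)}`. -/
def polyOf (E : Divisor Ω 𝔽) : Polynomial Ω :=
  ((X.rootsOf E).map fun a => Polynomial.X - Polynomial.C a).prod

theorem roots_polyOf (E : Divisor Ω 𝔽) : (X.polyOf E).roots = X.rootsOf E :=
  Polynomial.roots_multiset_prod_X_sub_C _

theorem monic_polyOf (E : Divisor Ω 𝔽) : (X.polyOf E).Monic :=
  Polynomial.monic_multiset_prod_of_monic (X.rootsOf E) (fun a => Polynomial.X - Polynomial.C a)
    fun a _ => Polynomial.monic_X_sub_C a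

theorem card_rootsOf (E : Divisor Ω 𝔽) : Multiset.card (X.rootsOf E) = ∑ P ∈ E.support, (E P).toNat := by
  unfold rootsOf
  rw [Multiset.card_sum]
  refine Finset.sum_congr rfl fun P _ => ?_
  rw [Multiset.card_nsmul, Multiset.card_singleton, mul_one]

theorem natDegree_polyOf (E : Divisor Ω 𝔽) :
    (X.polyOf E).natDegree = ∑ P ∈ E.support, (E P).toNat := by
  rw [polyOf, Polynomial.natDegree_multiset_prod_X_sub_C_eq_card, X.card_rootsOf]

theorem natDegree_polyOf_of_inDisc {E : Divisor Ω 𝔽} (h : X.InDisc E) :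
    ((X.polyOf E).natDegree : ℤ) = Divisor.degree E := by
  rw [X.natDegree_polyOf, Divisor.degree, Finsupp.liftAddHom_apply, Finsupp.sum]
  push_cast
  refine Finset.sum_congr rfl fun P _ => ?_
  rw [Int.toNat_of_nonneg (h.1 P)]
  simp [X.deg_gen]

theorem count_rootsOf (E : Divisor Ω 𝔽) (a : Ω) :
    Multiset.count a (X.rootsOf E) = ∑ P ∈ E.support, if X.tauVal P = a then (E P).toNat else 0 := by
  unfold rootsOf
  rw [Multiset.count_sum']
  refine Finset.sum_congr rfl fun P _ => ?_
  rw [Multiset.count_nsmul, Multiset.count_singleton]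
  split_ifs with h1 h2 h2
  · rw [mul_one]
  · exact absurd h1.symm h2
  · exact absurd h2.symm h1
  · rw [mul_zero]

/-- the multiplicity of a point of the disc is the multiplicity of its `τ`-coordinate. -/
theorem count_rootsOf_tauVal {E : Divisor Ω 𝔽} (h : X.InDisc E) {P : Place Ω 𝔽}
    (hP : X.r P = X.cuspb) : Multiset.count (X.tauVal P) (X.rootsOf E) = (E P).toNat := by
  rw [X.count_rootsOf]
  by_cases hPs : P ∈ E.support
  · rw [Finset.sum_eq_single P]
    · rw [if_pos rfl]
    · intro P' hP' hne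
      rw [if_neg]
      intro heq
      exact hne (X.tauVal_injOn (h.2 P' hP') hP heq)
    · intro hn; exact absurd hPs hn
  · rw [Finsupp.notMem_support_iff.mp hPs]
    refine Finset.sum_eq_zero fun P' hP' => ?_
    rw [if_neg]
    · intro heq
      exact hPs ((X.tauVal_injOn (h.2 P' hP') hP heq) ▸ hP')

/-- **injectivity**: an effective divisor in the disc is determined by its polynomial. -/
theorem eq_of_polyOf_eq {E E' : Divisor Ω 𝔽} (h : X.InDisc E) (h' : X.InDisc E')
    (heq : X.polyOf E = X.polyOf E') : E = E' := by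
  have hroots : X.rootsOf E = X.rootsOf E' := by
    rw [← X.roots_polyOf, ← X.roots_polyOf, heq]
  ext P
  by_cases hP : X.r P = X.cuspb
  · have h1 := X.count_rootsOf_tauVal h hP
    have h2 := X.count_rootsOf_tauVal h' hP
    rw [hroots] at h1
    have h3 : (E P).toNat = (E' P).toNat := h1.symm.trans h2
    have := h.1 P
    have := h'.1 P
    omega
  · have h1 : E P = 0 := by
      by_contra h0
      exact hP (h.2 P (Finsupp.mem_support_iff.mpr h0))
    have h2 : E' P = 0 := by
      by_contra h0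
      exact hP (h'.2 P (Finsupp.mem_support_iff.mpr h0))
    rw [h1, h2]

theorem rootsOf_add {E E' : Divisor Ω 𝔽} (h : X.InDisc E) (h' : X.InDisc E') :
    X.rootsOf (E + E') = X.rootsOf E + X.rootsOf E' := by
  ext a
  rw [Multiset.count_add, X.count_rootsOf, X.count_rootsOf, X.count_rootsOf]
  have hsub : (E + E').support ⊆ E.support ∪ E'.support := Finsupp.support_add
  have e1 : ∀ (D : Divisor Ω 𝔽) (S : Finset (Place Ω 𝔽)), D.support ⊆ S →
      (∑ P ∈ D.support, if X.tauVal P = a then (D P).toNat else 0)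
        = ∑ P ∈ S, if X.tauVal P = a then (D P).toNat else 0 := by
    intro D S hS
    refine Finset.sum_subset hS fun P _ hP => ?_
    rw [Finsupp.notMem_support_iff.mp hP]
    simp
  rw [e1 (E + E') _ hsub, e1 E _ Finset.subset_union_left, e1 E' _ Finset.subset_union_right,
    ← Finset.sum_add_distrib]
  refine Finset.sum_congr rfl fun P _ => ?_
  split_ifs
  · rw [Finsupp.add_apply, Int.toNat_add (h.1 P) (h'.1 P)]
  · rfl

/-- **multiplicativity**. -/
theorem polyOf_add {E E' : Divisor Ω 𝔽} (h : X.InDisc E) (h' : X.InDisc E') :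
    X.polyOf (E + E') = X.polyOf E * X.polyOf E' := by
  unfold polyOf
  rw [X.rootsOf_add h h', Multiset.map_add, Multiset.prod_add]

theorem mem_nonunits_of_mem_rootsOf {E : Divisor Ω 𝔽} (h : X.InDisc E) {a : Ω}
    (ha : a ∈ X.rootsOf E) : a ∈ A.nonunits := by
  have hc : 0 < Multiset.count a (X.rootsOf E) := Multiset.count_pos.mpr ha
  rw [X.count_rootsOf] at hc
  obtain ⟨P, hP, hpos⟩ := Finset.exists_ne_zero_of_sum_ne_zero (ne_of_gt hc)
  split_ifs at hpos with heq
  · rw [← heq]
    exact X.tauVal_mem_nonunits (h.2 P hP)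
  · exact absurd rfl hpos

theorem rootsOf_zero : X.rootsOf 0 = 0 := by
  unfold rootsOf
  simp

theorem polyOf_zero : X.polyOf 0 = 1 := by
  unfold polyOf
  rw [X.rootsOf_zero]
  simp

theorem inDisc_single {P : Place Ω 𝔽} (hP : X.r P = X.cuspb) (n : ℕ) :
    X.InDisc (Finsupp.single P (n : ℤ)) := by
  refine ⟨fun Q => ?_, fun Q hQ => ?_⟩
  · rw [Finsupp.single_apply]
    split_ifs
    · exact Int.natCast_nonneg n
    · exact le_refl 0
  · have := Finsupp.support_single_subset hQ
    rw [Finset.mem_singleton] at this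
    rw [this]
    exact hP

theorem rootsOf_single (P : Place Ω 𝔽) (n : ℕ) :
    X.rootsOf (Finsupp.single P (n : ℤ)) = n • ({X.tauVal P} : Multiset Ω) := by
  unfold rootsOf
  by_cases hn : n = 0
  · subst hn
    simp
  · rw [Finsupp.support_single_ne_zero _ (by exact_mod_cast hn), Finset.sum_singleton,
      Finsupp.single_eq_same, Int.toNat_natCast]

/-- every multiset of elements of `𝔪_A` is the multiset of `τ`-coordinates of an effective
divisor in the disc. -/
theorem exists_inDisc_rootsOf (s : Multiset Ω) (hs : ∀ a ∈ s, a ∈ A.nonunits) :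
    ∃ E : Divisor Ω 𝔽, X.InDisc E ∧ X.rootsOf E = s := by
  induction s using Multiset.induction_on with
  | empty => exact ⟨0, X.inDisc_zero, X.rootsOf_zero⟩
  | cons a s ih =>
    obtain ⟨E, hE, hEs⟩ := ih fun b hb => hs b (Multiset.mem_cons_of_mem hb)
    obtain ⟨P, ⟨hP, hPa⟩, -⟩ := X.existsUnique_τ_eq (hs a (Multiset.mem_cons_self a s))
    refine ⟨Finsupp.single P ((1 : ℕ) : ℤ) + E, InDisc.add X (X.inDisc_single hP 1) hE, ?_⟩
    rw [X.rootsOf_add (X.inDisc_single hP 1) hE, X.rootsOf_single, hEs, one_smul,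
      show X.tauVal P = a from hPa.valueAt_eq, Multiset.singleton_add]

end GoodRed

/-! ### distinguished polynomials -/

section Dist

variable {Ω : Type*} [Field Ω] (A : ValuationSubring Ω)

/-- a *distinguished* polynomial: monic with all lower coefficients in `𝔪_A`. -/
def IsDist (p : Polynomial Ω) : Prop := p.Monic ∧ ∀ j < p.natDegree, p.coeff j ∈ A.nonunits

variable {A}

theorem add_mem_nonunits {x y : Ω} (hx : x ∈ A.nonunits) (hy : y ∈ A.nonunits) :
    x + y ∈ A.nonunits := by
  rw [ValuationSubring.mem_nonunits_iff] at *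
  exact lt_of_le_of_lt (A.valuation.map_add x y) (max_lt hx hy)

theorem neg_mem_nonunits {x : Ω} (hx : x ∈ A.nonunits) : -x ∈ A.nonunits := by
  rw [ValuationSubring.mem_nonunits_iff] at *
  rwa [Valuation.map_neg]

theorem sub_mem_nonunits {x y : Ω} (hx : x ∈ A.nonunits) (hy : y ∈ A.nonunits) :
    x - y ∈ A.nonunits := by
  rw [sub_eq_add_neg]
  exact add_mem_nonunits hx (neg_mem_nonunits hy)

theorem mul_mem_nonunits_left {x y : Ω} (hx : x ∈ A.nonunits) (hy : y ∈ A) :
    x * y ∈ A.nonunits := by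
  rw [ValuationSubring.mem_nonunits_iff] at *
  rw [← ValuationSubring.valuation_le_one_iff] at hy
  rw [map_mul]
  calc A.valuation x * A.valuation y ≤ A.valuation x * 1 := mul_le_mul_right hy _
    _ = A.valuation x := mul_one _
    _ < 1 := hx

theorem mul_mem_nonunits_right {x y : Ω} (hx : x ∈ A) (hy : y ∈ A.nonunits) :
    x * y ∈ A.nonunits := by
  rw [mul_comm]
  exact mul_mem_nonunits_left hy hx

theorem zero_mem_nonunits : (0 : Ω) ∈ A.nonunits := by
  rw [ValuationSubring.mem_nonunits_iff, map_zero]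
  exact zero_lt_one

theorem mem_of_mem_nonunits {x : Ω} (hx : x ∈ A.nonunits) : x ∈ A := by
  rw [ValuationSubring.mem_nonunits_iff] at hx
  rw [← ValuationSubring.valuation_le_one_iff]
  exact hx.le

theorem IsDist.coeff_mem {p : Polynomial Ω} (hp : IsDist A p) (j : ℕ) : p.coeff j ∈ A := by
  rcases lt_trichotomy j p.natDegree with h | h | h
  · exact mem_of_mem_nonunits (hp.2 j h)
  · rw [h, hp.1.coeff_natDegree]
    exact A.one_mem
  · rw [Polynomial.coeff_eq_zero_of_natDegree_lt h]
    exact A.zero_mem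

theorem isDist_one : IsDist A (1 : Polynomial Ω) :=
  ⟨Polynomial.monic_one, fun j hj => by simp at hj⟩

theorem isDist_X_sub_C {a : Ω} (ha : a ∈ A.nonunits) :
    IsDist A (Polynomial.X - Polynomial.C a) := by
  refine ⟨Polynomial.monic_X_sub_C a, fun j hj => ?_⟩
  rw [Polynomial.natDegree_X_sub_C] at hj
  obtain rfl : j = 0 := by omega
  simp only [Polynomial.coeff_sub, Polynomial.coeff_X_zero, Polynomial.coeff_C_zero, zero_sub]
  exact neg_mem_nonunits ha

theorem IsDist.mul {p q : Polynomial Ω} (hp : IsDist A p) (hq : IsDist A q) :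
    IsDist A (p * q) := by
  refine ⟨hp.1.mul hq.1, fun j hj => ?_⟩
  rw [hp.1.natDegree_mul hq.1] at hj
  rw [Polynomial.coeff_mul]
  have key : ∀ x ∈ Finset.HasAntidiagonal.antidiagonal j,
      p.coeff x.1 * q.coeff x.2 ∈ A.nonunits := by
    intro x hx
    rw [Finset.HasAntidiagonal.mem_antidiagonal] at hx
    by_cases h1 : x.1 < p.natDegree
    · exact mul_mem_nonunits_left (hp.2 _ h1) (hq.coeff_mem _)
    · have h2 : x.2 < q.natDegree := by omega
      exact mul_mem_nonunits_right (hp.coeff_mem _) (hq.2 _ h2)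
  have sum_mem : ∀ (s : Finset (ℕ × ℕ)), (∀ x ∈ s, p.coeff x.1 * q.coeff x.2 ∈ A.nonunits) →
      ∑ x ∈ s, p.coeff x.1 * q.coeff x.2 ∈ A.nonunits := by
    intro s
    induction s using Finset.induction_on with
    | empty => intro _; rw [Finset.sum_empty]; exact zero_mem_nonunits
    | insert a s ha ih =>
      intro h
      rw [Finset.sum_insert ha]
      exact add_mem_nonunits (h a (Finset.mem_insert_self a s))
        (ih fun x hx => h x (Finset.mem_insert_of_mem hx))
  exact sum_mem _ key

theorem isDist_multiset_prod (s : Multiset Ω) (hs : ∀ a ∈ s, a ∈ A.nonunits) :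
    IsDist A ((s.map fun a => Polynomial.X - Polynomial.C a).prod) := by
  induction s using Multiset.induction_on with
  | empty => simpa using isDist_one
  | cons a s ih =>
    rw [Multiset.map_cons, Multiset.prod_cons]
    exact (isDist_X_sub_C (hs a (Multiset.mem_cons_self a s))).mul
      (ih fun b hb => hs b (Multiset.mem_cons_of_mem hb))

/-- the roots of a distinguished polynomial lie in `𝔪_A`. -/
theorem IsDist.root_mem_nonunits {p : Polynomial Ω} (hp : IsDist A p) {a : Ω}
    (ha : p.IsRoot a) : a ∈ A.nonunits := by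
  by_contra hna
  rw [ValuationSubring.mem_nonunits_iff, not_lt] at hna
  have ha0 : a ≠ 0 := by
    rintro rfl
    rw [map_zero] at hna
    exact absurd hna (not_le.mpr zero_lt_one)
  have hva : A.valuation a ≠ 0 := (Valuation.ne_zero_iff _).mpr ha0
  have heval : p.eval a = ∑ j ∈ Finset.range p.natDegree, p.coeff j * a ^ j + a ^ p.natDegree := by
    rw [Polynomial.eval_eq_sum_range, Finset.sum_range_succ, hp.1.coeff_natDegree, one_mul]
  have hlt : A.valuation (∑ j ∈ Finset.range p.natDegree, p.coeff j * a ^ j)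
      < A.valuation (a ^ p.natDegree) := by
    refine Valuation.map_sum_lt _ ?_ fun j hj => ?_
    · rw [map_pow]
      exact pow_ne_zero _ hva
    · rw [Finset.mem_range] at hj
      have h1 := hp.2 j hj
      rw [ValuationSubring.mem_nonunits_iff] at h1
      rw [map_mul, map_pow, map_pow]
      calc A.valuation (p.coeff j) * A.valuation a ^ j
          < 1 * A.valuation a ^ j := by
            exact mul_lt_mul_of_pos_right h1 (pow_pos (zero_lt_iff.mpr hva) j)
        _ = A.valuation a ^ j := one_mul _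
        _ ≤ A.valuation a ^ p.natDegree := pow_le_pow_right₀ hna hj.le
  have h0 : A.valuation (p.eval a) = A.valuation (a ^ p.natDegree) := by
    rw [heval]
    exact Valuation.map_add_eq_of_lt_right _ hlt
  rw [ha, map_zero, map_pow] at h0
  exact pow_ne_zero _ hva h0.symm

end Dist

namespace GoodRed

variable {Ω : Type*} [Field Ω] {A : ValuationSubring Ω} {𝔽 : Type*} [Field 𝔽] [Algebra Ω 𝔽]
  {𝔽b : Type*} [Field 𝔽b] [Algebra (ResidueField ↥A) 𝔽b] (X : GoodRed Ω A 𝔽 𝔽b)

/-- the polynomial of an effective divisor in the disc is distinguished. -/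
theorem isDist_polyOf {E : Divisor Ω 𝔽} (h : X.InDisc E) : IsDist A (X.polyOf E) :=
  isDist_multiset_prod _ fun _ ha => X.mem_nonunits_of_mem_rootsOf h ha

/-- **surjectivity**: over an algebraically closed field, every distinguished polynomial is the
polynomial of a (unique) effective divisor in the disc. -/
theorem existsUnique_polyOf_eq [IsAlgClosed Ω] {p : Polynomial Ω} (hp : IsDist A p) :
    ∃! E : Divisor Ω 𝔽, X.InDisc E ∧ X.polyOf E = p := by
  obtain ⟨E, hE, hEs⟩ := X.exists_inDisc_rootsOf p.roots fun a ha =>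
    hp.root_mem_nonunits (Polynomial.isRoot_of_mem_roots ha)
  have hpE : X.polyOf E = p := by
    unfold polyOf
    rw [hEs]
    exact ((IsAlgClosed.splits p).eq_prod_roots_of_monic hp.1).symm
  exact ⟨E, ⟨hE, hpE⟩, fun E' hE' => X.eq_of_polyOf_eq hE'.1 hE (hE'.2.trans hpE.symm)⟩

end GoodRed

end Fermat.Agent.FG

end
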