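/-
FG — helper2 — [AUT]: equivariance of the chart of the residue disc of the base point under the
automorphisms of the good-reduction datum (`GoodRed.IsAut`):
`𝔪_A` is stable, the disc of the base point is stable, `τ(g • P) = g(τ(P))`,
`InDisc` is stable and `polyOf (g • E) = (polyOf E)^g`.
-/
import Mathlib
import Fermat.Agent.FG.LAT_helper5_Poly

set_option autoImplicit false
set_option linter.unusedSectionVars false
set_option linter.style.haveILetI false

noncomputable section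

namespace Fermat.Agent.FG

open AlgebraicCurve IsLocalRing IntermediateField Fermat.Agent.FF Fermat.Agent.JA
open scoped Classical

namespace GoodRed

variable {Ω : Type*} [Field Ω] {A : ValuationSubring Ω} {𝔽 : Type*} [Field 𝔽] [Algebra Ω 𝔽]
  {𝔽b : Type*} [Field 𝔽b] [Algebra (ResidueField ↥A) 𝔽b] (X : GoodRed Ω A 𝔽 𝔽b)

/-- the inverse of an automorphism of the datum preserves `A`. -/
theorem IsAut.symm_base_mem (g : SemilinearAut Ω 𝔽) (hg : X.IsAut g) (a : Ω) :
    (SemilinearAut.baseAut g).symm a ∈ A ↔ a ∈ A := by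
  rw [← hg.base_mem ((SemilinearAut.baseAut g).symm a), RingEquiv.apply_symm_apply]

/-- **`𝔪_A` is stable** under the automorphisms of the datum. -/
theorem IsAut.baseAut_mem_nonunits (g : SemilinearAut Ω 𝔽) (hg : X.IsAut g) {a : Ω}
    (ha : a ∈ A.nonunits) : SemilinearAut.baseAut g a ∈ A.nonunits := by
  have key : ∀ x : Ω, x ∈ A.nonunits ↔ x ∈ A ∧ (x = 0 ∨ x⁻¹ ∉ A) := by
    intro x
    rw [ValuationSubring.mem_nonunits_iff]
    constructor
    · intro hx
      refine ⟨(A.valuation_le_one_iff x).mp hx.le, ?_⟩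
      by_cases h0 : x = 0
      · exact Or.inl h0
      · right
        intro hinv
        have h1 : A.valuation x⁻¹ ≤ 1 := (A.valuation_le_one_iff _).mpr hinv
        rw [map_inv₀] at h1
        have hv0 : A.valuation x ≠ 0 := (Valuation.ne_zero_iff _).mpr h0
        have h2 : 1 ≤ A.valuation x := by
          rwa [inv_le_one₀ (zero_lt_iff.mpr hv0)] at h1
        exact absurd hx (not_lt.mpr h2)
    · rintro ⟨hxA, h0 | hinv⟩
      · rw [h0, map_zero]; exact zero_lt_one
      · by_contra hlt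
        rw [not_lt] at hlt
        apply hinv
        rw [← A.valuation_le_one_iff, map_inv₀]
        exact inv_le_one_of_one_le₀ hlt
  rw [key] at ha ⊢
  refine ⟨(hg.base_mem a).mpr ha.1, ?_⟩
  rcases ha.2 with h0 | hinv
  · left; rw [h0, map_zero]
  · right
    rw [← map_inv₀, hg.base_mem]
    exact hinv

/-- **the disc of the base point is stable** under the automorphisms of the datum. -/
theorem IsAut.r_smul_cuspb (g : SemilinearAut Ω 𝔽) (hg : X.IsAut g) {P : Place Ω 𝔽}
    (hP : X.r P = X.cuspb) : X.r (g • P) = X.cuspb := by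
  apply Place.ext
  ext z
  obtain ⟨w, rfl⟩ := X.ρ_surjective z
  have hf : g⁻¹ • (w : 𝔽) ∈ X.W := by
    rw [← hg.smul_mem, smul_inv_smul]; exact w.2
  have hgf : g • ((⟨g⁻¹ • (w : 𝔽), hf⟩ : ↥X.W) : 𝔽) ∈ X.W := by
    show g • (g⁻¹ • (w : 𝔽)) ∈ X.W
    rw [smul_inv_smul]; exact w.2
  have hw : (⟨g • ((⟨g⁻¹ • (w : 𝔽), hf⟩ : ↥X.W) : 𝔽), hgf⟩ : ↥X.W) = w := by
    apply Subtype.ext
    show g • (g⁻¹ • (w : 𝔽)) = (w : 𝔽)
    rw [smul_inv_smul]
  have h1 := hg.r_smul P ⟨g⁻¹ • (w : 𝔽), hf⟩ hgf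
  have h2 := hg.r_smul X.cusp ⟨g⁻¹ • (w : 𝔽), hf⟩ hgf
  rw [hw] at h1 h2
  rw [hg.smul_cusp] at h2
  rw [hP] at h1
  change X.ρ w ∈ (X.r (g • P)).toValuationSubring ↔ X.ρ w ∈ X.cuspb.toValuationSubring
  rw [h1]
  exact h2.symm

/-- the converse: a point whose translate lies in the disc of the base point lies in it. -/
theorem IsAut.r_eq_cuspb_of_smul (g : SemilinearAut Ω 𝔽) (hg : X.IsAut g) {P : Place Ω 𝔽}
    (hP : X.r (g • P) = X.cuspb) : X.r P = X.cuspb := by
  apply Place.ext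
  ext z
  obtain ⟨w, rfl⟩ := X.ρ_surjective z
  have hgf : g • (w : 𝔽) ∈ X.W := (hg.smul_mem _).mpr w.2
  have h1 := hg.r_smul P w hgf
  have h2 := hg.r_smul X.cusp w hgf
  rw [hg.smul_cusp] at h2
  rw [hP] at h1
  change X.ρ w ∈ (X.r P).toValuationSubring ↔ X.ρ w ∈ X.cuspb.toValuationSubring
  rw [← h1]
  exact h2

theorem IsAut.r_smul_cuspb_iff (g : SemilinearAut Ω 𝔽) (hg : X.IsAut g) {P : Place Ω 𝔽} :
    X.r (g • P) = X.cuspb ↔ X.r P = X.cuspb :=
  ⟨IsAut.r_eq_cuspb_of_smul X g hg, IsAut.r_smul_cuspb X g hg⟩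

/-- **equivariance of the `τ`-coordinate**. -/
theorem IsAut.tauVal_smul (g : SemilinearAut Ω 𝔽) (hg : X.IsAut g) {P : Place Ω 𝔽}
    (hP : X.r P = X.cuspb) :
    X.tauVal (g • P) = SemilinearAut.baseAut g (X.tauVal P) := by
  have h := (X.hasValueAt_tauVal hP).smul g
  rw [hg.smul_τ] at h
  exact h.valueAt_eq

/-- **`InDisc` is stable**. -/
theorem IsAut.inDisc_smul (g : SemilinearAut Ω 𝔽) (hg : X.IsAut g) {E : Divisor Ω 𝔽}
    (hE : X.InDisc E) : X.InDisc (g • E) := by
  refine ⟨fun P => ?_, fun P hP => ?_⟩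
  · rw [SemilinearAut.divisor_smul_apply]
    exact hE.1 _
  · rw [Finsupp.mem_support_iff, SemilinearAut.divisor_smul_apply] at hP
    have h1 : X.r (g⁻¹ • P) = X.cuspb := hE.2 _ (Finsupp.mem_support_iff.mpr hP)
    have h2 := IsAut.r_smul_cuspb X g hg h1
    rwa [smul_inv_smul] at h2

/-- the multiset of `τ`-coordinates of a translated divisor. -/
theorem IsAut.rootsOf_smul (g : SemilinearAut Ω 𝔽) (hg : X.IsAut g) {E : Divisor Ω 𝔽}
    (hE : X.InDisc E) :
    X.rootsOf (g • E) = (X.rootsOf E).map (SemilinearAut.baseAut g) := by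
  have hsupp : (g • E).support = E.support.map ⟨(g • ·), MulAction.injective g⟩ := by
    ext P
    rw [Finsupp.mem_support_iff, SemilinearAut.divisor_smul_apply, Finset.mem_map]
    constructor
    · intro h
      exact ⟨g⁻¹ • P, Finsupp.mem_support_iff.mpr h, smul_inv_smul g P⟩
    · rintro ⟨Q, hQ, rfl⟩
      show E (g⁻¹ • g • Q) ≠ 0
      rw [inv_smul_smul]
      exact Finsupp.mem_support_iff.mp hQ
  unfold rootsOf
  rw [hsupp, Finset.sum_map]
  have hmap : ∀ (s : Finset (Place Ω 𝔽)) (F : Place Ω 𝔽 → Multiset Ω),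
      (∑ P ∈ s, F P).map (SemilinearAut.baseAut g) = ∑ P ∈ s, (F P).map (SemilinearAut.baseAut g) :=
    fun s F => map_sum (Multiset.mapAddMonoidHom (SemilinearAut.baseAut g)) F s
  rw [hmap]
  refine Finset.sum_congr rfl fun P hPs => ?_
  show ((g • E) (g • P)).toNat • ({X.tauVal (g • P)} : Multiset Ω) = _
  rw [SemilinearAut.divisor_smul_apply_smul, IsAut.tauVal_smul X g hg (hE.2 P hPs), Multiset.map_nsmul,
    Multiset.map_singleton]

/-- **equivariance of the polynomial of a divisor in the disc**. -/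
theorem IsAut.polyOf_smul (g : SemilinearAut Ω 𝔽) (hg : X.IsAut g) {E : Divisor Ω 𝔽}
    (hE : X.InDisc E) :
    X.polyOf (g • E) = (X.polyOf E).map (SemilinearAut.baseAut g : Ω →+* Ω) := by
  unfold polyOf
  rw [IsAut.rootsOf_smul X g hg hE, Polynomial.map_multiset_prod, Multiset.map_map, Multiset.map_map]
  refine congrArg Multiset.prod (Multiset.map_congr rfl fun a _ => ?_)
  simp [Polynomial.map_sub, Polynomial.map_X, Polynomial.map_C]

end GoodRed

end Fermat.Agent.FG

end
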