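/-
FG — helper5 — [LAT-B] (N2): lifting of sections.  For a divisor `D` of degree `≥ 2g - 1` on the
generic fibre, every element of `L̄(r_* D)` is the reduction of an element of `L(D) ∩ W`.
-/
import Mathlib
import Fermat.Agent.FG.LAT_helper5_Basis

set_option autoImplicit false
set_option linter.unusedSectionVars false
set_option linter.style.haveILetI false

noncomputable section

namespace Fermat.Agent.FG

open AlgebraicCurve IsLocalRing IntermediateField Fermat.Agent.FF Fermat.Agent.JA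
open scoped Classical

namespace GoodRed

variable {Ω : Type*} [Field Ω] {A : ValuationSubring Ω} {𝔽 : Type*} [Field 𝔽] [Algebra Ω 𝔽]
  {𝔽b : Type*} [Field 𝔽b] [Algebra (ResidueField ↥A) 𝔽b] (X : GoodRed Ω A 𝔽 𝔽b)

/-- reduction of divisors preserves effectivity. -/
theorem redDiv_nonneg {E : Divisor Ω 𝔽} (hE : ∀ P, 0 ≤ E P) (Q : Place (ResidueField ↥A) 𝔽b) :
    0 ≤ X.redDiv E Q := by
  rw [X.redDiv_apply_eq_sum]
  exact Finset.sum_nonneg fun P _ => hE P

/-- the reduction of an integral element of `L(D)` lies in `L̄(r_* D)`. -/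
theorem ρ_mem_riemannRochSpace (D : Divisor Ω 𝔽) (f : ↥X.W)
    (hf : (f : 𝔽) ∈ riemannRochSpace (K := Ω) D) :
    X.ρ f ∈ riemannRochSpace (K := ResidueField ↥A) (X.redDiv D) := by
  rw [mem_riemannRochSpace_iff]
  intro Q
  by_cases h0 : X.ρ f = 0
  · exact Or.inl h0
  right
  have hf0 : (f : 𝔽) ≠ 0 := X.ρ_ne_zero_imp_ne_zero f.2 h0
  obtain ⟨E, hE⟩ := X.exists_div (f : 𝔽) hf0
  have h1 : Q.ord (X.ρ f) = X.redDiv E Q := by
    rw [redDiv_apply]
    exact (X.r_div f h0 E hE Q).symm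
  have h2 : 0 ≤ X.redDiv (E + D) Q := X.redDiv_nonneg (fun P => by
    rw [Finsupp.add_apply, hE P]
    have := (mem_riemannRochSpace_iff.mp hf P).resolve_left hf0
    omega) Q
  rw [map_add, Finsupp.add_apply] at h2
  rw [h1]
  omega

/-- **cartesian bases**: every subspace `V` of `L(m∞)` has a basis of integral functions whose
reductions are linearly independent. -/
theorem exists_cartesian_basis (m : ℕ) (V : Submodule Ω ↥(poleSpace X.cusp m)) :
    ∃ (r : ℕ) (f : Fin r → ↥(poleSpace X.cusp m)) (hfW : ∀ i, ((f i : 𝔽)) ∈ X.W),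
      (∀ i, f i ∈ V) ∧ LinearIndependent Ω f ∧ Submodule.span Ω (Set.range f) = V ∧
      LinearIndependent (ResidueField ↥A) (fun i => X.redPole (f i) (hfW i)) := by
  obtain ⟨r, v, hvLI, hvspan, -, hvres⟩ :=
    exists_integral_basis A (Submodule.map (X.pp m) V)
  have hvmem : ∀ i, (fun j => (v i j : Ω)) ∈ Submodule.map (X.pp m) V := fun i => by
    rw [← hvspan]
    exact Submodule.subset_span ⟨i, rfl⟩
  choose f hfV hf using hvmem
  have hfW : ∀ i, ((f i : 𝔽)) ∈ X.W := fun i =>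
    X.mem_W_of_pp_mem (f i) fun j => by rw [hf i]; exact (v i j).2
  have hfLI : LinearIndependent Ω f := by
    have h1 : (X.pp m) ∘ f = fun i j => (v i j : Ω) := funext hf
    exact LinearIndependent.of_comp (X.pp m) (h1 ▸ hvLI)
  have hfspan : Submodule.span Ω (Set.range f) = V := by
    have h1 : Submodule.map (X.pp m) (Submodule.span Ω (Set.range f))
        = Submodule.map (X.pp m) V := by
      rw [Submodule.map_span, ← hvspan, ← Set.range_comp]
      congr 2
      exact funext hf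
    exact Submodule.map_injective_of_injective (X.pp_injective m) h1
  have hred : ∀ i j, X.ppb m (X.redPole (f i) (hfW i)) j = residue ↥A (v i j) := fun i j => by
    have hmem : X.pp m (f i) j ∈ A := by rw [hf i]; exact (v i j).2
    rw [X.ppb_redPole (f i) (hfW i) j hmem]
    congr 1
    exact Subtype.ext (congrFun (hf i) j)
  have hbLI : LinearIndependent (ResidueField ↥A) (fun i => X.redPole (f i) (hfW i)) := by
    have h1 : (X.ppb m) ∘ (fun i => X.redPole (f i) (hfW i))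
        = fun i j => residue ↥A (v i j) := funext fun i => funext (hred i)
    exact LinearIndependent.of_comp (X.ppb m) (h1 ▸ hvres)
  exact ⟨r, f, hfW, hfV, hfLI, hfspan, hbLI⟩

end GoodRed

end Fermat.Agent.FG

end

noncomputable section

namespace Fermat.Agent.FG

open AlgebraicCurve IsLocalRing IntermediateField Fermat.Agent.FF Fermat.Agent.JA
open scoped Classical

theorem mul_mem_riemannRochSpace {K F : Type*} [Field K] [Field F] [Algebra K F]
    {D D' : Divisor K F} {f g : F} (hf : f ∈ riemannRochSpace (K := K) D)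
    (hg : g ∈ riemannRochSpace (K := K) D') : f * g ∈ riemannRochSpace (K := K) (D + D') := by
  rw [mem_riemannRochSpace_iff] at hf hg ⊢
  intro v
  by_cases hf0 : f = 0
  · left; rw [hf0, zero_mul]
  by_cases hg0 : g = 0
  · left; rw [hg0, mul_zero]
  right
  rw [v.ord_mul hf0 hg0, Finsupp.add_apply]
  have h1 := (hf v).resolve_left hf0
  have h2 := (hg v).resolve_left hg0
  omega

namespace GoodRed

variable {Ω : Type*} [Field Ω] {A : ValuationSubring Ω} {𝔽 : Type*} [Field 𝔽] [Algebra Ω 𝔽]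
  {𝔽b : Type*} [Field 𝔽b] [Algebra (ResidueField ↥A) 𝔽b] (X : GoodRed Ω A 𝔽 𝔽b)

/-- **(N2) lifting of sections.** -/
theorem exists_lift_section (D : Divisor Ω 𝔽) (hD : 2 * (X.g : ℤ) - 1 ≤ Divisor.degree D)
    (gb : 𝔽b) (hgb : gb ∈ riemannRochSpace (K := ResidueField ↥A) (X.redDiv D)) :
    ∃ f : ↥X.W, (f : 𝔽) ∈ riemannRochSpace (K := Ω) D ∧ X.ρ f = gb := by
  -- Step A: an auxiliary function `u ∈ L(m∞ - D)`
  set m : ℕ := (Divisor.degree D + X.g).toNat with hm
  have hmdeg : Divisor.degree D + X.g ≤ (m : ℤ) := by rw [hm]; exact Int.self_le_toNat _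
  set D₁ : Divisor Ω 𝔽 := Finsupp.single X.cusp (m : ℤ) - D with hD₁
  have hdegD₁ : Divisor.degree D₁ = (m : ℤ) - Divisor.degree D := by
    rw [hD₁, map_sub, X.degree_single_cusp]
  obtain ⟨hfinD₁, hrD₁⟩ := X.riemann_gen D₁
  haveI := hfinD₁
  have hpos : 0 < Module.finrank Ω ↥(riemannRochSpace (K := Ω) D₁) := by
    have : (0 : ℤ) < (Module.finrank Ω ↥(riemannRochSpace (K := Ω) D₁) : ℤ) := by
      rw [hdegD₁] at hrD₁
      omega
    exact_mod_cast this
  obtain ⟨u₀, hu₀⟩ := Module.finrank_pos_iff_exists_ne_zero.mp hpos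
  have hu₀' : (u₀ : 𝔽) ≠ 0 := fun h => hu₀ (Subtype.ext h)
  -- Step B: normalise to a Gauss unit
  obtain ⟨a, ha, hu1, hu2⟩ := X.exists_smul_unit (u₀ : 𝔽) hu₀'
  set u : 𝔽 := a • (u₀ : 𝔽) with hu
  have hu0 : u ≠ 0 := smul_ne_zero ha hu₀'
  have huD₁ : u ∈ riemannRochSpace (K := Ω) D₁ := Submodule.smul_mem _ a u₀.2
  have hρu : X.ρ ⟨u, hu1⟩ ≠ 0 := X.ρ_ne_zero_of_inv_mem hu1 hu2 hu0
  -- Step C: multiplication by `u`
  have hDD₁ : D + D₁ = Finsupp.single X.cusp (m : ℤ) := by rw [hD₁]; abel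
  let μ : ↥(riemannRochSpace (K := Ω) D) →ₗ[Ω] ↥(poleSpace X.cusp m) :=
    { toFun := fun f => ⟨(f : 𝔽) * u, by
        have := mul_mem_riemannRochSpace f.2 huD₁
        rwa [hDD₁] at this⟩
      map_add' := fun f g => Subtype.ext (by simp [add_mul])
      map_smul' := fun c f => Subtype.ext (by simp [smul_mul_assoc]) }
  have hμinj : Function.Injective μ := by
    intro f g hfg
    have h1 : (f : 𝔽) * u = (g : 𝔽) * u := congrArg Subtype.val hfg
    exact Subtype.ext (mul_right_cancel₀ hu0 h1)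
  -- Step D: a cartesian basis of the image
  obtain ⟨r, f, hfW, hfV, hfLI, hfspan, hbLI⟩ := X.exists_cartesian_basis m (LinearMap.range μ)
  choose g hg using hfV
  have hgW : ∀ i, ((g i : 𝔽)) ∈ X.W := fun i => by
    have h1 : (g i : 𝔽) = (f i : 𝔽) * u⁻¹ := by
      have : (f i : 𝔽) = (g i : 𝔽) * u := (congrArg Subtype.val (hg i)).symm
      rw [this, mul_assoc, mul_inv_cancel₀ hu0, mul_one]
    rw [h1]
    exact X.W.mul_mem _ _ (hfW i) hu2
  -- the rank
  obtain ⟨hfinD, hrD⟩ := X.riemann_gen D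
  haveI := hfinD
  have hr : r = Module.finrank Ω ↥(riemannRochSpace (K := Ω) D) := by
    have h1 := finrank_span_eq_card hfLI
    rw [hfspan, Fintype.card_fin, LinearMap.finrank_range_of_inj hμinj] at h1
    exact h1.symm
  -- the reductions `ρ (g i)` are linearly independent elements of `L̄(r_* D)`
  have hρg : ∀ i, X.ρ ⟨(g i : 𝔽), hgW i⟩ ∈ riemannRochSpace (K := ResidueField ↥A) (X.redDiv D) :=
    fun i => X.ρ_mem_riemannRochSpace D ⟨_, hgW i⟩ (g i).2
  have hρfg : ∀ i, X.ρ ⟨(f i : 𝔽), hfW i⟩ = X.ρ ⟨(g i : 𝔽), hgW i⟩ * X.ρ ⟨u, hu1⟩ := fun i => by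
    rw [← map_mul]
    congr 1
    apply Subtype.ext
    exact (congrArg Subtype.val (hg i)).symm
  have hLI : LinearIndependent (ResidueField ↥A)
      (fun i => (⟨X.ρ ⟨(g i : 𝔽), hgW i⟩, hρg i⟩ :
        ↥(riemannRochSpace (K := ResidueField ↥A) (X.redDiv D)))) := by
    rw [Fintype.linearIndependent_iff]
    intro c hc
    have h1 : ∑ i, c i • X.redPole (f i) (hfW i) = 0 := by
      apply Subtype.ext
      rw [Submodule.coe_sum, Submodule.coe_zero]
      have h2 : ∑ i, c i • X.ρ ⟨(g i : 𝔽), hgW i⟩ = 0 := by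
        have := congrArg Subtype.val hc
        rwa [Submodule.coe_sum] at this
      calc ∑ i, ((c i • X.redPole (f i) (hfW i) : ↥(poleSpace X.cuspb m)) : 𝔽b)
          = ∑ i, (c i • X.ρ ⟨(g i : 𝔽), hgW i⟩) * X.ρ ⟨u, hu1⟩ := by
            refine Finset.sum_congr rfl fun i _ => ?_
            rw [Submodule.coe_smul, X.coe_redPole, hρfg i, smul_mul_assoc]
        _ = (∑ i, c i • X.ρ ⟨(g i : 𝔽), hgW i⟩) * X.ρ ⟨u, hu1⟩ := by rw [Finset.sum_mul]
        _ = 0 := by rw [h2, zero_mul]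
    exact Fintype.linearIndependent_iff.mp hbLI c h1
  -- dimension count
  have hdegred : 2 * (X.g : ℤ) - 1 ≤ Divisor.degree (X.redDiv D) := by rwa [X.degree_redDiv]
  obtain ⟨hfinb, hrb⟩ := X.rr_red (X.redDiv D) hdegred
  haveI := hfinb
  rw [X.degree_redDiv] at hrb
  have hcard : Fintype.card (Fin r)
      = Module.finrank (ResidueField ↥A)
        ↥(riemannRochSpace (K := ResidueField ↥A) (X.redDiv D)) := by
    have h1 := hLI.fintype_card_le_finrank
    rw [Fintype.card_fin] at h1 ⊢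
    have h2 : (r : ℤ) ≤ (Module.finrank (ResidueField ↥A)
        ↥(riemannRochSpace (K := ResidueField ↥A) (X.redDiv D)) : ℤ) := by exact_mod_cast h1
    have h3 : (Module.finrank (ResidueField ↥A)
        ↥(riemannRochSpace (K := ResidueField ↥A) (X.redDiv D)) : ℤ) ≤ r := by
      rw [hrb, hr]; exact hrD
    have : (r : ℤ) = (Module.finrank (ResidueField ↥A)
        ↥(riemannRochSpace (K := ResidueField ↥A) (X.redDiv D)) : ℤ) := le_antisymm h2 h3
    exact_mod_cast this
  have hspan := hLI.span_eq_top_of_card_eq_finrank' hcard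
  -- Step E: write `gb` in this basis and lift the coefficients
  have hmem : (⟨gb, hgb⟩ : ↥(riemannRochSpace (K := ResidueField ↥A) (X.redDiv D)))
      ∈ Submodule.span (ResidueField ↥A) (Set.range fun i =>
        (⟨X.ρ ⟨(g i : 𝔽), hgW i⟩, hρg i⟩ :
          ↥(riemannRochSpace (K := ResidueField ↥A) (X.redDiv D)))) := by
    rw [hspan]; trivial
  obtain ⟨cb, hcb⟩ := (Submodule.mem_span_range_iff_exists_fun _).mp hmem
  choose c hc using fun i => residue_surjective (R := ↥A) (cb i)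
  have hsumW : ∑ i, (c i : Ω) • (g i : 𝔽) ∈ X.W :=
    Subring.sum_mem _ fun i _ => X.smul_mem_W (c i).2 (hgW i)
  refine ⟨⟨∑ i, (c i : Ω) • (g i : 𝔽), hsumW⟩, ?_, ?_⟩
  · show ∑ i, (c i : Ω) • (g i : 𝔽) ∈ riemannRochSpace (K := Ω) D
    exact Submodule.sum_mem _ fun i _ => Submodule.smul_mem _ _ (g i).2
  · have h1 : (⟨∑ i, (c i : Ω) • (g i : 𝔽), hsumW⟩ : ↥X.W)
        = ∑ i, ⟨(c i : Ω) • (g i : 𝔽), X.smul_mem_W (c i).2 (hgW i)⟩ := by
      apply Subtype.ext
      rw [AddSubmonoidClass.coe_finsetSum]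
    rw [h1, map_sum]
    have h2 := congrArg Subtype.val hcb
    rw [Submodule.coe_sum] at h2
    have h2' : ∑ i, ((cb i • (⟨X.ρ ⟨(g i : 𝔽), hgW i⟩, hρg i⟩ :
        ↥(riemannRochSpace (K := ResidueField ↥A) (X.redDiv D))) :
        ↥(riemannRochSpace (K := ResidueField ↥A) (X.redDiv D))) : 𝔽b) = gb := h2
    rw [← h2']
    refine Finset.sum_congr rfl fun i _ => ?_
    have h3 := X.ρ_smul (c i) ⟨(g i : 𝔽), hgW i⟩
    rw [Submodule.coe_smul]
    rw [← hc i]
    exact h3

end GoodRed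

end Fermat.Agent.FG

end
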