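/-
FG — helper5 — [LAT-B] (L6): every class in the kernel of reduction is represented by
`E - n∞` with `E ≥ 0` of degree `n` supported in the residue disc of the base point
(`n ≥ 2g - 1`).
-/
import Mathlib
import Fermat.Agent.FG.LAT_helper5_N2

set_option autoImplicit false
set_option linter.unusedSectionVars false
set_option linter.style.haveILetI false

noncomputable section

namespace Fermat.Agent.FG

open AlgebraicCurve IsLocalRing IntermediateField Fermat.Agent.FF Fermat.Agent.JA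
open scoped Classical

namespace GoodRed

variable {Ω : Type*} [Field Ω] {A : ValuationSubring Ω} {𝔽 : Type*} [Field 𝔽] [Algebra Ω 𝔽]
  {𝔽b : Type*} [Field 𝔽b] [Algebra (ResidueField ↥A) 𝔽b] (X : GoodRed Ω A 𝔽 𝔽b)

include X in
/-- the divisor of a nonzero function, with its degree. -/
theorem exists_div' (f : 𝔽) (hf : f ≠ 0) :
    ∃ D : Divisor Ω 𝔽, (∀ P, D P = P.ord f) ∧ Divisor.degree D = 0 := by
  haveI := X.principal_gen
  exact HasPrincipalDivisors.exists_divisor (K := Ω) f hf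

/-- an effective divisor whose reduction is concentrated at one point is supported in the residue
disc of that point. -/
theorem support_subset_disc {E : Divisor Ω 𝔽} (hE : ∀ P, 0 ≤ E P)
    {Q₀ : Place (ResidueField ↥A) 𝔽b}
    (hred : ∀ Q, Q ≠ Q₀ → X.redDiv E Q = 0) : ∀ P ∈ E.support, X.r P = Q₀ := by
  intro P hP
  by_contra hne
  have h1 := hred (X.r P) hne
  rw [X.redDiv_apply_eq_sum] at h1
  have h2 : E P ≤ ∑ P' ∈ E.support with X.r P' = X.r P, E P' :=
    Finset.single_le_sum (f := fun P' => E P') (fun P' _ => hE P')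
      (Finset.mem_filter.mpr ⟨hP, rfl⟩)
  have h3 : E P ≠ 0 := Finsupp.mem_support_iff.mp hP
  have h4 := hE P
  omega

/-- **(L6)** representation of the kernel of reduction by effective divisors in the residue disc
of the base point. -/
theorem exists_rep_in_disc (n : ℕ) (hn : 2 * (X.g : ℤ) - 1 ≤ n) (z : Pic0 Ω 𝔽)
    (hz : z ∈ X.kerRed) :
    ∃ E : Divisor Ω 𝔽, (∀ P, 0 ≤ E P) ∧ (∀ P ∈ E.support, X.r P = X.cuspb) ∧
      Divisor.degree E = n ∧
      ∃ h : E - Finsupp.single X.cusp (n : ℤ) ∈ Divisor.degZero (K := Ω) (F := 𝔽),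
        Pic0.mk ⟨_, h⟩ = z := by
  obtain ⟨D, rfl⟩ := Pic0.mk_surjective z
  rw [mem_kerRed, redPic0_mk] at hz
  -- the reduction of `D` is principal
  have hprin : X.redDiv (D : Divisor Ω 𝔽)
      ∈ Divisor.principal (K := ResidueField ↥A) (F := 𝔽b) := by
    have h1 := (QuotientAddGroup.eq_zero_iff (X.redDegZero D)).mp hz
    rwa [AddSubgroup.mem_addSubgroupOf, coe_redDegZero] at h1
  obtain ⟨fb, hfb0, hfb⟩ := hprin
  have hdegD : Divisor.degree (D : Divisor Ω 𝔽) = 0 := D.2
  set D' : Divisor Ω 𝔽 := (D : Divisor Ω 𝔽) + Finsupp.single X.cusp (n : ℤ) with hD'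
  have hdegD' : Divisor.degree D' = n := by
    rw [hD', map_add, hdegD, X.degree_single_cusp, zero_add]
  have hredD' : X.redDiv D' = X.redDiv (D : Divisor Ω 𝔽) + Finsupp.single X.cuspb (n : ℤ) := by
    rw [hD', map_add, redDiv_apply (D := Finsupp.single X.cusp (n : ℤ)),
      Finsupp.mapDomain_single]
    rfl
  -- `fb⁻¹ ∈ L̄(r_* D')`
  have hgb : fb⁻¹ ∈ riemannRochSpace (K := ResidueField ↥A) (X.redDiv D') := by
    rw [mem_riemannRochSpace_iff]
    intro Q
    right
    rw [hredD', Finsupp.add_apply, Q.ord_inv, ← hfb Q]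
    have : (0 : ℤ) ≤ (Finsupp.single X.cuspb (n : ℤ)) Q := by
      rw [Finsupp.single_apply]
      split_ifs
      · exact Int.natCast_nonneg n
      · exact le_refl 0
    omega
  obtain ⟨f, hfD', hρf⟩ := X.exists_lift_section D' (by rw [hdegD']; exact hn) fb⁻¹ hgb
  have hρf0 : X.ρ f ≠ 0 := by rw [hρf]; exact inv_ne_zero hfb0
  have hf0 : (f : 𝔽) ≠ 0 := X.ρ_ne_zero_imp_ne_zero f.2 hρf0
  obtain ⟨Df, hDf, hdegDf⟩ := X.exists_div' (f : 𝔽) hf0
  set E : Divisor Ω 𝔽 := D' + Df with hE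
  have hEnonneg : ∀ P, 0 ≤ E P := fun P => by
    rw [hE, Finsupp.add_apply, hDf P]
    have := (mem_riemannRochSpace_iff.mp hfD' P).resolve_left hf0
    omega
  have hdegE : Divisor.degree E = n := by rw [hE, map_add, hdegD', hdegDf, add_zero]
  -- the reduction of `E` is `n∞̄`
  have hredE : ∀ Q, X.redDiv E Q = (Finsupp.single X.cuspb (n : ℤ)) Q := fun Q => by
    rw [hE, map_add, Finsupp.add_apply, hredD', Finsupp.add_apply, hfb Q]
    have h1 : X.redDiv Df Q = Q.ord (X.ρ f) := by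
      rw [redDiv_apply]
      exact X.r_div f hρf0 Df hDf Q
    rw [h1, hρf, Q.ord_inv]
    ring
  refine ⟨E, hEnonneg, ?_, hdegE, ?_⟩
  · refine X.support_subset_disc hEnonneg fun Q hQ => ?_
    rw [hredE Q, Finsupp.single_apply, if_neg (Ne.symm hQ)]
  · have hmem : E - Finsupp.single X.cusp (n : ℤ) ∈ Divisor.degZero (K := Ω) (F := 𝔽) := by
      rw [Divisor.mem_degZero, map_sub, hdegE, X.degree_single_cusp, sub_self]
    refine ⟨hmem, ?_⟩
    rw [Pic0.mk, Pic0.mk, QuotientAddGroup.eq, AddSubgroup.mem_addSubgroupOf]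
    have h2 : ((-(⟨E - Finsupp.single X.cusp (n : ℤ), hmem⟩ :
        ↥(Divisor.degZero (K := Ω) (F := 𝔽))) + D : ↥(Divisor.degZero (K := Ω) (F := 𝔽))) :
        Divisor Ω 𝔽) = -Df := by
      show -(E - Finsupp.single X.cusp (n : ℤ)) + (D : Divisor Ω 𝔽) = -Df
      rw [hE, hD']
      abel
    rw [h2]
    exact AddSubgroup.neg_mem _ ⟨(f : 𝔽), hf0, hDf⟩

end GoodRed

end Fermat.Agent.FG

end
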