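/-
[HENSEL] for S19 (helper2), part 1: first order Taylor expansion of multivariate polynomials and
polynomial systems, modulo the square of an ideal.

* `polyJac G` : the Jacobian matrix of a polynomial system `G : ι → MvPolynomial κ R`;
* `eval_add_sub_sub_mem_sq` : `g(x + h) - g(x) - ∑ j, ∂_j g(x) h_j ∈ I ^ 2` if all `h_j ∈ I`;
* `eval_sub_eval_mem` : `x ≡ y` mod `I` implies `g(x) ≡ g(y)` mod `I`;
* `det_map_eval_sub_mem` : the same for determinants of matrices of polynomials.
-/
import Mathlib

set_option autoImplicit false
set_option linter.unusedSectionVars false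

namespace Fermat.Agent.FG

open MvPolynomial

noncomputable section

variable {ι κ : Type*} {R : Type*} [CommRing R]

/-- the Jacobian matrix of a polynomial system -/
def polyJac (G : ι → MvPolynomial κ R) : Matrix ι κ (MvPolynomial κ R) :=
  fun i j => pderiv j (G i)

theorem polyJac_apply (G : ι → MvPolynomial κ R) (i : ι) (j : κ) :
    polyJac G i j = pderiv j (G i) := rfl

section taylor

variable [Fintype κ]

/-- first order Taylor expansion modulo the square of an ideal containing the increments -/
theorem eval_add_sub_sub_mem_sq (I : Ideal R) (x h : κ → R) (hh : ∀ j, h j ∈ I)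
    (g : MvPolynomial κ R) :
    eval (x + h) g - eval x g - ∑ j, eval x (pderiv j g) * h j ∈ I ^ 2 := by
  classical
  induction g using MvPolynomial.induction_on with
  | C a => simp
  | add p q hp hq =>
    have : eval (x + h) (p + q) - eval x (p + q) - ∑ j, eval x (pderiv j (p + q)) * h j =
        (eval (x + h) p - eval x p - ∑ j, eval x (pderiv j p) * h j) +
          (eval (x + h) q - eval x q - ∑ j, eval x (pderiv j q) * h j) := by
      simp only [map_add, add_mul, Finset.sum_add_distrib]
      ring
    rw [this]
    exact Ideal.add_mem _ hp hq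
  | mul_X p k hp =>
    set L := ∑ j, eval x (pderiv j p) * h j with hL
    have hLI : L ∈ I := Ideal.sum_mem _ fun j _ => Ideal.mul_mem_left _ _ (hh j)
    have h1 : ∑ j, eval x (pderiv j (p * X k)) * h j = L * x k + eval x p * h k := by
      have : ∀ j, eval x (pderiv j (p * X k)) * h j =
          (eval x (pderiv j p) * h j) * x k + (if j = k then eval x p * h j else 0) := by
        intro j
        rw [pderiv_mul, pderiv_X, map_add, map_mul, map_mul, eval_X]
        by_cases hjk : j = k
        · subst hjk
          rw [Pi.single_eq_same, map_one, if_pos rfl]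
          ring
        · rw [Pi.single_eq_of_ne (Ne.symm hjk), map_zero, if_neg hjk]
          ring
      simp only [this, Finset.sum_add_distrib, ← Finset.sum_mul, Finset.sum_ite_eq',
        Finset.mem_univ, if_true, hL]
    have h2 : eval (x + h) (p * X k) - eval x (p * X k) -
        ∑ j, eval x (pderiv j (p * X k)) * h j =
        L * h k + (eval (x + h) p - eval x p - L) * (x k + h k) := by
      rw [h1, map_mul, map_mul, eval_X, eval_X, Pi.add_apply]
      ring
    rw [h2]
    refine Ideal.add_mem _ ?_ (Ideal.mul_mem_right _ _ hp)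
    rw [pow_two]
    exact Ideal.mul_mem_mul hLI (hh k)

/-- two point form of the Taylor expansion -/
theorem eval_sub_eval_sub_mem_sq (I : Ideal R) (x y : κ → R) (hxy : ∀ j, y j - x j ∈ I)
    (g : MvPolynomial κ R) :
    eval y g - eval x g - ∑ j, eval x (pderiv j g) * (y j - x j) ∈ I ^ 2 := by
  have := eval_add_sub_sub_mem_sq I x (y - x) hxy g
  rwa [add_sub_cancel] at this

/-- congruent points have congruent values -/
theorem eval_sub_eval_mem (I : Ideal R) (x y : κ → R) (hxy : ∀ j, y j - x j ∈ I)
    (g : MvPolynomial κ R) : eval y g - eval x g ∈ I := by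
  have h1 := eval_sub_eval_sub_mem_sq I x y hxy g
  have h2 : ∑ j, eval x (pderiv j g) * (y j - x j) ∈ I :=
    Ideal.sum_mem _ fun j _ => Ideal.mul_mem_left _ _ (hxy j)
  have h3 : eval y g - eval x g =
      (eval y g - eval x g - ∑ j, eval x (pderiv j g) * (y j - x j)) +
        ∑ j, eval x (pderiv j g) * (y j - x j) := by ring
  rw [h3]
  exact Ideal.add_mem _ (Ideal.pow_le_self two_ne_zero h1) h2

theorem mk_eval_eq (I : Ideal R) (x y : κ → R) (hxy : ∀ j, y j - x j ∈ I)
    (g : MvPolynomial κ R) : Ideal.Quotient.mk I (eval y g) = Ideal.Quotient.mk I (eval x g) :=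
  Ideal.Quotient.eq.2 (eval_sub_eval_mem I x y hxy g)

/-- the determinant of a matrix of polynomials at congruent points -/
theorem det_map_eval_sub_mem {ι : Type*} [Fintype ι] [DecidableEq ι] (I : Ideal R) (x y : κ → R)
    (hxy : ∀ j, y j - x j ∈ I) (M : Matrix ι ι (MvPolynomial κ R)) :
    (M.map (eval y)).det - (M.map (eval x)).det ∈ I := by
  rw [← Ideal.Quotient.eq, RingHom.map_det, RingHom.map_det]
  congr 1
  ext i j
  simp only [RingHom.mapMatrix_apply, Matrix.map_apply]
  exact mk_eval_eq I x y hxy (M i j)

end taylor

end

end Fermat.Agent.FG
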