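/-
[HENSEL] for S19 (helper2), part 2: multivariate Hensel lemma.

`G : ι → MvPolynomial ι R` a square polynomial system, `polyJac G` its Jacobian.

* **(H2)** `hensel_mv_unique_ideal` : `I ≤ jacobson ⊥` (NO completeness), `x ≡ x' ≡ x0` mod `I` both
  zeros of `G`, `det (Jac G)(x0)` a unit  ⇒  `x = x'`;  `hensel_mv_unique` : the local ring case;
* **(H1)** `hensel_mv_ideal` : `R` `I`-adically complete, `G(x0) ∈ I`, `(Jac G)(x0) * B ≡ 1` mod
  `I`  ⇒  there is a zero `x ≡ x0` mod `I` (simplified Newton iteration `newtonSeq`);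
  `hensel_mv` : the complete local ring case; `existsUnique_hensel_mv`.
-/
import Mathlib
import Fermat.Agent.FG.HENSEL_helper2_Taylor

set_option autoImplicit false
set_option linter.unusedSectionVars false

namespace Fermat.Agent.FG

open MvPolynomial

noncomputable section

variable {ι : Type*} [Fintype ι] [DecidableEq ι] {R : Type*} [CommRing R]

/-- units modulo an ideal contained in the Jacobson radical -/
theorem isUnit_of_sub_mem_of_le_jacobson {I : Ideal R} (hI : I ≤ Ideal.jacobson ⊥) {a b : R}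
    (ha : IsUnit a) (hab : b - a ∈ I) : IsUnit b := by
  have := isLocalHom_of_le_jacobson_bot I hI
  apply IsUnit.of_map (Ideal.Quotient.mk I)
  rw [Ideal.Quotient.eq.2 hab]
  exact ha.map _

/-- **(H2)** uniqueness of zeros in a residue class modulo an ideal in the Jacobson radical -/
theorem hensel_mv_unique_ideal (I : Ideal R) (hI : I ≤ Ideal.jacobson ⊥)
    (G : ι → MvPolynomial ι R) (x0 x x' : ι → R) (hx : ∀ i, x i - x0 i ∈ I)
    (hx' : ∀ i, x' i - x0 i ∈ I) (hG : ∀ i, eval x (G i) = 0) (hG' : ∀ i, eval x' (G i) = 0)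
    (hJ : IsUnit ((polyJac G).map (eval x0)).det) : x = x' := by
  set D : Ideal R := Ideal.span (Set.range (x - x')) with hD
  have hDI : D ≤ I := by
    rw [hD, Ideal.span_le]
    rintro _ ⟨i, rfl⟩
    have : (x - x') i = (x i - x0 i) - (x' i - x0 i) := by simp
    rw [this]
    exact Ideal.sub_mem _ (hx i) (hx' i)
  have hmem : ∀ j, x j - x' j ∈ D := fun j => Ideal.subset_span ⟨j, rfl⟩
  set M : Matrix ι ι R := (polyJac G).map (eval x') with hM
  have hMdet : IsUnit M.det :=
    isUnit_of_sub_mem_of_le_jacobson hI hJ (det_map_eval_sub_mem I x0 x' hx' (polyJac G))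
  have hMinv : M⁻¹ * M = 1 := Matrix.nonsing_inv_mul _ hMdet
  -- the Taylor remainders
  have hT : ∀ i, ∑ j, M i j * (x j - x' j) ∈ D ^ 2 := fun i => by
    have := eval_sub_eval_sub_mem_sq D x' x hmem (G i)
    rw [hG, hG', sub_self, zero_sub, Ideal.neg_mem_iff] at this
    exact this
  have hsq : ∀ k, x k - x' k ∈ D ^ 2 := fun k => by
    have h1 : (x - x') k = (M⁻¹ * M).mulVec (x - x') k := by rw [hMinv, Matrix.one_mulVec]
    rw [← Matrix.mulVec_mulVec] at h1
    have h2 : (x - x') k = x k - x' k := rfl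
    rw [← h2, h1, Matrix.mulVec, dotProduct]
    refine Ideal.sum_mem _ fun i _ => Ideal.mul_mem_left _ _ ?_
    exact hT i
  have hDle : D ≤ I • D := by
    rw [hD, Ideal.span_le]
    rintro _ ⟨k, rfl⟩
    have := hsq k
    rw [pow_two] at this
    exact Ideal.mul_mono_left hDI this
  have hbot : D = ⊥ := Submodule.eq_bot_of_le_smul_of_le_jacobson_bot I D
    (Submodule.fg_span (Set.finite_range _)) hDle hI
  funext k
  have := hmem k
  rw [hbot, Ideal.mem_bot] at this
  exact sub_eq_zero.1 this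

/-- **(H2)** uniqueness of zeros in a residue class of a local ring -/
theorem hensel_mv_unique [IsLocalRing R] (G : ι → MvPolynomial ι R) (x0 x x' : ι → R)
    (hx : ∀ i, x i - x0 i ∈ IsLocalRing.maximalIdeal R)
    (hx' : ∀ i, x' i - x0 i ∈ IsLocalRing.maximalIdeal R) (hG : ∀ i, eval x (G i) = 0)
    (hG' : ∀ i, eval x' (G i) = 0) (hJ : IsUnit ((polyJac G).map (eval x0)).det) : x = x' :=
  hensel_mv_unique_ideal _ (IsLocalRing.jacobson_eq_maximalIdeal ⊥ bot_ne_top).ge G x0 x x' hx hx'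
    hG hG' hJ

/-! ### existence -/

/-- the simplified Newton iteration -/
def newtonSeq (G : ι → MvPolynomial ι R) (B : Matrix ι ι R) (x0 : ι → R) : ℕ → (ι → R)
  | 0 => x0
  | n + 1 => newtonSeq G B x0 n - B.mulVec (fun i => eval (newtonSeq G B x0 n) (G i))

theorem newtonSeq_succ (G : ι → MvPolynomial ι R) (B : Matrix ι ι R) (x0 : ι → R) (n : ℕ) :
    newtonSeq G B x0 (n + 1) =
      newtonSeq G B x0 n - B.mulVec (fun i => eval (newtonSeq G B x0 n) (G i)) := rfl

theorem newtonSeq_spec (I : Ideal R) (G : ι → MvPolynomial ι R) (B : Matrix ι ι R) (x0 : ι → R)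
    (h0 : ∀ i, eval x0 (G i) ∈ I)
    (hB : ∀ i j, ((polyJac G).map (eval x0) * B - 1) i j ∈ I) (n : ℕ) :
    (∀ i, newtonSeq G B x0 n i - x0 i ∈ I) ∧
      ∀ i, eval (newtonSeq G B x0 n) (G i) ∈ I ^ (n + 1) := by
  induction n with
  | zero =>
    refine ⟨fun i => ?_, fun i => ?_⟩
    · show x0 i - x0 i ∈ I
      rw [sub_self]
      exact I.zero_mem
    · rw [zero_add, pow_one]
      exact h0 i
  | succ n ih =>
    obtain ⟨ih1, ih2⟩ := ih
    set c := newtonSeq G B x0 n with hc
    set Gn : ι → R := fun i => eval c (G i) with hGn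
    set h : ι → R := -B.mulVec Gn with hh
    have hc' : newtonSeq G B x0 (n + 1) = c + h := by
      rw [newtonSeq_succ, hh, sub_eq_add_neg]
    have hhI : ∀ j, h j ∈ I ^ (n + 1) := fun j => by
      rw [hh, Pi.neg_apply, Ideal.neg_mem_iff, Matrix.mulVec, dotProduct]
      exact Ideal.sum_mem _ fun k _ => Ideal.mul_mem_left _ _ (ih2 k)
    have hle : I ^ (n + 1) ≤ I := Ideal.pow_le_self (Nat.succ_ne_zero n)
    refine ⟨fun i => ?_, fun i => ?_⟩
    · rw [hc', Pi.add_apply, add_sub_right_comm]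
      exact Ideal.add_mem _ (ih1 i) (hle (hhI i))
    · -- the Jacobian at `c`
      set Jn : Matrix ι ι R := (polyJac G).map (eval c) with hJn
      set E : Matrix ι ι R := 1 - Jn * B with hE
      have hEI : ∀ i k, E i k ∈ I := fun i k => by
        have h1 : E = -((polyJac G).map (eval x0) * B - 1) -
            (Jn - (polyJac G).map (eval x0)) * B := by
          rw [hE, Matrix.sub_mul]
          abel
        rw [h1, Matrix.sub_apply, Matrix.neg_apply]
        refine Ideal.sub_mem _ ((Ideal.neg_mem_iff _).2 (hB i k)) ?_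
        rw [Matrix.mul_apply]
        refine Ideal.sum_mem _ fun j _ => Ideal.mul_mem_right _ _ ?_
        rw [Matrix.sub_apply, hJn, Matrix.map_apply, Matrix.map_apply]
        exact eval_sub_eval_mem I x0 c ih1 _
      have hT := eval_add_sub_sub_mem_sq (I ^ (n + 1)) c h hhI (G i)
      have h2 : eval c (G i) + ∑ j, eval c (pderiv j (G i)) * h j = E.mulVec Gn i := by
        have h3 : ∑ j, eval c (pderiv j (G i)) * h j = Jn.mulVec h i := rfl
        rw [h3, hh, Matrix.mulVec_neg, Matrix.mulVec_mulVec, hE, Matrix.sub_mulVec,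
          Matrix.one_mulVec, Pi.sub_apply, Pi.neg_apply, sub_eq_add_neg]
      have h4 : eval (newtonSeq G B x0 (n + 1)) (G i) =
          (eval (c + h) (G i) - eval c (G i) - ∑ j, eval c (pderiv j (G i)) * h j) +
            E.mulVec Gn i := by
        rw [hc', ← h2]
        ring
      rw [h4]
      refine Ideal.add_mem _ ?_ ?_
      · refine Ideal.pow_le_pow_right ?_ (by rwa [← pow_mul] at hT)
        omega
      · rw [Matrix.mulVec, dotProduct, pow_succ']
        exact Ideal.sum_mem _ fun k _ => Ideal.mul_mem_mul (hEI i k) (ih2 k)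

theorem newtonSeq_succ_sub_mem (I : Ideal R) (G : ι → MvPolynomial ι R) (B : Matrix ι ι R)
    (x0 : ι → R) (h0 : ∀ i, eval x0 (G i) ∈ I)
    (hB : ∀ i j, ((polyJac G).map (eval x0) * B - 1) i j ∈ I) (n : ℕ) (j : ι) :
    newtonSeq G B x0 (n + 1) j - newtonSeq G B x0 n j ∈ I ^ (n + 1) := by
  rw [newtonSeq_succ, Pi.sub_apply, sub_sub_cancel_left, Ideal.neg_mem_iff, Matrix.mulVec,
    dotProduct]
  exact Ideal.sum_mem _ fun k _ =>
    Ideal.mul_mem_left _ _ ((newtonSeq_spec I G B x0 h0 hB n).2 k)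

theorem newtonSeq_sub_mem (I : Ideal R) (G : ι → MvPolynomial ι R) (B : Matrix ι ι R)
    (x0 : ι → R) (h0 : ∀ i, eval x0 (G i) ∈ I)
    (hB : ∀ i j, ((polyJac G).map (eval x0) * B - 1) i j ∈ I) {m n : ℕ} (hmn : m ≤ n) (j : ι) :
    newtonSeq G B x0 n j - newtonSeq G B x0 m j ∈ I ^ m := by
  induction n, hmn using Nat.le_induction with
  | base =>
    rw [sub_self]
    exact Ideal.zero_mem _
  | succ n hmn ih =>
    have h1 := newtonSeq_succ_sub_mem I G B x0 h0 hB n j
    have h2 : newtonSeq G B x0 (n + 1) j - newtonSeq G B x0 m j =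
        (newtonSeq G B x0 (n + 1) j - newtonSeq G B x0 n j) +
          (newtonSeq G B x0 n j - newtonSeq G B x0 m j) := by ring
    rw [h2]
    exact Ideal.add_mem _ (Ideal.pow_le_pow_right (by omega) h1) ih

theorem smodEq_pow_iff (I : Ideal R) (n : ℕ) (a b : R) :
    a ≡ b [SMOD (I ^ n • ⊤ : Ideal R)] ↔ a - b ∈ I ^ n := by
  rw [SModEq.sub_mem, Ideal.smul_eq_mul, Ideal.mul_top]

/-- **(H1)** multivariate Hensel lemma for an adically complete ring -/
theorem hensel_mv_ideal (I : Ideal R) [IsAdicComplete I R] (G : ι → MvPolynomial ι R)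
    (B : Matrix ι ι R) (x0 : ι → R) (h0 : ∀ i, eval x0 (G i) ∈ I)
    (hB : ∀ i j, ((polyJac G).map (eval x0) * B - 1) i j ∈ I) :
    ∃ x : ι → R, (∀ i, x i - x0 i ∈ I) ∧ ∀ i, eval x (G i) = 0 := by
  have hex : ∀ j, ∃ L : R, ∀ n, newtonSeq G B x0 n j ≡ L [SMOD (I ^ n • ⊤ : Ideal R)] := fun j =>
    IsPrecomplete.prec' (fun n => newtonSeq G B x0 n j) fun {m n} hmn => by
      rw [smodEq_pow_iff, ← Ideal.neg_mem_iff, neg_sub]
      exact newtonSeq_sub_mem I G B x0 h0 hB hmn j
  choose x hx using hex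
  have hx' : ∀ n j, x j - newtonSeq G B x0 n j ∈ I ^ n := fun n j => by
    have := hx j n
    rwa [smodEq_pow_iff, ← Ideal.neg_mem_iff, neg_sub] at this
  refine ⟨x, fun i => ?_, fun i => ?_⟩
  · have h1 := hx' 1 i
    rw [pow_one] at h1
    have h2 := (newtonSeq_spec I G B x0 h0 hB 1).1 i
    have h3 : x i - x0 i = (x i - newtonSeq G B x0 1 i) + (newtonSeq G B x0 1 i - x0 i) := by ring
    rw [h3]
    exact Ideal.add_mem _ h1 h2
  · refine IsHausdorff.haus' (I := I) _ fun n => ?_
    rw [smodEq_pow_iff, sub_zero]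
    have h1 := eval_sub_eval_mem (I ^ n) (newtonSeq G B x0 n) x (hx' n) (G i)
    have h2 := (newtonSeq_spec I G B x0 h0 hB n).2 i
    have h3 : eval x (G i) = (eval x (G i) - eval (newtonSeq G B x0 n) (G i)) +
        eval (newtonSeq G B x0 n) (G i) := by ring
    rw [h3]
    exact Ideal.add_mem _ h1 (Ideal.pow_le_pow_right (Nat.le_succ n) h2)

/-- **(H1)** multivariate Hensel lemma for a complete local ring -/
theorem hensel_mv [IsLocalRing R] [IsAdicComplete (IsLocalRing.maximalIdeal R) R]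
    (G : ι → MvPolynomial ι R) (x0 : ι → R)
    (h0 : ∀ i, eval x0 (G i) ∈ IsLocalRing.maximalIdeal R)
    (hJ : IsUnit ((polyJac G).map (eval x0)).det) :
    ∃ x : ι → R, (∀ i, x i - x0 i ∈ IsLocalRing.maximalIdeal R) ∧ ∀ i, eval x (G i) = 0 := by
  refine hensel_mv_ideal _ G ((polyJac G).map (eval x0))⁻¹ x0 h0 fun i j => ?_
  rw [Matrix.mul_nonsing_inv _ hJ, sub_self]
  exact Ideal.zero_mem _

/-- existence and uniqueness in a complete local ring -/
theorem existsUnique_hensel_mv [IsLocalRing R] [IsAdicComplete (IsLocalRing.maximalIdeal R) R]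
    (G : ι → MvPolynomial ι R) (x0 : ι → R)
    (h0 : ∀ i, eval x0 (G i) ∈ IsLocalRing.maximalIdeal R)
    (hJ : IsUnit ((polyJac G).map (eval x0)).det) :
    ∃! x : ι → R, (∀ i, x i - x0 i ∈ IsLocalRing.maximalIdeal R) ∧ ∀ i, eval x (G i) = 0 := by
  obtain ⟨x, hx1, hx2⟩ := hensel_mv G x0 h0 hJ
  exact ⟨x, ⟨hx1, hx2⟩, fun y hy => hensel_mv_unique G x0 y x hy.1 hx1 hy.2 hx2 hJ⟩

end

end Fermat.Agent.FG
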