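/-
[NORMDIV] for S19 (helper2), part 1: the rational function field `k(x)` as a function field with
the coordinate `x` of degree one: `x - a` has exactly one zero, which is simple, and `x` has only
simple poles; a function without zeros is a constant.
-/
import Mathlib
import Fermat.Agent.FF.LocalDer

set_option autoImplicit false
set_option linter.unusedSectionVars false
set_option linter.style.haveILetI false

namespace Fermat.Agent.FG

open AlgebraicCurve IntermediateField Fermat.Agent.FF

noncomputable section

section DegreeOne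

variable {k F : Type*} [Field k] [Field F] [Algebra k F] [CharZero k] (c : Coord k F)

omit [CharZero k] in
/-- `x - a` does not vanish -/
theorem coord_x_sub_ne_zero (a : k) : c.x - algebraMap k F a ≠ 0 := by
  intro h
  apply c.trans
  rw [sub_eq_zero.mp h]
  exact isAlgebraic_algebraMap a

/-- on a coordinate of degree one, a zero of `x - a` is simple -/
theorem coord_ord_sub_eq_one (hc : c.degree = 1) (a : k) {v : Place k F}
    (hv : 0 < v.ord (c.x - algebraMap k F a)) : v.ord (c.x - algebraMap k F a) = 1 := by
  obtain ⟨S, hS, hsum⟩ := c.exists_zeros_sub a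
  have hvS : v ∈ S := (hS v).2 hv
  have hnn : ∀ u ∈ S, 0 ≤ u.ord (c.x - algebraMap k F a) * (u.deg : ℤ) := by
    intro u hu
    exact mul_nonneg ((hS u).1 hu).le (Int.natCast_nonneg _)
  have hle : v.ord (c.x - algebraMap k F a) * (v.deg : ℤ) ≤ 1 := by
    have h1 := Finset.single_le_sum hnn hvS
    rw [hsum, hc] at h1
    exact_mod_cast h1
  have hd : (0 : ℤ) < (v.deg : ℤ) := by exact_mod_cast c.deg_pos v
  nlinarith

/-- on a coordinate of degree one, `x - a` has at most one zero -/
theorem coord_eq_of_ord_sub_pos (hc : c.degree = 1) (a : k) {v v' : Place k F}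
    (hv : 0 < v.ord (c.x - algebraMap k F a)) (hv' : 0 < v'.ord (c.x - algebraMap k F a)) :
    v = v' := by
  classical
  obtain ⟨S, hS, hsum⟩ := c.exists_zeros_sub a
  by_contra hne
  have hvS : v ∈ S := (hS v).2 hv
  have hv'S : v' ∈ S := (hS v').2 hv'
  have hnn : ∀ u ∈ S, 0 ≤ u.ord (c.x - algebraMap k F a) * (u.deg : ℤ) := by
    intro u hu
    exact mul_nonneg ((hS u).1 hu).le (Int.natCast_nonneg _)
  have hsub : ({v, v'} : Finset (Place k F)) ⊆ S := by
    intro u hu
    rw [Finset.mem_insert, Finset.mem_singleton] at hu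
    rcases hu with rfl | rfl
    · exact hvS
    · exact hv'S
  have h1 := Finset.sum_le_sum_of_subset_of_nonneg hsub (fun u hu _ => hnn u hu)
  rw [Finset.sum_pair hne, hsum, hc] at h1
  have hd : (0 : ℤ) < (v.deg : ℤ) := by exact_mod_cast c.deg_pos v
  have hd' : (0 : ℤ) < (v'.deg : ℤ) := by exact_mod_cast c.deg_pos v'
  have h2 : 1 ≤ v.ord (c.x - algebraMap k F a) * (v.deg : ℤ) := by nlinarith
  have h3 : 1 ≤ v'.ord (c.x - algebraMap k F a) * (v'.deg : ℤ) := by nlinarith
  have h4 : ((1 : ℕ) : ℤ) = 1 := rfl
  omega

/-- on a coordinate of degree one, a pole of `x` is simple -/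
theorem coord_ord_eq_neg_one (hc : c.degree = 1) {v : Place k F} (hv : v.ord c.x < 0) :
    v.ord c.x = -1 := by
  obtain ⟨S, hS, hsum⟩ := c.exists_poles
  have hvS : v ∈ S := (hS v).2 hv
  have hnn : ∀ u ∈ S, 0 ≤ (-u.ord c.x) * (u.deg : ℤ) := by
    intro u hu
    have := (hS u).1 hu
    exact mul_nonneg (by omega) (Int.natCast_nonneg _)
  have hle : (-v.ord c.x) * (v.deg : ℤ) ≤ 1 := by
    have h1 := Finset.single_le_sum hnn hvS
    rw [hsum, hc] at h1
    exact_mod_cast h1
  have hd : (0 : ℤ) < (v.deg : ℤ) := by exact_mod_cast c.deg_pos v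
  nlinarith

/-- a function of order zero everywhere is algebraic over the constants -/
theorem coord_isAlgebraic_of_ord_eq_zero (c : Coord k F) {G : F} (hG : ∀ v : Place k F, v.ord G = 0) :
    IsAlgebraic k G := by
  by_contra htr
  obtain ⟨S, hS, hsum⟩ := (c.ofTranscendental G htr).exists_zeros
  rw [Coord.ofTranscendental_x] at hS hsum
  have hSe : S = ∅ := by
    apply Finset.eq_empty_of_forall_notMem
    intro v hv
    have := (hS v).1 hv
    rw [hG v] at this
    exact lt_irrefl _ this
  rw [hSe, Finset.sum_empty] at hsum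
  have hpos := (c.ofTranscendental G htr).degree_pos
  rw [Coord.degree, Coord.ofTranscendental_x] at hpos
  have : (0 : ℤ) < (Module.finrank ↥k⟮G⟯ F : ℤ) := by exact_mod_cast hpos
  omega

end DegreeOne

section Gen

variable {k F : Type*} [Field k] [Field F] [Algebra k F] (x : F)

theorem adjoin_gen_eq_top : k⟮AdjoinSimple.gen k x⟯ = (⊤ : IntermediateField k ↥k⟮x⟯) := by
  rw [eq_top_iff]
  rintro ⟨y, hy⟩ -
  induction hy using IntermediateField.adjoin_induction with
  | mem z hz =>
    rw [Set.mem_singleton_iff] at hz
    subst hz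
    exact mem_adjoin_simple_self k (AdjoinSimple.gen k z)
  | algebraMap a => exact IntermediateField.algebraMap_mem _ a
  | add y z hy hz ihy ihz => exact add_mem ihy ihz
  | inv y hy ihy => exact inv_mem ihy
  | mul y z hy hz ihy ihz => exact mul_mem ihy ihz

theorem transcendental_gen (hx : Transcendental k x) : Transcendental k (AdjoinSimple.gen k x) := by
  intro halg
  exact hx ((isAlgebraic_algHom_iff (k⟮x⟯).val Subtype.val_injective).mpr halg)

/-- the coordinate `x` on `k(x)` -/
def genCoord (hx : Transcendental k x) : Coord k ↥k⟮x⟯ where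
  x := AdjoinSimple.gen k x
  trans := transcendental_gen x hx
  fin := by
    rw [adjoin_gen_eq_top]
    exact Module.finite_of_finrank_pos (by rw [IntermediateField.finrank_top]; exact one_pos)

@[simp]
theorem genCoord_x (hx : Transcendental k x) : (genCoord x hx).x = AdjoinSimple.gen k x := rfl

theorem genCoord_degree (hx : Transcendental k x) : (genCoord x hx).degree = 1 := by
  rw [Coord.degree, genCoord_x, adjoin_gen_eq_top, IntermediateField.finrank_top]

end Gen

end

end Fermat.Agent.FG
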