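/-
[NORMDIV] for S19 (helper2), part 2: the norm to `Ω(τ)` of a function `f` all of whose zeros and
poles are finite (`τ` regular there) is a constant times `∏_P (τ - τ(P))^{ord_P f}`.
-/
import Mathlib
import Fermat.Agent.FG.NORMDIV_helper2_Rat
import Fermat.Agent.JA.H0_helper7_Norm
import Fermat.Agent.JA.ES_helper4_Value

set_option autoImplicit false
set_option linter.unusedSectionVars false
set_option linter.style.haveILetI false

namespace Fermat.Agent.FG

open AlgebraicCurve IntermediateField Fermat.Agent.FF Fermat.Agent.FF.Gal Fermat.Agent.JA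

noncomputable section

/-- the order of a product of integer powers -/
theorem ord_prod_zpow {k F : Type*} [Field k] [Field F] [Algebra k F] (v : Place k F)
    {ι : Type*} (s : Finset ι) (h : ι → F) (n : ι → ℤ) (hh : ∀ i ∈ s, h i ≠ 0) :
    v.ord (∏ i ∈ s, h i ^ n i) = ∑ i ∈ s, n i * v.ord (h i) := by
  classical
  induction s using Finset.induction_on with
  | empty => simp
  | insert a s ha ih =>
    have h1 : h a ^ n a ≠ 0 := zpow_ne_zero _ (hh a (Finset.mem_insert_self a s))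
    have h2 : ∏ i ∈ s, h i ^ n i ≠ 0 :=
      Finset.prod_ne_zero_iff.2 fun i hi => zpow_ne_zero _ (hh i (Finset.mem_insert_of_mem hi))
    rw [Finset.prod_insert ha, Finset.sum_insert ha, v.ord_mul h1 h2, v.ord_zpow,
      ih (fun i hi => hh i (Finset.mem_insert_of_mem hi))]

section Main

variable {Ω 𝔽 : Type*} [Field Ω] [IsAlgClosed Ω] [CharZero Ω] [Field 𝔽] [Algebra Ω 𝔽]

/-- the degree of a divisor over an algebraically closed field is the sum of its coefficients -/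
theorem degree_eq_sum_coeff (c : Coord Ω 𝔽) (D : Divisor Ω 𝔽) :
    Divisor.degree D = ∑ P ∈ D.support, D P := by
  rw [degree_eq_sum_of_support_subset D D.support (Finset.Subset.refl _)]
  refine Finset.sum_congr rfl fun P _ => ?_
  rw [c.deg_eq_one P, Nat.cast_one, mul_one]

/-- the sum of the coefficients of a principal divisor vanishes -/
theorem sum_coeff_eq_zero (c : Coord Ω 𝔽) {f : 𝔽} (hf : f ≠ 0) (D : Divisor Ω 𝔽)
    (hD : ∀ P, D P = P.ord f) : ∑ P ∈ D.support, D P = 0 := by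
  haveI := c.hasPrincipalDivisors
  obtain ⟨D', hD', hdeg⟩ := HasPrincipalDivisors.exists_divisor (K := Ω) f hf
  have hDD : D' = D := Finsupp.ext fun P => by rw [hD', hD]
  rw [← degree_eq_sum_coeff c, ← hDD, hdeg]

variable (τ : 𝔽) (hτ : Transcendental Ω τ)

theorem algebraMap_gen_sub (a : Ω) :
    algebraMap ↥Ω⟮τ⟯ 𝔽 (AdjoinSimple.gen Ω τ - algebraMap Ω ↥Ω⟮τ⟯ a) = τ - algebraMap Ω 𝔽 a := by
  rw [map_sub, AdjoinSimple.algebraMap_gen, ← IsScalarTower.algebraMap_apply]

theorem gen_sub_ne_zero (hτ : Transcendental Ω τ) (a : Ω) :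
    AdjoinSimple.gen Ω τ - algebraMap Ω ↥Ω⟮τ⟯ a ≠ 0 := by
  have := coord_x_sub_ne_zero (genCoord τ hτ) a
  rwa [genCoord_x] at this

variable [FiniteDimensional ↥Ω⟮τ⟯ 𝔽]

instance charZero_adjoin_NORMDIV : CharZero ↥Ω⟮τ⟯ :=
  charZero_of_injective_algebraMap (algebraMap Ω ↥Ω⟮τ⟯).injective

/-- the order of the norm at a place of `Ω(τ)` -/
theorem ord_norm_eq_sum (hτ : Transcendental Ω τ) {f : 𝔽} (hf : f ≠ 0) (D : Divisor Ω 𝔽)
    (hD : ∀ P, D P = P.ord f) (val : Place Ω 𝔽 → Ω)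
    (hval : ∀ P ∈ D.support, HasValueAt P τ (val P)) (v : Place Ω ↥Ω⟮τ⟯) :
    v.ord (Algebra.norm ↥Ω⟮τ⟯ f) = ∑ P ∈ D.support,
      D P * v.ord (AdjoinSimple.gen Ω τ - algebraMap Ω ↥Ω⟮τ⟯ (val P)) := by
  classical
  set c𝔽 : Coord Ω 𝔽 := ⟨τ, hτ, inferInstance⟩ with hc𝔽
  haveI := c𝔽.hasPrincipalDivisors
  have hdeg' : ∀ w : Place Ω 𝔽, w.deg = 1 := c𝔽.deg_eq_one
  set cE : Coord Ω ↥Ω⟮τ⟯ := genCoord τ hτ with hcE
  have hcEdeg : cE.degree = 1 := genCoord_degree τ hτ
  set g : ↥Ω⟮τ⟯ := AdjoinSimple.gen Ω τ with hg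
  have hgx : cE.x = g := rfl
  -- values of `τ` at the support
  have hpos : ∀ P ∈ D.support, 0 < P.ord (τ - algebraMap Ω 𝔽 (val P)) := by
    intro P hP
    rcases HasValueAt.iff_ord.1 (hval P hP) with h0 | h0
    · exact absurd h0 (coord_x_sub_ne_zero c𝔽 (val P))
    · exact h0
  -- the norm formula
  rw [← sum_ord_eq_ord_norm v hdeg' hf]
  have h1 : ∑ w ∈ v.fiber 𝔽, w.ord f =
      ∑ P ∈ D.support, if P.restrict ↥Ω⟮τ⟯ = v then D P else 0 := by
    rw [← Finset.sum_filter]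
    have h2 : ∑ w ∈ v.fiber 𝔽, w.ord f = ∑ w ∈ (v.fiber 𝔽).filter (· ∈ D.support), D w := by
      rw [Finset.sum_filter_of_ne]
      · exact Finset.sum_congr rfl fun w _ => (hD w).symm
      · intro w _ hne
        exact Finsupp.mem_support_iff.mpr hne
    rw [h2]
    apply Finset.sum_congr _ fun _ _ => rfl
    ext w
    simp only [Finset.mem_filter, Place.mem_fiber]
    exact and_comm
  rw [h1]
  by_cases hv : v.ord g < 0
  · -- the place at infinity
    have hm1 : v.ord g = -1 := coord_ord_eq_neg_one cE hcEdeg hv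
    have hg0 : g ≠ 0 := by
      intro h0
      rw [h0, Place.ord_zero] at hv
      exact lt_irrefl _ hv
    have hsub : ∀ a : Ω, v.ord (g - algebraMap Ω ↥Ω⟮τ⟯ a) = -1 := by
      intro a
      by_cases ha : a = 0
      · rw [ha, map_zero, sub_zero, hm1]
      have ha' : -algebraMap Ω ↥Ω⟮τ⟯ a ≠ 0 := neg_ne_zero.2 ((map_ne_zero _).2 ha)
      rw [sub_eq_add_neg, PlaceAux.ord_add_eq_of_lt v hg0 ha', hm1]
      rw [hm1, ← map_neg, PlaceAux.ord_algebraMap]
      norm_num
    have hL : ∀ P ∈ D.support, (if P.restrict ↥Ω⟮τ⟯ = v then D P else 0) = 0 := by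
      intro P hP
      rw [if_neg]
      intro hPv
      have h3 : τ ∈ P.toValuationSubring := (hval P hP).mem
      have h4 : 0 ≤ P.ord τ := PlaceAux.ord_nonneg_of_mem P h3
      have h5 : P.ord (algebraMap ↥Ω⟮τ⟯ 𝔽 g) < 0 :=
        ((liesOver_iff_restrict_eq.2 hPv).ord_neg_iff g).2 hv
      rw [hg, AdjoinSimple.algebraMap_gen] at h5
      omega
    rw [Finset.sum_congr rfl hL, Finset.sum_const_zero]
    have hR : ∀ P ∈ D.support, D P * v.ord (g - algebraMap Ω ↥Ω⟮τ⟯ (val P)) = -D P := by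
      intro P _
      rw [hsub, mul_neg, mul_one]
    rw [Finset.sum_congr rfl hR, Finset.sum_neg_distrib, sum_coeff_eq_zero c𝔽 hf D hD, neg_zero]
  · -- a finite place
    have hgmem : g ∈ v.toValuationSubring := by
      rw [PlaceAux.mem_iff_ord_nonneg]
      exact Or.inr (not_lt.1 hv)
    obtain ⟨a, ha⟩ := exists_const_sub_ordGE_one v (cE.deg_eq_one v) hgmem
    have ha0 : g - algebraMap Ω ↥Ω⟮τ⟯ a ≠ 0 := gen_sub_ne_zero τ hτ a
    have hapos : 0 < v.ord (g - algebraMap Ω ↥Ω⟮τ⟯ a) := by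
      rcases ha with h0 | h0
      · exact absurd h0 ha0
      · omega
    refine Finset.sum_congr rfl fun P hP => ?_
    have hPpos := hpos P hP
    have hPpos' : 0 < (P.restrict ↥Ω⟮τ⟯).ord (g - algebraMap Ω ↥Ω⟮τ⟯ (val P)) := by
      rw [← (liesOver_restrict_self P).ord_pos_iff, algebraMap_gen_sub]
      exact hPpos
    by_cases hPv : P.restrict ↥Ω⟮τ⟯ = v
    · rw [if_pos hPv]
      rw [hPv] at hPpos'
      have := coord_ord_sub_eq_one cE hcEdeg (val P) (v := v) hPpos'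
      rw [hgx] at this
      rw [this, mul_one]
    · rw [if_neg hPv]
      have hne : val P ≠ a := by
        intro h0
        rw [h0] at hPpos'
        exact hPv (coord_eq_of_ord_sub_pos cE hcEdeg a hPpos' hapos)
      have h3 : g - algebraMap Ω ↥Ω⟮τ⟯ (val P) =
          algebraMap Ω ↥Ω⟮τ⟯ (a - val P) + (g - algebraMap Ω ↥Ω⟮τ⟯ a) := by
        rw [map_sub]; ring
      have h4 : algebraMap Ω ↥Ω⟮τ⟯ (a - val P) ≠ 0 :=
        (map_ne_zero _).2 (sub_ne_zero.2 (Ne.symm hne))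
      rw [h3, PlaceAux.ord_add_eq_of_lt v h4 ha0, PlaceAux.ord_algebraMap, mul_zero]
      rw [PlaceAux.ord_algebraMap]
      exact hapos

end Main

end

end Fermat.Agent.FG
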