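/-
[NORMDIV] for S19 (helper2), part 3: `norm_eq_prod`.
-/
import Mathlib
import Fermat.Agent.FG.NORMDIV_helper2_Main

set_option autoImplicit false
set_option linter.unusedSectionVars false
set_option linter.style.haveILetI false

namespace Fermat.Agent.FG

open AlgebraicCurve IntermediateField Fermat.Agent.FF Fermat.Agent.FF.Gal

/-- **[NORMDIV]**: the norm to `Ω(τ)` of a function `f` with all its zeros and poles at places
where `τ` is regular is, up to a nonzero constant, `∏_P (τ - τ(P))^{ord_P f}`. -/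
theorem norm_eq_prod {Ω 𝔽 : Type*} [Field Ω] [IsAlgClosed Ω] [CharZero Ω] [Field 𝔽] [Algebra Ω 𝔽]
    (τ : 𝔽) (hτ : Transcendental Ω τ) [FiniteDimensional ↥Ω⟮τ⟯ 𝔽] (f : 𝔽) (hf : f ≠ 0)
    (D : Divisor Ω 𝔽) (hD : ∀ P, D P = P.ord f) (val : Place Ω 𝔽 → Ω)
    (hval : ∀ P ∈ D.support, JA.HasValueAt P τ (val P)) :
    ∃ c : Ω, c ≠ 0 ∧ algebraMap ↥Ω⟮τ⟯ 𝔽 (Algebra.norm ↥Ω⟮τ⟯ f) =
      algebraMap Ω 𝔽 c * ∏ P ∈ D.support, (τ - algebraMap Ω 𝔽 (val P)) ^ (D P) := by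
  classical
  set prodE : ↥Ω⟮τ⟯ :=
    ∏ P ∈ D.support, (AdjoinSimple.gen Ω τ - algebraMap Ω ↥Ω⟮τ⟯ (val P)) ^ (D P) with hprodE
  have hprod0 : prodE ≠ 0 :=
    Finset.prod_ne_zero_iff.2 fun P _ => zpow_ne_zero _ (gen_sub_ne_zero τ hτ _)
  have hN0 : Algebra.norm ↥Ω⟮τ⟯ f ≠ 0 := Algebra.norm_ne_zero_iff.2 hf
  set G : ↥Ω⟮τ⟯ := Algebra.norm ↥Ω⟮τ⟯ f * prodE⁻¹ with hG
  have hG0 : G ≠ 0 := mul_ne_zero hN0 (inv_ne_zero hprod0)
  have hord : ∀ v : Place Ω ↥Ω⟮τ⟯, v.ord G = 0 := by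
    intro v
    rw [hG, v.ord_mul hN0 (inv_ne_zero hprod0), v.ord_inv,
      ord_norm_eq_sum τ hτ hf D hD val hval v, hprodE,
      ord_prod_zpow v _ _ _ (fun P _ => gen_sub_ne_zero τ hτ _)]
    exact add_neg_cancel _
  have halg : IsAlgebraic Ω G := coord_isAlgebraic_of_ord_eq_zero (genCoord τ hτ) hord
  obtain ⟨c, hc⟩ : ∃ c : Ω, algebraMap Ω ↥Ω⟮τ⟯ c = G := by
    have h1 := IsAlgClosed.degree_eq_one_of_irreducible Ω (minpoly.irreducible halg.isIntegral)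
    exact minpoly.mem_range_of_degree_eq_one Ω G h1
  refine ⟨c, ?_, ?_⟩
  · rintro rfl
    rw [map_zero] at hc
    exact hG0 hc.symm
  · have h1 : Algebra.norm ↥Ω⟮τ⟯ f = G * prodE := by
      rw [hG, mul_assoc, inv_mul_cancel₀ hprod0, mul_one]
    rw [h1, map_mul, ← hc, ← IsScalarTower.algebraMap_apply, hprodE, map_prod]
    refine congrArg _ (Finset.prod_congr rfl fun P _ => ?_)
    rw [map_zpow₀, algebraMap_gen_sub]

end Fermat.Agent.FG
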