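/-
FG — helper5 — [REFL] (K0): the functions `k_c = 1 + Σ_{ν ≠ 0} c_ν h_ν` (`h_ν` the canonical basis
of `𝓛(N∞)`), `c : Fin (N+1) → Ω` (only the nonzero nongap positions matter).
-/
import Mathlib
import Fermat.Agent.FG.LAT_helper5_CanonAPI

set_option autoImplicit false
set_option linter.unusedSectionVars false
set_option linter.style.haveILetI false

noncomputable section

namespace Fermat.Agent.FG

open AlgebraicCurve IsLocalRing IntermediateField Fermat.Agent.FF Fermat.Agent.JA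
open scoped Classical

namespace GoodRed

variable {Ω : Type*} [Field Ω] {A : ValuationSubring Ω} {𝔽 : Type*} [Field 𝔽] [Algebra Ω 𝔽]
  {𝔽b : Type*} [Field 𝔽b] [Algebra (ResidueField ↥A) 𝔽b] (X : GoodRed Ω A 𝔽 𝔽b)

variable {N : ℕ} (hN : 2 * (X.g : ℤ) - 1 ≤ N)

/-- the coefficient vector of `k_c` in the canonical basis. -/
def kcoef (c : Fin (N + 1) → Ω) (ν : ↥(X.nongaps N)) : Ω :=
  if (ν : Fin (N + 1)) = 0 then 1 else c ν

/-- `k_c` as an element of `L(N∞)`. -/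
def kfunP (c : Fin (N + 1) → Ω) : ↥(poleSpace X.cusp N) :=
  ∑ ν : ↥(X.nongaps N), X.kcoef c ν • X.canon hN ν

/-- `k_c = 1 + Σ_{ν ≠ 0} c_ν h_ν`. -/
def kfun (c : Fin (N + 1) → Ω) : 𝔽 := (X.kfunP hN c : 𝔽)

theorem kfun_mem_poleSpace (c : Fin (N + 1) → Ω) : X.kfun hN c ∈ poleSpace X.cusp N :=
  (X.kfunP hN c).2

theorem pp_kfunP (c : Fin (N + 1) → Ω) (ν : ↥(X.nongaps N)) :
    X.pp N (X.kfunP hN c) ν = X.kcoef c ν := by
  unfold kfunP
  rw [map_sum, Finset.sum_apply, Finset.sum_eq_single ν]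
  · rw [map_smul, Pi.smul_apply, X.pp_canon hN, if_pos rfl, smul_eq_mul, mul_one]
  · intro ν' _ hne
    rw [map_smul, Pi.smul_apply, X.pp_canon hN, if_neg (Ne.symm hne), smul_zero]
  · intro h
    exact absurd (Finset.mem_univ ν) h

/-- `k_c` is the unique function of `L(N∞)` with the prescribed canonical coordinates. -/
theorem eq_kfunP_of_pp (c : Fin (N + 1) → Ω) (f : ↥(poleSpace X.cusp N))
    (h : ∀ ν : ↥(X.nongaps N), X.pp N f ν = X.kcoef c ν) : f = X.kfunP hN c := by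
  rw [X.eq_sum_canon hN f]
  unfold kfunP
  exact Finset.sum_congr rfl fun ν _ => by rw [h ν]

theorem coe_kfunP_eq_sum (c : Fin (N + 1) → Ω) :
    X.kfun hN c = ∑ ν : ↥(X.nongaps N), X.kcoef c ν • ((X.canon hN ν : ↥(poleSpace X.cusp N)) : 𝔽) := by
  unfold kfun kfunP
  rw [Submodule.coe_sum]
  rfl

theorem kcoef_mem {c : Fin (N + 1) → Ω} (hc : ∀ i, c i ∈ A) (ν : ↥(X.nongaps N)) :
    X.kcoef c ν ∈ A := by
  unfold kcoef
  split_ifs
  · exact A.one_mem
  · exact hc _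

theorem kfun_mem_W {c : Fin (N + 1) → Ω} (hc : ∀ i, c i ∈ A) : X.kfun hN c ∈ X.W := by
  rw [X.coe_kfunP_eq_sum]
  exact Subring.sum_mem _ fun ν _ => X.smul_mem_W (X.kcoef_mem hc ν) (X.canon_mem_W hN ν)

theorem kfun_zero : X.kfun hN (0 : Fin (N + 1) → Ω) = 1 := by
  rw [X.coe_kfunP_eq_sum, Finset.sum_eq_single ⟨0, X.zero_mem_nongaps⟩]
  · rw [kcoef, if_pos rfl, one_smul, X.canon_zero]
  · intro ν _ hne
    have : (ν : Fin (N + 1)) ≠ 0 := fun h => hne (Subtype.ext h)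
    rw [kcoef, if_neg this, Pi.zero_apply, zero_smul]
  · intro h
    exact absurd (Finset.mem_univ _) h

/-- the canonical coordinates of `k_c` determine the relevant entries of `c`. -/
theorem eq_of_kfun_eq {c c' : Fin (N + 1) → Ω} (h : X.kfun hN c = X.kfun hN c')
    (ν : ↥(X.nongaps N)) (hν : (ν : Fin (N + 1)) ≠ 0) : c ν = c' ν := by
  have h1 : X.kfunP hN c = X.kfunP hN c' := Subtype.ext h
  have h2 := X.pp_kfunP hN c ν
  rw [h1, X.pp_kfunP hN c' ν] at h2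
  unfold kcoef at h2
  rw [if_neg hν, if_neg hν] at h2
  exact h2.symm

/-- for `c ∈ 𝔪`, `k_c ≡ 1`. -/
theorem ρ_kfun {c : Fin (N + 1) → Ω} (hc : ∀ i, c i ∈ A.nonunits) :
    X.ρ ⟨X.kfun hN c, X.kfun_mem_W hN fun i => ValuationSubring.nonunits_le (hc i)⟩ = 1 := by
  have hcA : ∀ i, c i ∈ A := fun i => ValuationSubring.nonunits_le (hc i)
  -- the terms as elements of `W`
  let t : ↥(X.nongaps N) → ↥X.W := fun ν =>
    ⟨X.kcoef c ν • ((X.canon hN ν : ↥(poleSpace X.cusp N)) : 𝔽),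
      X.smul_mem_W (X.kcoef_mem hcA ν) (X.canon_mem_W hN ν)⟩
  have e : (⟨X.kfun hN c, X.kfun_mem_W hN hcA⟩ : ↥X.W) = ∑ ν, t ν := by
    apply Subtype.ext
    rw [show ((∑ ν, t ν : ↥X.W) : 𝔽) = ∑ ν, ((t ν : ↥X.W) : 𝔽) from
      map_sum X.W.subtype t Finset.univ]
    exact X.coe_kfunP_eq_sum hN c
  rw [e, map_sum, Finset.sum_eq_single ⟨0, X.zero_mem_nongaps⟩]
  · have : t ⟨0, X.zero_mem_nongaps⟩ = 1 := by
      apply Subtype.ext
      show X.kcoef c ⟨0, X.zero_mem_nongaps⟩ • _ = (1 : 𝔽)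
      rw [kcoef, if_pos rfl, one_smul, X.canon_zero]
    rw [this, map_one]
  · intro ν _ hne
    have hν : (ν : Fin (N + 1)) ≠ 0 := fun h => hne (Subtype.ext h)
    have h1 : t ν = ⟨(c ν : Ω) • ((X.canon hN ν : ↥(poleSpace X.cusp N)) : 𝔽),
        X.smul_mem_W (hcA ν) (X.canon_mem_W hN ν)⟩ := by
      apply Subtype.ext
      show X.kcoef c ν • _ = _
      rw [kcoef, if_neg hν]
    rw [h1]
    have h2 := X.ρ_smul ⟨c ν, hcA ν⟩ ⟨_, X.canon_mem_W hN ν⟩
    rw [h2]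
    obtain ⟨h3, h4⟩ := mem_nonunits_iff'.mp (hc ν)
    rw [h4, zero_smul]
  · intro h
    exact absurd (Finset.mem_univ _) h

theorem kfun_ne_zero {c : Fin (N + 1) → Ω} (hc : ∀ i, c i ∈ A.nonunits) : X.kfun hN c ≠ 0 := by
  apply X.ρ_ne_zero_imp_ne_zero (X.kfun_mem_W hN fun i => ValuationSubring.nonunits_le (hc i))
  rw [X.ρ_kfun hN hc]
  exact one_ne_zero

/-- rational automorphisms act on `k_c` through the coefficients. -/
theorem smul_kfun (g : SemilinearAut Ω 𝔽) (hg : X.IsRatAut g) (c : Fin (N + 1) → Ω) :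
    g • X.kfun hN c = X.kfun hN (fun i => SemilinearAut.baseAut g (c i)) := by
  rw [X.coe_kfunP_eq_sum, X.coe_kfunP_eq_sum, Finset.smul_sum]
  refine Finset.sum_congr rfl fun ν _ => ?_
  rw [Algebra.smul_def, smul_mul', SemilinearAut.smul_algebraMap, X.smul_canon hN g hg,
    ← Algebra.smul_def]
  congr 1
  unfold kcoef
  split_ifs
  · exact map_one _
  · rfl

end GoodRed

end Fermat.Agent.FG

end
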