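/-
FG — helper5 — [REFL] (K1): for `c ∈ 𝔪` the zero divisor `E_c = N∞ + div k_c` lies in the residue
disc of the base point, and `τ^N · Nm_{𝔽/Ω(τ)}(k_c) = const · (polyOf E_c)(τ)`.
-/
import Mathlib
import Fermat.Agent.FG.REFL_helper5_Kfun
import Fermat.Agent.FG.LAT_helper5_Poly
import Fermat.Agent.FG.LAT_helper5_Rep
import Fermat.Agent.FG.NORMDIV_helper2_Final

set_option autoImplicit false
set_option linter.unusedSectionVars false
set_option linter.style.haveILetI false

noncomputable section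

namespace Fermat.Agent.FG

open AlgebraicCurve IsLocalRing IntermediateField Fermat.Agent.FF Fermat.Agent.JA
open scoped Classical

namespace GoodRed

variable {Ω : Type*} [Field Ω] {A : ValuationSubring Ω} {𝔽 : Type*} [Field 𝔽] [Algebra Ω 𝔽]
  {𝔽b : Type*} [Field 𝔽b] [Algebra (ResidueField ↥A) 𝔽b] (X : GoodRed Ω A 𝔽 𝔽b)

/-! ### the divisor of a function -/

/-- the divisor of a function (`0` for the zero function). -/
def divOf (f : 𝔽) : Divisor Ω 𝔽 := if h : f ≠ 0 then (X.exists_div' f h).choose else 0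

theorem divOf_apply {f : 𝔽} (hf : f ≠ 0) (P : Place Ω 𝔽) : X.divOf f P = P.ord f := by
  rw [divOf, dif_pos hf]
  exact (X.exists_div' f hf).choose_spec.1 P

theorem degree_divOf (f : 𝔽) : Divisor.degree (X.divOf f) = 0 := by
  by_cases hf : f ≠ 0
  · rw [divOf, dif_pos hf]
    exact (X.exists_div' f hf).choose_spec.2
  · rw [divOf, dif_neg hf, map_zero]

/-- reduction of the divisor of a function. -/
theorem redDiv_divOf (y : ↥X.W) (hy : X.ρ y ≠ 0) (Q : Place (ResidueField ↥A) 𝔽b) :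
    X.redDiv (X.divOf (y : 𝔽)) Q = Q.ord (X.ρ y) := by
  have hy0 : (y : 𝔽) ≠ 0 := X.ρ_ne_zero_imp_ne_zero y.2 hy
  rw [redDiv_apply]
  exact X.r_div y hy _ (fun P => X.divOf_apply hy0 P) Q

theorem redDiv_single (P : Place Ω 𝔽) (n : ℤ) :
    X.redDiv (Finsupp.single P n) = Finsupp.single (X.r P) n := by
  rw [redDiv_apply, Finsupp.mapDomain_single]

/-- an effective divisor in the disc reduces to a multiple of the reduced base point. -/
theorem redDiv_of_inDisc {E : Divisor Ω 𝔽} (h : X.InDisc E) :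
    X.redDiv E = Finsupp.single X.cuspb (Divisor.degree E) := by
  have h1 : X.redDiv E = Finsupp.single X.cuspb (E.sum fun _ n => n) := by
    rw [redDiv_apply, Finsupp.mapDomain, Finsupp.sum, Finsupp.sum]
    rw [Finset.sum_congr rfl fun P hP => by rw [h.2 P hP]]
    rw [← Finsupp.single_finsetSum]
  rw [h1]
  congr 1
  rw [Divisor.degree, Finsupp.liftAddHom_apply, Finsupp.sum, Finsupp.sum]
  refine Finset.sum_congr rfl fun P _ => ?_
  simp [X.deg_gen]

/-! ### the product formula for `polyOf` -/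

/-- the linear factor `τ - τ(P)`. -/
def linFac (P : Place Ω 𝔽) : 𝔽 := X.τ - algebraMap Ω 𝔽 (X.tauVal P)

theorem linFac_ne_zero (P : Place Ω 𝔽) : X.linFac P ≠ 0 := by
  intro h
  have h1 : X.τ = algebraMap Ω 𝔽 (X.tauVal P) := sub_eq_zero.mp h
  have h2 : IsAlgebraic Ω X.τ := by
    rw [h1]
    exact isAlgebraic_algebraMap _
  exact X.τ_transcendental h2

theorem linFac_cusp : X.linFac X.cusp = X.τ := by
  rw [linFac, X.tauVal_cusp, map_zero, sub_zero]

/-- `∏_P (τ - τ(P))^{D(P)}`. -/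
def linProd (D : Divisor Ω 𝔽) : 𝔽 := D.prod fun P n => X.linFac P ^ n

theorem linProd_add (D D' : Divisor Ω 𝔽) : X.linProd (D + D') = X.linProd D * X.linProd D' :=
  Finsupp.prod_add_index' (fun _ => zpow_zero _) fun P m n => zpow_add₀ (X.linFac_ne_zero P) m n

theorem linProd_single (P : Place Ω 𝔽) (n : ℤ) : X.linProd (Finsupp.single P n) = X.linFac P ^ n := by
  unfold linProd
  rw [Finsupp.prod_single_index (zpow_zero _)]

theorem polyOf_eq_prod (E : Divisor Ω 𝔽) :
    X.polyOf E = ∏ P ∈ E.support, (Polynomial.X - Polynomial.C (X.tauVal P)) ^ (E P).toNat := by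
  unfold polyOf rootsOf
  rw [← Multiset.coe_mapAddMonoidHom, map_sum, Multiset.prod_sum]
  refine Finset.prod_congr rfl fun P _ => ?_
  rw [Multiset.coe_mapAddMonoidHom]
  rw [Multiset.map_nsmul, Multiset.prod_nsmul, Multiset.map_singleton, Multiset.prod_singleton]

theorem aeval_polyOf {E : Divisor Ω 𝔽} (h : X.InDisc E) :
    Polynomial.aeval X.τ (X.polyOf E) = X.linProd E := by
  rw [X.polyOf_eq_prod, map_prod]
  unfold linProd
  rw [Finsupp.prod]
  refine Finset.prod_congr rfl fun P _ => ?_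
  rw [map_pow, map_sub, Polynomial.aeval_X, Polynomial.aeval_C, ← zpow_natCast,
    Int.toNat_of_nonneg (h.1 P)]
  rfl

/-! ### (K1) -/

variable {N : ℕ} (hN : 2 * (X.g : ℤ) - 1 ≤ N)

/-- the zero divisor `E_c = N∞ + div k_c`. -/
def Ediv (c : Fin (N + 1) → Ω) : Divisor Ω 𝔽 :=
  X.divOf (X.kfun hN c) + Finsupp.single X.cusp (N : ℤ)

theorem degree_Ediv (c : Fin (N + 1) → Ω) : Divisor.degree (X.Ediv hN c) = N := by
  rw [Ediv, map_add, X.degree_divOf, zero_add, X.degree_single_cusp]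

theorem Ediv_apply {c : Fin (N + 1) → Ω} (h0 : X.kfun hN c ≠ 0) (P : Place Ω 𝔽) :
    X.Ediv hN c P = P.ord (X.kfun hN c) + if P = X.cusp then (N : ℤ) else 0 := by
  rw [Ediv, Finsupp.add_apply, X.divOf_apply h0, Finsupp.single_apply]
  congr 1
  by_cases h : P = X.cusp
  · rw [if_pos h, if_pos h.symm]
  · rw [if_neg h, if_neg (Ne.symm h)]

theorem inDisc_Ediv {c : Fin (N + 1) → Ω} (hc : ∀ i, c i ∈ A.nonunits) :
    X.InDisc (X.Ediv hN c) := by
  have h0 := X.kfun_ne_zero hN hc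
  have hcA : ∀ i, c i ∈ A := fun i => ValuationSubring.nonunits_le (hc i)
  have hpos : ∀ P, 0 ≤ X.Ediv hN c P := by
    intro P
    rw [X.Ediv_apply hN h0]
    obtain ⟨h1, h2⟩ := mem_poleSpace_iff.mp (X.kfun_mem_poleSpace hN c)
    by_cases hP : P = X.cusp
    · rw [if_pos hP, hP]
      rcases h1 with h1 | h1
      · exact absurd h1 h0
      · linarith
    · rw [if_neg hP, add_zero]
      rcases h2 P hP with h2 | h2
      · exact absurd h2 h0
      · exact h2
  refine ⟨hpos, X.support_subset_disc hpos fun Q hQ => ?_⟩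
  rw [Ediv, map_add, Finsupp.add_apply,
    X.redDiv_divOf ⟨X.kfun hN c, X.kfun_mem_W hN hcA⟩
      (by rw [X.ρ_kfun hN hc]; exact one_ne_zero), X.ρ_kfun hN hc, X.redDiv_single,
    Finsupp.single_apply, if_neg (show ¬ X.r X.cusp = Q from Ne.symm hQ), add_zero]
  exact Place.ord_one Q

/-- **(K1)**: `τ^N · Nm(k_c) = const · (polyOf E_c)(τ)`. -/
theorem norm_kfun [IsAlgClosed Ω] [CharZero Ω] {c : Fin (N + 1) → Ω}
    (hc : ∀ i, c i ∈ A.nonunits) :
    ∃ a : Ω, a ≠ 0 ∧
      X.τ ^ N * algebraMap ↥Ω⟮X.τ⟯ 𝔽 (haveI := X.τ_finite; Algebra.norm ↥Ω⟮X.τ⟯ (X.kfun hN c))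
        = algebraMap Ω 𝔽 a * Polynomial.aeval X.τ (X.polyOf (X.Ediv hN c)) := by
  haveI := X.τ_finite
  have h0 := X.kfun_ne_zero hN hc
  have hE := X.inDisc_Ediv hN hc
  have hval : ∀ P ∈ (X.divOf (X.kfun hN c)).support, HasValueAt P X.τ (X.tauVal P) := by
    intro P hP
    apply X.hasValueAt_tauVal
    by_cases hPc : P = X.cusp
    · rw [hPc]; rfl
    · apply hE.2 P
      rw [Finsupp.mem_support_iff] at hP ⊢
      rw [X.Ediv_apply hN h0, if_neg hPc, add_zero]
      rwa [X.divOf_apply h0] at hP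
  obtain ⟨a, ha, hnorm⟩ := norm_eq_prod X.τ X.τ_transcendental (X.kfun hN c) h0
    (X.divOf (X.kfun hN c)) (fun P => X.divOf_apply h0 P) X.tauVal hval
  refine ⟨a, ha, ?_⟩
  rw [hnorm, X.aeval_polyOf hE, Ediv, X.linProd_add, X.linProd_single, X.linFac_cusp, zpow_natCast]
  have : (∏ P ∈ (X.divOf (X.kfun hN c)).support,
      (X.τ - algebraMap Ω 𝔽 (X.tauVal P)) ^ (X.divOf (X.kfun hN c)) P)
      = X.linProd (X.divOf (X.kfun hN c)) := rfl
  rw [this]
  ring

end GoodRed

end Fermat.Agent.FG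

end
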