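/-
FG — helper5 — [REFL] (K2): an effective divisor `E` of degree `N` in the residue disc of the base
point with `E ~ N∞` is `E_c` for a `c ∈ 𝔪`, and `k_c` is determined by `E_c`.
-/
import Mathlib
import Fermat.Agent.FG.REFL_helper5_K1

set_option autoImplicit false
set_option linter.unusedSectionVars false
set_option linter.style.haveILetI false

noncomputable section

namespace Fermat.Agent.FG

open AlgebraicCurve IsLocalRing IntermediateField Fermat.Agent.FF Fermat.Agent.JA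
open scoped Classical

namespace GoodRed

variable {Ω : Type*} [Field Ω] {A : ValuationSubring Ω} {𝔽 : Type*} [Field 𝔽] [Algebra Ω 𝔽]
  {𝔽b : Type*} [Field 𝔽b] [Algebra (ResidueField ↥A) 𝔽b] (X : GoodRed Ω A 𝔽 𝔽b)

variable {N : ℕ} (hN : 2 * (X.g : ℤ) - 1 ≤ N)

theorem ord_smul_const (P : Place Ω 𝔽) {a : Ω} (ha : a ≠ 0) {f : 𝔽} (hf : f ≠ 0) :
    P.ord (a • f) = P.ord f := by
  rw [Algebra.smul_def, P.ord_mul ((map_ne_zero _).mpr ha) hf, PlaceAux.ord_algebraMap, zero_add]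

/-- **(K2), uniqueness.** -/
theorem kfun_eq_of_Ediv_eq {c c' : Fin (N + 1) → Ω} (hc : ∀ i, c i ∈ A.nonunits)
    (hc' : ∀ i, c' i ∈ A.nonunits) (h : X.Ediv hN c = X.Ediv hN c') :
    X.kfun hN c = X.kfun hN c' := by
  have h0 := X.kfun_ne_zero hN hc
  have h0' := X.kfun_ne_zero hN hc'
  have hord : ∀ P : Place Ω 𝔽, P.ord (X.kfun hN c) = P.ord (X.kfun hN c') := by
    intro P
    have h1 := X.Ediv_apply hN h0 P
    have h2 := X.Ediv_apply hN h0' P
    rw [h] at h1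
    linarith
  obtain ⟨a, ha⟩ := X.const_gen (X.kfun hN c / X.kfun hN c') (fun P => by
    rw [div_eq_mul_inv, P.ord_mul h0 (inv_ne_zero h0'), P.ord_inv, hord P, add_neg_cancel])
  have h1 : X.kfun hN c = a • X.kfun hN c' := by
    rw [Algebra.smul_def, ← ha, div_mul_cancel₀ _ h0']
  have h2 : X.kfunP hN c = a • X.kfunP hN c' := Subtype.ext h1
  have h3 := X.pp_kfunP hN c ⟨0, X.zero_mem_nongaps⟩
  rw [h2, map_smul, Pi.smul_apply, X.pp_kfunP hN c'] at h3
  unfold kcoef at h3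
  rw [if_pos rfl, if_pos rfl, smul_eq_mul, mul_one] at h3
  rw [h1, h3, one_smul]

/-- **(K2), existence.** -/
theorem exists_Ediv_eq {E : Divisor Ω 𝔽} (hE : X.InDisc E) (hdeg : Divisor.degree E = N)
    (hprin : Divisor.IsPrincipal (E - Finsupp.single X.cusp (N : ℤ))) :
    ∃ c : Fin (N + 1) → Ω, (∀ i, c i ∈ A.nonunits) ∧ X.Ediv hN c = E := by
  obtain ⟨f, hf0, hfD⟩ := hprin
  obtain ⟨a, ha, h1, h2⟩ := X.exists_smul_unit f hf0
  have hf10 : a • f ≠ 0 := smul_ne_zero ha hf0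
  have hord : ∀ P : Place Ω 𝔽, P.ord (a • f) = (E - Finsupp.single X.cusp (N : ℤ)) P := fun P => by
    rw [ord_smul_const P ha hf0, hfD P]
  have hρ0 : X.ρ ⟨a • f, h1⟩ ≠ 0 := (X.inv_mem_W_iff h1 hf10).mp h2
  -- the reduction of `a • f` has trivial divisor, hence is constant
  have hredD : X.redDiv (E - Finsupp.single X.cusp (N : ℤ)) = 0 := by
    rw [map_sub, X.redDiv_of_inDisc hE, X.redDiv_single, hdeg]
    exact sub_self _
  have hordb : ∀ Q : Place (ResidueField ↥A) 𝔽b, Q.ord (X.ρ ⟨a • f, h1⟩) = 0 := by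
    intro Q
    have := X.r_div ⟨a • f, h1⟩ hρ0 (E - Finsupp.single X.cusp (N : ℤ)) (fun P => (hord P).symm) Q
    rw [← this, ← redDiv_apply, hredD]
    rfl
  obtain ⟨ab, hab⟩ := X.const_red (X.ρ ⟨a • f, h1⟩) fun Q => (hordb Q).ge
  have hab0 : ab ≠ 0 := by
    rintro rfl
    rw [map_zero] at hab
    exact hρ0 hab
  -- `a • f ∈ L(N∞)`
  have hpole : a • f ∈ poleSpace X.cusp N := by
    rw [mem_poleSpace_iff]
    refine ⟨Or.inr ?_, fun Q hQ => Or.inr ?_⟩
    · rw [hord, Finsupp.sub_apply, Finsupp.single_eq_same]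
      have := hE.1 X.cusp
      linarith
    · rw [hord, Finsupp.sub_apply, Finsupp.single_eq_of_ne hQ, sub_zero]
      exact hE.1 Q
  set F : ↥(poleSpace X.cusp N) := ⟨a • f, hpole⟩ with hF
  have hFW : (F : 𝔽) ∈ X.W := h1
  have hppA : ∀ ν : ↥(X.nongaps N), X.pp N F ν ∈ A := fun ν => X.pp_mem_A_of_mem_W F hFW ν
  -- the reduction of `F` is `ab • canonb 0`
  have hred : X.redPole F hFW = ab • X.canonb hN ⟨0, X.zero_mem_nongaps⟩ := by
    apply Subtype.ext
    rw [X.coe_redPole]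
    show X.ρ ⟨a • f, h1⟩ = ab • ((X.canonb hN ⟨0, X.zero_mem_nongaps⟩ : ↥(poleSpace X.cuspb N)) : 𝔽b)
    rw [hab, canonb, X.coe_redPole]
    have : (⟨((X.canon hN ⟨0, X.zero_mem_nongaps⟩ : ↥(poleSpace X.cusp N)) : 𝔽),
        X.canon_mem_W hN ⟨0, X.zero_mem_nongaps⟩⟩ : ↥X.W) = 1 :=
      Subtype.ext (X.canon_zero hN)
    rw [this, map_one, Algebra.smul_def, mul_one]
  have hres : ∀ ν : ↥(X.nongaps N), residue ↥A ⟨X.pp N F ν, hppA ν⟩
      = if ν = ⟨0, X.zero_mem_nongaps⟩ then ab else 0 := by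
    intro ν
    rw [← X.ppb_redPole F hFW (ν : Fin (N + 1)) (hppA ν), hred, map_smul, Pi.smul_apply,
      X.ppb_canonb hN, smul_eq_mul]
    split_ifs
    · rw [mul_one]
    · rw [mul_zero]
  -- the leading coordinate is a unit
  set a₀ : Ω := X.pp N F (0 : Fin (N + 1)) with ha₀
  have ha₀A : a₀ ∈ A := hppA ⟨0, X.zero_mem_nongaps⟩
  have ha₀unit : a₀ ∉ A.nonunits := by
    intro hmem
    obtain ⟨h3, h4⟩ := mem_nonunits_iff'.mp hmem
    have := hres ⟨0, X.zero_mem_nongaps⟩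
    rw [if_pos rfl] at this
    exact hab0 (this.symm.trans h4)
  have ha₀0 : a₀ ≠ 0 := by
    intro h
    apply ha₀unit
    rw [h]
    exact zero_mem_nonunits
  have hv : A.valuation a₀ = 1 := by
    have h3 := (A.valuation_le_one_iff a₀).mpr ha₀A
    have h4 : ¬ A.valuation a₀ < 1 := fun h => ha₀unit ((ValuationSubring.mem_nonunits_iff (A := A)).mpr h)
    exact le_antisymm h3 (not_lt.mp h4)
  have ha₀inv : a₀⁻¹ ∈ A := by
    rw [← A.valuation_le_one_iff, map_inv₀, hv, inv_one]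
  -- the other coordinates are in `𝔪`
  have hppm : ∀ ν : ↥(X.nongaps N), (ν : Fin (N + 1)) ≠ 0 → X.pp N F ν ∈ A.nonunits := by
    intro ν hν
    rw [mem_nonunits_iff']
    refine ⟨hppA ν, ?_⟩
    rw [hres ν, if_neg]
    intro h
    exact hν (by rw [h])
  -- the coefficient vector
  let c : Fin (N + 1) → Ω := fun i =>
    if h : i ∈ X.nongaps N ∧ i ≠ 0 then X.pp N F i * a₀⁻¹ else 0
  have hc : ∀ i, c i ∈ A.nonunits := by
    intro i
    show (if h : i ∈ X.nongaps N ∧ i ≠ 0 then X.pp N F i * a₀⁻¹ else 0) ∈ A.nonunits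
    split_ifs with h
    · exact mul_mem_nonunits_left (hppm ⟨i, h.1⟩ h.2) ha₀inv
    · exact zero_mem_nonunits
  have hkf : a₀⁻¹ • F = X.kfunP hN c := by
    apply X.eq_kfunP_of_pp hN c
    intro ν
    rw [map_smul, Pi.smul_apply, smul_eq_mul]
    unfold kcoef
    by_cases hν : (ν : Fin (N + 1)) = 0
    · rw [if_pos hν]
      have : ν = ⟨0, X.zero_mem_nongaps⟩ := Subtype.ext hν
      rw [this]
      exact inv_mul_cancel₀ ha₀0
    · rw [if_neg hν]
      show _ = (if h : (ν : Fin (N + 1)) ∈ X.nongaps N ∧ (ν : Fin (N + 1)) ≠ 0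
        then X.pp N F (ν : Fin (N + 1)) * a₀⁻¹ else 0)
      rw [dif_pos ⟨ν.2, hν⟩, mul_comm]
  have hkf' : X.kfun hN c = a₀⁻¹ • (a • f) := by
    unfold kfun
    rw [← hkf]
    rfl
  refine ⟨c, hc, ?_⟩
  ext P
  have hk0 : X.kfun hN c ≠ 0 := X.kfun_ne_zero hN hc
  rw [X.Ediv_apply hN hk0, hkf', ord_smul_const P (inv_ne_zero ha₀0) hf10, hord,
    Finsupp.sub_apply, Finsupp.single_apply]
  by_cases hP : P = X.cusp
  · rw [if_pos hP, if_pos hP.symm]; ring
  · rw [if_neg hP, if_neg (Ne.symm hP)]; ring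

end GoodRed

end Fermat.Agent.FG

end
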