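/-
FG — helper5 — [REFL] generic `MvPolynomial` lemmas: the linear-coefficient functional
`lin l p = constantCoeff (pderiv l p)`, and polynomials with coefficients in a subring.
-/
import Mathlib

set_option autoImplicit false
set_option linter.unusedSectionVars false

noncomputable section

namespace Fermat.Agent.FG

open MvPolynomial

section Lin

variable {R : Type*} [CommRing R] {σ τ : Type*}

/-- the coefficient of `X_l` (the partial derivative at the origin). -/
def lin (l : σ) (p : MvPolynomial σ R) : R := constantCoeff (pderiv l p)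

theorem lin_eq_coeff (l : σ) (p : MvPolynomial σ R) :
    lin l p = coeff (Finsupp.single l 1) p := by
  classical
  rw [lin, constantCoeff_eq, coeff_pderiv, zero_add]
  simp

@[simp] theorem lin_add (l : σ) (p q : MvPolynomial σ R) : lin l (p + q) = lin l p + lin l q := by
  simp [lin]

@[simp] theorem lin_sub (l : σ) (p q : MvPolynomial σ R) : lin l (p - q) = lin l p - lin l q := by
  simp [lin]

@[simp] theorem lin_neg (l : σ) (p : MvPolynomial σ R) : lin l (-p) = -lin l p := by
  simp [lin]

@[simp] theorem lin_zero (l : σ) : lin l (0 : MvPolynomial σ R) = 0 := by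
  simp [lin]

theorem lin_sum {ι : Type*} (l : σ) (s : Finset ι) (f : ι → MvPolynomial σ R) :
    lin l (∑ i ∈ s, f i) = ∑ i ∈ s, lin l (f i) := by
  simp [lin]

theorem lin_mul (l : σ) (p q : MvPolynomial σ R) :
    lin l (p * q) = lin l p * constantCoeff q + constantCoeff p * lin l q := by
  simp only [lin, Derivation.leibniz, smul_eq_mul, map_add, map_mul]
  ring

@[simp] theorem lin_C (l : σ) (a : R) : lin l (C a : MvPolynomial σ R) = 0 := by
  simp [lin]

@[simp] theorem lin_one (l : σ) : lin l (1 : MvPolynomial σ R) = 0 := by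
  simp [lin]

theorem lin_X [DecidableEq σ] (l j : σ) : lin l (X j : MvPolynomial σ R) = if j = l then 1 else 0 := by
  rw [lin, pderiv_X]
  by_cases h : j = l
  · subst h
    simp
  · rw [if_neg h, Pi.single_eq_of_ne h]
    simp

theorem lin_rename {e : τ → σ} (he : Function.Injective e) (i : τ) (p : MvPolynomial τ R) :
    lin (e i) (rename e p) = lin i p := by
  classical
  rw [lin_eq_coeff, lin_eq_coeff]
  have : Finsupp.single (e i) 1 = Finsupp.mapDomain e (Finsupp.single i 1) := by
    rw [Finsupp.mapDomain_single]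
  rw [this, coeff_rename_mapDomain e he]

theorem lin_rename_of_notMem_range {e : τ → σ} {l : σ} (hl : l ∉ Set.range e)
    (p : MvPolynomial τ R) : lin l (rename e p) = 0 := by
  classical
  rw [lin_eq_coeff]
  apply coeff_rename_eq_zero
  intro u hu
  exfalso
  apply hl
  have h1 : (Finsupp.mapDomain e u) l = 1 := by rw [hu]; simp
  by_contra hcon
  have h2 : (Finsupp.mapDomain e u) l = 0 := by
    rw [Finsupp.mapDomain, Finsupp.sum_apply, Finsupp.sum]
    refine Finset.sum_eq_zero fun a _ => ?_
    rw [Finsupp.single_apply, if_neg]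
    intro h
    exact hcon ⟨a, h⟩
  rw [h2] at h1
  exact zero_ne_one h1

end Lin

section Over

variable {R : Type*} [CommRing R] (B : Subring R) (σ : Type*)

/-- polynomials with coefficients in the subring `B`. -/
def polyOver : Subring (MvPolynomial σ R) := (MvPolynomial.map B.subtype).range

variable {B σ}

theorem coeff_mem_of_mem_polyOver {p : MvPolynomial σ R} (hp : p ∈ polyOver B σ)
    (m : σ →₀ ℕ) : coeff m p ∈ B := by
  obtain ⟨q, rfl⟩ := hp
  rw [coeff_map]
  exact (coeff m q).2

theorem mem_polyOver_of_coeff_mem {p : MvPolynomial σ R} (hp : ∀ m, coeff m p ∈ B) :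
    p ∈ polyOver B σ := by
  classical
  show p ∈ Set.range (MvPolynomial.map B.subtype)
  rw [mem_range_map_iff_coeffs_subset]
  intro a ha
  rw [Finset.mem_coe, mem_coeffs_iff] at ha
  obtain ⟨m, -, rfl⟩ := ha
  exact ⟨⟨_, hp m⟩, rfl⟩

theorem X_mem_polyOver (i : σ) : (X i : MvPolynomial σ R) ∈ polyOver B σ :=
  ⟨X i, by simp⟩

theorem C_mem_polyOver {a : R} (ha : a ∈ B) : (C a : MvPolynomial σ R) ∈ polyOver B σ :=
  ⟨C ⟨a, ha⟩, by simp⟩

theorem rename_mem_polyOver {τ : Type*} (e : σ → τ) {p : MvPolynomial σ R}
    (hp : p ∈ polyOver B σ) : rename e p ∈ polyOver B τ := by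
  obtain ⟨q, rfl⟩ := hp
  exact ⟨rename e q, by rw [map_rename]⟩

end Over

end Fermat.Agent.FG

end
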