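/-
FG — helper5 — [REFL] (R3, interface): the norm polynomials `M_j` (output of [NORMPOLY]) and their
first consequences: `M_c(T) = Σ_j M_j(c) T^j = M_N(c) · polyOf(E_c)` for `c ∈ 𝔪`.
-/
import Mathlib
import Fermat.Agent.FG.REFL_helper5_K2
import Fermat.Agent.FG.REFL_helper5_Lin

set_option autoImplicit false
set_option linter.unusedSectionVars false
set_option linter.style.haveILetI false

noncomputable section

namespace Fermat.Agent.FG

open AlgebraicCurve IsLocalRing IntermediateField Fermat.Agent.FF Fermat.Agent.JA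
open scoped Classical

namespace GoodRed

variable {Ω : Type*} [Field Ω] {A : ValuationSubring Ω} {𝔽 : Type*} [Field 𝔽] [Algebra Ω 𝔽]
  {𝔽b : Type*} [Field 𝔽b] [Algebra (ResidueField ↥A) 𝔽b] (X : GoodRed Ω A 𝔽 𝔽b)

variable {N : ℕ} (hN : 2 * (X.g : ℤ) - 1 ≤ N)

/-- **the output of [NORMPOLY]** at level `N`. -/
structure NormPoly where
  /-- `M_j ∈ A[c]`, `T^N · Nm(k_c) = Σ_j M_j(c) T^j` -/
  M : Fin (N + 1) → MvPolynomial (Fin (N + 1)) Ω
  eval_eq : ∀ c : Fin (N + 1) → Ω,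
    ∑ j : Fin (N + 1), algebraMap Ω 𝔽 (MvPolynomial.eval c (M j)) * X.τ ^ (j : ℕ)
      = X.τ ^ N * algebraMap ↥Ω⟮X.τ⟯ 𝔽 (Algebra.norm ↥Ω⟮X.τ⟯ (X.kfun hN c))
  coeff_mem : ∀ j m, MvPolynomial.coeff m (M j) ∈ A
  coeff_rat : ∀ g : SemilinearAut Ω 𝔽, X.IsRatAut g → ∀ j m,
    SemilinearAut.baseAut g (MvPolynomial.coeff m (M j)) = MvPolynomial.coeff m (M j)
  /-- the linear terms modulo `𝔪`: the principal parts of the reduced canonical basis -/
  lin_res : ∀ (i' i : Fin (N + 1)) (_ : i ≠ 0) (h : lin i' (M (Fin.rev i)) ∈ A),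
    residue ↥A ⟨lin i' (M (Fin.rev i)), h⟩
      = if h' : i' ∈ X.nongaps N ∧ i' ≠ 0 then X.ppb N (X.canonb hN ⟨i', h'.1⟩) i else 0

variable {X hN}
variable (NP : X.NormPoly hN)

namespace NormPoly

/-- `M_c(T) = Σ_j M_j(c) T^j`. -/
def Mpoly (c : Fin (N + 1) → Ω) : Polynomial Ω :=
  ∑ j : Fin (N + 1), Polynomial.C (MvPolynomial.eval c (NP.M j)) * Polynomial.X ^ (j : ℕ)

theorem coeff_Mpoly (c : Fin (N + 1) → Ω) (j : Fin (N + 1)) :
    (NP.Mpoly c).coeff (j : ℕ) = MvPolynomial.eval c (NP.M j) := by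
  unfold Mpoly
  rw [Polynomial.finsetSum_coeff, Finset.sum_eq_single j]
  · rw [Polynomial.coeff_C_mul_X_pow, if_pos rfl]
  · intro j' _ hne
    rw [Polynomial.coeff_C_mul_X_pow, if_neg]
    intro h
    exact hne (Fin.ext h.symm)
  · intro h
    exact absurd (Finset.mem_univ j) h

theorem coeff_Mpoly_of_lt (c : Fin (N + 1) → Ω) {k : ℕ} (hk : N < k) :
    (NP.Mpoly c).coeff k = 0 := by
  unfold Mpoly
  rw [Polynomial.finsetSum_coeff]
  refine Finset.sum_eq_zero fun j _ => ?_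
  rw [Polynomial.coeff_C_mul_X_pow, if_neg]
  have := j.2
  omega

theorem aeval_Mpoly (c : Fin (N + 1) → Ω) :
    Polynomial.aeval X.τ (NP.Mpoly c)
      = X.τ ^ N * algebraMap ↥Ω⟮X.τ⟯ 𝔽 (Algebra.norm ↥Ω⟮X.τ⟯ (X.kfun hN c)) := by
  rw [← NP.eval_eq c]
  unfold Mpoly
  rw [map_sum]
  refine Finset.sum_congr rfl fun j _ => ?_
  rw [map_mul, Polynomial.aeval_C, map_pow, Polynomial.aeval_X]

theorem aeval_τ_injective : Function.Injective (Polynomial.aeval (R := Ω) X.τ) :=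
  transcendental_iff_injective.mp X.τ_transcendental

/-- `M_c` only depends on the function `k_c`. -/
theorem Mpoly_congr {c c' : Fin (N + 1) → Ω} (h : X.kfun hN c = X.kfun hN c') :
    NP.Mpoly c = NP.Mpoly c' := by
  apply aeval_τ_injective (X := X)
  rw [NP.aeval_Mpoly, NP.aeval_Mpoly, h]

theorem eval_congr {c c' : Fin (N + 1) → Ω} (h : X.kfun hN c = X.kfun hN c') (j : Fin (N + 1)) :
    MvPolynomial.eval c (NP.M j) = MvPolynomial.eval c' (NP.M j) := by
  rw [← NP.coeff_Mpoly, ← NP.coeff_Mpoly, NP.Mpoly_congr h]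

/-- `M_0(T) = T^N`. -/
theorem Mpoly_zero : NP.Mpoly (0 : Fin (N + 1) → Ω) = Polynomial.X ^ N := by
  apply aeval_τ_injective (X := X)
  rw [NP.aeval_Mpoly, X.kfun_zero, map_one, map_one, mul_one, map_pow, Polynomial.aeval_X]

theorem eval_zero (j : Fin (N + 1)) :
    MvPolynomial.eval (0 : Fin (N + 1) → Ω) (NP.M j) = if j = Fin.last N then 1 else 0 := by
  rw [← NP.coeff_Mpoly, NP.Mpoly_zero, Polynomial.coeff_X_pow]
  by_cases h : j = Fin.last N
  · rw [if_pos h, if_pos (by rw [h]; rfl)]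
  · rw [if_neg h, if_neg]
    intro h'
    exact h (Fin.ext (by rw [h']; rfl))

theorem constantCoeff_M (j : Fin (N + 1)) :
    MvPolynomial.constantCoeff (NP.M j) = if j = Fin.last N then 1 else 0 := by
  rw [← NP.eval_zero j, MvPolynomial.eval_zero]

/-- **(K1), polynomial form.** -/
theorem Mpoly_eq [IsAlgClosed Ω] [CharZero Ω] {c : Fin (N + 1) → Ω}
    (hc : ∀ i, c i ∈ A.nonunits) :
    NP.Mpoly c = Polynomial.C (MvPolynomial.eval c (NP.M (Fin.last N))) *
      X.polyOf (X.Ediv hN c) ∧ MvPolynomial.eval c (NP.M (Fin.last N)) ≠ 0 := by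
  obtain ⟨a, ha, hnorm⟩ := X.norm_kfun hN hc
  have h1 : NP.Mpoly c = Polynomial.C a * X.polyOf (X.Ediv hN c) := by
    apply aeval_τ_injective (X := X)
    rw [NP.aeval_Mpoly, hnorm, map_mul, Polynomial.aeval_C]
  have hdeg : (X.polyOf (X.Ediv hN c)).natDegree = N := by
    have := X.natDegree_polyOf_of_inDisc (X.inDisc_Ediv hN hc)
    rw [X.degree_Ediv] at this
    exact_mod_cast this
  have h2 : MvPolynomial.eval c (NP.M (Fin.last N)) = a := by
    rw [← NP.coeff_Mpoly, h1, Polynomial.coeff_C_mul, Fin.val_last]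
    have := (X.monic_polyOf (X.Ediv hN c)).coeff_natDegree
    rw [hdeg] at this
    rw [this, mul_one]
  rw [h2]
  exact ⟨h1, ha⟩

end NormPoly

end GoodRed

end Fermat.Agent.FG

end
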