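/-
FG — helper5 — [REFL] gap lemmas: the principal part of `canonb ν` vanishes above `ν`;
all positions `≥ 2g` are nongaps.
-/
import Mathlib
import Fermat.Agent.FG.LAT_helper5_CanonAPI

set_option autoImplicit false
set_option linter.unusedSectionVars false
set_option linter.style.haveILetI false

noncomputable section

namespace Fermat.Agent.FG

open AlgebraicCurve IsLocalRing IntermediateField Fermat.Agent.FF Fermat.Agent.JA
open scoped Classical

section Generic

variable {K F : Type*} [Field K] [Field F] [Algebra K F]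
variable (P : Place K F) (hdeg : P.deg = 1) (π : F) (hπ : P.ord π = 1)

/-- if the principal part of `f ∈ L(mP)` vanishes at all nongap positions above `ν`, it vanishes
at all positions above `ν` (the pole order of a function is a nongap). -/
theorem ppFun_eq_zero_above {m ν : ℕ} {f : F} (hf : f ∈ poleSpace P m)
    (h : ∀ i, ν < i → i ≤ m → IsNongap P hdeg π hπ i → ppFun P hdeg π hπ m f i = 0) :
    ∀ i, ν < i → i ≤ m → ppFun P hdeg π hπ m f i = 0 := by
  by_contra hcon
  push Not at hcon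
  -- the largest bad position
  have hex : ∃ p, (ν < p ∧ p ≤ m ∧ ppFun P hdeg π hπ m f p ≠ 0) := hcon
  let S : Finset ℕ := (Finset.range (m + 1)).filter fun p => ν < p ∧ ppFun P hdeg π hπ m f p ≠ 0
  have hS : S.Nonempty := by
    obtain ⟨p, h1, h2, h3⟩ := hex
    exact ⟨p, Finset.mem_filter.mpr ⟨Finset.mem_range.mpr (by omega), h1, h3⟩⟩
  set p := S.max' hS with hp
  have hpS : p ∈ S := Finset.max'_mem S hS
  obtain ⟨hpm, hνp, hpne⟩ := Finset.mem_filter.mp hpS
  rw [Finset.mem_range] at hpm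
  have habove : ∀ i, p < i → i ≤ m → ppFun P hdeg π hπ m f i = 0 := by
    intro i hi him
    by_contra hne
    have : i ∈ S := Finset.mem_filter.mpr ⟨Finset.mem_range.mpr (by omega), by omega, hne⟩
    have := Finset.le_max' S i this
    omega
  obtain ⟨h1, h2⟩ := mem_poleSpace_iff.mp hf
  have hordp : OrdGE P (-(p : ℤ)) f :=
    ordGE_of_ppFun_eq_zero P hdeg π hπ (by omega) h1 habove
  have hfp : f ∈ poleSpace P p := mem_poleSpace_iff.mpr ⟨hordp, h2⟩
  have heq := (ppFun_of_le P hdeg π hπ (show p ≤ m by omega) hordp).1 p le_rfl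
  have hnongap : IsNongap P hdeg π hπ p := by
    refine ⟨⟨f, hfp⟩, ?_⟩
    rw [ppMap_apply]
    show ppFun P hdeg π hπ p f p ≠ 0
    rw [← heq]
    exact hpne
  exact hpne (h p hνp (by omega) hnongap)

end Generic

namespace GoodRed

variable {Ω : Type*} [Field Ω] {A : ValuationSubring Ω} {𝔽 : Type*} [Field 𝔽] [Algebra Ω 𝔽]
  {𝔽b : Type*} [Field 𝔽b] [Algebra (ResidueField ↥A) 𝔽b] (X : GoodRed Ω A 𝔽 𝔽b)

variable {m : ℕ} (hm : 2 * (X.g : ℤ) - 1 ≤ m)

/-- the reduced canonical basis element `canonb ν` has pole order `ν`: its principal part vanishes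
above `ν`. -/
theorem ppb_canonb_of_lt (ν : ↥(X.nongaps m)) (i : Fin (m + 1))
    (hi : ((ν : Fin (m + 1)) : ℕ) < (i : ℕ)) : X.ppb m (X.canonb hm ν) i = 0 := by
  have key := ppFun_eq_zero_above X.cuspb (X.deg_red _) X.τb X.ord_cuspb_τb
    (m := m) (ν := ((ν : Fin (m + 1)) : ℕ)) (X.canonb hm ν).2 (fun j hj hjm hnong => by
      have hjmem : (⟨j, Nat.lt_succ_of_le hjm⟩ : Fin (m + 1)) ∈ X.nongaps m :=
        X.mem_nongaps.mpr hnong
      have := X.ppb_canonb hm ν ⟨⟨j, Nat.lt_succ_of_le hjm⟩, hjmem⟩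
      rw [if_neg] at this
      · exact this
      · intro heq
        have : j = ((ν : Fin (m + 1)) : ℕ) := by
          have := congrArg (fun x : ↥(X.nongaps m) => ((x : Fin (m + 1)) : ℕ)) heq
          simpa using this
        omega)
  exact key i hi (Nat.lt_succ_iff.mp i.2)

/-- every position `≥ 2g` is a nongap. -/
theorem isNongapb_of_le {ν : ℕ} (hν : 2 * X.g ≤ ν) : X.IsNongapb ν := by
  rcases Nat.eq_zero_or_pos ν with rfl | hpos
  · exact X.isNongapb_zero
  obtain ⟨k, rfl⟩ : ∃ k, ν = k + 1 := ⟨ν - 1, by omega⟩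
  have hk : 2 * (X.g : ℤ) - 1 ≤ k := by
    have : (2 * X.g : ℕ) ≤ k + 1 := hν
    have h2 : ((2 * X.g : ℕ) : ℤ) ≤ ((k + 1 : ℕ) : ℤ) := by exact_mod_cast this
    push_cast at h2
    omega
  have hk1 : 2 * (X.g : ℤ) - 1 ≤ (k + 1 : ℕ) := by push_cast; omega
  have h1 := X.finrank_poleSpaceb hk
  have h2 := X.finrank_poleSpaceb hk1
  rw [finrank_poleSpace_eq_nongapCount X.cuspb (X.deg_red _) X.τb X.ord_cuspb_τb X.const_red
    X.finite_poleSpaceb'] at h1 h2
  rw [nongapCount_succ] at h2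
  by_contra hcon
  rw [if_neg (show ¬ IsNongap X.cuspb (X.deg_red _) X.τb X.ord_cuspb_τb (k + 1) from hcon)] at h2
  push_cast at h1 h2
  omega

/-- gap positions are `< 2g`. -/
theorem lt_of_not_isNongapb {ν : ℕ} (hν : ¬ X.IsNongapb ν) : ν < 2 * X.g := by
  by_contra h
  exact hν (X.isNongapb_of_le (by omega))

end GoodRed

end Fermat.Agent.FG

end
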