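/-
FG — helper5 — [REFL] (R5, definitions): the reflection system `Σ(N₁)`.
Unknowns `u : Fin (N+1) → Ω` (`N = N₁ + n`), one per position: at nonzero nongap positions `u` is
the coefficient vector `c` of `k_c`, at gap positions it is the vector `y` of `D_y`.
Equations (one per position `i ≠ 0`): the coefficient of `T^{N-i}` in
`M_c(T) - M_N(c) · W(T) · D_y(T)`.
-/
import Mathlib
import Fermat.Agent.FG.REFL_helper5_NP
import Fermat.Agent.FG.REFL_helper5_Tri

set_option autoImplicit false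
set_option linter.unusedSectionVars false
set_option linter.style.haveILetI false

noncomputable section

namespace Fermat.Agent.FG

open AlgebraicCurve IsLocalRing IntermediateField Fermat.Agent.FF Fermat.Agent.JA
open scoped Classical

/-- `ℤ`-indexed version of a coefficient function (zero at negative indices). -/
def zc {R : Type*} [Zero R] (ω : ℕ → R) (a : ℤ) : R := if 0 ≤ a then ω a.toNat else 0

theorem zc_map {R S : Type*} [Zero R] [Zero S] (f : R → S) (hf : f 0 = 0) (ω : ℕ → R) (a : ℤ) :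
    f (zc ω a) = zc (fun k => f (ω k)) a := by
  unfold zc
  split_ifs
  · rfl
  · exact hf

theorem zc_natCast {R : Type*} [Zero R] (ω : ℕ → R) (k : ℕ) : zc ω (k : ℤ) = ω k := by
  unfold zc
  rw [if_pos (Int.natCast_nonneg k), Int.toNat_natCast]

theorem zc_of_neg {R : Type*} [Zero R] (ω : ℕ → R) {a : ℤ} (ha : a < 0) : zc ω a = 0 := by
  unfold zc
  rw [if_neg (not_le.mpr ha)]

namespace GoodRed

variable {Ω : Type*} [Field Ω] {A : ValuationSubring Ω} {𝔽 : Type*} [Field 𝔽] [Algebra Ω 𝔽]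
  {𝔽b : Type*} [Field 𝔽b] [Algebra (ResidueField ↥A) 𝔽b] (X : GoodRed Ω A 𝔽 𝔽b)

/-! ### the polynomial `D_y` -/

/-- `D_y(T) = T^n + Σ_{γ gap} y_γ T^{n-γ}`. -/
def Dy (n : ℕ) (y : Fin (n + 1) → Ω) : Polynomial Ω :=
  Polynomial.X ^ n + ∑ γ : Fin (n + 1), if γ ∈ X.nongaps n then 0 else
    Polynomial.C (y γ) * Polynomial.X ^ (n - (γ : ℕ))

/-- positions of level `n` as positions of level `N₁ + n`. -/
def gpos (N₁ n : ℕ) : Fin (n + 1) → Fin (N₁ + n + 1) := Fin.castLE (by omega)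

@[simp] theorem coe_gpos (N₁ n : ℕ) (γ : Fin (n + 1)) : ((gpos N₁ n γ : Fin (N₁ + n + 1)) : ℕ) = γ :=
  rfl

theorem gpos_injective (N₁ n : ℕ) : Function.Injective (gpos N₁ n) :=
  Fin.castLE_injective _

/-- the coefficient of `T^{N-i}` in `W · D_y`. -/
theorem coeff_mul_Dy (N₁ n : ℕ) (W : Polynomial Ω) (y : Fin (n + 1) → Ω) (i : Fin (N₁ + n + 1)) :
    (W * X.Dy n y).coeff (N₁ + n - (i : ℕ))
      = zc W.coeff ((N₁ : ℤ) - i) + ∑ γ : Fin (n + 1), if γ ∈ X.nongaps n then 0 else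
          y γ * zc W.coeff ((N₁ : ℤ) - i + γ) := by
  have hi : (i : ℕ) ≤ N₁ + n := Nat.lt_succ_iff.mp i.2
  unfold Dy
  rw [mul_add, Polynomial.coeff_add, Finset.mul_sum, Polynomial.finsetSum_coeff]
  congr 1
  · rw [Polynomial.coeff_mul_X_pow']
    unfold zc
    by_cases h : n ≤ N₁ + n - (i : ℕ)
    · rw [if_pos h, if_pos (by omega)]
      congr 1
      omega
    · rw [if_neg h, if_neg (by omega)]
  · refine Finset.sum_congr rfl fun γ _ => ?_
    by_cases hγ : γ ∈ X.nongaps n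
    · rw [if_pos hγ, if_pos hγ, mul_zero, Polynomial.coeff_zero]
    · rw [if_neg hγ, if_neg hγ]
      have hγn : (γ : ℕ) ≤ n := Nat.lt_succ_iff.mp γ.2
      rw [← mul_assoc, mul_comm W, mul_assoc, Polynomial.coeff_C_mul,
        Polynomial.coeff_mul_X_pow']
      congr 1
      unfold zc
      by_cases h : n - (γ : ℕ) ≤ N₁ + n - (i : ℕ)
      · rw [if_pos h, if_pos (by omega)]
        congr 1
        omega
      · rw [if_neg h, if_neg (by omega)]

variable {n N₁ : ℕ} {hN : 2 * (X.g : ℤ) - 1 ≤ (N₁ + n : ℕ)} (NP : X.NormPoly hN)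

variable {V : Type*} (e : Fin (N₁ + n + 1) → V) (ω : ℕ → MvPolynomial V Ω)

/-! ### the system -/

/-- the coefficient of `T^{N-i}` in `W · D`, as a polynomial in the variables. -/
def wd (i : Fin (N₁ + n + 1)) : MvPolynomial V Ω :=
  zc ω ((N₁ : ℤ) - i) + ∑ γ : Fin (n + 1), if γ ∈ X.nongaps n then 0 else
    MvPolynomial.X (e (gpos N₁ n γ)) * zc ω ((N₁ : ℤ) - i + γ)

/-- **the reflection system.** -/
def sysG (i : Fin (N₁ + n + 1)) : MvPolynomial V Ω :=
  if i = 0 then MvPolynomial.X (e 0) else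
    MvPolynomial.rename e (NP.M (Fin.rev i))
      - MvPolynomial.rename e (NP.M (Fin.last (N₁ + n))) * X.wd e ω i

/-! ### evaluation -/

theorem eval_wd (v : V → Ω) (W : Polynomial Ω) (hW : ∀ a, W.coeff a = MvPolynomial.eval v (ω a))
    (i : Fin (N₁ + n + 1)) :
    MvPolynomial.eval v (X.wd e ω i)
      = (W * X.Dy n (fun γ => v (e (gpos N₁ n γ)))).coeff (N₁ + n - (i : ℕ)) := by
  rw [X.coeff_mul_Dy N₁ n W]
  unfold wd
  have hz : ∀ a : ℤ, MvPolynomial.eval v (zc ω a) = zc W.coeff a := by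
    intro a
    rw [zc_map (MvPolynomial.eval v) (map_zero _)]
    unfold zc
    split_ifs
    · exact (hW _).symm
    · rfl
  rw [map_add, hz, map_sum]
  congr 1
  refine Finset.sum_congr rfl fun γ _ => ?_
  by_cases hγ : γ ∈ X.nongaps n
  · rw [if_pos hγ, if_pos hγ, map_zero]
  · rw [if_neg hγ, if_neg hγ, map_mul, MvPolynomial.eval_X, hz]

theorem eval_sysG (v : V → Ω) (W : Polynomial Ω) (hW : ∀ a, W.coeff a = MvPolynomial.eval v (ω a))
    (i : Fin (N₁ + n + 1)) (hi : i ≠ 0) :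
    MvPolynomial.eval v (X.sysG NP e ω i)
      = (NP.Mpoly (v ∘ e) - Polynomial.C (MvPolynomial.eval (v ∘ e) (NP.M (Fin.last (N₁ + n))))
          * (W * X.Dy n (fun γ => v (e (gpos N₁ n γ))))).coeff (N₁ + n - (i : ℕ)) := by
  unfold sysG
  rw [if_neg hi, map_sub, map_mul, MvPolynomial.eval_rename, MvPolynomial.eval_rename,
    X.eval_wd e ω v W hW, Polynomial.coeff_sub, Polynomial.coeff_C_mul]
  congr 1
  have : (N₁ + n - (i : ℕ)) = ((Fin.rev i : Fin (N₁ + n + 1)) : ℕ) := by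
    rw [Fin.val_rev]
    omega
  rw [this, NP.coeff_Mpoly]

end GoodRed

end Fermat.Agent.FG

end
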