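/-
FG — helper5 — [REFL] (R5): properties of the reflection system: `D_y` is distinguished, solutions
of the system ⟺ `polyOf(E_c) = W · D_y`, linear and constant coefficients, integrality.
-/
import Mathlib
import Fermat.Agent.FG.REFL_helper5_Sys

set_option autoImplicit false
set_option linter.unusedSectionVars false
set_option linter.style.haveILetI false

noncomputable section

namespace Fermat.Agent.FG

open AlgebraicCurve IsLocalRing IntermediateField Fermat.Agent.FF Fermat.Agent.JA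
open scoped Classical

theorem sum_mem_nonunits {Ω : Type*} [Field Ω] {A : ValuationSubring Ω} {ι : Type*}
    (s : Finset ι) (f : ι → Ω) (h : ∀ i ∈ s, f i ∈ A.nonunits) : ∑ i ∈ s, f i ∈ A.nonunits := by
  induction s using Finset.induction_on with
  | empty => rw [Finset.sum_empty]; exact zero_mem_nonunits
  | insert a s ha ih =>
    rw [Finset.sum_insert ha]
    exact add_mem_nonunits (h a (Finset.mem_insert_self a s))
      (ih fun i hi => h i (Finset.mem_insert_of_mem hi))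

namespace GoodRed

variable {Ω : Type*} [Field Ω] {A : ValuationSubring Ω} {𝔽 : Type*} [Field 𝔽] [Algebra Ω 𝔽]
  {𝔽b : Type*} [Field 𝔽b] [Algebra (ResidueField ↥A) 𝔽b] (X : GoodRed Ω A 𝔽 𝔽b)

/-! ### `D_y` is distinguished -/

theorem gap_pos {n : ℕ} {γ : Fin (n + 1)} (hγ : γ ∉ X.nongaps n) : 0 < (γ : ℕ) := by
  rcases Nat.eq_zero_or_pos (γ : ℕ) with h | h
  · exfalso
    apply hγ
    rw [X.mem_nongaps, h]
    exact X.isNongapb_zero
  · exact h

theorem degree_Dy_tail_lt (n : ℕ) (y : Fin (n + 1) → Ω) :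
    (∑ γ : Fin (n + 1), if γ ∈ X.nongaps n then 0 else
      Polynomial.C (y γ) * Polynomial.X ^ (n - (γ : ℕ))).degree < (n : WithBot ℕ) := by
  refine lt_of_le_of_lt (Polynomial.degree_sum_le _ _) ?_
  refine (Finset.sup_lt_iff (WithBot.bot_lt_coe n)).mpr ?_
  intro γ _
  by_cases hγ : γ ∈ X.nongaps n
  · rw [if_pos hγ, Polynomial.degree_zero]
    exact WithBot.bot_lt_coe n
  · rw [if_neg hγ]
    refine lt_of_le_of_lt (Polynomial.degree_C_mul_X_pow_le _ _) ?_
    have h1 := X.gap_pos hγ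
    have h2 : (γ : ℕ) ≤ n := Nat.lt_succ_iff.mp γ.2
    exact WithBot.coe_lt_coe.mpr (by omega : n - (γ : ℕ) < n)

theorem monic_Dy (n : ℕ) (y : Fin (n + 1) → Ω) : (X.Dy n y).Monic :=
  Polynomial.monic_X_pow_add (X.degree_Dy_tail_lt n y)

theorem natDegree_Dy (n : ℕ) (y : Fin (n + 1) → Ω) : (X.Dy n y).natDegree = n := by
  unfold Dy
  rw [Polynomial.natDegree_add_eq_left_of_degree_lt, Polynomial.natDegree_X_pow]
  rw [Polynomial.degree_X_pow]
  exact X.degree_Dy_tail_lt n y

theorem coeff_Dy (n : ℕ) (y : Fin (n + 1) → Ω) (j : ℕ) (hj : j < n) :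
    (X.Dy n y).coeff j = ∑ γ : Fin (n + 1), if γ ∈ X.nongaps n then 0 else
      if j = n - (γ : ℕ) then y γ else 0 := by
  unfold Dy
  rw [Polynomial.coeff_add, Polynomial.coeff_X_pow, if_neg (by omega), zero_add,
    Polynomial.finsetSum_coeff]
  refine Finset.sum_congr rfl fun γ _ => ?_
  by_cases hγ : γ ∈ X.nongaps n
  · rw [if_pos hγ, if_pos hγ, Polynomial.coeff_zero]
  · rw [if_neg hγ, if_neg hγ, Polynomial.coeff_C_mul_X_pow]

theorem isDist_Dy (n : ℕ) {y : Fin (n + 1) → Ω} (hy : ∀ γ, y γ ∈ A.nonunits) :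
    IsDist A (X.Dy n y) := by
  refine ⟨X.monic_Dy n y, fun j hj => ?_⟩
  rw [X.natDegree_Dy] at hj
  rw [X.coeff_Dy n y j hj]
  refine sum_mem_nonunits _ _ fun γ _ => ?_
  split_ifs
  · exact zero_mem_nonunits
  · exact hy γ
  · exact zero_mem_nonunits

/-- the coefficient of `T^{n-γ}` in `D_y` at a gap position is `y_γ`. -/
theorem coeff_Dy_gap (n : ℕ) (y : Fin (n + 1) → Ω) {γ : Fin (n + 1)} (hγ : γ ∉ X.nongaps n) :
    (X.Dy n y).coeff (n - (γ : ℕ)) = y γ := by
  have h1 := X.gap_pos hγ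
  have h2 : (γ : ℕ) ≤ n := Nat.lt_succ_iff.mp γ.2
  rw [X.coeff_Dy n y _ (by omega), Finset.sum_eq_single γ]
  · rw [if_neg hγ, if_pos rfl]
  · intro γ' _ hne
    by_cases hγ' : γ' ∈ X.nongaps n
    · rw [if_pos hγ']
    · rw [if_neg hγ', if_neg]
      intro h
      apply hne
      have h3 : (γ' : ℕ) ≤ n := Nat.lt_succ_iff.mp γ'.2
      exact Fin.ext (by omega)
  · intro h
    exact absurd (Finset.mem_univ γ) h

/-- `D_y` determines `y` at the gap positions. -/
theorem eq_of_Dy_eq (n : ℕ) {y y' : Fin (n + 1) → Ω} (h : X.Dy n y = X.Dy n y')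
    {γ : Fin (n + 1)} (hγ : γ ∉ X.nongaps n) : y γ = y' γ := by
  rw [← X.coeff_Dy_gap n y hγ, ← X.coeff_Dy_gap n y' hγ, h]

/-! ### solutions of the system -/

variable {n N₁ : ℕ} {hN : 2 * (X.g : ℤ) - 1 ≤ (N₁ + n : ℕ)} (NP : X.NormPoly hN)

variable {V : Type*} (e : Fin (N₁ + n + 1) → V) (ω : ℕ → MvPolynomial V Ω)

theorem eval_sysG_eq_zero [IsAlgClosed Ω] [CharZero Ω] (v : V → Ω) (W : Polynomial Ω)
    (hW : ∀ a, W.coeff a = MvPolynomial.eval v (ω a)) (hc : ∀ i, v (e i) ∈ A.nonunits)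
    (h : X.polyOf (X.Ediv hN (v ∘ e)) = W * X.Dy n (fun γ => v (e (gpos N₁ n γ))))
    (i : Fin (N₁ + n + 1)) (hi : i ≠ 0) :
    MvPolynomial.eval v (X.sysG NP e ω i) = 0 := by
  rw [X.eval_sysG NP e ω v W hW i hi, (NP.Mpoly_eq (c := v ∘ e) hc).1, h, sub_self,
    Polynomial.coeff_zero]

theorem polyOf_eq_of_eval_sysG [IsAlgClosed Ω] [CharZero Ω] (v : V → Ω) (W : Polynomial Ω)
    (hW : ∀ a, W.coeff a = MvPolynomial.eval v (ω a)) (hc : ∀ i, v (e i) ∈ A.nonunits)
    (hWm : W.Monic) (hWd : W.natDegree = N₁)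
    (h : ∀ i : Fin (N₁ + n + 1), i ≠ 0 → MvPolynomial.eval v (X.sysG NP e ω i) = 0) :
    X.polyOf (X.Ediv hN (v ∘ e)) = W * X.Dy n (fun γ => v (e (gpos N₁ n γ))) := by
  obtain ⟨h1, h2⟩ := NP.Mpoly_eq (c := v ∘ e) hc
  set P := X.polyOf (X.Ediv hN (v ∘ e)) with hP
  set Q := W * X.Dy n (fun γ => v (e (gpos N₁ n γ))) with hQ
  have hPm : P.Monic := X.monic_polyOf _
  have hQm : Q.Monic := hWm.mul (X.monic_Dy n _)
  have hPd : P.natDegree = N₁ + n := by
    have := X.natDegree_polyOf_of_inDisc (X.inDisc_Ediv hN hc)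
    rw [X.degree_Ediv] at this
    exact_mod_cast this
  have hQd : Q.natDegree = N₁ + n := by
    rw [hQ, hWm.natDegree_mul (X.monic_Dy n _), hWd, X.natDegree_Dy]
  ext j
  rcases lt_trichotomy j (N₁ + n) with hj | hj | hj
  · have hi : (⟨N₁ + n - j, by omega⟩ : Fin (N₁ + n + 1)) ≠ 0 := by
      intro h0
      have := congrArg Fin.val h0
      simp at this
      omega
    have := h ⟨N₁ + n - j, by omega⟩ hi
    rw [X.eval_sysG NP e ω v W hW _ hi, h1] at this
    have e1 : N₁ + n - (N₁ + n - j) = j := by omega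
    simp only [e1] at this
    rw [Polynomial.coeff_sub, Polynomial.coeff_C_mul, Polynomial.coeff_C_mul, ← mul_sub] at this
    rcases mul_eq_zero.mp this with h3 | h3
    · exact absurd h3 h2
    · exact sub_eq_zero.mp h3
  · rw [hj]
    have e1 := hPm.coeff_natDegree
    have e2 := hQm.coeff_natDegree
    rw [hPd] at e1
    rw [hQd] at e2
    rw [e1, e2]
  · rw [Polynomial.coeff_eq_zero_of_natDegree_lt (by omega),
      Polynomial.coeff_eq_zero_of_natDegree_lt (by omega)]

/-! ### constant and linear coefficients -/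

theorem constantCoeff_wd (i : Fin (N₁ + n + 1)) :
    MvPolynomial.constantCoeff (X.wd e ω i)
      = zc (fun a => MvPolynomial.constantCoeff (ω a)) ((N₁ : ℤ) - i) := by
  unfold wd
  rw [map_add, zc_map _ (map_zero _), map_sum, Finset.sum_eq_zero, add_zero]
  intro γ _
  split_ifs
  · exact map_zero _
  · rw [map_mul, MvPolynomial.constantCoeff_X, zero_mul]

theorem lin_wd (l : V) (i : Fin (N₁ + n + 1)) :
    lin l (X.wd e ω i) = zc (fun a => lin l (ω a)) ((N₁ : ℤ) - i)
      + ∑ γ : Fin (n + 1), if γ ∈ X.nongaps n then 0 else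
          if e (gpos N₁ n γ) = l then
            zc (fun a => MvPolynomial.constantCoeff (ω a)) ((N₁ : ℤ) - i + γ) else 0 := by
  unfold wd
  rw [lin_add, zc_map (lin l) (lin_zero l), lin_sum]
  congr 1
  refine Finset.sum_congr rfl fun γ _ => ?_
  by_cases hγ : γ ∈ X.nongaps n
  · rw [if_pos hγ, if_pos hγ, lin_zero]
  · rw [if_neg hγ, if_neg hγ, lin_mul, lin_X, MvPolynomial.constantCoeff_X, zero_mul, add_zero,
      zc_map _ (map_zero _)]
    split_ifs
    · rw [one_mul]
    · rw [zero_mul]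

theorem constantCoeff_sysG (i : Fin (N₁ + n + 1)) (hi : i ≠ 0) :
    MvPolynomial.constantCoeff (X.sysG NP e ω i)
      = - zc (fun a => MvPolynomial.constantCoeff (ω a)) ((N₁ : ℤ) - i) := by
  unfold sysG
  rw [if_neg hi, map_sub, map_mul, MvPolynomial.constantCoeff_rename,
    MvPolynomial.constantCoeff_rename, NP.constantCoeff_M, NP.constantCoeff_M, if_pos rfl,
    if_neg, X.constantCoeff_wd, one_mul, zero_sub]
  intro h
  apply hi
  have := congrArg Fin.val h
  rw [Fin.val_rev, Fin.val_last] at this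
  have hi2 := i.2
  exact Fin.ext (by simp only [Fin.val_zero]; omega)

theorem constantCoeff_sysG_zero : MvPolynomial.constantCoeff (X.sysG NP e ω 0) = 0 := by
  unfold sysG
  rw [if_pos rfl, MvPolynomial.constantCoeff_X]

theorem lin_sysG (l : V) (i : Fin (N₁ + n + 1)) (hi : i ≠ 0) :
    lin l (X.sysG NP e ω i)
      = lin l (MvPolynomial.rename e (NP.M (Fin.rev i)))
        - (lin l (MvPolynomial.rename e (NP.M (Fin.last (N₁ + n))))
            * zc (fun a => MvPolynomial.constantCoeff (ω a)) ((N₁ : ℤ) - i)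
          + lin l (X.wd e ω i)) := by
  unfold sysG
  rw [if_neg hi, lin_sub, lin_mul, X.constantCoeff_wd, MvPolynomial.constantCoeff_rename,
    NP.constantCoeff_M, if_pos rfl, one_mul]

theorem lin_sysG_zero (l : V) : lin l (X.sysG NP e ω 0) = if e 0 = l then 1 else 0 := by
  unfold sysG
  rw [if_pos rfl, lin_X]

/-! ### integrality -/

theorem wd_mem_polyOver (B : Subring Ω) (hω : ∀ a, ω a ∈ polyOver B V) (i : Fin (N₁ + n + 1)) :
    X.wd e ω i ∈ polyOver B V := by
  have hz : ∀ a : ℤ, zc ω a ∈ polyOver B V := by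
    intro a
    unfold zc
    split_ifs
    · exact hω _
    · exact Subring.zero_mem _
  unfold wd
  refine Subring.add_mem _ (hz _) (Subring.sum_mem _ fun γ _ => ?_)
  split_ifs
  · exact Subring.zero_mem _
  · exact Subring.mul_mem _ (X_mem_polyOver _) (hz _)

theorem sysG_mem_polyOver (B : Subring Ω) (hM : ∀ j, NP.M j ∈ polyOver B (Fin (N₁ + n + 1)))
    (hω : ∀ a, ω a ∈ polyOver B V) (i : Fin (N₁ + n + 1)) :
    X.sysG NP e ω i ∈ polyOver B V := by
  unfold sysG
  split_ifs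
  · exact X_mem_polyOver _
  · exact Subring.sub_mem _ (rename_mem_polyOver e (hM _))
      (Subring.mul_mem _ (rename_mem_polyOver e (hM _)) (X.wd_mem_polyOver e ω B hω i))

end GoodRed

end Fermat.Agent.FG

end
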