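/-
FG — helper5 — [REFL] (R4): the Jacobian of the reflection system at the origin is upper triangular
modulo `𝔪` with diagonal `±1`, hence has unit determinant.
-/
import Mathlib
import Fermat.Agent.FG.REFL_helper5_Sol

set_option autoImplicit false
set_option linter.unusedSectionVars false
set_option linter.style.haveILetI false

noncomputable section

namespace Fermat.Agent.FG

open AlgebraicCurve IsLocalRing IntermediateField Fermat.Agent.FF Fermat.Agent.JA
open scoped Classical

/-- a square matrix over a local ring which is upper triangular with unit diagonal modulo the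
maximal ideal has unit determinant. -/
theorem isUnit_det_of_residue_upperTriangular {R : Type*} [CommRing R] [IsLocalRing R] {m : ℕ}
    (J : Matrix (Fin m) (Fin m) R) (hT : ∀ i j : Fin m, j < i → residue R (J i j) = 0)
    (hd : ∀ i, residue R (J i i) ≠ 0) : IsUnit J.det := by
  rw [← residue_ne_zero_iff_isUnit, RingHom.map_det]
  have hup : ((residue R).mapMatrix J).IsUpperTriangular := by
    intro i j hij
    exact hT i j hij
  rw [Matrix.det_of_isUpperTriangular hup]
  exact Finset.prod_ne_zero_iff.mpr fun i _ => hd i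

namespace GoodRed

variable {Ω : Type*} [Field Ω] {A : ValuationSubring Ω} {𝔽 : Type*} [Field 𝔽] [Algebra Ω 𝔽]
  {𝔽b : Type*} [Field 𝔽b] [Algebra (ResidueField ↥A) 𝔽b] (X : GoodRed Ω A 𝔽 𝔽b)

variable {n N₁ : ℕ} {hN : 2 * (X.g : ℤ) - 1 ≤ (N₁ + n : ℕ)} (NP : X.NormPoly hN)

variable {V : Type*} (e : Fin (N₁ + n + 1) → V) (ω : ℕ → MvPolynomial V Ω)

/-- hypotheses on the embedding of the unknowns and on the coefficients of `W`. -/
structure SysHyp (A : ValuationSubring Ω) (e : Fin (N₁ + n + 1) → V)
    (ω : ℕ → MvPolynomial V Ω) : Prop where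
  e_inj : Function.Injective e
  lin_ω : ∀ a i', lin (e i') (ω a) = 0
  ω_top : MvPolynomial.constantCoeff (ω N₁) = 1
  ω_low : ∀ a, a < N₁ → MvPolynomial.constantCoeff (ω a) ∈ A.nonunits
  ω_high : ∀ a, N₁ < a → MvPolynomial.constantCoeff (ω a) = 0

variable {e ω}

theorem SysHyp.constantCoeff_mem (H : SysHyp A e ω) (a : ℕ) :
    MvPolynomial.constantCoeff (ω a) ∈ A := by
  rcases lt_trichotomy a N₁ with h | h | h
  · exact ValuationSubring.nonunits_le (H.ω_low a h)
  · rw [h, H.ω_top]; exact A.one_mem
  · rw [H.ω_high a h]; exact A.zero_mem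

theorem SysHyp.zc_mem (H : SysHyp A e ω) (a : ℤ) :
    zc (fun k => MvPolynomial.constantCoeff (ω k)) a ∈ A := by
  unfold zc
  split_ifs
  · exact H.constantCoeff_mem _
  · exact A.zero_mem

/-- the `ℤ`-indexed constant coefficients of `W`, in `A`. -/
def SysHyp.zcA (H : SysHyp A e ω) (a : ℤ) : ↥A :=
  ⟨zc (fun k => MvPolynomial.constantCoeff (ω k)) a, H.zc_mem a⟩

theorem SysHyp.residue_zcA (H : SysHyp A e ω) (a : ℤ) :
    residue ↥A (H.zcA a) = if a = N₁ then 1 else 0 := by
  by_cases h0 : 0 ≤ a
  · rcases lt_trichotomy a.toNat N₁ with h | h | h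
    · rw [if_neg (by omega)]
      rw [residue_eq_zero_iff, mem_maximalIdeal, mem_nonunits_iff]
      have h1 : (H.zcA a : Ω) ∈ A.nonunits := by
        show zc (fun k => MvPolynomial.constantCoeff (ω k)) a ∈ A.nonunits
        unfold zc
        rw [if_pos h0]
        exact H.ω_low _ h
      intro hu
      rw [ValuationSubring.mem_nonunits_iff] at h1
      have := ValuationSubring.valuation_unit A hu.unit
      rw [IsUnit.unit_spec] at this
      rw [this] at h1
      exact lt_irrefl _ h1
    · rw [if_pos (by omega)]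
      have : H.zcA a = 1 := by
        apply Subtype.ext
        show zc (fun k => MvPolynomial.constantCoeff (ω k)) a = 1
        unfold zc
        rw [if_pos h0, h]
        exact H.ω_top
      rw [this, map_one]
    · rw [if_neg (by omega)]
      have : H.zcA a = 0 := by
        apply Subtype.ext
        show zc (fun k => MvPolynomial.constantCoeff (ω k)) a = 0
        unfold zc
        rw [if_pos h0]
        exact H.ω_high _ h
      rw [this, map_zero]
  · rw [if_neg (by omega)]
    have : H.zcA a = 0 := by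
      apply Subtype.ext
      show zc (fun k => MvPolynomial.constantCoeff (ω k)) a = 0
      exact zc_of_neg _ (by omega)
    rw [this, map_zero]

/-- the linear coefficients of the `M_j`, in `A`. -/
def NormPoly.linA {X : GoodRed Ω A 𝔽 𝔽b} {N : ℕ} {hN : 2 * (X.g : ℤ) - 1 ≤ N}
    (NP : X.NormPoly hN) (i' j : Fin (N + 1)) : ↥A :=
  ⟨lin i' (NP.M j), by rw [lin_eq_coeff]; exact NP.coeff_mem j _⟩

/-- the entries of the Jacobian of the system at the origin. -/
theorem lin_sysG_pos (H : SysHyp A e ω) (hn : 2 * X.g ≤ n) (i i' : Fin (N₁ + n + 1))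
    (hi : i ≠ 0) :
    lin (e i') (X.sysG NP e ω i)
      = lin i' (NP.M (Fin.rev i))
        - lin i' (NP.M (Fin.last (N₁ + n)))
            * zc (fun k => MvPolynomial.constantCoeff (ω k)) ((N₁ : ℤ) - i)
        - (if i' ∈ X.nongaps (N₁ + n) then 0 else
            zc (fun k => MvPolynomial.constantCoeff (ω k)) ((N₁ : ℤ) - i + i')) := by
  rw [X.lin_sysG NP e ω (e i') i hi, lin_rename H.e_inj, lin_rename H.e_inj, X.lin_wd]
  have h1 : zc (fun a => lin (e i') (ω a)) ((N₁ : ℤ) - i) = 0 := by
    unfold zc
    split_ifs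
    · exact H.lin_ω _ _
    · rfl
  have h2 : (∑ γ : Fin (n + 1), if γ ∈ X.nongaps n then 0 else
      if e (gpos N₁ n γ) = e i' then
        zc (fun a => MvPolynomial.constantCoeff (ω a)) ((N₁ : ℤ) - i + γ) else 0)
      = if i' ∈ X.nongaps (N₁ + n) then 0 else
          zc (fun k => MvPolynomial.constantCoeff (ω k)) ((N₁ : ℤ) - i + i') := by
    by_cases hi' : i' ∈ X.nongaps (N₁ + n)
    · rw [if_pos hi']
      refine Finset.sum_eq_zero fun γ _ => ?_
      by_cases hγ : γ ∈ X.nongaps n
      · rw [if_pos hγ]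
      · rw [if_neg hγ, if_neg]
        intro heq
        have h3 : gpos N₁ n γ = i' := H.e_inj heq
        apply hγ
        rw [X.mem_nongaps] at hi' ⊢
        rw [← h3] at hi'
        exact hi'
    · rw [if_neg hi']
      have hlt : (i' : ℕ) < 2 * X.g := X.lt_of_not_isNongapb (fun h => hi' (X.mem_nongaps.mpr h))
      let γ₀ : Fin (n + 1) := ⟨(i' : ℕ), by omega⟩
      have hγ₀ : gpos N₁ n γ₀ = i' := Fin.ext rfl
      have hγ₀gap : γ₀ ∉ X.nongaps n := by
        intro h
        apply hi'
        rw [X.mem_nongaps] at h ⊢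
        exact h
      rw [Finset.sum_eq_single γ₀]
      · rw [if_neg hγ₀gap, hγ₀, if_pos rfl]
      · intro γ _ hne
        by_cases hγ : γ ∈ X.nongaps n
        · rw [if_pos hγ]
        · rw [if_neg hγ, if_neg]
          intro heq
          have h3 : gpos N₁ n γ = i' := H.e_inj heq
          apply hne
          apply Fin.ext
          have := congrArg Fin.val h3
          simpa using this
      · intro h
        exact absurd (Finset.mem_univ _) h
  rw [h1, h2, zero_add]
  ring

/-- the Jacobian matrix at the origin, over `A`. -/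
def jacA (H : SysHyp A e ω) : Matrix (Fin (N₁ + n + 1)) (Fin (N₁ + n + 1)) ↥A := fun i i' =>
  if i = 0 then (if i' = 0 then 1 else 0) else
    NP.linA i' (Fin.rev i) - NP.linA i' (Fin.last (N₁ + n)) * H.zcA ((N₁ : ℤ) - i)
      - (if i' ∈ X.nongaps (N₁ + n) then 0 else H.zcA ((N₁ : ℤ) - i + i'))

theorem coe_jacA (H : SysHyp A e ω) (hn : 2 * X.g ≤ n) (i i' : Fin (N₁ + n + 1)) :
    ((X.jacA NP H i i' : ↥A) : Ω) = lin (e i') (X.sysG NP e ω i) := by
  unfold jacA
  by_cases hi : i = 0
  · rw [if_pos hi, hi, X.lin_sysG_zero]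
    by_cases hi' : i' = 0
    · rw [if_pos hi', if_pos (by rw [hi'])]
      rfl
    · rw [if_neg hi', if_neg]
      · rfl
      · intro h
        exact hi' (H.e_inj h).symm
  · rw [if_neg hi, X.lin_sysG_pos NP H hn i i' hi]
    by_cases hi' : i' ∈ X.nongaps (N₁ + n)
    · rw [if_pos hi', if_pos hi']
      rfl
    · rw [if_neg hi', if_neg hi']
      rfl

theorem residue_jacA (H : SysHyp A e ω) (i i' : Fin (N₁ + n + 1)) (hi : i ≠ 0) :
    residue ↥A (X.jacA NP H i i')
      = (if h' : i' ∈ X.nongaps (N₁ + n) ∧ i' ≠ 0 then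
          X.ppb (N₁ + n) (X.canonb hN ⟨i', h'.1⟩) i else 0)
        - (if i' ∈ X.nongaps (N₁ + n) then 0 else if i = i' then 1 else 0) := by
  unfold jacA
  rw [if_neg hi, map_sub, map_sub, map_mul, H.residue_zcA]
  have hi0 : 0 < (i : ℕ) := Nat.pos_of_ne_zero fun h => hi (Fin.ext h)
  rw [if_neg (by omega), mul_zero, sub_zero]
  congr 1
  · exact NP.lin_res i' i hi _
  · by_cases hi' : i' ∈ X.nongaps (N₁ + n)
    · rw [if_pos hi', if_pos hi', map_zero]
    · rw [if_neg hi', if_neg hi', H.residue_zcA]
      by_cases hii : i = i'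
      · rw [if_pos hii, if_pos (by rw [hii]; ring)]
      · rw [if_neg hii, if_neg]
        intro h
        apply hii
        apply Fin.ext
        omega

/-- **(R4)**: the Jacobian of the reflection system at the origin is invertible over `A`. -/
theorem isUnit_det_jacA (H : SysHyp A e ω) : IsUnit (X.jacA NP H).det := by
  apply isUnit_det_of_residue_upperTriangular
  · intro i j hji
    have hi : i ≠ 0 := by
      intro h
      rw [h] at hji
      exact absurd hji (Fin.not_lt_zero j)
    rw [X.residue_jacA NP H i j hi]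
    have h2 : (if j ∈ X.nongaps (N₁ + n) then (0 : ResidueField ↥A) else if i = j then 1 else 0)
        = 0 := by
      split_ifs with h3 h4
      · rfl
      · exact absurd h4 (ne_of_gt hji)
      · rfl
    rw [h2, sub_zero]
    by_cases h' : j ∈ X.nongaps (N₁ + n) ∧ j ≠ 0
    · rw [dif_pos h']
      exact X.ppb_canonb_of_lt hN ⟨j, h'.1⟩ i hji
    · rw [dif_neg h']
  · intro i
    by_cases hi : i = 0
    · unfold jacA
      rw [if_pos hi, if_pos hi, map_one]
      exact one_ne_zero
    · rw [X.residue_jacA NP H i i hi]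
      by_cases h' : i ∈ X.nongaps (N₁ + n)
      · rw [dif_pos ⟨h', hi⟩, if_pos h', sub_zero]
        have := X.ppb_canonb hN ⟨i, h'⟩ ⟨i, h'⟩
        rw [if_pos rfl] at this
        rw [this]
        exact one_ne_zero
      · rw [dif_neg (fun h => h' h.1), if_neg h', if_pos rfl, zero_sub]
        exact neg_ne_zero.mpr one_ne_zero

end GoodRed

end Fermat.Agent.FG

end
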