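/-
FG — helper5 — [REFL] (R5): the normal form.  For an effective divisor `E_s` of degree `n` in the
disc there is a unique `y ∈ 𝔪^{gaps}` with `E_s + E_y ~ 2n·∞` (`polyOf E_y = D_y`).
Existence by the multivariable Hensel property, uniqueness by `hensel_mv_unique`.
-/
import Mathlib
import Fermat.Agent.FG.REFL_helper5_Jac
import Fermat.Agent.FG.HENSEL_helper2_Newton

set_option autoImplicit false
set_option linter.unusedSectionVars false
set_option linter.style.haveILetI false

noncomputable section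

namespace Fermat.Agent.FG

open AlgebraicCurve IsLocalRing IntermediateField Fermat.Agent.FF Fermat.Agent.JA
open scoped Classical

namespace GoodRed

variable {Ω : Type*} [Field Ω] {A : ValuationSubring Ω} {𝔽 : Type*} [Field 𝔽] [Algebra Ω 𝔽]
  {𝔽b : Type*} [Field 𝔽b] [Algebra (ResidueField ↥A) 𝔽b] (X : GoodRed Ω A 𝔽 𝔽b)

variable {n N₁ : ℕ} {hN : 2 * (X.g : ℤ) - 1 ≤ (N₁ + n : ℕ)} (NP : X.NormPoly hN)

/-! ### the system with a constant `W`, over `A` -/

/-- the coefficient functions of a constant `W`. -/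
def ωc (N₁ n : ℕ) (W : Polynomial Ω) : ℕ → MvPolynomial (Fin (N₁ + n + 1)) Ω :=
  fun a => MvPolynomial.C (W.coeff a)

theorem sysHyp_const {W : Polynomial Ω} (hW : IsDist A W) (hWd : W.natDegree = N₁) :
    SysHyp A (id : Fin (N₁ + n + 1) → Fin (N₁ + n + 1)) (ωc N₁ n W) where
  e_inj := Function.injective_id
  lin_ω := fun a i' => lin_C _ _
  ω_top := by
    show MvPolynomial.constantCoeff (MvPolynomial.C (W.coeff N₁)) = 1
    rw [MvPolynomial.constantCoeff_C, ← hWd, hW.1.coeff_natDegree]
  ω_low := fun a ha => by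
    show MvPolynomial.constantCoeff (MvPolynomial.C (W.coeff a)) ∈ A.nonunits
    rw [MvPolynomial.constantCoeff_C]
    exact hW.2 a (by rw [hWd]; exact ha)
  ω_high := fun a ha => by
    show MvPolynomial.constantCoeff (MvPolynomial.C (W.coeff a)) = 0
    rw [MvPolynomial.constantCoeff_C]
    exact Polynomial.coeff_eq_zero_of_natDegree_lt (by rw [hWd]; exact ha)

theorem M_mem_polyOver (j : Fin (N₁ + n + 1)) :
    NP.M j ∈ polyOver A.toSubring (Fin (N₁ + n + 1)) :=
  mem_polyOver_of_coeff_mem fun m => NP.coeff_mem j m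

/-- the system with constant `W` has coefficients in `A`. -/
theorem exists_liftG {W : Polynomial Ω} (hW : IsDist A W) :
    ∃ GA : Fin (N₁ + n + 1) → MvPolynomial (Fin (N₁ + n + 1)) ↥A,
      ∀ i, MvPolynomial.map A.subtype (GA i) = X.sysG NP id (ωc N₁ n W) i := by
  have h : ∀ i, X.sysG NP id (ωc N₁ n W) i ∈ polyOver A.toSubring (Fin (N₁ + n + 1)) :=
    fun i => X.sysG_mem_polyOver NP id (ωc N₁ n W) A.toSubring (X.M_mem_polyOver NP)
      (fun a => C_mem_polyOver (hW.coeff_mem a)) i
  choose GA hGA using h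
  exact ⟨GA, hGA⟩

theorem subtype_eval {σ : Type*} (x : σ → ↥A) (p : MvPolynomial σ ↥A) :
    ((MvPolynomial.eval x p : ↥A) : Ω)
      = MvPolynomial.eval (fun i => (x i : Ω)) (MvPolynomial.map A.subtype p) := by
  rw [MvPolynomial.eval_map]
  have := MvPolynomial.eval₂_comp_left A.subtype (RingHom.id ↥A) x p
  rw [MvPolynomial.eval₂_id] at this
  exact this

theorem subtype_lin {σ : Type*} (l : σ) (p : MvPolynomial σ ↥A) :
    ((MvPolynomial.constantCoeff (MvPolynomial.pderiv l p) : ↥A) : Ω)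
      = lin l (MvPolynomial.map A.subtype p) := by
  rw [lin, MvPolynomial.pderiv_map, MvPolynomial.constantCoeff_map]
  rfl

/-- the Jacobian of the lifted system is the matrix `jacA`. -/
theorem jac_liftG {W : Polynomial Ω} (hW : IsDist A W) (hWd : W.natDegree = N₁)
    (hn : 2 * X.g ≤ n) (GA : Fin (N₁ + n + 1) → MvPolynomial (Fin (N₁ + n + 1)) ↥A)
    (hGA : ∀ i, MvPolynomial.map A.subtype (GA i) = X.sysG NP id (ωc N₁ n W) i) :
    (Matrix.of fun i j => MvPolynomial.constantCoeff (MvPolynomial.pderiv j (GA i)))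
      = X.jacA NP (sysHyp_const hW hWd) := by
  ext i j
  rw [Matrix.of_apply, subtype_lin, hGA, X.coe_jacA NP (sysHyp_const hW hWd) hn]
  rfl

theorem constantCoeff_liftG {W : Polynomial Ω} (hW : IsDist A W) (hWd : W.natDegree = N₁)
    (GA : Fin (N₁ + n + 1) → MvPolynomial (Fin (N₁ + n + 1)) ↥A)
    (hGA : ∀ i, MvPolynomial.map A.subtype (GA i) = X.sysG NP id (ωc N₁ n W) i)
    (i : Fin (N₁ + n + 1)) : MvPolynomial.constantCoeff (GA i) ∈ maximalIdeal ↥A := by
  rw [← ValuationSubring.coe_mem_nonunits_iff]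
  have h1 : ((MvPolynomial.constantCoeff (GA i) : ↥A) : Ω)
      = MvPolynomial.constantCoeff (X.sysG NP id (ωc N₁ n W) i) := by
    rw [← hGA, MvPolynomial.constantCoeff_map]
    rfl
  rw [h1]
  by_cases hi : i = 0
  · rw [hi, X.constantCoeff_sysG_zero]
    exact zero_mem_nonunits
  · rw [X.constantCoeff_sysG NP id _ i hi]
    apply neg_mem_nonunits
    have hi0 : 0 < (i : ℕ) := Nat.pos_of_ne_zero fun h => hi (Fin.ext h)
    unfold zc
    split_ifs with h0
    · show MvPolynomial.constantCoeff (MvPolynomial.C (W.coeff _)) ∈ A.nonunits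
      rw [MvPolynomial.constantCoeff_C]
      apply hW.2
      rw [hWd]
      omega
    · exact zero_mem_nonunits

end GoodRed

end Fermat.Agent.FG

end
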