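/-
FG — helper5 — [REFL] (R5): existence and uniqueness of the normal form.
-/
import Mathlib
import Fermat.Agent.FG.REFL_helper5_NF

set_option autoImplicit false
set_option linter.unusedSectionVars false
set_option linter.style.haveILetI false

noncomputable section

namespace Fermat.Agent.FG

open AlgebraicCurve IsLocalRing IntermediateField Fermat.Agent.FF Fermat.Agent.JA
open scoped Classical

namespace GoodRed

variable {Ω : Type*} [Field Ω] {A : ValuationSubring Ω} {𝔽 : Type*} [Field 𝔽] [Algebra Ω 𝔽]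
  {𝔽b : Type*} [Field 𝔽b] [Algebra (ResidueField ↥A) 𝔽b] (X : GoodRed Ω A 𝔽 𝔽b)

theorem kfun_congr {N : ℕ} (hN : 2 * (X.g : ℤ) - 1 ≤ N) {c c' : Fin (N + 1) → Ω}
    (h : ∀ ν : ↥(X.nongaps N), (ν : Fin (N + 1)) ≠ 0 → c ν = c' ν) :
    X.kfun hN c = X.kfun hN c' := by
  rw [X.coe_kfunP_eq_sum, X.coe_kfunP_eq_sum]
  refine Finset.sum_congr rfl fun ν _ => ?_
  congr 1
  unfold kcoef
  split_ifs with h0
  · rfl
  · exact h ν h0

theorem Dy_congr (n : ℕ) {y y' : Fin (n + 1) → Ω} (h : ∀ γ, γ ∉ X.nongaps n → y γ = y' γ) :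
    X.Dy n y = X.Dy n y' := by
  unfold Dy
  congr 1
  refine Finset.sum_congr rfl fun γ _ => ?_
  split_ifs with hγ
  · rfl
  · rw [h γ hγ]

theorem Ediv_congr {N : ℕ} (hN : 2 * (X.g : ℤ) - 1 ≤ N) {c c' : Fin (N + 1) → Ω}
    (h : X.kfun hN c = X.kfun hN c') : X.Ediv hN c = X.Ediv hN c' := by
  unfold Ediv
  rw [h]

variable {n : ℕ} {hN : 2 * (X.g : ℤ) - 1 ≤ (n + n : ℕ)} (NP : X.NormPoly hN)

include NP in
/-- **normal form, existence.** -/
theorem exists_normalForm [IsAlgClosed Ω] [CharZero Ω] (hens : IsMvHenselian A)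
    (hn : 2 * X.g ≤ n) {Es : Divisor Ω 𝔽} (hEs : X.InDisc Es)
    (hdeg : Divisor.degree Es = n) :
    ∃ y : Fin (n + 1) → Ω, (∀ γ, y γ ∈ A.nonunits) ∧ (∀ γ ∈ X.nongaps n, y γ = 0) ∧
      ∃ E : Divisor Ω 𝔽, X.InDisc E ∧ X.polyOf E = X.Dy n y ∧
        Divisor.IsPrincipal (Es + E - Finsupp.single X.cusp ((n + n : ℕ) : ℤ)) := by
  set W := X.polyOf Es with hWdef
  have hW : IsDist A W := X.isDist_polyOf hEs
  have hWd : W.natDegree = n := by
    have := X.natDegree_polyOf_of_inDisc hEs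
    rw [hdeg] at this
    exact_mod_cast this
  obtain ⟨GA, hGA⟩ := X.exists_liftG NP (N₁ := n) (n := n) hW
  obtain ⟨x, hx, hxG⟩ := hens (n + n + 1) GA (X.constantCoeff_liftG NP hW hWd GA hGA) (by
    rw [X.jac_liftG NP hW hWd hn GA hGA]
    exact X.isUnit_det_jacA NP (sysHyp_const hW hWd))
  set v : Fin (n + n + 1) → Ω := fun i => (x i : Ω) with hv
  have hvm : ∀ i, v i ∈ A.nonunits := fun i => ValuationSubring.coe_mem_nonunits_iff.mpr (hx i)
  have heval : ∀ i, MvPolynomial.eval v (X.sysG NP id (ωc n n W) i) = 0 := by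
    intro i
    rw [← hGA, ← subtype_eval, hxG]
    rfl
  have hpoly := X.polyOf_eq_of_eval_sysG NP id (ωc n n W) v W
    (fun a => by show _ = MvPolynomial.eval v (MvPolynomial.C (W.coeff a)); rw [MvPolynomial.eval_C])
    hvm hW.1 hWd (fun i _ => heval i)
  -- the normal form
  let y : Fin (n + 1) → Ω := fun γ => if γ ∈ X.nongaps n then 0 else v (gpos n n γ)
  have hy : ∀ γ, y γ ∈ A.nonunits := by
    intro γ
    show (if γ ∈ X.nongaps n then 0 else v (gpos n n γ)) ∈ A.nonunits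
    split_ifs
    · exact zero_mem_nonunits
    · exact hvm _
  have hy0 : ∀ γ ∈ X.nongaps n, y γ = 0 := fun γ hγ => if_pos hγ
  have hDy : X.Dy n y = X.Dy n (fun γ => v (id (gpos n n γ))) :=
    X.Dy_congr n fun γ hγ => if_neg hγ
  obtain ⟨E, ⟨hE, hpE⟩, -⟩ := X.existsUnique_polyOf_eq (𝔽 := 𝔽) (X.isDist_Dy n hy)
  refine ⟨y, hy, hy0, E, hE, hpE, ?_⟩
  have hpoly' : X.polyOf (X.Ediv hN v) = W * X.Dy n (fun γ => v (id (gpos n n γ))) := hpoly
  have hEc : X.Ediv hN v = Es + E := by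
    apply X.eq_of_polyOf_eq (X.inDisc_Ediv hN hvm) (InDisc.add X hEs hE)
    rw [hpoly', X.polyOf_add hEs hE, hpE, hDy]
  have hk0 : X.kfun hN v ≠ 0 := X.kfun_ne_zero hN hvm
  refine ⟨X.kfun hN v, hk0, fun P => ?_⟩
  rw [← hEc, Ediv, add_sub_cancel_right, X.divOf_apply hk0]

include NP in
/-- **normal form, uniqueness.** -/
theorem normalForm_unique [IsAlgClosed Ω] [CharZero Ω] (hn : 2 * X.g ≤ n)
    {Es : Divisor Ω 𝔽} (hEs : X.InDisc Es) (hdeg : Divisor.degree Es = n)
    {y y' : Fin (n + 1) → Ω} (hy : ∀ γ, y γ ∈ A.nonunits) (hy' : ∀ γ, y' γ ∈ A.nonunits)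
    (hy0 : ∀ γ ∈ X.nongaps n, y γ = 0) (hy0' : ∀ γ ∈ X.nongaps n, y' γ = 0)
    {E E' : Divisor Ω 𝔽} (hE : X.InDisc E) (hpE : X.polyOf E = X.Dy n y)
    (hE' : X.InDisc E') (hpE' : X.polyOf E' = X.Dy n y')
    (hprin : Divisor.IsPrincipal (Es + E - Finsupp.single X.cusp ((n + n : ℕ) : ℤ)))
    (hprin' : Divisor.IsPrincipal (Es + E' - Finsupp.single X.cusp ((n + n : ℕ) : ℤ))) :
    y = y' := by
  set W := X.polyOf Es with hWdef
  have hW : IsDist A W := X.isDist_polyOf hEs
  have hWd : W.natDegree = n := by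
    have := X.natDegree_polyOf_of_inDisc hEs
    rw [hdeg] at this
    exact_mod_cast this
  obtain ⟨GA, hGA⟩ := X.exists_liftG NP (N₁ := n) (n := n) hW
  -- a solution of the system from `(y, E)`
  have key : ∀ (y : Fin (n + 1) → Ω) (hy : ∀ γ, y γ ∈ A.nonunits) (E : Divisor Ω 𝔽)
      (hE : X.InDisc E) (hpE : X.polyOf E = X.Dy n y)
      (hprin : Divisor.IsPrincipal (Es + E - Finsupp.single X.cusp ((n + n : ℕ) : ℤ))),
      ∃ x : Fin (n + n + 1) → ↥A, (∀ i, x i ∈ maximalIdeal ↥A) ∧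
        (∀ i, MvPolynomial.eval x (GA i) = 0) ∧
        ∀ γ : Fin (n + 1), γ ∉ X.nongaps n → ((x (gpos n n γ) : ↥A) : Ω) = y γ := by
    intro y hy E hE hpE hprin
    have hdegE : Divisor.degree E = n := by
      have := X.natDegree_polyOf_of_inDisc hE
      rw [hpE, X.natDegree_Dy] at this
      exact this.symm
    obtain ⟨c, hc, hcE⟩ := X.exists_Ediv_eq hN (InDisc.add X hEs hE)
      (by rw [map_add, hdeg, hdegE]; push_cast; ring) hprin
    let ygap : Fin (n + n + 1) → Ω := fun i => if h : (i : ℕ) < n + 1 then y ⟨i, h⟩ else 0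
    let u : Fin (n + n + 1) → Ω := fun i =>
      if i = 0 then 0 else if i ∈ X.nongaps (n + n) then c i else ygap i
    have hu : ∀ i, u i ∈ A.nonunits := by
      intro i
      show (if i = 0 then 0 else if i ∈ X.nongaps (n + n) then c i else ygap i) ∈ A.nonunits
      split_ifs
      · exact zero_mem_nonunits
      · exact hc i
      · show (if h : (i : ℕ) < n + 1 then y ⟨i, h⟩ else 0) ∈ A.nonunits
        split_ifs
        · exact hy _
        · exact zero_mem_nonunits
    have hkf : X.kfun hN u = X.kfun hN c := by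
      apply X.kfun_congr hN
      intro ν hν
      show (if (ν : Fin (n + n + 1)) = 0 then 0 else
        if (ν : Fin (n + n + 1)) ∈ X.nongaps (n + n) then c ν else ygap ν) = c ν
      rw [if_neg hν, if_pos ν.2]
    have hugap : ∀ γ : Fin (n + 1), γ ∉ X.nongaps n → u (gpos n n γ) = y γ := by
      intro γ hγ
      have h1 : gpos n n γ ≠ 0 := by
        intro h
        have := congrArg Fin.val h
        rw [coe_gpos] at this
        have := X.gap_pos hγ
        simp at *
        omega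
      have h2 : gpos n n γ ∉ X.nongaps (n + n) := by
        intro h
        apply hγ
        rw [X.mem_nongaps] at h ⊢
        exact h
      show (if gpos n n γ = 0 then 0 else
        if gpos n n γ ∈ X.nongaps (n + n) then c (gpos n n γ) else ygap (gpos n n γ)) = y γ
      rw [if_neg h1, if_neg h2]
      show (if h : ((gpos n n γ : Fin (n + n + 1)) : ℕ) < n + 1 then y ⟨_, h⟩ else 0) = y γ
      rw [dif_pos (by rw [coe_gpos]; exact γ.2)]
      rfl
    have hDy : X.Dy n (fun γ => u (id (gpos n n γ))) = X.Dy n y :=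
      X.Dy_congr n fun γ hγ => hugap γ hγ
    have hEu : X.Ediv hN u = Es + E := by
      rw [← hcE]
      exact X.Ediv_congr hN hkf
    have hsol : ∀ i : Fin (n + n + 1), i ≠ 0 →
        MvPolynomial.eval u (X.sysG NP id (ωc n n W) i) = 0 := by
      intro i hi
      apply X.eval_sysG_eq_zero NP id (ωc n n W) u W
        (fun a => by
          show _ = MvPolynomial.eval u (MvPolynomial.C (W.coeff a)); rw [MvPolynomial.eval_C])
        hu _ i hi
      show X.polyOf (X.Ediv hN u) = _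
      rw [hEu, X.polyOf_add hEs hE, hpE, hDy]
    have hsol0 : MvPolynomial.eval u (X.sysG NP id (ωc n n W) 0) = 0 := by
      unfold sysG
      rw [if_pos rfl, MvPolynomial.eval_X]
      show (if (0 : Fin (n + n + 1)) = 0 then 0 else _) = (0 : Ω)
      rw [if_pos rfl]
    refine ⟨fun i => ⟨u i, ValuationSubring.nonunits_le (hu i)⟩, fun i => ?_, fun i => ?_,
      fun γ hγ => hugap γ hγ⟩
    · exact ValuationSubring.coe_mem_nonunits_iff.mp (hu i)
    · apply Subtype.ext
      rw [subtype_eval, hGA]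
      by_cases hi : i = 0
      · rw [hi]; exact hsol0
      · exact hsol i hi
  obtain ⟨x, hx, hxG, hxy⟩ := key y hy E hE hpE hprin
  obtain ⟨x', hx', hxG', hxy'⟩ := key y' hy' E' hE' hpE' hprin'
  have hJ : IsUnit ((polyJac GA).map (MvPolynomial.eval (0 : Fin (n + n + 1) → ↥A))).det := by
    have : (polyJac GA).map (MvPolynomial.eval (0 : Fin (n + n + 1) → ↥A))
        = Matrix.of fun i j => MvPolynomial.constantCoeff (MvPolynomial.pderiv j (GA i)) := by
      ext i j
      rw [Matrix.map_apply, polyJac_apply, MvPolynomial.eval_zero, Matrix.of_apply]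
    rw [this, X.jac_liftG NP hW hWd hn GA hGA]
    exact X.isUnit_det_jacA NP (sysHyp_const hW hWd)
  have hxx : x = x' := hensel_mv_unique GA 0 x x'
    (fun i => by rw [Pi.zero_apply, sub_zero]; exact hx i)
    (fun i => by rw [Pi.zero_apply, sub_zero]; exact hx' i) hxG hxG' hJ
  funext γ
  by_cases hγ : γ ∈ X.nongaps n
  · rw [hy0 γ hγ, hy0' γ hγ]
  · rw [← hxy γ hγ, ← hxy' γ hγ, hxx]

end GoodRed

end Fermat.Agent.FG

end
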