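/-
FG — helper5 — [REFL] (R6, definitions): the divisor `E_y` with `polyOf E_y = D_y`, the class
`[E - n∞]`, and the normal-form predicate `IsNF n z y` (`z = [E_y - n∞]`).
-/
import Mathlib
import Fermat.Agent.FG.REFL_helper5_NF2

set_option autoImplicit false
set_option linter.unusedSectionVars false
set_option linter.style.haveILetI false

noncomputable section

namespace Fermat.Agent.FG

open AlgebraicCurve IsLocalRing IntermediateField Fermat.Agent.FF Fermat.Agent.JA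
open scoped Classical

namespace GoodRed

variable {Ω : Type*} [Field Ω] {A : ValuationSubring Ω} {𝔽 : Type*} [Field 𝔽] [Algebra Ω 𝔽]
  {𝔽b : Type*} [Field 𝔽b] [Algebra (ResidueField ↥A) 𝔽b] (X : GoodRed Ω A 𝔽 𝔽b)

/-- the effective divisor in the disc with `polyOf E_y = D_y` (for `y ∈ 𝔪`; `0` otherwise). -/
def Edy (n : ℕ) (y : Fin (n + 1) → Ω) : Divisor Ω 𝔽 :=
  if h : ∃ E : Divisor Ω 𝔽, X.InDisc E ∧ X.polyOf E = X.Dy n y then h.choose else 0

theorem exists_Edy [IsAlgClosed Ω] (n : ℕ) {y : Fin (n + 1) → Ω} (hy : ∀ γ, y γ ∈ A.nonunits) :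
    ∃ E : Divisor Ω 𝔽, X.InDisc E ∧ X.polyOf E = X.Dy n y :=
  (X.existsUnique_polyOf_eq (X.isDist_Dy n hy)).exists

theorem inDisc_Edy [IsAlgClosed Ω] (n : ℕ) {y : Fin (n + 1) → Ω} (hy : ∀ γ, y γ ∈ A.nonunits) :
    X.InDisc (X.Edy n y) := by
  rw [Edy, dif_pos (X.exists_Edy n hy)]
  exact (X.exists_Edy n hy).choose_spec.1

theorem polyOf_Edy [IsAlgClosed Ω] (n : ℕ) {y : Fin (n + 1) → Ω} (hy : ∀ γ, y γ ∈ A.nonunits) :
    X.polyOf (X.Edy n y) = X.Dy n y := by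
  rw [Edy, dif_pos (X.exists_Edy n hy)]
  exact (X.exists_Edy n hy).choose_spec.2

theorem degree_Edy [IsAlgClosed Ω] (n : ℕ) {y : Fin (n + 1) → Ω} (hy : ∀ γ, y γ ∈ A.nonunits) :
    Divisor.degree (X.Edy n y) = n := by
  have := X.natDegree_polyOf_of_inDisc (X.inDisc_Edy n hy)
  rw [X.polyOf_Edy n hy, X.natDegree_Dy] at this
  exact this.symm

/-- `E_y` is the only effective divisor in the disc with polynomial `D_y`. -/
theorem eq_Edy [IsAlgClosed Ω] (n : ℕ) {y : Fin (n + 1) → Ω} (hy : ∀ γ, y γ ∈ A.nonunits)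
    {E : Divisor Ω 𝔽} (hE : X.InDisc E) (hp : X.polyOf E = X.Dy n y) : E = X.Edy n y :=
  X.eq_of_polyOf_eq hE (X.inDisc_Edy n hy) (hp.trans (X.polyOf_Edy n hy).symm)

/-- `E - n∞` as a divisor of degree zero. -/
def degZeroOf (n : ℕ) (E : Divisor Ω 𝔽) (h : Divisor.degree E = n) :
    Divisor.degZero (K := Ω) (F := 𝔽) :=
  ⟨E - Finsupp.single X.cusp (n : ℤ), by
    rw [Divisor.mem_degZero, map_sub, h, X.degree_single_cusp, sub_self]⟩

/-- the class `[E - n∞]`. -/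
def clsOf (n : ℕ) (E : Divisor Ω 𝔽) (h : Divisor.degree E = n) : Pic0 Ω 𝔽 :=
  Pic0.mk (X.degZeroOf n E h)

/-- **normal form**: `y ∈ 𝔪^{n+1}` vanishing at the nongap positions with `z = [E_y - n∞]`. -/
def IsNF (n : ℕ) (z : Pic0 Ω 𝔽) (y : Fin (n + 1) → Ω) : Prop :=
  (∀ γ, y γ ∈ A.nonunits) ∧ (∀ γ ∈ X.nongaps n, y γ = 0) ∧
    ∃ h : Divisor.degree (X.Edy n y) = n, X.clsOf n (X.Edy n y) h = z

end GoodRed

end Fermat.Agent.FG

end
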