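/-
FG — helper2 — [NFCHART] (R6a): the normal form chart of the kernel of reduction.

* `IsNF.mem_kerRed`: classes in normal form lie in the kernel of reduction;
* `existsUnique_isNF`: every class of the kernel of reduction has exactly one normal form;
* `IsNF.smul`: equivariance under the automorphisms of the good-reduction datum;
* `IsNF.isPrincipal_two`, `IsNF.isPrincipal_three`: the relations `z + z' = 0`,
  `z + z' + z'' = 0` in terms of the divisors `E_y`.
-/
import Mathlib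
import Fermat.Agent.FG.REFL_helper5_NFDef
import Fermat.Agent.FG.AUT_helper2_Main
import Fermat.Agent.FG.LAT_helper5_Rep

set_option autoImplicit false
set_option linter.unusedSectionVars false
set_option linter.style.haveILetI false

noncomputable section

namespace Fermat.Agent.FG

open AlgebraicCurve IsLocalRing IntermediateField Fermat.Agent.FF Fermat.Agent.JA
open scoped Classical

namespace GoodRed

variable {Ω : Type*} [Field Ω] {A : ValuationSubring Ω} {𝔽 : Type*} [Field 𝔽] [Algebra Ω 𝔽]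
  {𝔽b : Type*} [Field 𝔽b] [Algebra (ResidueField ↥A) 𝔽b] (X : GoodRed Ω A 𝔽 𝔽b)

/-! ### classes and principal divisors -/

theorem mk_eq_zero_iff_isPrincipal (D : Divisor.degZero (K := Ω) (F := 𝔽)) :
    Pic0.mk D = 0 ↔ Divisor.IsPrincipal (D : Divisor Ω 𝔽) := by
  rw [Pic0.mk, QuotientAddGroup.eq_zero_iff, AddSubgroup.mem_addSubgroupOf]
  rfl

theorem coe_degZeroOf (n : ℕ) (E : Divisor Ω 𝔽) (h : Divisor.degree E = n) :
    ((X.degZeroOf n E h : Divisor.degZero (K := Ω) (F := 𝔽)) : Divisor Ω 𝔽) =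
      E - Finsupp.single X.cusp (n : ℤ) := rfl

theorem clsOf_congr (n : ℕ) {E E' : Divisor Ω 𝔽} (hEE : E = E') (h : Divisor.degree E = n)
    (h' : Divisor.degree E' = n) : X.clsOf n E h = X.clsOf n E' h' := by
  subst hEE
  rfl

/-- `[E - n∞] + [E' - n∞] = 0` iff `E + E' - 2n∞` is principal. -/
theorem clsOf_add_clsOf_eq_zero_iff (n : ℕ) {E E' : Divisor Ω 𝔽} (h : Divisor.degree E = n)
    (h' : Divisor.degree E' = n) :
    X.clsOf n E h + X.clsOf n E' h' = 0 ↔
      Divisor.IsPrincipal (E + E' - Finsupp.single X.cusp ((n + n : ℕ) : ℤ)) := by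
  rw [clsOf, clsOf, ← Pic0.mk_add, mk_eq_zero_iff_isPrincipal]
  have e : ((X.degZeroOf n E h + X.degZeroOf n E' h' : Divisor.degZero (K := Ω) (F := 𝔽)) :
      Divisor Ω 𝔽) = E + E' - Finsupp.single X.cusp ((n + n : ℕ) : ℤ) := by
    rw [AddSubgroup.coe_add, coe_degZeroOf, coe_degZeroOf, Nat.cast_add, Finsupp.single_add]
    abel
  rw [e]

/-- `[E - n∞] + [E' - n∞] + [E'' - n∞] = 0` iff `E + E' + E'' - 3n∞` is principal. -/
theorem clsOf_add_clsOf_add_clsOf_eq_zero_iff (n : ℕ) {E E' E'' : Divisor Ω 𝔽}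
    (h : Divisor.degree E = n) (h' : Divisor.degree E' = n) (h'' : Divisor.degree E'' = n) :
    X.clsOf n E h + X.clsOf n E' h' + X.clsOf n E'' h'' = 0 ↔
      Divisor.IsPrincipal (E + E' + E'' - Finsupp.single X.cusp ((n + n + n : ℕ) : ℤ)) := by
  rw [clsOf, clsOf, clsOf, ← Pic0.mk_add, ← Pic0.mk_add, mk_eq_zero_iff_isPrincipal]
  have e : ((X.degZeroOf n E h + X.degZeroOf n E' h' + X.degZeroOf n E'' h'' :
      Divisor.degZero (K := Ω) (F := 𝔽)) : Divisor Ω 𝔽) =
      E + E' + E'' - Finsupp.single X.cusp ((n + n + n : ℕ) : ℤ) := by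
    rw [AddSubgroup.coe_add, AddSubgroup.coe_add, coe_degZeroOf, coe_degZeroOf, coe_degZeroOf,
      Nat.cast_add, Nat.cast_add, Finsupp.single_add, Finsupp.single_add]
    abel
  rw [e]

/-- the class of an effective divisor of degree `n` in the disc lies in the kernel of
reduction. -/
theorem clsOf_mem_kerRed (n : ℕ) {E : Divisor Ω 𝔽} (hE : X.InDisc E)
    (h : Divisor.degree E = n) : X.clsOf n E h ∈ X.kerRed := by
  rw [mem_kerRed, clsOf, redPic0_mk]
  have h0 : X.redDegZero (X.degZeroOf n E h) = 0 := by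
    apply Subtype.ext
    rw [coe_redDegZero, coe_degZeroOf, map_sub, X.redDiv_of_inDisc hE, X.redDiv_single, h]
    exact sub_self _
  rw [h0]
  rfl

/-- the action of an automorphism of the datum on the class `[E - n∞]`. -/
theorem IsAut.smul_clsOf (g : SemilinearAut Ω 𝔽) (hg : X.IsAut g) (n : ℕ) {E : Divisor Ω 𝔽}
    (h : Divisor.degree E = n) (h' : Divisor.degree (g • E) = n) :
    g • X.clsOf n E h = X.clsOf n (g • E) h' := by
  rw [clsOf, clsOf, SemilinearAut.pic0_smul_mk]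
  congr 1
  apply Subtype.ext
  rw [SemilinearAut.coe_degZeroSMulHom, coe_degZeroOf, coe_degZeroOf, smul_sub,
    SemilinearAut.smul_single, hg.smul_cusp]

/-! ### the polynomial `D_y` under an automorphism of the base -/

theorem map_Dy (n : ℕ) (y : Fin (n + 1) → Ω) (σ : Ω →+* Ω) :
    (X.Dy n y).map σ = X.Dy n (fun γ => σ (y γ)) := by
  unfold Dy
  rw [Polynomial.map_add, Polynomial.map_pow, Polynomial.map_X, Polynomial.map_sum]
  congr 1
  refine Finset.sum_congr rfl fun γ _ => ?_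
  split_ifs
  · rw [Polynomial.map_zero]
  · rw [Polynomial.map_mul, Polynomial.map_C, Polynomial.map_pow, Polynomial.map_X]

/-! ### the normal form -/

variable [IsAlgClosed Ω] [CharZero Ω] {n : ℕ}

theorem IsNF.mem_kerRed {z : Pic0 Ω 𝔽} {y : Fin (n + 1) → Ω} (h : X.IsNF n z y) :
    z ∈ X.kerRed := by
  obtain ⟨hy, -, hdeg, rfl⟩ := h
  exact X.clsOf_mem_kerRed n (X.inDisc_Edy n hy) hdeg

/-- **existence and uniqueness of the normal form** of a class in the kernel of reduction. -/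
theorem existsUnique_isNF (hens : IsMvHenselian A) (hn : 2 * X.g ≤ n)
    {hN : 2 * (X.g : ℤ) - 1 ≤ (n + n : ℕ)} (NP : X.NormPoly hN) {z : Pic0 Ω 𝔽}
    (hz : z ∈ X.kerRed) : ∃! y : Fin (n + 1) → Ω, X.IsNF n z y := by
  have hn' : 2 * (X.g : ℤ) - 1 ≤ n := by
    have : (2 * X.g : ℤ) ≤ n := by exact_mod_cast hn
    omega
  obtain ⟨Es, hEs0, hEsd, hdegEs, hmem, hcls⟩ :=
    X.exists_rep_in_disc n hn' (-z) (X.kerRed.neg_mem hz)
  have hEs : X.InDisc Es := ⟨hEs0, hEsd⟩
  have hclsEs : X.clsOf n Es hdegEs = -z := hcls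
  -- a normal form of `z` is a solution of `E_s + E_y ~ 2n∞`
  have key : ∀ y : Fin (n + 1) → Ω, (∀ γ, y γ ∈ A.nonunits) →
      ((∃ h : Divisor.degree (X.Edy n y) = n, X.clsOf n (X.Edy n y) h = z) ↔
        Divisor.IsPrincipal (Es + X.Edy n y - Finsupp.single X.cusp ((n + n : ℕ) : ℤ))) := by
    intro y hy
    have hd := X.degree_Edy n hy
    rw [← X.clsOf_add_clsOf_eq_zero_iff n hdegEs hd, hclsEs]
    constructor
    · rintro ⟨h, hh⟩
      rw [X.clsOf_congr n rfl hd h, hh, neg_add_cancel]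
    · intro h
      refine ⟨hd, ?_⟩
      have := eq_neg_of_add_eq_zero_right h
      rw [this, neg_neg]
  obtain ⟨y, hy, hy0, E, hE, hpE, hprin⟩ := X.exists_normalForm NP hens hn hEs hdegEs
  have hEy : E = X.Edy n y := X.eq_Edy n hy hE hpE
  refine ⟨y, ⟨hy, hy0, (key y hy).mpr (hEy ▸ hprin)⟩, fun y' h' => ?_⟩
  obtain ⟨hy', hy0', hex'⟩ := h'
  exact X.normalForm_unique NP hn hEs hdegEs hy' hy hy0' hy0
    (X.inDisc_Edy n hy') (X.polyOf_Edy n hy') (X.inDisc_Edy n hy) (X.polyOf_Edy n hy)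
    ((key y' hy').mp hex') (hEy ▸ hprin)

/-- **equivariance of the normal form** under the automorphisms of the datum. -/
theorem IsNF.smul (g : SemilinearAut Ω 𝔽) (hg : X.IsAut g) {z : Pic0 Ω 𝔽}
    {y : Fin (n + 1) → Ω} (h : X.IsNF n z y) :
    X.IsNF n (g • z) (fun γ => SemilinearAut.baseAut g (y γ)) := by
  obtain ⟨hy, hy0, hdeg, rfl⟩ := h
  have hy' : ∀ γ, SemilinearAut.baseAut g (y γ) ∈ A.nonunits :=
    fun γ => IsAut.baseAut_mem_nonunits X g hg (hy γ)
  have hE : g • X.Edy n y = X.Edy n (fun γ => SemilinearAut.baseAut g (y γ)) := by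
    apply X.eq_Edy n hy' (IsAut.inDisc_smul X g hg (X.inDisc_Edy n hy))
    rw [IsAut.polyOf_smul X g hg (X.inDisc_Edy n hy), X.polyOf_Edy n hy, X.map_Dy]
    rfl
  refine ⟨hy', fun γ hγ => ?_, X.degree_Edy n hy', ?_⟩
  · show SemilinearAut.baseAut g (y γ) = 0
    rw [hy0 γ hγ, map_zero]
  · have hd : Divisor.degree (g • X.Edy n y) = n := by
      rw [SemilinearAut.degree_smul]; exact hdeg
    rw [IsAut.smul_clsOf X g hg n hdeg hd]
    exact (X.clsOf_congr n hE hd (X.degree_Edy n hy')).symm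

theorem IsNF.isPrincipal_two {z z' : Pic0 Ω 𝔽} {y y' : Fin (n + 1) → Ω} (h : X.IsNF n z y)
    (h' : X.IsNF n z' y') (hzz : z + z' = 0) :
    Divisor.IsPrincipal
      (X.Edy n y + X.Edy n y' - Finsupp.single X.cusp ((n + n : ℕ) : ℤ)) := by
  obtain ⟨-, -, hd, rfl⟩ := h
  obtain ⟨-, -, hd', rfl⟩ := h'
  exact (X.clsOf_add_clsOf_eq_zero_iff n hd hd').mp hzz

theorem IsNF.isPrincipal_three {z z' z'' : Pic0 Ω 𝔽} {y y' y'' : Fin (n + 1) → Ω}
    (h : X.IsNF n z y) (h' : X.IsNF n z' y') (h'' : X.IsNF n z'' y'')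
    (hzz : z + z' + z'' = 0) :
    Divisor.IsPrincipal (X.Edy n y + X.Edy n y' + X.Edy n y'' -
      Finsupp.single X.cusp ((n + n + n : ℕ) : ℤ)) := by
  obtain ⟨-, -, hd, rfl⟩ := h
  obtain ⟨-, -, hd', rfl⟩ := h'
  obtain ⟨-, -, hd'', rfl⟩ := h''
  exact (X.clsOf_add_clsOf_add_clsOf_eq_zero_iff n hd hd' hd'').mp hzz

end GoodRed

end Fermat.Agent.FG

end
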