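/-
FG — helper5 — [REFL] (R6): the unknown vector `u = mix(c, y)` of the reflection system built from
a coefficient vector `c` (nonzero nongap positions) and a gap vector `y`; it solves the system
as soon as `E_c = E_s + E_y`.
-/
import Mathlib
import Fermat.Agent.FG.REFL_helper5_NFDef

set_option autoImplicit false
set_option linter.unusedSectionVars false
set_option linter.style.haveILetI false

noncomputable section

namespace Fermat.Agent.FG

open AlgebraicCurve IsLocalRing IntermediateField Fermat.Agent.FF Fermat.Agent.JA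
open scoped Classical

namespace GoodRed

variable {Ω : Type*} [Field Ω] {A : ValuationSubring Ω} {𝔽 : Type*} [Field 𝔽] [Algebra Ω 𝔽]
  {𝔽b : Type*} [Field 𝔽b] [Algebra (ResidueField ↥A) 𝔽b] (X : GoodRed Ω A 𝔽 𝔽b)

/-- the unknown vector: `0` at position `0`, `c` at the nonzero nongap positions, `y` at the gap
positions. -/
def mixU (N₁ n : ℕ) (c : Fin (N₁ + n + 1) → Ω) (y : Fin (n + 1) → Ω) : Fin (N₁ + n + 1) → Ω :=
  fun i => if i = 0 then 0 else if i ∈ X.nongaps (N₁ + n) then c i else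
    if h : (i : ℕ) < n + 1 then y ⟨i, h⟩ else 0

variable {N₁ n : ℕ}

theorem mixU_zero (c : Fin (N₁ + n + 1) → Ω) (y : Fin (n + 1) → Ω) : X.mixU N₁ n c y 0 = 0 := by
  unfold mixU
  rw [if_pos rfl]

theorem mixU_mem {c : Fin (N₁ + n + 1) → Ω} {y : Fin (n + 1) → Ω} (hc : ∀ i, c i ∈ A.nonunits)
    (hy : ∀ γ, y γ ∈ A.nonunits) (i : Fin (N₁ + n + 1)) : X.mixU N₁ n c y i ∈ A.nonunits := by
  unfold mixU
  split_ifs
  · exact zero_mem_nonunits
  · exact hc i
  · exact hy _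
  · exact zero_mem_nonunits

theorem mixU_gpos (c : Fin (N₁ + n + 1) → Ω) (y : Fin (n + 1) → Ω) {γ : Fin (n + 1)}
    (hγ : γ ∉ X.nongaps n) : X.mixU N₁ n c y (gpos N₁ n γ) = y γ := by
  have h1 : gpos N₁ n γ ≠ 0 := by
    intro h
    have h2 := congrArg Fin.val h
    rw [coe_gpos] at h2
    have h3 := X.gap_pos hγ
    simp only [Fin.val_zero] at h2
    omega
  have h2 : gpos N₁ n γ ∉ X.nongaps (N₁ + n) := by
    intro h
    apply hγ
    rw [X.mem_nongaps] at h ⊢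
    exact h
  unfold mixU
  rw [if_neg h1, if_neg h2, dif_pos (by rw [coe_gpos]; exact γ.2)]
  rfl

theorem Dy_mixU (c : Fin (N₁ + n + 1) → Ω) (y : Fin (n + 1) → Ω) :
    X.Dy n (fun γ => X.mixU N₁ n c y (gpos N₁ n γ)) = X.Dy n y :=
  X.Dy_congr n fun _ hγ => X.mixU_gpos c y hγ

theorem kfun_mixU (hN : 2 * (X.g : ℤ) - 1 ≤ (N₁ + n : ℕ)) (c : Fin (N₁ + n + 1) → Ω)
    (y : Fin (n + 1) → Ω) : X.kfun hN (X.mixU N₁ n c y) = X.kfun hN c := by
  apply X.kfun_congr hN
  intro ν hν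
  unfold mixU
  rw [if_neg hν, if_pos ν.2]

variable {hN : 2 * (X.g : ℤ) - 1 ≤ (N₁ + n : ℕ)} (NP : X.NormPoly hN)
variable {V : Type*} (e : Fin (N₁ + n + 1) → V) (ω : ℕ → MvPolynomial V Ω)

/-- **the mixed vector solves the system** as soon as `E_c = E_s + E_y`. -/
theorem eval_sysG_mix [IsAlgClosed Ω] [CharZero Ω] (v : V → Ω) (W : Polynomial Ω)
    (hW : ∀ a, W.coeff a = MvPolynomial.eval v (ω a))
    {c : Fin (N₁ + n + 1) → Ω} {y : Fin (n + 1) → Ω} (hc : ∀ i, c i ∈ A.nonunits)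
    (hy : ∀ γ, y γ ∈ A.nonunits) (hv : ∀ i, v (e i) = X.mixU N₁ n c y i)
    {Es : Divisor Ω 𝔽} (hEs : X.InDisc Es) (hWs : X.polyOf Es = W)
    (hE : X.Ediv hN c = Es + X.Edy n y) (i : Fin (N₁ + n + 1)) :
    MvPolynomial.eval v (X.sysG NP e ω i) = 0 := by
  by_cases hi : i = 0
  · rw [hi]
    unfold sysG
    rw [if_pos rfl, MvPolynomial.eval_X, hv, X.mixU_zero]
  · have hve : v ∘ e = X.mixU N₁ n c y := funext hv
    apply X.eval_sysG_eq_zero NP e ω v W hW (fun i => by rw [hv]; exact X.mixU_mem hc hy i) _ i hi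
    have h1 : (fun γ => v (e (gpos N₁ n γ))) = fun γ => X.mixU N₁ n c y (gpos N₁ n γ) :=
      funext fun γ => hv _
    rw [hve, h1, X.Dy_mixU, X.Ediv_congr hN (X.kfun_mixU hN c y), hE,
      X.polyOf_add hEs (X.inDisc_Edy n hy), hWs, X.polyOf_Edy n hy]

end GoodRed

end Fermat.Agent.FG

end
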