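/-
FG — helper5 — [REFL] (R6): the polynomial `D` with variable coefficients and the coefficient
families `ω` of the two reflection steps of the addition law.
-/
import Mathlib
import Fermat.Agent.FG.REFL_helper5_Mix

set_option autoImplicit false
set_option linter.unusedSectionVars false
set_option linter.style.haveILetI false

noncomputable section

namespace Fermat.Agent.FG

open AlgebraicCurve IsLocalRing IntermediateField Fermat.Agent.FF Fermat.Agent.JA
open scoped Classical

section Generic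

variable {R : Type*} [CommRing R] {V : Type*}

theorem lin_coeff_mul (l : V) {P Q : Polynomial (MvPolynomial V R)}
    (hP : ∀ k, lin l (P.coeff k) = 0) (hQ : ∀ k, lin l (Q.coeff k) = 0) (k : ℕ) :
    lin l ((P * Q).coeff k) = 0 := by
  rw [Polynomial.coeff_mul, lin_sum]
  refine Finset.sum_eq_zero fun x _ => ?_
  rw [lin_mul, hP, hQ, zero_mul, mul_zero, add_zero]

theorem coeff_mul_mem_polyOver (B : Subring R) {P Q : Polynomial (MvPolynomial V R)}
    (hP : ∀ k, P.coeff k ∈ polyOver B V) (hQ : ∀ k, Q.coeff k ∈ polyOver B V) (k : ℕ) :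
    (P * Q).coeff k ∈ polyOver B V := by
  rw [Polynomial.coeff_mul]
  exact Subring.sum_mem _ fun x _ => Subring.mul_mem _ (hP _) (hQ _)

end Generic

namespace GoodRed

variable {Ω : Type*} [Field Ω] {A : ValuationSubring Ω} {𝔽 : Type*} [Field 𝔽] [Algebra Ω 𝔽]
  {𝔽b : Type*} [Field 𝔽b] [Algebra (ResidueField ↥A) 𝔽b] (X : GoodRed Ω A 𝔽 𝔽b)

variable {V : Type*}

/-- `D` with variable coefficients: `T^n + Σ_{γ gap} X_{f γ} T^{n-γ}`. -/
def Dgen (n : ℕ) (f : Fin (n + 1) → V) : Polynomial (MvPolynomial V Ω) :=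
  Polynomial.X ^ n + ∑ γ : Fin (n + 1), if γ ∈ X.nongaps n then 0 else
    Polynomial.C (MvPolynomial.X (f γ)) * Polynomial.X ^ (n - (γ : ℕ))

theorem map_eval_Dgen (n : ℕ) (f : Fin (n + 1) → V) (v : V → Ω) :
    (X.Dgen n f).map (MvPolynomial.eval v) = X.Dy n (fun γ => v (f γ)) := by
  unfold Dgen Dy
  rw [Polynomial.map_add, Polynomial.map_pow, Polynomial.map_X, Polynomial.map_sum]
  congr 1
  refine Finset.sum_congr rfl fun γ _ => ?_
  split_ifs
  · rw [Polynomial.map_zero]
  · rw [Polynomial.map_mul, Polynomial.map_C, Polynomial.map_pow, Polynomial.map_X,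
      MvPolynomial.eval_X]

theorem map_constantCoeff_Dgen (n : ℕ) (f : Fin (n + 1) → V) :
    (X.Dgen n f).map (MvPolynomial.constantCoeff (R := Ω)) = Polynomial.X ^ n := by
  unfold Dgen
  rw [Polynomial.map_add, Polynomial.map_pow, Polynomial.map_X, Polynomial.map_sum,
    Finset.sum_eq_zero, add_zero]
  intro γ _
  split_ifs
  · rw [Polynomial.map_zero]
  · rw [Polynomial.map_mul, Polynomial.map_C, MvPolynomial.constantCoeff_X, map_zero, zero_mul]

theorem coeff_Dgen (n : ℕ) (f : Fin (n + 1) → V) (k : ℕ) :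
    (X.Dgen n f).coeff k = (if k = n then 1 else 0) + ∑ γ : Fin (n + 1),
      if γ ∈ X.nongaps n then 0 else if k = n - (γ : ℕ) then MvPolynomial.X (f γ) else 0 := by
  unfold Dgen
  rw [Polynomial.coeff_add, Polynomial.coeff_X_pow, Polynomial.finsetSum_coeff]
  congr 1
  refine Finset.sum_congr rfl fun γ _ => ?_
  split_ifs with h1 h2
  · rw [Polynomial.coeff_zero]
  · rw [Polynomial.coeff_C_mul_X_pow, if_pos h2]
  · rw [Polynomial.coeff_C_mul_X_pow, if_neg h2]

theorem lin_coeff_Dgen (n : ℕ) (f : Fin (n + 1) → V) {l : V} (hl : l ∉ Set.range f) (k : ℕ) :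
    lin l ((X.Dgen n f).coeff k) = 0 := by
  rw [X.coeff_Dgen, lin_add, lin_sum]
  have h1 : lin l (if k = n then (1 : MvPolynomial V Ω) else 0) = 0 := by
    split_ifs
    · exact lin_one l
    · exact lin_zero l
  rw [h1, zero_add]
  refine Finset.sum_eq_zero fun γ _ => ?_
  split_ifs
  · exact lin_zero l
  · rw [lin_X, if_neg]
    intro h
    exact hl ⟨γ, h⟩
  · exact lin_zero l

theorem coeff_Dgen_mem_polyOver (B : Subring Ω) (n : ℕ) (f : Fin (n + 1) → V) (k : ℕ) :
    (X.Dgen n f).coeff k ∈ polyOver B V := by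
  rw [X.coeff_Dgen]
  refine Subring.add_mem _ ?_ (Subring.sum_mem _ fun γ _ => ?_)
  · split_ifs
    · exact Subring.one_mem _
    · exact Subring.zero_mem _
  · split_ifs
    · exact Subring.zero_mem _
    · exact X_mem_polyOver _
    · exact Subring.zero_mem _

/-- the coefficient at a gap position. -/
theorem coeff_Dgen_gap (n : ℕ) (f : Fin (n + 1) → V) {γ : Fin (n + 1)} (hγ : γ ∉ X.nongaps n) :
    (X.Dgen n f).coeff (n - (γ : ℕ)) = MvPolynomial.X (f γ) := by
  have h1 := X.gap_pos hγ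
  have h2 : (γ : ℕ) ≤ n := Nat.lt_succ_iff.mp γ.2
  rw [X.coeff_Dgen, if_neg (by omega), zero_add, Finset.sum_eq_single γ]
  · rw [if_neg hγ, if_pos rfl]
  · intro γ' _ hne
    by_cases hγ' : γ' ∈ X.nongaps n
    · rw [if_pos hγ']
    · rw [if_neg hγ', if_neg]
      intro h
      apply hne
      have h3 : (γ' : ℕ) ≤ n := Nat.lt_succ_iff.mp γ'.2
      exact Fin.ext (by omega)
  · intro h
    exact absurd (Finset.mem_univ γ) h

end GoodRed

end Fermat.Agent.FG

end
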