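/-
FG — helper5 — [REFL] (R6): the addition-law system (two reflections).
Parameters `y, y' : Fin (n+1) → Ω`; unknowns `u¹ : Fin (3n+1) → Ω`, `u² : Fin (2n+1) → Ω` (auxiliary)
and `y'' : Fin (n+1) → Ω` (the chart of the sum).  Equations:
* `Σ(2n)` with `W = D_y · D_{y'}`, unknown `u¹ = mix(c₁, w)` (so `[E_w - n∞] = -(z + z')`);
* `Σ(n)` with `W = D_w`, unknown `u² = mix(c₂, y'')` (so `[E_{y''} - n∞] = z + z'`);
* `y''_γ = u²_γ` at the gap positions, `y''_γ = 0` at the nongap positions.
-/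
import Mathlib
import Fermat.Agent.FG.REFL_helper5_Dgen

set_option autoImplicit false
set_option linter.unusedSectionVars false
set_option linter.style.haveILetI false

noncomputable section

namespace Fermat.Agent.FG

open AlgebraicCurve IsLocalRing IntermediateField Fermat.Agent.FF Fermat.Agent.JA
open scoped Classical

/-- the auxiliary unknowns of the addition law. -/
abbrev Kap (n : ℕ) : Type := Fin (n + n + n + 1) ⊕ Fin (n + n + 1)

/-- all variables of the addition law. -/
abbrev AVar (n : ℕ) : Type := (Fin (n + 1) ⊕ Fin (n + 1)) ⊕ (Kap n ⊕ Fin (n + 1))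

/-- first parameter. -/
def py (n : ℕ) : Fin (n + 1) → AVar n := fun γ => Sum.inl (Sum.inl γ)
/-- second parameter. -/
def py' (n : ℕ) : Fin (n + 1) → AVar n := fun γ => Sum.inl (Sum.inr γ)
/-- unknowns of the first reflection. -/
def e1 (n : ℕ) : Fin (n + n + n + 1) → AVar n := fun i => Sum.inr (Sum.inl (Sum.inl i))
/-- unknowns of the second reflection. -/
def e2 (n : ℕ) : Fin (n + n + 1) → AVar n := fun i => Sum.inr (Sum.inl (Sum.inr i))
/-- the output. -/
def eo (n : ℕ) : Fin (n + 1) → AVar n := fun γ => Sum.inr (Sum.inr γ)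

theorem e1_injective (n : ℕ) : Function.Injective (e1 n) := fun a b h => by
  simpa [e1] using h

theorem e2_injective (n : ℕ) : Function.Injective (e2 n) := fun a b h => by
  simpa [e2] using h

namespace GoodRed

variable {Ω : Type*} [Field Ω] {A : ValuationSubring Ω} {𝔽 : Type*} [Field 𝔽] [Algebra Ω 𝔽]
  {𝔽b : Type*} [Field 𝔽b] [Algebra (ResidueField ↥A) 𝔽b] (X : GoodRed Ω A 𝔽 𝔽b)

variable (n : ℕ)

/-- the coefficients of `W = D_y · D_{y'}` (first reflection). -/
def ω1 : ℕ → MvPolynomial (AVar n) Ω := fun a =>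
  (X.Dgen n (py n) * X.Dgen n (py' n)).coeff a

/-- the coefficients of `W = D_w`, `w` the gap part of `u¹` (second reflection). -/
def ω2 : ℕ → MvPolynomial (AVar n) Ω := fun a =>
  (X.Dgen n (fun γ => e1 n (gpos (n + n) n γ))).coeff a

theorem constantCoeff_ω1 (a : ℕ) :
    MvPolynomial.constantCoeff (X.ω1 n a) = if a = n + n then 1 else 0 := by
  unfold ω1
  rw [← Polynomial.coeff_map, Polynomial.map_mul, X.map_constantCoeff_Dgen,
    X.map_constantCoeff_Dgen, ← pow_add, Polynomial.coeff_X_pow]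

theorem constantCoeff_ω2 (a : ℕ) :
    MvPolynomial.constantCoeff (X.ω2 n a) = if a = n then 1 else 0 := by
  unfold ω2
  rw [← Polynomial.coeff_map, X.map_constantCoeff_Dgen, Polynomial.coeff_X_pow]

theorem sysHyp1 : SysHyp A (e1 n) (X.ω1 n) where
  e_inj := e1_injective n
  lin_ω := fun a i' => by
    unfold ω1
    apply lin_coeff_mul
    · intro k
      apply X.lin_coeff_Dgen
      rintro ⟨γ, h⟩
      simp [py, e1] at h
    · intro k
      apply X.lin_coeff_Dgen
      rintro ⟨γ, h⟩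
      simp [py', e1] at h
  ω_top := by rw [X.constantCoeff_ω1, if_pos rfl]
  ω_low := fun a ha => by
    rw [X.constantCoeff_ω1, if_neg (by omega)]
    exact zero_mem_nonunits
  ω_high := fun a ha => by
    rw [X.constantCoeff_ω1, if_neg (by omega)]

theorem sysHyp2 : SysHyp A (e2 n) (X.ω2 n) where
  e_inj := e2_injective n
  lin_ω := fun a i' => by
    unfold ω2
    apply X.lin_coeff_Dgen
    rintro ⟨γ, h⟩
    simp [e1, e2] at h
  ω_top := by rw [X.constantCoeff_ω2, if_pos rfl]
  ω_low := fun a ha => by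
    rw [X.constantCoeff_ω2, if_neg (by omega)]
    exact zero_mem_nonunits
  ω_high := fun a ha => by
    rw [X.constantCoeff_ω2, if_neg (by omega)]

variable {n}
variable {hN3 : 2 * (X.g : ℤ) - 1 ≤ (n + n + n : ℕ)} (NP3 : X.NormPoly hN3)
variable {hN2 : 2 * (X.g : ℤ) - 1 ≤ (n + n : ℕ)} (NP2 : X.NormPoly hN2)

/-- **the addition-law system.** -/
def addS : Kap n ⊕ Fin (n + 1) → MvPolynomial (AVar n) Ω
  | Sum.inl (Sum.inl i) => X.sysG NP3 (e1 n) (X.ω1 n) i
  | Sum.inl (Sum.inr i) => X.sysG NP2 (e2 n) (X.ω2 n) i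
  | Sum.inr γ => MvPolynomial.X (eo n γ)
      - (if γ ∈ X.nongaps n then 0 else MvPolynomial.X (e2 n (gpos n n γ)))

theorem addS_mem_polyOver (B : Subring Ω)
    (hM3 : ∀ j, NP3.M j ∈ polyOver B (Fin (n + n + n + 1)))
    (hM2 : ∀ j, NP2.M j ∈ polyOver B (Fin (n + n + 1))) (j : Kap n ⊕ Fin (n + 1)) :
    X.addS NP3 NP2 j ∈ polyOver B (AVar n) := by
  rcases j with (i | i) | γ
  · exact X.sysG_mem_polyOver NP3 (e1 n) (X.ω1 n) B hM3 (fun a =>
      coeff_mul_mem_polyOver B (X.coeff_Dgen_mem_polyOver B n _) (X.coeff_Dgen_mem_polyOver B n _) a) i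
  · exact X.sysG_mem_polyOver NP2 (e2 n) (X.ω2 n) B hM2
      (fun a => X.coeff_Dgen_mem_polyOver B n _ a) i
  · show MvPolynomial.X (eo n γ) - (if γ ∈ X.nongaps n then 0 else
      MvPolynomial.X (e2 n (gpos n n γ))) ∈ polyOver B (AVar n)
    refine Subring.sub_mem _ (X_mem_polyOver _) ?_
    split_ifs
    · exact Subring.zero_mem _
    · exact X_mem_polyOver _

theorem constantCoeff_addS (j : Kap n ⊕ Fin (n + 1)) :
    MvPolynomial.constantCoeff (X.addS NP3 NP2 j) = 0 := by
  rcases j with (i | i) | γ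
  · show MvPolynomial.constantCoeff (X.sysG NP3 (e1 n) (X.ω1 n) i) = 0
    by_cases hi : i = 0
    · rw [hi, X.constantCoeff_sysG_zero]
    · rw [X.constantCoeff_sysG NP3 _ _ i hi, neg_eq_zero]
      have hi0 : 0 < (i : ℕ) := Nat.pos_of_ne_zero fun h => hi (Fin.ext h)
      unfold zc
      split_ifs with h0
      · show MvPolynomial.constantCoeff (X.ω1 n _) = 0
        rw [X.constantCoeff_ω1, if_neg]
        omega
      · rfl
  · show MvPolynomial.constantCoeff (X.sysG NP2 (e2 n) (X.ω2 n) i) = 0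
    by_cases hi : i = 0
    · rw [hi, X.constantCoeff_sysG_zero]
    · rw [X.constantCoeff_sysG NP2 _ _ i hi, neg_eq_zero]
      have hi0 : 0 < (i : ℕ) := Nat.pos_of_ne_zero fun h => hi (Fin.ext h)
      unfold zc
      split_ifs with h0
      · show MvPolynomial.constantCoeff (X.ω2 n _) = 0
        rw [X.constantCoeff_ω2, if_neg]
        omega
      · rfl
  · show MvPolynomial.constantCoeff (MvPolynomial.X (eo n γ) - (if γ ∈ X.nongaps n then 0 else
      MvPolynomial.X (e2 n (gpos n n γ)))) = 0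
    rw [map_sub, MvPolynomial.constantCoeff_X]
    split_ifs
    · rw [map_zero, sub_zero]
    · rw [MvPolynomial.constantCoeff_X, sub_zero]

end GoodRed

end Fermat.Agent.FG

end
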