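/-
FG — helper5 — [REFL] (R6): the Jacobian of the addition-law system is block lower triangular with
diagonal blocks the Jacobians of the two reflections and the identity; its determinant is a unit.
-/
import Mathlib
import Fermat.Agent.FG.REFL_helper5_Add

set_option autoImplicit false
set_option linter.unusedSectionVars false
set_option linter.style.haveILetI false

noncomputable section

namespace Fermat.Agent.FG

open AlgebraicCurve IsLocalRing IntermediateField Fermat.Agent.FF Fermat.Agent.JA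
open scoped Classical

namespace GoodRed

variable {Ω : Type*} [Field Ω] {A : ValuationSubring Ω} {𝔽 : Type*} [Field 𝔽] [Algebra Ω 𝔽]
  {𝔽b : Type*} [Field 𝔽b] [Algebra (ResidueField ↥A) 𝔽b] (X : GoodRed Ω A 𝔽 𝔽b)

section Zero

variable {n N₁ : ℕ} {hN : 2 * (X.g : ℤ) - 1 ≤ (N₁ + n : ℕ)} (NP : X.NormPoly hN)
variable {V : Type*} (e : Fin (N₁ + n + 1) → V) (ω : ℕ → MvPolynomial V Ω)

/-- the system does not involve variables outside the range of `e` and the variables of `ω`. -/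
theorem lin_sysG_of_notMem {l : V} (hl : l ∉ Set.range e) (hω : ∀ a, lin l (ω a) = 0)
    (i : Fin (N₁ + n + 1)) : lin l (X.sysG NP e ω i) = 0 := by
  by_cases hi : i = 0
  · rw [hi, X.lin_sysG_zero, if_neg]
    intro h
    exact hl ⟨0, h⟩
  · rw [X.lin_sysG NP e ω l i hi, lin_rename_of_notMem_range hl, lin_rename_of_notMem_range hl,
      X.lin_wd]
    have h1 : zc (fun a => lin l (ω a)) ((N₁ : ℤ) - i) = 0 := by
      unfold zc
      split_ifs
      · exact hω _
      · rfl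
    rw [h1, Finset.sum_eq_zero, zero_mul, zero_add, add_zero, sub_zero]
    intro γ _
    split_ifs with h2 h3
    · rfl
    · exact absurd ⟨_, h3⟩ hl
    · rfl

end Zero

variable {n : ℕ}
variable {hN3 : 2 * (X.g : ℤ) - 1 ≤ (n + n + n : ℕ)} (NP3 : X.NormPoly hN3)
variable {hN2 : 2 * (X.g : ℤ) - 1 ≤ (n + n : ℕ)} (NP2 : X.NormPoly hN2)

/-- the Jacobian matrix of the addition law at the origin. -/
def addJac : Matrix (Kap n ⊕ Fin (n + 1)) (Kap n ⊕ Fin (n + 1)) Ω :=
  Matrix.of fun j l => lin (Sum.inr l : AVar n) (X.addS NP3 NP2 j)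

theorem lin_ω1_of_notMem {l : AVar n} (h1 : l ∉ Set.range (py n)) (h2 : l ∉ Set.range (py' n))
    (a : ℕ) : lin l (X.ω1 n a) = 0 := by
  unfold ω1
  exact lin_coeff_mul l (fun k => X.lin_coeff_Dgen n _ h1 k) (fun k => X.lin_coeff_Dgen n _ h2 k) a

theorem lin_ω2_of_notMem {l : AVar n} (h1 : l ∉ Set.range (e1 n)) (a : ℕ) :
    lin l (X.ω2 n a) = 0 := by
  unfold ω2
  apply X.lin_coeff_Dgen
  rintro ⟨γ, h⟩
  exact h1 ⟨_, h⟩

theorem addJac_toBlocks₁₂ : (X.addJac NP3 NP2).toBlocks₁₂ = 0 := by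
  ext j γ
  rw [Matrix.toBlocks₁₂, Matrix.of_apply, Matrix.zero_apply, addJac, Matrix.of_apply]
  rcases j with i | i
  · show lin (Sum.inr (Sum.inr γ) : AVar n) (X.sysG NP3 (e1 n) (X.ω1 n) i) = 0
    apply X.lin_sysG_of_notMem
    · rintro ⟨_, h⟩
      simp [e1] at h
    · intro a
      apply X.lin_ω1_of_notMem
      · rintro ⟨_, h⟩
        simp [py] at h
      · rintro ⟨_, h⟩
        simp [py'] at h
  · show lin (Sum.inr (Sum.inr γ) : AVar n) (X.sysG NP2 (e2 n) (X.ω2 n) i) = 0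
    apply X.lin_sysG_of_notMem
    · rintro ⟨_, h⟩
      simp [e2] at h
    · intro a
      apply X.lin_ω2_of_notMem
      rintro ⟨_, h⟩
      simp [e1] at h

theorem addJac_toBlocks₂₂ : (X.addJac NP3 NP2).toBlocks₂₂ = 1 := by
  ext γ γ'
  rw [Matrix.toBlocks₂₂, Matrix.of_apply, addJac, Matrix.of_apply]
  show lin (Sum.inr (Sum.inr γ') : AVar n) (MvPolynomial.X (eo n γ)
    - (if γ ∈ X.nongaps n then 0 else MvPolynomial.X (e2 n (gpos n n γ)))) = _
  rw [lin_sub, lin_X]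
  have h1 : lin (Sum.inr (Sum.inr γ') : AVar n)
      (if γ ∈ X.nongaps n then (0 : MvPolynomial (AVar n) Ω) else
        MvPolynomial.X (e2 n (gpos n n γ))) = 0 := by
    split_ifs
    · exact lin_zero _
    · rw [lin_X, if_neg]
      simp [e2]
  rw [h1, sub_zero, Matrix.one_apply]
  by_cases h : γ = γ'
  · rw [if_pos h, if_pos (by rw [h]; rfl)]
  · rw [if_neg h, if_neg]
    intro h2
    apply h
    simpa [eo] using h2

theorem addJac_toBlocks₁₁_toBlocks₁₂ : (X.addJac NP3 NP2).toBlocks₁₁.toBlocks₁₂ = 0 := by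
  ext i i'
  rw [Matrix.toBlocks₁₂, Matrix.of_apply, Matrix.zero_apply, Matrix.toBlocks₁₁, Matrix.of_apply,
    addJac, Matrix.of_apply]
  show lin (Sum.inr (Sum.inl (Sum.inr i')) : AVar n) (X.sysG NP3 (e1 n) (X.ω1 n) i) = 0
  apply X.lin_sysG_of_notMem
  · rintro ⟨_, h⟩
    simp [e1] at h
  · intro a
    apply X.lin_ω1_of_notMem
    · rintro ⟨_, h⟩
      simp [py] at h
    · rintro ⟨_, h⟩
      simp [py'] at h

theorem addJac_toBlocks₁₁_toBlocks₁₁ (hn : 2 * X.g ≤ n) :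
    (X.addJac NP3 NP2).toBlocks₁₁.toBlocks₁₁
      = (X.jacA NP3 (X.sysHyp1 n)).map (A.subtype : ↥A →+* Ω) := by
  ext i i'
  rw [Matrix.toBlocks₁₁, Matrix.of_apply, Matrix.toBlocks₁₁, Matrix.of_apply, addJac,
    Matrix.of_apply, Matrix.map_apply]
  exact (X.coe_jacA NP3 (X.sysHyp1 n) hn i i').symm

theorem addJac_toBlocks₁₁_toBlocks₂₂ (hn : 2 * X.g ≤ n) :
    (X.addJac NP3 NP2).toBlocks₁₁.toBlocks₂₂
      = (X.jacA NP2 (X.sysHyp2 n)).map (A.subtype : ↥A →+* Ω) := by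
  ext i i'
  rw [Matrix.toBlocks₂₂, Matrix.of_apply, Matrix.toBlocks₁₁, Matrix.of_apply, addJac,
    Matrix.of_apply, Matrix.map_apply]
  exact (X.coe_jacA NP2 (X.sysHyp2 n) hn i i').symm

theorem valuation_det_map_subtype {m : Type*} [Fintype m] [DecidableEq m]
    (J : Matrix m m ↥A) (hJ : IsUnit J.det) :
    A.valuation (J.map (A.subtype : ↥A →+* Ω)).det = 1 := by
  have h1 : (J.map (A.subtype : ↥A →+* Ω)).det = ((J.det : ↥A) : Ω) := by
    have := RingHom.map_det (A.subtype : ↥A →+* Ω) J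
    rw [← RingHom.mapMatrix_apply]
    exact this.symm
  rw [h1]
  have := ValuationSubring.valuation_unit A hJ.unit
  rwa [IsUnit.unit_spec] at this

/-- **the Jacobian of the addition law is invertible over `A`.** -/
theorem valuation_det_addJac (hn : 2 * X.g ≤ n) :
    A.valuation (X.addJac NP3 NP2).det = 1 := by
  have h1 : X.addJac NP3 NP2 = Matrix.fromBlocks (X.addJac NP3 NP2).toBlocks₁₁ 0
      (X.addJac NP3 NP2).toBlocks₂₁ 1 := by
    conv_lhs => rw [← Matrix.fromBlocks_toBlocks (X.addJac NP3 NP2)]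
    rw [X.addJac_toBlocks₁₂, X.addJac_toBlocks₂₂]
  have h2 : (X.addJac NP3 NP2).toBlocks₁₁ = Matrix.fromBlocks
      ((X.jacA NP3 (X.sysHyp1 n)).map (A.subtype : ↥A →+* Ω)) 0
      (X.addJac NP3 NP2).toBlocks₁₁.toBlocks₂₁
      ((X.jacA NP2 (X.sysHyp2 n)).map (A.subtype : ↥A →+* Ω)) := by
    conv_lhs => rw [← Matrix.fromBlocks_toBlocks (X.addJac NP3 NP2).toBlocks₁₁]
    rw [X.addJac_toBlocks₁₁_toBlocks₁₂, X.addJac_toBlocks₁₁_toBlocks₁₁ NP3 NP2 hn,
      X.addJac_toBlocks₁₁_toBlocks₂₂ NP3 NP2 hn]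
  rw [h1, Matrix.det_fromBlocks_zero₁₂, Matrix.det_one, mul_one, h2,
    Matrix.det_fromBlocks_zero₁₂, map_mul,
    valuation_det_map_subtype _ (X.isUnit_det_jacA NP3 (X.sysHyp1 n)),
    valuation_det_map_subtype _ (X.isUnit_det_jacA NP2 (X.sysHyp2 n)), one_mul]

end GoodRed

end Fermat.Agent.FG

end
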