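/-
FG — helper5 — [REFL] (R6): the charts of `z`, `z'`, `z + z'` solve the addition-law system.
-/
import Mathlib
import Fermat.Agent.FG.REFL_helper5_AddJac

set_option autoImplicit false
set_option linter.unusedSectionVars false
set_option linter.style.haveILetI false

noncomputable section

namespace Fermat.Agent.FG

open AlgebraicCurve IsLocalRing IntermediateField Fermat.Agent.FF Fermat.Agent.JA
open scoped Classical

namespace GoodRed

variable {Ω : Type*} [Field Ω] {A : ValuationSubring Ω} {𝔽 : Type*} [Field 𝔽] [Algebra Ω 𝔽]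
  {𝔽b : Type*} [Field 𝔽b] [Algebra (ResidueField ↥A) 𝔽b] (X : GoodRed Ω A 𝔽 𝔽b)

variable {n : ℕ}
variable {hN3 : 2 * (X.g : ℤ) - 1 ≤ (n + n + n : ℕ)} (NP3 : X.NormPoly hN3)
variable {hN2 : 2 * (X.g : ℤ) - 1 ≤ (n + n : ℕ)} (NP2 : X.NormPoly hN2)

/-- **solutions of the addition-law system.** -/
theorem addS_sol [IsAlgClosed Ω] [CharZero Ω] {y y' y'' w : Fin (n + 1) → Ω}
    (hy : ∀ γ, y γ ∈ A.nonunits) (hy' : ∀ γ, y' γ ∈ A.nonunits)
    (hy'' : ∀ γ, y'' γ ∈ A.nonunits) (hw : ∀ γ, w γ ∈ A.nonunits)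
    (hy0'' : ∀ γ ∈ X.nongaps n, y'' γ = 0)
    (hp3 : Divisor.IsPrincipal (X.Edy n y + X.Edy n y' + X.Edy n w
      - Finsupp.single X.cusp ((n + n + n : ℕ) : ℤ)))
    (hp2 : Divisor.IsPrincipal (X.Edy n w + X.Edy n y''
      - Finsupp.single X.cusp ((n + n : ℕ) : ℤ))) :
    ∃ aux : Kap n → Ω, (∀ l, aux l ∈ A.nonunits) ∧
      ∀ j, MvPolynomial.eval (Sum.elim (Sum.elim y y') (Sum.elim aux y''))
        (X.addS NP3 NP2 j) = 0 := by
  have hEy := X.inDisc_Edy n hy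
  have hEy' := X.inDisc_Edy n hy'
  have hEy'' := X.inDisc_Edy n hy''
  have hEw := X.inDisc_Edy n hw
  have hEyy' : X.InDisc (X.Edy n y + X.Edy n y') := InDisc.add X hEy hEy'
  obtain ⟨c₁, hc₁, hcE₁⟩ := X.exists_Ediv_eq hN3 (InDisc.add X hEyy' hEw)
    (by rw [map_add, map_add, X.degree_Edy n hy, X.degree_Edy n hy', X.degree_Edy n hw]
        push_cast; ring) hp3
  obtain ⟨c₂, hc₂, hcE₂⟩ := X.exists_Ediv_eq hN2 (InDisc.add X hEw hEy'')
    (by rw [map_add, X.degree_Edy n hw, X.degree_Edy n hy'']; push_cast; ring) hp2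
  set u₁ := X.mixU (n + n) n c₁ w with hu₁
  set u₂ := X.mixU n n c₂ y'' with hu₂
  refine ⟨Sum.elim u₁ u₂, ?_, ?_⟩
  · rintro (i | i)
    · exact X.mixU_mem hc₁ hw i
    · exact X.mixU_mem hc₂ hy'' i
  set v : AVar n → Ω := Sum.elim (Sum.elim y y') (Sum.elim (Sum.elim u₁ u₂) y'') with hv
  rintro ((i | i) | γ)
  · show MvPolynomial.eval v (X.sysG NP3 (e1 n) (X.ω1 n) i) = 0
    refine X.eval_sysG_mix NP3 (e1 n) (X.ω1 n) v (X.Dy n y * X.Dy n y') (fun a => ?_) hc₁ hw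
      (fun i => rfl) hEyy' ?_ hcE₁ i
    · unfold ω1
      rw [← Polynomial.coeff_map, Polynomial.map_mul, X.map_eval_Dgen, X.map_eval_Dgen]
      rfl
    · rw [X.polyOf_add hEy hEy', X.polyOf_Edy n hy, X.polyOf_Edy n hy']
  · show MvPolynomial.eval v (X.sysG NP2 (e2 n) (X.ω2 n) i) = 0
    refine X.eval_sysG_mix NP2 (e2 n) (X.ω2 n) v (X.Dy n w) (fun a => ?_) hc₂ hy''
      (fun i => rfl) hEw (X.polyOf_Edy n hw) hcE₂ i
    unfold ω2
    rw [← Polynomial.coeff_map, X.map_eval_Dgen]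
    have : (fun γ => v (e1 n (gpos (n + n) n γ))) = fun γ => X.mixU (n + n) n c₁ w
        (gpos (n + n) n γ) := rfl
    rw [this, X.Dy_mixU]
  · show MvPolynomial.eval v (MvPolynomial.X (eo n γ)
      - (if γ ∈ X.nongaps n then 0 else MvPolynomial.X (e2 n (gpos n n γ)))) = 0
    rw [map_sub, MvPolynomial.eval_X]
    by_cases hγ : γ ∈ X.nongaps n
    · rw [if_pos hγ, map_zero, sub_zero]
      exact hy0'' γ hγ
    · rw [if_neg hγ, MvPolynomial.eval_X]
      show y'' γ - X.mixU n n c₂ y'' (gpos n n γ) = 0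
      rw [X.mixU_gpos c₂ y'' hγ, sub_self]

end GoodRed

end Fermat.Agent.FG

end
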