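/-
FG — helper2 — [NORMPOLY], part 3 (generic): coordinates on the space
`span_K {x^{j-N} : j ≤ N}` of a field extension `F / K`, `x` transcendental.
-/
import Mathlib
import Fermat.Agent.FG.LAT_helper5_PP

set_option autoImplicit false
set_option linter.unusedSectionVars false
set_option linter.style.haveILetI false

noncomputable section

namespace Fermat.Agent.FG

open Polynomial

variable {K F : Type*} [Field K] [Field F] [Algebra K F] (x : F) (N : ℕ)

/-- the vectors `x^{j-N}`, `j ≤ N` -/
def tauVec (j : Fin (N + 1)) : F := x ^ (j : ℕ) * (x ^ N)⁻¹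

variable (K) in
/-- `a ↦ ∑_j a_j x^{j-N}` -/
def tauT : (Fin (N + 1) → K) →ₗ[K] F := Fintype.linearCombination K (tauVec x N)

theorem tauT_apply (a : Fin (N + 1) → K) : tauT K x N a = ∑ j, a j • tauVec x N j :=
  Fintype.linearCombination_apply K _ a

theorem pow_mul_tauT (hx : x ≠ 0) (a : Fin (N + 1) → K) :
    x ^ N * tauT K x N a = ∑ j : Fin (N + 1), algebraMap K F (a j) * x ^ (j : ℕ) := by
  rw [tauT_apply, Finset.mul_sum]
  refine Finset.sum_congr rfl fun j _ => ?_
  rw [tauVec, Algebra.smul_def]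
  have : x ^ N ≠ 0 := pow_ne_zero _ hx
  field_simp

theorem sum_eq_aeval (a : Fin (N + 1) → K) :
    ∑ j : Fin (N + 1), algebraMap K F (a j) * x ^ (j : ℕ) =
      aeval x (∑ j : Fin (N + 1), C (a j) * X ^ (j : ℕ)) := by
  rw [map_sum]
  refine Finset.sum_congr rfl fun j _ => ?_
  rw [map_mul, aeval_C, map_pow, aeval_X]

theorem coeff_sum_C_mul_X_pow (a : Fin (N + 1) → K) (j : Fin (N + 1)) :
    (∑ i : Fin (N + 1), C (a i) * X ^ (i : ℕ)).coeff (j : ℕ) = a j := by
  rw [finsetSum_coeff, Finset.sum_eq_single j]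
  · rw [coeff_C_mul, coeff_X_pow, if_pos rfl, mul_one]
  · intro i _ hi
    rw [coeff_C_mul, coeff_X_pow, if_neg, mul_zero]
    intro h
    exact hi (Fin.ext h.symm)
  · intro h
    exact absurd (Finset.mem_univ j) h

theorem tauT_ker (hx : Transcendental K x) : LinearMap.ker (tauT K x N) = ⊥ := by
  have hx0 : x ≠ 0 := by
    rintro rfl
    exact hx isAlgebraic_zero
  rw [LinearMap.ker_eq_bot']
  intro a ha
  have h1 : x ^ N * tauT K x N a = 0 := by rw [ha, mul_zero]
  rw [pow_mul_tauT x N hx0, sum_eq_aeval] at h1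
  have h2 := (transcendental_iff.1 hx) _ h1
  funext j
  rw [← coeff_sum_C_mul_X_pow N a j, h2, coeff_zero]
  rfl

variable (K) in
/-- the coordinates with respect to `x^{j-N}` (junk outside the span) -/
def tauCoord : F →ₗ[K] (Fin (N + 1) → K) := (tauT K x N).leftInverse

theorem tauCoord_tauT (hx : Transcendental K x) (a : Fin (N + 1) → K) :
    tauCoord K x N (tauT K x N a) = a :=
  LinearMap.leftInverse_apply_of_inj (tauT_ker x N hx) a

theorem tauT_tauCoord (hx : Transcendental K x) {y : F} (hy : y ∈ LinearMap.range (tauT K x N)) :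
    tauT K x N (tauCoord K x N y) = y := by
  obtain ⟨a, rfl⟩ := hy
  rw [tauCoord_tauT x N hx]

/-- **reconstruction**: `∑_j (coord_j y) x^j = x^N y` for `y` in the span -/
theorem sum_tauCoord (hx : Transcendental K x) {y : F} (hy : y ∈ LinearMap.range (tauT K x N)) :
    ∑ j : Fin (N + 1), algebraMap K F (tauCoord K x N y j) * x ^ (j : ℕ) = x ^ N * y := by
  have hx0 : x ≠ 0 := by
    rintro rfl
    exact hx isAlgebraic_zero
  rw [← pow_mul_tauT x N hx0, tauT_tauCoord x N hx hy]

/-- uniqueness of the coordinates -/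
theorem tauCoord_eq_of_sum (hx : Transcendental K x) {y : F} (a : Fin (N + 1) → K)
    (h : ∑ j : Fin (N + 1), algebraMap K F (a j) * x ^ (j : ℕ) = x ^ N * y) :
    y ∈ LinearMap.range (tauT K x N) ∧ tauCoord K x N y = a := by
  have hx0 : x ≠ 0 := by
    rintro rfl
    exact hx isAlgebraic_zero
  have h1 : tauT K x N a = y := by
    have h2 : x ^ N * tauT K x N a = x ^ N * y := by rw [pow_mul_tauT x N hx0, h]
    exact mul_left_cancel₀ (pow_ne_zero _ hx0) h2
  exact ⟨⟨a, h1⟩, by rw [← h1, tauCoord_tauT x N hx]⟩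

/-- a Laurent tail lies in the span -/
theorem laurentTail_mem_range (hx : x ≠ 0) (c : ℕ → K) :
    laurentTail x N c ∈ LinearMap.range (tauT K x N) := by
  refine ⟨fun j => c (N - (j : ℕ)), ?_⟩
  have h2 : x ^ N * tauT K x N (fun j => c (N - (j : ℕ))) = x ^ N * laurentTail x N c := by
    rw [pow_mul_tauT x N hx, laurentTail, Finset.mul_sum,
      Fin.sum_univ_eq_sum_range (fun j => algebraMap K F (c (N - j)) * x ^ j) (N + 1),
      ← Finset.sum_range_reflect]
    refine Finset.sum_congr rfl fun i hi => ?_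
    have hi' : i ≤ N := Nat.lt_succ_iff.mp (Finset.mem_range.mp hi)
    have e1 : N + 1 - 1 - i = N - i := by omega
    have e2 : N - (N - i) = i := by omega
    rw [e1, e2]
    have e3 : x ^ N = x ^ (N - i) * x ^ i := by rw [← pow_add]; congr 1; omega
    rw [e3, inv_pow]
    have : x ^ i ≠ 0 := pow_ne_zero _ hx
    field_simp
  exact mul_left_cancel₀ (pow_ne_zero _ hx) h2

end Fermat.Agent.FG

end
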