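/-
FG — helper2 — generic ingredients for [NORMPOLY] (Mathlib only):

* `coeff_mem_of_forall_eval_mem` (INTERP): over an infinite field `K`, a polynomial with
  coefficients in a `K`-algebra `E` all of whose values at `K`-points lie in a `K`-subspace `U`
  has all its coefficients in `U`;
* `detPoly M = det (1 + ∑ ν, X ν • M ν)` as a multivariate polynomial: evaluation, constant
  coefficient `1`, linear coefficients `trace (M ν)`, functoriality.
-/
import Mathlib

set_option autoImplicit false
set_option linter.unusedSectionVars false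
set_option linter.style.haveILetI false

noncomputable section

namespace Fermat.Agent.FG

open MvPolynomial

section Interp

variable {K E : Type*} [Field K] [CommRing E] [Algebra K E] {σ : Type*}

/-- apply a linear functional to the coefficients of a polynomial -/
def mapCoeffLin (φ : E →ₗ[K] K) (P : MvPolynomial σ E) : MvPolynomial σ K :=
  ∑ m ∈ P.support, monomial m (φ (P.coeff m))

theorem coeff_mapCoeffLin (φ : E →ₗ[K] K) (P : MvPolynomial σ E) (m : σ →₀ ℕ) :
    (mapCoeffLin φ P).coeff m = φ (P.coeff m) := by
  classical
  rw [mapCoeffLin, coeff_sum]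
  simp only [coeff_monomial]
  rw [Finset.sum_ite_eq']
  split_ifs with h
  · rfl
  · rw [notMem_support_iff.1 h, map_zero]

theorem eval_mapCoeffLin (φ : E →ₗ[K] K) (P : MvPolynomial σ E) (c : σ → K) :
    eval c (mapCoeffLin φ P) = φ (eval (fun i => algebraMap K E (c i)) P) := by
  rw [mapCoeffLin, map_sum, eval_eq (fun i => algebraMap K E (c i)) P, map_sum]
  refine Finset.sum_congr rfl fun m _ => ?_
  rw [eval_monomial, Finsupp.prod]
  have h1 : P.coeff m * ∏ i ∈ m.support, (algebraMap K E (c i)) ^ m i =
      (∏ i ∈ m.support, c i ^ m i) • P.coeff m := by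
    rw [Algebra.smul_def, map_prod, mul_comm]
    simp only [map_pow]
  rw [h1, map_smul, smul_eq_mul, mul_comm]

variable [Infinite K]

/-- **INTERP**: a polynomial all of whose values at `K`-points lie in a subspace has all its
coefficients in that subspace. -/
theorem coeff_mem_of_forall_eval_mem (U : Submodule K E) (P : MvPolynomial σ E)
    (h : ∀ c : σ → K, eval (fun i => algebraMap K E (c i)) P ∈ U) (m : σ →₀ ℕ) :
    P.coeff m ∈ U := by
  by_contra hm
  obtain ⟨φ, hφ, hU⟩ := Submodule.exists_le_ker_of_notMem hm
  have h0 : mapCoeffLin φ P = 0 := by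
    apply MvPolynomial.funext
    intro c
    rw [eval_mapCoeffLin, map_zero]
    exact hU (h c)
  apply hφ
  rw [← coeff_mapCoeffLin, h0, coeff_zero]

end Interp

section DetPoly

variable {R : Type*} [CommRing R] {σ n : Type*} [Fintype σ] [Fintype n] [DecidableEq n]

/-- `det (1 + ∑ ν, X ν • M ν)` as a polynomial in the `X ν` -/
def detPoly (M : σ → Matrix n n R) : MvPolynomial σ R :=
  Matrix.det (1 + ∑ ν, (X ν : MvPolynomial σ R) • (M ν).map C)

/-- evaluation of `detPoly` in an algebra -/
theorem aeval_detPoly {S : Type*} [CommRing S] [Algebra R S] (M : σ → Matrix n n R) (c : σ → S) :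
    aeval c (detPoly M) = Matrix.det (1 + ∑ ν, c ν • (M ν).map (algebraMap R S)) := by
  rw [detPoly, AlgHom.map_det]
  congr 1
  ext i j
  simp only [AlgHom.mapMatrix_apply, Matrix.map_apply, Matrix.add_apply, Matrix.sum_apply,
    Matrix.smul_apply, map_add, map_sum, smul_eq_mul, map_mul, aeval_X, aeval_C]
  congr 1
  by_cases hij : i = j
  · subst hij; simp
  · simp [hij]

theorem eval_detPoly (M : σ → Matrix n n R) (c : σ → R) :
    eval c (detPoly M) = Matrix.det (1 + ∑ ν, c ν • M ν) := by
  have h := aeval_detPoly (S := R) M c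
  rw [aeval_eq_eval] at h
  rw [h]
  congr 2

theorem constantCoeff_detPoly (M : σ → Matrix n n R) : constantCoeff (detPoly M) = 1 := by
  rw [← eval_zero, eval_detPoly]
  simp

/-- functoriality of `detPoly` in the coefficient ring -/
theorem map_detPoly {S : Type*} [CommRing S] (φ : R →+* S) (M : σ → Matrix n n R) :
    MvPolynomial.map φ (detPoly M) = detPoly (fun ν => (M ν).map φ) := by
  rw [detPoly, detPoly, RingHom.map_det]
  congr 1
  ext i j
  simp only [RingHom.mapMatrix_apply, Matrix.map_apply, Matrix.add_apply, Matrix.sum_apply,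
    Matrix.smul_apply, map_add, map_sum, smul_eq_mul, map_mul, map_X, map_C]
  congr 1
  by_cases hij : i = j
  · subst hij; simp
  · simp [hij]

end DetPoly

section Line

variable {R : Type*} [CommRing R] {σ : Type*} [DecidableEq σ]

/-- restriction of a polynomial to the `ν`-th coordinate axis -/
def lineHom (ν : σ) : MvPolynomial σ R →ₐ[R] Polynomial R :=
  aeval (fun μ => if μ = ν then Polynomial.X else 0)

theorem lineHom_monomial (ν : σ) (m : σ →₀ ℕ) (r : R) :
    lineHom ν (monomial m r) =
      if m = Finsupp.single ν (m ν) then Polynomial.C r * Polynomial.X ^ (m ν) else 0 := by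
  rw [lineHom, aeval_monomial, Finsupp.prod, ← Polynomial.C_eq_algebraMap]
  split_ifs with h
  · congr 1
    rw [h]
    by_cases h0 : m ν = 0
    · simp [h0]
    · rw [Finsupp.support_single _ h0, Finset.prod_singleton]
      simp
  · have : ∃ μ ∈ m.support, μ ≠ ν := by
      by_contra hcon
      push Not at hcon
      apply h
      ext μ
      by_cases hμ : μ = ν
      · subst hμ; simp
      · rw [Finsupp.single_apply, if_neg (Ne.symm hμ)]
        by_contra h1
        exact hμ (hcon μ (Finsupp.mem_support_iff.2 h1))
    obtain ⟨μ, hμ, hne⟩ := this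
    rw [Finset.prod_eq_zero hμ, mul_zero]
    rw [if_neg hne, zero_pow (Finsupp.mem_support_iff.1 hμ)]

/-- the linear coefficient is read off on the coordinate axis -/
theorem coeff_one_lineHom (ν : σ) (P : MvPolynomial σ R) :
    (lineHom ν P).coeff 1 = P.coeff (Finsupp.single ν 1) := by
  induction P using MvPolynomial.induction_on' with
  | monomial m r =>
    rw [lineHom_monomial, coeff_monomial]
    by_cases h : m = Finsupp.single ν 1
    · subst h
      simp
    · rw [if_neg h]
      split_ifs with h1
      · rw [Polynomial.coeff_C_mul, Polynomial.coeff_X_pow, if_neg, mul_zero]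
        intro h2
        apply h
        rw [h1, ← h2]
      · simp
  | add p q hp hq => rw [map_add, Polynomial.coeff_add, coeff_add, hp, hq]

variable {n : Type*} [Fintype σ] [Fintype n] [DecidableEq n]

theorem lineHom_detPoly (M : σ → Matrix n n R) (ν : σ) :
    lineHom ν (detPoly M) =
      Matrix.det (1 + (Polynomial.X : Polynomial R) • (M ν).map Polynomial.C) := by
  rw [lineHom, aeval_detPoly]
  congr 2
  rw [Finset.sum_eq_single ν]
  · rw [if_pos rfl]
    congr 1
  · intro μ _ hμ
    rw [if_neg hμ, zero_smul]
  · intro h
    exact absurd (Finset.mem_univ ν) h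

/-- **the linear coefficients of `det (1 + ∑ X ν • M ν)` are the traces** -/
theorem coeff_single_detPoly (M : σ → Matrix n n R) (ν : σ) :
    (detPoly M).coeff (Finsupp.single ν 1) = Matrix.trace (M ν) := by
  rw [← coeff_one_lineHom, lineHom_detPoly, Matrix.coeff_det_one_add_X_smul_one]

end Line

end Fermat.Agent.FG

end
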