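/-
FG — helper2 — [NORMPOLY], part 1: the projective line.  On a function field `F = k(x)` with a
coordinate `x` of degree one (`k` algebraically closed of characteristic zero):

* `coord_const_of_ord_nonneg` : functions without poles are constant;
* `eq_laurentTail_of_mem_poleSpace` : `L(N·(x)₀) = {∑_{i ≤ N} a_i x^{-i}}`.
-/
import Mathlib
import Fermat.Agent.FG.NORMDIV_helper2_Rat
import Fermat.Agent.FG.LAT_helper5_PP

set_option autoImplicit false
set_option linter.unusedSectionVars false
set_option linter.style.haveILetI false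

noncomputable section

namespace Fermat.Agent.FG

open AlgebraicCurve IntermediateField Fermat.Agent.FF Fermat.Agent.JA

variable {k F : Type*} [Field k] [Field F] [Algebra k F] [CharZero k]

/-- functions without poles are algebraic over the constants -/
theorem coord_isAlgebraic_of_ord_nonneg (c : Coord k F) {G : F}
    (hG : ∀ v : Place k F, 0 ≤ v.ord G) : IsAlgebraic k G := by
  by_contra htr
  obtain ⟨S, hS, hsum⟩ := (c.ofTranscendental G htr).exists_poles
  rw [Coord.ofTranscendental_x] at hS hsum
  have hSe : S = ∅ := by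
    apply Finset.eq_empty_of_forall_notMem
    intro v hv
    have := (hS v).1 hv
    have := hG v
    omega
  rw [hSe, Finset.sum_empty] at hsum
  have hpos := (c.ofTranscendental G htr).degree_pos
  have : (0 : ℤ) < ((c.ofTranscendental G htr).degree : ℤ) := by exact_mod_cast hpos
  omega

/-- functions without poles are constant -/
theorem coord_const_of_ord_nonneg [IsAlgClosed k] (c : Coord k F) {G : F}
    (hG : ∀ v : Place k F, 0 ≤ v.ord G) : ∃ a : k, G = algebraMap k F a := by
  have halg := coord_isAlgebraic_of_ord_nonneg c hG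
  have h1 := IsAlgClosed.degree_eq_one_of_irreducible k (minpoly.irreducible halg.isIntegral)
  obtain ⟨a, ha⟩ := minpoly.mem_range_of_degree_eq_one k G h1
  exact ⟨a, ha.symm⟩

/-- **the projective line**: a function with a pole of order `≤ N` at the zero of `x` and no
other poles is a polynomial of degree `≤ N` in `x⁻¹`. -/
theorem eq_laurentTail_of_mem_poleSpace [IsAlgClosed k] (c : Coord k F) (hc : c.degree = 1)
    (P : Place k F) (hP : P.ord c.x = 1) (N : ℕ) {y : F} (hy : y ∈ poleSpace P N) :
    ∃ a : Fin (N + 1) → k, y = laurentTail c.x N (tailOfVec N a) := by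
  have hdeg : P.deg = 1 := c.deg_eq_one P
  have hconst : ∀ f : F, (∀ Q : Place k F, 0 ≤ Q.ord f) → ∃ a : k, f = algebraMap k F a :=
    fun f hf => coord_const_of_ord_nonneg c hf
  set a : Fin (N + 1) → k := ppMap P hdeg c.x hP N ⟨y, hy⟩ with ha
  set t : F := laurentTail c.x N (tailOfVec N a) with ht
  have hx0 : c.x ≠ 0 := ne_zero_of_ord_eq_one hP
  have htmem : t ∈ poleSpace P N := by
    rw [mem_poleSpace_iff]
    refine ⟨ordGE_laurentTail hP N _, fun Q hQ => ?_⟩
    have hQx : Q.ord c.x ≤ 0 := by
      by_contra hpos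
      push Not at hpos
      apply hQ
      have h1 : 0 < Q.ord (c.x - algebraMap k F 0) := by rwa [map_zero, sub_zero]
      have h2 : 0 < P.ord (c.x - algebraMap k F 0) := by rw [map_zero, sub_zero, hP]; exact one_pos
      exact coord_eq_of_ord_sub_pos c hc 0 h1 h2
    refine ordGE_sum _ _ fun i _ => ordGE_const_mul _ (Or.inr ?_)
    rw [PlaceAux.ord_pow, Q.ord_inv]
    have : (0 : ℤ) ≤ (i : ℤ) := Int.natCast_nonneg i
    nlinarith
  have hpp : ppMap P hdeg c.x hP N ⟨t, htmem⟩ = ppMap P hdeg c.x hP N ⟨y, hy⟩ := by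
    ext i
    have h1 : OrdGE P 1 (((⟨t, htmem⟩ : ↥(poleSpace P N)) : F) -
        laurentTail c.x N (tailOfVec N a)) := Or.inl (sub_self _)
    rw [ppMap_eq_of_ordGE P hdeg c.x hP N ⟨t, htmem⟩ h1 i, tailOfVec_apply]
  have heq := ppMap_injective P hdeg c.x hP N hconst hpp
  exact ⟨a, (congrArg Subtype.val heq).symm⟩

end Fermat.Agent.FG

end
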