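/-
FG — helper2 — [REFL] (R2) [OB], part 3: norms and traces commute with reduction.

For `f ∈ W`: `Norm_{𝔽/Ω(τ)} f ∈ W`, `ρ (Norm f) = Norm_{𝔽b/k(τ̄)} (ρ f)`, and the same for the
trace (the matrix of multiplication by `f` in the orthogonal basis is integral and reduces to
the matrix of multiplication by `ρ f`).
-/
import Mathlib
import Fermat.Agent.FG.OB_helper2_Basis

set_option autoImplicit false
set_option linter.unusedSectionVars false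
set_option linter.style.haveILetI false

noncomputable section

namespace Fermat.Agent.FG

open AlgebraicCurve IsLocalRing IntermediateField Polynomial Fermat.Agent.FF Fermat.Agent.JA

namespace GoodRed

variable {Ω : Type*} [Field Ω] {A : ValuationSubring Ω} {𝔽 : Type*} [Field 𝔽] [Algebra Ω 𝔽]
  {𝔽b : Type*} [Field 𝔽b] [Algebra (ResidueField ↥A) 𝔽b] (X : GoodRed Ω A 𝔽 𝔽b)

/-- the integral matrix of multiplication by `f ∈ W` in the orthogonal basis -/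
def mulMat (f : ↥X.W) : Matrix (Fin X.d) (Fin X.d) ↥X.Wτ :=
  fun i j => X.coordW (f * X.bW j) i

theorem mulMat_map_subtype (f : ↥X.W) :
    (X.mulMat f).map X.Wτ.subtype = Algebra.leftMulMatrix X.basisτ (f : 𝔽) := by
  ext i j
  rw [Matrix.map_apply, Algebra.leftMulMatrix_eq_repr_mul, basisτ_apply]
  rfl

theorem mulMat_map_ρτ (f : ↥X.W) :
    (X.mulMat f).map X.ρτ = Algebra.leftMulMatrix X.basisτb (X.ρ f) := by
  ext i j
  rw [Matrix.map_apply, Algebra.leftMulMatrix_eq_repr_mul, basisτb_apply, ← map_mul, X.repr_ρ]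
  rfl

/-- the norm of an integral function, as an element of `Wτ` -/
theorem norm_eq_det (f : ↥X.W) :
    Algebra.norm ↥Ω⟮X.τ⟯ (f : 𝔽) = X.Wτ.subtype (X.mulMat f).det := by
  rw [Algebra.norm_eq_matrix_det X.basisτ, ← X.mulMat_map_subtype, RingHom.map_det]
  rfl

theorem trace_eq_trace (f : ↥X.W) :
    Algebra.trace ↥Ω⟮X.τ⟯ 𝔽 (f : 𝔽) = X.Wτ.subtype (X.mulMat f).trace := by
  rw [Algebra.trace_eq_matrix_trace X.basisτ, ← X.mulMat_map_subtype]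
  simp only [Matrix.trace, Matrix.diag_apply, Matrix.map_apply, map_sum]

/-- **the norm of an integral function is integral** -/
theorem norm_mem_Wτ (f : ↥X.W) : Algebra.norm ↥Ω⟮X.τ⟯ (f : 𝔽) ∈ X.Wτ := by
  rw [X.norm_eq_det]
  exact Subtype.coe_prop _

/-- **the trace of an integral function is integral** -/
theorem trace_mem_Wτ (f : ↥X.W) : Algebra.trace ↥Ω⟮X.τ⟯ 𝔽 (f : 𝔽) ∈ X.Wτ := by
  rw [X.trace_eq_trace]
  exact Subtype.coe_prop _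

/-- **norms commute with reduction** -/
theorem ρτ_norm (f : ↥X.W) :
    X.ρτ ⟨Algebra.norm ↥Ω⟮X.τ⟯ (f : 𝔽), X.norm_mem_Wτ f⟩ =
      Algebra.norm ↥(ResidueField ↥A)⟮X.τb⟯ (X.ρ f) := by
  have h1 : (⟨Algebra.norm ↥Ω⟮X.τ⟯ (f : 𝔽), X.norm_mem_Wτ f⟩ : ↥X.Wτ) = (X.mulMat f).det :=
    Subtype.ext (X.norm_eq_det f)
  rw [h1, Algebra.norm_eq_matrix_det X.basisτb, ← X.mulMat_map_ρτ, RingHom.map_det]
  rfl

/-- **traces commute with reduction** -/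
theorem ρτ_trace (f : ↥X.W) :
    X.ρτ ⟨Algebra.trace ↥Ω⟮X.τ⟯ 𝔽 (f : 𝔽), X.trace_mem_Wτ f⟩ =
      Algebra.trace ↥(ResidueField ↥A)⟮X.τb⟯ 𝔽b (X.ρ f) := by
  have h1 : (⟨Algebra.trace ↥Ω⟮X.τ⟯ 𝔽 (f : 𝔽), X.trace_mem_Wτ f⟩ : ↥X.Wτ) =
      (X.mulMat f).trace := Subtype.ext (X.trace_eq_trace f)
  rw [h1, Algebra.trace_eq_matrix_trace X.basisτb, ← X.mulMat_map_ρτ]
  simp only [Matrix.trace, Matrix.diag_apply, Matrix.map_apply, map_sum]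

/-- the norm to `Ω(τ)` of an integral function, in `𝔽`, is integral -/
theorem algebraMap_norm_mem_W (f : ↥X.W) :
    algebraMap ↥Ω⟮X.τ⟯ 𝔽 (Algebra.norm ↥Ω⟮X.τ⟯ (f : 𝔽)) ∈ X.W := X.norm_mem_Wτ f

theorem ρ_algebraMap_norm (f : ↥X.W) :
    X.ρ ⟨algebraMap ↥Ω⟮X.τ⟯ 𝔽 (Algebra.norm ↥Ω⟮X.τ⟯ (f : 𝔽)), X.algebraMap_norm_mem_W f⟩ =
      algebraMap ↥(ResidueField ↥A)⟮X.τb⟯ 𝔽b
        (Algebra.norm ↥(ResidueField ↥A)⟮X.τb⟯ (X.ρ f)) := by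
  rw [← X.ρτ_norm f]
  rfl

theorem algebraMap_trace_mem_W (f : ↥X.W) :
    algebraMap ↥Ω⟮X.τ⟯ 𝔽 (Algebra.trace ↥Ω⟮X.τ⟯ 𝔽 (f : 𝔽)) ∈ X.W := X.trace_mem_Wτ f

theorem ρ_algebraMap_trace (f : ↥X.W) :
    X.ρ ⟨algebraMap ↥Ω⟮X.τ⟯ 𝔽 (Algebra.trace ↥Ω⟮X.τ⟯ 𝔽 (f : 𝔽)), X.algebraMap_trace_mem_W f⟩ =
      algebraMap ↥(ResidueField ↥A)⟮X.τb⟯ 𝔽b
        (Algebra.trace ↥(ResidueField ↥A)⟮X.τb⟯ 𝔽b (X.ρ f)) := by
  rw [← X.ρτ_trace f]
  rfl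

end GoodRed

end Fermat.Agent.FG

end
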