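/-
FG — helper2 — [REFL] (R2) [OB], part 4: the literals of helper5's specification (msg 1327) which
differ in name or shape from those of parts 1-3.
-/
import Mathlib
import Fermat.Agent.FG.OB_helper2_Norm

set_option autoImplicit false
set_option linter.unusedSectionVars false
set_option linter.style.haveILetI false

noncomputable section

namespace Fermat.Agent.FG

open AlgebraicCurve IsLocalRing IntermediateField Polynomial Fermat.Agent.FF Fermat.Agent.JA

namespace GoodRed

variable {Ω : Type*} [Field Ω] {A : ValuationSubring Ω} {𝔽 : Type*} [Field 𝔽] [Algebra Ω 𝔽]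
  {𝔽b : Type*} [Field 𝔽b] [Algebra (ResidueField ↥A) 𝔽b] (X : GoodRed Ω A 𝔽 𝔽b)

theorem τb_transcendental : Transcendental (ResidueField ↥A) X.τb := X.transcendental_τb

/-- reduction of an integral polynomial in `τ` -/
theorem ρ_aeval_τ (p : Polynomial ↥A) (h : Polynomial.aeval X.τ (p.map A.subtype) ∈ X.W) :
    X.ρ ⟨Polynomial.aeval X.τ (p.map A.subtype), h⟩ =
      Polynomial.aeval X.τb (p.map (residue ↥A)) := by
  rw [← X.ρ_evalW p]
  congr 1
  apply Subtype.ext
  exact (X.coe_evalW p).symm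

theorem algebraMap_ρτ (x : ↥X.Wτ) :
    algebraMap ↥(ResidueField ↥A)⟮X.τb⟯ 𝔽b (X.ρτ x) =
      X.ρ ⟨algebraMap ↥Ω⟮X.τ⟯ 𝔽 (x : ↥Ω⟮X.τ⟯), x.2⟩ := rfl

theorem coe_mulMat (f : ↥X.W) (i j : Fin X.d) :
    ((X.mulMat f i j : ↥X.Wτ) : ↥Ω⟮X.τ⟯) = Algebra.leftMulMatrix X.basisτ (f : 𝔽) i j := by
  rw [← X.mulMat_map_subtype f]
  rfl

theorem map_ρτ_mulMat (f : ↥X.W) :
    (X.mulMat f).map X.ρτ = Algebra.leftMulMatrix X.basisτb (X.ρ f) := X.mulMat_map_ρτ f

theorem basisτb_apply' (i : Fin X.d) : X.basisτb i = X.ρ ⟨X.b i, X.b_mem i⟩ := X.basisτb_apply i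

/-- the multiplication matrix is multiplicative -/
theorem mulMat_one : X.mulMat 1 = 1 := by
  apply Matrix.map_injective (f := X.Wτ.subtype) Subtype.val_injective
  beta_reduce
  rw [X.mulMat_map_subtype]
  simp

theorem mulMat_mul (f g : ↥X.W) : X.mulMat (f * g) = X.mulMat f * X.mulMat g := by
  apply Matrix.map_injective (f := X.Wτ.subtype) Subtype.val_injective
  beta_reduce
  rw [X.mulMat_map_subtype, Matrix.map_mul, X.mulMat_map_subtype, X.mulMat_map_subtype]
  simp

theorem mulMat_add (f g : ↥X.W) : X.mulMat (f + g) = X.mulMat f + X.mulMat g := by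
  apply Matrix.map_injective (f := X.Wτ.subtype) Subtype.val_injective
  beta_reduce
  rw [X.mulMat_map_subtype, Matrix.map_add _ (by intros; rfl), X.mulMat_map_subtype,
    X.mulMat_map_subtype]
  simp

end GoodRed

end Fermat.Agent.FG

end
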