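/-
FG — helper2 — [NORMPOLY], part 2: the norm to `Ω(τ)` of a function of `L(N∞)` is a polynomial of
degree `≤ N` in `τ⁻¹`.
-/
import Mathlib
import Fermat.Agent.FG.NORMPOLY_helper2_P1
import Fermat.Agent.FG.NORMDIV_helper2_Main
import Fermat.Agent.FG.OB_helper2_API

set_option autoImplicit false
set_option linter.unusedSectionVars false
set_option linter.style.haveILetI false

noncomputable section

namespace Fermat.Agent.FG

open AlgebraicCurve IsLocalRing IntermediateField Fermat.Agent.FF Fermat.Agent.FF.Gal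
  Fermat.Agent.JA

namespace GoodRed

variable {Ω : Type*} [Field Ω] {A : ValuationSubring Ω} {𝔽 : Type*} [Field 𝔽] [Algebra Ω 𝔽]
  {𝔽b : Type*} [Field 𝔽b] [Algebra (ResidueField ↥A) 𝔽b] (X : GoodRed Ω A 𝔽 𝔽b)

/-- the place `τ = 0` of `Ω(τ)` -/
def cuspτ : Place Ω ↥Ω⟮X.τ⟯ := X.cusp.restrict ↥Ω⟮X.τ⟯

theorem ord_cuspτ_gen : X.cuspτ.ord (AdjoinSimple.gen Ω X.τ) = 1 := by
  have h := X.cusp.ord_restrict (F := ↥Ω⟮X.τ⟯) (AdjoinSimple.gen Ω X.τ)
  rw [AdjoinSimple.algebraMap_gen, X.ord_cusp_τ] at h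
  have he := X.cusp.ramificationIndex_pos (F := ↥Ω⟮X.τ⟯)
  have he' : (0 : ℤ) < (Place.ramificationIndex (F := ↥Ω⟮X.τ⟯) X.cusp : ℤ) := by exact_mod_cast he
  change (1 : ℤ) = _ * X.cuspτ.ord (AdjoinSimple.gen Ω X.τ) at h
  by_contra hne
  have h2 : X.cuspτ.ord (AdjoinSimple.gen Ω X.τ) ≤ 0 ∨ 2 ≤ X.cuspτ.ord (AdjoinSimple.gen Ω X.τ) := by
    omega
  rcases h2 with h2 | h2
  · nlinarith
  · nlinarith

variable [IsAlgClosed Ω] [CharZero Ω]

/-- the norm of a function of `L(N∞)` lies in `L(N·(τ)₀)` -/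
theorem norm_mem_poleSpace {N : ℕ} {f : 𝔽} (hf : f ∈ poleSpace X.cusp N) :
    Algebra.norm ↥Ω⟮X.τ⟯ f ∈ poleSpace X.cuspτ N := by
  classical
  by_cases hf0 : f = 0
  · rw [hf0, Algebra.norm_zero]
    exact Submodule.zero_mem _
  haveI := X.principal_gen
  rw [mem_poleSpace_iff] at hf ⊢
  have hord : ∀ w : Place Ω 𝔽, w ≠ X.cusp → 0 ≤ w.ord f := fun w hw =>
    (hf.2 w hw).resolve_left hf0
  have hcusp : -(N : ℤ) ≤ X.cusp.ord f := hf.1.resolve_left hf0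
  constructor
  · right
    rw [← sum_ord_eq_ord_norm X.cuspτ X.deg_gen hf0]
    have hmem : X.cusp ∈ X.cuspτ.fiber 𝔽 := Place.mem_fiber.2 rfl
    rw [← Finset.add_sum_erase _ _ hmem]
    have : 0 ≤ ∑ w ∈ (X.cuspτ.fiber 𝔽).erase X.cusp, w.ord f :=
      Finset.sum_nonneg fun w hw => hord w (Finset.ne_of_mem_erase hw)
    omega
  · intro v hv
    right
    rw [← sum_ord_eq_ord_norm v X.deg_gen hf0]
    refine Finset.sum_nonneg fun w hw => hord w ?_
    rintro rfl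
    exact hv (Place.mem_fiber.1 hw).symm

/-- **the norm of a function of `L(N∞)` is a polynomial of degree `≤ N` in `τ⁻¹`** -/
theorem exists_norm_eq_laurentTail {N : ℕ} {f : 𝔽} (hf : f ∈ poleSpace X.cusp N) :
    ∃ a : Fin (N + 1) → Ω, Algebra.norm ↥Ω⟮X.τ⟯ f =
      laurentTail (AdjoinSimple.gen Ω X.τ) N (tailOfVec N a) :=
  eq_laurentTail_of_mem_poleSpace (genCoord X.τ X.τ_transcendental)
    (genCoord_degree X.τ X.τ_transcendental) X.cuspτ X.ord_cuspτ_gen N (X.norm_mem_poleSpace hf)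

end GoodRed

end Fermat.Agent.FG

end
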