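/-
FG — helper2 — [NORMPOLY], part 5: the determinant polynomial of `k_c = 1 + Σ c_ν h_ν`.

`X.normDet hN : MvPolynomial (Fin (N+1)) 𝔽` with `eval c (normDet) = Nm_{𝔽/Ω(τ)} (k_c)` for all
`c : Fin (N+1) → Ω`; its coefficients lie in `W ∩ span_Ω {τ^{j-N}}`.
-/
import Mathlib
import Fermat.Agent.FG.NORMPOLY_helper2_Generic
import Fermat.Agent.FG.NORMPOLY_helper2_Coord
import Fermat.Agent.FG.NORMPOLY_helper2_Norm
import Fermat.Agent.FG.NORMPOLY_helper2_Equiv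
import Fermat.Agent.FG.REFL_helper5_Kfun

set_option autoImplicit false
set_option linter.unusedSectionVars false
set_option linter.style.haveILetI false

noncomputable section

namespace Fermat.Agent.FG

open AlgebraicCurve IsLocalRing IntermediateField Fermat.Agent.FF Fermat.Agent.JA
open scoped Classical

namespace GoodRed

variable {Ω : Type*} [Field Ω] {A : ValuationSubring Ω} {𝔽 : Type*} [Field 𝔽] [Algebra Ω 𝔽]
  {𝔽b : Type*} [Field 𝔽b] [Algebra (ResidueField ↥A) 𝔽b] (X : GoodRed Ω A 𝔽 𝔽b)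

variable {N : ℕ} (hN : 2 * (X.g : ℤ) - 1 ≤ N)

/-- the canonical function at a nonzero nongap position, `0` elsewhere -/
def hW (i : Fin (N + 1)) : ↥X.W :=
  if h : i ∈ X.nongaps N ∧ i ≠ 0 then
    ⟨((X.canon hN ⟨i, h.1⟩ : ↥(poleSpace X.cusp N)) : 𝔽), X.canon_mem_W hN _⟩
  else 0

theorem hW_of_mem (ν : ↥(X.nongaps N)) (hν : (ν : Fin (N + 1)) ≠ 0) :
    ((X.hW hN ν : ↥X.W) : 𝔽) = ((X.canon hN ν : ↥(poleSpace X.cusp N)) : 𝔽) := by
  rw [hW, dif_pos ⟨ν.2, hν⟩]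

theorem hW_of_not {i : Fin (N + 1)} (hi : i ∉ X.nongaps N ∨ i = 0) : X.hW hN i = 0 := by
  rw [hW, dif_neg]
  rintro ⟨h1, h2⟩
  rcases hi with hi | hi
  · exact hi h1
  · exact h2 hi

/-- `k_c = 1 + Σ_i c_i h_i` -/
theorem kfun_eq_one_add (c : Fin (N + 1) → Ω) :
    X.kfun hN c = 1 + ∑ i : Fin (N + 1), c i • ((X.hW hN i : ↥X.W) : 𝔽) := by
  rw [X.coe_kfunP_eq_sum]
  set ν₀ : ↥(X.nongaps N) := ⟨0, X.zero_mem_nongaps⟩ with hν₀
  have key : ∀ ν : ↥(X.nongaps N),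
      X.kcoef c ν • ((X.canon hN ν : ↥(poleSpace X.cusp N)) : 𝔽) =
        (if ν = ν₀ then (1 : 𝔽) else 0) + c ν • ((X.hW hN ν : ↥X.W) : 𝔽) := by
    intro ν
    by_cases hν : (ν : Fin (N + 1)) = 0
    · have hνν : ν = ν₀ := Subtype.ext hν
      rw [if_pos hνν, kcoef, if_pos hν, one_smul, X.hW_of_not hN (Or.inr hν), hνν, X.canon_zero]
      simp
    · have hνν : ν ≠ ν₀ := fun h => hν (congrArg Subtype.val h)
      rw [if_neg hνν, kcoef, if_neg hν, X.hW_of_mem hN ν hν, zero_add]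
  rw [Finset.sum_congr rfl (fun ν _ => key ν), Finset.sum_add_distrib,
    Finset.sum_ite_eq' Finset.univ ν₀, if_pos (Finset.mem_univ _)]
  congr 1
  rw [Finset.sum_coe_sort (X.nongaps N) (fun i => c i • ((X.hW hN i : ↥X.W) : 𝔽))]
  refine Finset.sum_subset (Finset.subset_univ _) fun i _ hi => ?_
  rw [X.hW_of_not hN (Or.inl hi)]
  simp

/-- the matrices `L_i` -/
def Lmat (i : Fin (N + 1)) : Matrix (Fin X.d) (Fin X.d) ↥X.Wτ := X.mulMat (X.hW hN i)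

theorem mulMat_zero : X.mulMat 0 = 0 := by
  apply Matrix.map_injective (f := X.Wτ.subtype) Subtype.val_injective
  beta_reduce
  rw [X.mulMat_map_subtype]
  simp

theorem Lmat_of_not {i : Fin (N + 1)} (hi : i ∉ X.nongaps N ∨ i = 0) : X.Lmat hN i = 0 := by
  rw [Lmat, X.hW_of_not hN hi, X.mulMat_zero]

theorem leftMulMatrix_kfun (c : Fin (N + 1) → Ω) :
    Algebra.leftMulMatrix X.basisτ (X.kfun hN c) =
      1 + ∑ i : Fin (N + 1), algebraMap Ω ↥Ω⟮X.τ⟯ (c i) •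
        (X.Lmat hN i).map (algebraMap ↥X.Wτ ↥Ω⟮X.τ⟯) := by
  rw [X.kfun_eq_one_add hN, map_add, map_one, map_sum]
  congr 1
  refine Finset.sum_congr rfl fun i _ => ?_
  rw [← algebraMap_smul ↥Ω⟮X.τ⟯ (c i) ((X.hW hN i : ↥X.W) : 𝔽), map_smul]
  congr 1
  exact (X.mulMat_map_subtype (X.hW hN i)).symm

/-- the determinant polynomial over `Wτ` -/
def normDetW : MvPolynomial (Fin (N + 1)) ↥X.Wτ := detPoly (X.Lmat hN)

/-- the determinant polynomial, with coefficients in `𝔽` -/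
def normDet : MvPolynomial (Fin (N + 1)) 𝔽 :=
  MvPolynomial.map ((algebraMap ↥Ω⟮X.τ⟯ 𝔽).comp (algebraMap ↥X.Wτ ↥Ω⟮X.τ⟯)) (X.normDetW hN)

theorem coeff_normDet (m : Fin (N + 1) →₀ ℕ) :
    (X.normDet hN).coeff m =
      algebraMap ↥Ω⟮X.τ⟯ 𝔽 (((X.normDetW hN).coeff m : ↥X.Wτ) : ↥Ω⟮X.τ⟯) := by
  rw [normDet, MvPolynomial.coeff_map]
  rfl

theorem coeff_normDet_mem_W (m : Fin (N + 1) →₀ ℕ) : (X.normDet hN).coeff m ∈ X.W := by
  rw [X.coeff_normDet hN]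
  exact ((X.normDetW hN).coeff m).2

/-- **the values of the determinant polynomial are the norms of the `k_c`** -/
theorem eval_normDet (c : Fin (N + 1) → Ω) :
    MvPolynomial.eval (fun i => algebraMap Ω 𝔽 (c i)) (X.normDet hN) =
      algebraMap ↥Ω⟮X.τ⟯ 𝔽 (Algebra.norm ↥Ω⟮X.τ⟯ (X.kfun hN c)) := by
  rw [normDet, MvPolynomial.eval_map]
  have h1 : (fun i => algebraMap Ω 𝔽 (c i)) =
      (algebraMap ↥Ω⟮X.τ⟯ 𝔽) ∘ (fun i => algebraMap Ω ↥Ω⟮X.τ⟯ (c i)) := by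
    funext i
    exact IsScalarTower.algebraMap_apply Ω ↥Ω⟮X.τ⟯ 𝔽 (c i)
  rw [h1, ← MvPolynomial.eval₂_comp_left]
  congr 1
  rw [Algebra.norm_eq_matrix_det X.basisτ, X.leftMulMatrix_kfun hN, ← aeval_detPoly]
  rfl

end GoodRed

end Fermat.Agent.FG

end
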