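/-
FG — helper2 — [NORMPOLY], part 6: the norm polynomials `M_j` and `exists_normPoly`.
-/
import Mathlib
import Fermat.Agent.FG.NORMPOLY_helper2_Main

set_option autoImplicit false
set_option linter.unusedSectionVars false
set_option linter.style.haveILetI false

noncomputable section

namespace Fermat.Agent.FG

open AlgebraicCurve IsLocalRing IntermediateField Fermat.Agent.FF Fermat.Agent.JA
open scoped Classical

namespace GoodRed

variable {Ω : Type*} [Field Ω] {A : ValuationSubring Ω} {𝔽 : Type*} [Field 𝔽] [Algebra Ω 𝔽]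
  {𝔽b : Type*} [Field 𝔽b] [Algebra (ResidueField ↥A) 𝔽b] (X : GoodRed Ω A 𝔽 𝔽b)

variable {N : ℕ} (hN : 2 * (X.g : ℤ) - 1 ≤ N)

theorem algebraMap_laurentTail (N : ℕ) (c : ℕ → Ω) :
    algebraMap ↥Ω⟮X.τ⟯ 𝔽 (laurentTail (AdjoinSimple.gen Ω X.τ) N c) = laurentTail X.τ N c := by
  unfold laurentTail
  rw [map_sum]
  refine Finset.sum_congr rfl fun i _ => ?_
  rw [map_mul, ← IsScalarTower.algebraMap_apply, map_pow, map_inv₀, AdjoinSimple.algebraMap_gen]

/-- the norm polynomials `M_j` -/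
def normPoly (j : Fin (N + 1)) : MvPolynomial (Fin (N + 1)) Ω :=
  mapCoeffLin ((LinearMap.proj j).comp (tauCoord Ω X.τ N)) (X.normDet hN)

theorem coeff_normPoly (j : Fin (N + 1)) (m : Fin (N + 1) →₀ ℕ) :
    (X.normPoly hN j).coeff m = tauCoord Ω X.τ N ((X.normDet hN).coeff m) j := by
  rw [normPoly, coeff_mapCoeffLin]
  rfl

theorem eval_normPoly (j : Fin (N + 1)) (c : Fin (N + 1) → Ω) :
    MvPolynomial.eval c (X.normPoly hN j) =
      tauCoord Ω X.τ N (algebraMap ↥Ω⟮X.τ⟯ 𝔽 (Algebra.norm ↥Ω⟮X.τ⟯ (X.kfun hN c))) j := by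
  rw [normPoly, eval_mapCoeffLin, X.eval_normDet hN]
  rfl

variable [IsAlgClosed Ω] [CharZero Ω]

theorem norm_kfun_mem_range (c : Fin (N + 1) → Ω) :
    algebraMap ↥Ω⟮X.τ⟯ 𝔽 (Algebra.norm ↥Ω⟮X.τ⟯ (X.kfun hN c)) ∈
      LinearMap.range (tauT Ω X.τ N) := by
  obtain ⟨a, ha⟩ := X.exists_norm_eq_laurentTail (X.kfun_mem_poleSpace hN c)
  rw [ha, X.algebraMap_laurentTail]
  exact laurentTail_mem_range X.τ N X.τ_ne_zero _

/-- INTERP: the coefficients of the determinant polynomial lie in `span {τ^{j-N}}` -/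
theorem coeff_normDet_mem_range (m : Fin (N + 1) →₀ ℕ) :
    (X.normDet hN).coeff m ∈ LinearMap.range (tauT Ω X.τ N) := by
  haveI : Infinite Ω := inferInstance
  refine coeff_mem_of_forall_eval_mem (LinearMap.range (tauT Ω X.τ N)) (X.normDet hN)
    (fun c => ?_) m
  rw [X.eval_normDet hN]
  exact X.norm_kfun_mem_range hN c

/-- **(1)** `Σ_j M_j(c) τ^j = τ^N · Nm (k_c)` -/
theorem sum_normPoly (c : Fin (N + 1) → Ω) :
    ∑ j : Fin (N + 1), algebraMap Ω 𝔽 (MvPolynomial.eval c (X.normPoly hN j)) * X.τ ^ (j : ℕ) =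
      X.τ ^ N * algebraMap ↥Ω⟮X.τ⟯ 𝔽 (Algebra.norm ↥Ω⟮X.τ⟯ (X.kfun hN c)) := by
  rw [← sum_tauCoord X.τ N X.τ_transcendental (X.norm_kfun_mem_range hN c)]
  refine Finset.sum_congr rfl fun j _ => ?_
  rw [X.eval_normPoly hN]

/-- **(2)** the coefficients of the `M_j` are integral -/
theorem coeff_normPoly_mem (j : Fin (N + 1)) (m : Fin (N + 1) →₀ ℕ) :
    (X.normPoly hN j).coeff m ∈ A := by
  rw [X.coeff_normPoly hN]
  set y := (X.normDet hN).coeff m with hy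
  set a := tauCoord Ω X.τ N y with ha
  have h1 := sum_tauCoord X.τ N X.τ_transcendental (X.coeff_normDet_mem_range hN m)
  rw [← hy, ← ha, sum_eq_aeval] at h1
  have h2 : Polynomial.aeval X.τ (∑ j : Fin (N + 1), Polynomial.C (a j) * Polynomial.X ^ (j : ℕ))
      ∈ X.W := by
    rw [h1]
    exact X.W.mul_mem _ _ (pow_mem X.τ_mem N) (X.coeff_normDet_mem_W hN m)
  have h3 := (X.aeval_τ_mem_W_iff _).1 h2 (j : ℕ)
  rwa [coeff_sum_C_mul_X_pow] at h3

/-- **(4)** the linear coefficients are the coordinates of the traces of the canonical basis -/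
theorem sum_coeff_single_normPoly (ν : ↥(X.nongaps N)) (hν : (ν : Fin (N + 1)) ≠ 0) :
    ∑ j : Fin (N + 1), algebraMap Ω 𝔽
        (MvPolynomial.coeff (Finsupp.single (ν : Fin (N + 1)) 1) (X.normPoly hN j)) *
          X.τ ^ (j : ℕ) =
      X.τ ^ N * algebraMap ↥Ω⟮X.τ⟯ 𝔽
        (Algebra.trace ↥Ω⟮X.τ⟯ 𝔽 ((X.canon hN ν : ↥(poleSpace X.cusp N)) : 𝔽)) := by
  have h0 : (X.normDet hN).coeff (Finsupp.single (ν : Fin (N + 1)) 1) =
      algebraMap ↥Ω⟮X.τ⟯ 𝔽
        (Algebra.trace ↥Ω⟮X.τ⟯ 𝔽 ((X.canon hN ν : ↥(poleSpace X.cusp N)) : 𝔽)) := by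
    rw [X.coeff_normDet hN, normDetW, coeff_single_detPoly, ← X.hW_of_mem hN ν hν,
      X.trace_eq_trace]
    rfl
  rw [← h0, ← sum_tauCoord X.τ N X.τ_transcendental (X.coeff_normDet_mem_range hN _)]
  refine Finset.sum_congr rfl fun j _ => ?_
  rw [X.coeff_normPoly hN]

/-- **(5)** no linear terms at the gaps and at `0` -/
theorem coeff_single_normPoly_of_not {i : Fin (N + 1)} (hi : i ∉ X.nongaps N ∨ i = 0)
    (j : Fin (N + 1)) : MvPolynomial.coeff (Finsupp.single i 1) (X.normPoly hN j) = 0 := by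
  rw [X.coeff_normPoly hN, X.coeff_normDet hN, normDetW, coeff_single_detPoly,
    X.Lmat_of_not hN hi]
  simp

/-- the `M_j` commute with rational automorphisms -/
theorem eval_normPoly_baseAut (g : SemilinearAut Ω 𝔽) (hg : X.IsRatAut g)
    (c : Fin (N + 1) → Ω) (j : Fin (N + 1)) :
    MvPolynomial.eval (fun i => SemilinearAut.baseAut g (c i)) (X.normPoly hN j) =
      SemilinearAut.baseAut g (MvPolynomial.eval c (X.normPoly hN j)) := by
  set c' : Fin (N + 1) → Ω := fun i => SemilinearAut.baseAut g (c i) with hc'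
  set y := algebraMap ↥Ω⟮X.τ⟯ 𝔽 (Algebra.norm ↥Ω⟮X.τ⟯ (X.kfun hN c')) with hy
  have h1 := X.sum_normPoly hN c'
  have h2 : ∑ j : Fin (N + 1), algebraMap Ω 𝔽
      (SemilinearAut.baseAut g (MvPolynomial.eval c (X.normPoly hN j))) * X.τ ^ (j : ℕ) =
      X.τ ^ N * y := by
    rw [hy, hc', ← X.smul_kfun hN g hg c, algebraMap_norm_smul g hg.smul_τ]
    have h3 := congrArg (fun z => g • z) (X.sum_normPoly hN c)
    simp only [Finset.smul_sum, smul_mul', smul_pow', hg.smul_τ,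
      SemilinearAut.smul_algebraMap] at h3
    exact h3
  have e1 := tauCoord_eq_of_sum X.τ N X.τ_transcendental _ h1
  have e2 := tauCoord_eq_of_sum X.τ N X.τ_transcendental _ h2
  have e3 := e1.2.symm.trans e2.2
  exact congrFun e3 j

/-- **(3)** the coefficients of the `M_j` are fixed by the rational automorphisms -/
theorem coeff_normPoly_baseAut (g : SemilinearAut Ω 𝔽) (hg : X.IsRatAut g) (j : Fin (N + 1))
    (m : Fin (N + 1) →₀ ℕ) :
    SemilinearAut.baseAut g (MvPolynomial.coeff m (X.normPoly hN j)) =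
      MvPolynomial.coeff m (X.normPoly hN j) := by
  haveI : Infinite Ω := inferInstance
  set φ : Ω →+* Ω := (SemilinearAut.baseAut g : Ω →+* Ω) with hφ
  have hmap : MvPolynomial.map φ (X.normPoly hN j) = X.normPoly hN j := by
    apply MvPolynomial.funext
    intro c
    set c' : Fin (N + 1) → Ω := fun i => (SemilinearAut.baseAut g).symm (c i) with hc'
    have hcc : c = fun i => SemilinearAut.baseAut g (c' i) := by
      funext i
      rw [hc']
      exact ((SemilinearAut.baseAut g).apply_symm_apply (c i)).symm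
    rw [MvPolynomial.eval_map]
    conv_lhs => rw [hcc]
    have h1 := MvPolynomial.eval₂_comp_left φ (RingHom.id Ω) c' (X.normPoly hN j)
    rw [RingHom.comp_id] at h1
    have h2 : (φ ∘ c') = fun i => SemilinearAut.baseAut g (c' i) := rfl
    rw [h2] at h1
    rw [← h1, hcc]
    exact (X.eval_normPoly_baseAut hN g hg c' j).symm
  have h3 := congrArg (MvPolynomial.coeff m) hmap
  rw [MvPolynomial.coeff_map] at h3
  exact h3

/-- **[NORMPOLY]** (helper5's literal of msg 1338) -/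
theorem exists_normPoly {N : ℕ} (hN : 2 * (X.g : ℤ) - 1 ≤ N)
    (hϖ : ∃ ϖ : Ω, ϖ ∈ A.nonunits ∧ ϖ ≠ 0) :
    ∃ M : Fin (N + 1) → MvPolynomial (Fin (N + 1)) Ω,
      (∀ c : Fin (N + 1) → Ω,
        ∑ j : Fin (N + 1), algebraMap Ω 𝔽 (MvPolynomial.eval c (M j)) * X.τ ^ (j : ℕ)
          = X.τ ^ N * algebraMap ↥Ω⟮X.τ⟯ 𝔽 (haveI := X.τ_finite; Algebra.norm ↥Ω⟮X.τ⟯ (X.kfun hN c))) ∧
      (∀ j m, MvPolynomial.coeff m (M j) ∈ A) ∧
      (∀ g : SemilinearAut Ω 𝔽, X.IsRatAut g → ∀ j m,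
        SemilinearAut.baseAut g (MvPolynomial.coeff m (M j)) = MvPolynomial.coeff m (M j)) ∧
      (∀ ν : ↥(X.nongaps N), (ν : Fin (N + 1)) ≠ 0 →
        ∑ j : Fin (N + 1), algebraMap Ω 𝔽 (MvPolynomial.coeff (Finsupp.single (ν : Fin (N + 1)) 1) (M j)) * X.τ ^ (j : ℕ)
          = X.τ ^ N * algebraMap ↥Ω⟮X.τ⟯ 𝔽 (Algebra.trace ↥Ω⟮X.τ⟯ 𝔽 ((X.canon hN ν : ↥(poleSpace X.cusp N)) : 𝔽))) ∧
      (∀ i : Fin (N + 1), (i ∉ X.nongaps N ∨ i = 0) → ∀ j, MvPolynomial.coeff (Finsupp.single i 1) (M j) = 0) :=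
  ⟨X.normPoly hN, X.sum_normPoly hN, X.coeff_normPoly_mem hN,
    fun g hg j m => X.coeff_normPoly_baseAut hN g hg j m,
    X.sum_coeff_single_normPoly hN, fun _ hi j => X.coeff_single_normPoly_of_not hN hi j⟩

end GoodRed

end Fermat.Agent.FG

end
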