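/-
FG — helper2 — [NORMPOLY], part 7 (generic): reading off the principal part of a function from a
polynomial approximation: if `f - π^{-N} q(π)` is regular at `P` then the principal part of `f`
at `P` has coefficients `q_{N-i}` (`1 ≤ i ≤ N`).
-/
import Mathlib
import Fermat.Agent.FG.LAT_helper5_PP

set_option autoImplicit false
set_option linter.unusedSectionVars false
set_option linter.style.haveILetI false

noncomputable section

namespace Fermat.Agent.FG

open AlgebraicCurve Polynomial Fermat.Agent.FF Fermat.Agent.JA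

variable {K F : Type*} [Field K] [Field F] [Algebra K F]

theorem pow_mul_laurentTail {x : F} (hx : x ≠ 0) (N : ℕ) (c : ℕ → K) :
    x ^ N * laurentTail x N c =
      ∑ j ∈ Finset.range (N + 1), algebraMap K F (c (N - j)) * x ^ j := by
  rw [laurentTail, Finset.mul_sum, ← Finset.sum_range_reflect]
  refine Finset.sum_congr rfl fun i hi => ?_
  have hi' : i ≤ N := Nat.lt_succ_iff.mp (Finset.mem_range.mp hi)
  have e1 : N + 1 - 1 - i = N - i := by omega
  rw [e1]
  have e3 : x ^ N = x ^ i * x ^ (N - i) := by rw [← pow_add]; congr 1; omega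
  rw [e3, inv_pow]
  have : x ^ (N - i) ≠ 0 := pow_ne_zero _ hx
  field_simp

/-- `π^{-N} q(π)` is a Laurent tail up to a function vanishing at `P` -/
theorem exists_ordGE_one_sub_laurentTail {P : Place K F} {π : F} (hπ : P.ord π = 1) (N : ℕ)
    (q : K[X]) :
    OrdGE P 1 ((π ^ N)⁻¹ * aeval π q - laurentTail π N (fun i => q.coeff (N - i))) := by
  have hπ0 : π ≠ 0 := ne_zero_of_ord_eq_one hπ
  have hπN : π ^ N ≠ 0 := pow_ne_zero _ hπ0
  set n := max (q.natDegree + 1) (N + 1) with hn
  have hqn : q.natDegree < n := lt_of_lt_of_le (Nat.lt_succ_self _) (le_max_left _ _)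
  have hNn : N + 1 ≤ n := le_max_right _ _
  have h1 : aeval π q = ∑ j ∈ Finset.range n, algebraMap K F (q.coeff j) * π ^ j := by
    rw [aeval_eq_sum_range' hqn]
    exact Finset.sum_congr rfl fun j _ => Algebra.smul_def _ _
  have h2 : π ^ N * laurentTail π N (fun i => q.coeff (N - i)) =
      ∑ j ∈ Finset.range (N + 1), algebraMap K F (q.coeff j) * π ^ j := by
    rw [pow_mul_laurentTail hπ0]
    refine Finset.sum_congr rfl fun j hj => ?_
    have hj' : j ≤ N := Nat.lt_succ_iff.mp (Finset.mem_range.mp hj)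
    have : N - (N - j) = j := by omega
    rw [this]
  have h3 : (π ^ N)⁻¹ * aeval π q - laurentTail π N (fun i => q.coeff (N - i)) =
      ∑ j ∈ Finset.Ico (N + 1) n, algebraMap K F (q.coeff j) * ((π ^ N)⁻¹ * π ^ j) := by
    have h4 : π ^ N * ((π ^ N)⁻¹ * aeval π q - laurentTail π N (fun i => q.coeff (N - i))) =
        π ^ N * ∑ j ∈ Finset.Ico (N + 1) n,
          algebraMap K F (q.coeff j) * ((π ^ N)⁻¹ * π ^ j) := by
      rw [mul_sub, h2, ← mul_assoc, mul_inv_cancel₀ hπN, one_mul, h1,
        ← Finset.sum_range_add_sum_Ico _ hNn, add_sub_cancel_left, Finset.mul_sum]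
      refine Finset.sum_congr rfl fun j _ => ?_
      field_simp
    exact mul_left_cancel₀ hπN h4
  rw [h3]
  refine ordGE_sum _ _ fun j hj => ordGE_const_mul _ (Or.inr ?_)
  have hj' : N + 1 ≤ j := (Finset.mem_Ico.mp hj).1
  rw [P.ord_mul (inv_ne_zero hπN) (pow_ne_zero _ hπ0), P.ord_inv, PlaceAux.ord_pow,
    PlaceAux.ord_pow, hπ]
  have : ((N + 1 : ℕ) : ℤ) ≤ (j : ℤ) := by exact_mod_cast hj'
  push_cast at this
  linarith

/-- **the principal part from a polynomial approximation** -/
theorem ppMap_eq_coeff_of_ordGE {P : Place K F} (hdeg : P.deg = 1) {π : F} (hπ : P.ord π = 1)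
    (N : ℕ) (f : ↥(poleSpace P N)) (q : K[X])
    (h : OrdGE P 0 ((f : F) - (π ^ N)⁻¹ * aeval π q)) (i : Fin (N + 1)) (hi : i ≠ 0) :
    ppMap P hdeg π hπ N f i = q.coeff (N - (i : ℕ)) := by
  set c'' : ℕ → K := fun i => q.coeff (N - i) with hc''
  have h1 := exists_ordGE_one_sub_laurentTail hπ N q
  have hu : OrdGE P 0 ((f : F) - laurentTail π N c'') := by
    have : (f : F) - laurentTail π N c'' = ((f : F) - (π ^ N)⁻¹ * aeval π q) +
        ((π ^ N)⁻¹ * aeval π q - laurentTail π N c'') := by ring
    rw [this]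
    exact h.add (h1.mono (by norm_num))
  obtain ⟨b₀, hb₀⟩ := exists_const_sub_ordGE_one P hdeg (ordGE_zero_iff_mem.1 hu)
  set c : ℕ → K := fun i => if i = 0 then c'' 0 + b₀ else c'' i with hc
  have hcc : laurentTail π N c = laurentTail π N c'' + algebraMap K F b₀ := by
    have h2 : c = c'' + fun i => if i = 0 then b₀ else 0 := by
      funext i
      rw [hc, Pi.add_apply]
      beta_reduce
      split_ifs with h0
      · rw [h0]
      · rw [add_zero]
    rw [h2, laurentTail_add]
    congr 1
    unfold laurentTail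
    rw [Finset.sum_eq_single 0]
    · simp
    · intro j _ hj
      beta_reduce
      rw [if_neg hj, map_zero, zero_mul]
    · intro h0
      exact absurd (Finset.mem_range.2 (Nat.succ_pos N)) h0
  have hfin : OrdGE P 1 ((f : F) - laurentTail π N c) := by
    rw [hcc, ← sub_sub]
    exact hb₀
  rw [ppMap_eq_of_ordGE P hdeg π hπ N f hfin i, hc]
  have : (i : ℕ) ≠ 0 := fun h0 => hi (Fin.ext h0)
  simp only [this, if_false]
  rfl

end Fermat.Agent.FG

end
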