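/-
(T4) semilocal trace lemma for S19 (helper2), part 1: the abstract core (Mathlib only).

`B` a commutative `R`-algebra, free and finite as an `R`-module, `N ⊆ B` an `R`-submodule such
that `B = R·1 + N` (think `N = 𝔓^M` for a prime with `e = f = 1`), `ϖ ∈ R` with `ϖ·1 ∈ N`
(think `ϖ = π^M`).  If `s ∈ B` satisfies `s·N ⊆ ϖ B` (think: `s` is divisible by the `M`-th powers
of all other primes over `π`), then `Tr_{B/R}(s) ≡ s` modulo `N`:

* `trace_smulRight_apply` : the trace of `y ↦ f(y) • x` is `f x`;
* `trace_sub_self_mem`.
-/
import Mathlib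

set_option autoImplicit false
set_option linter.unusedSectionVars false

namespace Fermat.Agent.FG

open Module

noncomputable section

variable {R B : Type*} [CommRing R] [CommRing B] [Algebra R B] [Module.Free R B]
  [Module.Finite R B]

/-- the trace of a rank one operator -/
theorem trace_smulRight_apply (f : B →ₗ[R] R) (x : B) :
    LinearMap.trace R B (f.smulRight x) = f x := by
  have h1 : f.smulRight x = dualTensorHom R B B (f ⊗ₜ x) := by
    ext y
    rw [LinearMap.smulRight_apply, dualTensorHom_apply]
  rw [h1, LinearMap.trace_eq_contract_apply, contractLeft_apply]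

/-- **the abstract semilocal trace lemma** -/
theorem trace_sub_self_mem (N : Submodule R B) (ϖ : R) (s : B)
    (h1 : ∀ y : B, ∃ a : R, y - algebraMap R B a ∈ N)
    (h2 : ∀ z ∈ N, ∃ z' : B, s * z = ϖ • z')
    (h3 : algebraMap R B ϖ ∈ N) :
    algebraMap R B (Algebra.trace R B s) - s ∈ N := by
  classical
  set b := Module.Free.chooseBasis R B with hb
  choose a ha using fun i => h1 (b i)
  -- the functional `λ` with `y ≡ λ(y)` modulo `N`
  set lam : B →ₗ[R] R := b.constr R a with hlam
  have hlamb : ∀ i, lam (b i) = a i := fun i => b.constr_basis R a i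
  have hA : ∀ y : B, y - algebraMap R B (lam y) ∈ N := fun y => by
    have e2 : y = ∑ i, b.repr y i • b i := (b.sum_repr y).symm
    have e3 : lam y = ∑ i, b.repr y i * a i := by
      conv_lhs => rw [e2]
      rw [map_sum]
      refine Finset.sum_congr rfl fun i _ => ?_
      rw [map_smul, hlamb, smul_eq_mul]
    have e1 : y - algebraMap R B (lam y) =
        ∑ i, b.repr y i • (b i - algebraMap R B (a i)) := by
      simp only [smul_sub, Finset.sum_sub_distrib]
      rw [b.sum_repr y, e3, map_sum]
      congr 1
      refine Finset.sum_congr rfl fun i _ => ?_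
      rw [map_mul, Algebra.smul_def]
    rw [e1]
    exact N.sum_mem fun i _ => N.smul_mem _ (ha i)
  -- the operator `y ↦ s y - λ(y) s` has values in `ϖ B`
  set T : B →ₗ[R] B := LinearMap.mulLeft R s - lam.smulRight s with hT
  have hTy : ∀ y, T y = s * (y - algebraMap R B (lam y)) := fun y => by
    rw [hT, LinearMap.sub_apply, LinearMap.mulLeft_apply, LinearMap.smulRight_apply,
      Algebra.smul_def]
    ring
  choose z' hz' using fun i => h2 _ (hA (b i))
  set T' : B →ₗ[R] B := b.constr R z' with hT'
  have hTT' : T = ϖ • T' := by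
    refine b.ext fun i => ?_
    rw [hTy, hz', LinearMap.smul_apply, hT', b.constr_basis]
  have htr : Algebra.trace R B s - lam s = ϖ * LinearMap.trace R B T' := by
    have e1 : LinearMap.trace R B T = Algebra.trace R B s - lam s := by
      rw [hT, map_sub, trace_smulRight_apply, Algebra.trace_apply]
      rfl
    rw [← e1, hTT', map_smul, smul_eq_mul]
  have e : algebraMap R B (Algebra.trace R B s) - s =
      LinearMap.trace R B T' • algebraMap R B ϖ - (s - algebraMap R B (lam s)) := by
    have : Algebra.trace R B s = lam s + ϖ * LinearMap.trace R B T' := by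
      rw [← htr]
      ring
    rw [this, map_add, map_mul, Algebra.smul_def]
    ring
  rw [e]
  exact N.sub_mem (N.smul_mem _ h3) (hA s)

end

end Fermat.Agent.FG
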