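/-
(T4) semilocal trace lemma for S19 (helper2), part 2: residue fields (any characteristic).

* `exists_const_sub_mem_maximalIdeal` : a place `w` of `k(x)` with `ord_w x > 0` has residue
  field `k`;
* `exists_const_sub_mem_center` : over an algebraically closed `k`, every element of the integral
  closure `intCl κ w` is congruent to a constant modulo the center of a place over `w`;
* `exists_const_sub_ord_pos` : hence every element of the valuation ring of such a place `P` is
  congruent to a constant;  `mem_intCl_of_forall_mem` : the integral closure is the intersection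
  of the valuation rings of the places over `w`.
-/
import Mathlib
import Fermat.Agent.FF.Gal_helper7_IntCl
import Fermat.Agent.FF.RR_helper3_Step

set_option autoImplicit false
set_option linter.unusedSectionVars false
set_option linter.style.haveILetI false

namespace Fermat.Agent.FG

open AlgebraicCurve IntermediateField Polynomial IsDedekindDomain Fermat.Agent.FF
  Fermat.Agent.FF.Gal

noncomputable section

variable {k κ : Type*} [Field k] [Field κ] [Algebra k κ]

section ratPlace

variable (x : κ) (hx : Transcendental k x)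

theorem aeval_gen_ne_zero (hx : Transcendental k x) {q : k[X]} (hq : q ≠ 0) :
    aeval (AdjoinSimple.gen k x) q ≠ 0 := by
  intro h0
  have h1 : aeval x q = algebraMap ↥k⟮x⟯ κ (aeval (AdjoinSimple.gen k x) q) := by
    rw [← aeval_algebraMap_apply, AdjoinSimple.algebraMap_gen]
  rw [h0, map_zero] at h1
  exact hq ((transcendental_iff.1 hx) q h1)

/-- a zero of `x` on `k(x)` has residue field `k` -/
theorem exists_const_sub_mem_maximalIdeal (hx : Transcendental k x) (w : Place k ↥k⟮x⟯)
    (hw : 0 < w.ord (AdjoinSimple.gen k x)) (a : w.toValuationSubring) :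
    ∃ c : k, a - algebraMap k w.toValuationSubring c ∈
      IsLocalRing.maximalIdeal w.toValuationSubring := by
  set g : ↥k⟮x⟯ := AdjoinSimple.gen k x with hg
  have hg0 : g ≠ 0 := by
    intro h0
    rw [h0, Place.ord_zero] at hw
    exact lt_irrefl _ hw
  have hgO : g ∈ w.toValuationSubring := (ord_nonneg_iff w hg0).1 hw.le
  set gO : w.toValuationSubring := ⟨g, hgO⟩ with hgOdef
  have hgm : gO ∈ IsLocalRing.maximalIdeal w.toValuationSubring := by
    rw [mem_maximalIdeal_iff]
    exact Or.inr hw
  -- values of polynomials modulo the maximal ideal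
  have hres : ∀ p : k[X], IsLocalRing.residue w.toValuationSubring (aeval gO p) =
      algebraMap k w.ResidueField (p.coeff 0) := by
    intro p
    set ρ : k[X] →ₐ[k] w.ResidueField :=
      (IsScalarTower.toAlgHom k w.toValuationSubring w.ResidueField).comp (aeval gO) with hρ
    have h1 : ρ = aeval (0 : w.ResidueField) := by
      apply Polynomial.algHom_ext
      rw [hρ, AlgHom.comp_apply, aeval_X, aeval_X]
      exact (IsLocalRing.residue_eq_zero_iff _).2 hgm
    have h2 : ρ p = IsLocalRing.residue w.toValuationSubring (aeval gO p) := rfl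
    rw [← h2, h1, ← coeff_zero_eq_aeval_zero']
  have hcoe : ∀ p : k[X], ((aeval gO p : w.toValuationSubring) : ↥k⟮x⟯) = aeval g p := by
    intro p
    have := aeval_algHom_apply (IsScalarTower.toAlgHom k w.toValuationSubring ↥k⟮x⟯) gO p
    exact this.symm
  -- write `a` as a quotient of coprime polynomials
  set u : RatFunc k := (RatFunc.algEquivOfTranscendental x hx).symm (a : ↥k⟮x⟯) with hu
  have hau : (a : ↥k⟮x⟯) = aeval g u.num / aeval g u.denom := by
    have h1 : (a : ↥k⟮x⟯) = RatFunc.algEquivOfTranscendental x hx u := by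
      rw [hu, AlgEquiv.apply_symm_apply]
    rw [h1]
    conv_lhs => rw [← RatFunc.num_div_denom u]
    rw [map_div₀, RatFunc.algEquivOfTranscendental_algebraMap,
      RatFunc.algEquivOfTranscendental_algebraMap]
  have hq0 : aeval g u.denom ≠ 0 := aeval_gen_ne_zero x hx (RatFunc.denom_ne_zero u)
  have heq : a * aeval gO u.denom = aeval gO u.num := by
    apply Subtype.ext
    rw [MulMemClass.coe_mul, hcoe, hcoe, hau, div_mul_cancel₀ _ hq0]
  have hreseq := congrArg (IsLocalRing.residue w.toValuationSubring) heq
  rw [map_mul, hres, hres] at hreseq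
  by_cases hq : u.denom.coeff 0 = 0
  · exfalso
    rw [hq, map_zero, mul_zero] at hreseq
    have hp : u.num.coeff 0 = 0 := by
      have := hreseq.symm
      rwa [map_eq_zero] at this
    have h1 : (X : k[X]) ∣ u.num := X_dvd_iff.2 hp
    have h2 : (X : k[X]) ∣ u.denom := X_dvd_iff.2 hq
    exact not_isUnit_X ((RatFunc.isCoprime_num_denom u).isUnit_of_dvd' h1 h2)
  · refine ⟨u.num.coeff 0 / u.denom.coeff 0, ?_⟩
    rw [← IsLocalRing.residue_eq_zero_iff, map_sub, sub_eq_zero]
    have h1 : IsLocalRing.residue w.toValuationSubring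
        (algebraMap k w.toValuationSubring (u.num.coeff 0 / u.denom.coeff 0)) =
        algebraMap k w.ResidueField (u.num.coeff 0 / u.denom.coeff 0) := rfl
    rw [h1, map_div₀]
    have h2 : algebraMap k w.ResidueField (u.denom.coeff 0) ≠ 0 := by
      rwa [Ne, map_eq_zero]
    rw [eq_div_iff h2]
    exact hreseq

end ratPlace

section overPlace

variable {E : Type*} [Field E] [Algebra k E] [Algebra E κ] [IsScalarTower k E κ]
  [FiniteDimensional E κ] [Algebra.IsSeparable E κ]

instance intCl_isScalarTower_base (w : Place k E) :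
    IsScalarTower k w.toValuationSubring (intCl κ w) :=
  IsScalarTower.of_algebraMap_eq fun _ => rfl

/-- over an algebraically closed constant field, the residue field stays `k` in the integral
closure -/
theorem exists_const_sub_mem_center [IsAlgClosed k] {w : Place k E} {P : Place k κ}
    (hPw : LiesOver P w)
    (hw : ∀ a : w.toValuationSubring, ∃ c : k, a - algebraMap k w.toValuationSubring c ∈
      IsLocalRing.maximalIdeal w.toValuationSubring) (b : intCl κ w) :
    ∃ c : k, b - algebraMap k (intCl κ w) c ∈ center hPw := by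
  refine RR.exists_sub_mem_of_isIntegral (A₀ := w.toValuationSubring) (center hPw) (fun a => ?_) b
  have h1 := center_under hPw
  rw [Ideal.under_def] at h1
  rw [h1]
  exact hw a

/-- the integral closure is the intersection of the valuation rings of the places above -/
theorem mem_intCl_of_forall_mem (w : Place k E) {z : κ}
    (hz : ∀ Q : Place k κ, LiesOver Q w → z ∈ Q.toValuationSubring) : z ∈ intCl κ w := by
  have h1 : z ∈ (algebraMap (intCl κ w) κ).range := by
    refine HeightOneSpectrum.mem_integers_of_valuation_le_one κ z fun v => ?_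
    have h2 := hz (placeOf w v) (liesOver_placeOf w v)
    rw [placeOf_toValuationSubring, Valuation.mem_valuationSubring_iff] at h2
    exact h2
  obtain ⟨y, rfl⟩ := h1
  exact y.2

/-- over an algebraically closed constant field every element of the valuation ring of a place
`P` over `w` is congruent to a constant, if this holds for `w` -/
theorem exists_const_sub_ord_pos [IsAlgClosed k] {w : Place k E} {P : Place k κ}
    (hPw : LiesOver P w)
    (hw : ∀ a : w.toValuationSubring, ∃ c : k, a - algebraMap k w.toValuationSubring c ∈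
      IsLocalRing.maximalIdeal w.toValuationSubring) {g : κ} (hg : g ∈ P.toValuationSubring) :
    ∃ c : k, g - algebraMap k κ c = 0 ∨ 0 < P.ord (g - algebraMap k κ c) := by
  rw [valuationSubring_eq hPw, Valuation.mem_valuationSubring_iff] at hg
  obtain ⟨n, d, hnd⟩ := (centerSpec hPw).exists_primeCompl_mul_eq_of_integer g hg
  have hd : (d : intCl κ w) ∉ center hPw := d.2
  obtain ⟨c₁, hc₁⟩ := exists_const_sub_mem_center hPw hw n
  obtain ⟨c₂, hc₂⟩ := exists_const_sub_mem_center hPw hw (d : intCl κ w)
  have hc₂0 : c₂ ≠ 0 := by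
    rintro rfl
    rw [map_zero, sub_zero] at hc₂
    exact hd hc₂
  have hdκ : ((d : intCl κ w) : κ) ≠ 0 ∧ P.ord ((d : intCl κ w) : κ) = 0 := by
    rw [mem_center_iff, not_or, not_lt] at hd
    refine ⟨hd.1, le_antisymm hd.2 ?_⟩
    exact (ord_nonneg_iff P hd.1).2 (intCl_le hPw _ (d : intCl κ w).2)
  refine ⟨c₁ / c₂, ?_⟩
  by_cases h0 : g - algebraMap k κ (c₁ / c₂) = 0
  · exact Or.inl h0
  right
  -- the numerator
  set m : intCl κ w := (n - algebraMap k (intCl κ w) c₁) * algebraMap k (intCl κ w) c₂ -
    algebraMap k (intCl κ w) c₁ * ((d : intCl κ w) - algebraMap k (intCl κ w) c₂) with hm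
  have hmc : m ∈ center hPw :=
    Ideal.sub_mem _ (Ideal.mul_mem_right _ _ hc₁) (Ideal.mul_mem_left _ _ hc₂)
  have hc₂κ : algebraMap k κ c₂ ≠ 0 := (_root_.map_ne_zero _).2 hc₂0
  have hmκ : (m : κ) = (g - algebraMap k κ (c₁ / c₂)) * ((d : intCl κ w) : κ) *
      algebraMap k κ c₂ := by
    have e0 : ∀ c : k, ((algebraMap k (intCl κ w) c : intCl κ w) : κ) = algebraMap k κ c :=
      fun c => (IsScalarTower.algebraMap_apply k (intCl κ w) κ c).symm
    have e1 : (m : κ) = ((n : κ) - algebraMap k κ c₁) * algebraMap k κ c₂ -
        algebraMap k κ c₁ * (((d : intCl κ w) : κ) - algebraMap k κ c₂) := by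
      rw [hm]
      simp only [Subalgebra.coe_sub, Subalgebra.coe_mul, e0]
    have e2 : (n : κ) = g * ((d : intCl κ w) : κ) := hnd.symm
    rw [e1, e2, map_div₀]
    field_simp
    ring
  rw [mem_center_iff, hmκ] at hmc
  have hne : (g - algebraMap k κ (c₁ / c₂)) * ((d : intCl κ w) : κ) * algebraMap k κ c₂ ≠ 0 :=
    mul_ne_zero (mul_ne_zero h0 hdκ.1) hc₂κ
  have hpos := hmc.resolve_left hne
  rw [P.ord_mul (mul_ne_zero h0 hdκ.1) hc₂κ, P.ord_mul h0 hdκ.1, hdκ.2,
    Fermat.Agent.FF.Gal.ord_algebraMap P hc₂0, add_zero, add_zero] at hpos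
  exact hpos

end overPlace

end

end Fermat.Agent.FG
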