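/-
(T4) semilocal trace lemma for S19 (helper2), part 3: the statement (any characteristic).

`κ / k(x)` a finite separable function field over an algebraically closed `k`, `P` a place of `κ`
with `ord_P x = 1`, `h ∈ κ` regular at all OTHER zeros of `x`.  Then `h - Tr_{κ/k(x)} h` is
regular at `P`  (`ord_sub_trace_nonneg`, helper5's literal of finding 373).
-/
import Mathlib
import Fermat.Agent.FF.PlaceBasic
import Fermat.Agent.FG.TRACE_helper2_Core
import Fermat.Agent.FG.TRACE_helper2_Rat

set_option autoImplicit false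
set_option linter.unusedSectionVars false
set_option linter.style.haveILetI false

namespace Fermat.Agent.FG

open AlgebraicCurve IntermediateField Polynomial IsDedekindDomain Fermat.Agent.FF
  Fermat.Agent.FF.Gal

noncomputable section

variable {k κ : Type*} [Field k] [Field κ] [Algebra k κ]

theorem place_ord_neg (P : Place k κ) (y : κ) : P.ord (-y) = P.ord y := by
  rcases eq_or_ne y 0 with rfl | hy
  · rw [neg_zero]
  · have h1 : -y = algebraMap k κ (-1) * y := by
      rw [map_neg, map_one, neg_one_mul]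
    rw [h1, P.ord_mul ((_root_.map_ne_zero _).2 (neg_ne_zero.2 one_ne_zero)) hy,
      PlaceAux.ord_algebraMap, zero_add]

/-- approximation by elements of the base: if the residue field of `P` is `k` and `ord_P x = 1`
for some `x` of the base valuation ring, every element of the valuation ring of `P` is congruent
to an element of `k[x]` modulo any power of the maximal ideal -/
theorem exists_sub_ord_ge {E : Type*} [Field E] [Algebra k E] [Algebra E κ] [IsScalarTower k E κ]
    {w : Place k E} {P : Place k κ} (g : w.toValuationSubring)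
    (hg : P.ord (algebraMap E κ (g : E)) = 1)
    (hres : ∀ u : κ, u ∈ P.toValuationSubring →
      ∃ c : k, u - algebraMap k κ c = 0 ∨ 0 < P.ord (u - algebraMap k κ c))
    (M : ℕ) {y : κ} (hy : y ∈ P.toValuationSubring) :
    ∃ a : w.toValuationSubring, y - algebraMap E κ (a : E) = 0 ∨
      (M : ℤ) ≤ P.ord (y - algebraMap E κ (a : E)) := by
  set x : κ := algebraMap E κ (g : E) with hxdef
  have hx0 : x ≠ 0 := by
    intro h0
    rw [h0, Place.ord_zero] at hg
    exact zero_ne_one hg
  induction M with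
  | zero =>
    refine ⟨0, ?_⟩
    simp only [ZeroMemClass.coe_zero, map_zero, sub_zero, Nat.cast_zero]
    exact (PlaceAux.mem_iff_ord_nonneg P).1 hy
  | succ M ih =>
    obtain ⟨a, ha⟩ := ih
    rcases ha with ha | ha
    · exact ⟨a, Or.inl ha⟩
    · by_cases h0 : y - algebraMap E κ (a : E) = 0
      · exact ⟨a, Or.inl h0⟩
      set u : κ := (y - algebraMap E κ (a : E)) / x ^ M with hu
      have hxM : x ^ M ≠ 0 := pow_ne_zero M hx0
      have hu0 : u ≠ 0 := div_ne_zero h0 hxM
      have hordu : P.ord u = P.ord (y - algebraMap E κ (a : E)) - M := by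
        rw [hu, PlaceAux.ord_div P h0 hxM, PlaceAux.ord_pow, hg, mul_one]
      have huO : u ∈ P.toValuationSubring := by
        rw [PlaceAux.mem_iff_ord_nonneg' P hu0, hordu]
        omega
      obtain ⟨c, hc⟩ := hres u huO
      refine ⟨a + algebraMap k w.toValuationSubring c * g ^ M, ?_⟩
      have e1 : algebraMap E κ ((a + algebraMap k w.toValuationSubring c * g ^ M :
          w.toValuationSubring) : E) = algebraMap E κ (a : E) + algebraMap k κ c * x ^ M := by
        have : ((a + algebraMap k w.toValuationSubring c * g ^ M : w.toValuationSubring) : E) =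
            (a : E) + algebraMap k E c * (g : E) ^ M := rfl
        rw [this, map_add, map_mul, map_pow, ← IsScalarTower.algebraMap_apply]
      have e2 : y - (algebraMap E κ (a : E) + algebraMap k κ c * x ^ M) =
          x ^ M * (u - algebraMap k κ c) := by
        rw [hu]
        field_simp
        ring
      rw [e1, e2]
      rcases hc with hc | hc
      · left
        rw [hc, mul_zero]
      · right
        have huc : u - algebraMap k κ c ≠ 0 := by
          intro h0'
          rw [h0', Place.ord_zero] at hc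
          exact lt_irrefl _ hc
        rw [P.ord_mul hxM huc, PlaceAux.ord_pow, hg, mul_one]
        push_cast
        omega

/-- **(T4) the semilocal trace lemma**, any characteristic -/
theorem ord_sub_trace_nonneg [IsAlgClosed k] (x : κ) (hx : Transcendental k x)
    [FiniteDimensional ↥k⟮x⟯ κ] [Algebra.IsSeparable ↥k⟮x⟯ κ] (P : Place k κ)
    (hP : P.ord x = 1) (h : κ)
    (hh : ∀ Q : Place k κ, Q ≠ P → 0 < Q.ord x → 0 ≤ Q.ord h) :
    0 ≤ P.ord (h - algebraMap ↥k⟮x⟯ κ (Algebra.trace ↥k⟮x⟯ κ h)) := by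
  classical
  rcases eq_or_ne h 0 with rfl | hh0
  · simp
  have hx0 : x ≠ 0 := by
    intro h0
    rw [h0, Place.ord_zero] at hP
    exact zero_ne_one hP
  set g : ↥k⟮x⟯ := AdjoinSimple.gen k x with hgdef
  have hgx : algebraMap ↥k⟮x⟯ κ g = x := AdjoinSimple.algebraMap_gen k x
  -- the place below `P`
  set w : Place k ↥k⟮x⟯ := restrict ↥k⟮x⟯ P with hwdef
  have hPw : LiesOver P w := liesOver_restrict P
  have hwg : 0 < w.ord g := (hPw.ord_pos_iff g).1 (by rw [hgx, hP]; exact one_pos)
  have hwres := exists_const_sub_mem_maximalIdeal x hx w hwg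
  have hg0 : g ≠ 0 := by
    intro h0
    rw [h0, Place.ord_zero] at hwg
    exact lt_irrefl _ hwg
  have hgO : g ∈ w.toValuationSubring := (ord_nonneg_iff w hg0).1 hwg.le
  set gO : w.toValuationSubring := ⟨g, hgO⟩ with hgOdef
  have hQx : ∀ Q : Place k κ, LiesOver Q w → 0 < Q.ord x := fun Q hQ => by
    have := (hQ.ord_pos_iff g).2 hwg
    rwa [hgx] at this
  -- clear the pole at `P`
  set M : ℕ := (-P.ord h).toNat with hMdef
  have hM : 0 ≤ (M : ℤ) + P.ord h := by
    have := Int.self_le_toNat (-P.ord h)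
    omega
  have hxM : x ^ M ≠ 0 := pow_ne_zero M hx0
  have hmemQ : ∀ (z : κ), z ∈ P.toValuationSubring → (z = 0 ∨ (M : ℤ) ≤ P.ord z) →
      ∀ Q : Place k κ, LiesOver Q w → z ∈ Q.toValuationSubring → h * z ∈ Q.toValuationSubring := by
    intro z _ hzN Q hQ hzQ
    rcases eq_or_ne z 0 with rfl | hz0
    · rw [mul_zero]
      exact zero_mem _
    by_cases hQP : Q = P
    · subst hQP
      rw [PlaceAux.mem_iff_ord_nonneg' Q (mul_ne_zero hh0 hz0), Q.ord_mul hh0 hz0]
      have := hzN.resolve_left hz0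
      omega
    · refine mul_mem ?_ hzQ
      rw [PlaceAux.mem_iff_ord_nonneg' Q hh0]
      exact hh Q hQP (hQx Q hQ)
  have hsmem : x ^ M * h ∈ intCl κ w := by
    refine mem_intCl_of_forall_mem w fun Q hQ => ?_
    have h1 : x ^ M ∈ Q.toValuationSubring := by
      rw [PlaceAux.mem_iff_ord_nonneg' Q hxM, PlaceAux.ord_pow]
      exact mul_nonneg (Nat.cast_nonneg _) (hQx Q hQ).le
    by_cases hQP : Q = P
    · subst hQP
      rw [PlaceAux.mem_iff_ord_nonneg' Q (mul_ne_zero hxM hh0), Q.ord_mul hxM hh0,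
        PlaceAux.ord_pow, hP, mul_one]
      exact hM
    · refine mul_mem h1 ?_
      rw [PlaceAux.mem_iff_ord_nonneg' Q hh0]
      exact hh Q hQP (hQx Q hQ)
  set s : intCl κ w := ⟨x ^ M * h, hsmem⟩ with hsdef
  -- the submodule `𝔓^M`
  have hRP : ∀ r : w.toValuationSubring, algebraMap ↥k⟮x⟯ κ (r : ↥k⟮x⟯) ∈ P.toValuationSubring :=
    fun r => (hPw.mem_iff _).2 r.2
  let N : Submodule w.toValuationSubring (intCl κ w) :=
    { carrier := {y | (y : κ) = 0 ∨ (M : ℤ) ≤ P.ord (y : κ)}
      zero_mem' := Or.inl rfl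
      add_mem' := by
        intro y z hy hz
        by_cases h0 : (y : κ) + (z : κ) = 0
        · exact Or.inl h0
        · exact Or.inr (PlaceAux.ord_add_ge P h0 hy hz)
      smul_mem' := by
        intro r y hy
        have e : ((r • y : intCl κ w) : κ) = algebraMap ↥k⟮x⟯ κ (r : ↥k⟮x⟯) * (y : κ) := rfl
        show ((r • y : intCl κ w) : κ) = 0 ∨ (M : ℤ) ≤ P.ord ((r • y : intCl κ w) : κ)
        rw [e]
        rcases hy with hy | hy
        · left
          rw [hy, mul_zero]
        · by_cases hr0 : algebraMap ↥k⟮x⟯ κ (r : ↥k⟮x⟯) = 0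
          · left
            rw [hr0, zero_mul]
          by_cases hy0 : (y : κ) = 0
          · left
            rw [hy0, mul_zero]
          right
          rw [P.ord_mul hr0 hy0]
          have := (PlaceAux.mem_iff_ord_nonneg' P hr0).1 (hRP r)
          omega }
  have hNmem : ∀ y : intCl κ w, y ∈ N ↔ ((y : κ) = 0 ∨ (M : ℤ) ≤ P.ord (y : κ)) := fun _ => Iff.rfl
  have hBP : ∀ y : intCl κ w, (y : κ) ∈ P.toValuationSubring := fun y => intCl_le hPw _ y.2
  -- the three hypotheses of the abstract lemma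
  have hcoeR : ∀ a : w.toValuationSubring,
      ((algebraMap w.toValuationSubring (intCl κ w) a : intCl κ w) : κ) =
        algebraMap ↥k⟮x⟯ κ (a : ↥k⟮x⟯) := fun _ => rfl
  have h1 : ∀ y : intCl κ w, ∃ a : w.toValuationSubring,
      y - algebraMap w.toValuationSubring (intCl κ w) a ∈ N := by
    intro y
    obtain ⟨a, ha⟩ := exists_sub_ord_ge (w := w) (P := P) gO (by rw [hgx]; exact hP)
      (fun u hu => exists_const_sub_ord_pos hPw hwres hu) M (hBP y)
    exact ⟨a, (hNmem _).2 ha⟩
  have h2 : ∀ z ∈ N, ∃ z' : intCl κ w, s * z = (gO ^ M) • z' := by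
    intro z hz
    have hz' : h * (z : κ) ∈ intCl κ w :=
      mem_intCl_of_forall_mem w fun Q hQ =>
        hmemQ (z : κ) (hBP z) ((hNmem z).1 hz) Q hQ (intCl_le hQ _ z.2)
    refine ⟨⟨h * (z : κ), hz'⟩, ?_⟩
    apply Subtype.ext
    show x ^ M * h * (z : κ) = algebraMap ↥k⟮x⟯ κ ((gO ^ M : w.toValuationSubring) : ↥k⟮x⟯) *
      (h * (z : κ))
    have : ((gO ^ M : w.toValuationSubring) : ↥k⟮x⟯) = g ^ M := rfl
    rw [this, map_pow, hgx, mul_assoc]
  have h3 : algebraMap w.toValuationSubring (intCl κ w) (gO ^ M) ∈ N := by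
    rw [hNmem, hcoeR]
    right
    have : ((gO ^ M : w.toValuationSubring) : ↥k⟮x⟯) = g ^ M := rfl
    rw [this, map_pow, hgx, PlaceAux.ord_pow, hP, mul_one]
  have hcore := trace_sub_self_mem N (gO ^ M) s h1 h2 h3
  -- compare the traces
  haveI : IsLocalization (Algebra.algebraMapSubmonoid (intCl κ w)
      (nonZeroDivisors w.toValuationSubring)) κ :=
    IsIntegralClosure.isLocalization w.toValuationSubring ↥k⟮x⟯ κ (intCl κ w)
  have htr : Algebra.trace ↥k⟮x⟯ κ (x ^ M * h) =
      algebraMap w.toValuationSubring ↥k⟮x⟯ (Algebra.trace w.toValuationSubring (intCl κ w) s) :=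
    Algebra.trace_localization w.toValuationSubring (nonZeroDivisors w.toValuationSubring)
      (Rₘ := ↥k⟮x⟯) (Sₘ := κ) s
  have htr2 : Algebra.trace ↥k⟮x⟯ κ (x ^ M * h) = g ^ M * Algebra.trace ↥k⟮x⟯ κ h := by
    have e : x ^ M * h = (g ^ M) • h := by
      rw [Algebra.smul_def, map_pow, hgx]
    rw [e, map_smul, smul_eq_mul]
  rw [hNmem] at hcore
  have hcoe2 : ((algebraMap w.toValuationSubring (intCl κ w)
      (Algebra.trace w.toValuationSubring (intCl κ w) s) - s : intCl κ w) : κ) =
      x ^ M * (algebraMap ↥k⟮x⟯ κ (Algebra.trace ↥k⟮x⟯ κ h) - h) := by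
    have e1 : ((algebraMap w.toValuationSubring (intCl κ w)
        (Algebra.trace w.toValuationSubring (intCl κ w) s) - s : intCl κ w) : κ) =
        algebraMap ↥k⟮x⟯ κ (algebraMap w.toValuationSubring ↥k⟮x⟯
          (Algebra.trace w.toValuationSubring (intCl κ w) s)) - x ^ M * h := rfl
    rw [e1, ← htr, htr2, map_mul, map_pow, hgx]
    ring
  rw [hcoe2] at hcore
  set δ : κ := algebraMap ↥k⟮x⟯ κ (Algebra.trace ↥k⟮x⟯ κ h) - h with hδ
  have hfin : h - algebraMap ↥k⟮x⟯ κ (Algebra.trace ↥k⟮x⟯ κ h) = -δ := by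
    rw [hδ]
    ring
  rw [hfin, place_ord_neg]
  rcases eq_or_ne δ 0 with h0 | h0
  · rw [h0, Place.ord_zero]
  · have := hcore.resolve_left (mul_ne_zero hxM h0)
    rw [P.ord_mul hxM h0, PlaceAux.ord_pow, hP, mul_one] at this
    omega

end

end Fermat.Agent.FG
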