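/-
FG — helper2 — [NORMPOLY], part 8: `residue_coeff_trace_canon`: the coefficients of
`τ^N · Tr_{𝔽/Ω(τ)} (h_ν)` reduce to the principal part of the reduced canonical function
(trace lemma (T4) on the special fibre).
-/
import Mathlib
import Fermat.Agent.FG.NORMPOLY_helper2_Polar
import Fermat.Agent.FG.OB_helper2_API
import Fermat.Agent.FG.TRACE_helper2_Local
import Fermat.Agent.FG.LAT_helper5_CanonAPI

set_option autoImplicit false
set_option linter.unusedSectionVars false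
set_option linter.style.haveILetI false

noncomputable section

namespace Fermat.Agent.FG

open AlgebraicCurve IsLocalRing IntermediateField Fermat.Agent.FF Fermat.Agent.JA
open scoped Classical

namespace GoodRed

variable {Ω : Type*} [Field Ω] {A : ValuationSubring Ω} {𝔽 : Type*} [Field 𝔽] [Algebra Ω 𝔽]
  {𝔽b : Type*} [Field 𝔽b] [Algebra (ResidueField ↥A) 𝔽b] (X : GoodRed Ω A 𝔽 𝔽b)

/-- the trace lemma on the special fibre, for reductions of functions of `𝓛(N∞)` -/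
theorem ordGE_sub_trace_red [IsAlgClosed (ResidueField ↥A)] {N : ℕ}
    (fb : ↥(poleSpace X.cuspb N)) :
    OrdGE X.cuspb 0 ((fb : 𝔽b) - algebraMap ↥(ResidueField ↥A)⟮X.τb⟯ 𝔽b
      (Algebra.trace ↥(ResidueField ↥A)⟮X.τb⟯ 𝔽b (fb : 𝔽b))) := by
  haveI : Algebra.IsSeparable ↥(ResidueField ↥A)⟮X.τb⟯ 𝔽b := X.τ_separable_red
  right
  refine ord_sub_trace_nonneg X.τb X.τb_transcendental X.cuspb X.ord_cuspb_τb (fb : 𝔽b)
    (fun Q hQ _ => ?_)
  rcases (mem_poleSpace_iff.mp fb.2).2 Q hQ with h0 | h0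
  · rw [h0, Place.ord_zero]
  · exact h0

/-- **[NORMPOLY], second literal** (helper5's msg 1338) -/
theorem residue_coeff_trace_canon [IsAlgClosed (ResidueField ↥A)] {N : ℕ}
    (hN : 2 * (X.g : ℤ) - 1 ≤ N)
    (ν : ↥(X.nongaps N)) (p : Polynomial ↥A)
    (hp : Polynomial.aeval X.τ (p.map A.subtype) = X.τ ^ N * algebraMap ↥Ω⟮X.τ⟯ 𝔽
      (Algebra.trace ↥Ω⟮X.τ⟯ 𝔽 ((X.canon hN ν : ↥(poleSpace X.cusp N)) : 𝔽)))
    (i : Fin (N + 1)) (hi : i ≠ 0) :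
    residue ↥A (p.coeff (N - (i : ℕ))) = X.ppb N (X.canonb hN ν) i := by
  set h : ↥X.W := ⟨((X.canon hN ν : ↥(poleSpace X.cusp N)) : 𝔽), X.canon_mem_W hN ν⟩ with hh
  have hmem : Polynomial.aeval X.τ (p.map A.subtype) ∈ X.W := by
    rw [hp]
    exact X.W.mul_mem _ _ (pow_mem X.τ_mem N) (X.algebraMap_trace_mem_W h)
  have h1 := X.ρ_aeval_τ p hmem
  have h2 : X.ρ ⟨Polynomial.aeval X.τ (p.map A.subtype), hmem⟩ =
      X.τb ^ N * algebraMap ↥(ResidueField ↥A)⟮X.τb⟯ 𝔽b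
        (Algebra.trace ↥(ResidueField ↥A)⟮X.τb⟯ 𝔽b (X.ρ h)) := by
    have h3 : (⟨Polynomial.aeval X.τ (p.map A.subtype), hmem⟩ : ↥X.W) =
        (⟨X.τ, X.τ_mem⟩ : ↥X.W) ^ N *
          ⟨algebraMap ↥Ω⟮X.τ⟯ 𝔽 (Algebra.trace ↥Ω⟮X.τ⟯ 𝔽 (h : 𝔽)),
            X.algebraMap_trace_mem_W h⟩ := Subtype.ext hp
    rw [h3, map_mul, map_pow, X.ρ_algebraMap_trace h]
    rfl
  have hτb0 : X.τb ^ N ≠ 0 := pow_ne_zero _ X.τb_ne_zero
  have hq : algebraMap ↥(ResidueField ↥A)⟮X.τb⟯ 𝔽b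
      (Algebra.trace ↥(ResidueField ↥A)⟮X.τb⟯ 𝔽b (X.ρ h)) =
      (X.τb ^ N)⁻¹ * Polynomial.aeval X.τb (p.map (residue ↥A)) := by
    rw [← h1, h2, ← mul_assoc, inv_mul_cancel₀ hτb0, one_mul]
  have hord := X.ordGE_sub_trace_red (X.canonb hN ν)
  have hcoe : ((X.canonb hN ν : ↥(poleSpace X.cuspb N)) : 𝔽b) = X.ρ h := rfl
  rw [hcoe, hq] at hord
  have h5 := ppMap_eq_coeff_of_ordGE (X.deg_red X.cuspb) X.ord_cuspb_τb N (X.canonb hN ν)
    (p.map (residue ↥A)) (by rw [hcoe]; exact hord) i hi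
  rw [ppb, h5, Polynomial.coeff_map]

end GoodRed

end Fermat.Agent.FG

end
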