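/-
FG — helper5 — [REFL] (R3): the `NormPoly` datum from helper2's [NORMPOLY].
-/
import Mathlib
import Fermat.Agent.FG.REFL_helper5_NP
import Fermat.Agent.FG.NORMPOLY_helper2_Final
import Fermat.Agent.FG.NORMPOLY_helper2_Trace

set_option autoImplicit false
set_option linter.unusedSectionVars false
set_option linter.style.haveILetI false

noncomputable section

namespace Fermat.Agent.FG

open AlgebraicCurve IsLocalRing IntermediateField Fermat.Agent.FF Fermat.Agent.JA
open scoped Classical

namespace GoodRed

variable {Ω : Type*} [Field Ω] {A : ValuationSubring Ω} {𝔽 : Type*} [Field 𝔽] [Algebra Ω 𝔽]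
  {𝔽b : Type*} [Field 𝔽b] [Algebra (ResidueField ↥A) 𝔽b] (X : GoodRed Ω A 𝔽 𝔽b)

variable {N : ℕ} (hN : 2 * (X.g : ℤ) - 1 ≤ N)

/-- **the norm polynomials at level `N`.** -/
def normPolyData [IsAlgClosed Ω] [CharZero Ω] [IsAlgClosed (ResidueField ↥A)] :
    X.NormPoly hN where
  M := X.normPoly hN
  eval_eq := X.sum_normPoly hN
  coeff_mem := X.coeff_normPoly_mem hN
  coeff_rat := fun g hg j m => X.coeff_normPoly_baseAut hN g hg j m
  lin_res := by
    intro i' i hi h
    by_cases h' : i' ∈ X.nongaps N ∧ i' ≠ 0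
    · rw [dif_pos h']
      -- the polynomial of linear coefficients
      let p : Polynomial ↥A := ∑ j : Fin (N + 1),
        Polynomial.C (⟨MvPolynomial.coeff (Finsupp.single i' 1) (X.normPoly hN j),
          X.coeff_normPoly_mem hN j _⟩ : ↥A) * Polynomial.X ^ (j : ℕ)
      have hp : Polynomial.aeval X.τ (p.map A.subtype) = X.τ ^ N * algebraMap ↥Ω⟮X.τ⟯ 𝔽
          (Algebra.trace ↥Ω⟮X.τ⟯ 𝔽 ((X.canon hN ⟨i', h'.1⟩ : ↥(poleSpace X.cusp N)) : 𝔽)) := by
        rw [← X.sum_coeff_single_normPoly hN ⟨i', h'.1⟩ h'.2]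
        show Polynomial.aeval X.τ (Polynomial.map A.subtype (∑ j : Fin (N + 1),
          Polynomial.C (⟨MvPolynomial.coeff (Finsupp.single i' 1) (X.normPoly hN j),
            X.coeff_normPoly_mem hN j _⟩ : ↥A) * Polynomial.X ^ (j : ℕ))) = _
        rw [Polynomial.map_sum, map_sum]
        refine Finset.sum_congr rfl fun j _ => ?_
        rw [Polynomial.map_mul, Polynomial.map_C, Polynomial.map_pow, Polynomial.map_X, map_mul,
          Polynomial.aeval_C, map_pow, Polynomial.aeval_X]
        rfl
      have key := X.residue_coeff_trace_canon hN ⟨i', h'.1⟩ p hp i hi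
      rw [← key]
      congr 1
      apply Subtype.ext
      have hcoef : p.coeff (N - (i : ℕ)) = ⟨MvPolynomial.coeff (Finsupp.single i' 1)
          (X.normPoly hN (Fin.rev i)), X.coeff_normPoly_mem hN _ _⟩ := by
        show Polynomial.coeff (∑ j : Fin (N + 1), Polynomial.C (⟨MvPolynomial.coeff
          (Finsupp.single i' 1) (X.normPoly hN j), X.coeff_normPoly_mem hN j _⟩ : ↥A)
            * Polynomial.X ^ (j : ℕ)) _ = _
        rw [Polynomial.finsetSum_coeff, Finset.sum_eq_single (Fin.rev i)]
        · rw [Polynomial.coeff_C_mul_X_pow, if_pos]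
          rw [Fin.val_rev]
          omega
        · intro j _ hne
          rw [Polynomial.coeff_C_mul_X_pow, if_neg]
          intro hj
          apply hne
          apply Fin.ext
          rw [Fin.val_rev]
          omega
        · intro hn
          exact absurd (Finset.mem_univ _) hn
      rw [hcoef]
      exact lin_eq_coeff i' _
    · rw [dif_neg h']
      have h0 : lin i' (X.normPoly hN (Fin.rev i)) = 0 := by
        rw [lin_eq_coeff]
        apply X.coeff_single_normPoly_of_not hN
        by_contra hcon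
        push Not at hcon
        exact h' ⟨hcon.1, hcon.2⟩
      have : (⟨lin i' (X.normPoly hN (Fin.rev i)), h⟩ : ↥A) = 0 := Subtype.ext h0
      rw [this, map_zero]

end GoodRed

end Fermat.Agent.FG

end
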