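/-
FG — helper5 — [REFL] (R7, assembly): the chart of the kernel of reduction, `X.chartOf hens`.
-/
import Mathlib
import Fermat.Agent.FG.NFCHART_helper2_Main
import Fermat.Agent.FG.REFL_helper5_AddSol
import Fermat.Agent.FG.REFL_helper5_NPmk

set_option autoImplicit false
set_option linter.unusedSectionVars false
set_option linter.style.haveILetI false

noncomputable section

namespace Fermat.Agent.FG

open AlgebraicCurve IsLocalRing IntermediateField Fermat.Agent.FF Fermat.Agent.JA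
open scoped Classical

namespace GoodRed

variable {Ω : Type*} [Field Ω] {A : ValuationSubring Ω} {𝔽 : Type*} [Field 𝔽] [Algebra Ω 𝔽]
  {𝔽b : Type*} [Field 𝔽b] [Algebra (ResidueField ↥A) 𝔽b] (X : GoodRed Ω A 𝔽 𝔽b)
  [IsAlgClosed Ω] [CharZero Ω]

/-- the level of the chart: `n = 2g`. -/
def chartN : ℕ := 2 * X.g

theorem chartN_le : 2 * X.g ≤ X.chartN := le_rfl

theorem chartN_two : 2 * (X.g : ℤ) - 1 ≤ (X.chartN + X.chartN : ℕ) := by
  unfold chartN; push_cast; omega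

theorem chartN_three : 2 * (X.g : ℤ) - 1 ≤ (X.chartN + X.chartN + X.chartN : ℕ) := by
  unfold chartN; push_cast; omega

variable {n : ℕ} {hN2 : 2 * (X.g : ℤ) - 1 ≤ (n + n : ℕ)}

/-- the normal form of a class in the kernel of reduction. -/
def nfOf (hens : IsMvHenselian A) (hn : 2 * X.g ≤ n) (NP2 : X.NormPoly hN2)
    (z : ↥X.kerRed) : Fin (n + 1) → Ω :=
  (X.existsUnique_isNF hens hn NP2 z.2).exists.choose

theorem isNF_nfOf (hens : IsMvHenselian A) (hn : 2 * X.g ≤ n) (NP2 : X.NormPoly hN2)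
    (z : ↥X.kerRed) : X.IsNF n (z : Pic0 Ω 𝔽) (X.nfOf hens hn NP2 z) :=
  (X.existsUnique_isNF hens hn NP2 z.2).exists.choose_spec

theorem nfOf_eq (hens : IsMvHenselian A) (hn : 2 * X.g ≤ n) (NP2 : X.NormPoly hN2)
    (z : ↥X.kerRed) {y : Fin (n + 1) → Ω} (h : X.IsNF n (z : Pic0 Ω 𝔽) y) :
    X.nfOf hens hn NP2 z = y :=
  (X.existsUnique_isNF hens hn NP2 z.2).unique (X.isNF_nfOf hens hn NP2 z) h

theorem IsNF.eq_cls {z z' : Pic0 Ω 𝔽} {y : Fin (n + 1) → Ω} (h : X.IsNF n z y)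
    (h' : X.IsNF n z' y) : z = z' := by
  obtain ⟨_, _, h1, h2⟩ := h
  obtain ⟨_, _, h1', h2'⟩ := h'
  rw [← h2, ← h2']

theorem nfOf_injective (hens : IsMvHenselian A) (hn : 2 * X.g ≤ n) (NP2 : X.NormPoly hN2) :
    Function.Injective (X.nfOf hens hn NP2) := by
  intro z z' h
  apply Subtype.ext
  have h1 := X.isNF_nfOf hens hn NP2 z
  have h2 := X.isNF_nfOf hens hn NP2 z'
  rw [h] at h1
  exact IsNF.eq_cls X h1 h2

theorem ker_stable_of_isNF (hens : IsMvHenselian A) (hn : 2 * X.g ≤ n) (NP2 : X.NormPoly hN2)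
    (g : SemilinearAut Ω 𝔽) (hg : X.IsAut g) (z : Pic0 Ω 𝔽) (hz : z ∈ X.kerRed) :
    g • z ∈ X.kerRed :=
  IsNF.mem_kerRed X (IsNF.smul X g hg (X.isNF_nfOf hens hn NP2 ⟨z, hz⟩))

theorem nfOf_smul (hens : IsMvHenselian A) (hn : 2 * X.g ≤ n) (NP2 : X.NormPoly hN2)
    (g : SemilinearAut Ω 𝔽) (hg : X.IsAut g) (z : ↥X.kerRed) (i : Fin (n + 1)) :
    X.nfOf hens hn NP2 ⟨g • (z : Pic0 Ω 𝔽), X.ker_stable_of_isNF hens hn NP2 g hg z.1 z.2⟩ i
      = SemilinearAut.baseAut g (X.nfOf hens hn NP2 z i) := by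
  have := X.nfOf_eq hens hn NP2
    ⟨g • (z : Pic0 Ω 𝔽), X.ker_stable_of_isNF hens hn NP2 g hg z.1 z.2⟩
    (IsNF.smul X g hg (X.isNF_nfOf hens hn NP2 z))
  rw [this]

variable {hN3 : 2 * (X.g : ℤ) - 1 ≤ (n + n + n : ℕ)}

theorem addS_coeff_mem (NP3 : X.NormPoly hN3) (NP2 : X.NormPoly hN2) (j : Kap n ⊕ Fin (n + 1))
    (m : AVar n →₀ ℕ) : MvPolynomial.coeff m (X.addS NP3 NP2 j) ∈ A :=
  coeff_mem_of_mem_polyOver (B := A.toSubring)
    (X.addS_mem_polyOver NP3 NP2 A.toSubring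
      (fun j => mem_polyOver_of_coeff_mem (fun m => NP3.coeff_mem j m))
      (fun j => mem_polyOver_of_coeff_mem (fun m => NP2.coeff_mem j m)) j) m

theorem addS_coeff_rat (NP3 : X.NormPoly hN3) (NP2 : X.NormPoly hN2) (g : SemilinearAut Ω 𝔽)
    (hg : X.IsRatAut g) (j : Kap n ⊕ Fin (n + 1)) (m : AVar n →₀ ℕ) :
    SemilinearAut.baseAut g (MvPolynomial.coeff m (X.addS NP3 NP2 j))
      = MvPolynomial.coeff m (X.addS NP3 NP2 j) :=
  coeff_mem_of_mem_polyOver
    (B := RingHom.eqLocus ((SemilinearAut.baseAut g : Ω ≃+* Ω) : Ω →+* Ω) (RingHom.id Ω))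
    (X.addS_mem_polyOver NP3 NP2 _
      (fun j => mem_polyOver_of_coeff_mem (fun m => NP3.coeff_rat g hg j m))
      (fun j => mem_polyOver_of_coeff_mem (fun m => NP2.coeff_rat g hg j m)) j) m

theorem addS_sol_nfOf (hens : IsMvHenselian A) (hn : 2 * X.g ≤ n) (NP3 : X.NormPoly hN3)
    (NP2 : X.NormPoly hN2) (z z' : ↥X.kerRed) :
    ∃ aux : Kap n → Ω, (∀ l, aux l ∈ A.nonunits) ∧
      ∀ j, MvPolynomial.eval (Sum.elim (Sum.elim (X.nfOf hens hn NP2 z) (X.nfOf hens hn NP2 z'))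
        (Sum.elim aux (X.nfOf hens hn NP2 (z + z')))) (X.addS NP3 NP2 j) = 0 := by
  have h := X.isNF_nfOf hens hn NP2 z
  have h' := X.isNF_nfOf hens hn NP2 z'
  have h'' := X.isNF_nfOf hens hn NP2 (z + z')
  have hw := X.isNF_nfOf hens hn NP2 (-(z + z'))
  refine X.addS_sol NP3 NP2 h.1 h'.1 h''.1 hw.1 h''.2.1
    (IsNF.isPrincipal_three X h h' hw ?_) (IsNF.isPrincipal_two X hw h'' ?_)
  · push_cast
    abel
  · push_cast
    abel

/-- **[REFL] deliverable: the chart of the kernel of reduction.** -/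
def chartOf [IsAlgClosed (ResidueField ↥A)] (hens : IsMvHenselian A) : X.Chart where
  ι := Fin (X.chartN + 1)
  y := X.nfOf hens X.chartN_le (X.normPolyData X.chartN_two)
  y_mem := fun z i => (X.isNF_nfOf hens X.chartN_le (X.normPolyData X.chartN_two) z).1 i
  y_injective := X.nfOf_injective hens X.chartN_le (X.normPolyData X.chartN_two)
  ker_stable := X.ker_stable_of_isNF hens X.chartN_le (X.normPolyData X.chartN_two)
  y_smul := X.nfOf_smul hens X.chartN_le (X.normPolyData X.chartN_two)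
  κ := Kap X.chartN
  S := X.addS (X.normPolyData X.chartN_three) (X.normPolyData X.chartN_two)
  S_int := X.addS_coeff_mem _ _
  S_rat := X.addS_coeff_rat _ _
  S_zero := X.constantCoeff_addS _ _
  S_jac := X.valuation_det_addJac _ _ X.chartN_le
  S_sol := X.addS_sol_nfOf hens X.chartN_le _ _

end GoodRed

end Fermat.Agent.FG

end
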