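/-
[HENSEL] for S19 (helper2), part 3: **(H3)** isolated zeros of polynomial systems are algebraic.

`K ⊆ L` fields (any characteristic), `G : ι → MvPolynomial ι K` a square polynomial system,
`x : ι → L` a zero with `det (Jac G)(x) ≠ 0`.  Then all `x i` are algebraic (even separable)
over `K`: the Kähler differentials of `K(x)/K` vanish, so `K(x)/K` is formally unramified and
essentially of finite type, hence finite separable.

* `derivation_aeval` : chain rule `D (g(x)) = ∑ j, (∂_j g)(x) • D (x j)`;
* `isSeparable_adjoin_of_isolated_zero`, `isAlgebraic_of_isolated_zero`,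
  `isIntegral_of_isolated_zero`, `isSeparable_of_isolated_zero`.
-/
import Mathlib
import Fermat.Agent.FG.HENSEL_helper2_Taylor

set_option autoImplicit false
set_option linter.unusedSectionVars false

namespace Fermat.Agent.FG

open MvPolynomial

noncomputable section

variable {ι : Type*} [Fintype ι] [DecidableEq ι]

/-- chain rule for derivations on values of polynomials -/
theorem derivation_aeval {K A M : Type*} [CommRing K] [CommRing A] [Algebra K A]
    [AddCommGroup M] [Module A M] [Module K M] [IsScalarTower K A M]
    (D : Derivation K A M) (x : ι → A) (g : MvPolynomial ι K) :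
    D (aeval x g) = ∑ j, aeval x (pderiv j g) • D (x j) := by
  induction g using MvPolynomial.induction_on with
  | C a =>
    rw [aeval_C, Derivation.map_algebraMap]
    symm
    refine Finset.sum_eq_zero fun j _ => ?_
    rw [pderiv_C, map_zero, zero_smul]
  | add p q hp hq =>
    simp only [map_add, add_smul, Finset.sum_add_distrib, hp, hq]
  | mul_X p k hp =>
    rw [map_mul, aeval_X, Derivation.leibniz, hp]
    have : ∀ j, aeval x (pderiv j (p * X k)) • D (x j) =
        x k • (aeval x (pderiv j p) • D (x j)) + (if j = k then aeval x p • D (x j) else 0) := by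
      intro j
      rw [pderiv_mul, pderiv_X, map_add, map_mul, map_mul, aeval_X, add_smul]
      by_cases hjk : j = k
      · subst hjk
        rw [Pi.single_eq_same, map_one, if_pos rfl, mul_one, smul_smul, mul_comm]
      · rw [Pi.single_eq_of_ne (Ne.symm hjk), map_zero, if_neg hjk, mul_zero, zero_smul,
          smul_smul, mul_comm]
    simp only [this, Finset.sum_add_distrib, ← Finset.smul_sum, Finset.sum_ite_eq',
      Finset.mem_univ, if_true]
    rw [add_comm]

/-- an invertible matrix acts injectively on vectors in a module -/
theorem eq_zero_of_matrix_smul_eq_zero {A M : Type*} [CommRing A] [AddCommGroup M] [Module A M]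
    (N : Matrix ι ι A) (hN : IsUnit N.det) (v : ι → M) (h : ∀ i, ∑ j, N i j • v j = 0) (k : ι) :
    v k = 0 := by
  have hinv : N⁻¹ * N = 1 := Matrix.nonsing_inv_mul _ hN
  have h1 : v k = ∑ i, (N⁻¹ * N) k i • v i := by
    rw [hinv, Finset.sum_eq_single k]
    · rw [Matrix.one_apply_eq, one_smul]
    · intro i _ hik
      rw [Matrix.one_apply_ne hik.symm, zero_smul]
    · intro hk
      exact absurd (Finset.mem_univ k) hk
  rw [h1]
  simp only [Matrix.mul_apply, Finset.sum_smul]
  rw [Finset.sum_comm]
  refine Finset.sum_eq_zero fun j _ => ?_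
  simp only [mul_smul]
  rw [← Finset.smul_sum, h j, smul_zero]

variable {K L : Type*} [Field K] [Field L] [Algebra K L]

/-- **(H3)** the field generated by an isolated zero of a polynomial system is separable
algebraic over the base field -/
theorem isSeparable_adjoin_of_isolated_zero (G : ι → MvPolynomial ι K) (x : ι → L)
    (hx : ∀ i, aeval x (G i) = 0) (hJ : ((polyJac G).map (aeval x)).det ≠ 0) :
    Algebra.IsSeparable K (IntermediateField.adjoin K (Set.range x)) := by
  set E : IntermediateField K L := IntermediateField.adjoin K (Set.range x) with hE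
  have hxE : ∀ i, x i ∈ E := fun i => IntermediateField.subset_adjoin K _ ⟨i, rfl⟩
  set y : ι → E := fun i => ⟨x i, hxE i⟩ with hy
  have hval : ∀ g : MvPolynomial ι K, ((aeval y g : E) : L) = aeval x g := fun g => by
    exact comp_aeval_apply (f := y) E.val g
  have hy0 : ∀ i, aeval y (G i) = 0 := fun i => by
    apply Subtype.ext
    rw [hval, hx]
    rfl
  -- the Jacobian over `E`
  set N : Matrix ι ι E := (polyJac G).map (aeval y) with hN
  have hNdet : IsUnit N.det := by
    rw [isUnit_iff_ne_zero]
    intro h0
    apply hJ
    have h1 : ((polyJac G).map (aeval x)) = (E.val.toRingHom).mapMatrix N := by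
      ext i j
      simp only [RingHom.mapMatrix_apply, Matrix.map_apply, hN]
      exact (hval _).symm
    rw [h1, ← RingHom.map_det, h0, map_zero]
  -- all differentials vanish
  let D := KaehlerDifferential.D K E
  have hDy : ∀ k, D (y k) = 0 := by
    refine eq_zero_of_matrix_smul_eq_zero N hNdet (fun j => D (y j)) fun i => ?_
    have := derivation_aeval D y (G i)
    rw [hy0, map_zero] at this
    exact this.symm
  have hD : ∀ e : E, D e = 0 := by
    rintro ⟨e, he⟩
    induction he using IntermediateField.adjoin_induction with
    | mem z hz =>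
      obtain ⟨i, rfl⟩ := hz
      exact hDy i
    | algebraMap a => exact Derivation.map_algebraMap D a
    | add a b ha hb iha ihb =>
      have : (⟨a + b, add_mem ha hb⟩ : E) = ⟨a, ha⟩ + ⟨b, hb⟩ := rfl
      rw [this, map_add, iha, ihb, add_zero]
    | inv a ha iha =>
      have : (⟨a⁻¹, inv_mem ha⟩ : E) = (⟨a, ha⟩ : E)⁻¹ := rfl
      rw [this, Derivation.leibniz_inv, iha, smul_zero]
    | mul a b ha hb iha ihb =>
      have : (⟨a * b, mul_mem ha hb⟩ : E) = ⟨a, ha⟩ * ⟨b, hb⟩ := rfl
      rw [this, Derivation.leibniz, iha, ihb, smul_zero, smul_zero, add_zero]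
  have hsub : Subsingleton (Ω[E⁄K]) := by
    suffices (⊤ : Submodule E (Ω[E⁄K])) ≤ ⊥ from
      (subsingleton_iff_forall_eq 0).mpr fun z => this trivial
    rw [← KaehlerDifferential.span_range_derivation, Submodule.span_le]
    rintro _ ⟨e, rfl⟩
    exact hD e
  have hunr : Algebra.FormallyUnramified K E := ⟨hsub⟩
  have hess : Algebra.EssFiniteType K E := by
    rw [IntermediateField.essFiniteType_iff]
    exact ⟨(Set.finite_range x).toFinset, by rw [Set.Finite.coe_toFinset]⟩
  exact Algebra.FormallyUnramified.isSeparable K E

/-- **(H3)** an isolated zero of a polynomial system has separable coordinates -/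
theorem isSeparable_of_isolated_zero (G : ι → MvPolynomial ι K) (x : ι → L)
    (hx : ∀ i, aeval x (G i) = 0) (hJ : ((polyJac G).map (aeval x)).det ≠ 0) (i : ι) :
    IsSeparable K (x i) := by
  have := isSeparable_adjoin_of_isolated_zero G x hx hJ
  have h1 := Algebra.IsSeparable.isSeparable K
    (⟨x i, IntermediateField.subset_adjoin K _ ⟨i, rfl⟩⟩ :
      IntermediateField.adjoin K (Set.range x))
  rw [IsSeparable] at h1 ⊢
  rw [IntermediateField.minpoly_eq] at h1
  exact h1

/-- **(H3)** an isolated zero of a polynomial system has integral coordinates -/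
theorem isIntegral_of_isolated_zero (G : ι → MvPolynomial ι K) (x : ι → L)
    (hx : ∀ i, aeval x (G i) = 0) (hJ : ((polyJac G).map (aeval x)).det ≠ 0) (i : ι) :
    IsIntegral K (x i) :=
  (isSeparable_of_isolated_zero G x hx hJ i).isIntegral

/-- **(H3)** an isolated zero of a polynomial system has algebraic coordinates -/
theorem isAlgebraic_of_isolated_zero (G : ι → MvPolynomial ι K) (x : ι → L)
    (hx : ∀ i, aeval x (G i) = 0) (hJ : ((polyJac G).map (aeval x)).det ≠ 0) (i : ι) :
    IsAlgebraic K (x i) :=
  (isIntegral_of_isolated_zero G x hx hJ i).isAlgebraic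

end

end Fermat.Agent.FG
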