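/-
[EVAL] for S19/S32 (helper2), part 1: the closed unit ball of a (complete) ultrametric normed field
as a complete linearly topologised ring, so that Mathlib's `MvPowerSeries.eval₂` applies.

* `unitBall K : Subring K` (`‖x‖ ≤ 1`), `ballIdeal K ε hε : Ideal (unitBall K)` (`‖x‖ ≤ ε`);
* instances `IsLinearTopology (unitBall K) (unitBall K)`, `CompleteSpace (unitBall K)`;
* `hasEval_unitBall_iff : HasEval x ↔ ∀ s, ‖(x s : K)‖ < 1` for finitely many variables.
-/
import Mathlib

set_option autoImplicit false
set_option linter.unusedSectionVars false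

namespace Fermat.Agent.FG

open MvPowerSeries Filter Topology

noncomputable section

variable (K : Type*) [NormedField K] [IsUltrametricDist K]

/-- the closed unit ball of an ultrametric normed field, as a subring -/
def unitBall : Subring K where
  carrier := {x | ‖x‖ ≤ 1}
  mul_mem' {a b} ha hb := by
    simp only [Set.mem_ofPred_eq] at ha hb ⊢
    rw [norm_mul]
    exact mul_le_one₀ ha (norm_nonneg _) hb
  one_mem' := by simp
  add_mem' {a b} ha hb := by
    simp only [Set.mem_ofPred_eq] at ha hb ⊢
    exact (IsUltrametricDist.norm_add_le_max a b).trans (max_le ha hb)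
  zero_mem' := by simp
  neg_mem' {a} ha := by simpa using ha

variable {K}

theorem mem_unitBall_iff {x : K} : x ∈ unitBall K ↔ ‖x‖ ≤ 1 := Iff.rfl

theorem norm_coe_unitBall_le (x : unitBall K) : ‖(x : K)‖ ≤ 1 := x.2

/-- the ideal of elements of norm `≤ ε` -/
def ballIdeal (K : Type*) [NormedField K] [IsUltrametricDist K] (ε : ℝ) (hε : 0 ≤ ε) :
    Ideal (unitBall K) where
  carrier := {x | ‖(x : K)‖ ≤ ε}
  add_mem' {a b} ha hb := by
    simp only [Set.mem_ofPred_eq] at ha hb ⊢
    rw [Subring.coe_add]
    exact (IsUltrametricDist.norm_add_le_max _ _).trans (max_le ha hb)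
  zero_mem' := by simpa using hε
  smul_mem' c {x} hx := by
    simp only [Set.mem_ofPred_eq, smul_eq_mul, Subring.coe_mul, norm_mul] at hx ⊢
    calc ‖(c : K)‖ * ‖(x : K)‖ ≤ 1 * ‖(x : K)‖ :=
          mul_le_mul_of_nonneg_right c.2 (norm_nonneg _)
      _ = ‖(x : K)‖ := one_mul _
      _ ≤ ε := hx

theorem mem_ballIdeal_iff {ε : ℝ} {hε : 0 ≤ ε} {x : unitBall K} :
    x ∈ ballIdeal K ε hε ↔ ‖(x : K)‖ ≤ ε := Iff.rfl

instance : IsLinearTopology (unitBall K) (unitBall K) := by
  have hb : (𝓝 (0 : unitBall K)).HasBasis (fun ε : ℝ => 0 < ε)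
      (fun ε => {x : unitBall K | ‖(x : K)‖ ≤ ε}) := by
    have := (Metric.nhds_basis_closedBall (x := (0 : K))).comap (Subtype.val : unitBall K → K)
    rw [← nhds_subtype_eq_comap] at this
    refine this.to_hasBasis (fun ε hε => ⟨ε, hε, ?_⟩) (fun ε hε => ⟨ε, hε, ?_⟩)
    · intro x hx
      simpa [Metric.mem_closedBall, dist_zero_right] using hx
    · intro x hx
      simpa [Metric.mem_closedBall, dist_zero_right] using hx
  rw [isLinearTopology_iff_hasBasis_ideal]
  refine hb.to_hasBasis (fun ε hε => ⟨ballIdeal K ε hε.le, ?_, ?_⟩) (fun I hI => ?_)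
  · exact hb.mem_of_mem hε
  · intro x hx; exact hx
  · obtain ⟨ε, hε, h⟩ := hb.mem_iff.1 hI
    exact ⟨ε, hε, h⟩

instance [CompleteSpace K] : CompleteSpace (unitBall K) := by
  have : IsClosed ((unitBall K : Subring K) : Set K) := by
    have : ((unitBall K : Subring K) : Set K) = Metric.closedBall 0 1 := by
      ext x; simp [mem_unitBall_iff, Metric.mem_closedBall]
    rw [this]
    exact Metric.isClosed_closedBall
  exact this.completeSpace_coe

example : IsTopologicalRing (unitBall K) := inferInstance
example : IsUniformAddGroup (unitBall K) := inferInstance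
example : T2Space (unitBall K) := inferInstance

theorem tendsto_unitBall_iff {α : Type*} {l : Filter α} {f : α → unitBall K} {a : unitBall K} :
    Tendsto f l (𝓝 a) ↔ Tendsto (fun x => (f x : K)) l (𝓝 (a : K)) :=
  tendsto_subtype_rng

theorem isTopologicallyNilpotent_unitBall {x : unitBall K} (hx : ‖(x : K)‖ < 1) :
    IsTopologicallyNilpotent x := by
  rw [IsTopologicallyNilpotent, tendsto_unitBall_iff]
  simp only [Subring.coe_pow, Subring.coe_zero]
  exact tendsto_pow_atTop_nhds_zero_of_norm_lt_one hx

/-- for finitely many variables, points of the open unit ball can be substituted into power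
series -/
theorem hasEval_unitBall {σ : Type*} [Finite σ] {x : σ → unitBall K}
    (hx : ∀ s, ‖(x s : K)‖ < 1) : HasEval x where
  hpow s := isTopologicallyNilpotent_unitBall (hx s)
  tendsto_zero := by
    rw [Filter.cofinite_eq_bot]
    exact tendsto_bot

theorem norm_lt_one_of_isTopologicallyNilpotent {x : unitBall K}
    (hx : IsTopologicallyNilpotent x) : ‖(x : K)‖ < 1 := by
  rw [IsTopologicallyNilpotent, tendsto_unitBall_iff] at hx
  simp only [Subring.coe_pow, Subring.coe_zero] at hx
  by_contra h
  have h1 : ‖(x : K)‖ = 1 := le_antisymm x.2 (not_lt.1 h)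
  have h2 := hx.norm
  simp only [norm_pow, h1, one_pow, norm_zero] at h2
  exact one_ne_zero (tendsto_nhds_unique tendsto_const_nhds h2)

theorem hasEval_unitBall_iff {σ : Type*} [Finite σ] {x : σ → unitBall K} :
    HasEval x ↔ ∀ s, ‖(x s : K)‖ < 1 :=
  ⟨fun h s => norm_lt_one_of_isTopologicallyNilpotent (h.hpow s), hasEval_unitBall⟩

end

end Fermat.Agent.FG
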