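/-
[HENSEL] for S19 (helper2), part 4: the closed unit ball `unitBall K` of a complete ultrametric
normed field is `π`-adically complete for every `0 < ‖π‖ < 1`, hence multivariate Hensel holds
on the open unit polydisc (note: `unitBall K` is in general NOT `𝔪`-adically complete, e.g.
`K = ℂ_p` where `𝔪 = 𝔪²`).

* `mem_span_pow_iff_norm_le`, `isAdicComplete_unitBall`;
* `hensel_mv_ball` : `G` over `unitBall K`, `‖G_i(0)‖ < 1`, `det (Jac G)(0)` a unit  ⇒  there is a
  zero `x` with `‖x_i‖ < 1`, and `det (Jac G)(x)` is a unit;  `hensel_mv_ball_unique`.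
-/
import Mathlib
import Fermat.Agent.FG.EVAL_helper2_Ball
import Fermat.Agent.FG.HENSEL_helper2_Newton

set_option autoImplicit false
set_option linter.unusedSectionVars false

namespace Fermat.Agent.FG

open MvPolynomial Filter Topology

noncomputable section

variable {K : Type*} [NormedField K] [IsUltrametricDist K]

theorem mem_span_pow_iff_norm_le (π : unitBall K) (hπ : (π : K) ≠ 0) (n : ℕ) (x : unitBall K) :
    x ∈ Ideal.span {π} ^ n ↔ ‖(x : K)‖ ≤ ‖(π : K)‖ ^ n := by
  rw [Ideal.span_singleton_pow, Ideal.mem_span_singleton']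
  constructor
  · rintro ⟨c, rfl⟩
    rw [Subring.coe_mul, Subring.coe_pow, norm_mul, norm_pow]
    calc ‖(c : K)‖ * ‖(π : K)‖ ^ n ≤ 1 * ‖(π : K)‖ ^ n :=
          mul_le_mul_of_nonneg_right c.2 (pow_nonneg (norm_nonneg _) n)
      _ = ‖(π : K)‖ ^ n := one_mul _
  · intro h
    have hπn : (π : K) ^ n ≠ 0 := pow_ne_zero n hπ
    refine ⟨⟨(x : K) / (π : K) ^ n, ?_⟩, ?_⟩
    · rw [mem_unitBall_iff, norm_div, norm_pow]
      exact div_le_one_of_le₀ h (pow_nonneg (norm_nonneg _) n)
    · apply Subtype.ext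
      rw [Subring.coe_mul, Subring.coe_pow]
      exact div_mul_cancel₀ _ hπn

theorem smodEq_span_pow_iff (π : unitBall K) (hπ : (π : K) ≠ 0) (n : ℕ) (a b : unitBall K) :
    a ≡ b [SMOD (Ideal.span {π} ^ n • ⊤ : Ideal (unitBall K))] ↔
      ‖(a : K) - b‖ ≤ ‖(π : K)‖ ^ n := by
  rw [smodEq_pow_iff, mem_span_pow_iff_norm_le π hπ, AddSubgroupClass.coe_sub]

/-- the unit ball of a complete ultrametric normed field is `π`-adically complete -/
theorem isAdicComplete_unitBall [CompleteSpace K] (π : unitBall K) (hπ : (π : K) ≠ 0)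
    (hπ1 : ‖(π : K)‖ < 1) : IsAdicComplete (Ideal.span {π}) (unitBall K) := by
  have hr0 : 0 ≤ ‖(π : K)‖ := norm_nonneg _
  have hlim : Tendsto (fun n : ℕ => ‖(π : K)‖ ^ n) atTop (𝓝 0) :=
    tendsto_pow_atTop_nhds_zero_of_lt_one hr0 hπ1
  refine { haus' := ?_, prec' := ?_ }
  · intro x hx
    have h1 : ∀ n : ℕ, ‖(x : K)‖ ≤ ‖(π : K)‖ ^ n := fun n => by
      have := (smodEq_span_pow_iff π hπ n x 0).1 (hx n)
      simpa using this
    have h2 : ‖(x : K)‖ ≤ 0 := ge_of_tendsto' hlim h1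
    apply Subtype.ext
    exact norm_le_zero_iff.1 h2
  · intro f hf
    have hf' : ∀ {m n : ℕ}, m ≤ n → ‖(f m : K) - f n‖ ≤ ‖(π : K)‖ ^ m := fun {m n} hmn =>
      (smodEq_span_pow_iff π hπ m (f m) (f n)).1 (hf hmn)
    have hc : CauchySeq f := by
      refine cauchySeq_of_le_geometric ‖(π : K)‖ 1 hπ1 fun n => ?_
      rw [one_mul, Subtype.dist_eq, dist_eq_norm]
      exact hf' (Nat.le_succ n)
    obtain ⟨L, hL⟩ := cauchySeq_tendsto_of_complete hc
    refine ⟨L, fun n => ?_⟩
    rw [smodEq_span_pow_iff π hπ]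
    have hL' : Tendsto (fun m => ‖(f n : K) - f m‖) atTop (𝓝 ‖(f n : K) - L‖) := by
      have h1 : Tendsto (fun m => (f m : K)) atTop (𝓝 (L : K)) := tendsto_unitBall_iff.1 hL
      exact (tendsto_const_nhds.sub h1).norm
    refine le_of_tendsto hL' ?_
    filter_upwards [eventually_ge_atTop n] with m hm
    exact hf' hm

variable {ι : Type*} [Fintype ι] [DecidableEq ι]

/-- **multivariate Hensel on the open unit polydisc** of a complete ultrametric normed field -/
theorem hensel_mv_ball [CompleteSpace K] (G : ι → MvPolynomial ι (unitBall K))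
    (h0 : ∀ i, ‖((eval (0 : ι → unitBall K) (G i) : unitBall K) : K)‖ < 1)
    (hJ : IsUnit ((polyJac G).map (eval (0 : ι → unitBall K))).det) :
    ∃ x : ι → unitBall K, (∀ i, ‖(x i : K)‖ < 1) ∧ (∀ i, eval x (G i) = 0) ∧
      IsUnit ((polyJac G).map (eval x)).det := by
  by_cases hall : ∀ i, eval (0 : ι → unitBall K) (G i) = 0
  · exact ⟨0, fun i => by simp, hall, hJ⟩
  · push Not at hall
    obtain ⟨i1, hi1⟩ := hall
    obtain ⟨i0, -, hi0⟩ := Finset.exists_max_image Finset.univ
      (fun i => ‖((eval (0 : ι → unitBall K) (G i) : unitBall K) : K)‖) ⟨i1, Finset.mem_univ _⟩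
    set π : unitBall K := eval (0 : ι → unitBall K) (G i0) with hπdef
    have hπ : (π : K) ≠ 0 := by
      intro h
      have h1 := hi0 i1 (Finset.mem_univ _)
      rw [h, norm_zero] at h1
      have h2 : ((eval (0 : ι → unitBall K) (G i1) : unitBall K) : K) = 0 :=
        norm_le_zero_iff.1 h1
      exact hi1 (Subtype.ext h2)
    have hπ1 : ‖(π : K)‖ < 1 := h0 i0
    haveI := isAdicComplete_unitBall π hπ hπ1
    have hI : ∀ y : unitBall K, y ∈ Ideal.span {π} ↔ ‖(y : K)‖ ≤ ‖(π : K)‖ := fun y => by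
      have := mem_span_pow_iff_norm_le π hπ 1 y
      rwa [pow_one, pow_one] at this
    obtain ⟨x, hx1, hx2⟩ := hensel_mv_ideal (Ideal.span {π}) G
      ((polyJac G).map (eval (0 : ι → unitBall K)))⁻¹ 0
      (fun i => (hI _).2 (hi0 i (Finset.mem_univ _))) (fun i j => by
        rw [Matrix.mul_nonsing_inv _ hJ, sub_self]
        exact Ideal.zero_mem _)
    refine ⟨x, fun i => ?_, hx2, ?_⟩
    · have := (hI _).1 (hx1 i)
      rw [Pi.zero_apply, sub_zero] at this
      exact lt_of_le_of_lt this hπ1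
    · refine isUnit_of_sub_mem_of_le_jacobson
        (IsAdicComplete.le_jacobson_bot (Ideal.span {π})) hJ ?_
      exact det_map_eval_sub_mem _ 0 x hx1 _

/-- the ideal of elements of norm `< 1` is contained in the Jacobson radical -/
theorem isUnit_unitBall_iff {y : unitBall K} : IsUnit y ↔ ‖(y : K)‖ = 1 := by
  constructor
  · rintro ⟨u, rfl⟩
    have h1 : ‖((u : unitBall K) : K)‖ ≤ 1 := (u : unitBall K).2
    have h2 : ‖(((u⁻¹ : (unitBall K)ˣ) : unitBall K) : K)‖ ≤ 1 := ((u⁻¹ : (unitBall K)ˣ) : unitBall K).2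
    have h3 : ((u : unitBall K) : K) * (((u⁻¹ : (unitBall K)ˣ) : unitBall K) : K) = 1 := by
      rw [← Subring.coe_mul, Units.mul_inv, Subring.coe_one]
    have h4 := congrArg norm h3
    rw [norm_mul, norm_one] at h4
    nlinarith [norm_nonneg ((u : unitBall K) : K),
      norm_nonneg (((u⁻¹ : (unitBall K)ˣ) : unitBall K) : K)]
  · intro h
    have hy : (y : K) ≠ 0 := by
      intro h0
      rw [h0, norm_zero] at h
      exact zero_ne_one h
    refine isUnit_iff_exists_inv.2 ⟨⟨(y : K)⁻¹, ?_⟩, ?_⟩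
    · rw [mem_unitBall_iff, norm_inv, h, inv_one]
    · apply Subtype.ext
      rw [Subring.coe_mul, Subring.coe_one]
      exact mul_inv_cancel₀ hy

/-- the ideal of elements of norm `< 1` -/
def openBallIdeal (K : Type*) [NormedField K] [IsUltrametricDist K] : Ideal (unitBall K) where
  carrier := {x | ‖(x : K)‖ < 1}
  add_mem' {a b} ha hb := by
    simp only [Set.mem_ofPred_eq] at ha hb ⊢
    rw [Subring.coe_add]
    exact (IsUltrametricDist.norm_add_le_max _ _).trans_lt (max_lt ha hb)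
  zero_mem' := by simp
  smul_mem' c {x} hx := by
    simp only [Set.mem_ofPred_eq, smul_eq_mul, Subring.coe_mul, norm_mul] at hx ⊢
    calc ‖(c : K)‖ * ‖(x : K)‖ ≤ 1 * ‖(x : K)‖ :=
          mul_le_mul_of_nonneg_right c.2 (norm_nonneg _)
      _ = ‖(x : K)‖ := one_mul _
      _ < 1 := hx

theorem mem_openBallIdeal_iff {x : unitBall K} : x ∈ openBallIdeal K ↔ ‖(x : K)‖ < 1 := Iff.rfl

theorem openBallIdeal_le_jacobson : openBallIdeal K ≤ Ideal.jacobson ⊥ := by
  intro x hx
  rw [Ideal.mem_jacobson_bot]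
  intro y
  rw [isUnit_unitBall_iff]
  have h1 : ‖((x * y : unitBall K) : K)‖ < 1 := (openBallIdeal K).mul_mem_right y hx
  have h2 : ‖(((x * y + 1 : unitBall K)) : K)‖ ≤ 1 := (x * y + 1 : unitBall K).2
  refine le_antisymm h2 ?_
  by_contra h3
  push Not at h3
  have h4 : (1 : K) = ((x * y + 1 : unitBall K) : K) - ((x * y : unitBall K) : K) := by
    rw [Subring.coe_add, Subring.coe_one, add_sub_cancel_left]
  have h5 : ‖(1 : K)‖ < 1 := by
    rw [h4, sub_eq_add_neg]
    refine (IsUltrametricDist.norm_add_le_max _ _).trans_lt (max_lt h3 ?_)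
    rwa [norm_neg]
  rw [norm_one] at h5
  exact lt_irrefl _ h5

/-- uniqueness of small zeros on the unit ball (no completeness needed) -/
theorem hensel_mv_ball_unique (G : ι → MvPolynomial ι (unitBall K))
    (hJ : IsUnit ((polyJac G).map (eval (0 : ι → unitBall K))).det) (x x' : ι → unitBall K)
    (hx : ∀ i, ‖(x i : K)‖ < 1) (hx' : ∀ i, ‖(x' i : K)‖ < 1) (hG : ∀ i, eval x (G i) = 0)
    (hG' : ∀ i, eval x' (G i) = 0) : x = x' :=
  hensel_mv_unique_ideal (openBallIdeal K) openBallIdeal_le_jacobson G 0 x x'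
    (fun i => by rw [Pi.zero_apply, sub_zero]; exact hx i)
    (fun i => by rw [Pi.zero_apply, sub_zero]; exact hx' i) hG hG' hJ

end

end Fermat.Agent.FG
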