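/-
[HENS] for S19 (helper2): multivariate Hensel for a valuation subring `A` of an algebraically
closed field `Ω` which is cut out by an embedding `emb : Ω →+* K` into a complete ultrametric
normed field (`A = {a | ‖emb a‖ ≤ 1}`), e.g. `Ω = AlgebraicClosure ℚ`, `A = padicPlace p`,
`K = ℂ_[p]`.

A square polynomial system over `A` whose constant terms lie in `𝔪_A` and whose Jacobian at `0`
is a unit has a zero with all coordinates in `𝔪_A`, and this zero is unique:
solve in `unitBall K` (`hensel_mv_ball`), the solution is algebraic over `Ω` (isolated zero,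
`isAlgebraic_of_isolated_zero`), hence lies in `Ω`.

* `hensel_mv_of_embedding`, `hensel_mv_unique_of_embedding`.
-/
import Mathlib
import Fermat.Agent.FG.HENSEL_helper2_Ball
import Fermat.Agent.FG.HENSEL_helper2_Alg

set_option autoImplicit false
set_option linter.unusedSectionVars false
set_option linter.style.haveILetI false

namespace Fermat.Agent.FG

open MvPolynomial IsLocalRing

noncomputable section

variable {Ω : Type*} [Field Ω] (A : ValuationSubring Ω)
variable {K : Type*} [NormedField K] [IsUltrametricDist K]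

/-- the embedding of the valuation ring into the unit ball -/
def embBall (emb : Ω →+* K) (hA : ∀ a : Ω, a ∈ A ↔ ‖emb a‖ ≤ 1) : ↥A →+* unitBall K :=
  RingHom.codRestrict (emb.comp A.subtype) (unitBall K) fun a => (hA a).1 a.2

theorem coe_embBall (emb : Ω →+* K) (hA : ∀ a : Ω, a ∈ A ↔ ‖emb a‖ ≤ 1) (a : ↥A) : ((embBall A emb hA a : unitBall K) : K) = emb (a : Ω) := rfl

theorem embBall_injective (emb : Ω →+* K) (hA : ∀ a : Ω, a ∈ A ↔ ‖emb a‖ ≤ 1) :
    Function.Injective (embBall A emb hA) := by
  intro a b h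
  have h1 : emb (a : Ω) = emb (b : Ω) := congrArg (fun y : unitBall K => (y : K)) h
  exact Subtype.ext (emb.injective h1)

theorem norm_emb_lt_one_iff (emb : Ω →+* K) (hA : ∀ a : Ω, a ∈ A ↔ ‖emb a‖ ≤ 1) (a : ↥A) :
    ‖emb (a : Ω)‖ < 1 ↔ a ∈ maximalIdeal ↥A := by
  rw [mem_maximalIdeal, mem_nonunits_iff]
  constructor
  · intro h hu
    obtain ⟨b, hb⟩ := isUnit_iff_exists_inv.1 hu
    have h1 : emb (a : Ω) * emb (b : Ω) = 1 := by
      rw [← map_mul]
      have : (a : Ω) * (b : Ω) = 1 := congrArg (fun y : ↥A => (y : Ω)) hb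
      rw [this, map_one]
    have h2 := congrArg norm h1
    rw [norm_mul, norm_one] at h2
    have h3 : ‖emb (b : Ω)‖ ≤ 1 := (hA b).1 b.2
    nlinarith [norm_nonneg (emb (a : Ω)), norm_nonneg (emb (b : Ω))]
  · intro hu
    by_contra h
    have h1 : ‖emb (a : Ω)‖ = 1 := le_antisymm ((hA a).1 a.2) (not_lt.1 h)
    have ha0 : (a : Ω) ≠ 0 := by
      intro h0
      rw [h0, map_zero, norm_zero] at h1
      exact zero_ne_one h1
    have h2 : (a : Ω)⁻¹ ∈ A := by
      rw [hA, map_inv₀, norm_inv, h1, inv_one]
    apply hu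
    refine isUnit_iff_exists_inv.2 ⟨⟨(a : Ω)⁻¹, h2⟩, ?_⟩
    apply Subtype.ext
    show (a : Ω) * (a : Ω)⁻¹ = 1
    exact mul_inv_cancel₀ ha0

variable {ι : Type*} [Fintype ι] [DecidableEq ι]

theorem coe_eval_map_embBall (emb : Ω →+* K) (hA : ∀ a : Ω, a ∈ A ↔ ‖emb a‖ ≤ 1) (x : ι → ↥A)
    (g : MvPolynomial ι ↥A) :
    eval (fun i => embBall A emb hA (x i)) (map (embBall A emb hA) g) =
      embBall A emb hA (eval x g) := by
  rw [eval_map, ← eval₂_id, eval₂_comp_left (embBall A emb hA) (RingHom.id _) x g,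
    RingHom.comp_id]
  rfl

/-- **multivariate Hensel for a valuation ring of an algebraically closed field** which is the
unit ball for an embedding into a complete ultrametric normed field -/
theorem hensel_mv_of_embedding [IsAlgClosed Ω] [CompleteSpace K] (emb : Ω →+* K)
    (hA : ∀ a : Ω, a ∈ A ↔ ‖emb a‖ ≤ 1) (G : ι → MvPolynomial ι ↥A)
    (h0 : ∀ i, constantCoeff (G i) ∈ maximalIdeal ↥A)
    (hJ : IsUnit (Matrix.det (Matrix.of fun i j => constantCoeff (pderiv j (G i))))) :
    ∃ x : ι → ↥A, (∀ i, x i ∈ maximalIdeal ↥A) ∧ ∀ i, eval x (G i) = 0 := by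
  set φ := embBall A emb hA with hφ
  set G' : ι → MvPolynomial ι (unitBall K) := fun i => map φ (G i) with hG'
  -- the hypotheses over the unit ball
  have h0' : ∀ i, ‖((eval (0 : ι → unitBall K) (G' i) : unitBall K) : K)‖ < 1 := fun i => by
    rw [eval_zero, hG', constantCoeff_map]
    exact (norm_emb_lt_one_iff A emb hA _).2 (h0 i)
  have hJac : (polyJac G').map (eval (0 : ι → unitBall K)) =
      φ.mapMatrix (Matrix.of fun i j => constantCoeff (pderiv j (G i))) := by
    ext i j
    simp only [RingHom.mapMatrix_apply, Matrix.map_apply, Matrix.of_apply, polyJac_apply, hG']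
    rw [pderiv_map, eval_zero, constantCoeff_map]
  have hJ' : IsUnit ((polyJac G').map (eval (0 : ι → unitBall K))).det := by
    rw [hJac, ← RingHom.map_det]
    exact hJ.map φ
  obtain ⟨y, hy1, hy2, hy3⟩ := hensel_mv_ball G' h0' hJ'
  -- the solution is algebraic over `Ω`
  letI : Algebra Ω K := emb.toAlgebra
  set G'' : ι → MvPolynomial ι Ω := fun i => map A.subtype (G i) with hG''
  set yK : ι → K := fun i => (y i : K) with hyK
  have hval : ∀ g : MvPolynomial ι ↥A,
      aeval yK (map A.subtype g) = ((eval y (map φ g) : unitBall K) : K) := fun g => by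
    rw [aeval_def, eval₂_map, eval_map]
    have := eval₂_comp_left (unitBall K).subtype φ y g
    rw [Subring.subtype_apply] at this
    rw [this]
    rfl
  have hyK0 : ∀ i, aeval yK (G'' i) = 0 := fun i => by
    rw [hG'', hval]
    have := hy2 i
    rw [hG'] at this
    rw [this]
    rfl
  have hdet : ((polyJac G'').map (aeval yK)).det ≠ 0 := by
    have h1 : (polyJac G'').map (aeval yK) =
        ((unitBall K).subtype).mapMatrix ((polyJac G').map (eval y)) := by
      ext i j
      simp only [RingHom.mapMatrix_apply, Matrix.map_apply, polyJac_apply, hG'', hG',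
        Subring.subtype_apply]
      rw [pderiv_map, pderiv_map, hval]
    rw [h1, ← RingHom.map_det, Subring.subtype_apply]
    have h2 := (isUnit_unitBall_iff (K := K)).1 hy3
    intro h3
    rw [h3, norm_zero] at h2
    exact zero_ne_one h2
  have halg : ∀ i, ∃ z : Ω, emb z = yK i := fun i => by
    have h1 := isIntegral_of_isolated_zero G'' yK hyK0 hdet i
    have h2 := minpoly.mem_range_of_degree_eq_one (A := Ω) (x := yK i)
      (IsAlgClosed.degree_eq_one_of_irreducible Ω (minpoly.irreducible h1))
    obtain ⟨z, hz⟩ := h2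
    exact ⟨z, hz⟩
  choose z hz using halg
  have hzA : ∀ i, z i ∈ A := fun i => by
    rw [hA, hz]
    exact (y i).2
  set x : ι → ↥A := fun i => ⟨z i, hzA i⟩ with hx
  have hxy : ∀ i, φ (x i) = y i := fun i => Subtype.ext (hz i)
  refine ⟨x, fun i => ?_, fun i => ?_⟩
  · rw [← norm_emb_lt_one_iff A emb hA]
    show ‖emb (z i)‖ < 1
    rw [hz]
    exact hy1 i
  · apply embBall_injective A emb hA
    rw [map_zero, ← coe_eval_map_embBall]
    have : (fun i => embBall A emb hA (x i)) = y := funext hxy
    rw [this]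
    exact hy2 i

/-- uniqueness of the small zero (no completeness, no algebraic closedness) -/
theorem hensel_mv_unique_of_embedding (G : ι → MvPolynomial ι ↥A)
    (hJ : IsUnit (Matrix.det (Matrix.of fun i j => constantCoeff (pderiv j (G i)))))
    (x x' : ι → ↥A) (hx : ∀ i, x i ∈ maximalIdeal ↥A) (hx' : ∀ i, x' i ∈ maximalIdeal ↥A)
    (hG : ∀ i, eval x (G i) = 0) (hG' : ∀ i, eval x' (G i) = 0) : x = x' := by
  refine hensel_mv_unique G 0 x x' (fun i => by simpa using hx i) (fun i => by simpa using hx' i)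
    hG hG' ?_
  have : (polyJac G).map (eval (0 : ι → ↥A)) =
      Matrix.of fun i j => constantCoeff (pderiv j (G i)) := by
    ext i j
    simp only [Matrix.map_apply, Matrix.of_apply, polyJac_apply]
    rw [eval_zero]
  rw [this]
  exact hJ

end

end Fermat.Agent.FG
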