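/-
[HENS] for S19 (helper2): `IsMvHenselian (padicPlace p)` — the valuation ring of
`AlgebraicClosure ℚ` at the `p`-adic place has the multivariable Hensel property
(via the embedding into `ℂ_[p]`).

* `hensel_mv_padicPlace`, `hensel_mv_unique_padicPlace` (any finite index type);
* `isMvHenselian_padicPlace : IsMvHenselian (padicPlace p)` (helper5's `CURVE_helper5_Def`).
-/
import Mathlib
import Fermat.Prelude.Def_GaloisRep_CompletionBridge
import Fermat.Agent.FG.HENSEL_helper2_Valued
import Fermat.Agent.FG.CURVE_helper5_Def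

set_option autoImplicit false
set_option linter.unusedSectionVars false

namespace Fermat.Agent.FG

open MvPolynomial IsLocalRing

noncomputable section

variable (p : ℕ) [Fact p.Prime]

/-- the embedding `AlgebraicClosure ℚ → ℂ_[p]` -/
def embCp : AlgebraicClosure ℚ →+* ℂ_[p] :=
  (algebraMap (PadicAlgCl p) ℂ_[p]).comp (padicEmbedding p).toRingHom

theorem embCp_apply (a : AlgebraicClosure ℚ) :
    embCp p a = ((padicEmbedding p a : PadicAlgCl p) : ℂ_[p]) := rfl

theorem mem_padicPlace_iff_norm_embCp (a : AlgebraicClosure ℚ) :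
    a ∈ padicPlace p ↔ ‖embCp p a‖ ≤ 1 := by
  rw [mem_padicPlace_iff, embCp_apply, PadicComplex.norm_extends, ← NNReal.coe_le_coe]
  rfl

variable {ι : Type*} [Fintype ι] [DecidableEq ι]

/-- multivariate Hensel for the `p`-adic valuation ring of `AlgebraicClosure ℚ` -/
theorem hensel_mv_padicPlace (G : ι → MvPolynomial ι ↥(padicPlace p))
    (h0 : ∀ i, constantCoeff (G i) ∈ maximalIdeal ↥(padicPlace p))
    (hJ : IsUnit (Matrix.det (Matrix.of fun i j => constantCoeff (pderiv j (G i))))) :
    ∃ x : ι → ↥(padicPlace p), (∀ i, x i ∈ maximalIdeal ↥(padicPlace p)) ∧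
      ∀ i, eval x (G i) = 0 :=
  hensel_mv_of_embedding (padicPlace p) (embCp p) (mem_padicPlace_iff_norm_embCp p) G h0 hJ

/-- uniqueness of the small zero -/
theorem hensel_mv_unique_padicPlace (G : ι → MvPolynomial ι ↥(padicPlace p))
    (hJ : IsUnit (Matrix.det (Matrix.of fun i j => constantCoeff (pderiv j (G i)))))
    (x x' : ι → ↥(padicPlace p)) (hx : ∀ i, x i ∈ maximalIdeal ↥(padicPlace p))
    (hx' : ∀ i, x' i ∈ maximalIdeal ↥(padicPlace p)) (hG : ∀ i, eval x (G i) = 0)
    (hG' : ∀ i, eval x' (G i) = 0) : x = x' :=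
  hensel_mv_unique_of_embedding (padicPlace p) G hJ x x' hx hx' hG hG'

/-- **[HENS]** the `p`-adic valuation ring of `AlgebraicClosure ℚ` is multivariable Henselian -/
theorem isMvHenselian_padicPlace : IsMvHenselian (padicPlace p) :=
  fun _ G h0 hJ => hensel_mv_padicPlace p G h0 hJ

end

end Fermat.Agent.FG
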