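/-
FG [E-GAL] — helper6 — the algebra of the Hesse cover: the degree-`12` equation
`27 y³ (y³+8)³ (t³−1)³ = 27 t³ (t³+8)³ (y³−1)³` splits into the twelve `A₄`-transforms of `t`
(over any ring with a primitive cube root of unity).  Mathlib only.
-/
import Mathlib

set_option autoImplicit false

namespace Fermat.Agent.FG

open Polynomial

section Hesse12

variable {R : Type*} [CommRing R]

/-- the Hesse quartic `Y(Y³+8)(t³−1) − t(t³+8)(Y³−1)` splits into the four `V₄`-transforms. -/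
theorem hesse_quartic_factor (ω t Y : R) (hω : ω ^ 2 + ω + 1 = 0) :
    Y * (Y ^ 3 + 8) * (t ^ 3 - 1) - t * (t ^ 3 + 8) * (Y ^ 3 - 1) =
      (Y - t) * ((t - 1) * Y - (t + 2)) * ((ω ^ 2 * t - 1) * Y - (t + 2 * ω)) *
        ((ω * t - 1) * Y - (t + 2 * ω ^ 2)) := by
  linear_combination (-(Y - t) * ((t - 1) * Y - (t + 2)) *
    (((ω - 1) * t ^ 2 - t) * Y ^ 2 + (-t ^ 2 - 2 * (ω ^ 2 - ω + 1) * t + 2) * Y +
      (2 * t + 4 * (ω - 1)))) * hω

theorem cube_sub_cube_of_omega (ω a b : R) (hω : ω ^ 2 + ω + 1 = 0) :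
    a ^ 3 - b ^ 3 = (a - b) * (ω * a - b) * (ω ^ 2 * a - b) := by
  linear_combination (-(a - b) * ((ω - 1) * a ^ 2 - a * b)) * hω

/-- the four `V₄`-factors, as a function of `Y`. -/
def hesQuad (ω t Y : R) : R :=
  (Y - t) * ((t - 1) * Y - (t + 2)) * ((ω ^ 2 * t - 1) * Y - (t + 2 * ω)) *
    ((ω * t - 1) * Y - (t + 2 * ω ^ 2))

/-- the degree-`12` Hesse equation splits into the twelve `A₄`-transforms. -/
theorem hesse_twelve_factor (ω t y : R) (hω : ω ^ 2 + ω + 1 = 0) :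
    (y * (y ^ 3 + 8) * (t ^ 3 - 1)) ^ 3 - (t * (t ^ 3 + 8) * (y ^ 3 - 1)) ^ 3 =
      hesQuad ω t y * hesQuad ω t (ω * y) * hesQuad ω t (ω ^ 2 * y) := by
  have hω3 : ω ^ 3 = 1 := by linear_combination (ω - 1) * hω
  have e1 : (ω * y) ^ 3 = y ^ 3 := by rw [mul_pow, hω3, one_mul]
  have e2 : (ω ^ 2 * y) ^ 3 = y ^ 3 := by
    rw [mul_pow, ← pow_mul, mul_comm 2 3, pow_mul, hω3, one_pow, one_mul]
  rw [hesQuad, hesQuad, hesQuad, ← hesse_quartic_factor ω t y hω,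
    ← hesse_quartic_factor ω t (ω * y) hω, ← hesse_quartic_factor ω t (ω ^ 2 * y) hω, e1, e2,
    cube_sub_cube_of_omega ω _ _ hω]
  ring

end Hesse12

section HesseSplits

variable {E : Type*} [Field E]

theorem splits_hesQuad (ω t a : E) : (hesQuad (C ω) (C t) (C a * X)).Splits := by
  have hlin : ∀ a b : E, (C a * X - C b : E[X]).Splits := fun a b =>
    Splits.of_degree_le_one (by
      rw [sub_eq_add_neg, ← C_neg]
      exact degree_linear_le)
  have h : hesQuad (C ω) (C t) (C a * X) =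
      (C a * X - C t) * (C ((t - 1) * a) * X - C (t + 2)) *
        (C ((ω ^ 2 * t - 1) * a) * X - C (t + 2 * ω)) *
        (C ((ω * t - 1) * a) * X - C (t + 2 * ω ^ 2)) := by
    simp only [hesQuad, C_mul, C_sub, C_add, C_pow, C_1, C_ofNat]
    ring
  rw [h]
  exact (((hlin _ _).mul (hlin _ _)).mul (hlin _ _)).mul (hlin _ _)

/-- **the degree-`12` Hesse equation `27 X³(X³+8)³ = j (X³−1)³` splits** over any field containing
a root `t` and a primitive cube root of unity. -/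
theorem hesse_poly_splits (ω t j : E) (hω : ω ^ 2 + ω + 1 = 0) (ht : t ^ 3 - 1 ≠ 0)
    (hrel : j * (t ^ 3 - 1) ^ 3 = 27 * t ^ 3 * (t ^ 3 + 8) ^ 3) :
    (C 27 * X ^ 3 * (X ^ 3 + 8) ^ 3 - C j * (X ^ 3 - 1) ^ 3 : E[X]).Splits := by
  have hc : (t ^ 3 - 1) ^ 3 ≠ 0 := pow_ne_zero 3 ht
  have hW : (C ω : E[X]) ^ 2 + C ω + 1 = 0 := by
    rw [← C_pow, ← C_add, ← C_1, ← C_add, hω, C_0]
  have h12 := hesse_twelve_factor (C ω) (C t) (X : E[X]) hW
  set P : E[X] := hesQuad (C ω) (C t) (C 1 * X) * hesQuad (C ω) (C t) (C ω * X) *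
    hesQuad (C ω) (C t) (C (ω ^ 2) * X) with hP
  have hPs : P.Splits := ((splits_hesQuad ω t 1).mul (splits_hesQuad ω t ω)).mul
    (splits_hesQuad ω t (ω ^ 2))
  have key : (C 27 * X ^ 3 * (X ^ 3 + 8) ^ 3 - C j * (X ^ 3 - 1) ^ 3 : E[X]) =
      C (27 / (t ^ 3 - 1) ^ 3) * P := by
    apply mul_left_cancel₀ (C_ne_zero.mpr hc)
    have hC2 : (C (ω ^ 2) : E[X]) = C ω ^ 2 := C_pow
    rw [← mul_assoc, ← C_mul, mul_div_cancel₀ _ hc, hP, C_1, one_mul, hC2, ← h12]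
    have hrel' : C j * C ((t ^ 3 - 1) ^ 3) = (C (27 * t ^ 3 * (t ^ 3 + 8) ^ 3) : E[X]) := by
      rw [← C_mul, hrel]
    simp only [C_mul, C_pow, C_sub, C_add, C_1, C_ofNat] at hrel' ⊢
    linear_combination (-(X ^ 3 - 1) ^ 3 : E[X]) * hrel'
  rw [key]
  exact hPs.C_mul _

end HesseSplits

end Fermat.Agent.FG
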