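/-
FG (S19/S32) — helper8 — [HES-CHAR]: **characters of the automorphism group of a Hesse cover are
killed by `3`.**

Let `E / K` be a field extension, `t ∈ E` transcendental over `K ∋ ω` (a primitive cube root of
unity), and `H` a group of `K`-automorphisms of `E` acting faithfully on `t` and preserving
`j = 27 g³`, `g(y) = y (y³ + 8) / (y³ − 1)` (the `j`-invariant of the Hesse pencil).  Then `H` acts
on `t` through the tetrahedral group `A₄ = V₄ ⋊ μ₃` of Möbius transformations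
`y ↦ ζ · v_ε(y)`, `v_ε(y) = (y + 2 ε) / (ε² y − 1)` (`ζ, ε ∈ μ₃`), and if `H` contains an element
acting non-trivially on `g(t)` then every character of `H` with values in a commutative group is
killed by `3`.

The proof avoids any classification: `N := Stab_H(g(t))` is a normal subgroup of exponent `2`
(quartic factorisation of `g(y) = g(t)`, the `v_ε` are involutions), conjugation by `s ∉ N` has no
non-trivial fixed point on `N` (`v_ε (η u) ≠ η v_ε(u)` for `η ∈ μ₃ ∖ {1}` and transcendental `u`,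
plus commutativity of the `v_ε`), and `s³ ∈ N`; hence `n · sns⁻¹ · s²ns⁻²` is `s`-invariant, so
trivial, so `c(n)³ = 1 = c(n)²`.
-/
import Mathlib

set_option autoImplicit false
set_option linter.unusedSectionVars false
set_option linter.style.haveILetI false

namespace Fermat.Agent.FG

section Group

/-- **abstract step**: a character of `Γ` is trivial on a normal subgroup `N` of exponent `2` on
which conjugation by some `s` with `s³ ∈ N` has no non-trivial fixed point. -/
theorem char_eq_one_of_conj_fixedPointFree {Γ M : Type*} [Group Γ] [CommGroup M] (N : Subgroup Γ)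
    (hnorm : ∀ h : Γ, ∀ n ∈ N, h * n * h⁻¹ ∈ N)
    (hexp : ∀ n ∈ N, n * n = 1) (s : Γ) (hs3 : s ^ 3 ∈ N)
    (hfree : ∀ n ∈ N, s * n = n * s → n = 1) (c : Γ →* M) {n : Γ} (hn : n ∈ N) : c n = 1 := by
  have hinv : ∀ a ∈ N, a⁻¹ = a := fun a ha => inv_eq_of_mul_eq_one_right (hexp a ha)
  have hcomm : ∀ a ∈ N, ∀ b ∈ N, a * b = b * a := by
    intro a ha b hb
    calc a * b = (a * b)⁻¹ := (hinv _ (N.mul_mem ha hb)).symm
      _ = b⁻¹ * a⁻¹ := mul_inv_rev a b
      _ = b * a := by rw [hinv a ha, hinv b hb]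
  have hn₂N : s * n * s⁻¹ ∈ N := hnorm s n hn
  have hn₃N : s * (s * n * s⁻¹) * s⁻¹ ∈ N := hnorm s _ hn₂N
  -- conjugating once more gives back `n`
  have h4 : s * (s * (s * n * s⁻¹) * s⁻¹) * s⁻¹ = n := by
    have h5 : s * (s * (s * n * s⁻¹) * s⁻¹) * s⁻¹ = s ^ 3 * n * (s ^ 3)⁻¹ := by
      rw [pow_succ, pow_two]
      group
    rw [h5, hcomm _ hs3 _ hn, mul_assoc, mul_inv_cancel, mul_one]
  have hPN : n * (s * n * s⁻¹) * (s * (s * n * s⁻¹) * s⁻¹) ∈ N :=
    N.mul_mem (N.mul_mem hn hn₂N) hn₃N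
  have hsP : s * (n * (s * n * s⁻¹) * (s * (s * n * s⁻¹) * s⁻¹)) * s⁻¹ =
      n * (s * n * s⁻¹) * (s * (s * n * s⁻¹) * s⁻¹) := by
    have h5 : s * (n * (s * n * s⁻¹) * (s * (s * n * s⁻¹) * s⁻¹)) * s⁻¹ =
        (s * n * s⁻¹) * (s * (s * n * s⁻¹) * s⁻¹) * (s * (s * (s * n * s⁻¹) * s⁻¹) * s⁻¹) := by
      group
    rw [h5, h4, hcomm _ (N.mul_mem hn₂N hn₃N) _ hn, ← mul_assoc]
  have hP1 : n * (s * n * s⁻¹) * (s * (s * n * s⁻¹) * s⁻¹) = 1 := by
    apply hfree _ hPN
    have h8 : ∀ P : Γ, s * P = s * P * s⁻¹ * s := fun P => by group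
    rw [h8, hsP]
  have hc2 : ∀ a : Γ, c (s * a * s⁻¹) = c a := by
    intro a
    rw [map_mul, map_mul, map_inv, mul_comm (c s), mul_assoc, mul_inv_cancel, mul_one]
  have h6 : c n * c n * c n = 1 := by
    have := congrArg c hP1
    rw [map_mul, map_mul, map_one] at this
    simp only [hc2] at this
    exact this
  have h7 : c n * c n = 1 := by rw [← map_mul, hexp n hn, map_one]
  rw [h7, one_mul] at h6
  exact h6

end Group

section Field

variable {E : Type*} [Field E]

/-- the relation `z = v_ε(y) = (y + 2 ε) / (ε² y − 1)` in polynomial form (symmetric in `y`, `z`). -/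
def HesRel (ε y z : E) : Prop := ε ^ 2 * y * z - y - z - 2 * ε = 0

theorem HesRel.symm {ε y z : E} (h : HesRel ε y z) : HesRel ε z y := by
  unfold HesRel at *
  linear_combination h

theorem HesRel.denom_ne_zero {ε y z : E} (hε : ε ^ 3 = 1) (h3 : (3 : E) ≠ 0)
    (h : HesRel ε y z) : ε ^ 2 * y - 1 ≠ 0 := by
  intro h0
  unfold HesRel at h
  apply h3
  have h1 : y = -2 * ε := by linear_combination z * h0 - h
  rw [h1] at h0
  linear_combination (-1 : E) * h0 - 2 * hε

theorem HesRel.unique {ε y z z' : E} (hε : ε ^ 3 = 1) (h3 : (3 : E) ≠ 0) (h : HesRel ε y z)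
    (h' : HesRel ε y z') : z = z' := by
  have hd := h.denom_ne_zero hε h3
  have h1 : (ε ^ 2 * y - 1) * (z - z') = 0 := by
    unfold HesRel at *
    linear_combination h - h'
  rcases mul_eq_zero.mp h1 with h2 | h2
  · exact absurd h2 hd
  · exact sub_eq_zero.mp h2

/-- the involutions `v_ε`, `v_δ` commute (`ε ≠ δ` cube roots of unity). -/
theorem hesRel_comm {ε δ t z y m : E} (hε : ε ^ 3 = 1) (hδ : δ ^ 3 = 1)
    (hεδ : ε ^ 2 + ε * δ + δ ^ 2 = 0) (h3 : (3 : E) ≠ 0)
    (h1 : HesRel ε t z) (h2 : HesRel δ t y) (h4 : HesRel δ z m) : HesRel ε y m := by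
  have d1 := h1.denom_ne_zero hε h3
  have d2 := h4.denom_ne_zero hδ h3
  have key : (ε ^ 2 * t - 1) * (δ ^ 2 * z - 1) * (ε ^ 2 * y * m - y - m - 2 * ε) = 0 := by
    unfold HesRel at *
    linear_combination (ε ^ 2 * t - 1) * (ε ^ 2 * y - 1) * h4 +
      (ε ^ 2 * y - δ ^ 2 * y - 1 - 2 * ε * δ ^ 2) * h1 - 3 * h2 +
      (2 * y * t - 2 * δ * y - 2 * δ * t - 4 * ε ^ 2) * hεδ +
      (2 * δ * ε * y * t + 2 * y + 2 * t + 4 * (ε + δ)) * hε + (2 * y + 2 * t) * hδ
  unfold HesRel
  rcases mul_eq_zero.mp key with h5 | h5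
  · rcases mul_eq_zero.mp h5 with h6 | h6
    · exact absurd h6 d1
    · exact absurd h6 d2
  · exact h5

/-- `v_ε` does not commute with the multiplication by a primitive cube root of unity. -/
theorem hesRel_scale {ε η u m : E} (hε : ε ^ 3 = 1) (hη : η ^ 2 + η + 1 = 0)
    (h1 : HesRel ε u m) (h2 : HesRel ε (η * u) (η * m)) :
    (η - 1) * (ε ^ 2 * η * u ^ 2 - 2 * η ^ 2 * u - 2 * ε) = 0 := by
  unfold HesRel at *
  grind

/-- the Hesse function `g(y) = y (y³ + 8) / (y³ − 1)` (`j = 27 g³`). -/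
def hesG (y : E) : E := y * (y ^ 3 + 8) / (y ^ 3 - 1)

/-- **the fibres of `g`**: the four solutions of `g(y) = g(t)`. -/
theorem hesG_fibre (w : E) (hw : w ^ 2 + w + 1 = 0) (t y : E) (ht : t ^ 3 - 1 ≠ 0)
    (hy : y ^ 3 - 1 ≠ 0) (h : hesG y = hesG t) :
    y = t ∨ HesRel 1 t y ∨ HesRel w t y ∨ HesRel (w ^ 2) t y := by
  unfold hesG at h
  rw [div_eq_div_iff hy ht] at h
  have key : (y - t) * ((1 : E) ^ 2 * t * y - t - y - 2 * 1) * (w ^ 2 * t * y - t - y - 2 * w) *
      ((w ^ 2) ^ 2 * t * y - t - y - 2 * w ^ 2) = 0 := by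
    grind
  unfold HesRel
  rcases mul_eq_zero.mp key with h1 | h1
  · rcases mul_eq_zero.mp h1 with h1 | h1
    · rcases mul_eq_zero.mp h1 with h1 | h1
      · exact Or.inl (sub_eq_zero.mp h1)
      · exact Or.inr (Or.inl h1)
    · exact Or.inr (Or.inr (Or.inl h1))
  · exact Or.inr (Or.inr (Or.inr h1))

/-- cube roots: `P³ = Q³ ⇒ P ∈ μ₃ · Q`. -/
theorem hesA4_eq_or_of_cube_eq (w : E) (hw : w ^ 2 + w + 1 = 0) {P Q : E} (h : P ^ 3 = Q ^ 3) :
    P = Q ∨ P = w * Q ∨ P = w ^ 2 * Q := by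
  have key : (P - Q) * (P - w * Q) * (P - w ^ 2 * Q) = 0 := by grind
  rcases mul_eq_zero.mp key with h1 | h1
  · rcases mul_eq_zero.mp h1 with h1 | h1
    · exact Or.inl (sub_eq_zero.mp h1)
    · exact Or.inr (Or.inl (sub_eq_zero.mp h1))
  · exact Or.inr (Or.inr (sub_eq_zero.mp h1))

end Field

section Main

variable {K E : Type*} [Field K] [Field E] [Algebra K E]

theorem HesRel.map {ε y z : E} (σ : E ≃ₐ[K] E) (hσ : σ ε = ε) (h : HesRel ε y z) :
    HesRel ε (σ y) (σ z) := by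
  unfold HesRel at *
  have h1 := congrArg σ h
  simpa only [map_sub, map_mul, map_pow, hσ, map_ofNat, map_zero] using h1

theorem map_hesG (σ : E ≃ₐ[K] E) (y : E) : σ (hesG y) = hesG (σ y) := by
  unfold hesG
  simp only [map_div₀, map_mul, map_add, map_sub, map_pow, map_one, map_ofNat]

theorem hesA4_transcendental_apply (σ : E ≃ₐ[K] E) {t : E} (htr : Transcendental K t) :
    Transcendental K (σ t) := fun halg =>
  htr ((isAlgebraic_algHom_iff (σ : E →ₐ[K] E) σ.injective).mp halg)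

theorem hesA4_transcendental_algebraMap_mul {c : K} (hc : c ≠ 0) {u : E} (hu : Transcendental K u) :
    Transcendental K (algebraMap K E c * u) := by
  intro halg
  apply hu
  have h1 : u = algebraMap K E c⁻¹ * (algebraMap K E c * u) := by
    rw [← mul_assoc, ← map_mul, inv_mul_cancel₀ hc, map_one, one_mul]
  rw [h1]
  exact (isAlgebraic_algebraMap c⁻¹).mul halg

theorem hesA4_cube_sub_one_ne_zero {u : E} (hu : Transcendental K u) :
    u ^ 3 - 1 ≠ 0 := by
  intro h
  have h1 : Polynomial.aeval u (Polynomial.X ^ 3 - Polynomial.C (1 : K)) = 0 := by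
    simpa using h
  exact Polynomial.X_pow_sub_C_ne_zero (by norm_num) (1 : K) (transcendental_iff.mp hu _ h1)

theorem hesA4_quad_ne_zero {u : E} (hu : Transcendental K u) (a b c : K)
    (ha : a ≠ 0) :
    algebraMap K E a * u ^ 2 + algebraMap K E b * u + algebraMap K E c ≠ 0 := by
  intro h
  have h1 : Polynomial.aeval u (Polynomial.C a * Polynomial.X ^ 2 + Polynomial.C b * Polynomial.X
      + Polynomial.C c) = 0 := by
    simpa using h
  have h2 := transcendental_iff.mp hu _ h1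
  have h3 := congrArg (fun p : Polynomial K => p.coeff 2) h2
  simp at h3
  exact ha h3

/-- **[HES-CHAR]: characters of the automorphism group of a Hesse cover are killed by `3`.** -/
theorem char_cube_eq_one_of_hesse {K E : Type*} [Field K] [Field E] [Algebra K E]
    {H : Subgroup (E ≃ₐ[K] E)} {t : E}
    (ω : K) (hω : ω ^ 2 + ω + 1 = 0) (h3 : (3 : E) ≠ 0) (htr : Transcendental K t)
    (hfaith : ∀ h ∈ H, h t = t → h = 1)
    (hj : ∀ h ∈ H, (h t) ^ 3 * ((h t) ^ 3 + 8) ^ 3 * (t ^ 3 - 1) ^ 3 =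
      t ^ 3 * (t ^ 3 + 8) ^ 3 * ((h t) ^ 3 - 1) ^ 3)
    (hs : ∃ s ∈ H, s (t * (t ^ 3 + 8) / (t ^ 3 - 1)) ≠ t * (t ^ 3 + 8) / (t ^ 3 - 1))
    {M : Type*} [CommGroup M] (c : ↥H →* M) (h : ↥H) : c h ^ 3 = 1 := by
  classical
  -- the cube roots of unity
  have hw : (algebraMap K E ω) ^ 2 + algebraMap K E ω + 1 = 0 := by
    rw [← map_pow, ← map_add, ← map_one (algebraMap K E), ← map_add, hω, map_zero]
  have hω3 : ω ^ 3 = 1 := by linear_combination (ω - 1) * hω
  have hω1 : ω ≠ 1 := by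
    rintro rfl
    apply h3
    have : (3 : K) = 0 := by linear_combination hω
    rw [← map_ofNat (algebraMap K E) 3, this, map_zero]
  have hω0 : ω ≠ 0 := by
    rintro rfl
    simp at hω3
  -- `μ₃ ⊆ K`
  have hμ3 : ∀ e : K, (e = 1 ∨ e = ω ∨ e = ω ^ 2) → e ^ 3 = 1 := by
    intro e he
    rcases he with he | he | he
    · rw [he, one_pow]
    · rw [he, hω3]
    · rw [he, ← pow_mul, mul_comm, pow_mul, hω3, one_pow]
  have hμS : ∀ e d : K, (e = 1 ∨ e = ω ∨ e = ω ^ 2) → (d = 1 ∨ d = ω ∨ d = ω ^ 2) →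
      e = d ∨ e ^ 2 + e * d + d ^ 2 = 0 := by
    intro e d he hd
    rcases he with he | he | he <;> rcases hd with hd | hd | hd <;> rw [he, hd]
    · exact Or.inl rfl
    · right; linear_combination hω
    · right; linear_combination (ω ^ 2 - ω + 1) * hω
    · right; linear_combination hω
    · exact Or.inl rfl
    · right; linear_combination (ω ^ 2) * hω
    · right; linear_combination (ω ^ 2 - ω + 1) * hω
    · right; linear_combination (ω ^ 2) * hω
    · exact Or.inl rfl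
  have hE3 : ∀ e : K, e ^ 3 = 1 → (algebraMap K E e) ^ 3 = 1 := by
    intro e he
    rw [← map_pow, he, map_one]
  have ht3 : t ^ 3 - 1 ≠ 0 := hesA4_cube_sub_one_ne_zero htr
  -- (S1): every element of `H` multiplies `g(t)` by a cube root of unity
  have hS1 : ∀ σ ∈ H, ∃ z : K, z ^ 3 = 1 ∧ σ (hesG t) = algebraMap K E z * hesG t := by
    intro σ hσ
    have hY3 : (σ t) ^ 3 - 1 ≠ 0 :=
      hesA4_cube_sub_one_ne_zero (hesA4_transcendental_apply σ htr)
    have hPQ : (σ t * ((σ t) ^ 3 + 8) * (t ^ 3 - 1)) ^ 3 =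
        (t * (t ^ 3 + 8) * ((σ t) ^ 3 - 1)) ^ 3 := by
      linear_combination hj σ hσ
    rw [map_hesG]
    rcases hesA4_eq_or_of_cube_eq _ hw hPQ with h1 | h1 | h1
    · refine ⟨1, one_pow 3, ?_⟩
      rw [map_one, one_mul]
      unfold hesG
      rw [div_eq_div_iff hY3 ht3]
      exact h1
    · refine ⟨ω, hω3, ?_⟩
      unfold hesG
      rw [mul_div_assoc', div_eq_div_iff hY3 ht3]
      linear_combination h1
    · refine ⟨ω ^ 2, hμ3 _ (Or.inr (Or.inr rfl)), ?_⟩
      unfold hesG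
      rw [mul_div_assoc', div_eq_div_iff hY3 ht3, map_pow]
      linear_combination h1
  -- the fibre of `g` through `t`
  have hfib : ∀ y : E, Transcendental K y → hesG y = hesG t →
      y = t ∨ ∃ e : K, (e = 1 ∨ e = ω ∨ e = ω ^ 2) ∧ HesRel (algebraMap K E e) t y := by
    intro y hy hyt
    rcases hesG_fibre _ hw t y ht3 (hesA4_cube_sub_one_ne_zero hy) hyt with
      h1 | h1 | h1 | h1
    · exact Or.inl h1
    · exact Or.inr ⟨1, Or.inl rfl, by rwa [map_one]⟩
    · exact Or.inr ⟨ω, Or.inr (Or.inl rfl), h1⟩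
    · exact Or.inr ⟨ω ^ 2, Or.inr (Or.inr rfl), by rwa [map_pow]⟩
  -- the stabiliser of `g(t)`
  let N : Subgroup ↥H :=
    { carrier := {σ | (σ : E ≃ₐ[K] E) (hesG t) = hesG t}
      mul_mem' := by
        intro a b ha hb
        show (a : E ≃ₐ[K] E) ((b : E ≃ₐ[K] E) (hesG t)) = hesG t
        rw [show (b : E ≃ₐ[K] E) (hesG t) = hesG t from hb]
        exact ha
      one_mem' := rfl
      inv_mem' := by
        intro a ha
        show (a : E ≃ₐ[K] E).symm (hesG t) = hesG t
        rw [AlgEquiv.symm_apply_eq]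
        exact (show (a : E ≃ₐ[K] E) (hesG t) = hesG t from ha).symm }
  have hNmem : ∀ σ : ↥H, σ ∈ N ↔ (σ : E ≃ₐ[K] E) (hesG t) = hesG t := fun σ => Iff.rfl
  -- elements multiplying `g(t)` by a cube root of unity have their cube in `N`
  have hcube : ∀ σ : ↥H, σ ^ 3 ∈ N := by
    intro σ
    obtain ⟨z, hz3, hz⟩ := hS1 σ σ.2
    rw [hNmem]
    show (σ : E ≃ₐ[K] E) ((σ : E ≃ₐ[K] E) ((σ : E ≃ₐ[K] E) ((1 : E ≃ₐ[K] E) (hesG t)))) = hesG t
    rw [AlgEquiv.one_apply, hz, map_mul, AlgEquiv.commutes, hz, map_mul, map_mul,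
      AlgEquiv.commutes, hz, ← mul_assoc, ← mul_assoc, ← map_mul, ← map_mul, ← pow_two,
      ← pow_succ, hz3, map_one, one_mul]
  have hnorm : ∀ σ : ↥H, ∀ n ∈ N, σ * n * σ⁻¹ ∈ N := by
    intro σ n hn
    obtain ⟨z, -, hz⟩ := hS1 (σ⁻¹ : ↥H) (σ⁻¹ : ↥H).2
    rw [hNmem] at hn ⊢
    show (σ : E ≃ₐ[K] E) ((n : E ≃ₐ[K] E) (((σ⁻¹ : ↥H) : E ≃ₐ[K] E) (hesG t))) = hesG t
    have h1 : (n : E ≃ₐ[K] E) (((σ⁻¹ : ↥H) : E ≃ₐ[K] E) (hesG t)) =
        ((σ⁻¹ : ↥H) : E ≃ₐ[K] E) (hesG t) := by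
      rw [hz, map_mul, AlgEquiv.commutes, hn]
    rw [h1]
    show (σ : E ≃ₐ[K] E) ((σ : E ≃ₐ[K] E).symm (hesG t)) = hesG t
    exact AlgEquiv.apply_symm_apply _ _
  -- `N` has exponent `2`
  have hNt : ∀ n ∈ N, (n : E ≃ₐ[K] E) t = t ∨ ∃ e : K, (e = 1 ∨ e = ω ∨ e = ω ^ 2) ∧
      HesRel (algebraMap K E e) t ((n : E ≃ₐ[K] E) t) := by
    intro n hn
    refine hfib _ (hesA4_transcendental_apply _ htr) ?_
    rw [← map_hesG]
    exact hn
  have hone : ∀ n : ↥H, (n : E ≃ₐ[K] E) t = t → n = 1 := fun n hn =>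
    Subtype.ext (hfaith _ n.2 hn)
  have hexp : ∀ n ∈ N, n * n = 1 := by
    intro n hn
    rcases hNt n hn with h1 | ⟨e, he, h1⟩
    · rw [hone n h1, one_mul]
    · apply hone
      show (n : E ≃ₐ[K] E) ((n : E ≃ₐ[K] E) t) = t
      have h2 := h1.map (n : E ≃ₐ[K] E) (AlgEquiv.commutes _ e)
      exact HesRel.unique (hE3 e (hμ3 e he)) h3 h2 h1.symm
  -- the element `s`
  obtain ⟨s₀, hs₀H, hs₀⟩ := hs
  obtain ⟨η, hη3, hη⟩ := hS1 s₀ hs₀H
  have hη1 : η ≠ 1 := by
    rintro rfl
    apply hs₀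
    rw [map_one, one_mul] at hη
    exact hη
  have hηq : η ^ 2 + η + 1 = 0 := by
    have h1 : (η - 1) * (η ^ 2 + η + 1) = 0 := by linear_combination hη3
    rcases mul_eq_zero.mp h1 with h2 | h2
    · exact absurd (sub_eq_zero.mp h2) hη1
    · exact h2
  have hη0 : η ≠ 0 := by
    rintro rfl
    simp at hη3
  have hηE : (algebraMap K E η) ^ 2 + algebraMap K E η + 1 = 0 := by
    rw [← map_pow, ← map_add, ← map_one (algebraMap K E), ← map_add, hηq, map_zero]
  have hηE1 : algebraMap K E η - 1 ≠ 0 := by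
    intro h0
    apply hη1
    apply (algebraMap K E).injective
    rw [map_one]
    exact sub_eq_zero.mp h0
  set s : ↥H := ⟨s₀, hs₀H⟩ with hs_def
  -- the key contradiction: `v_ε` does not commute with the multiplication by `η`
  have hcontra : ∀ (e : K) (u m : E), e ^ 3 = 1 → Transcendental K u →
      HesRel (algebraMap K E e) u m →
      HesRel (algebraMap K E e) (algebraMap K E η * u) (algebraMap K E η * m) → False := by
    intro e u m he hu h1 h2
    have h4 := hesRel_scale (hE3 e he) hηE h1 h2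
    rcases mul_eq_zero.mp h4 with h5 | h5
    · exact hηE1 h5
    · have he0 : e ≠ 0 := by
        rintro rfl
        simp at he
      refine hesA4_quad_ne_zero hu (e ^ 2 * η) (-2 * η ^ 2) (-2 * e)
        (mul_ne_zero (pow_ne_zero 2 he0) hη0) ?_
      simp only [map_mul, map_pow, map_neg, map_ofNat]
      linear_combination h5
  have hfree : ∀ n ∈ N, s * n = n * s → n = 1 := by
    intro n hn hcomm
    rcases hNt n hn with h1 | ⟨e, he, h1⟩
    · exact hone n h1
    · exfalso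
      have he3 := hμ3 e he
      -- `y' := η² · s t` lies in the fibre of `g` through `t`
      have hYtr : Transcendental K (s₀ t) := hesA4_transcendental_apply s₀ htr
      obtain ⟨y', hy'⟩ : ∃ y' : E, y' = algebraMap K E (η ^ 2) * s₀ t := ⟨_, rfl⟩
      have hy'tr : Transcendental K y' := by
        rw [hy']
        exact hesA4_transcendental_algebraMap_mul (pow_ne_zero 2 hη0) hYtr
      have hy'3 : y' ^ 3 = (s₀ t) ^ 3 := by
        rw [hy', mul_pow, ← map_pow, ← pow_mul, mul_comm 2 3, pow_mul, hη3, one_pow, map_one,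
          one_mul]
      have hy'g : hesG y' = hesG t := by
        have h5 : hesG y' = algebraMap K E (η ^ 2) * hesG (s₀ t) := by
          unfold hesG
          rw [hy'3, mul_div_assoc', hy', mul_assoc]
        rw [h5, ← map_hesG, hη, ← mul_assoc, ← map_mul, ← pow_succ, hη3, map_one, one_mul]
      have hY : s₀ t = algebraMap K E η * y' := by
        rw [hy', ← mul_assoc, ← map_mul, ← pow_succ', hη3, map_one, one_mul]
      -- the commutation relation evaluated at `t`
      have hc1 : s₀ ((n : E ≃ₐ[K] E) t) = (n : E ≃ₐ[K] E) (s₀ t) := by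
        have := congrArg (fun x : ↥H => (x : E ≃ₐ[K] E) t) hcomm
        exact this
      have hc2 : s₀ ((n : E ≃ₐ[K] E) t) = algebraMap K E η * (n : E ≃ₐ[K] E) y' := by
        rw [hc1, hY, map_mul, AlgEquiv.commutes]
      have h2 := h1.map s₀ (AlgEquiv.commutes _ e)
      rw [hc2, hY] at h2
      rcases hfib _ hy'tr hy'g with h6 | ⟨d, hd, h6⟩
      · -- `s t = η t`
        rw [h6] at h2
        exact hcontra e t _ he3 htr h1 h2
      · have hd3 := hμ3 d hd
        have h7 := h6.map (n : E ≃ₐ[K] E) (AlgEquiv.commutes _ d)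
        refine hcontra e _ _ he3 hy'tr ?_ h2
        rcases hμS e d he hd with hed | hed
        · subst hed
          have h8 : (n : E ≃ₐ[K] E) t = y' := HesRel.unique (hE3 e he3) h3 h1 h6
          have h9 : (n : E ≃ₐ[K] E) y' = t := by
            rw [h8] at h7
            exact HesRel.unique (hE3 e he3) h3 h7 h6.symm
          rw [h9]
          exact h6.symm
        · have hedE : (algebraMap K E e) ^ 2 + algebraMap K E e * algebraMap K E d +
              (algebraMap K E d) ^ 2 = 0 := by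
            rw [← map_pow, ← map_pow, ← map_mul, ← map_add, ← map_add, hed, map_zero]
          exact hesRel_comm (hE3 e he3) (hE3 d hd3) hedE h3 h1 h6 h7
  have hcN : ∀ n ∈ N, c n = 1 := fun n hn =>
    char_eq_one_of_conj_fixedPointFree N hnorm hexp s (hcube s) hfree c hn
  rw [← map_pow]
  exact hcN _ (hcube h)

end Main

end Fermat.Agent.FG
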