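/-
FG [E-GAL] — helper6 — **the pullback `π^* : J₀(N) → Pic⁰(hesE Ω N)`** along the Hesse cover:
it is `G_ℚ`-equivariant and its kernel is killed by `3`.

`F = keyFq Ω N`, `E = hesE Ω N = F_3(t)`, `φ = fullToHesE Ω N` (`q = x³`).  `E / φ F` is Galois
(generated by `t`, whose conjugates are its twelve `A₄`-transforms), its group moves
`γ = t(t³+8)/(t³−1)` (`27γ³ = j`, so `γ` has a simple pole at the cusp and does not lie in `φ F`),
hence all its characters are killed by `3` (helper8's `char_cube_eq_one_of_hesse`).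
-/
import Mathlib
import Fermat.Agent.FG.EGAL_helper6_PullLeg
import Fermat.Agent.FG.EGAL_helper6_Hes12
import Fermat.Agent.FG.EGAL_helper6_CuspHes
import Fermat.Agent.FG.EGAL_helper8_A4

set_option autoImplicit false
set_option linter.unusedSectionVars false
set_option linter.style.haveILetI false
set_option synthInstance.maxHeartbeats 400000

open IntermediateField AlgebraicCurve ModularCurve Polynomial

namespace Fermat.Agent.FG

open Fermat.Agent.JA Fermat.Agent.SS Fermat.Agent.GR Fermat.Agent.FF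
open scoped Fermat.Agent.JA.Host

local notation "Ω" => AlgebraicClosure ℚ
local notation "GQ" => (AlgebraicClosure ℚ ≃ₐ[ℚ] AlgebraicClosure ℚ)

variable (N : ℕ) [NeZero N]

theorem fullToHesE_egalJ : fullToHesE Ω N (egalJ N) = hesJE Ω N := Subtype.ext rfl

/-- the Hesse relation in `hesE Ω N` -/
theorem hesTE_rel :
    hesJE Ω N * (hesTE Ω N ^ 3 - 1) ^ 3 = 27 * hesTE Ω N ^ 3 * (hesTE Ω N ^ 3 + 8) ^ 3 := by
  apply Subtype.ext
  have h := jqNModC_mul_aeval_hesT Ω
  rw [Host.aeval_hesA, Host.aeval_hesB] at h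
  exact h

theorem hesTE_transcendental : Transcendental Ω (hesTE Ω N) := by
  intro halg
  apply transcendental_hesT Ω
  exact (isAlgebraic_algHom_iff (hesE Ω N).val Subtype.val_injective).mpr halg

theorem hesTE_cube_sub_one_ne_zero : hesTE Ω N ^ 3 - 1 ≠ 0 := by
  intro h
  apply hesTE_transcendental N
  refine ⟨X ^ 3 - 1, ?_, ?_⟩
  · intro h0
    have := congrArg (Polynomial.eval 0) h0
    simp at this
  · simpa using h

theorem isIntegral_fullToHesE_bar : (fullToHesE Ω N).toRingHom.IsIntegral :=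
  isIntegral_of_finiteAlong _ (finiteAlong_fullToHesE N)

/-- `E = φ(F)(t)` -/
theorem adjoin_hesTE_eq_top :
    letI := algebraAlong (fullToHesE Ω N)
    IntermediateField.adjoin ↥(keyFq Ω N) {hesTE Ω N} = ⊤ :=
  adjoin_fullToEtu_eq_top Ω N 3 (hesT Ω)

/-- the Hesse equation over `F` -/
noncomputable def hesTwelve : (↥(keyFq Ω N))[X] :=
  C 27 * X ^ 3 * (X ^ 3 + 8) ^ 3 - C (egalJ N) * (X ^ 3 - 1) ^ 3

theorem hesTwelve_ne_zero : hesTwelve N ≠ 0 := by
  intro h
  have h1 := congrArg (Polynomial.eval 1) h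
  simp [hesTwelve] at h1
  norm_num at h1

theorem hesTwelve_map : (hesTwelve N).map (fullToHesE Ω N).toRingHom =
    C 27 * X ^ 3 * (X ^ 3 + 8) ^ 3 - C (hesJE Ω N) * (X ^ 3 - 1) ^ 3 := by
  have h : (fullToHesE Ω N).toRingHom (egalJ N) = hesJE Ω N := fullToHesE_egalJ N
  simp only [hesTwelve, Polynomial.map_sub, Polynomial.map_mul, Polynomial.map_pow,
    Polynomial.map_add, Polynomial.map_one, map_X, map_C, h, map_ofNat, Polynomial.map_ofNat]

theorem hesTwelve_eval : ((hesTwelve N).map (fullToHesE Ω N).toRingHom).eval (hesTE Ω N) = 0 := by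
  rw [hesTwelve_map]
  simp only [eval_sub, eval_mul, eval_pow, eval_add, eval_one, eval_X, eval_C, eval_ofNat]
  linear_combination -(hesTE_rel N)

/-- a primitive cube root of unity in `Ω` -/
theorem exists_omega_bar : ∃ ω : Ω, ω ^ 2 + ω + 1 = 0 := by
  obtain ⟨ω, hω⟩ := IsAlgClosed.exists_root (X ^ 2 + X + 1 : Polynomial Ω) (by
    rw [show (X ^ 2 + X + 1 : Polynomial Ω) = X ^ 2 + (X + 1) by ring]
    rw [degree_add_eq_left_of_degree_lt]
    · rw [degree_X_pow]; norm_num
    · rw [degree_X_pow]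
      exact lt_of_le_of_lt (degree_X_add_C (1 : Ω)).le (by norm_num))
  refine ⟨ω, ?_⟩
  simpa using hω

theorem hesTwelve_splits : ((hesTwelve N).map (fullToHesE Ω N).toRingHom).Splits := by
  obtain ⟨ω, hω⟩ := exists_omega_bar
  rw [hesTwelve_map]
  refine hesse_poly_splits (algebraMap Ω ↥(hesE Ω N) ω) (hesTE Ω N) (hesJE Ω N) ?_
    (hesTE_cube_sub_one_ne_zero N) (hesTE_rel N)
  rw [← map_pow, ← map_add, ← map_one (algebraMap Ω ↥(hesE Ω N)), ← map_add, hω, map_zero]

/-- **`E / φ F` is Galois.** -/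
theorem isGalois_fullToHesE :
    letI := algebraAlong (fullToHesE Ω N)
    IsGalois ↥(keyFq Ω N) ↥(hesE Ω N) :=
  isGalois_along_of_splits (fullToHesE Ω N) (finiteAlong_fullToHesE N) (hesTE Ω N)
    (adjoin_hesTE_eq_top N) (hesTwelve N) (hesTwelve_ne_zero N) (hesTwelve_eval N)
    (hesTwelve_splits N)

/-- the fixed field of the automorphisms of the cover is `φ F`. -/
theorem hesE_mem_range_of_fixed (y : ↥(hesE Ω N))
    (hy : ∀ h ∈ fixingAlong (fullToHesE Ω N), h y = y) : y ∈ Set.range (fullToHesE Ω N) :=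
  mem_range_of_fixingAlong_fixed (fullToHesE Ω N) (finiteAlong_fullToHesE N) (isGalois_fullToHesE N) y hy

/-- faithfulness of the action on `t`. -/
theorem hesE_eq_one_of_apply_hesTE {h : ↥(hesE Ω N) ≃ₐ[Ω] ↥(hesE Ω N)}
    (hh : h ∈ fixingAlong (fullToHesE Ω N)) (ht : h (hesTE Ω N) = hesTE Ω N) : h = 1 := by
  refine eq_one_of_apply_generator (fullToHesE Ω N) (hesTE Ω N) (adjoin_hesTE_eq_top N) ?_ hh ht
  letI := algebraAlong (fullToHesE Ω N)
  haveI : Module.Finite ↥(keyFq Ω N) ↥(hesE Ω N) := finiteAlong_fullToHesE N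
  exact IsIntegral.of_finite _ _

/-- the automorphisms of the cover fix `j`. -/
theorem apply_hesJE {h : ↥(hesE Ω N) ≃ₐ[Ω] ↥(hesE Ω N)}
    (hh : h ∈ fixingAlong (fullToHesE Ω N)) : h (hesJE Ω N) = hesJE Ω N := by
  rw [← fullToHesE_egalJ]
  exact hh _

/-- the conjugates of `t` have the same `j`. -/
theorem hesE_conj_rel {h : ↥(hesE Ω N) ≃ₐ[Ω] ↥(hesE Ω N)}
    (hh : h ∈ fixingAlong (fullToHesE Ω N)) :
    (h (hesTE Ω N)) ^ 3 * ((h (hesTE Ω N)) ^ 3 + 8) ^ 3 * (hesTE Ω N ^ 3 - 1) ^ 3 =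
      hesTE Ω N ^ 3 * (hesTE Ω N ^ 3 + 8) ^ 3 * ((h (hesTE Ω N)) ^ 3 - 1) ^ 3 := by
  have h1 := hesTE_rel N
  have h2 := congrArg h h1
  simp only [map_mul, map_pow, map_sub, map_add, map_one, map_ofNat, apply_hesJE N hh] at h2
  have h27 : (27 : ↥(hesE Ω N)) ≠ 0 := by norm_num
  apply mul_left_cancel₀ h27
  linear_combination (((h (hesTE Ω N)) ^ 3 - 1) ^ 3) * h1 - ((hesTE Ω N ^ 3 - 1) ^ 3) * h2

/-- `γ = t(t³+8)/(t³−1)`, the cube root of `j/27` in `E`. -/
noncomputable def hesGE : ↥(hesE Ω N) :=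
  hesTE Ω N * (hesTE Ω N ^ 3 + 8) / (hesTE Ω N ^ 3 - 1)

/-- `27 γ³ = j`. -/
theorem hesGE_cube : 27 * hesGE N ^ 3 = hesJE Ω N := by
  have hd := hesTE_cube_sub_one_ne_zero N
  have h2 := hesTE_rel N
  rw [hesGE, div_pow]
  have hd3 : (hesTE Ω N ^ 3 - 1) ^ 3 ≠ 0 := pow_ne_zero 3 hd
  field_simp
  linear_combination (-1 : ↥(hesE Ω N)) * h2

/-- **`γ` does not lie in `φ F`** (it has a simple pole at the cusp `x = 0`). -/
theorem hesGE_not_mem_range : hesGE N ∉ Set.range (fullToHesE Ω N) := by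
  rintro ⟨f, hf⟩
  have hcube := congrArg (Subtype.val : ↥(hesE Ω N) → LaurentSeries Ω) (hesGE_cube N)
  set d : LaurentSeries Ω := ((hesGE N : ↥(hesE Ω N)) : LaurentSeries Ω) with hd
  have hcube' : (27 : LaurentSeries Ω) * d ^ 3 = jqNModC Ω 3 := hcube
  have hord := cuspord_order_jqNModC Ω 3
  rw [← hcube'] at hord
  have h27 : (27 : LaurentSeries Ω) ≠ 0 := by
    rw [ofNat_laurent_eq_algebraMap]
    exact (_root_.map_ne_zero _).mpr (by norm_num)
  have hd0 : d ≠ 0 := by
    intro h0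
    rw [h0] at hord
    simp at hord
  have h27o : (27 : LaurentSeries Ω).order = 0 := by
    rw [ofNat_laurent_eq_algebraMap, LaurentSeries.algebraMap_apply]
    exact HahnSeries.order_C
  rw [HahnSeries.order_mul h27 (pow_ne_zero 3 hd0), h27o, zero_add, pow_succ, pow_two,
    HahnSeries.order_mul (mul_ne_zero hd0 hd0) hd0, HahnSeries.order_mul hd0 hd0] at hord
  have hdvd : ((3 : ℕ) : ℤ) ∣ d.order := by
    rw [hd, ← hf]
    exact dvd_order_fullToEtu Ω N 3 (hesT Ω) f
  obtain ⟨m, hm⟩ := hdvd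
  push_cast at hm hord
  omega

/-- **the cover has an automorphism moving `γ`.** -/
theorem exists_hesGE_moved :
    ∃ s ∈ fixingAlong (fullToHesE Ω N), s (hesGE N) ≠ hesGE N := by
  have h1 : ¬ ∀ h ∈ fixingAlong (fullToHesE Ω N), h (hesGE N) = hesGE N := fun hall =>
    hesGE_not_mem_range N (hesE_mem_range_of_fixed N _ hall)
  push Not at h1
  exact h1

/-- **every character of the automorphism group of the Hesse cover is killed by `3`.** -/
theorem hesE_char_cube {M : Type*} [CommGroup M] (c : ↥(fixingAlong (fullToHesE Ω N)) →* M)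
    (h : ↥(fixingAlong (fullToHesE Ω N))) : c h ^ 3 = 1 := by
  obtain ⟨ω, hω⟩ := exists_omega_bar
  have h3 : (3 : ↥(hesE Ω N)) ≠ 0 := by norm_num
  exact char_cube_eq_one_of_hesse ω hω h3 (hesTE_transcendental N)
    (fun _ hh ht => hesE_eq_one_of_apply_hesTE N hh ht)
    (fun _ hh => hesE_conj_rel N hh) (exists_hesGE_moved N) c h

/-! ### the pullback -/

theorem fundamentalIdentityAlong_fullToHesE :
    haveI : HasPrincipalDivisors Ω ↥(hesE Ω N) := hesE_principal_gen N
    FundamentalIdentityAlong Ω (fullToHesE Ω N) (isIntegral_fullToHesE_bar N) :=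
  haveI : HasPrincipalDivisors Ω ↥(hesE Ω N) := hesE_principal_gen N
  fundamentalIdentityAlong_of_coord (Fermat.Agent.X0N.jCoordBar N) (hesCoordBar N)
    (fullToHesE Ω N) _

/-- **`π^* : J₀(N) → Pic⁰(hesE Ω N)`**. -/
noncomputable def hesPull : JZero N →+ Pic0 Ω ↥(hesE Ω N) :=
  haveI : HasPrincipalDivisors Ω ↥(hesE Ω N) := hesE_principal_gen N
  pic0Pull (fullToHesE Ω N) (isIntegral_fullToHesE_bar N) (fundamentalIdentityAlong_fullToHesE N)

/-- the coefficientwise actions are compatible with `φ`. -/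
theorem transports_fullToHesE (σ : GQ) :
    Transports (arithmeticGalois (modularFunctionFieldFull N) σ) (hesGalois Ω N σ)
      (fullToHesE Ω N) (fullToHesE Ω N) := by
  intro f
  apply Subtype.ext
  rw [hesGalois, coe_coeffGalois_smul]
  exact coeffMap_fullToHesE N (σ : Ω →+* Ω) f

/-- **`π^*` is `G_ℚ`-equivariant.** -/
theorem hesPull_smul (σ : GQ) (x : JZero N) :
    hesPull N (σ • x) = hesGalois Ω N σ • hesPull N x := by
  haveI : HasPrincipalDivisors Ω ↥(hesE Ω N) := hesE_principal_gen N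
  rw [galois_smul_pic0_def]
  exact pic0Pull_smul _ _ _ (transports_fullToHesE N σ) x

/-- **the kernel of `π^*` is killed by `3`.** -/
theorem three_nsmul_eq_zero_of_hesPull_eq_zero (x : JZero N) (hx : hesPull N x = 0) :
    3 • x = 0 := by
  haveI : HasPrincipalDivisors Ω ↥(hesE Ω N) := hesE_principal_gen N
  exact nsmul_eq_zero_of_pic0Pull_eq_zero (fullToHesE Ω N) (isIntegral_fullToHesE_bar N)
    (fundamentalIdentityAlong_fullToHesE N) (hesCoordBar N)
    (fun v => exists_restrictAlong_eq (Fermat.Agent.X0N.jCoordBar N) (fullToHesE Ω N)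
      (finiteAlong_fullToHesE N) (isIntegral_fullToHesE_bar N) v)
    (hesE_mem_range_of_fixed N) 3 (fun c h => hesE_char_cube N c h) x hx

end Fermat.Agent.FG
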