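/-
FG (S19/S32) [CUSP-RED] — helper1 — **the reduction of the cusp, Hesse tower**: the `GoodRed` input
`r cusp = the x-adic place of the reduced function field` and hence `ord_r_cusp_τ`
(hesR_cusp, hesR_cusp_ord_hesTaub, hesU_eq_psEmb_base).
-/
import Mathlib
import Fermat.Agent.FG.ERED_helper1_Cusp

set_option autoImplicit false
set_option linter.unusedSectionVars false
set_option linter.style.haveILetI false
set_option synthInstance.maxHeartbeats 400000

open HahnSeries IntermediateField ModularCurve IsLocalRing AlgebraicCurve Polynomial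

namespace Fermat.Agent.FG

open Fermat.Agent.JA Fermat.Agent.Igusa Fermat.Agent.SS Fermat.Agent.FF

/-- `Ω = AlgebraicClosure ℚ`. -/
local notation "Ω" => AlgebraicClosure ℚ

section HesCusp

variable {ℓ : ℕ} [Fact ℓ.Prime] {A : ValuationSubring Ω} (hA : A.LiesOverPrime ℓ)
  (N : ℕ) [NeZero N] (hℓN : ¬ ℓ ∣ N) (hℓ3 : ℓ ≠ 3)
  (Q₀ : Place (ResidueField ↥A) (hesEt hA N hℓ3))

include hA hℓ3 in
/-- the Hesse uniformizer is a power series without constant term over every base. -/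
theorem hesU_eq_psEmb_base (K₁ : IntermediateField ℚ Ω)
    [IsDiscreteValuationRing ↥(baseRing A K₁)] :
    ∃ pu : PowerSeries ↥(baseRing A K₁), PowerSeries.constantCoeff pu = 0 ∧
      hesU ↥K₁ = psEmb ↥(baseRing A K₁) ↥K₁ pu := by
  have hℓ3' : ¬ ℓ ∣ 3 := fun h =>
    hℓ3 ((Nat.prime_dvd_prime_iff_eq (Fact.out : ℓ.Prime) Nat.prime_three).mp h)
  have h2 : IsUnit (((3 : ℤ) : ℤ) : ↥(baseRing A K₁)) := by
    have := isUnit_natCast_baseRing hA (K₁ := K₁) hℓ3'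
    exact_mod_cast this
  refine ⟨PowerSeries.map (awayHom 3 ↥(baseRing A K₁) h2) (PowerSeries.X * hesSZ), ?_, ?_⟩
  · rw [map_mul, PowerSeries.map_X, map_mul, PowerSeries.constantCoeff_X, zero_mul]
  · rw [hesU_eq_coeffMap ↥K₁ ((algebraMap ↥(baseRing A K₁) ↥K₁).comp
        (awayHom 3 ↥(baseRing A K₁) h2)), ← coeffMap_coeffMap, psEmb_apply,
      ← coeffMap_ofPowerSeries]
    rfl

include hℓN in
/-- **`GoodRed`: the reduction of the cusp is the reduced cusp** (Hesse tower). -/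
theorem hesR_cusp : hesR hA N hℓ3 Q₀ (hesCusp Ω N) = hesCuspb hA N hℓ3 := by
  obtain ⟨a, b, c, d, hdet, hm⟩ := exists_isMobius_hesT₀
  have hdet' : ¬ (ℓ : ℤ) ∣ a * d - b * c := by
    have hℓ1 : ¬ (ℓ : ℤ) ∣ 1 := by
      intro h
      have := Int.natCast_dvd_natCast.mp (by simpa using h : (ℓ : ℤ) ∣ ((1 : ℕ) : ℤ))
      exact (Fact.out : ℓ.Prime).one_lt.ne' (Nat.dvd_one.mp this)
    rcases hdet with h | h
    · rw [h]; exact fun h' => hℓ1 ((dvd_neg).mp h')
    · rw [h]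
      intro h'
      have h3 : ℓ ∣ 3 := Int.natCast_dvd_natCast.mp (by simpa using h')
      exact hℓ3 ((Nat.prime_dvd_prime_iff_eq (Fact.out : ℓ.Prime) Nat.prime_three).mp h3)
  refine hesR_eq_of_isTwoCentre_final hA N hℓN hℓ3 Q₀ ?_
  exact tower_isTwoCentre_cusp hA (hesTower N) (hesTower_map N) (hesTower_gen N) hesTCoord
    (hesTCoord_mem N) hesTCoord_map
    (fun K₁ _ => hesE_le_gaussField_base hA N hℓ3 K₁)
    (fun K _ _ => hesU K)
    (fun K₁ _ _ => hesU_eq_psEmb_base hA hℓ3 K₁)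
    hdet'
    (fun K _ _ => hm.hesT_hesU)
    (hesWE hA N hℓ3) (hesρ hA N hℓ3) (fun x => mem_hesWE_iff hA N hℓ3 x)
    (hesEtEmb hA N hℓ3) (fun x hx => hesEtEmb_hesρ hA N hℓ3 ⟨x, hx⟩)
    (hesCusp Ω N) (fun x hx => hesCusp_ord Ω N hx)
    (hesCuspb hA N hℓ3) (fun y hy => mem_hesCuspb_iff hA N hℓ3 hy)
    (hesU_mem_hesE Ω N) (by rw [hesU_order]; exact one_pos)

include hℓN in
/-- **`GoodRed.ord_r_cusp_τ`** (Hesse tower). -/
theorem hesR_cusp_ord_hesTaub :
    (hesR hA N hℓ3 Q₀ (hesCusp Ω N)).ord (hesTaub hA N hℓ3) = 1 := by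
  rw [hesR_cusp hA N hℓN hℓ3 Q₀]
  exact hesCuspb_ord_hesTaub hA N hℓ3

end HesCusp

end Fermat.Agent.FG
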