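/-
S19/S32 [HOPF-FRONT] — helper1 — **finitely generated `ℤ_p`-lattices of functions are closed.**

For a finite set `X` and a finitely generated `ℤ_p`-submodule `H ⊆ Map(X, ℚ̄_p)`: a function which
can be approximated by elements of `H` up to `p ^ N • (integral functions)` for every `N` lies in
`H` (`mem_of_forall_approx`, `mem_of_forall_norm_approx`).  This is the tool that makes
`image(R[[y]] → Map(S, ℚ̄_p))` equal to the image of the polynomials, and the comultiplication
of a function order computable by truncation (`exists_sum_mul_of_approx`).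
-/
import Mathlib

set_option autoImplicit false
set_option linter.style.haveILetI false
set_option linter.unusedSectionVars false

namespace Fermat.Agent.FG

variable (p : ℕ) [Fact p.Prime]

/-- an element of `ℚ̄_p` of norm `≤ 1` is integral over `ℤ_p`. -/
theorem isIntegral_of_padicAlgCl_norm_le_one {x : PadicAlgCl p} (hx : ‖x‖ ≤ 1) :
    IsIntegral ℤ_[p] x := by
  have hint : IsIntegral ℚ_[p] x := Algebra.IsIntegral.isIntegral x
  have hmonic : (minpoly ℚ_[p] x).Monic := minpoly.monic hint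
  have hsv : spectralValue (minpoly ℚ_[p] x) ≤ 1 := hx
  rw [spectralValue_le_one_iff hmonic] at hsv
  have hlift : minpoly ℚ_[p] x ∈ Polynomial.lifts (algebraMap ℤ_[p] ℚ_[p]) := by
    rw [Polynomial.lifts_iff_coeff_lifts]
    intro n
    exact ⟨⟨(minpoly ℚ_[p] x).coeff n, hsv n⟩, rfl⟩
  obtain ⟨P, hP, -, hPm⟩ := Polynomial.lifts_and_natDegree_eq_and_monic hlift hmonic
  refine ⟨P, hPm, ?_⟩
  have h1 : Polynomial.eval₂ (algebraMap ℤ_[p] (PadicAlgCl p)) x P =
      Polynomial.eval₂ (algebraMap ℚ_[p] (PadicAlgCl p)) x (P.map (algebraMap ℤ_[p] ℚ_[p])) := by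
    rw [Polynomial.eval₂_map, ← IsScalarTower.algebraMap_eq]
  rw [h1, hP]
  exact minpoly.aeval ℚ_[p] x

/-- the integral points of an intermediate field, as a `ℤ_p`-submodule of `ℚ̄_p`. -/
def intPts (K : IntermediateField ℚ_[p] (PadicAlgCl p)) : Submodule ℤ_[p] (PadicAlgCl p) where
  carrier := {x | x ∈ K ∧ IsIntegral ℤ_[p] x}
  add_mem' := fun ha hb => ⟨K.add_mem ha.1 hb.1, ha.2.add hb.2⟩
  zero_mem' := ⟨K.zero_mem, isIntegral_zero⟩
  smul_mem' := fun z x hx => by
    refine ⟨?_, ?_⟩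
    · rw [Algebra.smul_def, IsScalarTower.algebraMap_apply ℤ_[p] ℚ_[p] (PadicAlgCl p)]
      exact K.mul_mem (K.algebraMap_mem _) hx.1
    · rw [Algebra.smul_def]
      exact isIntegral_algebraMap.mul hx.2

theorem mem_intPts {K : IntermediateField ℚ_[p] (PadicAlgCl p)} {x : PadicAlgCl p} :
    x ∈ intPts p K ↔ x ∈ K ∧ IsIntegral ℤ_[p] x := Iff.rfl

/-- the integral points of a finite extension form a finitely generated `ℤ_p`-module. -/
theorem intPts_fg (K : IntermediateField ℚ_[p] (PadicAlgCl p)) [FiniteDimensional ℚ_[p] K] :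
    (intPts p K).FG := by
  haveI : Module.Finite ℤ_[p] (integralClosure ℤ_[p] K) :=
    IsIntegralClosure.finite ℤ_[p] ℚ_[p] K (integralClosure ℤ_[p] K)
  have h1 : (Subalgebra.toSubmodule (integralClosure ℤ_[p] K)).FG :=
    Module.Finite.iff_fg.mp this
  have h2 := h1.map ((K.val.restrictScalars ℤ_[p]).toLinearMap)
  have h3 : (Subalgebra.toSubmodule (integralClosure ℤ_[p] K)).map
      ((K.val.restrictScalars ℤ_[p]).toLinearMap) = intPts p K := by
    ext x
    constructor
    · rintro ⟨y, hy, rfl⟩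
      refine ⟨y.2, ?_⟩
      have hy' : IsIntegral ℤ_[p] y := hy
      exact hy'.map (K.val.restrictScalars ℤ_[p])
    · rintro ⟨hxK, hxint⟩
      refine ⟨⟨x, hxK⟩, ?_, rfl⟩
      show IsIntegral ℤ_[p] (⟨x, hxK⟩ : K)
      exact (isIntegral_algHom_iff (K.val.restrictScalars ℤ_[p])
        (K.val.restrictScalars ℤ_[p]).toRingHom.injective).mp hxint
  rw [← h3]
  exact h2

section closed

variable {X : Type*} [Finite X]

/-- functions with values in a submodule. -/
def piSub (O : Submodule ℤ_[p] (PadicAlgCl p)) : Submodule ℤ_[p] (X → PadicAlgCl p) where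
  carrier := {φ | ∀ x, φ x ∈ O}
  add_mem' := fun ha hb x => O.add_mem (ha x) (hb x)
  zero_mem' := fun _ => O.zero_mem
  smul_mem' := fun z _ hφ x => O.smul_mem z (hφ x)

theorem piSub_fg {O : Submodule ℤ_[p] (PadicAlgCl p)} (hO : O.FG) :
    (piSub p (X := X) O).FG := by
  haveI : Module.Finite ℤ_[p] O := Module.Finite.iff_fg.mpr hO
  have h1 : (LinearMap.range (O.subtype.compLeft X)).FG := by
    rw [LinearMap.range_eq_map]
    exact (Module.Finite.fg_top).map _
  have h2 : LinearMap.range (O.subtype.compLeft X) = piSub p (X := X) O := by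
    ext φ
    constructor
    · rintro ⟨f, rfl⟩ x
      exact (f x).2
    · intro hφ
      exact ⟨fun x => ⟨φ x, hφ x⟩, rfl⟩
  rw [← h2]
  exact h1

/-- **finitely generated lattices are closed**: approximation up to `p ^ N` times integral
functions. -/
theorem mem_of_forall_approx (H : Submodule ℤ_[p] (X → PadicAlgCl p)) (hfg : H.FG)
    (ψ : X → PadicAlgCl p)
    (happ : ∀ N : ℕ, ∃ ψN ∈ H, ∀ x, ∃ u : PadicAlgCl p, IsIntegral ℤ_[p] u ∧
      ψ x - ψN x = (p : PadicAlgCl p) ^ N * u) : ψ ∈ H := by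
  classical
  haveI := Fintype.ofFinite X
  obtain ⟨S, hS⟩ := hfg
  -- the field generated by all the values
  let T : Set (PadicAlgCl p) := Set.range ψ ∪ ⋃ f ∈ S, Set.range f
  have hTfin : T.Finite :=
    (Set.finite_range ψ).union (S.finite_toSet.biUnion fun f _ => Set.finite_range f)
  let K := IntermediateField.adjoin ℚ_[p] T
  haveI : FiniteDimensional ℚ_[p] K :=
    haveI := hTfin.to_subtype
    IntermediateField.finiteDimensional_adjoin fun x _ => Algebra.IsIntegral.isIntegral x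
  have hψK : ∀ x, ψ x ∈ K := fun x =>
    IntermediateField.subset_adjoin _ _ (Or.inl ⟨x, rfl⟩)
  have hHK : ∀ φ ∈ H, ∀ x, φ x ∈ K := by
    intro φ hφ
    rw [← hS] at hφ
    induction hφ using Submodule.span_induction with
    | mem f hf =>
      intro x
      refine IntermediateField.subset_adjoin _ _ (Or.inr ?_)
      simp only [Set.mem_iUnion]
      exact ⟨f, hf, x, rfl⟩
    | zero => exact fun _ => K.zero_mem
    | add a b _ _ ha hb => exact fun x => K.add_mem (ha x) (hb x)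
    | smul z a _ ha =>
      intro x
      rw [Pi.smul_apply, Algebra.smul_def, IsScalarTower.algebraMap_apply ℤ_[p] ℚ_[p] (PadicAlgCl p)]
      exact K.mul_mem (K.algebraMap_mem _) (ha x)
  have hOfg := intPts_fg p K
  have hHfg : H.FG := ⟨S, hS⟩
  let B : Submodule ℤ_[p] (X → PadicAlgCl p) := H ⊔ piSub p (X := X) (intPts p K)
  haveI : Module.Finite ℤ_[p] B := Module.Finite.iff_fg.mpr (hHfg.sup (piSub_fg p hOfg))
  let H' : Submodule ℤ_[p] B := H.comap B.subtype
  have hp0 : (p : PadicAlgCl p) ≠ 0 := Nat.cast_ne_zero.mpr (Fact.out : p.Prime).ne_zero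
  -- the approximants, inside `B`
  have happ' : ∀ N : ℕ, ∃ ψN ∈ H, ∃ υ ∈ piSub p (X := X) (intPts p K),
      ψ = ψN + ((p : ℤ_[p]) ^ N) • υ := by
    intro N
    obtain ⟨ψN, hψN, hu⟩ := happ N
    choose u huint hueq using hu
    refine ⟨ψN, hψN, u, fun x => ⟨?_, huint x⟩, ?_⟩
    · have h1 : u x = (ψ x - ψN x) / (p : PadicAlgCl p) ^ N := by
        rw [hueq x, mul_div_cancel_left₀ _ (pow_ne_zero _ hp0)]
      rw [h1]
      exact K.div_mem (K.sub_mem (hψK x) (hHK ψN hψN x)) (pow_mem (K.natCast_mem p) N)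
    · funext x
      rw [Pi.add_apply, Pi.smul_apply, Algebra.smul_def, map_pow, map_natCast, ← hueq x]
      ring
  have hψB : ψ ∈ B := by
    obtain ⟨ψN, hψN, υ, hυ, h⟩ := happ' 0
    rw [h]
    exact B.add_mem (Submodule.mem_sup_left hψN) (B.smul_mem _ (Submodule.mem_sup_right hυ))
  have hI : Ideal.span {(p : ℤ_[p])} ≠ ⊤ := by
    rw [← PadicInt.maximalIdeal_eq_span_p]
    exact (IsLocalRing.maximalIdeal.isMaximal ℤ_[p]).ne_top
  have hK := Ideal.iInf_pow_smul_eq_bot_of_isLocalRing (R := ℤ_[p]) (M := B ⧸ H')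
    (Ideal.span {(p : ℤ_[p])}) hI
  have hmem : H'.mkQ ⟨ψ, hψB⟩ ∈ (⨅ i : ℕ, Ideal.span {(p : ℤ_[p])} ^ i •
      (⊤ : Submodule ℤ_[p] (B ⧸ H'))) := by
    rw [Submodule.mem_iInf]
    intro N
    obtain ⟨ψN, hψN, υ, hυ, h⟩ := happ' N
    have hψNB : ψN ∈ B := Submodule.mem_sup_left hψN
    have hυB : υ ∈ B := Submodule.mem_sup_right hυ
    have h1 : (⟨ψ, hψB⟩ : B) = ⟨ψN, hψNB⟩ + ((p : ℤ_[p]) ^ N) • ⟨υ, hυB⟩ := Subtype.ext h
    have h2 : H'.mkQ ⟨ψN, hψNB⟩ = 0 := by
      rw [Submodule.mkQ_apply, Submodule.Quotient.mk_eq_zero]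
      exact hψN
    rw [h1, map_add, h2, zero_add, map_smul]
    exact Submodule.smul_mem_smul (Ideal.pow_mem_pow (Ideal.mem_span_singleton_self _) N)
      Submodule.mem_top
  rw [hK, Submodule.mem_bot, Submodule.mkQ_apply, Submodule.Quotient.mk_eq_zero] at hmem
  exact hmem

/-- **finitely generated lattices are closed**: approximation in the norm. -/
theorem mem_of_forall_norm_approx (H : Submodule ℤ_[p] (X → PadicAlgCl p)) (hfg : H.FG)
    (ψ : X → PadicAlgCl p)
    (happ : ∀ N : ℕ, ∃ ψN ∈ H, ∀ x, ‖ψ x - ψN x‖ ≤ ((p : ℝ) ^ N)⁻¹) : ψ ∈ H := by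
  refine mem_of_forall_approx p H hfg ψ fun N => ?_
  obtain ⟨ψN, hψN, h⟩ := happ N
  refine ⟨ψN, hψN, fun x => ?_⟩
  have hp0 : (p : PadicAlgCl p) ≠ 0 := Nat.cast_ne_zero.mpr (Fact.out : p.Prime).ne_zero
  have hpn : ‖(p : PadicAlgCl p)‖ = (p : ℝ)⁻¹ := by
    have h1 : ((p : ℚ_[p]) : PadicAlgCl p) = (p : PadicAlgCl p) := map_natCast _ p
    rw [← h1, PadicAlgCl.norm_extends, Padic.norm_p]
  refine ⟨(ψ x - ψN x) / (p : PadicAlgCl p) ^ N, isIntegral_of_padicAlgCl_norm_le_one p ?_, ?_⟩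
  · rw [norm_div, norm_pow, hpn, inv_pow]
    have hpos : (0 : ℝ) < ((p : ℝ) ^ N)⁻¹ :=
      inv_pos.mpr (pow_pos (Nat.cast_pos.mpr (Fact.out : p.Prime).pos) _)
    rw [div_le_iff₀ hpos, one_mul]
    exact h x
  · rw [mul_div_cancel₀ _ (pow_ne_zero _ hp0)]

end closed

section tensor

variable {X Y : Type*} [Finite X] [Finite Y]

/-- the span of the products of two finitely generated lattices of functions. -/
noncomputable def prodSpan (H₁ : Submodule ℤ_[p] (X → PadicAlgCl p)) (H₂ : Submodule ℤ_[p] (Y → PadicAlgCl p)) :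
    Submodule ℤ_[p] (X × Y → PadicAlgCl p) :=
  Submodule.span ℤ_[p] {Φ | ∃ a ∈ H₁, ∃ b ∈ H₂, Φ = fun z => a z.1 * b z.2}

theorem prodSpan_fg {H₁ : Submodule ℤ_[p] (X → PadicAlgCl p)}
    {H₂ : Submodule ℤ_[p] (Y → PadicAlgCl p)} (h₁ : H₁.FG) (h₂ : H₂.FG) :
    (prodSpan p H₁ H₂).FG := by
  classical
  obtain ⟨S₁, hS₁⟩ := h₁
  obtain ⟨S₂, hS₂⟩ := h₂
  refine ⟨(S₁ ×ˢ S₂).image fun ab => fun z : X × Y => ab.1 z.1 * ab.2 z.2, ?_⟩
  apply le_antisymm
  · rw [Submodule.span_le]
    intro Φ hΦ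
    rw [Finset.mem_coe, Finset.mem_image] at hΦ
    obtain ⟨⟨a, b⟩, hab, rfl⟩ := hΦ
    rw [Finset.mem_product] at hab
    refine Submodule.subset_span ⟨a, ?_, b, ?_, rfl⟩
    · rw [← hS₁]
      exact Submodule.subset_span hab.1
    · rw [← hS₂]
      exact Submodule.subset_span hab.2
  · rw [prodSpan, Submodule.span_le]
    rintro _ ⟨a, ha, b, hb, rfl⟩
    rw [← hS₁] at ha
    rw [← hS₂] at hb
    induction ha using Submodule.span_induction with
    | mem a ha =>
      induction hb using Submodule.span_induction with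
      | mem b hb =>
        refine Submodule.subset_span ?_
        rw [Finset.mem_coe, Finset.mem_image]
        exact ⟨(a, b), Finset.mem_product.mpr ⟨ha, hb⟩, rfl⟩
      | zero =>
        have : (fun z : X × Y => a z.1 * (0 : Y → PadicAlgCl p) z.2) = 0 := by
          funext z
          simp
        rw [this]
        exact Submodule.zero_mem _
      | add b b' _ _ hb hb' =>
        have : (fun z : X × Y => a z.1 * (b + b') z.2) =
            (fun z : X × Y => a z.1 * b z.2) + fun z : X × Y => a z.1 * b' z.2 := by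
          funext z
          simp [mul_add]
        rw [this]
        exact Submodule.add_mem _ hb hb'
      | smul c b _ hb =>
        have : (fun z : X × Y => a z.1 * (c • b) z.2) =
            c • fun z : X × Y => a z.1 * b z.2 := by
          funext z
          simp only [Pi.smul_apply, Algebra.smul_def]
          ring
        rw [this]
        exact Submodule.smul_mem _ _ hb
    | zero =>
      have : (fun z : X × Y => (0 : X → PadicAlgCl p) z.1 * b z.2) = 0 := by
        funext z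
        simp
      rw [this]
      exact Submodule.zero_mem _
    | add a a' _ _ ha ha' =>
      have : (fun z : X × Y => (a + a') z.1 * b z.2) =
          (fun z : X × Y => a z.1 * b z.2) + fun z : X × Y => a' z.1 * b z.2 := by
        funext z
        simp [add_mul]
      rw [this]
      exact Submodule.add_mem _ ha ha'
    | smul c a _ ha =>
      have : (fun z : X × Y => (c • a) z.1 * b z.2) =
          c • fun z : X × Y => a z.1 * b z.2 := by
        funext z
        simp only [Pi.smul_apply, Algebra.smul_def]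
        ring
      rw [this]
      exact Submodule.smul_mem _ _ ha

/-- elements of the span of products are finite sums of products. -/
theorem exists_sum_mul_of_mem_prodSpan {H₁ : Submodule ℤ_[p] (X → PadicAlgCl p)}
    {H₂ : Submodule ℤ_[p] (Y → PadicAlgCl p)} {Φ : X × Y → PadicAlgCl p}
    (hΦ : Φ ∈ prodSpan p H₁ H₂) :
    ∃ (k : ℕ) (a : Fin k → X → PadicAlgCl p) (b : Fin k → Y → PadicAlgCl p),
      (∀ i, a i ∈ H₁) ∧ (∀ i, b i ∈ H₂) ∧ ∀ x y, Φ (x, y) = ∑ i, a i x * b i y := by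
  induction hΦ using Submodule.span_induction with
  | mem Φ hΦ =>
    obtain ⟨a, ha, b, hb, rfl⟩ := hΦ
    exact ⟨1, fun _ => a, fun _ => b, fun _ => ha, fun _ => hb, fun x y => by simp⟩
  | zero => exact ⟨0, Fin.elim0, Fin.elim0, fun i => i.elim0, fun i => i.elim0, fun x y => by simp⟩
  | add Φ Φ' _ _ h h' =>
    obtain ⟨k, a, b, ha, hb, hab⟩ := h
    obtain ⟨k', a', b', ha', hb', hab'⟩ := h'
    refine ⟨k + k', Fin.append a a', Fin.append b b', fun i => ?_, fun i => ?_, fun x y => ?_⟩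
    · refine Fin.addCases (fun j => ?_) (fun j => ?_) i
      · rw [Fin.append_left]; exact ha j
      · rw [Fin.append_right]; exact ha' j
    · refine Fin.addCases (fun j => ?_) (fun j => ?_) i
      · rw [Fin.append_left]; exact hb j
      · rw [Fin.append_right]; exact hb' j
    · rw [Pi.add_apply, hab, hab', Fin.sum_univ_add]
      simp only [Fin.append_left, Fin.append_right]
  | smul c Φ _ h =>
    obtain ⟨k, a, b, ha, hb, hab⟩ := h
    refine ⟨k, fun i => c • a i, b, fun i => H₁.smul_mem _ (ha i), hb, fun x y => ?_⟩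
    rw [Pi.smul_apply, hab, Finset.smul_sum]
    refine Finset.sum_congr rfl fun i _ => ?_
    simp only [Pi.smul_apply, Algebra.smul_def]
    ring

/-- **decomposition by approximation**: a function on `X × Y` which is approximated by sums of
products is a sum of products. -/
theorem exists_sum_mul_of_approx (H₁ : Submodule ℤ_[p] (X → PadicAlgCl p)) (h₁ : H₁.FG)
    (H₂ : Submodule ℤ_[p] (Y → PadicAlgCl p)) (h₂ : H₂.FG) (Φ : X × Y → PadicAlgCl p)
    (happ : ∀ N : ℕ, ∃ (k : ℕ) (a : Fin k → X → PadicAlgCl p) (b : Fin k → Y → PadicAlgCl p),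
      (∀ i, a i ∈ H₁) ∧ (∀ i, b i ∈ H₂) ∧
      ∀ x y, ‖Φ (x, y) - ∑ i, a i x * b i y‖ ≤ ((p : ℝ) ^ N)⁻¹) :
    ∃ (k : ℕ) (a : Fin k → X → PadicAlgCl p) (b : Fin k → Y → PadicAlgCl p),
      (∀ i, a i ∈ H₁) ∧ (∀ i, b i ∈ H₂) ∧ ∀ x y, Φ (x, y) = ∑ i, a i x * b i y := by
  refine exists_sum_mul_of_mem_prodSpan p
    (mem_of_forall_norm_approx p _ (prodSpan_fg p h₁ h₂) Φ fun N => ?_)
  obtain ⟨k, a, b, ha, hb, hab⟩ := happ N
  refine ⟨fun z => ∑ i, a i z.1 * b i z.2, ?_, fun z => hab z.1 z.2⟩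
  have h1 : (fun z : X × Y => ∑ i, a i z.1 * b i z.2) =
      ∑ i, fun z : X × Y => a i z.1 * b i z.2 := by
    funext z
    rw [Finset.sum_apply]
  rw [h1]
  exact Submodule.sum_mem _ fun i _ => Submodule.subset_span ⟨a i, ha i, b i, hb i, rfl⟩

/-- **the comultiplication by approximation.** -/
theorem exists_comul_of_approx {G : Type*} [Add G] [Finite G]
    (H : Subalgebra ℤ_[p] (G → PadicAlgCl p)) (hfg : (Subalgebra.toSubmodule H).FG)
    (ψ : G → PadicAlgCl p)
    (happ : ∀ N : ℕ, ∃ (k : ℕ) (a b : Fin k → G → PadicAlgCl p),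
      (∀ i, a i ∈ H) ∧ (∀ i, b i ∈ H) ∧
      ∀ g h : G, ‖ψ (g + h) - ∑ i, a i g * b i h‖ ≤ ((p : ℝ) ^ N)⁻¹) :
    ∃ (k : ℕ) (a b : Fin k → G → PadicAlgCl p),
      (∀ i, a i ∈ H) ∧ (∀ i, b i ∈ H) ∧ ∀ g h : G, ψ (g + h) = ∑ i, a i g * b i h :=
  exists_sum_mul_of_approx p (Subalgebra.toSubmodule H) hfg (Subalgebra.toSubmodule H) hfg
    (fun z => ψ (z.1 + z.2)) happ

end tensor

end Fermat.Agent.FG
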