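/-
S19/S32 [HOPF-DESC] — helper1 — **equivariant functions for an arbitrary Galois extension `L / K`.**

The same notions and results as `FG/HOPF_helper1_Def`, `FG/HOPF_helper1_Sep` (which are the case
`(K, L) = (ℚ, ℚ̄)`), for an arbitrary (possibly infinite) Galois extension `L / K`, `Γ = Gal(L/K)`,
needed for the local fields `(ℚ_p, ℚ̄_p)`.  Namespace `Fermat.Agent.FG.GF`.
-/
import Mathlib

set_option autoImplicit false
set_option linter.style.haveILetI false
set_option linter.unusedSectionVars false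

namespace Fermat.Agent.FG.GF

variable (K L : Type*) [Field K] [Field L] [Algebra K L]

section equiv

variable {X : Type*} [SMul (L ≃ₐ[K] L) X]

/-- Galois-equivariant functions with values in `L`. -/
def IsEquivFun (φ : X → L) : Prop := ∀ (σ : L ≃ₐ[K] L) (x : X), φ (σ • x) = σ (φ x)

variable {K L}

theorem IsEquivFun.add {φ ψ : X → L} (hφ : IsEquivFun K L φ) (hψ : IsEquivFun K L ψ) :
    IsEquivFun K L (φ + ψ) := fun σ x => by
  rw [Pi.add_apply, Pi.add_apply, hφ σ x, hψ σ x, map_add]

theorem IsEquivFun.mul {φ ψ : X → L} (hφ : IsEquivFun K L φ) (hψ : IsEquivFun K L ψ) :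
    IsEquivFun K L (φ * ψ) := fun σ x => by
  rw [Pi.mul_apply, Pi.mul_apply, hφ σ x, hψ σ x, map_mul]

theorem IsEquivFun.neg {φ : X → L} (hφ : IsEquivFun K L φ) : IsEquivFun K L (-φ) := fun σ x => by
  rw [Pi.neg_apply, Pi.neg_apply, hφ σ x, map_neg]

theorem IsEquivFun.sub {φ ψ : X → L} (hφ : IsEquivFun K L φ) (hψ : IsEquivFun K L ψ) :
    IsEquivFun K L (φ - ψ) := fun σ x => by
  rw [Pi.sub_apply, Pi.sub_apply, hφ σ x, hψ σ x, map_sub]

theorem isEquivFun_algebraMap (r : K) : IsEquivFun K L (X := X) (algebraMap K (X → L) r) :=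
  fun σ x => by
    rw [Pi.algebraMap_apply, Pi.algebraMap_apply, σ.commutes]

theorem IsEquivFun.smul {φ : X → L} (hφ : IsEquivFun K L φ) (r : K) : IsEquivFun K L (r • φ) :=
  fun σ x => by
    rw [Pi.smul_apply, Pi.smul_apply, hφ σ x, Algebra.smul_def, Algebra.smul_def, map_mul,
      σ.commutes]

variable (K L X) in
/-- the `K`-algebra of Galois-equivariant functions `X → L`. -/
def equivFun : Subalgebra K (X → L) where
  carrier := {φ | IsEquivFun K L φ}
  mul_mem' := fun ha hb => IsEquivFun.mul ha hb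
  add_mem' := fun ha hb => IsEquivFun.add ha hb
  algebraMap_mem' := fun r => isEquivFun_algebraMap r

theorem mem_equivFun {φ : X → L} : φ ∈ equivFun K L X ↔ IsEquivFun K L φ := Iff.rfl

end equiv

variable {K L}

/-- elements of `L` fixed by the whole Galois group lie in `K`. -/
theorem mem_range_of_fixed [IsGalois K L] (z : L) (hz : ∀ σ : L ≃ₐ[K] L, σ z = z) :
    z ∈ Set.range (algebraMap K L) :=
  (InfiniteGalois.mem_range_algebraMap_iff_fixed z).mpr hz

section sep

variable {X : Type*} [MulAction (L ≃ₐ[K] L) X]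

variable (K L) in
/-- the action is continuous at `x`: `x` is fixed by the Galois group of a finite subextension. -/
def IsContAt (x : X) : Prop :=
  ∃ E : IntermediateField K L, FiniteDimensional K E ∧
    ∀ σ : L ≃ₐ[K] L, (∀ a ∈ E, σ a = a) → σ • x = x

/-- the stabiliser of a point at which the action is continuous is closed. -/
theorem isClosed_stabilizer {x : X} (hx : IsContAt K L x) :
    IsClosed ((MulAction.stabilizer (L ≃ₐ[K] L) x : Subgroup (L ≃ₐ[K] L)) : Set (L ≃ₐ[K] L)) := by
  obtain ⟨E, hE, hfix⟩ := hx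
  have hle : E.fixingSubgroup ≤ MulAction.stabilizer (L ≃ₐ[K] L) x := by
    intro σ hσ
    rw [MulAction.mem_stabilizer_iff]
    refine hfix σ fun a ha => ?_
    exact (IntermediateField.mem_fixingSubgroup_iff E σ).mp hσ a ha
  have hopen : IsOpen ((MulAction.stabilizer (L ≃ₐ[K] L) x : Subgroup (L ≃ₐ[K] L)) :
      Set (L ≃ₐ[K] L)) :=
    Subgroup.isOpen_mono hle (IntermediateField.fixingSubgroup_isOpen E)
  exact Subgroup.isClosed_of_isOpen _ hopen

/-- an element of the Galois group not in the stabiliser of `x` moves some element of the fixed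
field of the stabiliser. -/
theorem exists_fixed_moved [IsGalois K L] {x : X} (hx : IsContAt K L x) (τ : L ≃ₐ[K] L)
    (hτ : τ • x ≠ x) :
    ∃ a : L, (∀ σ : L ≃ₐ[K] L, σ • x = x → σ a = a) ∧ τ a ≠ a := by
  have key := InfiniteGalois.fixingSubgroup_fixedField
    (⟨MulAction.stabilizer (L ≃ₐ[K] L) x, isClosed_stabilizer hx⟩ :
      ClosedSubgroup (L ≃ₐ[K] L))
  by_contra hcon
  push Not at hcon
  apply hτ
  have hmem : τ ∈ (IntermediateField.fixedField
      (⟨MulAction.stabilizer (L ≃ₐ[K] L) x, isClosed_stabilizer hx⟩ :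
        ClosedSubgroup (L ≃ₐ[K] L)).toSubgroup).fixingSubgroup := by
    rw [IntermediateField.mem_fixingSubgroup_iff]
    intro a ha
    refine hcon a fun σ hσ => ?_
    exact (IntermediateField.mem_fixedField_iff _ a).mp ha σ (MulAction.mem_stabilizer_iff.mpr hσ)
  rw [key] at hmem
  exact MulAction.mem_stabilizer_iff.mp hmem

/-- **equivariant functions separate points.** -/
theorem exists_isEquivFun_separating [IsGalois K L] (hcont : ∀ x : X, IsContAt K L x) (x x' : X)
    (hne : x ≠ x') : ∃ φ : X → L, IsEquivFun K L φ ∧ φ x ≠ φ x' := by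
  classical
  by_cases horb : x' ∈ MulAction.orbit (L ≃ₐ[K] L) x
  · obtain ⟨τ, hτ⟩ := MulAction.mem_orbit_iff.mp horb
    have hτx : τ • x ≠ x := by
      rw [hτ]
      exact fun h => hne h.symm
    obtain ⟨a, ha, hτa⟩ := exists_fixed_moved (hcont x) τ hτx
    have hwd : ∀ σ σ' : L ≃ₐ[K] L, σ • x = σ' • x → σ a = σ' a := by
      intro σ σ' h
      have h1 : (σ'⁻¹ * σ) • x = x := by
        rw [mul_smul, h, inv_smul_smul]
      have h2 := ha _ h1
      have h3 : σ' ((σ'⁻¹ * σ) a) = σ a := by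
        rw [AlgEquiv.mul_apply]
        exact AlgEquiv.apply_symm_apply σ' (σ a)
      rw [← h3, h2]
    obtain ⟨φ, hφ⟩ : ∃ φ : X → L, ∀ y, φ y =
        if h : y ∈ MulAction.orbit (L ≃ₐ[K] L) x then
          (Classical.choose (MulAction.mem_orbit_iff.mp h)) a
        else 0 := ⟨_, fun _ => rfl⟩
    have hφorb : ∀ σ : L ≃ₐ[K] L, φ (σ • x) = σ a := by
      intro σ
      have h : σ • x ∈ MulAction.orbit (L ≃ₐ[K] L) x := MulAction.mem_orbit x σ
      rw [hφ, dif_pos h]
      exact hwd _ _ (Classical.choose_spec (MulAction.mem_orbit_iff.mp h))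
    refine ⟨φ, ?_, ?_⟩
    · intro σ y
      by_cases hy : y ∈ MulAction.orbit (L ≃ₐ[K] L) x
      · obtain ⟨ρ, rfl⟩ := MulAction.mem_orbit_iff.mp hy
        rw [← mul_smul, hφorb, hφorb, AlgEquiv.mul_apply]
      · have hy' : σ • y ∉ MulAction.orbit (L ≃ₐ[K] L) x := by
          intro h
          apply hy
          obtain ⟨ρ, hρ⟩ := MulAction.mem_orbit_iff.mp h
          refine MulAction.mem_orbit_iff.mpr ⟨σ⁻¹ * ρ, ?_⟩
          rw [mul_smul, hρ, inv_smul_smul]
        rw [hφ, hφ, dif_neg hy, dif_neg hy', map_zero]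
    · have h1 : φ x = a := by
        have := hφorb 1
        rwa [one_smul, AlgEquiv.one_apply] at this
      have h2 : φ x' = τ a := by
        rw [← hτ]
        exact hφorb τ
      rw [h1, h2]
      exact fun h => hτa h.symm
  · refine ⟨fun y => if y ∈ MulAction.orbit (L ≃ₐ[K] L) x then 1 else 0, ?_, ?_⟩
    · intro σ y
      have hiff : σ • y ∈ MulAction.orbit (L ≃ₐ[K] L) x ↔ y ∈ MulAction.orbit (L ≃ₐ[K] L) x := by
        constructor
        · intro h
          obtain ⟨ρ, hρ⟩ := MulAction.mem_orbit_iff.mp h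
          refine MulAction.mem_orbit_iff.mpr ⟨σ⁻¹ * ρ, ?_⟩
          rw [mul_smul, hρ, inv_smul_smul]
        · intro h
          obtain ⟨ρ, hρ⟩ := MulAction.mem_orbit_iff.mp h
          refine MulAction.mem_orbit_iff.mpr ⟨σ * ρ, ?_⟩
          rw [mul_smul, hρ]
      by_cases hy : y ∈ MulAction.orbit (L ≃ₐ[K] L) x
      · simp only [if_pos hy, if_pos (hiff.mpr hy), map_one]
      · simp only [if_neg hy, if_neg (fun h => hy (hiff.mp h)), map_zero]
    · simp only [if_pos (MulAction.mem_orbit_self x), if_neg horb]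
      exact one_ne_zero

end sep

end Fermat.Agent.FG.GF
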