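/-
S19/S32 [HOPF-DESC] — helper1 — **the generic fibre `Map_Γ(X, L)` for an arbitrary Galois extension
`L / K`** (`Γ = Gal(L/K)`, `X` a finite `Γ`-set with continuous action): the results of
`FG/HOPF_helper1_Fibre` in this generality.  Namespace `Fermat.Agent.FG.GF`.
-/
import Mathlib
import Fermat.Agent.FG.HOPF_helper1_GenSep
import Fermat.Agent.FG.HOPF_helper1_Fibre

set_option autoImplicit false
set_option linter.style.haveILetI false
set_option linter.unusedSectionVars false

namespace Fermat.Agent.FG.GF

variable {K L : Type*} [Field K] [Field L] [Algebra K L] [IsGalois K L]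

section fibre

variable {X : Type*} [MulAction (L ≃ₐ[K] L) X]

/-- **Artin**: `K`-independent equivariant functions are `L`-independent. -/
theorem linearIndependent_of_isEquivFun {ι : Type*} (f : ι → X → L)
    (hf : ∀ i, IsEquivFun K L (f i)) (hind : LinearIndependent K f) : LinearIndependent L f :=
  Fermat.Agent.TW.Flat.linearIndependent_of_equivariant (G := (L ≃ₐ[K] L)) (F := L) K
    (fun z hz => mem_range_of_fixed z hz) f (fun σ i y => hf i σ y) hind

/-- the coefficients of an equivariant function with respect to an `L`-independent family of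
equivariant functions lie in `K`. -/
theorem rational_of_isEquivFun_sum {ι : Type*} [Fintype ι] (f : ι → X → L)
    (hf : ∀ i, IsEquivFun K L (f i)) (hind : LinearIndependent L f) (c : ι → L)
    (hψ : IsEquivFun K L (∑ i, c i • f i)) (i : ι) : c i ∈ Set.range (algebraMap K L) := by
  refine mem_range_of_fixed _ fun σ => ?_
  have h0 : ∑ j, (σ (c j) - c j) • f j = 0 := by
    funext z
    have h1 := hψ σ (σ⁻¹ • z)
    rw [smul_inv_smul, Finset.sum_apply, Finset.sum_apply, map_sum] at h1
    rw [Finset.sum_apply, Pi.zero_apply]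
    have h2 : ∀ j, σ ((c j • f j) (σ⁻¹ • z)) = σ (c j) * f j z := by
      intro j
      rw [Pi.smul_apply, smul_eq_mul, map_mul, ← hf j σ, smul_inv_smul]
    simp only [h2] at h1
    simp only [Pi.smul_apply, smul_eq_mul, sub_mul, Finset.sum_sub_distrib]
    rw [← h1]
    simp only [Pi.smul_apply, smul_eq_mul, sub_self]
  have := (Fintype.linearIndependent_iff.mp hind) _ h0 i
  exact sub_eq_zero.mp this

variable [Finite X]

/-- the equivariant functions span all functions. -/
theorem span_equivFun_eq_top (hcont : ∀ x : X, IsContAt K L x) :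
    Submodule.span L ((equivFun K L X : Subalgebra K (X → L)) : Set (X → L)) = ⊤ := by
  have h1 : Algebra.adjoin L ((equivFun K L X : Subalgebra K (X → L)) : Set (X → L)) = ⊤ := by
    refine subalgebra_eq_top_of_separates _ fun x y hxy => ?_
    obtain ⟨φ, hφ, hne⟩ := exists_isEquivFun_separating hcont x y hxy
    exact ⟨φ, Algebra.subset_adjoin hφ, hne⟩
  have h2 := Algebra.adjoin_eq_span L ((equivFun K L X : Subalgebra K (X → L)) : Set (X → L))
  have h3 : Submonoid.closure ((equivFun K L X : Subalgebra K (X → L)) : Set (X → L)) =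
      (equivFun K L X).toSubsemiring.toSubmonoid := Submonoid.closure_eq _
  rw [h1, h3] at h2
  rw [← Algebra.top_toSubmodule, h2]
  rfl

/-- the equivariant functions form a finite-dimensional `K`-vector space. -/
theorem finite_equivFun : Module.Finite K (equivFun K L X) := by
  classical
  haveI := Fintype.ofFinite X
  rw [← Module.rank_lt_aleph0_iff]
  refine lt_of_le_of_lt (rank_le (n := Fintype.card X) fun s hs => ?_) Cardinal.natCast_lt_aleph0
  have h1 : LinearIndependent K (fun i : s => (((i : equivFun K L X) : X → L))) :=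
    hs.map' (Subalgebra.val (equivFun K L X)).toLinearMap
      (LinearMap.ker_eq_bot.mpr Subtype.val_injective)
  have h2 := linearIndependent_of_isEquivFun _ (fun i : s => (i : equivFun K L X).2) h1
  have h3 := h2.fintype_card_le_finrank
  rw [Fintype.card_coe, Module.finrank_fintype_fun_eq_card] at h3
  exact h3

/-- a `K`-basis of the equivariant functions is an `L`-basis of all functions. -/
theorem equivFun_basis_spec (hcont : ∀ x : X, IsContAt K L x) {ι : Type*} [Fintype ι]
    (b : Module.Basis ι K (equivFun K L X)) :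
    LinearIndependent L (fun i => ((b i : equivFun K L X) : X → L)) ∧
      Submodule.span L (Set.range fun i => ((b i : equivFun K L X) : X → L)) = ⊤ := by
  have h1 : LinearIndependent K (fun i => ((b i : equivFun K L X) : X → L)) :=
    b.linearIndependent.map' (Subalgebra.val (equivFun K L X)).toLinearMap
      (LinearMap.ker_eq_bot.mpr Subtype.val_injective)
  refine ⟨linearIndependent_of_isEquivFun _ (fun i => (b i).2) h1, ?_⟩
  rw [eq_top_iff, ← span_equivFun_eq_top hcont, Submodule.span_le]
  intro φ hφ
  have h2 := b.sum_repr ⟨φ, hφ⟩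
  have h3 : φ = ∑ i, (algebraMap K L (b.repr ⟨φ, hφ⟩ i)) • ((b i : equivFun K L X) : X → L) := by
    have := congrArg (fun a : equivFun K L X => (a : X → L)) h2
    simp only at this
    refine this.symm.trans ?_
    rw [AddSubmonoidClass.coe_finsetSum]
    refine Finset.sum_congr rfl fun i _ => ?_
    funext x
    simp [Algebra.smul_def]
  rw [h3]
  exact Submodule.sum_mem _ fun i _ =>
    Submodule.smul_mem _ _ (Submodule.subset_span ⟨i, rfl⟩)

/-- **the dimension of the generic fibre.** -/
theorem finrank_equivFun (hcont : ∀ x : X, IsContAt K L x) :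
    Module.finrank K (equivFun K L X) = Nat.card X := by
  classical
  haveI := Fintype.ofFinite X
  haveI := finite_equivFun (K := K) (L := L) (X := X)
  obtain ⟨hli, hsp⟩ := equivFun_basis_spec hcont (Module.finBasis K (equivFun K L X))
  have hb := Module.Basis.mk hli hsp.ge
  have h1 := Module.finrank_eq_card_basis hb
  rw [Module.finrank_fintype_fun_eq_card, Fintype.card_fin] at h1
  rw [Nat.card_eq_fintype_card, h1]

end fibre

section tensor

variable {X Y : Type*} [MulAction (L ≃ₐ[K] L) X] [MulAction (L ≃ₐ[K] L) Y] [Finite X] [Finite Y]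

/-- **`Map_Γ(X × Y, L) = A_X ⊗ A_Y`**: every equivariant function on `X × Y` is a finite sum of
products of equivariant functions on the factors. -/
theorem exists_sum_mul_of_isEquivFun_prod (hX : ∀ x : X, IsContAt K L x)
    (hY : ∀ y : Y, IsContAt K L y) (ψ : X × Y → L) (hψ : IsEquivFun K L ψ) :
    ∃ (n : ℕ) (a : Fin n → X → L) (b : Fin n → Y → L), (∀ i, IsEquivFun K L (a i)) ∧
      (∀ i, IsEquivFun K L (b i)) ∧ ∀ x y, ψ (x, y) = ∑ i, a i x * b i y := by
  classical
  haveI := Fintype.ofFinite X
  haveI := Fintype.ofFinite Y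
  haveI := finite_equivFun (K := K) (L := L) (X := X)
  haveI := finite_equivFun (K := K) (L := L) (X := Y)
  set bX := Module.finBasis K (equivFun K L X) with hbX
  set bY := Module.finBasis K (equivFun K L Y) with hbY
  obtain ⟨hXli, -⟩ := equivFun_basis_spec hX bX
  obtain ⟨hYli, -⟩ := equivFun_basis_spec hY bY
  have hli := linearIndependent_prod_mul _ _ hXli hYli
  have hcard : Fintype.card (Fin (Module.finrank K (equivFun K L X)) ×
      Fin (Module.finrank K (equivFun K L Y))) = Module.finrank L (X × Y → L) := by
    rw [Fintype.card_prod, Fintype.card_fin, Fintype.card_fin, finrank_equivFun hX,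
      finrank_equivFun hY, Module.finrank_fintype_fun_eq_card, Fintype.card_prod,
      Nat.card_eq_fintype_card, Nat.card_eq_fintype_card]
  have hsp := hli.span_eq_top_of_card_eq_finrank' hcard
  have hmem : ψ ∈ Submodule.span L (Set.range fun p : Fin (Module.finrank K (equivFun K L X)) ×
      Fin (Module.finrank K (equivFun K L Y)) =>
      fun z : X × Y => ((bX p.1 : equivFun K L X) : X → L) z.1 *
        ((bY p.2 : equivFun K L Y) : Y → L) z.2) := by
    rw [hsp]
    exact Submodule.mem_top
  obtain ⟨c, hc⟩ := (Submodule.mem_span_range_iff_exists_fun L).mp hmem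
  have hFeq : ∀ p : Fin (Module.finrank K (equivFun K L X)) ×
      Fin (Module.finrank K (equivFun K L Y)),
      IsEquivFun K L (fun z : X × Y =>
        ((bX p.1 : equivFun K L X) : X → L) z.1 * ((bY p.2 : equivFun K L Y) : Y → L) z.2) := by
    intro p σ z
    show ((bX p.1 : equivFun K L X) : X → L) (σ • z.1) *
      ((bY p.2 : equivFun K L Y) : Y → L) (σ • z.2) = _
    rw [(bX p.1).2 σ z.1, (bY p.2).2 σ z.2, map_mul]
  have hrat := rational_of_isEquivFun_sum _ hFeq hli c (by rw [hc]; exact hψ)
  choose r hr using hrat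
  let e := Fintype.equivFin (Fin (Module.finrank K (equivFun K L X)) ×
    Fin (Module.finrank K (equivFun K L Y)))
  refine ⟨_, fun i => r (e.symm i) • ((bX (e.symm i).1 : equivFun K L X) : X → L),
    fun i => ((bY (e.symm i).2 : equivFun K L Y) : Y → L), fun i => ?_, fun i => (bY _).2, ?_⟩
  · exact IsEquivFun.smul (bX _).2 _
  · intro x y
    have h1 := congrFun hc (x, y)
    rw [Finset.sum_apply] at h1
    rw [← h1, ← e.symm.sum_comp]
    refine Finset.sum_congr rfl fun i _ => ?_
    simp only [Pi.smul_apply, smul_eq_mul, ← hr, Algebra.smul_def]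
    ring

end tensor

section group

variable {G : Type*} [AddCommGroup G] [Finite G] [DistribMulAction (L ≃ₐ[K] L) G]

/-- **the comultiplication of the generic fibre**. -/
theorem equivFun_comul (hcont : ∀ g : G, IsContAt K L g) (φ : G → L) (hφ : IsEquivFun K L φ) :
    ∃ (n : ℕ) (a b : Fin n → G → L), (∀ i, IsEquivFun K L (a i)) ∧
      (∀ i, IsEquivFun K L (b i)) ∧ ∀ g h : G, φ (g + h) = ∑ i, a i g * b i h := by
  have hψ : IsEquivFun K L (fun z : G × G => φ (z.1 + z.2)) := by
    intro σ z
    show φ (σ • z.1 + σ • z.2) = σ (φ (z.1 + z.2))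
    rw [← smul_add, hφ]
  obtain ⟨n, a, b, ha, hb, hab⟩ := exists_sum_mul_of_isEquivFun_prod hcont hcont _ hψ
  exact ⟨n, a, b, ha, hb, fun g h => hab g h⟩

end group

end Fermat.Agent.FG.GF
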