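/-
S19/S32 [HOPF-DESC] — helper1 — **lattice descent `ℤ_p → ℤ_(p)`, part A: the local picture.**

`ι = padicEmbedding p : ℚ̄ → ℚ̄_p`, `Γ_p = Gal(ℚ̄_p/ℚ_p)` acting on the finite `GQ`-module `G` through
`localGaloisToGlobal p`.  A `ℚ`-basis `(b_i)` of the global generic fibre `A = Map_GQ(G, ℚ̄)` gives
a `ℚ̄_p`-basis `(ι ∘ b_i)` of `Map(G, ℚ̄_p)` consisting of locally equivariant functions, and every
locally equivariant function has coordinates in `ℚ_p` with respect to it.
-/
import Mathlib
import Fermat.Prelude.Def_GaloisRep_CompletionBridge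
import Fermat.Prelude.Def_GaloisRep_Flat
import Fermat.Agent.FG.HOPF_helper1_Fibre
import Fermat.Agent.FG.HOPF_helper1_GenFibre

set_option autoImplicit false
set_option linter.style.haveILetI false
set_option linter.unusedSectionVars false

namespace Fermat.Agent.FG

local notation "Ω" => AlgebraicClosure ℚ
local notation "GQ" => (AlgebraicClosure ℚ ≃ₐ[ℚ] AlgebraicClosure ℚ)

/-- a field homomorphism preserves the linear independence of families of functions on a finite
set. -/
theorem linearIndependent_comp_ringHom {F F' : Type*} [Field F] [Field F'] (ι : F →+* F')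
    {X J : Type*} [Finite X] [Fintype J] (f : J → X → F) (hf : LinearIndependent F f) :
    LinearIndependent F' (fun j => fun x => ι (f j x)) := by
  classical
  haveI := Fintype.ofFinite X
  have hinj : Function.Injective (Fintype.linearCombination F f) :=
    linearIndependent_iff_injective_fintypeLinearCombination.mp hf
  obtain ⟨S, hS⟩ := (Fintype.linearCombination F f).exists_leftInverse_of_injective
    (LinearMap.ker_eq_bot.mpr hinj)
  have hSf : ∀ j k : J, ∑ x, S (Pi.single x 1) j * f k x = if j = k then 1 else 0 := by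
    intro j k
    have h1 : S (f k) = Pi.single k 1 := by
      have := LinearMap.congr_fun hS (Pi.single k 1)
      simp only [LinearMap.coe_comp, Function.comp_apply, LinearMap.id_coe, id_eq] at this
      rw [← this]
      congr 1
      rw [Fintype.linearCombination_apply]
      simp [Pi.single_apply]
    have h2 : f k = ∑ x, f k x • (Pi.single x 1 : X → F) := by
      funext y
      rw [Finset.sum_apply]
      simp [Pi.single_apply]
    have h3 := congrFun h1 j
    rw [h2, map_sum, Finset.sum_apply] at h3
    rw [Pi.single_apply] at h3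
    rw [← h3]
    refine Finset.sum_congr rfl fun x _ => ?_
    rw [map_smul, Pi.smul_apply, smul_eq_mul, mul_comm]
  rw [Fintype.linearIndependent_iff]
  intro c hc j
  have h4 : ∀ x, ∑ k, c k * ι (f k x) = 0 := by
    intro x
    have := congrFun hc x
    simpa [Finset.sum_apply] using this
  have h5 : ∑ x, ι (S (Pi.single x 1) j) * ∑ k, c k * ι (f k x) = 0 := by
    simp only [h4, mul_zero, Finset.sum_const_zero]
  have h6 : ∑ x, ι (S (Pi.single x 1) j) * ∑ k, c k * ι (f k x) =
      ∑ k, c k * ι (∑ x, S (Pi.single x 1) j * f k x) := by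
    simp only [Finset.mul_sum, map_sum, map_mul]
    rw [Finset.sum_comm]
    refine Finset.sum_congr rfl fun k _ => Finset.sum_congr rfl fun x _ => ?_
    ring
  rw [h6] at h5
  simp only [hSf] at h5
  simpa using h5

variable (p : ℕ) [Fact p.Prime]

section loc

variable {G : Type*} [MulAction GQ G]

/-- the action of the local Galois group on a `GQ`-set. -/
@[reducible] noncomputable def locAct : MulAction (PadicAlgCl p ≃ₐ[ℚ_[p]] PadicAlgCl p) G :=
  MulAction.compHom G (localGaloisToGlobal p)

/-- local equivariance of a function with values in `ℚ̄_p`. -/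
def IsLocEquivFun (φ : G → PadicAlgCl p) : Prop :=
  ∀ (τ : PadicAlgCl p ≃ₐ[ℚ_[p]] PadicAlgCl p) (g : G),
    φ (localGaloisToGlobal p τ • g) = τ (φ g)

theorem isLocEquivFun_iff (φ : G → PadicAlgCl p) :
    IsLocEquivFun p φ ↔ @GF.IsEquivFun ℚ_[p] (PadicAlgCl p) _ _ _ G (locAct p).toSMul φ :=
  Iff.rfl

/-- a globally equivariant function is locally equivariant after `ι`. -/
theorem IsEquivFun.isLocEquivFun {φ : G → Ω} (hφ : IsEquivFun φ) :
    IsLocEquivFun p (fun g => padicEmbedding p (φ g)) := fun τ g => by
  show padicEmbedding p (φ (localGaloisToGlobal p τ • g)) = τ (padicEmbedding p (φ g))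
  rw [hφ, padicEmbedding_localGaloisToGlobal]

theorem padicEmbedding_injective : Function.Injective (padicEmbedding p) :=
  (padicEmbedding p).toRingHom.injective

/-- local continuity follows from global continuity. -/
theorem IsContAt.loc {g : G} (hg : IsContAt g) :
    @GF.IsContAt ℚ_[p] (PadicAlgCl p) _ _ _ G (locAct p) g := by
  classical
  obtain ⟨L, hL, hfix⟩ := hg
  let bL := Module.finBasis ℚ L
  let S : Set (PadicAlgCl p) := Set.range fun i => padicEmbedding p ((bL i : L) : Ω)
  have hSfin : Finite S := Set.finite_range _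
  have hSint : ∀ x ∈ S, IsIntegral ℚ_[p] x := fun x _ =>
    (PadicAlgCl.isAlgebraic p).isIntegral.isIntegral x
  refine ⟨IntermediateField.adjoin ℚ_[p] S, IntermediateField.finiteDimensional_adjoin hSint,
    fun τ hτ => ?_⟩
  show localGaloisToGlobal p τ • g = g
  refine hfix _ fun a ha => ?_
  have hbasis : ∀ i, localGaloisToGlobal p τ ((bL i : L) : Ω) = ((bL i : L) : Ω) := by
    intro i
    apply padicEmbedding_injective p
    rw [padicEmbedding_localGaloisToGlobal]
    exact hτ _ (IntermediateField.subset_adjoin _ _ ⟨i, rfl⟩)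
  have hrepr := bL.sum_repr ⟨a, ha⟩
  have ha' : a = ∑ i, (bL.repr ⟨a, ha⟩ i) • ((bL i : L) : Ω) := by
    have := congrArg (fun z : L => (z : Ω)) hrepr
    simp only at this
    refine this.symm.trans ?_
    simp only [IntermediateField.coe_sum, IntermediateField.coe_smul]
  rw [ha', map_sum]
  refine Finset.sum_congr rfl fun i _ => ?_
  rw [Algebra.smul_def, map_mul, AlgEquiv.commutes, hbasis]

end loc

section basis

variable {G : Type*} [MulAction GQ G] [Finite G]

/-- the image under `ι` of a function. -/
noncomputable def padicFun (φ : G → Ω) : G → PadicAlgCl p := fun g => padicEmbedding p (φ g)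

theorem padicFun_apply (φ : G → Ω) (g : G) : padicFun p φ g = padicEmbedding p (φ g) := rfl

theorem padicFun_injective : Function.Injective (padicFun p (G := G)) := fun φ ψ h => by
  funext g
  exact padicEmbedding_injective p (congrFun h g)

theorem padicFun_add (φ ψ : G → Ω) : padicFun p (φ + ψ) = padicFun p φ + padicFun p ψ := by
  funext g
  simp [padicFun]

theorem padicFun_mul (φ ψ : G → Ω) : padicFun p (φ * ψ) = padicFun p φ * padicFun p ψ := by
  funext g
  simp [padicFun]

theorem padicFun_sum {J : Type*} (s : Finset J) (f : J → G → Ω) :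
    padicFun p (∑ j ∈ s, f j) = ∑ j ∈ s, padicFun p (f j) := by
  funext g
  simp [padicFun, Finset.sum_apply]

theorem padicFun_rat_smul (r : ℚ) (φ : G → Ω) :
    padicFun p (r • φ) = (algebraMap ℚ_[p] (PadicAlgCl p) (r : ℚ_[p])) • padicFun p φ := by
  funext g
  simp only [padicFun, Pi.smul_apply, smul_eq_mul, Algebra.smul_def, map_mul, AlgHom.commutes]
  congr 1

/-- a `ℚ`-basis of the global generic fibre gives a `ℚ̄_p`-basis of all functions. -/
theorem padic_basis_spec (hcont : ∀ g : G, IsContAt g) {J : Type*} [Fintype J]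
    (b : Module.Basis J ℚ (equivFun G)) :
    LinearIndependent (PadicAlgCl p) (fun i => padicFun p ((b i : equivFun G) : G → Ω)) ∧
      Submodule.span (PadicAlgCl p)
        (Set.range fun i => padicFun p ((b i : equivFun G) : G → Ω)) = ⊤ := by
  classical
  haveI := Fintype.ofFinite G
  haveI := finite_equivFun (X := G)
  have h1 := (equivFun_basis_spec hcont b).1
  have h2 : LinearIndependent (PadicAlgCl p)
      (fun i => padicFun p ((b i : equivFun G) : G → Ω)) :=
    linearIndependent_comp_ringHom (padicEmbedding p).toRingHom _ h1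
  refine ⟨h2, h2.span_eq_top_of_card_eq_finrank' ?_⟩
  rw [Module.finrank_fintype_fun_eq_card, ← Module.finrank_eq_card_basis b,
    finrank_equivFun hcont, Nat.card_eq_fintype_card]

/-- **coordinates of locally equivariant functions lie in `ℚ_p`.** -/
theorem exists_padic_coord (hcont : ∀ g : G, IsContAt g) {J : Type*} [Fintype J]
    (b : Module.Basis J ℚ (equivFun G)) (ψ : G → PadicAlgCl p) (hψ : IsLocEquivFun p ψ) :
    ∃ c : J → ℚ_[p], ψ = ∑ i, (algebraMap ℚ_[p] (PadicAlgCl p) (c i)) •
      padicFun p ((b i : equivFun G) : G → Ω) := by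
  classical
  letI := locAct p (G := G)
  obtain ⟨hli, hsp⟩ := padic_basis_spec p hcont b
  have hmem : ψ ∈ Submodule.span (PadicAlgCl p)
      (Set.range fun i => padicFun p ((b i : equivFun G) : G → Ω)) := by
    rw [hsp]
    exact Submodule.mem_top
  obtain ⟨c', hc'⟩ := (Submodule.mem_span_range_iff_exists_fun (PadicAlgCl p)).mp hmem
  have hβ : ∀ i, GF.IsEquivFun ℚ_[p] (PadicAlgCl p)
      (padicFun p ((b i : equivFun G) : G → Ω)) := fun i =>
    (isLocEquivFun_iff p _).mp (IsEquivFun.isLocEquivFun p (b i).2)
  have hrat := GF.rational_of_isEquivFun_sum _ hβ hli c'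
    (by rw [hc']; exact (isLocEquivFun_iff p _).mp hψ)
  choose c hc using hrat
  refine ⟨c, ?_⟩
  rw [← hc']
  exact Finset.sum_congr rfl fun i _ => by rw [hc]

end basis

end Fermat.Agent.FG
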