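/-
S19/S32 [HOPF-DESC] — helper1 — **lattice descent `ℤ_p → ℤ_(p)`, part B: the adapted basis.**

For a `ℤ_p`-subalgebra `H_p ⊆ Map(G, ℚ̄_p)` of locally equivariant functions, finitely generated
as a module and separating the points of `G`, there is a family `(h_j)` of globally equivariant
functions `G → ℚ̄` such that `(ι ∘ h_j)` is a `ℤ_p`-basis of `H_p` (and a `ℚ̄_p`-basis of all
functions): approximate the coordinates of a `ℤ_p`-basis of `H_p` by rational numbers and apply
Nakayama's lemma.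
-/
import Mathlib
import Fermat.Agent.FG.HOPF_helper1_LatA

set_option autoImplicit false
set_option linter.style.haveILetI false
set_option linter.unusedSectionVars false

namespace Fermat.Agent.FG

local notation "Ω" => AlgebraicClosure ℚ
local notation "GQ" => (AlgebraicClosure ℚ ≃ₐ[ℚ] AlgebraicClosure ℚ)

variable (p : ℕ) [Fact p.Prime]

/-- every `p`-adic number becomes integral after multiplication by a power of `p`. -/
theorem exists_pow_mul_norm_le_one (x : ℚ_[p]) : ∃ a : ℕ, ∀ a' : ℕ, a ≤ a' →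
    ‖(p : ℚ_[p]) ^ a' * x‖ ≤ 1 := by
  have hp : (1 : ℝ) < p := by exact_mod_cast (Fact.out : p.Prime).one_lt
  obtain ⟨a, ha⟩ := pow_unbounded_of_one_lt ‖x‖ hp
  refine ⟨a, fun a' haa' => ?_⟩
  rw [norm_mul, norm_pow, Padic.norm_p]
  have h1 : ‖x‖ ≤ (p : ℝ) ^ a' := ha.le.trans (pow_le_pow_right₀ hp.le haa')
  have h2 : (0 : ℝ) < (p : ℝ) ^ a' := pow_pos (by linarith) _
  rw [inv_pow, inv_mul_le_iff₀ h2, mul_one]
  exact h1

/-- a uniform exponent for a finite family. -/
theorem exists_pow_mul_norm_le_one_fin {J : Type*} [Finite J] (x : J → ℚ_[p]) :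
    ∃ a : ℕ, ∀ j, ‖(p : ℚ_[p]) ^ a * x j‖ ≤ 1 := by
  classical
  haveI := Fintype.ofFinite J
  choose a ha using fun j => exists_pow_mul_norm_le_one p (x j)
  exact ⟨Finset.univ.sup a, fun j => ha j _ (Finset.le_sup (Finset.mem_univ j))⟩

/-- approximation of `p`-adic numbers by rationals. -/
theorem exists_rat_sub_eq_pow_mul (x : ℚ_[p]) (N : ℕ) :
    ∃ (q : ℚ) (z : ℤ_[p]), x - (q : ℚ_[p]) = (p : ℚ_[p]) ^ N * (z : ℚ_[p]) := by
  have hp : (0 : ℝ) < p := by exact_mod_cast (Fact.out : p.Prime).pos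
  have hε : (0 : ℝ) < ((p : ℝ) ^ N)⁻¹ := inv_pos.mpr (pow_pos hp _)
  obtain ⟨q, hq⟩ := Padic.rat_dense p x hε
  have hpN : (p : ℚ_[p]) ^ N ≠ 0 := pow_ne_zero _ (by exact_mod_cast (Fact.out : p.Prime).ne_zero)
  have hz : ‖(x - (q : ℚ_[p])) / (p : ℚ_[p]) ^ N‖ ≤ 1 := by
    rw [norm_div, norm_pow, Padic.norm_p, inv_pow, div_le_iff₀ hε, one_mul]
    exact hq.le
  refine ⟨q, ⟨_, hz⟩, ?_⟩
  show x - (q : ℚ_[p]) = (p : ℚ_[p]) ^ N * ((x - (q : ℚ_[p])) / (p : ℚ_[p]) ^ N)
  field_simp

theorem ratLoc_norm_le_one (r : GaloisRep.ratLocalizedAt p) : ‖((r : ℚ) : ℚ_[p])‖ ≤ 1 := by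
  refine Padic.norm_rat_le_one ?_
  have hr : (r : ℚ).den.Coprime p := r.2
  intro hdvd
  have := Nat.Coprime.eq_one_of_dvd hr.symm hdvd
  exact (Fact.out : p.Prime).one_lt.ne' this

theorem mem_ratLoc_of_norm_le_one (q : ℚ) (h : ‖(q : ℚ_[p])‖ ≤ 1) :
    q ∈ GaloisRep.ratLocalizedAt p := by
  show q.den.Coprime p
  have hu := PadicInt.isUnit_den q h
  rw [PadicInt.isUnit_iff] at hu
  rw [Nat.coprime_comm, (Fact.out : p.Prime).coprime_iff_not_dvd]
  intro hdvd
  have : ‖((q.den : ℕ) : ℤ_[p])‖ < 1 := by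
    have := (PadicInt.norm_int_lt_one_iff_dvd (p := p) (q.den : ℤ)).mpr (by exact_mod_cast hdvd)
    simpa using this
  linarith

section descent

variable {G : Type*} [MulAction GQ G] [Finite G]

/-- the scalar action of `ℤ_p` on functions, through `ℚ_p`. -/
theorem padicInt_smul_eq (z : ℤ_[p]) (ψ : G → PadicAlgCl p) :
    z • ψ = (algebraMap ℚ_[p] (PadicAlgCl p) (z : ℚ_[p])) • ψ := by
  funext g
  rw [Pi.smul_apply, Pi.smul_apply, Algebra.smul_def, smul_eq_mul,
    IsScalarTower.algebraMap_apply ℤ_[p] ℚ_[p] (PadicAlgCl p)]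
  rfl

theorem algebraMap_padicInt_injective :
    Function.Injective (algebraMap ℤ_[p] (PadicAlgCl p)) := by
  rw [IsScalarTower.algebraMap_eq ℤ_[p] ℚ_[p] (PadicAlgCl p)]
  exact (algebraMap ℚ_[p] (PadicAlgCl p)).injective.comp (IsFractionRing.injective ℤ_[p] ℚ_[p])

/-- **the adapted basis.** -/
theorem exists_adapted_basis (hcont : ∀ g : G, IsContAt g)
    (M : Submodule ℤ_[p] (G → PadicAlgCl p)) (hloc : ∀ ψ ∈ M, IsLocEquivFun p ψ) (hfg : M.FG)
    (hspan : Submodule.span (PadicAlgCl p) (M : Set (G → PadicAlgCl p)) = ⊤) :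
    ∃ (m : ℕ) (h : Fin m → G → Ω), (∀ j, IsEquivFun (h j)) ∧
      LinearIndependent (PadicAlgCl p) (fun j => padicFun p (h j)) ∧
      Submodule.span ℤ_[p] (Set.range fun j => padicFun p (h j)) = M := by
  classical
  letI := locAct p (G := G)
  haveI := Fintype.ofFinite G
  haveI := finite_equivFun (X := G)
  haveI : Module.Finite ℤ_[p] M := Module.Finite.iff_fg.mpr hfg
  haveI : Module.IsTorsionFree ℤ_[p] M := by
    refine Module.IsTorsionFree.of_smul_eq_zero fun r v hrv => ?_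
    by_cases hr : r = 0
    · exact Or.inl hr
    right
    apply Subtype.ext
    funext g
    have h1 := congrFun (congrArg Subtype.val hrv) g
    simp only [Submodule.coe_smul, Pi.smul_apply, Submodule.coe_zero, Pi.zero_apply,
      Algebra.smul_def] at h1
    have h2 : algebraMap ℤ_[p] (PadicAlgCl p) r ≠ 0 := by
      intro h0
      exact hr (algebraMap_padicInt_injective p (by rw [h0, map_zero]))
    exact (mul_eq_zero.mp h1).resolve_left h2
  obtain ⟨m, η⟩ := Module.basisOfFiniteTypeTorsionFree' (R := ℤ_[p]) (M := M)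
  -- the basis of `M` as functions
  obtain ⟨f, hf⟩ : ∃ f : Fin m → G → PadicAlgCl p, ∀ j, f j = (η j : G → PadicAlgCl p) :=
    ⟨_, fun _ => rfl⟩
  have hfM : ∀ j, f j ∈ M := fun j => by rw [hf]; exact (η j).2
  have hfloc : ∀ j, GF.IsEquivFun ℚ_[p] (PadicAlgCl p) (f j) := fun j =>
    (isLocEquivFun_iff p _).mp (hloc _ (hfM j))
  have hindZ : LinearIndependent ℤ_[p] f := by
    have h1 : LinearIndependent ℤ_[p] (fun j => M.subtype (η j)) :=
      η.linearIndependent.map' _ (Submodule.ker_subtype _)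
    have h2 : (fun j => M.subtype (η j)) = f := by
      funext j
      rw [hf]
      rfl
    rwa [h2] at h1
  have hindQ : LinearIndependent ℚ_[p] f := (LinearIndependent.iff_fractionRing ℤ_[p] ℚ_[p]).mp hindZ
  have hindC : LinearIndependent (PadicAlgCl p) f :=
    GF.linearIndependent_of_isEquivFun f hfloc hindQ
  -- every element of `M` is a `ℤ_p`-combination of the `f j`
  have hMf : ∀ ψ ∈ M, ∃ z : Fin m → ℤ_[p], ψ = ∑ j, z j • f j := by
    intro ψ hψ
    refine ⟨fun j => η.repr ⟨ψ, hψ⟩ j, ?_⟩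
    have h1 := η.sum_repr ⟨ψ, hψ⟩
    have h2 := congrArg (fun v : M => (v : G → PadicAlgCl p)) h1
    simp only at h2
    refine h2.symm.trans ?_
    rw [Submodule.coe_sum]
    refine Finset.sum_congr rfl fun j _ => ?_
    rw [Submodule.coe_smul, hf]
  have hspanf : Submodule.span (PadicAlgCl p) (Set.range f) = ⊤ := by
    rw [eq_top_iff, ← hspan, Submodule.span_le]
    intro ψ hψ
    obtain ⟨z, hz⟩ := hMf ψ hψ
    rw [hz]
    refine Submodule.sum_mem _ fun j _ => ?_
    rw [padicInt_smul_eq]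
    exact Submodule.smul_mem _ _ (Submodule.subset_span ⟨j, rfl⟩)
  -- the global basis
  set b := Module.finBasis ℚ (equivFun G) with hb
  obtain ⟨β, hβ⟩ : ∃ β : Fin (Module.finrank ℚ (equivFun G)) → G → PadicAlgCl p,
      ∀ i, β i = padicFun p ((b i : equivFun G) : G → Ω) := ⟨_, fun _ => rfl⟩
  have hβloc : ∀ i, GF.IsEquivFun ℚ_[p] (PadicAlgCl p) (β i) := fun i => by
    rw [hβ]
    exact (isLocEquivFun_iff p _).mp (IsEquivFun.isLocEquivFun p (b i).2)
  -- coordinates of `β i` with respect to `f`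
  have hd : ∀ i, ∃ d : Fin m → ℚ_[p], β i = ∑ j, algebraMap ℚ_[p] (PadicAlgCl p) (d j) • f j := by
    intro i
    have hmem : β i ∈ Submodule.span (PadicAlgCl p) (Set.range f) := by
      rw [hspanf]
      exact Submodule.mem_top
    obtain ⟨c', hc'⟩ := (Submodule.mem_span_range_iff_exists_fun (PadicAlgCl p)).mp hmem
    have hrat := GF.rational_of_isEquivFun_sum f hfloc hindC c' (by rw [hc']; exact hβloc i)
    choose c hc using hrat
    refine ⟨c, ?_⟩
    rw [← hc']
    exact Finset.sum_congr rfl fun j _ => by rw [hc]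
  choose d hd using hd
  obtain ⟨e, he⟩ := exists_pow_mul_norm_le_one_fin p
    (fun ij : Fin (Module.finrank ℚ (equivFun G)) × Fin m => d ij.1 ij.2)
  -- `p ^ e • β i ∈ M`
  have hw : ∀ i j, ∃ w : ℤ_[p], (w : ℚ_[p]) = (p : ℚ_[p]) ^ e * d i j := fun i j =>
    ⟨⟨_, he (i, j)⟩, rfl⟩
  choose w hw using hw
  have hβM : ∀ i, ((p : ℤ_[p]) ^ e) • β i ∈ M := by
    intro i
    have h1 : ((p : ℤ_[p]) ^ e) • β i = ∑ j, w i j • f j := by
      rw [hd i, Finset.smul_sum]
      refine Finset.sum_congr rfl fun j _ => ?_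
      rw [padicInt_smul_eq, padicInt_smul_eq, smul_smul, ← map_mul, hw i j]
      congr 2
    rw [h1]
    exact Submodule.sum_mem _ fun j _ => Submodule.smul_mem _ _ (hfM j)
  -- coordinates of `f j` with respect to `β`
  have hc : ∀ j, ∃ c : Fin (Module.finrank ℚ (equivFun G)) → ℚ_[p],
      f j = ∑ i, algebraMap ℚ_[p] (PadicAlgCl p) (c i) • β i := by
    intro j
    obtain ⟨c, hc⟩ := exists_padic_coord p hcont b (f j) (hloc _ (hfM j))
    exact ⟨c, by rw [hc]; exact Finset.sum_congr rfl fun i _ => by rw [hβ]⟩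
  choose c hc using hc
  -- rational approximations
  have happ : ∀ j i, ∃ (q : ℚ) (z : ℤ_[p]),
      c j i - (q : ℚ_[p]) = (p : ℚ_[p]) ^ (e + 1) * (z : ℚ_[p]) :=
    fun j i => exists_rat_sub_eq_pow_mul p (c j i) (e + 1)
  choose q z hqz using happ
  obtain ⟨h, hh⟩ : ∃ h : Fin m → G → Ω, ∀ j, h j = ∑ i, q j i • ((b i : equivFun G) : G → Ω) :=
    ⟨_, fun _ => rfl⟩
  have hheq : ∀ j, IsEquivFun (h j) := by
    intro j
    rw [hh]
    have : (∑ i, q j i • ((b i : equivFun G) : G → Ω)) ∈ equivFun G :=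
      Subalgebra.sum_mem _ fun i _ => Subalgebra.smul_mem _ (b i).2 _
    exact this
  have hph : ∀ j, padicFun p (h j) =
      ∑ i, algebraMap ℚ_[p] (PadicAlgCl p) ((q j i : ℚ) : ℚ_[p]) • β i := by
    intro j
    rw [hh, padicFun_sum]
    refine Finset.sum_congr rfl fun i _ => ?_
    rw [padicFun_rat_smul, hβ]
  -- the difference lies in `p • M`
  have hdiff : ∀ j, f j - padicFun p (h j) =
      (p : ℤ_[p]) • ∑ i, z j i • (((p : ℤ_[p]) ^ e) • β i) := by
    intro j
    rw [hc j, hph j, ← Finset.sum_sub_distrib, Finset.smul_sum]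
    refine Finset.sum_congr rfl fun i _ => ?_
    rw [← sub_smul, ← map_sub, hqz j i, padicInt_smul_eq, padicInt_smul_eq, padicInt_smul_eq,
      smul_smul, smul_smul, ← map_mul, ← map_mul]
    congr 2
    push_cast
    ring
  have hdiffM : ∀ j, ∑ i, z j i • (((p : ℤ_[p]) ^ e) • β i) ∈ M := fun j =>
    Submodule.sum_mem _ fun i _ => Submodule.smul_mem _ _ (hβM i)
  have hphM : ∀ j, padicFun p (h j) ∈ M := by
    intro j
    have h1 : padicFun p (h j) = f j - (p : ℤ_[p]) • ∑ i, z j i • (((p : ℤ_[p]) ^ e) • β i) := by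
      rw [← hdiff j]
      abel
    rw [h1]
    exact Submodule.sub_mem _ (hfM j) (Submodule.smul_mem _ _ (hdiffM j))
  -- Nakayama
  have hle : Submodule.span ℤ_[p] (Set.range fun j => padicFun p (h j)) ≤ M := by
    rw [Submodule.span_le]
    rintro _ ⟨j, rfl⟩
    exact hphM j
  have hjac : (Ideal.span {(p : ℤ_[p])}) ≤ Ideal.jacobson ⊥ := by
    rw [IsLocalRing.jacobson_eq_maximalIdeal ⊥ bot_ne_top, PadicInt.maximalIdeal_eq_span_p]
  have hnak : M ≤ Submodule.span ℤ_[p] (Set.range fun j => padicFun p (h j)) ⊔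
      (Ideal.span {(p : ℤ_[p])}) • M := by
    intro ψ hψ
    obtain ⟨w, hw⟩ := hMf ψ hψ
    rw [hw]
    refine Submodule.sum_mem _ fun j _ => Submodule.smul_mem _ _ ?_
    have h1 : f j = padicFun p (h j) + (p : ℤ_[p]) • ∑ i, z j i • (((p : ℤ_[p]) ^ e) • β i) := by
      rw [← hdiff j]
      abel
    rw [h1]
    refine Submodule.add_mem _ (Submodule.mem_sup_left (Submodule.subset_span ⟨j, rfl⟩))
      (Submodule.mem_sup_right ?_)
    exact Submodule.smul_mem_smul (Ideal.subset_span rfl) (hdiffM j)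
  have heq : Submodule.span ℤ_[p] (Set.range fun j => padicFun p (h j)) = M :=
    le_antisymm hle (Submodule.le_of_le_smul_of_le_jacobson_bot hfg hjac hnak)
  refine ⟨m, h, hheq, ?_, heq⟩
  -- independence
  obtain ⟨γ, hγ⟩ : ∃ γ : Fin m → M, ∀ j, γ j = ⟨padicFun p (h j), hphM j⟩ := ⟨_, fun _ => rfl⟩
  have hγspan : ⊤ ≤ Submodule.span ℤ_[p] (Set.range γ) := by
    intro v _
    have hv : (v : G → PadicAlgCl p) ∈
        Submodule.span ℤ_[p] (Set.range fun j => padicFun p (h j)) := by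
      rw [heq]
      exact v.2
    obtain ⟨w, hw⟩ := (Submodule.mem_span_range_iff_exists_fun ℤ_[p]).mp hv
    have : v = ∑ j, w j • γ j := by
      apply Subtype.ext
      rw [← hw, Submodule.coe_sum]
      refine Finset.sum_congr rfl fun j _ => ?_
      rw [Submodule.coe_smul, hγ]
    rw [this]
    exact Submodule.sum_mem _ fun j _ => Submodule.smul_mem _ _ (Submodule.subset_span ⟨j, rfl⟩)
  have hγind : LinearIndependent ℤ_[p] γ :=
    linearIndependent_of_top_le_span_of_card_eq_finrank hγspan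
      (by rw [Module.finrank_eq_card_basis η])
  have hZ : LinearIndependent ℤ_[p] (fun j => padicFun p (h j)) := by
    have h1 : LinearIndependent ℤ_[p] (fun j => M.subtype (γ j)) :=
      hγind.map' _ (Submodule.ker_subtype _)
    have h2 : (fun j => M.subtype (γ j)) = fun j => padicFun p (h j) := by
      funext j
      rw [hγ]
      rfl
    rwa [h2] at h1
  have hQ : LinearIndependent ℚ_[p] (fun j => padicFun p (h j)) :=
    (LinearIndependent.iff_fractionRing ℤ_[p] ℚ_[p]).mp hZ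
  exact GF.linearIndependent_of_isEquivFun _
    (fun j => (isLocEquivFun_iff p _).mp (IsEquivFun.isLocEquivFun p (hheq j))) hQ

end descent

end Fermat.Agent.FG
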