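/-
S19/S32 [HOPF-DESC] — helper1 — **lattice descent `ℤ_p → ℤ_(p)`, part C: the descended order.**

For a `ℤ_p`-subalgebra `H_p ⊆ Map(G, ℚ̄_p)` of locally equivariant functions, finitely generated
as a module, separating the points of `G` and stable under the comultiplication,
`latDescent p H_p := {φ : G → ℚ̄ equivariant | ι ∘ φ ∈ H_p}` is a Hopf order over `ℤ_(p)`
(`latDescent_isHopfOrder`).
-/
import Mathlib
import Fermat.Agent.FG.HOPF_helper1_LatB

set_option autoImplicit false
set_option linter.style.haveILetI false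
set_option linter.unusedSectionVars false

namespace Fermat.Agent.FG

local notation "Ω" => AlgebraicClosure ℚ
local notation "GQ" => (AlgebraicClosure ℚ ≃ₐ[ℚ] AlgebraicClosure ℚ)

variable (p : ℕ) [Fact p.Prime]

section general

variable {G : Type*} [MulAction GQ G] [Finite G]

theorem padicFun_one : padicFun p (1 : G → Ω) = 1 := by
  funext g
  simp [padicFun]

theorem padicFun_zero : padicFun p (0 : G → Ω) = 0 := by
  funext g
  simp [padicFun]

theorem padicEmbedding_rat (q : ℚ) :
    padicEmbedding p (algebraMap ℚ Ω q) = algebraMap ℚ_[p] (PadicAlgCl p) (q : ℚ_[p]) := by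
  rw [AlgHom.commutes]
  simp

/-- the element of `ℤ_p` attached to an element of `ℤ_(p)`. -/
noncomputable def ratLocToPadicInt (r : GaloisRep.ratLocalizedAt p) : ℤ_[p] :=
  ⟨((r : ℚ) : ℚ_[p]), ratLoc_norm_le_one p r⟩

theorem ratLocToPadicInt_coe (r : GaloisRep.ratLocalizedAt p) :
    ((ratLocToPadicInt p r : ℤ_[p]) : ℚ_[p]) = ((r : ℚ) : ℚ_[p]) := rfl

theorem padicFun_ratLoc_smul (r : GaloisRep.ratLocalizedAt p) (φ : G → Ω) :
    padicFun p (r • φ) = ratLocToPadicInt p r • padicFun p φ := by
  have h1 : r • φ = (r : ℚ) • φ := rfl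
  rw [h1, padicFun_rat_smul, padicInt_smul_eq, ratLocToPadicInt_coe]

theorem padicFun_ratLoc_algebraMap (r : GaloisRep.ratLocalizedAt p) :
    padicFun p (algebraMap (GaloisRep.ratLocalizedAt p) (G → Ω) r) =
      algebraMap ℤ_[p] (G → PadicAlgCl p) (ratLocToPadicInt p r) := by
  rw [Algebra.algebraMap_eq_smul_one, Algebra.algebraMap_eq_smul_one, padicFun_ratLoc_smul,
    padicFun_one]

/-- **the descended order**: the equivariant functions `G → ℚ̄` whose image under `ι` lies in the
local order. -/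
noncomputable def latDescent (Hp : Subalgebra ℤ_[p] (G → PadicAlgCl p)) :
    Subalgebra (GaloisRep.ratLocalizedAt p) (G → Ω) where
  carrier := {φ | IsEquivFun φ ∧ padicFun p φ ∈ Hp}
  mul_mem' := fun ha hb => ⟨ha.1.mul hb.1, by rw [padicFun_mul]; exact Hp.mul_mem ha.2 hb.2⟩
  add_mem' := fun ha hb => ⟨ha.1.add hb.1, by rw [padicFun_add]; exact Hp.add_mem ha.2 hb.2⟩
  algebraMap_mem' := fun r => ⟨isEquivFun_algebraMap (r : ℚ), by
    rw [padicFun_ratLoc_algebraMap]
    exact Hp.algebraMap_mem _⟩

theorem mem_latDescent {Hp : Subalgebra ℤ_[p] (G → PadicAlgCl p)} {φ : G → Ω} :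
    φ ∈ latDescent p Hp ↔ IsEquivFun φ ∧ padicFun p φ ∈ Hp := Iff.rfl

/-- independence descends along `ι`. -/
theorem linearIndependent_of_padicFun {J : Type*} [Fintype J] (h : J → G → Ω)
    (hind : LinearIndependent (PadicAlgCl p) (fun j => padicFun p (h j))) :
    LinearIndependent Ω h := by
  rw [Fintype.linearIndependent_iff] at hind ⊢
  intro c hc j
  have h1 : ∑ i, padicEmbedding p (c i) • padicFun p (h i) = 0 := by
    funext g
    have h2 := congrArg (padicEmbedding p) (congrFun hc g)
    rw [Finset.sum_apply, map_sum, Pi.zero_apply, map_zero] at h2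
    rw [Finset.sum_apply, Pi.zero_apply, ← h2]
    refine Finset.sum_congr rfl fun i _ => ?_
    rw [Pi.smul_apply, Pi.smul_apply, smul_eq_mul, smul_eq_mul, map_mul, padicFun_apply]
  have h3 := hind _ h1 j
  exact padicEmbedding_injective p (by rw [h3, map_zero])

/-- a separating subalgebra over `ℤ_p` spans all functions over `ℚ̄_p`. -/
theorem span_eq_top_of_separates (Hp : Subalgebra ℤ_[p] (G → PadicAlgCl p))
    (hsep : ∀ g g' : G, g ≠ g' → ∃ ψ ∈ Hp, ψ g ≠ ψ g') :
    Submodule.span (PadicAlgCl p) (Hp : Set (G → PadicAlgCl p)) = ⊤ := by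
  have h1 : Algebra.adjoin (PadicAlgCl p) (Hp : Set (G → PadicAlgCl p)) = ⊤ :=
    subalgebra_eq_top_of_separates _ fun g g' hgg' => by
      obtain ⟨ψ, hψ, hne⟩ := hsep g g' hgg'
      exact ⟨ψ, Algebra.subset_adjoin hψ, hne⟩
  have h2 : Submonoid.closure (Hp : Set (G → PadicAlgCl p)) = Hp.toSubmonoid :=
    Submonoid.closure_eq Hp.toSubmonoid
  have h3 := Algebra.adjoin_eq_span (PadicAlgCl p) (Hp : Set (G → PadicAlgCl p))
  rw [h1, h2] at h3
  exact h3.symm

end general

section order

variable {G : Type} [AddCommGroup G] [DistribMulAction GQ G] [Finite G]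

/-- **lattice descent**: a local Hopf order over `ℤ_p` in `Map(G, ℚ̄_p)` descends to a Hopf order
over `ℤ_(p)` in `Map(G, ℚ̄)`. -/
theorem latDescent_isHopfOrder (hcont : ∀ g : G, IsContAt g)
    (Hp : Subalgebra ℤ_[p] (G → PadicAlgCl p))
    (hloc : ∀ ψ ∈ Hp, IsLocEquivFun p ψ)
    (hfg : (Subalgebra.toSubmodule Hp).FG)
    (hsep : ∀ g g' : G, g ≠ g' → ∃ ψ ∈ Hp, ψ g ≠ ψ g')
    (hcomul : ∀ ψ ∈ Hp, ∃ (n : ℕ) (a b : Fin n → G → PadicAlgCl p), (∀ i, a i ∈ Hp) ∧
      (∀ i, b i ∈ Hp) ∧ ∀ g h : G, ψ (g + h) = ∑ i, a i g * b i h) :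
    IsHopfOrder G p (latDescent p Hp) := by
  classical
  haveI := Fintype.ofFinite G
  have hspan := span_eq_top_of_separates p Hp hsep
  obtain ⟨m, h, hheq, hindC, hspanZ⟩ :=
    exists_adapted_basis p hcont (Subalgebra.toSubmodule Hp) hloc hfg hspan
  -- the `h j` lie in the descended order
  have hhmem : ∀ j, h j ∈ latDescent p Hp := fun j =>
    ⟨hheq j, by
      have : padicFun p (h j) ∈ Submodule.span ℤ_[p] (Set.range fun j => padicFun p (h j)) :=
        Submodule.subset_span ⟨j, rfl⟩
      rw [hspanZ] at this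
      exact this⟩
  -- `ι ∘ h` is a basis over `ℚ̄_p`
  have hspanC : Submodule.span (PadicAlgCl p) (Set.range fun j => padicFun p (h j)) = ⊤ := by
    rw [eq_top_iff, ← hspan, Submodule.span_le]
    intro ψ hψ
    have h1 : ψ ∈ Submodule.span ℤ_[p] (Set.range fun j => padicFun p (h j)) := by
      rw [hspanZ]
      exact hψ
    obtain ⟨z, hz⟩ := (Submodule.mem_span_range_iff_exists_fun ℤ_[p]).mp h1
    rw [← hz]
    refine Submodule.sum_mem _ fun j _ => ?_
    rw [padicInt_smul_eq]
    exact Submodule.smul_mem _ _ (Submodule.subset_span ⟨j, rfl⟩)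
  have hm : m = Fintype.card G := by
    have h1 := Module.finrank_eq_card_basis (Module.Basis.mk hindC hspanC.ge)
    rw [Module.finrank_fintype_fun_eq_card, Fintype.card_fin] at h1
    exact h1.symm
  -- `h` is a basis over `ℚ̄`
  have hindΩ : LinearIndependent Ω h := linearIndependent_of_padicFun p h hindC
  have hspanΩ : Submodule.span Ω (Set.range h) = ⊤ :=
    hindΩ.span_eq_top_of_card_eq_finrank' (by
      rw [Module.finrank_fintype_fun_eq_card, Fintype.card_fin, hm])
  -- the key description of the descended order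
  have hkey : ∀ φ ∈ latDescent p Hp, ∃ r : Fin m → GaloisRep.ratLocalizedAt p,
      φ = ∑ j, r j • h j := by
    intro φ hφ
    have hmem : φ ∈ Submodule.span Ω (Set.range h) := by
      rw [hspanΩ]
      exact Submodule.mem_top
    obtain ⟨c, hc⟩ := (Submodule.mem_span_range_iff_exists_fun Ω).mp hmem
    have hrat := rational_of_isEquivFun_sum h hheq hindΩ c (by rw [hc]; exact hφ.1)
    choose q hq using hrat
    have hφq : φ = ∑ j, q j • h j := by
      rw [← hc]
      refine Finset.sum_congr rfl fun j _ => ?_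
      rw [← hq j]
      funext g
      simp only [Pi.smul_apply, Algebra.smul_def]
      rfl
    -- the local coordinates
    have h1 : padicFun p φ ∈ Submodule.span ℤ_[p] (Set.range fun j => padicFun p (h j)) := by
      rw [hspanZ]
      exact hφ.2
    obtain ⟨z, hz⟩ := (Submodule.mem_span_range_iff_exists_fun ℤ_[p]).mp h1
    have h2 : ∑ j, (algebraMap ℚ_[p] (PadicAlgCl p) ((q j : ℚ_[p]) - (z j : ℚ_[p]))) •
        padicFun p (h j) = 0 := by
      have h3 : padicFun p φ = ∑ j, (algebraMap ℚ_[p] (PadicAlgCl p) (q j : ℚ_[p])) •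
          padicFun p (h j) := by
        rw [hφq, padicFun_sum]
        exact Finset.sum_congr rfl fun j _ => padicFun_rat_smul p _ _
      have h4 : padicFun p φ = ∑ j, (algebraMap ℚ_[p] (PadicAlgCl p) (z j : ℚ_[p])) •
          padicFun p (h j) := by
        rw [← hz]
        exact Finset.sum_congr rfl fun j _ => padicInt_smul_eq p _ _
      simp only [map_sub, sub_smul, Finset.sum_sub_distrib]
      rw [← h3, ← h4, sub_self]
    have h5 := Fintype.linearIndependent_iff.mp hindC _ h2
    have h6 : ∀ j, ((q j : ℚ) : ℚ_[p]) = (z j : ℚ_[p]) := fun j => by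
      have := h5 j
      rw [map_eq_zero] at this
      exact sub_eq_zero.mp this
    have h7 : ∀ j, q j ∈ GaloisRep.ratLocalizedAt p := fun j =>
      mem_ratLoc_of_norm_le_one p (q j) (by rw [h6 j]; exact (z j).2)
    refine ⟨fun j => ⟨q j, h7 j⟩, ?_⟩
    rw [hφq]
    rfl
  refine ⟨fun φ hφ => hφ.1, ?_, ?_, ?_⟩
  · -- finitely generated
    have h1 : Subalgebra.toSubmodule (latDescent p Hp) =
        Submodule.span (GaloisRep.ratLocalizedAt p) (Set.range h) := by
      refine le_antisymm (fun φ hφ => ?_) (Submodule.span_le.mpr ?_)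
      · obtain ⟨r, hr⟩ := hkey φ hφ
        rw [hr]
        exact Submodule.sum_mem _ fun j _ =>
          Submodule.smul_mem _ _ (Submodule.subset_span ⟨j, rfl⟩)
      · rintro _ ⟨j, rfl⟩
        exact hhmem j
    rw [h1]
    exact Submodule.fg_span (Set.finite_range h)
  · -- separation
    intro g g' hgg'
    by_contra hcon
    have hall : ∀ j, h j g = h j g' := fun j => by
      by_contra hne
      exact hcon ⟨h j, hhmem j, hne⟩
    have hmem : (Pi.single g 1 : G → Ω) ∈ Submodule.span Ω (Set.range h) := by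
      rw [hspanΩ]
      exact Submodule.mem_top
    obtain ⟨c, hc⟩ := (Submodule.mem_span_range_iff_exists_fun Ω).mp hmem
    have h1 := congrFun hc g
    have h2 := congrFun hc g'
    rw [Finset.sum_apply] at h1 h2
    simp only [Pi.smul_apply, hall] at h1
    rw [Pi.single_eq_same] at h1
    simp only [Pi.smul_apply] at h2
    rw [h1, Pi.single_eq_of_ne (Ne.symm hgg')] at h2
    exact one_ne_zero h2
  · -- comultiplication
    intro φ hφ
    -- the global coefficients
    have hli2 := linearIndependent_prod_mul (X := G) (Y := G) h h hindΩ hindΩ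
    have hcard : Fintype.card (Fin m × Fin m) = Module.finrank Ω (G × G → Ω) := by
      rw [Fintype.card_prod, Fintype.card_fin, Module.finrank_fintype_fun_eq_card,
        Fintype.card_prod, hm]
    have hsp2 := hli2.span_eq_top_of_card_eq_finrank' hcard
    have hmem : (fun z : G × G => φ (z.1 + z.2)) ∈ Submodule.span Ω
        (Set.range fun jk : Fin m × Fin m => fun z : G × G => h jk.1 z.1 * h jk.2 z.2) := by
      rw [hsp2]
      exact Submodule.mem_top
    obtain ⟨c, hc⟩ := (Submodule.mem_span_range_iff_exists_fun Ω).mp hmem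
    have hFeq : ∀ jk : Fin m × Fin m,
        IsEquivFun (fun z : G × G => h jk.1 z.1 * h jk.2 z.2) := by
      intro jk σ z
      show h jk.1 (σ • z.1) * h jk.2 (σ • z.2) = _
      rw [hheq jk.1 σ z.1, hheq jk.2 σ z.2, map_mul]
    have hψeq : IsEquivFun (fun z : G × G => φ (z.1 + z.2)) := by
      intro σ z
      show φ (σ • z.1 + σ • z.2) = σ (φ (z.1 + z.2))
      rw [← smul_add, hφ.1]
    have hrat := rational_of_isEquivFun_sum _ hFeq hli2 c (by rw [hc]; exact hψeq)
    choose q hq using hrat
    have hglob : ∀ g g' : G, φ (g + g') = ∑ jk : Fin m × Fin m,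
        algebraMap ℚ Ω (q jk) * (h jk.1 g * h jk.2 g') := by
      intro g g'
      have h1 := congrFun hc (g, g')
      rw [Finset.sum_apply] at h1
      rw [← h1]
      refine Finset.sum_congr rfl fun jk _ => ?_
      rw [hq jk]
      rfl
    -- the local coefficients
    obtain ⟨n, a, b, ha, hb, hab⟩ := hcomul _ hφ.2
    have hcoord : ∀ ψ ∈ Hp, ∃ z : Fin m → ℤ_[p], ψ = ∑ j, z j • padicFun p (h j) := by
      intro ψ hψ
      have h1 : ψ ∈ Submodule.span ℤ_[p] (Set.range fun j => padicFun p (h j)) := by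
        rw [hspanZ]
        exact hψ
      obtain ⟨z, hz⟩ := (Submodule.mem_span_range_iff_exists_fun ℤ_[p]).mp h1
      exact ⟨z, hz.symm⟩
    choose α hα using fun i => hcoord (a i) (ha i)
    choose β hβ using fun i => hcoord (b i) (hb i)
    obtain ⟨w, hw⟩ : ∃ w : Fin m × Fin m → ℤ_[p], ∀ jk, w jk = ∑ i, α i jk.1 * β i jk.2 :=
      ⟨_, fun _ => rfl⟩
    have hlocal : ∀ g g' : G, padicEmbedding p (φ (g + g')) = ∑ jk : Fin m × Fin m,
        algebraMap ℚ_[p] (PadicAlgCl p) (w jk : ℚ_[p]) *
          (padicFun p (h jk.1) g * padicFun p (h jk.2) g') := by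
      intro g g'
      have h1 : padicEmbedding p (φ (g + g')) = padicFun p φ (g + g') := rfl
      rw [h1, hab g g']
      have h2 : ∀ i, a i g * b i g' = ∑ jk : Fin m × Fin m,
          algebraMap ℚ_[p] (PadicAlgCl p) ((α i jk.1 * β i jk.2 : ℤ_[p]) : ℚ_[p]) *
            (padicFun p (h jk.1) g * padicFun p (h jk.2) g') := by
        intro i
        rw [hα i, hβ i, Finset.sum_apply, Finset.sum_apply, Finset.sum_mul_sum,
          Fintype.sum_prod_type]
        refine Finset.sum_congr rfl fun j _ => Finset.sum_congr rfl fun k _ => ?_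
        rw [padicInt_smul_eq, padicInt_smul_eq, Pi.smul_apply, Pi.smul_apply, smul_eq_mul,
          smul_eq_mul]
        rw [PadicInt.coe_mul, map_mul]
        ring
      rw [Finset.sum_congr rfl fun i _ => h2 i, Finset.sum_comm]
      refine Finset.sum_congr rfl fun jk _ => ?_
      rw [← Finset.sum_mul, hw jk]
      congr 1
      rw [PadicInt.coe_sum, map_sum]
    -- comparison of the coefficients
    have hliC := linearIndependent_prod_mul (X := G) (Y := G) (fun j => padicFun p (h j))
      (fun j => padicFun p (h j)) hindC hindC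
    have hzero : ∑ jk : Fin m × Fin m,
        (algebraMap ℚ_[p] (PadicAlgCl p) (((q jk : ℚ) : ℚ_[p]) - (w jk : ℚ_[p]))) •
          (fun z : G × G => padicFun p (h jk.1) z.1 * padicFun p (h jk.2) z.2) = 0 := by
      funext z
      rw [Finset.sum_apply, Pi.zero_apply]
      have h1 := hlocal z.1 z.2
      have h2 := congrArg (padicEmbedding p) (hglob z.1 z.2)
      rw [map_sum] at h2
      rw [h2] at h1
      rw [← sub_eq_zero, ← Finset.sum_sub_distrib] at h1
      rw [← h1]
      refine Finset.sum_congr rfl fun jk _ => ?_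
      rw [Pi.smul_apply, smul_eq_mul, map_sub, sub_mul, map_mul, map_mul, padicEmbedding_rat,
        padicFun_apply, padicFun_apply]
    have h5 := Fintype.linearIndependent_iff.mp hliC _ hzero
    have h6 : ∀ jk, ((q jk : ℚ) : ℚ_[p]) = (w jk : ℚ_[p]) := fun jk => by
      have := h5 jk
      rw [map_eq_zero] at this
      exact sub_eq_zero.mp this
    have h7 : ∀ jk, q jk ∈ GaloisRep.ratLocalizedAt p := fun jk =>
      mem_ratLoc_of_norm_le_one p (q jk) (by rw [h6 jk]; exact (w jk).2)
    let e := Fintype.equivFin (Fin m × Fin m)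
    refine ⟨_, fun i => (⟨q (e.symm i), h7 _⟩ : GaloisRep.ratLocalizedAt p) • h (e.symm i).1,
      fun i => h (e.symm i).2, fun i => Subalgebra.smul_mem _ (hhmem _) _, fun i => hhmem _, ?_⟩
    intro g g'
    rw [hglob g g', ← e.symm.sum_comp]
    refine Finset.sum_congr rfl fun i _ => ?_
    have h8 : ((⟨q (e.symm i), h7 _⟩ : GaloisRep.ratLocalizedAt p) • h (e.symm i).1) g =
        algebraMap ℚ Ω (q (e.symm i)) * h (e.symm i).1 g := by
      rw [Pi.smul_apply, Algebra.smul_def]
      rfl
    show _ = ((⟨q (e.symm i), h7 _⟩ : GaloisRep.ratLocalizedAt p) • h (e.symm i).1) g *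
      h (e.symm i).2 g'
    rw [h8]
    ring

end order

end Fermat.Agent.FG
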