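/-
S19/S32 [HOPF-DESC] — helper1 — **unramified descent, part D: the conjugation action and the
trace.**

`Γ = Gal(ℚ̄_p/ℚ_p)` acts on functions `G → ℚ̄_p` by `(τ · φ)(g) = τ (φ (τ⁻¹ g))`; a function is
locally equivariant iff it is fixed by this action.  For a subgroup `Γ' ≤ Γ` of finite index and
a `Γ'`-fixed function `φ`, the trace `trFun φ = ∑_{c ∈ Γ/Γ'} c · φ` is locally equivariant, and
for a trace-dual family `(θ_i, θ'_i)` (`∑_i θ_i τ(θ'_i) = [τ ∈ Γ']`) one has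
`φ = ∑_i θ_i • trFun (θ'_i • φ)`.
-/
import Mathlib
import Fermat.Agent.FG.HOPF_helper1_LatC

set_option autoImplicit false
set_option linter.style.haveILetI false
set_option linter.unusedSectionVars false

namespace Fermat.Agent.FG

local notation "Ω" => AlgebraicClosure ℚ
local notation "GQ" => (AlgebraicClosure ℚ ≃ₐ[ℚ] AlgebraicClosure ℚ)

variable (p : ℕ) [Fact p.Prime]

section conj

variable {G : Type*} [MulAction GQ G]

/-- the conjugation action of the local Galois group on functions. -/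
noncomputable def conjFun (τ : PadicAlgCl p ≃ₐ[ℚ_[p]] PadicAlgCl p) (φ : G → PadicAlgCl p) :
    G → PadicAlgCl p :=
  fun g => τ (φ (localGaloisToGlobal p τ⁻¹ • g))

theorem conjFun_apply (τ : PadicAlgCl p ≃ₐ[ℚ_[p]] PadicAlgCl p) (φ : G → PadicAlgCl p) (g : G) :
    conjFun p τ φ g = τ (φ (localGaloisToGlobal p τ⁻¹ • g)) := rfl

theorem conjFun_one (φ : G → PadicAlgCl p) : conjFun p 1 φ = φ := by
  funext g
  rw [conjFun_apply, inv_one, map_one, one_smul]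
  rfl

theorem conjFun_mul_act (σ τ : PadicAlgCl p ≃ₐ[ℚ_[p]] PadicAlgCl p) (φ : G → PadicAlgCl p) :
    conjFun p (σ * τ) φ = conjFun p σ (conjFun p τ φ) := by
  funext g
  rw [conjFun_apply, conjFun_apply, conjFun_apply, mul_inv_rev, map_mul, mul_smul]
  rfl

theorem conjFun_add (τ : PadicAlgCl p ≃ₐ[ℚ_[p]] PadicAlgCl p) (φ ψ : G → PadicAlgCl p) :
    conjFun p τ (φ + ψ) = conjFun p τ φ + conjFun p τ ψ := by
  funext g
  simp only [conjFun_apply, Pi.add_apply, map_add]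

theorem conjFun_mul (τ : PadicAlgCl p ≃ₐ[ℚ_[p]] PadicAlgCl p) (φ ψ : G → PadicAlgCl p) :
    conjFun p τ (φ * ψ) = conjFun p τ φ * conjFun p τ ψ := by
  funext g
  simp only [conjFun_apply, Pi.mul_apply, map_mul]

theorem conjFun_smul (τ : PadicAlgCl p ≃ₐ[ℚ_[p]] PadicAlgCl p) (c : PadicAlgCl p)
    (φ : G → PadicAlgCl p) : conjFun p τ (c • φ) = τ c • conjFun p τ φ := by
  funext g
  simp only [conjFun_apply, Pi.smul_apply, smul_eq_mul, map_mul]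

theorem conjFun_sum {J : Type*} (τ : PadicAlgCl p ≃ₐ[ℚ_[p]] PadicAlgCl p) (s : Finset J)
    (f : J → G → PadicAlgCl p) : conjFun p τ (∑ j ∈ s, f j) = ∑ j ∈ s, conjFun p τ (f j) := by
  funext g
  simp only [conjFun_apply, Finset.sum_apply, map_sum]

/-- local equivariance = invariance under conjugation. -/
theorem isLocEquivFun_iff_conjFun (φ : G → PadicAlgCl p) :
    IsLocEquivFun p φ ↔ ∀ τ : PadicAlgCl p ≃ₐ[ℚ_[p]] PadicAlgCl p, conjFun p τ φ = φ := by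
  constructor
  · intro h τ
    funext g
    rw [conjFun_apply, ← h τ, ← mul_smul, ← map_mul, mul_inv_cancel, map_one, one_smul]
  · intro h τ g
    have h1 := congrFun (h τ) (localGaloisToGlobal p τ • g)
    rw [conjFun_apply, ← mul_smul, ← map_mul, inv_mul_cancel, map_one, one_smul] at h1
    exact h1.symm

/-- invariance under a subgroup. -/
def IsSubEquivFun (Γ' : Subgroup (PadicAlgCl p ≃ₐ[ℚ_[p]] PadicAlgCl p))
    (φ : G → PadicAlgCl p) : Prop :=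
  ∀ ρ ∈ Γ', ∀ g : G, φ (localGaloisToGlobal p ρ • g) = ρ (φ g)

theorem isSubEquivFun_iff_conjFun (Γ' : Subgroup (PadicAlgCl p ≃ₐ[ℚ_[p]] PadicAlgCl p))
    (φ : G → PadicAlgCl p) :
    IsSubEquivFun p Γ' φ ↔ ∀ ρ ∈ Γ', conjFun p ρ φ = φ := by
  constructor
  · intro h ρ hρ
    funext g
    rw [conjFun_apply, ← h ρ hρ, ← mul_smul, ← map_mul, mul_inv_cancel, map_one, one_smul]
  · intro h ρ hρ g
    have h1 := congrFun (h ρ hρ) (localGaloisToGlobal p ρ • g)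
    rw [conjFun_apply, ← mul_smul, ← map_mul, inv_mul_cancel, map_one, one_smul] at h1
    exact h1.symm

theorem IsSubEquivFun.smul {Γ' : Subgroup (PadicAlgCl p ≃ₐ[ℚ_[p]] PadicAlgCl p)}
    {φ : G → PadicAlgCl p} (hφ : IsSubEquivFun p Γ' φ) {c : PadicAlgCl p}
    (hc : ∀ ρ ∈ Γ', ρ c = c) : IsSubEquivFun p Γ' (c • φ) := fun ρ hρ g => by
  rw [Pi.smul_apply, Pi.smul_apply, hφ ρ hρ g, smul_eq_mul, smul_eq_mul, map_mul, hc ρ hρ]

/-- the conjugate only depends on the coset. -/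
theorem conjFun_eq_of_mem {Γ' : Subgroup (PadicAlgCl p ≃ₐ[ℚ_[p]] PadicAlgCl p)}
    {φ : G → PadicAlgCl p} (hφ : IsSubEquivFun p Γ' φ)
    {a b : PadicAlgCl p ≃ₐ[ℚ_[p]] PadicAlgCl p} (hab : b⁻¹ * a ∈ Γ') :
    conjFun p a φ = conjFun p b φ := by
  have h1 : a = b * (b⁻¹ * a) := by group
  rw [h1, conjFun_mul_act, (isSubEquivFun_iff_conjFun p Γ' φ).mp hφ _ hab]

end conj

section trace

variable {G : Type*} [MulAction GQ G]

variable (Γ' : Subgroup (PadicAlgCl p ≃ₐ[ℚ_[p]] PadicAlgCl p)) [Γ'.FiniteIndex]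

/-- the trace from `Γ'`-invariant functions to locally equivariant functions. -/
noncomputable def trFun (φ : G → PadicAlgCl p) : G → PadicAlgCl p :=
  letI := Subgroup.fintypeQuotientOfFiniteIndex (H := Γ')
  ∑ c : (PadicAlgCl p ≃ₐ[ℚ_[p]] PadicAlgCl p) ⧸ Γ', conjFun p (Quotient.out c) φ

/-- the trace is locally equivariant. -/
theorem trFun_isLocEquivFun {φ : G → PadicAlgCl p} (hφ : IsSubEquivFun p Γ' φ) :
    IsLocEquivFun p (trFun p Γ' φ) := by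
  classical
  letI := Subgroup.fintypeQuotientOfFiniteIndex (H := Γ')
  rw [isLocEquivFun_iff_conjFun]
  intro σ
  show conjFun p σ (∑ c : (PadicAlgCl p ≃ₐ[ℚ_[p]] PadicAlgCl p) ⧸ Γ',
    conjFun p (Quotient.out c) φ) = ∑ c : (PadicAlgCl p ≃ₐ[ℚ_[p]] PadicAlgCl p) ⧸ Γ',
    conjFun p (Quotient.out c) φ
  rw [conjFun_sum]
  have h1 : ∀ c : (PadicAlgCl p ≃ₐ[ℚ_[p]] PadicAlgCl p) ⧸ Γ',
      conjFun p σ (conjFun p (Quotient.out c) φ) = conjFun p (Quotient.out (σ • c)) φ := by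
    intro c
    rw [← conjFun_mul_act]
    refine conjFun_eq_of_mem p hφ ?_
    rw [← QuotientGroup.eq]
    rw [QuotientGroup.out_eq']
    have h2 : ((σ * Quotient.out c : PadicAlgCl p ≃ₐ[ℚ_[p]] PadicAlgCl p) :
        (PadicAlgCl p ≃ₐ[ℚ_[p]] PadicAlgCl p) ⧸ Γ') = σ • ((Quotient.out c :
          PadicAlgCl p ≃ₐ[ℚ_[p]] PadicAlgCl p) : (PadicAlgCl p ≃ₐ[ℚ_[p]] PadicAlgCl p) ⧸ Γ') :=
      rfl
    rw [h2, QuotientGroup.out_eq']
  rw [Finset.sum_congr rfl fun c _ => h1 c]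
  exact Equiv.sum_comp
    (MulAction.toPerm σ : Equiv.Perm ((PadicAlgCl p ≃ₐ[ℚ_[p]] PadicAlgCl p) ⧸ Γ'))
    (fun c => conjFun p (Quotient.out c) φ)

/-- **reconstruction from traces.** -/
theorem sum_smul_trFun {n : ℕ} (θ θ' : Fin n → PadicAlgCl p)
    (htr1 : ∀ τ ∈ Γ', ∑ i, θ i * τ (θ' i) = 1)
    (htr0 : ∀ τ : PadicAlgCl p ≃ₐ[ℚ_[p]] PadicAlgCl p, τ ∉ Γ' → ∑ i, θ i * τ (θ' i) = 0)
    {φ : G → PadicAlgCl p} (hφ : IsSubEquivFun p Γ' φ) :
    ∑ i, θ i • trFun p Γ' (θ' i • φ) = φ := by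
  classical
  letI := Subgroup.fintypeQuotientOfFiniteIndex (H := Γ')
  have h1 : ∀ i, trFun p Γ' (θ' i • φ) =
      ∑ c : (PadicAlgCl p ≃ₐ[ℚ_[p]] PadicAlgCl p) ⧸ Γ',
        (Quotient.out c : PadicAlgCl p ≃ₐ[ℚ_[p]] PadicAlgCl p) (θ' i) •
          conjFun p (Quotient.out c) φ := by
    intro i
    show ∑ c : (PadicAlgCl p ≃ₐ[ℚ_[p]] PadicAlgCl p) ⧸ Γ', conjFun p (Quotient.out c) (θ' i • φ) = _
    exact Finset.sum_congr rfl fun c _ => conjFun_smul p _ _ _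
  simp only [h1, Finset.smul_sum, smul_smul]
  rw [Finset.sum_comm]
  simp only [← Finset.sum_smul]
  have h2 : ∀ c : (PadicAlgCl p ≃ₐ[ℚ_[p]] PadicAlgCl p) ⧸ Γ',
      ((Quotient.out c : PadicAlgCl p ≃ₐ[ℚ_[p]] PadicAlgCl p) ∈ Γ') ↔
        c = ((1 : PadicAlgCl p ≃ₐ[ℚ_[p]] PadicAlgCl p) :
          (PadicAlgCl p ≃ₐ[ℚ_[p]] PadicAlgCl p) ⧸ Γ') := by
    intro c
    have h3 : c = ((Quotient.out c : PadicAlgCl p ≃ₐ[ℚ_[p]] PadicAlgCl p) :
        (PadicAlgCl p ≃ₐ[ℚ_[p]] PadicAlgCl p) ⧸ Γ') := (QuotientGroup.out_eq' c).symm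
    constructor
    · intro h
      rw [h3, eq_comm, QuotientGroup.eq, inv_one, one_mul]
      exact h
    · intro h
      have h4 := h3.symm.trans h
      rw [eq_comm, QuotientGroup.eq, inv_one, one_mul] at h4
      exact h4
  have h5 : ∀ c : (PadicAlgCl p ≃ₐ[ℚ_[p]] PadicAlgCl p) ⧸ Γ',
      (∑ i, θ i * (Quotient.out c : PadicAlgCl p ≃ₐ[ℚ_[p]] PadicAlgCl p) (θ' i)) •
        conjFun p (Quotient.out c) φ =
      if c = ((1 : PadicAlgCl p ≃ₐ[ℚ_[p]] PadicAlgCl p) :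
          (PadicAlgCl p ≃ₐ[ℚ_[p]] PadicAlgCl p) ⧸ Γ') then conjFun p (Quotient.out c) φ
        else 0 := by
    intro c
    by_cases hc : c = ((1 : PadicAlgCl p ≃ₐ[ℚ_[p]] PadicAlgCl p) :
          (PadicAlgCl p ≃ₐ[ℚ_[p]] PadicAlgCl p) ⧸ Γ')
    · rw [if_pos hc, htr1 _ ((h2 c).mpr hc), one_smul]
    · rw [if_neg hc, htr0 _ (fun h => hc ((h2 c).mp h)), zero_smul]
  rw [Finset.sum_congr rfl fun c _ => h5 c, Finset.sum_ite_eq' Finset.univ,
    if_pos (Finset.mem_univ _)]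
  have h3 : (1 : PadicAlgCl p ≃ₐ[ℚ_[p]] PadicAlgCl p)⁻¹ *
      (Quotient.out (((1 : PadicAlgCl p ≃ₐ[ℚ_[p]] PadicAlgCl p) :
        (PadicAlgCl p ≃ₐ[ℚ_[p]] PadicAlgCl p) ⧸ Γ'))) ∈ Γ' := by
    rw [inv_one, one_mul]
    exact (h2 _).mpr rfl
  rw [conjFun_eq_of_mem p hφ h3, conjFun_one]

end trace

end Fermat.Agent.FG
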