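/-
S19/S32 [HOPF-DESC] — helper1 — **unramified descent, part E: the descended local order.**

Let `H' ⊆ Map(G, ℚ̄_p)` be a `ℤ_p`-subalgebra, finitely generated as a module, separating the
points, stable under the comultiplication, invariant under a finite-index subgroup `Γ' ≤ Γ`,
stable under the conjugation action of `Γ = Gal(ℚ̄_p/ℚ_p)`, and stable under multiplication by
a trace-dual family `(θ_i, θ'_i)` (the unramifiedness).  Then
`unrDescent p H' = {φ ∈ H' locally equivariant}` satisfies the hypotheses of the lattice descent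
(`unrDescent_spec`), and hence `latDescent p (unrDescent p H')` is a Hopf order over `ℤ_(p)`
(`unrDescent_isHopfOrder`).
-/
import Mathlib
import Fermat.Agent.FG.HOPF_helper1_LatD

set_option autoImplicit false
set_option linter.style.haveILetI false
set_option linter.unusedSectionVars false

namespace Fermat.Agent.FG

local notation "Ω" => AlgebraicClosure ℚ
local notation "GQ" => (AlgebraicClosure ℚ ≃ₐ[ℚ] AlgebraicClosure ℚ)

variable (p : ℕ) [Fact p.Prime]

section general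

variable {G : Type*} [MulAction GQ G]

theorem IsLocEquivFun.add {φ ψ : G → PadicAlgCl p} (hφ : IsLocEquivFun p φ)
    (hψ : IsLocEquivFun p ψ) : IsLocEquivFun p (φ + ψ) := fun τ g => by
  rw [Pi.add_apply, Pi.add_apply, hφ τ g, hψ τ g, map_add]

theorem IsLocEquivFun.mul {φ ψ : G → PadicAlgCl p} (hφ : IsLocEquivFun p φ)
    (hψ : IsLocEquivFun p ψ) : IsLocEquivFun p (φ * ψ) := fun τ g => by
  rw [Pi.mul_apply, Pi.mul_apply, hφ τ g, hψ τ g, map_mul]

theorem isLocEquivFun_algebraMap (z : ℤ_[p]) :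
    IsLocEquivFun p (algebraMap ℤ_[p] (G → PadicAlgCl p) z) := fun τ g => by
  rw [Pi.algebraMap_apply, Pi.algebraMap_apply,
    IsScalarTower.algebraMap_apply ℤ_[p] ℚ_[p] (PadicAlgCl p), AlgEquiv.commutes]

theorem IsLocEquivFun.padicInt_smul {φ : G → PadicAlgCl p} (hφ : IsLocEquivFun p φ) (z : ℤ_[p]) :
    IsLocEquivFun p (z • φ) := by
  have h1 : z • φ = algebraMap ℤ_[p] (G → PadicAlgCl p) z * φ := by
    rw [Algebra.smul_def]
  rw [h1]
  exact (isLocEquivFun_algebraMap p z).mul p hφ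

/-- **the descended local order.** -/
noncomputable def unrDescent (H' : Subalgebra ℤ_[p] (G → PadicAlgCl p)) :
    Subalgebra ℤ_[p] (G → PadicAlgCl p) where
  carrier := {φ | φ ∈ H' ∧ IsLocEquivFun p φ}
  mul_mem' := fun ha hb => ⟨H'.mul_mem ha.1 hb.1, ha.2.mul p hb.2⟩
  add_mem' := fun ha hb => ⟨H'.add_mem ha.1 hb.1, ha.2.add p hb.2⟩
  algebraMap_mem' := fun z => ⟨H'.algebraMap_mem z, isLocEquivFun_algebraMap p z⟩

theorem mem_unrDescent {H' : Subalgebra ℤ_[p] (G → PadicAlgCl p)} {φ : G → PadicAlgCl p} :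
    φ ∈ unrDescent p H' ↔ φ ∈ H' ∧ IsLocEquivFun p φ := Iff.rfl

theorem padicInt_smul_apply (z : ℤ_[p]) (ψ : G → PadicAlgCl p) (g : G) :
    (z • ψ) g = algebraMap ℤ_[p] (PadicAlgCl p) z * ψ g := by
  rw [Pi.smul_apply, Algebra.smul_def]

/-- an element of `ℚ_p` whose image in `ℚ̄_p` is integral over `ℤ_p` lies in `ℤ_p`. -/
theorem exists_padicInt_of_isIntegral (x : ℚ_[p])
    (hx : IsIntegral ℤ_[p] (algebraMap ℚ_[p] (PadicAlgCl p) x)) :
    ∃ w : ℤ_[p], algebraMap ℤ_[p] (PadicAlgCl p) w = algebraMap ℚ_[p] (PadicAlgCl p) x := by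
  have h1 : IsIntegral ℤ_[p] x :=
    (isIntegral_algebraMap_iff (algebraMap ℚ_[p] (PadicAlgCl p)).injective).mp hx
  obtain ⟨w, hw⟩ := IsIntegrallyClosed.isIntegral_iff.mp h1
  exact ⟨w, by rw [IsScalarTower.algebraMap_apply ℤ_[p] ℚ_[p] (PadicAlgCl p), hw]⟩

/-- the fixing subgroup of a finite extension of `ℚ_p` inside `ℚ̄_p` has finite index. -/
theorem finiteIndex_fixingSubgroup_padic (K' : IntermediateField ℚ_[p] (PadicAlgCl p))
    [FiniteDimensional ℚ_[p] K'] : K'.fixingSubgroup.FiniteIndex := by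
  refine ⟨?_⟩
  rw [← IntermediateField.finrank_eq_fixingSubgroup_index]
  exact Module.finrank_pos.ne'

end general

section order

variable {G : Type} [AddCommGroup G] [DistribMulAction GQ G] [Finite G]

/-- **unramified descent**: the locally equivariant part of a `Γ`-stable order over an unramified
extension is a local Hopf order over `ℤ_p`. -/
theorem unrDescent_spec (hcont : ∀ g : G, IsContAt g)
    (H' : Subalgebra ℤ_[p] (G → PadicAlgCl p))
    (Γ' : Subgroup (PadicAlgCl p ≃ₐ[ℚ_[p]] PadicAlgCl p)) [Γ'.FiniteIndex]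
    (hsub : ∀ φ ∈ H', IsSubEquivFun p Γ' φ)
    (hconj : ∀ φ ∈ H', ∀ τ : PadicAlgCl p ≃ₐ[ℚ_[p]] PadicAlgCl p, conjFun p τ φ ∈ H')
    {n : ℕ} (θ θ' : Fin n → PadicAlgCl p)
    (hθ' : ∀ i, ∀ φ ∈ H', θ' i • φ ∈ H')
    (hθint : ∀ i, IsIntegral ℤ_[p] (θ i))
    (htr1 : ∀ τ ∈ Γ', ∑ i, θ i * τ (θ' i) = 1)
    (htr0 : ∀ τ : PadicAlgCl p ≃ₐ[ℚ_[p]] PadicAlgCl p, τ ∉ Γ' → ∑ i, θ i * τ (θ' i) = 0)
    (hfg : (Subalgebra.toSubmodule H').FG)
    (hsep : ∀ g g' : G, g ≠ g' → ∃ ψ ∈ H', ψ g ≠ ψ g')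
    (hcomul : ∀ ψ ∈ H', ∃ (k : ℕ) (a b : Fin k → G → PadicAlgCl p), (∀ i, a i ∈ H') ∧
      (∀ i, b i ∈ H') ∧ ∀ g h : G, ψ (g + h) = ∑ i, a i g * b i h) :
    (∀ ψ ∈ unrDescent p H', IsLocEquivFun p ψ) ∧
    (Subalgebra.toSubmodule (unrDescent p H')).FG ∧
    (∀ g g' : G, g ≠ g' → ∃ ψ ∈ unrDescent p H', ψ g ≠ ψ g') ∧
    (∀ ψ ∈ unrDescent p H', ∃ (k : ℕ) (a b : Fin k → G → PadicAlgCl p),
      (∀ i, a i ∈ unrDescent p H') ∧ (∀ i, b i ∈ unrDescent p H') ∧
      ∀ g h : G, ψ (g + h) = ∑ i, a i g * b i h) := by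
  classical
  haveI := Fintype.ofFinite G
  -- the trace maps `H'` to the descended order
  have htrmem : ∀ φ ∈ H', trFun p Γ' φ ∈ unrDescent p H' := by
    intro φ hφ
    refine ⟨?_, trFun_isLocEquivFun p Γ' (hsub φ hφ)⟩
    letI := Subgroup.fintypeQuotientOfFiniteIndex (H := Γ')
    show ∑ c : (PadicAlgCl p ≃ₐ[ℚ_[p]] PadicAlgCl p) ⧸ Γ', conjFun p (Quotient.out c) φ ∈ H'
    exact Subalgebra.sum_mem _ fun c _ => hconj φ hφ _
  have hrec : ∀ φ ∈ H', ∑ i, θ i • trFun p Γ' (θ' i • φ) = φ := fun φ hφ =>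
    sum_smul_trFun p Γ' θ θ' htr1 htr0 (hsub φ hφ)
  have hcomp : ∀ φ ∈ H', ∀ i, trFun p Γ' (θ' i • φ) ∈ unrDescent p H' := fun φ hφ i =>
    htrmem _ (hθ' i φ hφ)
  have hLoc : ∀ ψ ∈ unrDescent p H', IsLocEquivFun p ψ := fun ψ hψ => hψ.2
  -- finite generation
  have hFG : (Subalgebra.toSubmodule (unrDescent p H')).FG := by
    haveI : IsNoetherian ℤ_[p] (Subalgebra.toSubmodule H') :=
      isNoetherian_of_fg_of_noetherian _ hfg
    exact isNoetherian_submodule.mp this _ fun φ hφ => hφ.1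
  -- separation
  have hSep : ∀ g g' : G, g ≠ g' → ∃ ψ ∈ unrDescent p H', ψ g ≠ ψ g' := by
    intro g g' hgg'
    obtain ⟨φ, hφ, hne⟩ := hsep g g' hgg'
    by_contra hcon
    have hall : ∀ i, trFun p Γ' (θ' i • φ) g = trFun p Γ' (θ' i • φ) g' := fun i => by
      by_contra hne'
      exact hcon ⟨_, hcomp φ hφ i, hne'⟩
    apply hne
    have h1 := congrFun (hrec φ hφ) g
    have h2 := congrFun (hrec φ hφ) g'
    rw [Finset.sum_apply] at h1 h2
    rw [← h1, ← h2]
    exact Finset.sum_congr rfl fun i _ => by rw [Pi.smul_apply, Pi.smul_apply, hall i]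
  refine ⟨hLoc, hFG, hSep, ?_⟩
  -- the adapted basis of the descended order
  have hspan := span_eq_top_of_separates p (unrDescent p H') hSep
  obtain ⟨m, h, hheq, hindC, hspanZ⟩ :=
    exists_adapted_basis p hcont (Subalgebra.toSubmodule (unrDescent p H')) hLoc hFG hspan
  have hFmem : ∀ j, padicFun p (h j) ∈ unrDescent p H' := fun j => by
    have : padicFun p (h j) ∈ Submodule.span ℤ_[p] (Set.range fun j => padicFun p (h j)) :=
      Submodule.subset_span ⟨j, rfl⟩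
    rw [hspanZ] at this
    exact this
  have hcoord : ∀ ψ ∈ unrDescent p H', ∃ z : Fin m → ℤ_[p], ψ = ∑ j, z j • padicFun p (h j) := by
    intro ψ hψ
    have h1 : ψ ∈ Submodule.span ℤ_[p] (Set.range fun j => padicFun p (h j)) := by
      rw [hspanZ]
      exact hψ
    obtain ⟨z, hz⟩ := (Submodule.mem_span_range_iff_exists_fun ℤ_[p]).mp h1
    exact ⟨z, hz.symm⟩
  -- integral coordinates of the elements of `H'`
  have hcoord' : ∀ ψ ∈ H', ∃ c : Fin m → PadicAlgCl p, (∀ j, IsIntegral ℤ_[p] (c j)) ∧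
      ∀ g, ψ g = ∑ j, c j * padicFun p (h j) g := by
    intro ψ hψ
    choose α hα using fun i => hcoord _ (hcomp ψ hψ i)
    refine ⟨fun j => ∑ i, θ i * algebraMap ℤ_[p] (PadicAlgCl p) (α i j), fun j => ?_, fun g => ?_⟩
    · exact IsIntegral.sum _ fun i _ => (hθint i).mul isIntegral_algebraMap
    · have h1 := congrFun (hrec ψ hψ) g
      rw [Finset.sum_apply] at h1
      rw [← h1]
      simp only [Finset.sum_mul]
      rw [Finset.sum_comm]
      refine Finset.sum_congr rfl fun i _ => ?_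
      rw [Pi.smul_apply, hα i, Finset.sum_apply, smul_eq_mul, Finset.mul_sum]
      refine Finset.sum_congr rfl fun j _ => ?_
      rw [padicInt_smul_apply]
      ring
  -- comultiplication
  intro φ hφ
  obtain ⟨k, a, b, ha, hb, hab⟩ := hcomul φ hφ.1
  choose ca hcaint hca using fun s => hcoord' (a s) (ha s)
  choose cb hcbint hcb using fun s => hcoord' (b s) (hb s)
  obtain ⟨C, hC⟩ : ∃ C : Fin m × Fin m → PadicAlgCl p, ∀ jk, C jk = ∑ s, ca s jk.1 * cb s jk.2 :=
    ⟨_, fun _ => rfl⟩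
  have hCint : ∀ jk, IsIntegral ℤ_[p] (C jk) := fun jk => by
    rw [hC]
    exact IsIntegral.sum _ fun s _ => (hcaint s _).mul (hcbint s _)
  have hexp : ∀ g g' : G, φ (g + g') = ∑ jk : Fin m × Fin m,
      C jk * (padicFun p (h jk.1) g * padicFun p (h jk.2) g') := by
    intro g g'
    rw [hab g g']
    have h2 : ∀ s, a s g * b s g' = ∑ jk : Fin m × Fin m,
        (ca s jk.1 * cb s jk.2) * (padicFun p (h jk.1) g * padicFun p (h jk.2) g') := by
      intro s
      rw [hca s g, hcb s g', Finset.sum_mul_sum, Fintype.sum_prod_type]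
      refine Finset.sum_congr rfl fun j _ => Finset.sum_congr rfl fun k' _ => ?_
      ring
    rw [Finset.sum_congr rfl fun s _ => h2 s, Finset.sum_comm]
    refine Finset.sum_congr rfl fun jk _ => ?_
    rw [← Finset.sum_mul, hC jk]
  -- rationality of the coefficients
  letI := locAct p (G := G)
  have hliC := linearIndependent_prod_mul (X := G) (Y := G) (fun j => padicFun p (h j))
    (fun j => padicFun p (h j)) hindC hindC
  have hFeq : ∀ jk : Fin m × Fin m, GF.IsEquivFun ℚ_[p] (PadicAlgCl p)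
      (fun z : G × G => padicFun p (h jk.1) z.1 * padicFun p (h jk.2) z.2) := by
    intro jk τ z
    have h1 := IsEquivFun.isLocEquivFun p (hheq jk.1) τ z.1
    have h2 := IsEquivFun.isLocEquivFun p (hheq jk.2) τ z.2
    show padicFun p (h jk.1) (localGaloisToGlobal p τ • z.1) *
      padicFun p (h jk.2) (localGaloisToGlobal p τ • z.2) = _
    rw [map_mul]
    exact congrArg₂ (· * ·) h1 h2
  have hψeq : GF.IsEquivFun ℚ_[p] (PadicAlgCl p)
      (∑ jk : Fin m × Fin m, C jk •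
        (fun z : G × G => padicFun p (h jk.1) z.1 * padicFun p (h jk.2) z.2)) := by
    have h1 : (∑ jk : Fin m × Fin m, C jk •
        (fun z : G × G => padicFun p (h jk.1) z.1 * padicFun p (h jk.2) z.2)) =
        fun z : G × G => φ (z.1 + z.2) := by
      funext z
      rw [Finset.sum_apply, hexp z.1 z.2]
      rfl
    rw [h1]
    intro τ z
    show φ (localGaloisToGlobal p τ • z.1 + localGaloisToGlobal p τ • z.2) = τ (φ (z.1 + z.2))
    rw [← smul_add]
    exact hφ.2 τ _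
  have hrat := GF.rational_of_isEquivFun_sum _ hFeq hliC C hψeq
  choose x hx using hrat
  have hw : ∀ jk, ∃ w : ℤ_[p], algebraMap ℤ_[p] (PadicAlgCl p) w = C jk := fun jk => by
    obtain ⟨w, hw⟩ := exists_padicInt_of_isIntegral p (x jk) (by rw [hx jk]; exact hCint jk)
    exact ⟨w, hw.trans (hx jk)⟩
  choose w hw using hw
  let e := Fintype.equivFin (Fin m × Fin m)
  refine ⟨_, fun i => w (e.symm i) • padicFun p (h (e.symm i).1),
    fun i => padicFun p (h (e.symm i).2), fun i => Subalgebra.smul_mem _ (hFmem _) _,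
    fun i => hFmem _, ?_⟩
  intro g g'
  rw [hexp g g', ← e.symm.sum_comp]
  refine Finset.sum_congr rfl fun i _ => ?_
  show _ = (w (e.symm i) • padicFun p (h (e.symm i).1)) g * padicFun p (h (e.symm i).2) g'
  rw [padicInt_smul_apply, hw]
  ring

/-- **unramified descent + lattice descent.** -/
theorem unrDescent_isHopfOrder (hcont : ∀ g : G, IsContAt g)
    (H' : Subalgebra ℤ_[p] (G → PadicAlgCl p))
    (Γ' : Subgroup (PadicAlgCl p ≃ₐ[ℚ_[p]] PadicAlgCl p)) [Γ'.FiniteIndex]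
    (hsub : ∀ φ ∈ H', IsSubEquivFun p Γ' φ)
    (hconj : ∀ φ ∈ H', ∀ τ : PadicAlgCl p ≃ₐ[ℚ_[p]] PadicAlgCl p, conjFun p τ φ ∈ H')
    {n : ℕ} (θ θ' : Fin n → PadicAlgCl p)
    (hθ' : ∀ i, ∀ φ ∈ H', θ' i • φ ∈ H')
    (hθint : ∀ i, IsIntegral ℤ_[p] (θ i))
    (htr1 : ∀ τ ∈ Γ', ∑ i, θ i * τ (θ' i) = 1)
    (htr0 : ∀ τ : PadicAlgCl p ≃ₐ[ℚ_[p]] PadicAlgCl p, τ ∉ Γ' → ∑ i, θ i * τ (θ' i) = 0)
    (hfg : (Subalgebra.toSubmodule H').FG)
    (hsep : ∀ g g' : G, g ≠ g' → ∃ ψ ∈ H', ψ g ≠ ψ g')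
    (hcomul : ∀ ψ ∈ H', ∃ (k : ℕ) (a b : Fin k → G → PadicAlgCl p), (∀ i, a i ∈ H') ∧
      (∀ i, b i ∈ H') ∧ ∀ g h : G, ψ (g + h) = ∑ i, a i g * b i h) :
    IsHopfOrder G p (latDescent p (unrDescent p H')) := by
  obtain ⟨h1, h2, h3, h4⟩ := unrDescent_spec p hcont H' Γ' hsub hconj θ θ' hθ' hθint
    htr1 htr0 hfg hsep hcomul
  exact latDescent_isHopfOrder p hcont _ h1 h2 h3 h4

end order

end Fermat.Agent.FG
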