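/-
S19/S32 [HOPF-DESC] — helper1 — **unramified descent, part F: the root-of-unity instance.**

For `ζ ∈ ℚ̄_p` with `ζ ^ m = 1`, `p ∤ m`, the family `θ_i = ζ ^ i`, `θ'_i = m⁻¹ ζ ^ (-i)` (`i < m`)
is trace-dual with respect to the stabiliser of `ζ` (orthogonality of the characters of `ℤ/m`).
Hence every `ℤ_p[ζ]`-order `H'` which is equivariant under `Gal(ℚ̄_p/ℚ_p(ζ))` and stable under
conjugation descends to a Hopf order over `ℤ_(p)` (`unrDescent_isHopfOrder_of_rootOfUnity`).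
-/
import Mathlib
import Fermat.Agent.FG.HOPF_helper1_LatE

set_option autoImplicit false
set_option linter.style.haveILetI false
set_option linter.unusedSectionVars false

namespace Fermat.Agent.FG

local notation "Ω" => AlgebraicClosure ℚ
local notation "GQ" => (AlgebraicClosure ℚ ≃ₐ[ℚ] AlgebraicClosure ℚ)

variable (p : ℕ) [Fact p.Prime]

section roots

/-- the stabiliser of a root of unity has finite index. -/
theorem finiteIndex_stabilizer_of_pow_eq_one {m : ℕ} (hm : 0 < m) (ζ : PadicAlgCl p)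
    (hζ : ζ ^ m = 1) :
    (MulAction.stabilizer (PadicAlgCl p ≃ₐ[ℚ_[p]] PadicAlgCl p) ζ).FiniteIndex := by
  classical
  have hfin : (MulAction.orbit (PadicAlgCl p ≃ₐ[ℚ_[p]] PadicAlgCl p) ζ).Finite := by
    refine Set.Finite.subset (Polynomial.nthRoots m (1 : PadicAlgCl p)).toFinset.finite_toSet ?_
    rintro _ ⟨τ, rfl⟩
    simp only [Finset.mem_coe, Multiset.mem_toFinset, Polynomial.mem_nthRoots hm]
    show (τ ζ) ^ m = 1
    rw [← map_pow, hζ, map_one]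
  haveI : Finite (MulAction.orbit (PadicAlgCl p ≃ₐ[ℚ_[p]] PadicAlgCl p) ζ) := hfin
  haveI : Finite ((PadicAlgCl p ≃ₐ[ℚ_[p]] PadicAlgCl p) ⧸
      MulAction.stabilizer (PadicAlgCl p ≃ₐ[ℚ_[p]] PadicAlgCl p) ζ) :=
    Finite.of_equiv _ (MulAction.orbitEquivQuotientStabilizer _ ζ)
  exact Subgroup.finiteIndex_of_finite_quotient

theorem rootOfUnity_term {m : ℕ} (ζ : PadicAlgCl p)
    (τ : PadicAlgCl p ≃ₐ[ℚ_[p]] PadicAlgCl p) (i : ℕ) :
    ζ ^ i * τ ((m : PadicAlgCl p)⁻¹ * ζ⁻¹ ^ i) = (m : PadicAlgCl p)⁻¹ * (ζ * (τ ζ)⁻¹) ^ i := by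
  rw [map_mul, map_inv₀, map_natCast, map_pow, map_inv₀, mul_pow]
  ring

/-- the trace relation on the stabiliser. -/
theorem sum_rootOfUnity_of_fixed {m : ℕ} (hm : 0 < m) (ζ : PadicAlgCl p) (hζ : ζ ^ m = 1)
    (τ : PadicAlgCl p ≃ₐ[ℚ_[p]] PadicAlgCl p) (hτ : τ ζ = ζ) :
    ∑ i : Fin m, ζ ^ (i : ℕ) * τ ((m : PadicAlgCl p)⁻¹ * ζ⁻¹ ^ (i : ℕ)) = 1 := by
  have hζ0 : ζ ≠ 0 := by
    rintro rfl
    rw [zero_pow hm.ne'] at hζ
    exact zero_ne_one hζ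
  have hm0 : (m : PadicAlgCl p) ≠ 0 := Nat.cast_ne_zero.mpr hm.ne'
  simp only [rootOfUnity_term, hτ, mul_inv_cancel₀ hζ0, one_pow, mul_one]
  rw [Finset.sum_const, Finset.card_univ, Fintype.card_fin, nsmul_eq_mul, mul_inv_cancel₀ hm0]

/-- the trace relation off the stabiliser. -/
theorem sum_rootOfUnity_of_moved {m : ℕ} (hm : 0 < m) (ζ : PadicAlgCl p) (hζ : ζ ^ m = 1)
    (τ : PadicAlgCl p ≃ₐ[ℚ_[p]] PadicAlgCl p) (hτ : τ ζ ≠ ζ) :
    ∑ i : Fin m, ζ ^ (i : ℕ) * τ ((m : PadicAlgCl p)⁻¹ * ζ⁻¹ ^ (i : ℕ)) = 0 := by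
  have hζ0 : ζ ≠ 0 := by
    rintro rfl
    rw [zero_pow hm.ne'] at hζ
    exact zero_ne_one hζ
  have hτ0 : τ ζ ≠ 0 := fun h => hζ0 (by rwa [map_eq_zero_iff τ τ.injective] at h)
  simp only [rootOfUnity_term]
  rw [← Finset.mul_sum, Fin.sum_univ_eq_sum_range (fun i => (ζ * (τ ζ)⁻¹) ^ i) m]
  have hu1 : ζ * (τ ζ)⁻¹ ≠ 1 := by
    intro h
    apply hτ
    have := congrArg (· * τ ζ) h
    simp only [mul_assoc, inv_mul_cancel₀ hτ0, mul_one, one_mul] at this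
    exact this.symm
  have hum : (ζ * (τ ζ)⁻¹) ^ m = 1 := by
    rw [mul_pow, inv_pow, ← map_pow, hζ, map_one, inv_one, mul_one]
  rw [geom_sum_eq hu1, hum, sub_self, zero_div, mul_zero]

end roots

section order

variable {G : Type} [AddCommGroup G] [DistribMulAction GQ G] [Finite G]

/-- **unramified descent for `ℤ_p[ζ]`-orders**, `ζ` a root of unity of order prime to `p`. -/
theorem unrDescent_isHopfOrder_of_rootOfUnity (hcont : ∀ g : G, IsContAt g)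
    (H' : Subalgebra ℤ_[p] (G → PadicAlgCl p)) {m : ℕ} (hpm : ¬ p ∣ m)
    (ζ : PadicAlgCl p) (hζ : ζ ^ m = 1) (hζH : ∀ φ ∈ H', ζ • φ ∈ H')
    (hsub : ∀ φ ∈ H', ∀ ρ : PadicAlgCl p ≃ₐ[ℚ_[p]] PadicAlgCl p, ρ ζ = ζ →
      ∀ g : G, φ (localGaloisToGlobal p ρ • g) = ρ (φ g))
    (hconj : ∀ φ ∈ H', ∀ τ : PadicAlgCl p ≃ₐ[ℚ_[p]] PadicAlgCl p, conjFun p τ φ ∈ H')
    (hfg : (Subalgebra.toSubmodule H').FG)
    (hsep : ∀ g g' : G, g ≠ g' → ∃ ψ ∈ H', ψ g ≠ ψ g')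
    (hcomul : ∀ ψ ∈ H', ∃ (k : ℕ) (a b : Fin k → G → PadicAlgCl p), (∀ i, a i ∈ H') ∧
      (∀ i, b i ∈ H') ∧ ∀ g h : G, ψ (g + h) = ∑ i, a i g * b i h) :
    IsHopfOrder G p (latDescent p (unrDescent p H')) := by
  have hm : 0 < m := Nat.pos_of_ne_zero fun h => hpm (h ▸ dvd_zero p)
  haveI := finiteIndex_stabilizer_of_pow_eq_one p hm ζ hζ
  have hζ0 : ζ ≠ 0 := by
    rintro rfl
    rw [zero_pow hm.ne'] at hζ
    exact zero_ne_one hζ
  -- powers of `ζ` preserve `H'`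
  have hpow : ∀ (k : ℕ), ∀ φ ∈ H', ζ ^ k • φ ∈ H' := by
    intro k
    induction k with
    | zero => intro φ hφ; rwa [pow_zero, one_smul]
    | succ k ih =>
      intro φ hφ
      rw [pow_succ, mul_smul]
      exact ih _ (hζH φ hφ)
  have hinv : ζ⁻¹ = ζ ^ (m - 1) := by
    refine inv_eq_of_mul_eq_one_right ?_
    rw [← pow_succ', Nat.sub_add_cancel hm, hζ]
  -- the inverse of `m` in `ℤ_p`
  have hunit : IsUnit ((m : ℕ) : ℤ_[p]) := by
    rw [PadicInt.isUnit_iff, PadicInt.norm_natCast_eq_one_iff,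
      (Fact.out : p.Prime).coprime_iff_not_dvd]
    exact hpm
  obtain ⟨w, hw⟩ := hunit.exists_right_inv
  have hwC : algebraMap ℤ_[p] (PadicAlgCl p) w = (m : PadicAlgCl p)⁻¹ := by
    have h1 := congrArg (algebraMap ℤ_[p] (PadicAlgCl p)) hw
    rw [map_mul, map_natCast, map_one] at h1
    exact eq_inv_of_mul_eq_one_right h1
  refine unrDescent_isHopfOrder p hcont H'
    (MulAction.stabilizer (PadicAlgCl p ≃ₐ[ℚ_[p]] PadicAlgCl p) ζ)
    (fun φ hφ ρ hρ g => hsub φ hφ ρ (MulAction.mem_stabilizer_iff.mp hρ) g) hconj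
    (fun i : Fin m => ζ ^ (i : ℕ)) (fun i : Fin m => (m : PadicAlgCl p)⁻¹ * ζ⁻¹ ^ (i : ℕ))
    ?_ ?_ ?_ ?_ hfg hsep hcomul
  · intro i φ hφ
    have h1 : ((m : PadicAlgCl p)⁻¹ * ζ⁻¹ ^ (i : ℕ)) • φ = w • (ζ ^ ((m - 1) * (i : ℕ)) • φ) := by
      rw [hinv, ← pow_mul, mul_smul, ← hwC]
      funext g
      rw [Pi.smul_apply, Pi.smul_apply, Pi.smul_apply, Pi.smul_apply, smul_eq_mul, smul_eq_mul,
        Algebra.smul_def]
    rw [h1]
    exact Subalgebra.smul_mem _ (hpow _ φ hφ) _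
  · intro i
    refine IsIntegral.pow ?_ _
    refine ⟨Polynomial.X ^ m - 1, Polynomial.monic_X_pow_sub_C 1 hm.ne', ?_⟩
    rw [Polynomial.eval₂_sub, Polynomial.eval₂_pow, Polynomial.eval₂_X, Polynomial.eval₂_one, hζ,
      sub_self]
  · intro τ hτ
    exact sum_rootOfUnity_of_fixed p hm ζ hζ τ (MulAction.mem_stabilizer_iff.mp hτ)
  · intro τ hτ
    exact sum_rootOfUnity_of_moved p hm ζ hζ τ fun h => hτ (MulAction.mem_stabilizer_iff.mpr h)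

end order

end Fermat.Agent.FG
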