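/-
S19/S32 [HOPF-FRONT] — helper1 — **the input-independent core of the front end.**

Let `G` be a finite `GQ`-module (with open stabilisers), `ζ ∈ ℚ̄_p` a primitive `m`-th root of unity,
`p ∤ m`, and `u_s : G → ℚ̄_p` finitely many "coordinate functions" with integral values,
separating the points of `G`, equivariant under `Gal(ℚ̄_p/ℚ_p(ζ))`, whose conjugates
`τ · u_s` and whose comultiplications `u_s (g + h)` can be APPROXIMATED to any `p`-adic precision
inside `frontAlg = ℤ_p[ζ, u_s]` (resp. by sums of products from `frontAlg`).  Then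
`latDescent p (unrDescent p frontAlg)` is a Hopf order over `ℤ_(p)` (`front_core`).
-/
import Mathlib
import Fermat.Agent.FG.HOPF_helper1_LatF
import Fermat.Agent.FG.HOPF_helper1_Closed
import Fermat.Agent.FG.HOPF_helper8_Comul

set_option autoImplicit false
set_option linter.style.haveILetI false
set_option linter.unusedSectionVars false

namespace Fermat.Agent.FG

local notation "Ω" => AlgebraicClosure ℚ
local notation "GQ" => (AlgebraicClosure ℚ ≃ₐ[ℚ] AlgebraicClosure ℚ)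

variable (p : ℕ) [Fact p.Prime]

section alg

variable {G : Type*} [MulAction GQ G]

/-- the `ℤ_p`-algebra generated by the constant `ζ` and the coordinate functions. -/
noncomputable def frontAlg {κ : Type*} (ζ : PadicAlgCl p) (u : κ → G → PadicAlgCl p) :
    Subalgebra ℤ_[p] (G → PadicAlgCl p) :=
  Algebra.adjoin ℤ_[p] (insert (fun _ => ζ) (Set.range u))

theorem const_mem_frontAlg {κ : Type*} (ζ : PadicAlgCl p) (u : κ → G → PadicAlgCl p) :
    (fun _ : G => ζ) ∈ frontAlg p ζ u :=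
  Algebra.subset_adjoin (Set.mem_insert _ _)

theorem coord_mem_frontAlg {κ : Type*} (ζ : PadicAlgCl p) (u : κ → G → PadicAlgCl p) (s : κ) :
    u s ∈ frontAlg p ζ u :=
  Algebra.subset_adjoin (Set.mem_insert_of_mem _ ⟨s, rfl⟩)

/-- conjugation-stability as a subalgebra. -/
noncomputable def conjSub (H : Subalgebra ℤ_[p] (G → PadicAlgCl p)) :
    Subalgebra ℤ_[p] (G → PadicAlgCl p) where
  carrier := {φ | ∀ τ : PadicAlgCl p ≃ₐ[ℚ_[p]] PadicAlgCl p, conjFun p τ φ ∈ H}
  mul_mem' := fun ha hb τ => by rw [conjFun_mul]; exact H.mul_mem (ha τ) (hb τ)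
  add_mem' := fun ha hb τ => by rw [conjFun_add]; exact H.add_mem (ha τ) (hb τ)
  algebraMap_mem' := fun z τ => by
    have h1 : conjFun p τ (algebraMap ℤ_[p] (G → PadicAlgCl p) z) =
        algebraMap ℤ_[p] (G → PadicAlgCl p) z := by
      funext g
      rw [conjFun_apply, Pi.algebraMap_apply, Pi.algebraMap_apply,
        IsScalarTower.algebraMap_apply ℤ_[p] ℚ_[p] (PadicAlgCl p), AlgEquiv.commutes]
    rw [h1]
    exact H.algebraMap_mem z

theorem mem_conjSub {H : Subalgebra ℤ_[p] (G → PadicAlgCl p)} {φ : G → PadicAlgCl p} :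
    φ ∈ conjSub p H ↔ ∀ τ : PadicAlgCl p ≃ₐ[ℚ_[p]] PadicAlgCl p, conjFun p τ φ ∈ H := Iff.rfl

/-- equivariance under a subgroup as a subalgebra. -/
noncomputable def subEquivSub (Γ' : Subgroup (PadicAlgCl p ≃ₐ[ℚ_[p]] PadicAlgCl p)) :
    Subalgebra ℤ_[p] (G → PadicAlgCl p) where
  carrier := {φ | IsSubEquivFun p Γ' φ}
  mul_mem' := fun ha hb ρ hρ g => by
    rw [Pi.mul_apply, Pi.mul_apply, ha ρ hρ g, hb ρ hρ g, map_mul]
  add_mem' := fun ha hb ρ hρ g => by
    rw [Pi.add_apply, Pi.add_apply, ha ρ hρ g, hb ρ hρ g, map_add]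
  algebraMap_mem' := fun z ρ _ g => by
    rw [Pi.algebraMap_apply, Pi.algebraMap_apply,
      IsScalarTower.algebraMap_apply ℤ_[p] ℚ_[p] (PadicAlgCl p), AlgEquiv.commutes]

/-- functions with integral values in an intermediate field, as a subalgebra. -/
noncomputable def intFunSub (K : IntermediateField ℚ_[p] (PadicAlgCl p)) :
    Subalgebra ℤ_[p] (G → PadicAlgCl p) where
  carrier := {φ | ∀ g, φ g ∈ K ∧ IsIntegral ℤ_[p] (φ g)}
  mul_mem' := fun ha hb g => ⟨K.mul_mem (ha g).1 (hb g).1, (ha g).2.mul (hb g).2⟩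
  add_mem' := fun ha hb g => ⟨K.add_mem (ha g).1 (hb g).1, (ha g).2.add (hb g).2⟩
  algebraMap_mem' := fun z g => by
    refine ⟨?_, isIntegral_algebraMap⟩
    rw [Pi.algebraMap_apply, IsScalarTower.algebraMap_apply ℤ_[p] ℚ_[p] (PadicAlgCl p)]
    exact K.algebraMap_mem _

end alg

section core

variable {G : Type} [AddCommGroup G] [DistribMulAction GQ G] [Finite G]

/-- **the core of the front end.** -/
theorem front_core (hcont : ∀ g : G, IsContAt g) {m : ℕ} (hpm : ¬ p ∣ m) (ζ : PadicAlgCl p)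
    (hζ : IsPrimitiveRoot ζ m) {κ : Type*} [Finite κ] (u : κ → G → PadicAlgCl p)
    (hint : ∀ s g, IsIntegral ℤ_[p] (u s g))
    (hsep : ∀ g g' : G, g ≠ g' → ∃ s, u s g ≠ u s g')
    (hsub : ∀ s, ∀ ρ : PadicAlgCl p ≃ₐ[ℚ_[p]] PadicAlgCl p, ρ ζ = ζ →
      ∀ g : G, u s (localGaloisToGlobal p ρ • g) = ρ (u s g))
    (hconj : ∀ s (τ : PadicAlgCl p ≃ₐ[ℚ_[p]] PadicAlgCl p) (N : ℕ), ∃ φ ∈ frontAlg p ζ u,
      ∀ g : G, ‖conjFun p τ (u s) g - φ g‖ ≤ ((p : ℝ) ^ N)⁻¹)
    (hcomul : ∀ s (N : ℕ), ∃ (k : ℕ) (a b : Fin k → G → PadicAlgCl p),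
      (∀ i, a i ∈ frontAlg p ζ u) ∧ (∀ i, b i ∈ frontAlg p ζ u) ∧
      ∀ g h : G, ‖u s (g + h) - ∑ i, a i g * b i h‖ ≤ ((p : ℝ) ^ N)⁻¹) :
    IsHopfOrder G p (latDescent p (unrDescent p (frontAlg p ζ u))) := by
  classical
  have hm : 0 < m := Nat.pos_of_ne_zero fun h => hpm (h ▸ dvd_zero p)
  have hζm : ζ ^ m = 1 := hζ.pow_eq_one
  have hζint : IsIntegral ℤ_[p] ζ := by
    refine ⟨Polynomial.X ^ m - 1, Polynomial.monic_X_pow_sub_C 1 hm.ne', ?_⟩
    rw [Polynomial.eval₂_sub, Polynomial.eval₂_pow, Polynomial.eval₂_X, Polynomial.eval₂_one, hζm,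
      sub_self]
  -- finite generation
  have hfg : (Subalgebra.toSubmodule (frontAlg p ζ u)).FG := by
    let T : Set (PadicAlgCl p) := insert ζ (⋃ s, Set.range (u s))
    have hTfin : T.Finite :=
      (Set.finite_iUnion fun s => Set.finite_range (u s)).insert ζ
    let K := IntermediateField.adjoin ℚ_[p] T
    haveI : FiniteDimensional ℚ_[p] K :=
      haveI := hTfin.to_subtype
      IntermediateField.finiteDimensional_adjoin fun x _ => Algebra.IsIntegral.isIntegral x
    have hle' : frontAlg p ζ u ≤ intFunSub p (G := G) K := by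
      refine Algebra.adjoin_le ?_
      rintro φ (rfl | ⟨s, rfl⟩)
      · exact fun _ => ⟨IntermediateField.subset_adjoin _ _ (Set.mem_insert _ _), hζint⟩
      · intro g
        refine ⟨IntermediateField.subset_adjoin _ _ (Set.mem_insert_of_mem _ ?_), hint s g⟩
        exact Set.mem_iUnion.mpr ⟨s, g, rfl⟩
    have hle : Subalgebra.toSubmodule (frontAlg p ζ u) ≤ piSub p (X := G) (intPts p K) :=
      fun φ hφ g => hle' hφ g
    haveI : IsNoetherian ℤ_[p] (piSub p (X := G) (intPts p K)) :=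
      isNoetherian_of_fg_of_noetherian _ (piSub_fg p (intPts_fg p K))
    exact isNoetherian_submodule.mp this _ hle
  -- multiplication by `ζ`
  have hζH : ∀ φ ∈ frontAlg p ζ u, ζ • φ ∈ frontAlg p ζ u := by
    intro φ hφ
    have h1 : ζ • φ = (fun _ : G => ζ) * φ := by
      funext g
      rw [Pi.smul_apply, Pi.mul_apply, smul_eq_mul]
    rw [h1]
    exact Subalgebra.mul_mem _ (const_mem_frontAlg p ζ u) hφ
  -- equivariance under the stabiliser of `ζ`
  have hsubH : ∀ φ ∈ frontAlg p ζ u, ∀ ρ : PadicAlgCl p ≃ₐ[ℚ_[p]] PadicAlgCl p, ρ ζ = ζ →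
      ∀ g : G, φ (localGaloisToGlobal p ρ • g) = ρ (φ g) := by
    have hle : frontAlg p ζ u ≤
        subEquivSub p (MulAction.stabilizer (PadicAlgCl p ≃ₐ[ℚ_[p]] PadicAlgCl p) ζ) := by
      refine Algebra.adjoin_le ?_
      rintro φ (rfl | ⟨s, rfl⟩)
      · intro ρ hρ g
        exact (MulAction.mem_stabilizer_iff.mp hρ).symm
      · intro ρ hρ g
        exact hsub s ρ (MulAction.mem_stabilizer_iff.mp hρ) g
    intro φ hφ ρ hρ g
    exact hle hφ ρ (MulAction.mem_stabilizer_iff.mpr hρ) g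
  -- conjugation
  have hconjH : ∀ φ ∈ frontAlg p ζ u, ∀ τ : PadicAlgCl p ≃ₐ[ℚ_[p]] PadicAlgCl p,
      conjFun p τ φ ∈ frontAlg p ζ u := by
    have hle : frontAlg p ζ u ≤ conjSub p (frontAlg p ζ u) := by
      refine Algebra.adjoin_le ?_
      rintro φ (rfl | ⟨s, rfl⟩)
      · intro τ
        haveI : NeZero m := ⟨hm.ne'⟩
        have h1 : (τ ζ) ^ m = 1 := by rw [← map_pow, hζm, map_one]
        obtain ⟨a, -, ha⟩ := hζ.eq_pow_of_pow_eq_one h1
        have h2 : conjFun p τ (fun _ : G => ζ) = (fun _ : G => ζ) ^ a := by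
          funext g
          rw [conjFun_apply, Pi.pow_apply, ha]
        rw [h2]
        exact Subalgebra.pow_mem _ (const_mem_frontAlg p ζ u) a
      · intro τ
        exact mem_of_forall_norm_approx p (Subalgebra.toSubmodule (frontAlg p ζ u)) hfg _
          fun N => hconj s τ N
    exact fun φ hφ τ => hle hφ τ
  -- comultiplication
  have hcomulH : ∀ ψ ∈ frontAlg p ζ u, ∃ (k : ℕ) (a b : Fin k → G → PadicAlgCl p),
      (∀ i, a i ∈ frontAlg p ζ u) ∧ (∀ i, b i ∈ frontAlg p ζ u) ∧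
      ∀ g h : G, ψ (g + h) = ∑ i, a i g * b i h := by
    have hle : frontAlg p ζ u ≤ comulSub (frontAlg p ζ u) := by
      refine Algebra.adjoin_le ?_
      rintro φ (rfl | ⟨s, rfl⟩)
      · rw [SetLike.mem_coe, mem_comulSub_iff]
        refine ⟨1, fun _ _ => ζ, fun _ => 1, fun _ => const_mem_frontAlg p ζ u,
          fun _ => Subalgebra.one_mem _, fun g h => ?_⟩
        simp
      · rw [SetLike.mem_coe, mem_comulSub_iff]
        exact exists_comul_of_approx p (frontAlg p ζ u) hfg (u s) fun N => hcomul s N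
    exact fun ψ hψ => (mem_comulSub_iff _).mp (hle hψ)
  -- separation
  have hsepH : ∀ g g' : G, g ≠ g' → ∃ ψ ∈ frontAlg p ζ u, ψ g ≠ ψ g' := by
    intro g g' hgg'
    obtain ⟨s, hs⟩ := hsep g g' hgg'
    exact ⟨u s, coord_mem_frontAlg p ζ u s, hs⟩
  exact unrDescent_isHopfOrder_of_rootOfUnity p hcont (frontAlg p ζ u) hpm ζ hζm hζH hsubH hconjH
    hfg hsepH hcomulH

end core

end Fermat.Agent.FG
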