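/-
S19/S32 [HOPF-FRONT] — helper1 — **tools for the assembly.**

* `mem_adjoin_of_fixed_integral` : the integers of `ℚ_p(ζ)` (`ζ ^ m = 1`, `p ∤ m`) are `ℤ_p[ζ]`, in
  the form: an integral element of `ℚ̄_p` fixed by the stabiliser of `ζ` lies in `ℤ_p[ζ]`;
  `const_mem_frontAlg_of_fixed`;
* `aeval_pointwise_mem` : polynomials over `ℤ_(p)` in elements of a `ℤ_p`-subalgebra of functions;
* `exists_uniform_approx` : pointwise geometric convergence on a finite set is uniform.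
-/
import Mathlib
import Fermat.Agent.FG.HOPF_helper1_FrontCore

set_option autoImplicit false
set_option linter.style.haveILetI false
set_option linter.unusedSectionVars false

namespace Fermat.Agent.FG

local notation "Ω" => AlgebraicClosure ℚ
local notation "GQ" => (AlgebraicClosure ℚ ≃ₐ[ℚ] AlgebraicClosure ℚ)

variable (p : ℕ) [Fact p.Prime]

section coeff

theorem ratLoc_algebraMap_padicAlgCl (a : GaloisRep.ratLocalizedAt p) :
    algebraMap (GaloisRep.ratLocalizedAt p) (PadicAlgCl p) a =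
      algebraMap ℚ_[p] (PadicAlgCl p) ((a : ℚ) : ℚ_[p]) := by
  have h1 : algebraMap (GaloisRep.ratLocalizedAt p) (PadicAlgCl p) a =
      algebraMap ℚ (PadicAlgCl p) (a : ℚ) := rfl
  rw [h1]
  simp

theorem norm_ratLoc_algebraMap_le (a : GaloisRep.ratLocalizedAt p) :
    ‖algebraMap (GaloisRep.ratLocalizedAt p) (PadicAlgCl p) a‖ ≤ 1 := by
  rw [ratLoc_algebraMap_padicAlgCl, PadicAlgCl.norm_extends]
  exact ratLoc_norm_le_one p a

theorem ratLoc_algebraMap_eq_padicInt (a : GaloisRep.ratLocalizedAt p) :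
    algebraMap (GaloisRep.ratLocalizedAt p) (PadicAlgCl p) a =
      algebraMap ℤ_[p] (PadicAlgCl p) (ratLocToPadicInt p a) := by
  rw [ratLoc_algebraMap_padicAlgCl, IsScalarTower.algebraMap_apply ℤ_[p] ℚ_[p] (PadicAlgCl p)]
  rfl

/-- polynomials over `ℤ_(p)` in elements of a `ℤ_p`-subalgebra of functions stay in the
subalgebra. -/
theorem aeval_pointwise_mem {X : Type*} (𝒜 : Subalgebra ℤ_[p] (X → PadicAlgCl p)) {τ : Type*}
    (P : MvPolynomial τ (GaloisRep.ratLocalizedAt p)) (f : τ → X → PadicAlgCl p)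
    (hf : ∀ t, f t ∈ 𝒜) : (fun x => MvPolynomial.aeval (fun t => f t x) P) ∈ 𝒜 := by
  induction P using MvPolynomial.induction_on with
  | C a =>
    have h1 : (fun x : X => MvPolynomial.aeval (fun t => f t x)
        (MvPolynomial.C a : MvPolynomial τ (GaloisRep.ratLocalizedAt p))) =
        algebraMap ℤ_[p] (X → PadicAlgCl p) (ratLocToPadicInt p a) := by
      funext x
      rw [MvPolynomial.aeval_C, Pi.algebraMap_apply, ratLoc_algebraMap_eq_padicInt]
    rw [h1]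
    exact 𝒜.algebraMap_mem _
  | add P Q hP hQ =>
    have h1 : (fun x : X => MvPolynomial.aeval (fun t => f t x) (P + Q)) =
        (fun x : X => MvPolynomial.aeval (fun t => f t x) P) +
          fun x : X => MvPolynomial.aeval (fun t => f t x) Q := by
      funext x
      rw [map_add, Pi.add_apply]
    rw [h1]
    exact 𝒜.add_mem hP hQ
  | mul_X P t hP =>
    have h1 : (fun x : X => MvPolynomial.aeval (fun t => f t x) (P * MvPolynomial.X t)) =
        (fun x : X => MvPolynomial.aeval (fun t => f t x) P) * f t := by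
      funext x
      rw [map_mul, MvPolynomial.aeval_X, Pi.mul_apply]
    rw [h1]
    exact 𝒜.mul_mem hP (hf t)

end coeff

section uniform

/-- pointwise geometric convergence on a finite set is uniform. -/
theorem exists_uniform_approx {X : Type*} [Finite X] (ψ : X → PadicAlgCl p)
    (φ : ℕ → X → PadicAlgCl p)
    (h : ∀ x, ∃ r : ℝ, 0 ≤ r ∧ r < 1 ∧ ∀ n, ‖ψ x - φ n x‖ ≤ r ^ (n + 1)) (N : ℕ) :
    ∃ n, ∀ x, ‖ψ x - φ n x‖ ≤ ((p : ℝ) ^ N)⁻¹ := by
  classical
  haveI := Fintype.ofFinite X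
  choose r hr0 hr1 hr using h
  have hε : (0 : ℝ) < ((p : ℝ) ^ N)⁻¹ :=
    inv_pos.mpr (pow_pos (Nat.cast_pos.mpr (Fact.out : p.Prime).pos) _)
  choose n hn using fun x => exists_pow_lt_of_lt_one hε (hr1 x)
  refine ⟨Finset.univ.sup n, fun x => ?_⟩
  refine (hr x _).trans ?_
  have h1 : n x ≤ Finset.univ.sup n + 1 := (Finset.le_sup (Finset.mem_univ x)).trans (Nat.le_succ _)
  exact (pow_le_pow_of_le_one (hr0 x) (hr1 x).le h1).trans (hn x).le

end uniform

section constants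

/-- **the integers of `ℚ_p(ζ)` are `ℤ_p[ζ]`**: an integral element of `ℚ̄_p` fixed by the stabiliser
of `ζ` lies in `ℤ_p[ζ]`. -/
theorem mem_adjoin_of_fixed_integral {m : ℕ} (hpm : ¬ p ∣ m) (ζ : PadicAlgCl p) (hζ : ζ ^ m = 1)
    (x : PadicAlgCl p) (hxint : IsIntegral ℤ_[p] x)
    (hxfix : ∀ ρ : PadicAlgCl p ≃ₐ[ℚ_[p]] PadicAlgCl p, ρ ζ = ζ → ρ x = x) :
    x ∈ Algebra.adjoin ℤ_[p] ({ζ} : Set (PadicAlgCl p)) := by
  classical
  have hm : 0 < m := Nat.pos_of_ne_zero fun h => hpm (h ▸ dvd_zero p)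
  haveI := finiteIndex_stabilizer_of_pow_eq_one p hm ζ hζ
  have hζ0 : ζ ≠ 0 := by
    rintro rfl
    rw [zero_pow hm.ne'] at hζ
    exact zero_ne_one hζ
  have hζint : IsIntegral ℤ_[p] ζ := by
    refine ⟨Polynomial.X ^ m - 1, Polynomial.monic_X_pow_sub_C 1 hm.ne', ?_⟩
    rw [Polynomial.eval₂_sub, Polynomial.eval₂_pow, Polynomial.eval₂_X, Polynomial.eval₂_one, hζ,
      sub_self]
  have hinv : ζ⁻¹ = ζ ^ (m - 1) := by
    refine inv_eq_of_mul_eq_one_right ?_
    rw [← pow_succ', Nat.sub_add_cancel hm, hζ]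
  -- the inverse of `m`
  have hunit : IsUnit ((m : ℕ) : ℤ_[p]) := by
    rw [PadicInt.isUnit_iff, PadicInt.norm_natCast_eq_one_iff,
      (Fact.out : p.Prime).coprime_iff_not_dvd]
    exact hpm
  obtain ⟨w, hw⟩ := hunit.exists_right_inv
  have hwC : algebraMap ℤ_[p] (PadicAlgCl p) w = (m : PadicAlgCl p)⁻¹ := by
    have h1 := congrArg (algebraMap ℤ_[p] (PadicAlgCl p)) hw
    rw [map_mul, map_natCast, map_one] at h1
    exact eq_inv_of_mul_eq_one_right h1
  set Γ' := MulAction.stabilizer (PadicAlgCl p ≃ₐ[ℚ_[p]] PadicAlgCl p) ζ with hΓ'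
  let θ : Fin m → PadicAlgCl p := fun i => ζ ^ (i : ℕ)
  let θ' : Fin m → PadicAlgCl p := fun i => (m : PadicAlgCl p)⁻¹ * ζ⁻¹ ^ (i : ℕ)
  have hθ'int : ∀ i, IsIntegral ℤ_[p] (θ' i) := fun i => by
    show IsIntegral ℤ_[p] ((m : PadicAlgCl p)⁻¹ * ζ⁻¹ ^ (i : ℕ))
    rw [← hwC, hinv]
    exact isIntegral_algebraMap.mul ((hζint.pow _).pow _)
  have hθ'fix : ∀ i, ∀ ρ ∈ Γ', ρ (θ' i) = θ' i := fun i ρ hρ => by
    show ρ ((m : PadicAlgCl p)⁻¹ * ζ⁻¹ ^ (i : ℕ)) = (m : PadicAlgCl p)⁻¹ * ζ⁻¹ ^ (i : ℕ)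
    have hρ' : ρ ζ = ζ := MulAction.mem_stabilizer_iff.mp hρ
    rw [map_mul, map_inv₀, map_natCast, map_pow, map_inv₀, hρ']
  -- the constant function on a one-point set
  let φ : PUnit.{1} → PadicAlgCl p := fun _ => x
  have hφ : IsSubEquivFun p Γ' φ := fun ρ hρ _ =>
    (hxfix ρ (MulAction.mem_stabilizer_iff.mp hρ)).symm
  have hrec := sum_smul_trFun p Γ' θ θ'
    (fun τ hτ => sum_rootOfUnity_of_fixed p hm ζ hζ τ (MulAction.mem_stabilizer_iff.mp hτ))
    (fun τ hτ => sum_rootOfUnity_of_moved p hm ζ hζ τ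
      fun h => hτ (MulAction.mem_stabilizer_iff.mpr h)) hφ
  have hrec' := congrFun hrec PUnit.unit
  rw [Finset.sum_apply] at hrec'
  -- the traces are in `ℤ_p`
  have hT : ∀ i, ∃ z : ℤ_[p], algebraMap ℤ_[p] (PadicAlgCl p) z =
      trFun p Γ' (θ' i • φ) PUnit.unit := by
    intro i
    have hloc := trFun_isLocEquivFun p Γ' (hφ.smul p (hθ'fix i))
    have hfix : ∀ τ : PadicAlgCl p ≃ₐ[ℚ_[p]] PadicAlgCl p,
        τ (trFun p Γ' (θ' i • φ) PUnit.unit) = trFun p Γ' (θ' i • φ) PUnit.unit :=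
      fun τ => (hloc τ PUnit.unit).symm
    obtain ⟨q, hq⟩ := GF.mem_range_of_fixed _ hfix
    have hint : IsIntegral ℤ_[p] (trFun p Γ' (θ' i • φ) PUnit.unit) := by
      letI := Subgroup.fintypeQuotientOfFiniteIndex (H := Γ')
      show IsIntegral ℤ_[p] ((∑ c : (PadicAlgCl p ≃ₐ[ℚ_[p]] PadicAlgCl p) ⧸ Γ',
        conjFun p (Quotient.out c) (θ' i • φ)) PUnit.unit)
      rw [Finset.sum_apply]
      refine IsIntegral.sum _ fun c _ => ?_
      rw [conjFun_apply]
      refine IsIntegral.map (Quotient.out c : PadicAlgCl p ≃ₐ[ℚ_[p]] PadicAlgCl p) ?_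
      show IsIntegral ℤ_[p] (θ' i * x)
      exact (hθ'int i).mul hxint
    obtain ⟨z, hz⟩ := exists_padicInt_of_isIntegral p q (by rw [hq]; exact hint)
    exact ⟨z, hz.trans hq⟩
  choose z hz using hT
  have hx : x = ∑ i, (θ i • trFun p Γ' (θ' i • φ)) PUnit.unit := hrec'.symm
  rw [hx]
  refine Subalgebra.sum_mem _ fun i _ => ?_
  have h5 : (θ i • trFun p Γ' (θ' i • φ)) PUnit.unit =
      ζ ^ (i : ℕ) * algebraMap ℤ_[p] (PadicAlgCl p) (z i) := by
    rw [hz i]
    rfl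
  rw [h5]
  have h6 : ζ ∈ Algebra.adjoin ℤ_[p] ({ζ} : Set (PadicAlgCl p)) :=
    Algebra.subset_adjoin (Set.mem_singleton ζ)
  exact Subalgebra.mul_mem _ (Subalgebra.pow_mem _ h6 _) (Subalgebra.algebraMap_mem _ _)

variable {G : Type*} [MulAction GQ G]

/-- constants which are integral and fixed by the stabiliser of `ζ` lie in `frontAlg`. -/
theorem const_mem_frontAlg_of_fixed {κ : Type*} {m : ℕ} (hpm : ¬ p ∣ m) (ζ : PadicAlgCl p)
    (hζ : ζ ^ m = 1) (u : κ → G → PadicAlgCl p) (x : PadicAlgCl p) (hxint : IsIntegral ℤ_[p] x)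
    (hxfix : ∀ ρ : PadicAlgCl p ≃ₐ[ℚ_[p]] PadicAlgCl p, ρ ζ = ζ → ρ x = x) :
    (fun _ : G => x) ∈ frontAlg p ζ u := by
  have h1 := mem_adjoin_of_fixed_integral p hpm ζ hζ x hxint hxfix
  clear hxint hxfix
  induction h1 using Algebra.adjoin_induction with
  | mem a ha =>
    rw [Set.mem_singleton_iff] at ha
    subst ha
    exact const_mem_frontAlg p a u
  | algebraMap z => exact Subalgebra.algebraMap_mem _ z
  | add a b _ _ ha hb => exact Subalgebra.add_mem _ ha hb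
  | mul a b _ _ ha hb => exact Subalgebra.mul_mem _ ha hb

end constants

end Fermat.Agent.FG
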