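/-
S19/S32 [HOPF-FRONT] — helper1 — **Newton approximants of an implicitly defined point.**

`K` an ultrametric normed field, `R` a ring of coefficients of norm `≤ 1`.  For a polynomial system
`S : κ → R[s, x]` (`s` parameters, `x : κ` unknowns) whose Jacobian in the unknowns at `0` is
invertible over `R` (inverse `B`), the simplified Newton iteration
`N_0 = 0`, `N_{n+1} = N_n - B · S(s; N_n)` produces POLYNOMIALS `N_n ∈ R[s]^κ` such that for every
small zero `w` of `S(s; ·)` (`‖s‖, ‖w‖ ≤ r < 1`): `‖N_n(s) - w‖ ≤ r ^ (n + 1)`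
(`norm_polyNewtonApprox_sub_le`).  No completeness is needed: the zero is given.
-/
import Mathlib

set_option autoImplicit false
set_option linter.style.haveILetI false
set_option linter.unusedSectionVars false

namespace Fermat.Agent.FG

open MvPolynomial

section estimates

variable {K : Type*} [NormedField K] [IsUltrametricDist K]
variable {R : Type*} [CommRing R] [Algebra R K]
variable {τ : Type*}

/-- the norm of a finite sum in an ultrametric field. -/
theorem norm_sum_le_of_forall_le' {J : Type*} (t : Finset J) (f : J → K) {C : ℝ} (hC : 0 ≤ C)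
    (hf : ∀ j ∈ t, ‖f j‖ ≤ C) : ‖∑ j ∈ t, f j‖ ≤ C := by
  classical
  induction t using Finset.induction_on with
  | empty => simpa using hC
  | insert a t hat ih =>
    rw [Finset.sum_insert hat]
    refine (IsUltrametricDist.norm_add_le_max _ _).trans (max_le ?_ ?_)
    · exact hf a (Finset.mem_insert_self _ _)
    · exact ih fun j hj => hf j (Finset.mem_insert_of_mem hj)

/-- values of polynomials with integral coefficients at integral points are integral. -/
theorem norm_aeval_le_one (hR : ∀ a : R, ‖algebraMap R K a‖ ≤ 1) (P : MvPolynomial τ R)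
    (x : τ → K) (hx : ∀ t, ‖x t‖ ≤ 1) : ‖aeval x P‖ ≤ 1 := by
  induction P using MvPolynomial.induction_on with
  | C a => rw [aeval_C]; exact hR a
  | add p q hp hq =>
    rw [map_add]
    exact (IsUltrametricDist.norm_add_le_max _ _).trans (max_le hp hq)
  | mul_X p t hp =>
    rw [map_mul, aeval_X, norm_mul]
    exact mul_le_one₀ hp (norm_nonneg _) (hx t)

/-- polynomials with integral coefficients are `1`-Lipschitz on the unit polydisc. -/
theorem norm_aeval_sub_le (hR : ∀ a : R, ‖algebraMap R K a‖ ≤ 1) (P : MvPolynomial τ R)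
    (x w : τ → K) (hx : ∀ t, ‖x t‖ ≤ 1) (hw : ∀ t, ‖w t‖ ≤ 1) {δ : ℝ} (hδ : 0 ≤ δ)
    (hxw : ∀ t, ‖x t - w t‖ ≤ δ) : ‖aeval x P - aeval w P‖ ≤ δ := by
  induction P using MvPolynomial.induction_on with
  | C a => rw [aeval_C, aeval_C, sub_self, norm_zero]; exact hδ
  | add p q hp hq =>
    rw [map_add, map_add, add_sub_add_comm]
    exact (IsUltrametricDist.norm_add_le_max _ _).trans (max_le hp hq)
  | mul_X p t hp =>
    rw [map_mul, map_mul, aeval_X, aeval_X]
    have h1 : aeval x p * x t - aeval w p * w t =
        (aeval x p - aeval w p) * x t + aeval w p * (x t - w t) := by ring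
    rw [h1]
    refine (IsUltrametricDist.norm_add_le_max _ _).trans (max_le ?_ ?_)
    · rw [norm_mul]
      calc ‖aeval x p - aeval w p‖ * ‖x t‖ ≤ δ * 1 :=
            mul_le_mul hp (hx t) (norm_nonneg _) hδ
        _ = δ := mul_one _
    · rw [norm_mul]
      calc ‖aeval w p‖ * ‖x t - w t‖ ≤ 1 * δ :=
            mul_le_mul (norm_aeval_le_one hR p w hw) (hxw t) (norm_nonneg _) zero_le_one
        _ = δ := one_mul _

/-- the value at a point of the polydisc of radius `r` differs from the constant term by at most
`r`. -/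
theorem norm_aeval_sub_constantCoeff_le (hR : ∀ a : R, ‖algebraMap R K a‖ ≤ 1)
    (P : MvPolynomial τ R) (w : τ → K) {r : ℝ} (hr0 : 0 ≤ r) (hr1 : r ≤ 1)
    (hw : ∀ t, ‖w t‖ ≤ r) : ‖aeval w P - algebraMap R K (constantCoeff P)‖ ≤ r := by
  have h := norm_aeval_sub_le hR P w 0 (fun t => (hw t).trans hr1) (fun _ => by simp) hr0
    (fun t => by simpa using hw t)
  rwa [aeval_zero] at h

variable [Fintype τ] [DecidableEq τ]

/-- **the non-archimedean Taylor estimate of order one.** -/
theorem norm_aeval_sub_sub_linear_le (hR : ∀ a : R, ‖algebraMap R K a‖ ≤ 1)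
    (P : MvPolynomial τ R) (x w : τ → K) {r : ℝ} (hr0 : 0 ≤ r) (hr1 : r ≤ 1)
    (hx : ∀ t, ‖x t‖ ≤ r) (hw : ∀ t, ‖w t‖ ≤ r) {δ : ℝ} (hδ : 0 ≤ δ)
    (hxw : ∀ t, ‖x t - w t‖ ≤ δ) :
    ‖aeval x P - aeval w P -
      ∑ t, algebraMap R K (coeff (Finsupp.single t 1) P) * (x t - w t)‖ ≤ r * δ := by
  have hrδ : 0 ≤ r * δ := mul_nonneg hr0 hδ
  induction P using MvPolynomial.induction_on with
  | C a =>
    have h1 : ∀ t : τ, coeff (Finsupp.single t 1) (C a : MvPolynomial τ R) = 0 := fun t => by
      rw [coeff_C, if_neg]
      intro h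
      have := congrArg (fun f : τ →₀ ℕ => f t) h
      simp at this
    simp only [h1, map_zero, zero_mul, Finset.sum_const_zero, aeval_C, sub_self, norm_zero]
    exact hrδ
  | add p q hp hq =>
    have h1 : aeval x (p + q) - aeval w (p + q) -
        ∑ t, algebraMap R K (coeff (Finsupp.single t 1) (p + q)) * (x t - w t) =
        (aeval x p - aeval w p - ∑ t, algebraMap R K (coeff (Finsupp.single t 1) p) * (x t - w t)) +
        (aeval x q - aeval w q -
          ∑ t, algebraMap R K (coeff (Finsupp.single t 1) q) * (x t - w t)) := by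
      simp only [map_add, coeff_add, add_mul, Finset.sum_add_distrib]
      ring
    rw [h1]
    exact (IsUltrametricDist.norm_add_le_max _ _).trans (max_le hp hq)
  | mul_X p u hp =>
    have h1 : ∀ t : τ, coeff (Finsupp.single t 1) (p * X u) =
        if t = u then constantCoeff p else 0 := by
      intro t
      rw [coeff_mul_X']
      by_cases htu : t = u
      · subst htu
        rw [if_pos (by simp), if_pos rfl, tsub_self]
        rfl
      · rw [if_neg, if_neg htu]
        rw [Finsupp.support_single _ one_ne_zero, Finset.mem_singleton]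
        exact fun h => htu h.symm
    have h2 : ∑ t, algebraMap R K (coeff (Finsupp.single t 1) (p * X u)) * (x t - w t) =
        algebraMap R K (constantCoeff p) * (x u - w u) := by
      simp only [h1]
      rw [Finset.sum_eq_single u]
      · rw [if_pos rfl]
      · intro t _ htu
        rw [if_neg htu, map_zero, zero_mul]
      · intro h
        exact absurd (Finset.mem_univ u) h
    rw [h2, map_mul, map_mul, aeval_X, aeval_X]
    have h3 : aeval x p * x u - aeval w p * w u - algebraMap R K (constantCoeff p) * (x u - w u) =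
        (aeval x p - aeval w p) * x u +
          (aeval w p - algebraMap R K (constantCoeff p)) * (x u - w u) := by ring
    rw [h3]
    refine (IsUltrametricDist.norm_add_le_max _ _).trans (max_le ?_ ?_)
    · rw [norm_mul, mul_comm r δ]
      exact mul_le_mul
        (norm_aeval_sub_le hR p x w (fun t => (hx t).trans hr1) (fun t => (hw t).trans hr1) hδ hxw)
        (hx u) (norm_nonneg _) hδ
    · rw [norm_mul]
      exact mul_le_mul (norm_aeval_sub_constantCoeff_le hR p w hr0 hr1 hw) (hxw u)
        (norm_nonneg _) hr0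

end estimates

section newton

variable {R : Type*} [CommRing R]
variable {σ κ : Type*} [Fintype κ] [DecidableEq κ]

/-- the Jacobian of the system in the unknowns at the origin. -/
noncomputable def polyJacZero (S : κ → MvPolynomial (σ ⊕ κ) R) : Matrix κ κ R :=
  Matrix.of fun a b => coeff (Finsupp.single (Sum.inr b) 1) (S a)

/-- one simplified Newton step, on polynomials in the parameters. -/
noncomputable def polyNewtonStep (S : κ → MvPolynomial (σ ⊕ κ) R) (B : Matrix κ κ R)
    (N : κ → MvPolynomial σ R) : κ → MvPolynomial σ R :=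
  fun a => N a - ∑ b, C (B a b) * aeval (Sum.elim X N) (S b)

/-- the Newton approximants. -/
noncomputable def polyNewtonApprox (S : κ → MvPolynomial (σ ⊕ κ) R) (B : Matrix κ κ R) :
    ℕ → κ → MvPolynomial σ R
  | 0 => 0
  | n + 1 => polyNewtonStep S B (polyNewtonApprox S B n)

variable {K : Type*} [NormedField K] [IsUltrametricDist K] [Algebra R K]

theorem aeval_polyNewtonStep (S : κ → MvPolynomial (σ ⊕ κ) R) (B : Matrix κ κ R)
    (N : κ → MvPolynomial σ R) (s : σ → K) (a : κ) :
    aeval s (polyNewtonStep S B N a) = aeval s (N a) -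
      ∑ b, algebraMap R K (B a b) * aeval (Sum.elim s fun c => aeval s (N c)) (S b) := by
  unfold polyNewtonStep
  rw [map_sub, map_sum]
  congr 1
  refine Finset.sum_congr rfl fun b _ => ?_
  rw [map_mul, aeval_C]
  congr 1
  have h1 := MvPolynomial.comp_aeval (R := R) (Sum.elim X N : σ ⊕ κ → MvPolynomial σ R)
    (aeval s : MvPolynomial σ R →ₐ[R] K)
  have h2 := congrArg (fun φ : MvPolynomial (σ ⊕ κ) R →ₐ[R] K => φ (S b)) h1
  simp only [AlgHom.comp_apply] at h2
  rw [h2]
  congr 2
  funext t
  cases t with
  | inl t => simp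
  | inr t => simp

variable [Fintype σ] [DecidableEq σ]

/-- **the Newton approximants converge to every small zero.** -/
theorem norm_polyNewtonApprox_sub_le (hR : ∀ a : R, ‖algebraMap R K a‖ ≤ 1)
    (S : κ → MvPolynomial (σ ⊕ κ) R) (B : Matrix κ κ R) (hB : B * polyJacZero S = 1)
    {r : ℝ} (hr0 : 0 ≤ r) (hr1 : r ≤ 1) (s : σ → K) (w : κ → K) (hs : ∀ t, ‖s t‖ ≤ r)
    (hw : ∀ b, ‖w b‖ ≤ r) (hSw : ∀ a, aeval (Sum.elim s w) (S a) = 0) (n : ℕ) (a : κ) :
    ‖aeval s (polyNewtonApprox S B n a) - w a‖ ≤ r ^ (n + 1) := by
  induction n generalizing a with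
  | zero =>
    show ‖aeval s (0 : MvPolynomial σ R) - w a‖ ≤ r ^ (0 + 1)
    rw [map_zero, zero_sub, norm_neg, zero_add, pow_one]
    exact hw a
  | succ n ih =>
    set x : κ → K := fun c => aeval s (polyNewtonApprox S B n c) with hxdef
    have hδ : (0 : ℝ) ≤ r ^ (n + 1) := pow_nonneg hr0 _
    have hδr : r ^ (n + 1) ≤ r := by
      calc r ^ (n + 1) = r ^ n * r := pow_succ r n
        _ ≤ 1 * r := mul_le_mul_of_nonneg_right (pow_le_one₀ hr0 hr1) hr0
        _ = r := one_mul r
    have hx : ∀ c, ‖x c‖ ≤ r := fun c => by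
      have h1 : x c = (x c - w c) + w c := by ring
      rw [h1]
      exact (IsUltrametricDist.norm_add_le_max _ _).trans (max_le ((ih c).trans hδr) (hw c))
    show ‖aeval s (polyNewtonStep S B (polyNewtonApprox S B n) a) - w a‖ ≤ r ^ (n + 1 + 1)
    rw [aeval_polyNewtonStep]
    -- the Taylor estimate for each equation
    have hT : ∀ b, ‖aeval (Sum.elim s x) (S b) - aeval (Sum.elim s w) (S b) -
        ∑ t, algebraMap R K (coeff (Finsupp.single t 1) (S b)) *
          ((Sum.elim s x) t - (Sum.elim s w) t)‖ ≤ r * r ^ (n + 1) := fun b =>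
      norm_aeval_sub_sub_linear_le hR (S b) (Sum.elim s x) (Sum.elim s w) hr0 hr1
        (fun t => by cases t with
          | inl t => exact hs t
          | inr t => exact hx t)
        (fun t => by cases t with
          | inl t => exact hs t
          | inr t => exact hw t) hδ
        (fun t => by cases t with
          | inl t => simpa using hδ
          | inr t => exact ih t)
    have hlin : ∀ b, ∑ t, algebraMap R K (coeff (Finsupp.single t 1) (S b)) *
        ((Sum.elim s x) t - (Sum.elim s w) t) =
        ∑ c, algebraMap R K (polyJacZero S b c) * (x c - w c) := by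
      intro b
      rw [Fintype.sum_sum_type]
      simp only [Sum.elim_inl, Sum.elim_inr, sub_self, mul_zero, Finset.sum_const_zero, zero_add]
      rfl
    obtain ⟨E, hE⟩ : ∃ E : κ → K, ∀ b, E b = aeval (Sum.elim s x) (S b) -
        ∑ c, algebraMap R K (polyJacZero S b c) * (x c - w c) := ⟨_, fun _ => rfl⟩
    have hEn : ∀ b, ‖E b‖ ≤ r * r ^ (n + 1) := fun b => by
      have := hT b
      rwa [hSw b, sub_zero, hlin b, ← hE b] at this
    have hBJ : ∀ c, ∑ b, algebraMap R K (B a b) * algebraMap R K (polyJacZero S b c) =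
        if a = c then 1 else 0 := by
      intro c
      have h1 := congrFun (congrFun hB a) c
      rw [Matrix.mul_apply, Matrix.one_apply] at h1
      have h2 := congrArg (algebraMap R K) h1
      rw [map_sum] at h2
      simp only [map_mul] at h2
      rw [h2]
      split_ifs <;> simp
    have hmain : x a - ∑ b, algebraMap R K (B a b) * aeval (Sum.elim s x) (S b) - w a =
        -∑ b, algebraMap R K (B a b) * E b := by
      have h1 : ∀ b, aeval (Sum.elim s x) (S b) =
          E b + ∑ c, algebraMap R K (polyJacZero S b c) * (x c - w c) := fun b => by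
        rw [hE b]; ring
      have h2 : ∑ b, algebraMap R K (B a b) *
          ∑ c, algebraMap R K (polyJacZero S b c) * (x c - w c) = x a - w a := by
        simp only [Finset.mul_sum]
        rw [Finset.sum_comm]
        have h3 : ∀ c, ∑ b, algebraMap R K (B a b) *
            (algebraMap R K (polyJacZero S b c) * (x c - w c)) =
            (if a = c then 1 else 0) * (x c - w c) := fun c => by
          rw [← hBJ c, Finset.sum_mul]
          exact Finset.sum_congr rfl fun b _ => by ring
        simp only [h3]
        rw [Finset.sum_eq_single a]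
        · rw [if_pos rfl, one_mul]
        · intro c _ hca
          rw [if_neg (Ne.symm hca), zero_mul]
        · intro h
          exact absurd (Finset.mem_univ a) h
      simp only [h1, mul_add, Finset.sum_add_distrib]
      rw [h2]
      ring
    rw [hmain, norm_neg, pow_succ r (n + 1), mul_comm (r ^ (n + 1)) r]
    refine norm_sum_le_of_forall_le' _ _ (mul_nonneg hr0 hδ) fun b _ => ?_
    rw [norm_mul]
    calc ‖algebraMap R K (B a b)‖ * ‖E b‖ ≤ 1 * (r * r ^ (n + 1)) :=
          mul_le_mul (hR _) (hEn b) (norm_nonneg _) zero_le_one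
      _ = r * r ^ (n + 1) := one_mul _

end newton

end Fermat.Agent.FG
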