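/-
S19/S32 [HOPF-FRONT] — helper1 — **the assembly, part B: the data and the coordinate functions.**

`FrontData p G J ι κ` : a finite `GQ`-module `G` inside a `GQ`-module `J` (`j : G →+ J`), a subgroup
`K ≤ J` ("kernel of reduction") stable under the decomposition group, an injective equivariant
chart `y : K → ι → ℚ̄_p` with values in the open unit polydisc, an IMPLICIT polynomial addition law
`S` over `ℤ_(p)` (unknowns `κ ⊇ ι`, Jacobian at the origin invertible), and lifts `c : G → J` of the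
cosets of `G⁰ = j⁻¹ K` which are fixed by `Gal(ℚ̄_p/ℚ_p(ζ))`.

This file: the coordinate functions `e_c` (indicator functions of the cosets) and
`Y_i (g) = y (j g - c g)_i`, and the hypotheses `hint`, `hsep`, `hsub` of `front_core`.
-/
import Mathlib
import Fermat.Agent.FG.HOPF_helper1_FrontA
import Fermat.Agent.FG.NEWTON_helper1

set_option autoImplicit false
set_option linter.style.haveILetI false
set_option linter.unusedSectionVars false

namespace Fermat.Agent.FG

local notation "Ω" => AlgebraicClosure ℚ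
local notation "GQ" => (AlgebraicClosure ℚ ≃ₐ[ℚ] AlgebraicClosure ℚ)

open scoped Classical

variable (p : ℕ) [Fact p.Prime]

/-- the input of the front end. -/
structure FrontData (G J ι κ : Type) [AddCommGroup G] [DistribMulAction GQ G]
    [AddCommGroup J] [DistribMulAction GQ J] [Fintype ι] [Fintype κ] [DecidableEq κ] where
  /-- the embedding of the finite module -/
  j : G →+ J
  hj : Function.Injective j
  hjσ : ∀ (σ : GQ) (g : G), j (σ • g) = σ • j g
  /-- the kernel of reduction -/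
  K : AddSubgroup J
  hK : ∀ (τ : PadicAlgCl p ≃ₐ[ℚ_[p]] PadicAlgCl p), ∀ x ∈ K, localGaloisToGlobal p τ • x ∈ K
  /-- the chart -/
  y : K → ι → PadicAlgCl p
  hy1 : ∀ x i, ‖y x i‖ < 1
  hyinj : Function.Injective y
  hyτ : ∀ (τ : PadicAlgCl p ≃ₐ[ℚ_[p]] PadicAlgCl p) (x : K) (i : ι),
    y ⟨localGaloisToGlobal p τ • (x : J), hK τ x x.2⟩ i = τ (y x i)
  /-- the coordinates of the sum among the unknowns -/
  out : ι → κ
  /-- the implicit addition law -/
  S : κ → MvPolynomial ((ι ⊕ ι) ⊕ κ) (GaloisRep.ratLocalizedAt p)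
  /-- the inverse of the Jacobian at the origin -/
  B : Matrix κ κ (GaloisRep.ratLocalizedAt p)
  hB : B * polyJacZero S = 1
  hS : ∀ x x' : K, ∃ w : κ → PadicAlgCl p, (∀ b, ‖w b‖ < 1) ∧ (∀ i, w (out i) = y (x + x') i) ∧
    ∀ a, MvPolynomial.aeval (Sum.elim (Sum.elim (y x) (y x')) w) (S a) = 0
  /-- the order of the root of unity -/
  m : ℕ
  hpm : ¬ p ∣ m
  /-- the root of unity -/
  ζ : PadicAlgCl p
  hζ : IsPrimitiveRoot ζ m
  /-- the lifts of the cosets -/
  c : G → J
  hcK : ∀ g, j g - c g ∈ K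
  hcρ : ∀ ρ : PadicAlgCl p ≃ₐ[ℚ_[p]] PadicAlgCl p, ρ ζ = ζ →
    ∀ g, localGaloisToGlobal p ρ • c g = c g
  hcc : ∀ g g', j g - j g' ∈ K → c g = c g'

namespace FrontData

variable {p}
variable {G J ι κ : Type} [AddCommGroup G] [DistribMulAction GQ G]
  [AddCommGroup J] [DistribMulAction GQ J] [Fintype ι] [Fintype κ] [DecidableEq κ]
  (D : FrontData p G J ι κ)

/-- the connected part. -/
def G0 : AddSubgroup G := D.K.comap D.j

/-- the coset of an element. -/
def cls (g : G) : G ⧸ D.G0 := QuotientAddGroup.mk g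

theorem cls_eq_iff (g g' : G) : D.cls g = D.cls g' ↔ D.j g - D.j g' ∈ D.K := by
  unfold cls
  rw [QuotientAddGroup.eq]
  show D.j (-g + g') ∈ D.K ↔ _
  rw [map_add, map_neg, ← neg_mem_iff (H := D.K), neg_add, neg_neg, ← sub_eq_add_neg]

theorem cls_add (g h : G) : D.cls (g + h) = D.cls g + D.cls h := rfl

theorem cls_out (c : G ⧸ D.G0) : D.cls (Quotient.out c) = c := QuotientAddGroup.out_eq' c

theorem c_eq_of_cls_eq {g g' : G} (h : D.cls g = D.cls g') : D.c g = D.c g' :=
  D.hcc g g' ((D.cls_eq_iff g g').mp h)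

theorem j_loc_smul (τ : PadicAlgCl p ≃ₐ[ℚ_[p]] PadicAlgCl p) (g : G) :
    D.j (localGaloisToGlobal p τ • g) = localGaloisToGlobal p τ • D.j g := D.hjσ _ g

/-- the decomposition group permutes the cosets. -/
theorem cls_smul_eq_of_cls_eq (τ : PadicAlgCl p ≃ₐ[ℚ_[p]] PadicAlgCl p) {g g' : G}
    (h : D.cls g = D.cls g') :
    D.cls (localGaloisToGlobal p τ • g) = D.cls (localGaloisToGlobal p τ • g') := by
  rw [cls_eq_iff] at h ⊢
  rw [j_loc_smul, j_loc_smul, ← smul_sub]
  exact D.hK τ _ h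

/-- the point of the kernel of reduction attached to an element. -/
def pt (g : G) : D.K := ⟨D.j g - D.c g, D.hcK g⟩

theorem coe_pt (g : G) : ((D.pt g : D.K) : J) = D.j g - D.c g := rfl

/-- the coordinate functions. -/
noncomputable def Y (i : ι) (g : G) : PadicAlgCl p := D.y (D.pt g) i

/-- the indicator functions of the cosets. -/
noncomputable def e (c : G ⧸ D.G0) (g : G) : PadicAlgCl p := if D.cls g = c then 1 else 0

/-- all the coordinate functions. -/
noncomputable def u : (G ⧸ D.G0) ⊕ ι → G → PadicAlgCl p := Sum.elim D.e D.Y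

theorem u_inl (c : G ⧸ D.G0) : D.u (Sum.inl c) = D.e c := rfl

theorem u_inr (i : ι) : D.u (Sum.inr i) = D.Y i := rfl

theorem norm_Y_lt (i : ι) (g : G) : ‖D.Y i g‖ < 1 := D.hy1 _ i

theorem m_pos : 0 < D.m := Nat.pos_of_ne_zero fun h => D.hpm (h ▸ dvd_zero p)

theorem hint (s : (G ⧸ D.G0) ⊕ ι) (g : G) : IsIntegral ℤ_[p] (D.u s g) := by
  cases s with
  | inl c =>
    rw [u_inl]
    unfold e
    split_ifs
    · exact isIntegral_one
    · exact isIntegral_zero
  | inr i =>
    rw [u_inr]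
    exact isIntegral_of_padicAlgCl_norm_le_one p (D.norm_Y_lt i g).le

theorem hsep (g g' : G) (hgg' : g ≠ g') : ∃ s, D.u s g ≠ D.u s g' := by
  by_cases h : D.cls g = D.cls g'
  · have hpt : D.pt g ≠ D.pt g' := by
      intro hpt
      apply hgg'
      apply D.hj
      have h1 := congrArg (fun x : D.K => (x : J)) hpt
      simp only [coe_pt, D.c_eq_of_cls_eq h] at h1
      exact sub_left_injective h1
    have hy : D.y (D.pt g) ≠ D.y (D.pt g') := fun hy => hpt (D.hyinj hy)
    obtain ⟨i, hi⟩ := Function.ne_iff.mp hy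
    exact ⟨Sum.inr i, hi⟩
  · refine ⟨Sum.inl (D.cls g), ?_⟩
    rw [u_inl]
    unfold e
    rw [if_pos rfl, if_neg (fun h' => h h'.symm)]
    exact one_ne_zero

/-- the stabiliser of `ζ` acts trivially on the cosets. -/
theorem cls_smul_of_fixed (ρ : PadicAlgCl p ≃ₐ[ℚ_[p]] PadicAlgCl p) (hρ : ρ D.ζ = D.ζ) (g : G) :
    D.cls (localGaloisToGlobal p ρ • g) = D.cls g := by
  rw [cls_eq_iff, j_loc_smul]
  have h1 : localGaloisToGlobal p ρ • D.j g - D.j g =
      localGaloisToGlobal p ρ • (D.j g - D.c g) - (D.j g - D.c g) := by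
    rw [smul_sub, D.hcρ ρ hρ g]
    abel
  rw [h1]
  exact D.K.sub_mem (D.hK ρ _ (D.hcK g)) (D.hcK g)

theorem pt_smul_of_fixed (ρ : PadicAlgCl p ≃ₐ[ℚ_[p]] PadicAlgCl p) (hρ : ρ D.ζ = D.ζ) (g : G) :
    D.pt (localGaloisToGlobal p ρ • g) =
      ⟨localGaloisToGlobal p ρ • ((D.pt g : D.K) : J), D.hK ρ _ (D.pt g).2⟩ := by
  apply Subtype.ext
  rw [coe_pt]
  show _ = localGaloisToGlobal p ρ • (D.j g - D.c g)
  rw [D.c_eq_of_cls_eq (D.cls_smul_of_fixed ρ hρ g), j_loc_smul, smul_sub, D.hcρ ρ hρ g]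

theorem hsub (s : (G ⧸ D.G0) ⊕ ι) (ρ : PadicAlgCl p ≃ₐ[ℚ_[p]] PadicAlgCl p) (hρ : ρ D.ζ = D.ζ)
    (g : G) : D.u s (localGaloisToGlobal p ρ • g) = ρ (D.u s g) := by
  cases s with
  | inl c =>
    rw [u_inl]
    unfold e
    rw [D.cls_smul_of_fixed ρ hρ g]
    split_ifs
    · rw [map_one]
    · rw [map_zero]
  | inr i =>
    rw [u_inr]
    unfold Y
    rw [D.pt_smul_of_fixed ρ hρ g, D.hyτ]

end FrontData

end Fermat.Agent.FG
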