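/-
S19/S32 [HOPF-FRONT] — helper1 — **the assembly, part C: approximate addition and conjugation.**

* `addApprox n a b` : the `n`-th Newton approximant of the sum of the points with coordinates
  `a`, `b`, a polynomial in `(a, b)` over `ℤ_(p)`; `addApprox_est`;
* `hconj` : the conjugates of the coordinate functions are approximated inside `frontAlg`.
-/
import Mathlib
import Fermat.Agent.FG.HOPF_helper1_FrontB

set_option autoImplicit false
set_option linter.style.haveILetI false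
set_option linter.unusedSectionVars false

namespace Fermat.Agent.FG

local notation "Ω" => AlgebraicClosure ℚ
local notation "GQ" => (AlgebraicClosure ℚ ≃ₐ[ℚ] AlgebraicClosure ℚ)

open scoped Classical

/-- a finite family of elements of norm `< 1` lies in a closed ball of radius `< 1`. -/
theorem exists_radius {p : ℕ} [Fact p.Prime] {T : Type*} [Finite T] (f : T → PadicAlgCl p)
    (hf : ∀ t, ‖f t‖ < 1) : ∃ r : ℝ, 0 ≤ r ∧ r < 1 ∧ ∀ t, ‖f t‖ ≤ r := by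
  rcases isEmpty_or_nonempty T with hT | hT
  · exact ⟨0, le_refl _, zero_lt_one, fun t => (hT.false t).elim⟩
  · obtain ⟨t₀, ht₀⟩ := Finite.exists_max (fun t => ‖f t‖)
    exact ⟨‖f t₀‖, norm_nonneg _, hf t₀, ht₀⟩

namespace FrontData

variable {p : ℕ} [Fact p.Prime]
variable {G J ι κ : Type} [AddCommGroup G] [DistribMulAction GQ G]
  [AddCommGroup J] [DistribMulAction GQ J] [Fintype ι] [Fintype κ] [DecidableEq κ]
  (D : FrontData p G J ι κ)

/-- the Newton approximants of the addition law. -/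
noncomputable def N (n : ℕ) : κ → MvPolynomial (ι ⊕ ι) (GaloisRep.ratLocalizedAt p) :=
  polyNewtonApprox D.S D.B n

/-- the approximate sum of two points given by their coordinates. -/
noncomputable def addApprox (n : ℕ) (a b : ι → PadicAlgCl p) : ι → PadicAlgCl p :=
  fun i => MvPolynomial.aeval (Sum.elim a b) (D.N n (D.out i))

/-- **the approximate sums converge to the sum.** -/
theorem addApprox_est (x x' : D.K) : ∃ r : ℝ, 0 ≤ r ∧ r < 1 ∧ (∀ i, ‖D.y x i‖ ≤ r) ∧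
    (∀ i, ‖D.y x' i‖ ≤ r) ∧ (∀ i, ‖D.y (x + x') i‖ ≤ r) ∧
    ∀ n i, ‖D.addApprox n (D.y x) (D.y x') i - D.y (x + x') i‖ ≤ r ^ (n + 1) := by
  obtain ⟨w, hw1, hwout, hSw⟩ := D.hS x x'
  obtain ⟨r, hr0, hr1, hr⟩ := exists_radius
    (Sum.elim (Sum.elim (D.y x) (D.y x')) w : (ι ⊕ ι) ⊕ κ → PadicAlgCl p) (by
      rintro ((t | t) | t)
      · exact D.hy1 x t
      · exact D.hy1 x' t
      · exact hw1 t)
  refine ⟨r, hr0, hr1, fun i => hr (Sum.inl (Sum.inl i)), fun i => hr (Sum.inl (Sum.inr i)),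
    fun i => by rw [← hwout i]; exact hr (Sum.inr (D.out i)), fun n i => ?_⟩
  rw [← hwout i]
  exact norm_polyNewtonApprox_sub_le (norm_ratLoc_algebraMap_le p) D.S D.B D.hB hr0 hr1.le
    (Sum.elim (D.y x) (D.y x')) w (fun t => hr (Sum.inl t)) (fun b => hr (Sum.inr b)) hSw n
    (D.out i)

/-- the approximate sums are `1`-Lipschitz in the first argument. -/
theorem addApprox_lipschitz (n : ℕ) (a a' b : ι → PadicAlgCl p) (ha : ∀ i, ‖a i‖ ≤ 1)
    (ha' : ∀ i, ‖a' i‖ ≤ 1) (hb : ∀ i, ‖b i‖ ≤ 1) {δ : ℝ} (hδ : 0 ≤ δ)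
    (haa' : ∀ i, ‖a i - a' i‖ ≤ δ) (i : ι) :
    ‖D.addApprox n a b i - D.addApprox n a' b i‖ ≤ δ := by
  unfold addApprox
  refine norm_aeval_sub_le (norm_ratLoc_algebraMap_le p) _ _ _ ?_ ?_ hδ ?_
  · rintro (t | t)
    · exact ha t
    · exact hb t
  · rintro (t | t)
    · exact ha' t
    · exact hb t
  · rintro (t | t)
    · exact haa' t
    · simpa using hδ

/-- polynomial expressions in elements of a subalgebra: the approximate sum. -/
theorem addApprox_mem {X : Type*} (𝒜 : Subalgebra ℤ_[p] (X → PadicAlgCl p)) (n : ℕ)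
    (a b : ι → X → PadicAlgCl p) (ha : ∀ i, a i ∈ 𝒜) (hb : ∀ i, b i ∈ 𝒜) (i : ι) :
    (fun x => D.addApprox n (fun i' => a i' x) (fun i' => b i' x) i) ∈ 𝒜 := by
  have h1 := aeval_pointwise_mem p 𝒜 (D.N n (D.out i)) (Sum.elim a b) (by
    rintro (t | t)
    · exact ha t
    · exact hb t)
  have h2 : (fun x => D.addApprox n (fun i' => a i' x) (fun i' => b i' x) i) =
      fun x => MvPolynomial.aeval (fun t => (Sum.elim a b : ι ⊕ ι → X → PadicAlgCl p) t x)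
        (D.N n (D.out i)) := by
    funext x
    unfold addApprox
    congr 2
    funext t
    cases t <;> rfl
  rw [h2]
  exact h1

/-! ### conjugation -/

theorem loc_smul_smul (σ τ : PadicAlgCl p ≃ₐ[ℚ_[p]] PadicAlgCl p) (z : J) :
    localGaloisToGlobal p σ • localGaloisToGlobal p τ • z = localGaloisToGlobal p (σ * τ) • z := by
  rw [map_mul, mul_smul]

theorem loc_smul_inv_smul (τ : PadicAlgCl p ≃ₐ[ℚ_[p]] PadicAlgCl p) (z : J) :
    localGaloisToGlobal p τ • localGaloisToGlobal p τ⁻¹ • z = z := by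
  rw [loc_smul_smul, mul_inv_cancel, map_one, one_smul]

/-- conjugates of the stabiliser of `ζ` stabilise `ζ`. -/
theorem conj_fixes (τ ρ : PadicAlgCl p ≃ₐ[ℚ_[p]] PadicAlgCl p) (hρ : ρ D.ζ = D.ζ) :
    (τ⁻¹ * ρ * τ) D.ζ = D.ζ := by
  haveI : NeZero D.m := ⟨D.m_pos.ne'⟩
  have h1 : (τ D.ζ) ^ D.m = 1 := by rw [← map_pow, D.hζ.pow_eq_one, map_one]
  obtain ⟨a, -, ha⟩ := D.hζ.eq_pow_of_pow_eq_one h1
  show τ⁻¹ (ρ (τ D.ζ)) = D.ζ
  rw [← ha, map_pow, hρ, ha]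
  exact τ.symm_apply_apply D.ζ

/-- the image of a point of the kernel of reduction under the decomposition group. -/
noncomputable def smulK (τ : PadicAlgCl p ≃ₐ[ℚ_[p]] PadicAlgCl p) (x : D.K) : D.K :=
  ⟨localGaloisToGlobal p τ • (x : J), D.hK τ x x.2⟩

theorem y_smulK (τ : PadicAlgCl p ≃ₐ[ℚ_[p]] PadicAlgCl p) (x : D.K) (i : ι) :
    D.y (D.smulK τ x) i = τ (D.y x i) := D.hyτ τ x i

/-- the correction term of the conjugation on a coset. -/
noncomputable def dτ (τ : PadicAlgCl p ≃ₐ[ℚ_[p]] PadicAlgCl p) (c : G ⧸ D.G0) : D.K :=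
  D.smulK τ (D.pt (localGaloisToGlobal p τ⁻¹ • Quotient.out c)) - D.pt (Quotient.out c)

theorem coe_dτ (τ : PadicAlgCl p ≃ₐ[ℚ_[p]] PadicAlgCl p) (c : G ⧸ D.G0) :
    ((D.dτ τ c : D.K) : J) = D.c (Quotient.out c) -
      localGaloisToGlobal p τ • D.c (localGaloisToGlobal p τ⁻¹ • Quotient.out c) := by
  show localGaloisToGlobal p τ • (D.j (localGaloisToGlobal p τ⁻¹ • Quotient.out c) -
      D.c (localGaloisToGlobal p τ⁻¹ • Quotient.out c)) -
      (D.j (Quotient.out c) - D.c (Quotient.out c)) = _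
  rw [smul_sub, j_loc_smul, loc_smul_inv_smul]
  abel

/-- the key identity for the conjugation. -/
theorem smulK_pt (τ : PadicAlgCl p ≃ₐ[ℚ_[p]] PadicAlgCl p) (g : G) :
    D.smulK τ (D.pt (localGaloisToGlobal p τ⁻¹ • g)) = D.pt g + D.dτ τ (D.cls g) := by
  apply Subtype.ext
  rw [AddSubgroup.coe_add, coe_dτ, coe_pt]
  show localGaloisToGlobal p τ • (D.j _ - D.c _) = _
  rw [smul_sub, j_loc_smul, loc_smul_inv_smul]
  have h1 : D.cls (Quotient.out (D.cls g)) = D.cls g := D.cls_out _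
  have h2 : D.c (localGaloisToGlobal p τ⁻¹ • g) =
      D.c (localGaloisToGlobal p τ⁻¹ • Quotient.out (D.cls g)) :=
    D.c_eq_of_cls_eq (D.cls_smul_eq_of_cls_eq τ⁻¹ h1.symm)
  rw [h2, D.c_eq_of_cls_eq h1]
  abel

theorem dτ_fixed (τ ρ : PadicAlgCl p ≃ₐ[ℚ_[p]] PadicAlgCl p) (hρ : ρ D.ζ = D.ζ) (c : G ⧸ D.G0) :
    D.smulK ρ (D.dτ τ c) = D.dτ τ c := by
  apply Subtype.ext
  show localGaloisToGlobal p ρ • ((D.dτ τ c : D.K) : J) = _
  rw [coe_dτ, smul_sub, D.hcρ ρ hρ, loc_smul_smul]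
  have h1 : ρ * τ = τ * (τ⁻¹ * ρ * τ) := by group
  rw [h1, ← loc_smul_smul, D.hcρ _ (D.conj_fixes τ ρ hρ)]

theorem conjFun_Y (τ : PadicAlgCl p ≃ₐ[ℚ_[p]] PadicAlgCl p) (i : ι) (g : G) :
    conjFun p τ (D.Y i) g = D.y (D.pt g + D.dτ τ (D.cls g)) i := by
  rw [conjFun_apply]
  unfold Y
  rw [← D.y_smulK, D.smulK_pt]

theorem conjFun_e (τ : PadicAlgCl p ≃ₐ[ℚ_[p]] PadicAlgCl p) (c₀ : G ⧸ D.G0) (g : G) :
    conjFun p τ (D.e c₀) g = if D.cls (localGaloisToGlobal p τ⁻¹ • g) = c₀ then 1 else 0 := by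
  rw [conjFun_apply]
  unfold e
  split_ifs
  · rw [map_one]
  · rw [map_zero]

theorem e_mul_eq (c : G ⧸ D.G0) (φ ψ : G → PadicAlgCl p)
    (h : ∀ g, D.cls g = c → φ g = ψ g) : D.e c * φ = D.e c * ψ := by
  funext g
  rw [Pi.mul_apply, Pi.mul_apply]
  unfold e
  split_ifs with hc
  · rw [h g hc]
  · rw [zero_mul, zero_mul]

theorem sum_e_mul (φ : (G ⧸ D.G0) → G → PadicAlgCl p) [Fintype (G ⧸ D.G0)] (g : G) :
    (∑ c, D.e c * φ c) g = φ (D.cls g) g := by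
  rw [Finset.sum_apply, Finset.sum_eq_single (D.cls g)]
  · rw [Pi.mul_apply]
    unfold e
    rw [if_pos rfl, one_mul]
  · intro c _ hc
    rw [Pi.mul_apply]
    unfold e
    rw [if_neg (Ne.symm hc), zero_mul]
  · intro h
    exact absurd (Finset.mem_univ _) h

variable [Finite G]

theorem hconj (s : (G ⧸ D.G0) ⊕ ι) (τ : PadicAlgCl p ≃ₐ[ℚ_[p]] PadicAlgCl p) (N : ℕ) :
    ∃ φ ∈ frontAlg p D.ζ D.u, ∀ g : G, ‖conjFun p τ (D.u s) g - φ g‖ ≤ ((p : ℝ) ^ N)⁻¹ := by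
  haveI : Fintype (G ⧸ D.G0) := Fintype.ofFinite _
  have hε : (0 : ℝ) ≤ ((p : ℝ) ^ N)⁻¹ :=
    (inv_pos.mpr (pow_pos (Nat.cast_pos.mpr (Fact.out : p.Prime).pos) _)).le
  cases s with
  | inl c₀ =>
    refine ⟨conjFun p τ (D.e c₀), ?_, fun g => by rw [u_inl, sub_self, norm_zero]; exact hε⟩
    have h1 : conjFun p τ (D.e c₀) = ∑ c : G ⧸ D.G0, D.e c *
        (fun _ => if D.cls (localGaloisToGlobal p τ⁻¹ • Quotient.out c) = c₀ then 1 else 0) := by
      funext g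
      rw [D.sum_e_mul, conjFun_e,
        D.cls_smul_eq_of_cls_eq τ⁻¹ (D.cls_out (D.cls g)).symm]
    rw [h1]
    refine Subalgebra.sum_mem _ fun c _ => Subalgebra.mul_mem _ (coord_mem_frontAlg p _ _ (Sum.inl c)) ?_
    split_ifs
    · exact Subalgebra.one_mem _
    · exact Subalgebra.zero_mem _
  | inr i =>
    -- the approximants
    obtain ⟨Φ, hΦ⟩ : ∃ Φ : ℕ → G → PadicAlgCl p, ∀ n g, Φ n g =
        D.addApprox n (fun i' => D.Y i' g) (D.y (D.dτ τ (D.cls g))) i := ⟨_, fun _ _ => rfl⟩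
    have hest : ∀ g, ∃ r : ℝ, 0 ≤ r ∧ r < 1 ∧
        ∀ n, ‖conjFun p τ (D.u (Sum.inr i)) g - Φ n g‖ ≤ r ^ (n + 1) := by
      intro g
      obtain ⟨r, hr0, hr1, -, -, -, hr⟩ := D.addApprox_est (D.pt g) (D.dτ τ (D.cls g))
      refine ⟨r, hr0, hr1, fun n => ?_⟩
      rw [u_inr, conjFun_Y, hΦ, ← norm_neg, neg_sub]
      exact hr n i
    obtain ⟨n, hn⟩ := exists_uniform_approx p _ Φ hest N
    refine ⟨Φ n, ?_, hn⟩
    -- membership
    have h1 : Φ n = ∑ c : G ⧸ D.G0, D.e c *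
        (fun g => D.addApprox n (fun i' => D.Y i' g) (fun i' => D.y (D.dτ τ c) i') i) := by
      funext g
      rw [D.sum_e_mul, hΦ]
    rw [h1]
    refine Subalgebra.sum_mem _ fun c _ =>
      Subalgebra.mul_mem _ (coord_mem_frontAlg p _ _ (Sum.inl c)) ?_
    refine D.addApprox_mem (frontAlg p D.ζ D.u) n (fun i' => D.Y i')
      (fun i' _ => D.y (D.dτ τ c) i') (fun i' => coord_mem_frontAlg p _ _ (Sum.inr i'))
      (fun i' => ?_) i
    refine const_mem_frontAlg_of_fixed p D.hpm D.ζ D.hζ.pow_eq_one D.u _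
      (isIntegral_of_padicAlgCl_norm_le_one p (D.hy1 _ _).le) fun ρ hρ => ?_
    rw [← D.y_smulK, D.dτ_fixed τ ρ hρ]

end FrontData

end Fermat.Agent.FG
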