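/-
S19/S32 [HOPF-FRONT] — helper1 — **the assembly, part D: the comultiplication and the theorem.**

* `hcomul` : the comultiplications of the coordinate functions are approximated by sums of products
  from `frontAlg` (the group law on the kernel of reduction is given implicitly by polynomials over
  `ℤ_(p)`, and the Newton approximants are polynomials in the coordinates);
* `FrontData.isHopfOrder`, `hasHopfOrder_of_front` : **the front end**: a finite Galois module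
  embedded in a `GQ`-module with such a "kernel of reduction" carries a Hopf order over `ℤ_(p)`.
-/
import Mathlib
import Fermat.Agent.FG.HOPF_helper1_FrontC
import Fermat.Agent.FG.HOPF_helper8_Closure

set_option autoImplicit false
set_option linter.style.haveILetI false
set_option linter.unusedSectionVars false

namespace Fermat.Agent.FG

local notation "Ω" => AlgebraicClosure ℚ
local notation "GQ" => (AlgebraicClosure ℚ ≃ₐ[ℚ] AlgebraicClosure ℚ)

open scoped Classical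

section tens

variable {R : Type*} [CommRing R] {F : Type*} [Field F] [Algebra R F] {X : Type*}
  (H : Subalgebra R (X → F))

theorem fst_mem_foJ₂_range {φ : X → F} (hφ : φ ∈ H) :
    (fun q : X × X => φ q.1) ∈ (foJ₂ H).range := by
  refine sum_mem_foJ₂_range H (n := 1) (u := fun _ => φ) (v := fun _ => 1) (fun _ => hφ)
    (fun _ => H.one_mem) fun q => ?_
  rw [Fin.sum_univ_one, Pi.one_apply, mul_one]

theorem snd_mem_foJ₂_range {φ : X → F} (hφ : φ ∈ H) :
    (fun q : X × X => φ q.2) ∈ (foJ₂ H).range := by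
  refine sum_mem_foJ₂_range H (n := 1) (u := fun _ => 1) (v := fun _ => φ) (fun _ => H.one_mem)
    (fun _ => hφ) fun q => ?_
  rw [Fin.sum_univ_one, Pi.one_apply, one_mul]

end tens

namespace FrontData

variable {p : ℕ} [Fact p.Prime]
variable {G J ι κ : Type} [AddCommGroup G] [DistribMulAction GQ G]
  [AddCommGroup J] [DistribMulAction GQ J] [Fintype ι] [Fintype κ] [DecidableEq κ]
  (D : FrontData p G J ι κ)

theorem norm_addApprox_le_one (n : ℕ) (a b : ι → PadicAlgCl p) (ha : ∀ i, ‖a i‖ ≤ 1)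
    (hb : ∀ i, ‖b i‖ ≤ 1) (i : ι) : ‖D.addApprox n a b i‖ ≤ 1 := by
  unfold addApprox
  refine norm_aeval_le_one (norm_ratLoc_algebraMap_le p) _ _ ?_
  rintro (t | t)
  · exact ha t
  · exact hb t

/-- the correction term of the addition on cosets. -/
noncomputable def δ (c c' : G ⧸ D.G0) : D.K :=
  D.pt (Quotient.out c + Quotient.out c') - D.pt (Quotient.out c) - D.pt (Quotient.out c')

theorem coe_δ (c c' : G ⧸ D.G0) : ((D.δ c c' : D.K) : J) =
    D.c (Quotient.out c) + D.c (Quotient.out c') - D.c (Quotient.out c + Quotient.out c') := by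
  show (D.j (Quotient.out c + Quotient.out c') - D.c (Quotient.out c + Quotient.out c')) -
    (D.j (Quotient.out c) - D.c (Quotient.out c)) -
    (D.j (Quotient.out c') - D.c (Quotient.out c')) = _
  rw [map_add]
  abel

theorem pt_add (g h : G) : D.pt (g + h) = D.pt g + D.pt h + D.δ (D.cls g) (D.cls h) := by
  apply Subtype.ext
  rw [AddSubgroup.coe_add, AddSubgroup.coe_add, coe_δ, coe_pt, coe_pt, coe_pt, map_add]
  have h1 : D.c (Quotient.out (D.cls g)) = D.c g := D.c_eq_of_cls_eq (D.cls_out _)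
  have h2 : D.c (Quotient.out (D.cls h)) = D.c h := D.c_eq_of_cls_eq (D.cls_out _)
  have h3 : D.c (Quotient.out (D.cls g) + Quotient.out (D.cls h)) = D.c (g + h) := by
    apply D.c_eq_of_cls_eq
    rw [cls_add, cls_add, cls_out, cls_out]
  rw [h1, h2, h3]
  abel

theorem δ_fixed (ρ : PadicAlgCl p ≃ₐ[ℚ_[p]] PadicAlgCl p) (hρ : ρ D.ζ = D.ζ)
    (c c' : G ⧸ D.G0) : D.smulK ρ (D.δ c c') = D.δ c c' := by
  apply Subtype.ext
  show localGaloisToGlobal p ρ • ((D.δ c c' : D.K) : J) = _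
  rw [coe_δ, smul_sub, smul_add, D.hcρ ρ hρ, D.hcρ ρ hρ, D.hcρ ρ hρ]

/-- the products of the indicator functions of the cosets, on `G × G`. -/
noncomputable def e₂ (c : (G ⧸ D.G0) × (G ⧸ D.G0)) : G × G → PadicAlgCl p :=
  fun q => D.e c.1 q.1 * D.e c.2 q.2

theorem e₂_mem (c : (G ⧸ D.G0) × (G ⧸ D.G0)) :
    D.e₂ c ∈ (foJ₂ (frontAlg p D.ζ D.u)).range :=
  Subalgebra.mul_mem _
    (fst_mem_foJ₂_range _ (coord_mem_frontAlg p D.ζ D.u (Sum.inl c.1)))
    (snd_mem_foJ₂_range _ (coord_mem_frontAlg p D.ζ D.u (Sum.inl c.2)))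

theorem sum_e₂_mul [Fintype (G ⧸ D.G0)]
    (φ : (G ⧸ D.G0) × (G ⧸ D.G0) → G × G → PadicAlgCl p) (q : G × G) :
    (∑ c : (G ⧸ D.G0) × (G ⧸ D.G0), D.e₂ c * φ c) q = φ (D.cls q.1, D.cls q.2) q := by
  rw [Finset.sum_apply, Finset.sum_eq_single (D.cls q.1, D.cls q.2)]
  · rw [Pi.mul_apply]
    unfold e₂ e
    rw [if_pos rfl, if_pos rfl, one_mul, one_mul]
  · rintro ⟨c, c'⟩ _ hc
    rw [Pi.mul_apply]
    unfold e₂ e
    by_cases h1 : D.cls q.1 = c
    · by_cases h2 : D.cls q.2 = c'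
      · exact absurd (by rw [h1, h2]) hc
      · rw [if_neg h2, mul_zero, zero_mul]
    · rw [if_neg h1, zero_mul, zero_mul]
  · intro h
    exact absurd (Finset.mem_univ _) h

variable [Finite G]

/-- the comultiplications are approximated inside the image of the tensor square. -/
theorem hcomul_aux (s : (G ⧸ D.G0) ⊕ ι) (N : ℕ) :
    ∃ F ∈ (foJ₂ (frontAlg p D.ζ D.u)).range,
      ∀ q : G × G, ‖D.u s (q.1 + q.2) - F q‖ ≤ ((p : ℝ) ^ N)⁻¹ := by
  haveI : Fintype (G ⧸ D.G0) := Fintype.ofFinite _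
  have hε : (0 : ℝ) ≤ ((p : ℝ) ^ N)⁻¹ :=
    (inv_pos.mpr (pow_pos (Nat.cast_pos.mpr (Fact.out : p.Prime).pos) _)).le
  cases s with
  | inl c₀ =>
    refine ⟨fun q => D.u (Sum.inl c₀) (q.1 + q.2), ?_, fun q => by
      rw [sub_self, norm_zero]; exact hε⟩
    have h1 : (fun q : G × G => D.u (Sum.inl c₀) (q.1 + q.2)) =
        ∑ c : (G ⧸ D.G0) × (G ⧸ D.G0), D.e₂ c * (fun _ => if c.1 + c.2 = c₀ then 1 else 0) := by
      funext q
      rw [D.sum_e₂_mul, u_inl]
      unfold e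
      rw [cls_add]
    rw [h1]
    refine Subalgebra.sum_mem _ fun c _ => Subalgebra.mul_mem _ (D.e₂_mem c) ?_
    split_ifs
    · exact Subalgebra.one_mem _
    · exact Subalgebra.zero_mem _
  | inr i =>
    obtain ⟨Φ, hΦ⟩ : ∃ Φ : ℕ → G × G → PadicAlgCl p, ∀ n q, Φ n q =
        D.addApprox n (D.addApprox n (D.y (D.pt q.1)) (D.y (D.pt q.2)))
          (D.y (D.δ (D.cls q.1) (D.cls q.2))) i := ⟨_, fun _ _ => rfl⟩
    have hest : ∀ q : G × G, ∃ r : ℝ, 0 ≤ r ∧ r < 1 ∧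
        ∀ n, ‖D.u (Sum.inr i) (q.1 + q.2) - Φ n q‖ ≤ r ^ (n + 1) := by
      intro q
      obtain ⟨r₁, h0₁, h1₁, -, -, -, hr₁⟩ := D.addApprox_est (D.pt q.1) (D.pt q.2)
      obtain ⟨r₂, h0₂, h1₂, -, -, -, hr₂⟩ :=
        D.addApprox_est (D.pt q.1 + D.pt q.2) (D.δ (D.cls q.1) (D.cls q.2))
      refine ⟨max r₁ r₂, le_max_of_le_left h0₁, max_lt h1₁ h1₂, fun n => ?_⟩
      have hle₁ : r₁ ^ (n + 1) ≤ (max r₁ r₂) ^ (n + 1) :=
        pow_le_pow_left₀ h0₁ (le_max_left _ _) _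
      have hle₂ : r₂ ^ (n + 1) ≤ (max r₁ r₂) ^ (n + 1) :=
        pow_le_pow_left₀ h0₂ (le_max_right _ _) _
      have hY : D.u (Sum.inr i) (q.1 + q.2) =
          D.y (D.pt q.1 + D.pt q.2 + D.δ (D.cls q.1) (D.cls q.2)) i := by
        rw [u_inr]
        unfold Y
        rw [D.pt_add]
      rw [hY, hΦ]
      have hsplit : D.y (D.pt q.1 + D.pt q.2 + D.δ (D.cls q.1) (D.cls q.2)) i -
          D.addApprox n (D.addApprox n (D.y (D.pt q.1)) (D.y (D.pt q.2)))
            (D.y (D.δ (D.cls q.1) (D.cls q.2))) i =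
          (D.y (D.pt q.1 + D.pt q.2 + D.δ (D.cls q.1) (D.cls q.2)) i -
            D.addApprox n (D.y (D.pt q.1 + D.pt q.2)) (D.y (D.δ (D.cls q.1) (D.cls q.2))) i) +
          (D.addApprox n (D.y (D.pt q.1 + D.pt q.2)) (D.y (D.δ (D.cls q.1) (D.cls q.2))) i -
            D.addApprox n (D.addApprox n (D.y (D.pt q.1)) (D.y (D.pt q.2)))
              (D.y (D.δ (D.cls q.1) (D.cls q.2))) i) := by
        ring
      rw [hsplit]
      refine (IsUltrametricDist.norm_add_le_max _ _).trans (max_le ?_ ?_)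
      · rw [norm_sub_rev]
        exact (hr₂ n i).trans hle₂
      · refine (D.addApprox_lipschitz n _ _ _ (fun i' => (D.hy1 _ i').le)
          (fun i' => D.norm_addApprox_le_one n _ _ (fun t => (D.hy1 _ t).le)
            (fun t => (D.hy1 _ t).le) i')
          (fun i' => (D.hy1 _ i').le) (pow_nonneg h0₁ _) (fun i' => ?_) i).trans hle₁
        rw [norm_sub_rev]
        exact hr₁ n i'
    obtain ⟨n, hn⟩ := exists_uniform_approx p _ Φ hest N
    refine ⟨Φ n, ?_, hn⟩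
    -- membership
    have h1 : Φ n = ∑ c : (G ⧸ D.G0) × (G ⧸ D.G0), D.e₂ c *
        (fun q : G × G => D.addApprox n
          (fun i'' => D.addApprox n (fun i' => D.Y i' q.1) (fun i' => D.Y i' q.2) i'')
          (fun i' => D.y (D.δ c.1 c.2) i') i) := by
      funext q
      rw [D.sum_e₂_mul, hΦ]
      rfl
    rw [h1]
    refine Subalgebra.sum_mem _ fun c _ => Subalgebra.mul_mem _ (D.e₂_mem c) ?_
    refine D.addApprox_mem (foJ₂ (frontAlg p D.ζ D.u)).range n
      (fun i'' q => D.addApprox n (fun i' => D.Y i' q.1) (fun i' => D.Y i' q.2) i'')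
      (fun i' _ => D.y (D.δ c.1 c.2) i') (fun i'' => ?_) (fun i' => ?_) i
    · exact D.addApprox_mem (foJ₂ (frontAlg p D.ζ D.u)).range n
        (fun i' q => D.Y i' q.1) (fun i' q => D.Y i' q.2)
        (fun i' => fst_mem_foJ₂_range _ (coord_mem_frontAlg p D.ζ D.u (Sum.inr i')))
        (fun i' => snd_mem_foJ₂_range _ (coord_mem_frontAlg p D.ζ D.u (Sum.inr i'))) i''
    · refine fst_mem_foJ₂_range (frontAlg p D.ζ D.u) (φ := fun _ => D.y (D.δ c.1 c.2) i') ?_
      refine const_mem_frontAlg_of_fixed p D.hpm D.ζ D.hζ.pow_eq_one D.u _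
        (isIntegral_of_padicAlgCl_norm_le_one p (D.hy1 _ _).le) fun ρ hρ => ?_
      rw [← D.y_smulK, D.δ_fixed ρ hρ]

theorem hcomul (s : (G ⧸ D.G0) ⊕ ι) (N : ℕ) :
    ∃ (k : ℕ) (a b : Fin k → G → PadicAlgCl p),
      (∀ i, a i ∈ frontAlg p D.ζ D.u) ∧ (∀ i, b i ∈ frontAlg p D.ζ D.u) ∧
      ∀ g h : G, ‖D.u s (g + h) - ∑ i, a i g * b i h‖ ≤ ((p : ℝ) ^ N)⁻¹ := by
  obtain ⟨F, ⟨t, rfl⟩, hest⟩ := D.hcomul_aux s N
  obtain ⟨k, a, b, ha, hb, hab⟩ := foJ₂_exists_sum _ t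
  exact ⟨k, a, b, ha, hb, fun g h => by rw [← hab (g, h)]; exact hest (g, h)⟩

/-- **the front end**, structure form. -/
theorem isHopfOrder (hcont : ∀ g : G, IsContAt g) :
    IsHopfOrder G p (latDescent p (unrDescent p (frontAlg p D.ζ D.u))) :=
  front_core p hcont D.hpm D.ζ D.hζ D.u D.hint D.hsep D.hsub D.hconj D.hcomul

theorem hasHopfOrder (D' : FrontData p G J ι κ) (hcont : ∀ g : G, IsContAt g) :
    HasHopfOrder p G :=
  ⟨_, D'.isHopfOrder hcont⟩

end FrontData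

/-- **[HOPF-FRONT]**: a finite Galois module `G`, embedded equivariantly in a `GQ`-module `𝒥` which
has a "kernel of reduction" `𝒦` (stable under the decomposition group, with an injective equivariant
chart into the open unit polydisc in which the group law is given IMPLICITLY by polynomial equations
over `ℤ_(p)` with invertible Jacobian at the origin), such that the cosets of `G ∩ 𝒦` have lifts
fixed by `Gal(ℚ̄_p/ℚ_p(ζ))` for a root of unity `ζ` of order prime to `p`, carries a Hopf order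
over `ℤ_(p)`. -/
theorem hasHopfOrder_of_front {p : ℕ} [Fact p.Prime]
    {𝒥 : Type} [AddCommGroup 𝒥] [DistribMulAction GQ 𝒥]
    {G : Type} [AddCommGroup G] [DistribMulAction GQ G] [Finite G]
    (hcont : ∀ g : G, IsContAt g)
    (j : G →+ 𝒥) (hj : Function.Injective j) (hjσ : ∀ (σ : GQ) (g : G), j (σ • g) = σ • j g)
    (𝒦 : AddSubgroup 𝒥)
    (h𝒦 : ∀ (τ : PadicAlgCl p ≃ₐ[ℚ_[p]] PadicAlgCl p), ∀ x ∈ 𝒦, localGaloisToGlobal p τ • x ∈ 𝒦)
    {ι : Type} [Fintype ι] (y : 𝒦 → ι → PadicAlgCl p) (hy1 : ∀ x i, ‖y x i‖ < 1)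
    (hyinj : Function.Injective y)
    (hyτ : ∀ (τ : PadicAlgCl p ≃ₐ[ℚ_[p]] PadicAlgCl p) (x : 𝒦) (i : ι),
      y ⟨localGaloisToGlobal p τ • (x : 𝒥), h𝒦 τ x x.2⟩ i = τ (y x i))
    {κ : Type} [Fintype κ] [DecidableEq κ] (out : ι → κ)
    (S : κ → MvPolynomial ((ι ⊕ ι) ⊕ κ) (GaloisRep.ratLocalizedAt p))
    (B : Matrix κ κ (GaloisRep.ratLocalizedAt p))
    (hB : B * (Matrix.of fun a b => MvPolynomial.coeff (Finsupp.single (Sum.inr b) 1) (S a)) = 1)
    (hS : ∀ x x' : 𝒦, ∃ w : κ → PadicAlgCl p, (∀ b, ‖w b‖ < 1) ∧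
      (∀ i, w (out i) = y (x + x') i) ∧
      ∀ a, MvPolynomial.aeval (Sum.elim (Sum.elim (y x) (y x')) w) (S a) = 0)
    {m : ℕ} (hpm : ¬ p ∣ m) (ζ : PadicAlgCl p) (hζ : IsPrimitiveRoot ζ m)
    (c : G → 𝒥) (hc𝒦 : ∀ g, j g - c g ∈ 𝒦)
    (hcρ : ∀ ρ : PadicAlgCl p ≃ₐ[ℚ_[p]] PadicAlgCl p, ρ ζ = ζ →
      ∀ g, localGaloisToGlobal p ρ • c g = c g)
    (hcc : ∀ g g', j g - j g' ∈ 𝒦 → c g = c g') : HasHopfOrder p G :=
  FrontData.hasHopfOrder
    { j := j, hj := hj, hjσ := hjσ, K := 𝒦, hK := h𝒦, y := y, hy1 := hy1, hyinj := hyinj,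
      hyτ := hyτ, out := out, S := S, B := B, hB := hB, hS := hS, m := m, hpm := hpm, ζ := ζ,
      hζ := hζ, c := c, hcK := hc𝒦, hcρ := hcρ, hcc := hcc } hcont

end Fermat.Agent.FG
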