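/-
FG (S19/S32) — helper8 — [GLUE], part 1: **descent of the chart data from `ℚ̄` to `ℤ_(p)`.**

* `glue_mem_nonunits_iff` : `a ∈ 𝔪_A ↔ ‖a‖_p < 1` for `A = padicPlace p`;
* `glue_exists_ratLoc` : an element of `ℚ̄` fixed by `G_ℚ` and lying in `padicPlace p` is in
  `ℤ_(p)`; `glue_exists_descent` : the same for polynomials (coefficientwise);
* `glue_padicEmbedding_eval` : evaluation in `ℚ̄_p` of a polynomial over `ℤ_(p)`;
* `glue_isUnit_of_valuation_eq_one` : an element of `ℤ_(p)` of `A`-valuation one is a unit.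
-/
import Mathlib
import Fermat.Agent.FG.HOPF_helper1_FrontD
import Fermat.Agent.FG.CURVE_helper5_Red

set_option autoImplicit false
set_option linter.style.haveILetI false
set_option linter.unusedSectionVars false

namespace Fermat.Agent.FG

local notation "Ω" => AlgebraicClosure ℚ
local notation "GQ" => (AlgebraicClosure ℚ ≃ₐ[ℚ] AlgebraicClosure ℚ)

open GaloisRep

variable (p : ℕ) [Fact p.Prime]

/-- `a ∈ 𝔪_A ↔ ‖a‖_p < 1` for `A = padicPlace p`. -/
theorem glue_mem_nonunits_iff (x : Ω) :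
    x ∈ (padicPlace p).nonunits ↔ ‖padicEmbedding p x‖ < 1 := by
  rw [ValuationSubring.mem_nonunits_iff]
  by_cases hx : x = 0
  · subst hx
    simp
  · have hx' : padicEmbedding p x ≠ 0 := by
      rw [Ne, map_eq_zero]; exact hx
    have hv0 : (padicPlace p).valuation x ≠ 0 := (Valuation.ne_zero_iff _).2 hx
    have key : x⁻¹ ∈ padicPlace p ↔ 1 ≤ ‖padicEmbedding p x‖ := by
      rw [mem_padicPlace_iff, map_inv₀, nnnorm_inv, ← NNReal.coe_le_coe, NNReal.coe_inv,
        coe_nnnorm, NNReal.coe_one]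
      rw [inv_le_one₀ (norm_pos_iff.mpr hx')]
    rw [← not_le, ← not_le, ← key, ← ValuationSubring.valuation_le_one_iff, map_inv₀,
      inv_le_one₀ (zero_lt_iff.2 hv0)]

theorem glue_padicEmbedding_ratLoc (r : ratLocalizedAt p) :
    padicEmbedding p (algebraMap (ratLocalizedAt p) Ω r) =
      algebraMap (ratLocalizedAt p) (PadicAlgCl p) r :=
  (padicEmbedding p).commutes (r : ℚ)

/-- an element of `ℚ̄` fixed by `G_ℚ` and integral at `padicPlace p` lies in `ℤ_(p)`. -/
theorem glue_exists_ratLoc (a : Ω) (hfix : ∀ σ : GQ, σ a = a) (ha : a ∈ padicPlace p) :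
    ∃ r : ratLocalizedAt p, algebraMap (ratLocalizedAt p) Ω r = a := by
  obtain ⟨q, rfl⟩ := mem_range_of_fixed a hfix
  have h1 : ‖padicEmbedding p (algebraMap ℚ Ω q)‖ ≤ 1 := by
    have := (mem_padicPlace_iff p).mp ha
    exact_mod_cast this
  have h2 : padicEmbedding p (algebraMap ℚ Ω q) =
      algebraMap ℚ_[p] (PadicAlgCl p) ((q : ℚ) : ℚ_[p]) := by
    rw [(padicEmbedding p).commutes q]
    simp
  rw [h2, PadicAlgCl.norm_extends] at h1
  exact ⟨⟨q, mem_ratLoc_of_norm_le_one p q h1⟩, rfl⟩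

/-- descent of a polynomial with `G_ℚ`-fixed, `p`-integral coefficients to `ℤ_(p)`. -/
theorem glue_exists_descent {τ : Type*} (P : MvPolynomial τ Ω)
    (hfix : ∀ (m : τ →₀ ℕ) (σ : GQ), σ (MvPolynomial.coeff m P) = MvPolynomial.coeff m P)
    (hint : ∀ m : τ →₀ ℕ, MvPolynomial.coeff m P ∈ padicPlace p) :
    ∃ Q : MvPolynomial τ (ratLocalizedAt p),
      MvPolynomial.map (algebraMap (ratLocalizedAt p) Ω) Q = P := by
  have h : P ∈ Set.range (MvPolynomial.map (algebraMap (ratLocalizedAt p) Ω)) := by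
    rw [MvPolynomial.mem_range_map_iff_coeffs_subset]
    intro c hc
    obtain ⟨m, -, rfl⟩ := MvPolynomial.mem_coeffs_iff.mp hc
    exact glue_exists_ratLoc p _ (hfix m) (hint m)
  exact h

/-- evaluation in `ℚ̄_p` of a polynomial over `ℤ_(p)`. -/
theorem glue_padicEmbedding_eval {τ : Type*} (Q : MvPolynomial τ (ratLocalizedAt p))
    (v : τ → Ω) :
    padicEmbedding p (MvPolynomial.eval v (MvPolynomial.map (algebraMap (ratLocalizedAt p) Ω) Q)) =
      MvPolynomial.aeval (fun t => padicEmbedding p (v t)) Q := by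
  rw [MvPolynomial.eval_map, MvPolynomial.aeval_def]
  have h := MvPolynomial.eval₂_comp_left (padicEmbedding p).toRingHom
    (algebraMap (ratLocalizedAt p) Ω) v Q
  have h' : padicEmbedding p (MvPolynomial.eval₂ (algebraMap (ratLocalizedAt p) Ω) v Q) =
      MvPolynomial.eval₂ ((padicEmbedding p).toRingHom.comp (algebraMap (ratLocalizedAt p) Ω))
        (fun t => padicEmbedding p (v t)) Q := h
  rw [h']
  congr 1
  exact RingHom.ext fun r => glue_padicEmbedding_ratLoc p r

/-- an element of `ℤ_(p)` of `A`-valuation one is a unit. -/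
theorem glue_isUnit_of_valuation_eq_one (r : ratLocalizedAt p)
    (h : (padicPlace p).valuation (algebraMap (ratLocalizedAt p) Ω r) = 1) : IsUnit r := by
  have hr0 : (r : ℚ) ≠ 0 := by
    intro h0
    have : algebraMap (ratLocalizedAt p) Ω r = 0 := by
      change algebraMap ℚ Ω (r : ℚ) = 0
      rw [h0, map_zero]
    rw [this, map_zero] at h
    exact zero_ne_one h
  have hinv : (algebraMap ℚ Ω (r : ℚ)⁻¹) ∈ padicPlace p := by
    rw [← ValuationSubring.valuation_le_one_iff, map_inv₀, map_inv₀]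
    change ((padicPlace p).valuation (algebraMap (ratLocalizedAt p) Ω r))⁻¹ ≤ 1
    rw [h, inv_one]
  obtain ⟨s, hs⟩ := glue_exists_ratLoc p (algebraMap ℚ Ω (r : ℚ)⁻¹)
    (fun σ => σ.commutes _) hinv
  have hs' : (s : ℚ) = (r : ℚ)⁻¹ := (algebraMap ℚ Ω).injective hs
  exact IsUnit.of_mul_eq_one s (Subtype.ext (by
    change (r : ℚ) * (s : ℚ) = 1
    rw [hs', mul_inv_cancel₀ hr0]))

end Fermat.Agent.FG
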