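/-
FG (S19/S32) — helper8 — [GLUE], part 2: **the coset lifts** `(ζ, c)` of helper1's front from
`GoodRed.LiftSpec`: a section `c : G → Pic⁰(𝔽)` of the reduction on the image of a finite group
`G`, constant on the cosets of the kernel of reduction, all of whose values are fixed by the
stabiliser of ONE primitive root of unity `ζ ∈ ℚ̄_p` of order prime to `p`.
-/
import Mathlib
import Fermat.Agent.FG.GLUE_helper8_Descent

set_option autoImplicit false
set_option linter.style.haveILetI false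
set_option linter.unusedSectionVars false

namespace Fermat.Agent.FG

local notation "Ω" => AlgebraicClosure ℚ
local notation "GQ" => (AlgebraicClosure ℚ ≃ₐ[ℚ] AlgebraicClosure ℚ)

open GaloisRep AlgebraicCurve IsLocalRing

variable (p : ℕ) [Fact p.Prime]

/-- `p` is a non-unit of `padicPlace p`. -/
theorem glue_natCast_mem_nonunits : ((p : ℕ) : Ω) ∈ (padicPlace p).nonunits := by
  rw [glue_mem_nonunits_iff, map_natCast]
  have h2 : ((p : ℕ) : PadicAlgCl p) = algebraMap ℚ_[p] (PadicAlgCl p) (p : ℚ_[p]) := by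
    rw [map_natCast]
  rw [h2, PadicAlgCl.norm_extends]
  exact Padic.norm_p_lt_one

/-- `p = 0` in the residue field of `padicPlace p`. -/
theorem glue_natCast_residueField_eq_zero :
    ((p : ℕ) : ResidueField ↥(padicPlace p)) = 0 := by
  obtain ⟨hmem, hmax⟩ := (ValuationSubring.mem_nonunits_iff_exists_mem_maximalIdeal).mp
    (glue_natCast_mem_nonunits p)
  have h1 : ((p : ℕ) : ResidueField ↥(padicPlace p)) =
      residue ↥(padicPlace p) ⟨((p : ℕ) : Ω), hmem⟩ := by
    rw [← map_natCast (residue ↥(padicPlace p))]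
    rfl
  rw [h1, residue_eq_zero_iff]
  exact hmax

/-- integers which are nonzero in the residue field are prime to `p`. -/
theorem glue_not_dvd_of_natCast_ne_zero {n : ℕ}
    (hn : ((n : ℕ) : ResidueField ↥(padicPlace p)) ≠ 0) : ¬ p ∣ n := by
  rintro ⟨d, rfl⟩
  apply hn
  rw [Nat.cast_mul, glue_natCast_residueField_eq_zero, zero_mul]

section Lifts

variable {p}
variable {𝔽 : Type} [Field 𝔽] [Algebra Ω 𝔽] {𝔽b : Type} [Field 𝔽b]
  [Algebra (ResidueField ↥(padicPlace p)) 𝔽b]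
  (X : GoodRed Ω (padicPlace p) 𝔽 𝔽b) (φ : GQ →* SemilinearAut Ω 𝔽)
  (hφbase : ∀ (σ : GQ) (a : Ω), SemilinearAut.baseAut (φ σ) a = σ a)
  (hφaut : ∀ τ : PadicAlgCl p ≃ₐ[ℚ_[p]] PadicAlgCl p, X.IsAut (φ (localGaloisToGlobal p τ)))
  (hlift : X.LiftSpec)
  {G : Type} [AddCommGroup G] [Finite G] (j : G →+ Pic0 Ω 𝔽)

include hφbase hφaut hlift in
/-- **the coset lifts of the front, from `LiftSpec`.** -/
theorem glue_exists_lifts :
    ∃ (m : ℕ) (_ : ¬ p ∣ m) (ζ : PadicAlgCl p) (_ : IsPrimitiveRoot ζ m) (c : G → Pic0 Ω 𝔽),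
      (∀ g, j g - c g ∈ X.kerRed) ∧
      (∀ ρ : PadicAlgCl p ≃ₐ[ℚ_[p]] PadicAlgCl p, ρ ζ = ζ →
        ∀ g, φ (localGaloisToGlobal p ρ) • c g = c g) ∧
      (∀ g g', j g - j g' ∈ X.kerRed → c g = c g') := by
  classical
  haveI := Fintype.ofFinite G
  choose L hL n ζ' hn hζ' hfix using hlift
  set T : Finset (Pic0 (ResidueField ↥(padicPlace p)) 𝔽b) :=
    Finset.univ.image (fun g : G => X.redPic0 (j g)) with hT
  set m : ℕ := ∏ zb ∈ T, n zb with hm
  have hpm : ¬ p ∣ m := by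
    rw [hm, (Nat.Prime.prime (Fact.out : p.Prime)).dvd_finsetProd_iff]
    rintro ⟨zb, -, hd⟩
    exact glue_not_dvd_of_natCast_ne_zero p (hn zb) hd
  have hm0 : m ≠ 0 := fun h0 => hpm (h0 ▸ dvd_zero p)
  haveI : NeZero m := ⟨hm0⟩
  haveI : NeZero ((m : ℕ) : PadicAlgCl p) := ⟨by exact_mod_cast hm0⟩
  obtain ⟨ζ, hζ⟩ := HasEnoughRootsOfUnity.exists_primitiveRoot (PadicAlgCl p) m
  refine ⟨m, hpm, ζ, hζ, fun g => L (X.redPic0 (j g)), fun g => ?_, fun ρ hρ g => ?_,
    fun g g' h => ?_⟩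
  · rw [GoodRed.mem_kerRed, map_sub, hL, sub_self]
  · refine hfix _ _ (hφaut ρ) ?_
    rw [hφbase]
    apply (padicEmbedding p).injective
    show padicEmbedding p (localGaloisToGlobal p ρ (ζ' (X.redPic0 (j g)))) =
      padicEmbedding p (ζ' (X.redPic0 (j g)))
    rw [padicEmbedding_localGaloisToGlobal]
    have hzT : X.redPic0 (j g) ∈ T := Finset.mem_image.mpr ⟨g, Finset.mem_univ g, rfl⟩
    have h1 : (padicEmbedding p (ζ' (X.redPic0 (j g)))) ^ m = 1 := by
      obtain ⟨d, hd⟩ := Finset.dvd_prod_of_mem n hzT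
      rw [← map_pow, hm, hd, pow_mul, hζ', one_pow, map_one]
    obtain ⟨i, -, hi⟩ := hζ.eq_pow_of_pow_eq_one h1
    rw [← hi, map_pow, hρ]
  · have : X.redPic0 (j g) = X.redPic0 (j g') := by
      rw [GoodRed.mem_kerRed, map_sub, sub_eq_zero] at h
      exact h
    show L (X.redPic0 (j g)) = L (X.redPic0 (j g'))
    rw [this]

end Lifts

end Fermat.Agent.FG
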