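/-
FG (S19/S32) — helper8 — [GLUE], part 3: **the bridge from the abstract chart of the kernel of
reduction (`GoodRed.Chart`, helper5) and the lifting property (`GoodRed.LiftSpec`) to helper1's
front `hasHopfOrder_of_front`**: a finite Galois module inside `Pic⁰` of a curve over `ℚ̄` with good
reduction at `padicPlace p` carries a Hopf order over `ℤ_(p)`.
-/
import Mathlib
import Fermat.Agent.FG.GLUE_helper8_Lifts
import Fermat.Agent.FG.HOPF_helper1_FrontD
import Fermat.Agent.FG.CURVE_helper5_Red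
import Fermat.Agent.FG.REFL_helper5_Lin

set_option autoImplicit false
set_option linter.style.haveILetI false
set_option linter.unusedSectionVars false

namespace Fermat.Agent.FG

local notation "Ω" => AlgebraicClosure ℚ
local notation "GQ" => (AlgebraicClosure ℚ ≃ₐ[ℚ] AlgebraicClosure ℚ)

open GaloisRep AlgebraicCurve IsLocalRing

/-- the Jacobian of a descended system: its image in `ℚ̄` is the Jacobian at the origin. -/
theorem glue_mapMatrix_jacobian (p : ℕ) [Fact p.Prime] {κ τ : Type*} [Fintype κ] [DecidableEq κ]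
    (e : κ → τ) (S : κ → MvPolynomial τ (ratLocalizedAt p)) (T : κ → MvPolynomial τ Ω)
    (hST : ∀ a, MvPolynomial.map (algebraMap (ratLocalizedAt p) Ω) (S a) = T a) :
    (algebraMap (ratLocalizedAt p) Ω).mapMatrix
        (Matrix.of fun a b => MvPolynomial.coeff (Finsupp.single (e b) 1) (S a)) =
      Matrix.of fun a b => MvPolynomial.constantCoeff (MvPolynomial.pderiv (e b) (T a)) := by
  ext a b
  rw [RingHom.mapMatrix_apply, Matrix.map_apply, Matrix.of_apply, Matrix.of_apply,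
    ← MvPolynomial.coeff_map, hST]
  exact (lin_eq_coeff (e b) (T a)).symm

/-- **[GLUE]** -/
theorem hasHopfOrder_of_goodRed {p : ℕ} [Fact p.Prime] {𝔽 : Type} [Field 𝔽] [Algebra Ω 𝔽]
    {𝔽b : Type} [Field 𝔽b] [Algebra (ResidueField ↥(padicPlace p)) 𝔽b]
    (X : GoodRed Ω (padicPlace p) 𝔽 𝔽b) (φ : GQ →* SemilinearAut Ω 𝔽)
    (hφbase : ∀ (σ : GQ) (a : Ω), SemilinearAut.baseAut (φ σ) a = σ a)
    (hφrat : ∀ σ : GQ, X.IsRatAut (φ σ))
    (hφaut : ∀ τ : PadicAlgCl p ≃ₐ[ℚ_[p]] PadicAlgCl p, X.IsAut (φ (localGaloisToGlobal p τ)))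
    (ch : X.Chart) (hlift : X.LiftSpec)
    {G : Type} [AddCommGroup G] [DistribMulAction GQ G] [Finite G] (hcont : ∀ g : G, IsContAt g)
    (j : G →+ Pic0 Ω 𝔽) (hj : Function.Injective j)
    (hjσ : ∀ (σ : GQ) (g : G), j (σ • g) = φ σ • j g) :
    HasHopfOrder p G := by
  classical
  letI : DistribMulAction GQ (Pic0 Ω 𝔽) := DistribMulAction.compHom _ φ
  letI := ch.fι
  letI := ch.dι
  letI := ch.fκ
  letI := ch.dκ
  -- the coset lifts
  obtain ⟨m, hpm, ζ, hζ, c, hc𝒦, hcρ, hcc⟩ := glue_exists_lifts X φ hφbase hφaut hlift j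
  -- the descent of the system
  have hdesc : ∀ a : ch.κ ⊕ ch.ι,
      ∃ Q : MvPolynomial ((ch.ι ⊕ ch.ι) ⊕ (ch.κ ⊕ ch.ι)) (ratLocalizedAt p),
        MvPolynomial.map (algebraMap (ratLocalizedAt p) Ω) Q = ch.S a := fun a =>
    glue_exists_descent p (ch.S a)
      (fun m σ => by rw [← hφbase]; exact ch.S_rat _ (hφrat σ) a m) (fun m => ch.S_int a m)
  choose S hS using hdesc
  -- the Jacobian
  set J : Matrix (ch.κ ⊕ ch.ι) (ch.κ ⊕ ch.ι) (ratLocalizedAt p) :=
    Matrix.of fun a b => MvPolynomial.coeff (Finsupp.single (Sum.inr b) 1) (S a) with hJ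
  have hJu : IsUnit J.det := by
    apply glue_isUnit_of_valuation_eq_one p
    rw [RingHom.map_det, hJ, glue_mapMatrix_jacobian p Sum.inr S ch.S hS]
    exact ch.S_jac
  -- stability of the kernel of reduction
  have h𝒦 : ∀ (τ : PadicAlgCl p ≃ₐ[ℚ_[p]] PadicAlgCl p), ∀ x ∈ X.kerRed,
      localGaloisToGlobal p τ • x ∈ X.kerRed := fun τ x hx =>
    ch.ker_stable _ (hφaut τ) x hx
  refine hasHopfOrder_of_front (𝒥 := Pic0 Ω 𝔽) hcont j hj hjσ X.kerRed h𝒦
    (fun x i => padicEmbedding p (ch.y x i))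
    (fun x i => (glue_mem_nonunits_iff p _).mp (ch.y_mem x i))
    (fun x x' h => ch.y_injective (funext fun i => (padicEmbedding p).injective (congrFun h i)))
    (fun τ x i => ?_) (Sum.inr : ch.ι → ch.κ ⊕ ch.ι) S J⁻¹ (Matrix.nonsing_inv_mul J hJu)
    (fun x x' => ?_) hpm ζ hζ c hc𝒦 hcρ hcc
  · have h1 := ch.y_smul _ (hφaut τ) x i
    rw [hφbase] at h1
    show padicEmbedding p (ch.y ⟨φ (localGaloisToGlobal p τ) • (x : Pic0 Ω 𝔽), _⟩ i) = _
    rw [h1, padicEmbedding_localGaloisToGlobal]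
  · obtain ⟨aux, haux, hsol⟩ := ch.S_sol x x'
    refine ⟨fun b => padicEmbedding p (Sum.elim aux (ch.y (x + x')) b), fun b => ?_,
      fun i => rfl, fun a => ?_⟩
    · rw [← glue_mem_nonunits_iff]
      rcases b with l | i
      · exact haux l
      · exact ch.y_mem _ i
    · have h2 := glue_padicEmbedding_eval p (S a)
        (Sum.elim (Sum.elim (ch.y x) (ch.y x')) (Sum.elim aux (ch.y (x + x'))))
      rw [hS, hsol, map_zero] at h2
      have hfun : (fun t => padicEmbedding p
          (Sum.elim (Sum.elim (ch.y x) (ch.y x')) (Sum.elim aux (ch.y (x + x'))) t)) =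
          Sum.elim (Sum.elim (fun i => padicEmbedding p (ch.y x i))
            (fun i => padicEmbedding p (ch.y x' i)))
            (fun b => padicEmbedding p (Sum.elim aux (ch.y (x + x')) b)) := by
        funext t
        rcases t with (t | t) | t <;> rfl
      rw [hfun] at h2
      exact h2.symm

end Fermat.Agent.FG
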