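/-
FG — helper5 — top-level assembly of S19 from the instance: a good-reduction datum `X` for
`Ω = ℚ̄` at `padicPlace ℓ`, a semilinear Galois action `φ` on its function field, and an
equivariant map `j : J₀(N) → Pic⁰` with kernel killed by an integer prime to `ℓ`.
-/
import Mathlib
import Fermat.Agent.FG.TOP19_helper5_Red
import Fermat.Agent.FG.REFL_helper5_Chart
import Fermat.Agent.FG.GLUE_helper8_Main
import Fermat.Agent.FG.LIFT_helper8_Padic
import Fermat.Agent.FG.HENSEL_helper2_Padic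
import Fermat.Agent.TW.Kill_helper1_Frob

set_option autoImplicit false
set_option linter.unusedSectionVars false
set_option linter.style.haveILetI false

noncomputable section

namespace Fermat.Agent.FG

open ModularCurve AlgebraicCurve IsLocalRing Fermat.Agent.GR Fermat.Agent.JA

local notation "Ω" => AlgebraicClosure ℚ
local notation "GQ" => (AlgebraicClosure ℚ ≃ₐ[ℚ] AlgebraicClosure ℚ)

/-- **S19 at `(N, ℓ, k)` from the instance.** -/
theorem s19At_of_goodRed (N : ℕ) [NeZero N] (ℓ : ℕ) [Fact ℓ.Prime] (k : ℕ)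
    {𝔽 : Type} [Field 𝔽] [Algebra Ω 𝔽]
    {𝔽b : Type} [Field 𝔽b] [Algebra (ResidueField ↥(padicPlace ℓ)) 𝔽b]
    (X : GoodRed Ω (padicPlace ℓ) 𝔽 𝔽b) (φ : GQ →* SemilinearAut Ω 𝔽)
    (hφbase : ∀ (σ : GQ) (a : Ω), SemilinearAut.baseAut (φ σ) a = σ a)
    (hφrat : ∀ σ : GQ, X.IsRatAut (φ σ))
    (hφaut : ∀ τ : PadicAlgCl ℓ ≃ₐ[ℚ_[ℓ]] PadicAlgCl ℓ, X.IsAut (φ (localGaloisToGlobal ℓ τ)))
    (j : JZero N →+ Pic0 Ω 𝔽) (hjσ : ∀ (σ : GQ) (x : JZero N), j (σ • x) = φ σ • j x)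
    (m : ℕ) (hm : Nat.Coprime m ℓ) (hjker : ∀ x : JZero N, j x = 0 → m • x = 0) :
    Fermat.Agent.S32.S19At N ℓ k := by
  apply s19At_of_hasHopfOrder
  letI := torsByAction (JZero N) (G := GQ) ((ℓ : ℤ) ^ k)
  haveI := finite_torsionBy_jzero N ℓ k
  have hA : (padicPlace ℓ).LiesOverPrime ℓ := Fermat.Agent.TW.Kill.padicPlace_liesOverPrime ℓ
  haveI : IsAlgClosed (ResidueField ↥(padicPlace ℓ)) := isAlgClosed_residueField (padicPlace ℓ)
  have hens : IsMvHenselian (padicPlace ℓ) := isMvHenselian_padicPlace ℓ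
  refine hasHopfOrder_of_goodRed X φ hφbase hφrat hφaut (X.chartOf hens)
    (X.liftSpec_of_liesOverPrime hA) (fun g => isContAt_torsionBy_jzero N _ g)
    (j.comp (Submodule.torsionBy ℤ (JZero N) ((ℓ : ℤ) ^ k)).subtype.toAddMonoidHom) ?_ ?_
  · rw [injective_iff_map_eq_zero]
    intro x hx
    have h1 : m • (x : JZero N) = 0 := hjker _ hx
    have h2 : ((ℓ : ℤ) ^ k) • (x : JZero N) = 0 := by
      have := x.2
      rwa [Submodule.mem_torsionBy_iff] at this
    have hcop : IsCoprime (m : ℤ) ((ℓ : ℤ) ^ k) :=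
      (Nat.isCoprime_iff_coprime.mpr hm).pow_right
    obtain ⟨a, b, hab⟩ := hcop
    apply Subtype.ext
    show (x : JZero N) = 0
    calc (x : JZero N) = (1 : ℤ) • (x : JZero N) := (one_smul _ _).symm
      _ = (a * m + b * (ℓ : ℤ) ^ k) • (x : JZero N) := by rw [hab]
      _ = 0 := by
        have h1' : (m : ℤ) • (x : JZero N) = 0 := by rw [natCast_zsmul]; exact h1
        rw [add_zsmul, mul_zsmul, mul_zsmul, h2, h1', zsmul_zero,
          zsmul_zero, add_zero]
  · intro σ g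
    exact hjσ σ (g : JZero N)

end Fermat.Agent.FG

end
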