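/-
FG (S19/S32) — helper6 — **[INST-HES]: the Hesse instance.**

The good-reduction datum `hesGoodRed` of the Hesse cover `hesE Ω N` of `X₀(N)` at a place `A` of
`Ω = ℚ̄` over a prime `ℓ ∤ 3N`, the coefficientwise Galois action as rational automorphisms /
automorphisms of the datum, and **S19 at `(N, ℓ, k)` for `ℓ ∤ 3N`** (in particular `ℓ = 2`).
-/
import Mathlib
import Fermat.Agent.FG.TOP19_helper5_Asm
import Fermat.Agent.FG.EGAL_helper6_PullHes
import Fermat.Agent.FG.EGAL_helper6_Aut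
import Fermat.Agent.FG.EGAL_helper6_CuspRedHes
import Fermat.Agent.FG.EDEF_helper6_Fields
import Fermat.Agent.FG.ERED_helper1_CuspHes
import Fermat.Agent.FG.ERED_helper1_Final
import Fermat.Agent.FG.COH_helper8_Final
import Fermat.Agent.FG.OB_helper8_Leg
import Fermat.Agent.FG.TAUREG_helper2

set_option autoImplicit false
set_option linter.unusedSectionVars false
set_option linter.style.haveILetI false
set_option synthInstance.maxHeartbeats 400000

noncomputable section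

namespace Fermat.Agent.FG

open ModularCurve AlgebraicCurve IsLocalRing IntermediateField
open Fermat.Agent.GR Fermat.Agent.JA Fermat.Agent.SS Fermat.Agent.FF

local notation "Ω" => AlgebraicClosure ℚ
local notation "GQ" => (AlgebraicClosure ℚ ≃ₐ[ℚ] AlgebraicClosure ℚ)

section Hes

variable {ℓ : ℕ} [Fact ℓ.Prime] {A : ValuationSubring Ω} (hA : A.LiesOverPrime ℓ)
  (N : ℕ) [NeZero N] (hℓN : ¬ ℓ ∣ N) (hℓ3 : ℓ ≠ 3)

include hℓN in
/-- the orthogonal basis of `hesE Ω N` over `Ω(τ)`. -/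
theorem exists_hesOB :
    ∃ (b : Fin (hesCoordBar N).degree → ↥(hesE Ω N)) (hb : ∀ i, b i ∈ hesWE hA N hℓ3),
      LinearIndependent ↥(ResidueField ↥A)⟮hesTaub hA N hℓ3⟯
        (fun i => hesρ hA N hℓ3 ⟨b i, hb i⟩) := by
  obtain ⟨-, hfin, -, hfr⟩ := hesTaub_facts hA N hℓ3 hℓN
  haveI := hfin
  exact exists_orthogonal_basis_hesE_of_finrank hA N hℓ3 (hesTaub hA N hℓ3) hfr

/-- **the good-reduction datum of the Hesse cover.** -/
def hesGoodRed : GoodRed Ω A ↥(hesE Ω N) (hesEt hA N hℓ3) where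
  W := hesWE hA N hℓ3
  ρ := hesρ hA N hℓ3
  ρ_surjective := hesρ_surjective hA N hℓ3
  algebraMap_mem_iff := algebraMap_mem_hesWE_iff hA N hℓ3
  ρ_algebraMap := hesρ_algebraMap hA N hℓ3
  exists_smul_unit := hesWE_exists_smul_unit hA N hℓ3
  deg_gen := hesE_deg_gen N
  deg_red := hesEt_deg_red hA N hℓN hℓ3
  principal_gen := hesE_principal_gen N
  principal_red := hesEt_principal_red hA N hℓN hℓ3
  const_gen := hesE_const_gen N
  const_red := hesEt_const_red hA N hℓN hℓ3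
  r := hesR hA N hℓ3 (hesCuspb hA N hℓ3)
  r_div := hesR_div_final hA N hℓN hℓ3 (hesCuspb hA N hℓ3)
  g := (coh_hesE hA N hℓN hℓ3).choose
  riemann_gen := (coh_hesE hA N hℓN hℓ3).choose_spec.1
  rr_red := (coh_hesE hA N hℓN hℓ3).choose_spec.2.2
  cusp := hesCusp Ω N
  τ := hesTau Ω N
  τ_mem := hesTau_mem_hesWE hA N hℓ3
  ord_cusp_τ := hesCusp_ord_hesTau Ω N
  ord_r_cusp_τ := hesR_cusp_ord_hesTaub hA N hℓN hℓ3 (hesCuspb hA N hℓ3)
  τ_regular :=
    tau_regular_of_fields (hesWE hA N hℓ3) (hesρ hA N hℓ3)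
      (hesR hA N hℓ3 (hesCuspb hA N hℓ3))
      (hesR_div_final hA N hℓN hℓ3 (hesCuspb hA N hℓ3)) (hesE_deg_gen N)
      (hesEt_deg_red hA N hℓN hℓ3) (hesCusp Ω N) (hesTau Ω N) (hesTau_mem_hesWE hA N hℓ3)
      (hesR_cusp_ord_hesTaub hA N hℓN hℓ3 (hesCuspb hA N hℓ3)) (hesTau_transcendental Ω N)
      (hesTau_finite N) (hesTaub_facts hA N hℓ3 hℓN).2.1 (hesTaub_facts hA N hℓ3 hℓN).2.2.1
      (hesCoordBar N).degree (finrank_hesTau N)
      (exists_hesOB hA N hℓN hℓ3).choose (exists_hesOB hA N hℓN hℓ3).choose_spec.choose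
      (exists_hesOB hA N hℓN hℓ3).choose_spec.choose_spec
  τ_transcendental := hesTau_transcendental Ω N
  τ_finite := hesTau_finite N
  τ_finite_red := (hesTaub_facts hA N hℓ3 hℓN).2.1
  τ_separable_red := (hesTaub_facts hA N hℓ3 hℓN).2.2.1
  d := (hesCoordBar N).degree
  finrank_τ := finrank_hesTau N
  b := (exists_hesOB hA N hℓN hℓ3).choose
  b_mem := (exists_hesOB hA N hℓN hℓ3).choose_spec.choose
  b_red_indep := (exists_hesOB hA N hℓN hℓ3).choose_spec.choose_spec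

/-- the coefficientwise Galois action consists of rational automorphisms of the datum. -/
theorem hesGoodRed_isRatAut (σ : GQ) :
    (hesGoodRed hA N hℓN hℓ3).IsRatAut (hesGalois Ω N σ) where
  smul_τ := hesGalois_smul_hesTau Ω N σ
  smul_cusp := hesGalois_smul_hesCusp Ω N σ

/-- the decomposition group acts by automorphisms of the datum. -/
theorem hesGoodRed_isAut {σ : GQ} (hσ : σ ∈ A.decompositionSubgroup ℚ) :
    (hesGoodRed hA N hℓN hℓ3).IsAut (hesGalois Ω N σ) where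
  base_mem a := apply_mem_iff_of_mem_decompositionSubgroup hσ a
  smul_mem f := hesGalois_smul_mem_hesWE_iff hA N hℓ3
    (fun a => apply_mem_iff_of_mem_decompositionSubgroup hσ a) f
  smul_τ := hesGalois_smul_hesTau Ω N σ
  smul_cusp := hesGalois_smul_hesCusp Ω N σ
  r_smul := hesR_smul_final hA N hℓN hℓ3 (hesCuspb hA N hℓ3)
    (preservesGauss_hesGalois hA N hℓ3 hσ) (hesGalois_smul_hesTΩ N σ)

end Hes

/-- **S19 at `(N, ℓ, k)` for `ℓ ∤ 3N`, via the Hesse cover.** -/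
theorem s19At_of_hesse (N : ℕ) [NeZero N] (ℓ : ℕ) [Fact ℓ.Prime] (hℓN : ¬ ℓ ∣ N)
    (hℓ3 : ℓ ≠ 3) (k : ℕ) : Fermat.Agent.S32.S19At N ℓ k := by
  have hA : (padicPlace ℓ).LiesOverPrime ℓ := Fermat.Agent.TW.Kill.padicPlace_liesOverPrime ℓ
  refine s19At_of_goodRed N ℓ k (hesGoodRed hA N hℓN hℓ3) (hesGalois Ω N)
    (fun σ a => baseAut_hesGalois N σ a) (fun σ => hesGoodRed_isRatAut hA N hℓN hℓ3 σ)
    (fun τ => hesGoodRed_isAut hA N hℓN hℓ3
      (localGaloisToGlobal_mem_decompositionSubgroup ℓ τ))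
    (hesPull N) (fun σ x => hesPull_smul N σ x) 3 ?_
    (fun x hx => three_nsmul_eq_zero_of_hesPull_eq_zero N x hx)
  have hℓ : ℓ.Prime := Fact.out
  exact (Nat.coprime_primes Nat.prime_three hℓ).mpr (Ne.symm hℓ3)

end Fermat.Agent.FG

end
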