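/-
FG — helper5 — **S19 at odd primes**: for `ℓ ∤ N` odd, `J₀(N)[ℓ^k]` is the group of points of a
finite flat group scheme over `ℤ_(ℓ)` (Legendre host).
-/
import Mathlib
import Fermat.Agent.FG.TOP19_helper5_Asm
import Fermat.Agent.FG.INST_helper5_Leg
import Fermat.Agent.FG.EGAL_helper6_PullLeg

set_option autoImplicit false
set_option linter.unusedSectionVars false
set_option linter.style.haveILetI false

noncomputable section

namespace Fermat.Agent.FG

open ModularCurve AlgebraicCurve IsLocalRing Fermat.Agent.JA Fermat.Agent.SS Fermat.Agent.Igusa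

local notation "Ω" => AlgebraicClosure ℚ
local notation "GQ" => (AlgebraicClosure ℚ ≃ₐ[ℚ] AlgebraicClosure ℚ)

/-- **S19 at `(N, ℓ, k)` for odd `ℓ ∤ N`.** -/
theorem s19At_of_odd (N : ℕ) [NeZero N] (ℓ : ℕ) [Fact ℓ.Prime] (hℓN : ¬ ℓ ∣ N) (hℓ2 : ℓ ≠ 2)
    (k : ℕ) : Fermat.Agent.S32.S19At N ℓ k := by
  have hA : (padicPlace ℓ).LiesOverPrime ℓ := Fermat.Agent.TW.Kill.padicPlace_liesOverPrime ℓ
  refine s19At_of_goodRed N ℓ k (legGoodRed hA N hℓN hℓ2) (legGalois Ω N)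
    (fun σ a => baseAut_legGalois N σ a) (fun σ => legGoodRed_isRatAut hA N hℓN hℓ2 σ)
    (fun τ => legGoodRed_isAut hA N hℓN hℓ2 (localGaloisToGlobal_mem_decompositionSubgroup ℓ τ))
    (legPull N) (legPull_smul N) 2 ?_ (two_nsmul_eq_zero_of_legPull_eq_zero N)
  rw [Nat.coprime_comm]
  exact (Nat.Prime.coprime_iff_not_dvd (Fact.out : ℓ.Prime)).mpr fun h =>
    hℓ2 ((Nat.prime_dvd_prime_iff_eq (Fact.out : ℓ.Prime) Nat.prime_two).mp h)

end Fermat.Agent.FG

end
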