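/-
FG [E-GAL] — helper6 — **Möbius relations between two generators of a rational function field**,
the order of a Laurent series from its coefficients, and the `x`-adic place of a field embedded in
`k⸨x⸩`.
-/
import Mathlib
import Fermat.Agent.FF.Gal_helper7_OfOrd

set_option autoImplicit false
set_option linter.unusedSectionVars false
set_option linter.style.haveILetI false

open IntermediateField AlgebraicCurve

namespace Fermat.Agent.FG

section Mobius

variable {F : Type*} [Field F]

/-- **a Möbius relation** `t · (c u + d) = a u + b` with integer coefficients whose determinant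
`a d − b c` does not vanish in `F`. -/
structure IsMobius (a b c d : ℤ) (t u : F) : Prop where
  rel : t * ((c : F) * u + (d : F)) = (a : F) * u + (b : F)
  det : ((a * d - b * c : ℤ) : F) ≠ 0

namespace IsMobius

variable {a b c d : ℤ} {t u : F}

theorem denom_ne_zero (h : IsMobius a b c d t u) : (c : F) * u + (d : F) ≠ 0 := by
  intro h0
  have h1 : (a : F) * u + (b : F) = 0 := by rw [← h.rel, h0, mul_zero]
  apply h.det
  push_cast
  linear_combination (a : F) * h0 - (c : F) * h1

/-- the inverse Möbius relation. -/
theorem symm (h : IsMobius a b c d t u) : IsMobius d (-b) (-c) a u t := by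
  refine ⟨?_, ?_⟩
  · push_cast
    linear_combination (-1 : F) * h.rel
  · have := h.det
    push_cast at this ⊢
    intro h0
    apply this
    linear_combination h0

theorem eq_div (h : IsMobius a b c d t u) : t = ((a : F) * u + (b : F)) / ((c : F) * u + (d : F)) :=
  by rw [eq_div_iff h.denom_ne_zero, h.rel]

/-- transport along a ring homomorphism defined on a subring containing `t` and `u`. -/
theorem map_subring {F' : Type*} [Field F'] {W : Subring F} (ρ : ↥W →+* F')
    (h : IsMobius a b c d t u) (ht : t ∈ W) (hu : u ∈ W)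
    (hdet : ((a * d - b * c : ℤ) : F') ≠ 0) : IsMobius a b c d (ρ ⟨t, ht⟩) (ρ ⟨u, hu⟩) := by
  refine ⟨?_, hdet⟩
  have h1 : (⟨t, ht⟩ : ↥W) * ((c : ↥W) * ⟨u, hu⟩ + (d : ↥W)) = (a : ↥W) * ⟨u, hu⟩ + (b : ↥W) := by
    apply Subtype.ext
    push_cast
    exact h.rel
  have h2 := congrArg ρ h1
  simpa only [map_mul, map_add, map_intCast] using h2

/-- transport along a ring homomorphism of fields. -/
theorem map {F' : Type*} [Field F'] (f : F →+* F') (h : IsMobius a b c d t u) :
    IsMobius a b c d (f t) (f u) := by
  refine ⟨?_, ?_⟩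
  · have h2 := congrArg f h.rel
    simpa only [map_mul, map_add, map_intCast] using h2
  · have := (map_ne_zero f).mpr h.det
    rwa [map_intCast] at this

variable (K : Type*) [Field K] [Algebra K F]

theorem mem_adjoin (h : IsMobius a b c d t u) : t ∈ K⟮u⟯ := by
  rw [h.eq_div]
  have hu : u ∈ K⟮u⟯ := mem_adjoin_simple_self K u
  have hint : ∀ n : ℤ, (n : F) ∈ K⟮u⟯ := fun n => by
    have : (n : F) = algebraMap K F (n : K) := by simp
    rw [this]
    exact K⟮u⟯.algebraMap_mem _
  exact div_mem (add_mem (mul_mem (hint a) hu) (hint b)) (add_mem (mul_mem (hint c) hu) (hint d))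

/-- **the two generators generate the same field.** -/
theorem adjoin_eq (h : IsMobius a b c d t u) : K⟮t⟯ = K⟮u⟯ := by
  apply le_antisymm
  · rw [adjoin_simple_le_iff]
    exact h.mem_adjoin K
  · rw [adjoin_simple_le_iff]
    exact h.symm.mem_adjoin K

end IsMobius

end Mobius

section Order

variable {R : Type*} [Semiring R]

/-- the order of a Laurent series from its coefficients. -/
theorem laurent_order_eq_of_coeff {x : LaurentSeries R} {n : ℤ} (hn : x.coeff n ≠ 0)
    (hlt : ∀ m < n, x.coeff m = 0) : x.order = n := by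
  apply le_antisymm (HahnSeries.order_le_of_coeff_ne_zero hn)
  by_contra hcon
  push Not at hcon
  have hx : x ≠ 0 := by
    rintro rfl
    exact hn HahnSeries.coeff_zero
  exact hx (HahnSeries.coeff_order_eq_zero.mp (hlt _ hcon))

end Order

section EmbPlace

open Fermat.Agent.FF.Gal

variable {k F : Type*} [Field k] [Field F] [Algebra k F] (e : F →+* LaurentSeries k)
  (he : ∀ c : k, e (algebraMap k F c) = HahnSeries.C c)

/-- the `x`-order of an element of a field embedded in `k⸨x⸩`. -/
noncomputable def embOrd (y : F) : ℤ := (e y).order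

include he in
theorem isOrdFun_embOrd (hF : ∃ y : F, y ≠ 0 ∧ embOrd e y ≠ 0) : IsOrdFun k (embOrd e) where
  map_mul x y hx hy := by
    have hx' : e x ≠ 0 := (map_ne_zero e).mpr hx
    have hy' : e y ≠ 0 := (map_ne_zero e).mpr hy
    show (e (x * y)).order = _
    rw [map_mul, HahnSeries.order_mul hx' hy']
    rfl
  map_add x y hx hy hxy := by
    show min (e x).order (e y).order ≤ (e (x + y)).order
    rw [map_add]
    apply HahnSeries.min_order_le_order_add
    rw [← map_add]
    exact (map_ne_zero e).mpr hxy
  map_algebraMap a ha := by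
    show (e (algebraMap k F a)).order = 0
    rw [he]
    exact HahnSeries.order_C
  nontrivial := hF

/-- **the `x`-adic place** of a field embedded in `k⸨x⸩` (compatibly with the constants). -/
noncomputable def embPlace (hF : ∃ y : F, y ≠ 0 ∧ embOrd e y ≠ 0) : Place k F :=
  (isOrdFun_embOrd e he hF).place

theorem embPlace_ord (hF : ∃ y : F, y ≠ 0 ∧ embOrd e y ≠ 0)
    (h1 : ∃ y : F, y ≠ 0 ∧ embOrd e y = 1) {x : F} (hx : x ≠ 0) :
    (embPlace e he hF).ord x = (e x).order :=
  (isOrdFun_embOrd e he hF).place_ord_eq h1 hx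

theorem mem_embPlace_iff (hF : ∃ y : F, y ≠ 0 ∧ embOrd e y ≠ 0) {x : F} (hx : x ≠ 0) :
    x ∈ (embPlace e he hF).toValuationSubring ↔ 0 ≤ (e x).order :=
  (isOrdFun_embOrd e he hF).mem_place_iff hx

end EmbPlace

end Fermat.Agent.FG
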