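/-
FG (S19/S32) [E-RED-b] — helper1 — **the two charts of lead's GEO setting with values in an
isomorphic copy `𝔽b` of the residue field `κ(W)`** (`ψ : κ(W) →+* 𝔽b` surjective, `k`-linear): the
pair of charts `t`, `t⁻¹` satisfies `TwoChartHyps` with `Ẽ := 𝔽b` (`geoTwoChartHypsT`).
-/
import Mathlib
import Fermat.Agent.JA.REDO_helper1_GeoTwo
import Fermat.Agent.JA.REDO_helper1_DownGeo
import Fermat.Agent.FG.ERED_helper1_Two

set_option autoImplicit false
set_option linter.unusedSectionVars false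
set_option linter.style.haveILetI false

open AlgebraicCurve IsLocalRing IsDedekindDomain Polynomial

namespace Fermat.Agent.FG

open Fermat.Agent.JA Fermat.Agent.FF

section GeoT

variable {R : Type*} [CommRing R] [IsDomain R] [IsDiscreteValuationRing R] [CharZero R]
  {K₁ : Type*} [Field K₁] [Algebra R K₁] [IsFractionRing R K₁]
  {K : Type*} [Field K] [Algebra K₁ K] [Algebra R K] [IsScalarTower R K₁ K]
  {E : Type*} [Field E] [Algebra K E] [Algebra K₁ E] [IsScalarTower K₁ K E]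
  [Algebra R E] [IsScalarTower R K E] [IsScalarTower R K₁ E]
  {π : R} {t : K} {n : ℕ} {S S' : Finset R}
  {k : Type*} [Field k]
  (h : GeoHyps K₁ π t E n S) (h' : GeoHyps K₁ π t⁻¹ E n S')
  (𝒱 : ValuationSubring K) (h𝒱 : IsGaussAt R π t 𝒱) (h𝒱' : IsGaussAt R π t⁻¹ 𝒱)
  [IsLocalRing ↥(integralClosure ↥𝒱 E)]
  (res : R →+* k) (hres : Function.Surjective res)
  {𝔽b : Type*} [Field 𝔽b] [Algebra k 𝔽b]
  (ψ : IsLocalRing.ResidueField ↥(integralClosure ↥𝒱 E) →+* 𝔽b)

/-- the embedding of the reduction of the chart into `𝔽b`. -/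
noncomputable def geoIotaT :
    Bbar ↥(Algebra.adjoin R {t}) ↥(integralClosure ↥(Algebra.adjoin R {t}) E)
      (algebraMap R ↥(Algebra.adjoin R {t}) π) →+* 𝔽b :=
  ψ.comp (geoIota h 𝒱 h𝒱)

theorem geoIotaT_apply (x : Bbar ↥(Algebra.adjoin R {t})
    ↥(integralClosure ↥(Algebra.adjoin R {t}) E) (algebraMap R ↥(Algebra.adjoin R {t}) π)) :
    geoIotaT h 𝒱 h𝒱 ψ x = ψ (geoIota h 𝒱 h𝒱 x) := rfl

theorem geoIotaT_mkB (x : ↥(integralClosure ↥(Algebra.adjoin R {t}) E)) :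
    geoIotaT h 𝒱 h𝒱 ψ (mkB (A := ↥(Algebra.adjoin R {t}))
      (algebraMap R ↥(Algebra.adjoin R {t}) π) x) =
      ψ (IsLocalRing.residue _ ⟨(x : E), isIntegral_gauss_of_mem_chart h 𝒱 h𝒱 x⟩) := by
  rw [geoIotaT_apply, geoIota_mkB h 𝒱 h𝒱 x (isIntegral_gauss_of_mem_chart h 𝒱 h𝒱 x)]

theorem geoChartT_isScalarTower
    (hψk : ∀ r : R, ψ (IsLocalRing.residue _ (gaussConst (E := E) 𝒱
      (fun r => h𝒱.algebraMap_mem r) r)) = algebraMap k 𝔽b (res r)) :
    letI := geoAlgKBbar E h.irreducible res hres t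
    letI := (geoIotaT h 𝒱 h𝒱 ψ).toAlgebra
    IsScalarTower k (Bbar ↥(Algebra.adjoin R {t}) ↥(integralClosure ↥(Algebra.adjoin R {t}) E)
      (algebraMap R ↥(Algebra.adjoin R {t}) π)) 𝔽b := by
  letI := geoAlgKBbar E h.irreducible res hres t
  letI := (geoIotaT h 𝒱 h𝒱 ψ).toAlgebra
  refine IsScalarTower.of_algebraMap_eq fun c => ?_
  obtain ⟨r, rfl⟩ := hres c
  rw [← hψk r, geoAlgKBbar_algebraMap_res (E := E) h.irreducible res hres t r]
  change _ = geoIotaT h 𝒱 h𝒱 ψ _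
  rw [geoIotaT_mkB]
  congr 2

theorem geoChartT_isFractionRing (hψs : Function.Surjective ψ) :
    letI := (geoIotaT h 𝒱 h𝒱 ψ).toAlgebra
    IsFractionRing (Bbar ↥(Algebra.adjoin R {t}) ↥(integralClosure ↥(Algebra.adjoin R {t}) E)
      (algebraMap R ↥(Algebra.adjoin R {t}) π)) 𝔽b := by
  letI := (geoIotaT h 𝒱 h𝒱 ψ).toAlgebra
  obtain ⟨hinj, -, hne, hfrac⟩ := geoIota_spec h 𝒱 h𝒱
  haveI : FaithfulSMul (Bbar ↥(Algebra.adjoin R {t}) ↥(integralClosure ↥(Algebra.adjoin R {t}) E)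
      (algebraMap R ↥(Algebra.adjoin R {t}) π)) 𝔽b :=
    (faithfulSMul_iff_algebraMap_injective _ _).mpr (ψ.injective.comp hinj)
  apply IsFractionRing.of_field
  intro z
  obtain ⟨z', rfl⟩ := hψs z
  obtain ⟨x, a, ha, hz⟩ := hfrac z'
  refine ⟨x, algebraMap _ _ a, ?_⟩
  change ψ z' = ψ (geoIota h 𝒱 h𝒱 x) / ψ (geoIota h 𝒱 h𝒱 (algebraMap _ _ a))
  rw [← map_div₀, ← hz, mul_div_cancel_right₀ _ (hne a ha)]

/-- **(cov)** for `𝔽b`: a place of `𝔽b/k` at which `t̃` is regular contains the reduction of the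
chart. -/
theorem geoChartT_cov
    (hψk : ∀ r : R, ψ (IsLocalRing.residue _ (gaussConst (E := E) 𝒱
      (fun r => h𝒱.algebraMap_mem r) r)) = algebraMap k 𝔽b (res r)) :
    ∀ Q : Place k 𝔽b,
      geoIotaT h 𝒱 h𝒱 ψ (mkB (A := ↥(Algebra.adjoin R {t}))
        (algebraMap R ↥(Algebra.adjoin R {t}) π) (geoCoord E t)) ∈ Q.toValuationSubring →
      ∀ x : Bbar ↥(Algebra.adjoin R {t}) ↥(integralClosure ↥(Algebra.adjoin R {t}) E)
        (algebraMap R ↥(Algebra.adjoin R {t}) π), geoIotaT h 𝒱 h𝒱 ψ x ∈ Q.toValuationSubring := by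
  intro Q hs x
  obtain ⟨x, rfl⟩ := Ideal.Quotient.mk_surjective x
  have hT := aeval_adjoin_bijective (R := R) (K₁ := K₁) t h.transcendental
  set θ : ↥(integralClosure ↥(Algebra.adjoin R {t}) E) →+* 𝔽b :=
    (geoIotaT h 𝒱 h𝒱 ψ).comp (mkB (A := ↥(Algebra.adjoin R {t}))
      (algebraMap R ↥(Algebra.adjoin R {t}) π)) with hθ
  letI : Algebra ↥(Algebra.adjoin R {t}) 𝔽b :=
    (θ.comp (algebraMap ↥(Algebra.adjoin R {t})
      ↥(integralClosure ↥(Algebra.adjoin R {t}) E))).toAlgebra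
  have hconst : ∀ r : R, θ (algebraMap R ↥(integralClosure ↥(Algebra.adjoin R {t}) E) r) ∈
      Q.toValuationSubring := by
    intro r
    have h1 : θ (algebraMap R ↥(integralClosure ↥(Algebra.adjoin R {t}) E) r) =
        algebraMap k 𝔽b (res r) := by
      rw [← hψk r, hθ, RingHom.comp_apply, geoIotaT_mkB]
      congr 2
    rw [h1]
    exact Q.algebraMap_mem' _
  have hA : ∀ a : ↥(Algebra.adjoin R {t}),
      algebraMap ↥(Algebra.adjoin R {t}) 𝔽b a ∈ Q.toValuationSubring := by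
    intro a
    obtain ⟨f, rfl⟩ := hT.2 a
    change θ (algebraMap ↥(Algebra.adjoin R {t}) ↥(integralClosure ↥(Algebra.adjoin R {t}) E)
      (aeval (⟨t, Algebra.self_mem_adjoin_singleton R t⟩ : ↥(Algebra.adjoin R {t})) f)) ∈ _
    induction f using Polynomial.induction_on' with
    | add p q hp hq =>
      rw [map_add, map_add, map_add]
      exact Q.toValuationSubring.add_mem _ _ hp hq
    | monomial m a =>
      rw [← C_mul_X_pow_eq_monomial, map_mul, map_pow, aeval_C, aeval_X, map_mul, map_pow,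
        map_mul, map_pow, geoChart_algebraMap_algebraMap]
      exact Q.toValuationSubring.mul_mem _ _ (hconst a) (Q.toValuationSubring.pow_mem hs m)
  have hint : IsIntegral ↥(Algebra.adjoin R {t}) (θ x) := by
    have hx : IsIntegral ↥(Algebra.adjoin R {t}) x := by
      have := x.2
      exact (isIntegral_algebraMap_iff (A := ↥(integralClosure ↥(Algebra.adjoin R {t}) E))
        (B := E) Subtype.val_injective).mp this
    exact IsIntegral.map_of_comp_eq (RingHom.id _) θ rfl hx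
  exact mem_of_isIntegral_of_forall_mem Q.toValuationSubring hA hint

/-- **(fraction data)** an element of `E` integral over `𝒱` as a fraction of chart elements, the
denominator with nonzero reduction. -/
theorem geo_exists_fraction (y : E) (hy : IsIntegral ↥𝒱 y) :
    ∃ a b : ↥(integralClosure ↥(Algebra.adjoin R {t}) E),
      mkB (A := ↥(Algebra.adjoin R {t})) (algebraMap R ↥(Algebra.adjoin R {t}) π) b ≠ 0 ∧
      y = algebraMap ↥(integralClosure ↥(Algebra.adjoin R {t}) E) E a /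
          algebraMap ↥(integralClosure ↥(Algebra.adjoin R {t}) E) E b ∧
      geoIota h 𝒱 h𝒱 (mkB (A := ↥(Algebra.adjoin R {t}))
          (algebraMap R ↥(Algebra.adjoin R {t}) π) b) ≠ 0 ∧
      IsLocalRing.residue ↥(integralClosure ↥𝒱 E) ⟨y, hy⟩ =
        geoIota h 𝒱 h𝒱 (mkB (A := ↥(Algebra.adjoin R {t}))
          (algebraMap R ↥(Algebra.adjoin R {t}) π) a) /
        geoIota h 𝒱 h𝒱 (mkB (A := ↥(Algebra.adjoin R {t}))
          (algebraMap R ↥(Algebra.adjoin R {t}) π) b) := by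
  haveI := h.finite
  have hT := aeval_adjoin_bijective (R := R) (K₁ := K₁) t h.transcendental
  obtain ⟨-, ufd, noeth, cz, hπA, pir⟩ := poly_instances _ hT π h.irreducible
  have frac : IsFractionRing ↥(Algebra.adjoin R {t}) K :=
    isFractionRing_adjoin (R := R) (K₁ := K₁) t h.adjoin_eq_top
  have h𝒱eq : 𝒱 = primeValSubring K hπA :=
    eq_primeValSubring_of_isGaussAt (K₁ := K₁) π t h.transcendental hπA 𝒱 h𝒱
  have hx : IsIntegral ↥(primeValSubring K hπA) y := by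
    have := hy
    rw [h𝒱eq] at this
    exact this
  obtain ⟨σ, hσ, hint⟩ := exists_mul_isIntegral (K := K) (E := E) hπA _ hx
  have hσ0 : σ ≠ 0 := fun h0 => hσ (h0 ▸ dvd_zero _)
  have hσE : algebraMap ↥(Algebra.adjoin R {t}) E σ ≠ 0 := by
    rw [IsScalarTower.algebraMap_apply ↥(Algebra.adjoin R {t}) K E]
    exact (map_ne_zero_iff _ (algebraMap K E).injective).mpr
      ((map_ne_zero_iff _ (IsFractionRing.injective ↥(Algebra.adjoin R {t}) K)).mpr hσ0)
  set a : ↥(integralClosure ↥(Algebra.adjoin R {t}) E) :=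
    ⟨algebraMap ↥(Algebra.adjoin R {t}) E σ * y, hint⟩ with ha
  set b : ↥(integralClosure ↥(Algebra.adjoin R {t}) E) :=
    algebraMap ↥(Algebra.adjoin R {t}) ↥(integralClosure ↥(Algebra.adjoin R {t}) E) σ with hb
  have hbE : algebraMap ↥(integralClosure ↥(Algebra.adjoin R {t}) E) E b =
      algebraMap ↥(Algebra.adjoin R {t}) E σ := rfl
  have haE : algebraMap ↥(integralClosure ↥(Algebra.adjoin R {t}) E) E a =
      algebraMap ↥(Algebra.adjoin R {t}) E σ * y := rfl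
  have hfrac : y =
      algebraMap ↥(integralClosure ↥(Algebra.adjoin R {t}) E) E a /
        algebraMap ↥(integralClosure ↥(Algebra.adjoin R {t}) E) E b := by
    rw [haE, hbE, mul_div_cancel_left₀ _ hσE]
  obtain ⟨hinj, -, hne, -⟩ := geoIota_spec h 𝒱 h𝒱
  have hιb : geoIota h 𝒱 h𝒱 (mkB (A := ↥(Algebra.adjoin R {t}))
      (algebraMap R ↥(Algebra.adjoin R {t}) π) b) ≠ 0 := by
    rw [hb, mkB_algebraMap]
    apply hne
    rw [Ne, mkA_eq_zero_iff]
    exact hσ
  have hρb : mkB (A := ↥(Algebra.adjoin R {t})) (algebraMap R ↥(Algebra.adjoin R {t}) π) b ≠ 0 :=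
    fun h0 => hιb (by rw [h0, map_zero])
  have hl : IsLocalRing.residue ↥(integralClosure ↥𝒱 E) ⟨y, hy⟩ *
      geoIota h 𝒱 h𝒱 (mkB (A := ↥(Algebra.adjoin R {t}))
        (algebraMap R ↥(Algebra.adjoin R {t}) π) b) =
      geoIota h 𝒱 h𝒱 (mkB (A := ↥(Algebra.adjoin R {t}))
        (algebraMap R ↥(Algebra.adjoin R {t}) π) a) := by
    rw [geoIota_mkB h 𝒱 h𝒱 _ (isIntegral_gauss_of_mem_chart h 𝒱 h𝒱 _),
      geoIota_mkB h 𝒱 h𝒱 _ (isIntegral_gauss_of_mem_chart h 𝒱 h𝒱 _), ← map_mul]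
    congr 1
    apply Subtype.ext
    change y * algebraMap ↥(Algebra.adjoin R {t}) E σ = algebraMap ↥(Algebra.adjoin R {t}) E σ * y
    rw [mul_comm]
  exact ⟨a, b, hρb, hfrac, hιb, by rw [← hl, mul_div_cancel_right₀ _ hιb]⟩

end GeoT

end Fermat.Agent.FG
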