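/-
FG (S19/S32) [E-RED-b] — helper1 — **the per-base package**: in lead's GEO setting at a base
`(R, K₁)`, with the residue field `κ(W_{K₁})` identified with `𝔽b` by a surjective `k`-linear `ψ`
which is compatible with the reduction `ρΩ` of the Gauss valuation ring `W` of `E_Ω`:
* `geoTwoChartHypsT` : the pair of charts `t`, `t⁻¹` satisfies `TwoChartHyps` with `Ẽ := 𝔽b`;
* `geo_exists_isTwoCentre`, `geo_isTwoCentre_unique` : existence and uniqueness of the intrinsic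
  two-chart centre of the places of `E_Ω` with rational restriction;
* `geoT_mapDomain_eq_ord` : the divisor formula `r_*(div φ(y)) = div ψ(ȳ)`.
-/
import Mathlib
import Fermat.Agent.FG.ERED_helper1_GeoT

set_option autoImplicit false
set_option linter.unusedSectionVars false
set_option linter.style.haveILetI false

open AlgebraicCurve IsLocalRing IsDedekindDomain Polynomial

namespace Fermat.Agent.FG

open Fermat.Agent.JA Fermat.Agent.FF

section GeoPkg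

variable {R : Type*} [CommRing R] [IsDomain R] [IsDiscreteValuationRing R] [CharZero R]
  {K₁ : Type*} [Field K₁] [Algebra R K₁] [IsFractionRing R K₁]
  {K : Type*} [Field K] [Algebra K₁ K] [Algebra R K] [IsScalarTower R K₁ K]
  {E : Type*} [Field E] [Algebra K E] [Algebra K₁ E] [IsScalarTower K₁ K E]
  [Algebra R E] [IsScalarTower R K E] [IsScalarTower R K₁ E]
  {π : R} {t : K} {n : ℕ} {S S' : Finset R}
  {k : Type*} [Field k]
  (h : GeoHyps K₁ π t E n S) (h' : GeoHyps K₁ π t⁻¹ E n S')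
  (𝒱 : ValuationSubring K) (h𝒱 : IsGaussAt R π t 𝒱) (h𝒱' : IsGaussAt R π t⁻¹ 𝒱)
  [IsLocalRing ↥(integralClosure ↥𝒱 E)]
  (res : R →+* k) (hres : Function.Surjective res)
  {𝔽b : Type*} [Field 𝔽b] [Algebra k 𝔽b]
  (ψ : IsLocalRing.ResidueField ↥(integralClosure ↥𝒱 E) →+* 𝔽b)

set_option maxHeartbeats 1600000 in
/-- **the two charts `t`, `t⁻¹` of GEO satisfy `TwoChartHyps` with `Ẽ := 𝔽b`.** -/
theorem geoTwoChartHypsT (hπres : res π = 0) (hψs : Function.Surjective ψ)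
    (hψk : ∀ r : R, ψ (IsLocalRing.residue _ (gaussConst (E := E) 𝒱
      (fun r => h𝒱.algebraMap_mem r) r)) = algebraMap k 𝔽b (res r)) :
    letI := geoAlgKBbar E h.irreducible res hres t
    letI := geoAlgKBbar E h.irreducible res hres t⁻¹
    letI := (geoIotaT h 𝒱 h𝒱 ψ).toAlgebra
    letI := (geoIotaT h' 𝒱 h𝒱' ψ).toAlgebra
    haveI := h.chart_instances.1
    haveI := h'.chart_instances.1
    haveI := h.chart_instances.2.1
    haveI := h'.chart_instances.2.1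
    haveI := h.isDedekindDomain
    haveI := h'.isDedekindDomain
    haveI := geoChartT_isFractionRing h 𝒱 h𝒱 ψ hψs
    haveI := geoChartT_isFractionRing h' 𝒱 h𝒱' ψ hψs
    haveI := geoChartT_isScalarTower h 𝒱 h𝒱 res hres ψ hψk
    haveI := geoChartT_isScalarTower h' 𝒱 h𝒱' res hres ψ hψk
    TwoChartHyps K₁ E 𝔽b π res
      (mkB (A := ↥(Algebra.adjoin R {t})) (B := ↥(integralClosure ↥(Algebra.adjoin R {t}) E))
        (algebraMap R ↥(Algebra.adjoin R {t}) π))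
      (mkB (A := ↥(Algebra.adjoin R {t⁻¹})) (B := ↥(integralClosure ↥(Algebra.adjoin R {t⁻¹}) E))
        (algebraMap R ↥(Algebra.adjoin R {t⁻¹}) π))
      (geoCoord E t) (geoCoord E t⁻¹) := by
  letI := geoAlgKBbar E h.irreducible res hres t
  letI := geoAlgKBbar E h.irreducible res hres t⁻¹
  letI := (geoIotaT h 𝒱 h𝒱 ψ).toAlgebra
  letI := (geoIotaT h' 𝒱 h𝒱' ψ).toAlgebra
  haveI := h.chart_instances.1
  haveI := h'.chart_instances.1
  haveI := h.chart_instances.2.1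
  haveI := h'.chart_instances.2.1
  haveI := h.isDedekindDomain
  haveI := h'.isDedekindDomain
  haveI := geoChartT_isFractionRing h 𝒱 h𝒱 ψ hψs
  haveI := geoChartT_isFractionRing h' 𝒱 h𝒱' ψ hψs
  haveI := geoChartT_isScalarTower h 𝒱 h𝒱 res hres ψ hψk
  haveI := geoChartT_isScalarTower h' 𝒱 h𝒱' res hres ψ hψk
  have ht0 : t ≠ 0 := h.ne_zero
  refine
    { irr := h.irreducible
      res_pi := hπres
      surj₁ := Ideal.Quotient.mk_surjective
      ker₁ := geoChart_ker_mkB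
      prime₁ := h.chart_prime
      res₁ := fun r => (geoAlgKBbar_algebraMap_res h.irreducible res hres t r).symm
      nf₁ := h.chart_not_isField
      surj₂ := Ideal.Quotient.mk_surjective
      ker₂ := geoChart_ker_mkB
      prime₂ := h'.chart_prime
      res₂ := fun r => (geoAlgKBbar_algebraMap_res h.irreducible res hres t⁻¹ r).symm
      nf₂ := h'.chart_not_isField
      coord := ?_
      coordt := ?_
      cov₁ := geoChartT_cov h 𝒱 h𝒱 res ψ hψk
      cov₂ := geoChartT_cov h' 𝒱 h𝒱' res ψ hψk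
      val₁ := fun P₁ hrat hs => geoChart_val P₁ hrat hs
      val₂ := fun P₁ hrat hs => geoChart_val P₁ hrat hs }
  · rw [algebraMap_geoCoord, algebraMap_geoCoord, ← map_mul, mul_inv_cancel₀ ht0, map_one]
  · change geoIotaT h 𝒱 h𝒱 ψ _ * geoIotaT h' 𝒱 h𝒱' ψ _ = 1
    rw [geoIotaT_mkB, geoIotaT_mkB, ← map_mul, ← map_mul, ← map_one ψ,
      ← map_one (IsLocalRing.residue ↥(integralClosure ↥𝒱 E))]
    congr 2
    apply Subtype.ext
    change algebraMap K E t * algebraMap K E t⁻¹ = 1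
    rw [← map_mul, mul_inv_cancel₀ ht0, map_one]

variable {Ω EΩ : Type*} [Field Ω] [Algebra K₁ Ω] [Algebra.IsAlgebraic K₁ Ω]
  [Field EΩ] [Algebra Ω EΩ] [CharZero EΩ]
  {W : ValuationSubring EΩ} {ρΩ : ↥W →+* 𝔽b} {A : ValuationSubring Ω}
  {φ : E →+* EΩ}
  (hφ : ∀ c : K₁, φ (algebraMap K₁ E c) = algebraMap Ω EΩ (algebraMap K₁ Ω c))
  (hgen : Subfield.closure (Set.range φ ∪ Set.range (algebraMap Ω EΩ)) = ⊤)
  (hAK : ∀ c : K₁, algebraMap K₁ Ω c ∈ A ↔ ∃ r : R, algebraMap R K₁ r = c)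
  (hπres : res π = 0) (hψs : Function.Surjective ψ)
  (hψk : ∀ r : R, ψ (IsLocalRing.residue _ (gaussConst (E := E) 𝒱
    (fun r => h𝒱.algebraMap_mem r) r)) = algebraMap k 𝔽b (res r))
  (hψW : ∀ (b : E) (hb : IsIntegral ↥𝒱 b), ∃ hW : φ b ∈ W,
    ρΩ ⟨φ b, hW⟩ = ψ (IsLocalRing.residue _ ⟨b, hb⟩))

include hψW in
theorem geo_compat₁ (b : ↥(integralClosure ↥(Algebra.adjoin R {t}) E)) :
    ∃ hb : φ (algebraMap ↥(integralClosure ↥(Algebra.adjoin R {t}) E) E b) ∈ W,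
      ρΩ ⟨φ (algebraMap ↥(integralClosure ↥(Algebra.adjoin R {t}) E) E b), hb⟩ =
        geoIotaT h 𝒱 h𝒱 ψ (mkB (A := ↥(Algebra.adjoin R {t}))
          (algebraMap R ↥(Algebra.adjoin R {t}) π) b) := by
  obtain ⟨hW, he⟩ := hψW (b : E) (isIntegral_gauss_of_mem_chart h 𝒱 h𝒱 b)
  exact ⟨hW, by rw [geoIotaT_mkB]; exact he⟩

include hφ hgen hAK hπres hψs hψk hψW h h' h𝒱' hres in
set_option maxHeartbeats 1600000 in
/-- **existence of the intrinsic two-chart centre at a base.** -/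
theorem geo_exists_isTwoCentre (P : Place Ω EΩ)
    (hrat : IsRationalPlace (restrictBC φ hφ hgen P)) :
    ∃ Q : Place k 𝔽b, IsTwoCentre W ρΩ A (φ (algebraMap K E t))
      (chartSet φ ↥(integralClosure ↥(Algebra.adjoin R {t}) E))
      (chartSet φ ↥(integralClosure ↥(Algebra.adjoin R {t⁻¹}) E)) P Q := by
  letI := geoAlgKBbar E h.irreducible res hres t
  letI := geoAlgKBbar E h.irreducible res hres t⁻¹
  letI := (geoIotaT h 𝒱 h𝒱 ψ).toAlgebra
  letI := (geoIotaT h' 𝒱 h𝒱' ψ).toAlgebra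
  haveI := h.chart_instances.1
  haveI := h'.chart_instances.1
  haveI := h.chart_instances.2.1
  haveI := h'.chart_instances.2.1
  haveI := h.isDedekindDomain
  haveI := h'.isDedekindDomain
  haveI := geoChartT_isFractionRing h 𝒱 h𝒱 ψ hψs
  haveI := geoChartT_isFractionRing h' 𝒱 h𝒱' ψ hψs
  haveI := geoChartT_isScalarTower h 𝒱 h𝒱 res hres ψ hψk
  haveI := geoChartT_isScalarTower h' 𝒱 h𝒱' res hres ψ hψk
  have H := geoTwoChartHypsT h h' 𝒱 h𝒱 h𝒱' res hres ψ hπres hψs hψk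
  have := exists_isTwoCentre_base (W := W) (ρΩ := ρΩ) (A := A) hφ hgen hAK
    (geo_compat₁ h 𝒱 h𝒱 ψ hψW) (geo_compat₁ h' 𝒱 h𝒱' ψ hψW) H P hrat
  rwa [algebraMap_geoCoord] at this

include hφ hgen hπres hψs hψk hψW h h' h𝒱' hres in
set_option maxHeartbeats 1600000 in
/-- **uniqueness of the intrinsic two-chart centre at a base.** -/
theorem geo_isTwoCentre_unique {s : EΩ} {P : Place Ω EΩ}
    (hrat : IsRationalPlace (restrictBC φ hφ hgen P)) {Q Q' : Place k 𝔽b}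
    (hQ : IsTwoCentre W ρΩ A s (chartSet φ ↥(integralClosure ↥(Algebra.adjoin R {t}) E))
      (chartSet φ ↥(integralClosure ↥(Algebra.adjoin R {t⁻¹}) E)) P Q)
    (hQ' : IsTwoCentre W ρΩ A s (chartSet φ ↥(integralClosure ↥(Algebra.adjoin R {t}) E))
      (chartSet φ ↥(integralClosure ↥(Algebra.adjoin R {t⁻¹}) E)) P Q') : Q = Q' := by
  letI := geoAlgKBbar E h.irreducible res hres t
  letI := geoAlgKBbar E h.irreducible res hres t⁻¹
  letI := (geoIotaT h 𝒱 h𝒱 ψ).toAlgebra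
  letI := (geoIotaT h' 𝒱 h𝒱' ψ).toAlgebra
  haveI := h.chart_instances.1
  haveI := h'.chart_instances.1
  haveI := h.chart_instances.2.1
  haveI := h'.chart_instances.2.1
  haveI := h.isDedekindDomain
  haveI := h'.isDedekindDomain
  haveI := geoChartT_isFractionRing h 𝒱 h𝒱 ψ hψs
  haveI := geoChartT_isFractionRing h' 𝒱 h𝒱' ψ hψs
  haveI := geoChartT_isScalarTower h 𝒱 h𝒱 res hres ψ hψk
  haveI := geoChartT_isScalarTower h' 𝒱 h𝒱' res hres ψ hψk
  have H := geoTwoChartHypsT h h' 𝒱 h𝒱 h𝒱' res hres ψ hπres hψs hψk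
  exact IsTwoCentre.unique_base hφ hgen
    (geo_compat₁ h 𝒱 h𝒱 ψ hψW) (geo_compat₁ h' 𝒱 h𝒱' ψ hψW) H hrat hQ hQ'

include hφ hgen hAK hπres hψs hψk hψW h h' h𝒱' hres in
set_option maxHeartbeats 1600000 in
/-- **the divisor formula at a base**: `r_*(div φ(y)) = div ψ(ȳ)` for `y ∈ E` integral over `𝒱`
with nonzero residue all of whose zeros and poles over `Ω` have rational restriction, for any map
`r` of places which gives intrinsic two-chart centres. -/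
theorem geoT_mapDomain_eq_ord {𝔅₁ 𝔅₂ : Set EΩ}
    (h𝔅₁ : chartSet φ ↥(integralClosure ↥(Algebra.adjoin R {t}) E) ⊆ 𝔅₁)
    (h𝔅₂ : chartSet φ ↥(integralClosure ↥(Algebra.adjoin R {t⁻¹}) E) ⊆ 𝔅₂)
    (r : Place Ω EΩ → Place k 𝔽b)
    (hr : ∀ P : Place Ω EΩ, IsRationalPlace (restrictBC φ hφ hgen P) →
      IsTwoCentre W ρΩ A (φ (algebraMap K E t)) 𝔅₁ 𝔅₂ P (r P))
    (y : E) (hy : IsIntegral ↥𝒱 y)
    (hy0' : ψ (IsLocalRing.residue ↥(integralClosure ↥𝒱 E) ⟨y, hy⟩) ≠ 0)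
    (hrat : ∀ P : Place Ω EΩ, P.ord (φ y) ≠ 0 → IsRationalPlace (restrictBC φ hφ hgen P))
    (D : Divisor Ω EΩ) (hD : ∀ P, D P = P.ord (φ y)) (Q : Place k 𝔽b) :
    Finsupp.mapDomain r D Q = Q.ord (ψ (IsLocalRing.residue ↥(integralClosure ↥𝒱 E) ⟨y, hy⟩)) := by
  letI := geoAlgKBbar E h.irreducible res hres t
  letI := geoAlgKBbar E h.irreducible res hres t⁻¹
  letI := (geoIotaT h 𝒱 h𝒱 ψ).toAlgebra
  letI := (geoIotaT h' 𝒱 h𝒱' ψ).toAlgebra
  haveI := h.chart_instances.1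
  haveI := h'.chart_instances.1
  haveI := h.chart_instances.2.1
  haveI := h'.chart_instances.2.1
  haveI := h.isDedekindDomain
  haveI := h'.isDedekindDomain
  haveI := geoChartT_isFractionRing h 𝒱 h𝒱 ψ hψs
  haveI := geoChartT_isFractionRing h' 𝒱 h𝒱' ψ hψs
  haveI := geoChartT_isScalarTower h 𝒱 h𝒱 res hres ψ hψk
  haveI := geoChartT_isScalarTower h' 𝒱 h𝒱' res hres ψ hψk
  have H := geoTwoChartHypsT h h' 𝒱 h𝒱 h𝒱' res hres ψ hπres hψs hψk
  have hy0 : IsLocalRing.residue ↥(integralClosure ↥𝒱 E) ⟨y, hy⟩ ≠ 0 :=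
    fun h0 => hy0' ((congrArg ψ h0).trans (map_zero ψ))
  obtain ⟨a₁, b₁, hb₁, hy₁, hιb₁, hres₁⟩ := geo_exists_fraction h 𝒱 h𝒱 y hy
  obtain ⟨a₂, b₂, hb₂, hy₂, hιb₂, hres₂⟩ := geo_exists_fraction h' 𝒱 h𝒱' y hy
  have ha₁ : mkB (A := ↥(Algebra.adjoin R {t})) (algebraMap R ↥(Algebra.adjoin R {t}) π) a₁ ≠ 0 := by
    intro h0
    apply hy0
    rw [hres₁, h0, map_zero, zero_div]
  have ha₂ : mkB (A := ↥(Algebra.adjoin R {t⁻¹})) (algebraMap R ↥(Algebra.adjoin R {t⁻¹}) π) a₂ ≠ 0 := by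
    intro h0
    apply hy0
    rw [hres₂, h0, map_zero, zero_div]
  have hr' : ∀ P : Place Ω EΩ, IsRationalPlace (restrictBC φ hφ hgen P) →
      IsTwoCentre W ρΩ A (φ (algebraMap ↥(integralClosure ↥(Algebra.adjoin R {t}) E) E
        (geoCoord E t))) 𝔅₁ 𝔅₂ P (r P) := by
    intro P hP
    rw [algebraMap_geoCoord]
    exact hr P hP
  refine mapDomain_eq_ord_of_isTwoCentre hφ hgen hAK
    (geo_compat₁ h 𝒱 h𝒱 ψ hψW) (geo_compat₁ h' 𝒱 h𝒱' ψ hψW) H h𝔅₁ h𝔅₂ r hr' y _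
    a₁ b₁ ha₁ hb₁ hy₁ ?_ a₂ b₂ ha₂ hb₂ hy₂ ?_ hrat D hD Q
  · rw [hres₁, map_div₀]
    rfl
  · rw [hres₂, map_div₀]
    rfl

end GeoPkg

end Fermat.Agent.FG
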