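/-
[EVAL] for S19/S32 (helper2), part 2: evaluation of multivariate power series with DISCRETE
coefficient ring `R` at points of a complete linearly topologised `R`-algebra `S` (a thin wrapper
around Mathlib's `MvPowerSeries.eval₂`, hiding the topology on `R`).

* `dEval a f : S`, `dEvalHom ha : MvPowerSeries σ R →ₐ[R] S` for `ha : HasEval a`;
* `hasSum_dEval`, `dEval_X`, `dEval_C`, `dEval_add/mul/sub/neg/pow/sum/smul`;
* `dEval_subst : dEval b (f.subst a) = dEval (fun s => dEval b (a s)) f`, `hasEval_dEval`;
* `dEval_map` (base change of coefficients), `map_dEval`/`algHom_dEval` (equivariance).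
-/
import Mathlib

set_option autoImplicit false
set_option linter.unusedSectionVars false
set_option linter.style.haveILetI false

namespace Fermat.Agent.FG

open MvPowerSeries Filter Topology

noncomputable section

open WithPiTopology

attribute [local instance] DiscreteTopology.instContinuousSMul

variable {σ τ : Type*} {R : Type*} [CommRing R]
variable {S : Type*} [CommRing S] [UniformSpace S] [IsUniformAddGroup S] [CompleteSpace S]
  [T2Space S] [IsTopologicalRing S] [IsLinearTopology S S] [Algebra R S]

/-- evaluation of a power series with (discrete) coefficients in `R` at a point of a complete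
linearly topologised `R`-algebra `S` -/
def dEval (a : σ → S) (f : MvPowerSeries σ R) : S :=
  letI : UniformSpace R := ⊥
  eval₂ (algebraMap R S) a f

/-- `dEval` as an algebra homomorphism -/
def dEvalHom {a : σ → S} (ha : HasEval a) : MvPowerSeries σ R →ₐ[R] S :=
  letI : UniformSpace R := ⊥
  aeval ha

theorem dEvalHom_apply {a : σ → S} (ha : HasEval a) (f : MvPowerSeries σ R) :
    dEvalHom ha f = dEval a f := by
  letI : UniformSpace R := ⊥
  show aeval ha f = eval₂ (algebraMap R S) a f
  rw [coe_aeval]

theorem hasSum_dEval {a : σ → S} (ha : HasEval a) (f : MvPowerSeries σ R) :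
    HasSum (fun d : σ →₀ ℕ => algebraMap R S (coeff d f) * d.prod fun s e => a s ^ e)
      (dEval a f) := by
  letI : UniformSpace R := ⊥
  exact hasSum_eval₂ (continuous_algebraMap R S) ha f

theorem dEval_X {a : σ → S} (s : σ) : dEval a (X s : MvPowerSeries σ R) = a s := by
  letI : UniformSpace R := ⊥
  exact eval₂_X _ _ s

theorem dEval_C {a : σ → S} (r : R) : dEval a (C r : MvPowerSeries σ R) = algebraMap R S r := by
  letI : UniformSpace R := ⊥
  exact eval₂_C _ _ r

theorem dEval_add {a : σ → S} (ha : HasEval a) (f g : MvPowerSeries σ R) :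
    dEval a (f + g) = dEval a f + dEval a g := by
  simp only [← dEvalHom_apply ha, map_add]

theorem dEval_mul {a : σ → S} (ha : HasEval a) (f g : MvPowerSeries σ R) :
    dEval a (f * g) = dEval a f * dEval a g := by
  simp only [← dEvalHom_apply ha, map_mul]

theorem dEval_sub {a : σ → S} (ha : HasEval a) (f g : MvPowerSeries σ R) :
    dEval a (f - g) = dEval a f - dEval a g := by
  simp only [← dEvalHom_apply ha, map_sub]

theorem dEval_zero {a : σ → S} (ha : HasEval a) : dEval a (0 : MvPowerSeries σ R) = 0 := by
  simp only [← dEvalHom_apply ha, map_zero]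

/-- evaluation commutes with substitution -/
theorem dEval_subst {a : σ → MvPowerSeries τ R} (ha : HasSubst a) {b : τ → S} (hb : HasEval b)
    (f : MvPowerSeries σ R) :
    dEval b (f.subst a) = dEval (fun s => dEval b (a s)) f := by
  letI : UniformSpace R := ⊥
  exact eval₂_subst ha hb f

theorem dEval_neg {a : σ → S} (ha : HasEval a) (f : MvPowerSeries σ R) :
    dEval a (-f) = -dEval a f := by
  simp only [← dEvalHom_apply ha, map_neg]

theorem dEval_one {a : σ → S} (ha : HasEval a) : dEval a (1 : MvPowerSeries σ R) = 1 := by
  simp only [← dEvalHom_apply ha, map_one]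

theorem dEval_pow {a : σ → S} (ha : HasEval a) (f : MvPowerSeries σ R) (n : ℕ) :
    dEval a (f ^ n) = dEval a f ^ n := by
  simp only [← dEvalHom_apply ha, map_pow]

theorem dEval_sum {a : σ → S} (ha : HasEval a) {κ : Type*} (s : Finset κ)
    (f : κ → MvPowerSeries σ R) : dEval a (∑ k ∈ s, f k) = ∑ k ∈ s, dEval a (f k) := by
  simp only [← dEvalHom_apply ha, map_sum]

theorem dEval_smul {a : σ → S} (ha : HasEval a) (r : R) (f : MvPowerSeries σ R) :
    dEval a (r • f) = r • dEval a f := by
  simp only [← dEvalHom_apply ha, map_smul]

theorem dEval_intCast {a : σ → S} (ha : HasEval a) (n : ℤ) :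
    dEval a ((n : MvPowerSeries σ R)) = (n : S) := by
  simp only [← dEvalHom_apply ha, map_intCast]

/-- `f ↦ f(a)` is continuous for the product of the discrete topologies on power series -/
theorem continuous_dEvalHom {a : σ → S} (ha : HasEval a) :
    letI : UniformSpace R := ⊥
    Continuous (dEvalHom (R := R) ha) := by
  letI : UniformSpace R := ⊥
  exact continuous_aeval ha

/-- a family of series which can be substituted evaluates to a family which can be evaluated -/
theorem hasEval_dEval {a : σ → MvPowerSeries τ R} (ha : HasSubst a) {b : τ → S} (hb : HasEval b) :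
    HasEval (fun s => dEval b (a s)) := by
  letI : UniformSpace R := ⊥
  have := (ha.hasEval (S := R)).map (φ := (dEvalHom (R := R) hb : MvPowerSeries τ R →+* S))
    (continuous_dEvalHom (R := R) hb)
  simpa only [RingHom.coe_coe, dEvalHom_apply] using this

/-- uniqueness of sums: `f(a)` is determined by the family of its monomials -/
theorem dEval_eq_of_hasSum {a : σ → S} (ha : HasEval a) (f : MvPowerSeries σ R) {s : S}
    (h : HasSum (fun d : σ →₀ ℕ => algebraMap R S (coeff d f) * d.prod fun s e => a s ^ e) s) :
    dEval a f = s :=
  (hasSum_dEval ha f).unique h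

/-- base change of the coefficients does not change the value -/
theorem dEval_map {R' : Type*} [CommRing R'] [Algebra R R'] [Algebra R' S] [IsScalarTower R R' S]
    {a : σ → S} (ha : HasEval a) (f : MvPowerSeries σ R) :
    dEval a (f.map (algebraMap R R')) = dEval a f := by
  refine dEval_eq_of_hasSum ha _ ?_
  have := hasSum_dEval ha f
  simpa only [coeff_map, ← IsScalarTower.algebraMap_apply] using this

/-- semilinear equivariance of the evaluation under continuous ring homomorphisms -/
theorem map_dEval {R' T : Type*} [CommRing R'] [CommRing T] [UniformSpace T]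
    [IsUniformAddGroup T] [CompleteSpace T] [T2Space T] [IsTopologicalRing T]
    [IsLinearTopology T T] [Algebra R' T] (ψ : R →+* R') (ε : S →+* T) (hε : Continuous ε)
    (hψ : ∀ r, ε (algebraMap R S r) = algebraMap R' T (ψ r)) {a : σ → S} (ha : HasEval a)
    (f : MvPowerSeries σ R) :
    ε (dEval a f) = dEval (fun s => ε (a s)) (f.map ψ) := by
  symm
  refine dEval_eq_of_hasSum (ha.map hε) _ ?_
  have := (hasSum_dEval ha f).map ε hε
  convert this using 2 with d
  simp only [Function.comp_apply, map_mul, coeff_map, hψ, map_finsuppProd, map_pow]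

/-- equivariance of the evaluation under continuous algebra homomorphisms -/
theorem algHom_dEval {T : Type*} [CommRing T] [UniformSpace T]
    [IsUniformAddGroup T] [CompleteSpace T] [T2Space T] [IsTopologicalRing T]
    [IsLinearTopology T T] [Algebra R T] (ε : S →ₐ[R] T) (hε : Continuous ε) {a : σ → S}
    (ha : HasEval a) (f : MvPowerSeries σ R) :
    ε (dEval a f) = dEval (fun s => ε (a s)) f := by
  have := map_dEval (RingHom.id R) (ε : S →+* T) hε (fun r => by simp) ha f
  simpa using this

end

end Fermat.Agent.FG
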