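/-
[EVAL] for S19/S32 (helper2), part 4: norm estimates for values of power series on the unit
polydisc of a complete ultrametric normed field `K` (`S = unitBall K`).

* `hasSum_coe_dEval` : the value as a convergent sum in `K`;
* **(E2a)** `norm_dEval_le_pow` : `order f ≥ d`, `‖x s‖ ≤ r ≤ 1` ⇒ `‖f(x)‖ ≤ r ^ d`;
* **(E2b)** `norm_dEval_sub_le` : `‖x s - y s‖ ≤ δ` ⇒ `‖f(x) - f(y)‖ ≤ δ`;
* **(E2c)** `norm_dEval_sub_le_pow` : `f ≡ g` mod degree `≥ d` ⇒ `‖f(x) - g(x)‖ ≤ r ^ d`.
-/
import Mathlib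
import Fermat.Agent.FG.EVAL_helper2_Ball
import Fermat.Agent.FG.EVAL_helper2_DEval

set_option autoImplicit false
set_option linter.unusedSectionVars false

namespace Fermat.Agent.FG

open MvPowerSeries Filter Topology

noncomputable section

variable {K : Type*} [NormedField K] [IsUltrametricDist K] [CompleteSpace K]
variable {R : Type*} [CommRing R] [Algebra R (unitBall K)]
variable {σ : Type*}

theorem continuous_coe_unitBall : Continuous (fun x : unitBall K => (x : K)) :=
  continuous_subtype_val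

theorem coe_finsuppProd (x : σ → unitBall K) (d : σ →₀ ℕ) :
    ((d.prod fun s e => x s ^ e : unitBall K) : K) = d.prod fun s e => (x s : K) ^ e := by
  have := map_finsuppProd (unitBall K).subtype d (fun s e => x s ^ e)
  simpa only [Subring.subtype_apply, Subring.coe_pow] using this

/-- the value of a power series as a sum in `K` -/
theorem hasSum_coe_dEval {x : σ → unitBall K} (hx : HasEval x) (f : MvPowerSeries σ R) :
    HasSum (fun d : σ →₀ ℕ =>
      ((algebraMap R (unitBall K) (coeff d f) : unitBall K) : K) * d.prod fun s e => (x s : K) ^ e)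
      ((dEval x f : unitBall K) : K) := by
  have := (hasSum_dEval hx f).map (unitBall K).subtype continuous_coe_unitBall
  convert this using 2 with d
  · rw [Function.comp_apply, Subring.subtype_apply, Subring.coe_mul, coe_finsuppProd]
  · rfl

theorem norm_le_of_hasSum {α : Type*} {f : α → K} {s : K} (h : HasSum f s) {C : ℝ} (hC : 0 ≤ C)
    (hf : ∀ a, ‖f a‖ ≤ C) : ‖s‖ ≤ C := by
  rw [← h.tsum_eq]
  exact IsUltrametricDist.norm_tsum_le_of_forall_le_of_nonneg hC hf

theorem norm_finsuppProd_le {x : σ → unitBall K} {r : ℝ}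
    (hx : ∀ s, ‖(x s : K)‖ ≤ r) (d : σ →₀ ℕ) :
    ‖d.prod fun s e => (x s : K) ^ e‖ ≤ r ^ d.degree := by
  rw [Finsupp.prod, norm_prod, Finsupp.degree_apply, ← Finset.prod_pow_eq_pow_sum]
  refine Finset.prod_le_prod (fun s _ => norm_nonneg _) fun s _ => ?_
  rw [norm_pow]
  exact pow_le_pow_left₀ (norm_nonneg _) (hx s) _

/-- **(E2a)** a series of order `≥ d` takes values of norm `≤ r^d` on the polydisc of radius `r` -/
theorem norm_dEval_le_pow {x : σ → unitBall K} (hx : HasEval x) {r : ℝ} (hr0 : 0 ≤ r)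
    (hr1 : r ≤ 1) (hxr : ∀ s, ‖(x s : K)‖ ≤ r) {f : MvPowerSeries σ R} {d : ℕ}
    (hf : (d : ℕ∞) ≤ f.order) : ‖((dEval x f : unitBall K) : K)‖ ≤ r ^ d := by
  refine norm_le_of_hasSum (hasSum_coe_dEval hx f) (pow_nonneg hr0 d) fun e => ?_
  by_cases he : e.degree < d
  · rw [coeff_of_lt_order (lt_of_lt_of_le (by exact_mod_cast he) hf)]
    simp [pow_nonneg hr0 d]
  · rw [norm_mul]
    calc ‖((algebraMap R (unitBall K) (coeff e f) : unitBall K) : K)‖ *
          ‖e.prod fun s n => (x s : K) ^ n‖ ≤ 1 * r ^ e.degree :=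
          mul_le_mul (norm_coe_unitBall_le _) (norm_finsuppProd_le hxr e)
            (norm_nonneg _) zero_le_one
      _ = r ^ e.degree := one_mul _
      _ ≤ r ^ d := pow_le_pow_of_le_one hr0 hr1 (not_lt.1 he)

/-- congruent points have congruent monomials -/
theorem norm_finsuppProd_sub_le {x y : σ → unitBall K} {δ : ℝ} (hδ : 0 ≤ δ)
    (hxy : ∀ s, ‖(x s : K) - y s‖ ≤ δ) (d : σ →₀ ℕ) :
    ‖(d.prod fun s e => (x s : K) ^ e) - d.prod fun s e => (y s : K) ^ e‖ ≤ δ := by
  have h1 : ∀ s, Ideal.Quotient.mk (ballIdeal K δ hδ) (x s) =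
      Ideal.Quotient.mk (ballIdeal K δ hδ) (y s) := fun s => by
    rw [Ideal.Quotient.eq, mem_ballIdeal_iff]
    simpa using hxy s
  have h2 : Ideal.Quotient.mk (ballIdeal K δ hδ) (d.prod fun s e => x s ^ e) =
      Ideal.Quotient.mk (ballIdeal K δ hδ) (d.prod fun s e => y s ^ e) := by
    simp only [map_finsuppProd, map_pow, h1]
  rw [Ideal.Quotient.eq, mem_ballIdeal_iff] at h2
  rwa [AddSubgroupClass.coe_sub, coe_finsuppProd, coe_finsuppProd] at h2

/-- **(E2b)** power series with integral coefficients are 1-Lipschitz on the unit polydisc -/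
theorem norm_dEval_sub_le {x y : σ → unitBall K} (hx : HasEval x) (hy : HasEval y) {δ : ℝ}
    (hδ : 0 ≤ δ) (hxy : ∀ s, ‖(x s : K) - y s‖ ≤ δ) (f : MvPowerSeries σ R) :
    ‖((dEval x f : unitBall K) : K) - (dEval y f : unitBall K)‖ ≤ δ := by
  refine norm_le_of_hasSum ((hasSum_coe_dEval hx f).sub (hasSum_coe_dEval hy f)) hδ fun e => ?_
  rw [← mul_sub, norm_mul]
  calc ‖((algebraMap R (unitBall K) (coeff e f) : unitBall K) : K)‖ *
        ‖(e.prod fun s n => (x s : K) ^ n) - e.prod fun s n => (y s : K) ^ n‖ ≤ 1 * δ :=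
        mul_le_mul (norm_coe_unitBall_le _) (norm_finsuppProd_sub_le hδ hxy e)
          (norm_nonneg _) zero_le_one
    _ = δ := one_mul _

/-- **(E2c)** congruent series have congruent values -/
theorem norm_dEval_sub_le_pow {x : σ → unitBall K} (hx : HasEval x) {r : ℝ} (hr0 : 0 ≤ r)
    (hr1 : r ≤ 1) (hxr : ∀ s, ‖(x s : K)‖ ≤ r) {f g : MvPowerSeries σ R} {d : ℕ}
    (hfg : (d : ℕ∞) ≤ (f - g).order) :
    ‖((dEval x f : unitBall K) : K) - (dEval x g : unitBall K)‖ ≤ r ^ d := by
  have := norm_dEval_le_pow hx hr0 hr1 hxr hfg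
  rwa [dEval_sub hx, AddSubgroupClass.coe_sub] at this

/-- a series divisible by `c` takes values divisible by `c` -/
theorem norm_dEval_smul_le {x : σ → unitBall K} (hx : HasEval x) (c : R)
    (f : MvPowerSeries σ R) :
    ‖((dEval x (c • f) : unitBall K) : K)‖ ≤
      ‖((algebraMap R (unitBall K) c : unitBall K) : K)‖ * ‖((dEval x f : unitBall K) : K)‖ := by
  rw [dEval_smul hx, Algebra.smul_def, Subring.coe_mul, norm_mul]

end

end Fermat.Agent.FG
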