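/-
(F1) Honda formal group for S19/S32 (helper2), part 1: `p`-integral power series.

`intS p τ` : the subring of `MvPowerSeries τ ℚ` of series with coefficients in
`ℤ_(p) = GaloisRep.ratLocalizedAt p`; `PDvd p r g` : `g ∈ p^r · intS`;
* `frobenius_congr` : `g ^ p ≡ g(X^p) mod p` for integral `g`;
* `pDvd_pow_sub_pow` : `a ≡ b mod p^r` (`r ≥ 1`) implies `(a^n - b^n)/n ≡ 0 mod p^r`.
-/
import Mathlib
import Fermat.Agent.Igusa.V_helper5_Zl

set_option autoImplicit false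

namespace Fermat.Agent.FG

open MvPowerSeries

noncomputable section

/-- `p^r ∣ a - b` (`r ≥ 1`) implies `p^(r+k) ∣ a^(p^k) - b^(p^k)`. -/
theorem pow_add_dvd_pow_sub_pow {S : Type*} [CommRing S] {p : ℕ} {a b : S} {r : ℕ} (hr : 1 ≤ r)
    (h : (p : S) ^ r ∣ a - b) (k : ℕ) : (p : S) ^ (r + k) ∣ a ^ p ^ k - b ^ p ^ k := by
  induction k with
  | zero => simpa using h
  | succ k ih =>
    rw [pow_succ p k, pow_mul, pow_mul, ← geom_sum₂_mul, ← add_assoc, pow_succ']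
    refine mul_dvd_mul ?_ ih
    apply dvd_geom_sum₂_self
    refine dvd_trans ?_ ih
    exact dvd_pow_self _ (by omega)

/-- `p^r ∣ a - b` (`r ≥ 1`), `n = p^k * m` implies `p^(r+k) ∣ a^n - b^n`. -/
theorem pow_add_dvd_pow_mul_sub_pow_mul {S : Type*} [CommRing S] {p : ℕ} {a b : S} {r : ℕ}
    (hr : 1 ≤ r) (h : (p : S) ^ r ∣ a - b) (k m : ℕ) :
    (p : S) ^ (r + k) ∣ a ^ (p ^ k * m) - b ^ (p ^ k * m) := by
  rw [mul_comm, pow_mul, pow_mul]
  exact pow_add_dvd_pow_sub_pow hr (h.trans (sub_dvd_pow_sub_pow a b m)) k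

variable {τ : Type*} (p : ℕ)

/-- the subring of `p`-integral power series -/
def intS (p : ℕ) (τ : Type*) : Subring (MvPowerSeries τ ℚ) :=
  (MvPowerSeries.map (σ := τ) (GaloisRep.ratLocalizedAt p).subtype).range

theorem mem_intS_iff {g : MvPowerSeries τ ℚ} :
    g ∈ intS p τ ↔ ∀ e, coeff e g ∈ GaloisRep.ratLocalizedAt p := by
  constructor
  · rintro ⟨g', rfl⟩ e
    rw [coeff_map]
    exact (coeff e g').2
  · intro h
    exact ⟨g.toSubring _ h, map_toSubring _ _ _⟩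

theorem natCast_inv_mem_ratLoc {m : ℕ} (hm : m.Coprime p) :
    ((m : ℚ))⁻¹ ∈ GaloisRep.ratLocalizedAt p := by
  show ((m : ℚ))⁻¹.den.Coprime p
  have : ((m : ℚ))⁻¹ = ((m : ℤ) : ℚ)⁻¹ := by simp
  rw [this, Rat.inv_intCast_den]
  split_ifs with h
  · simp
  · simpa using hm

theorem smul_mem_intS {c : ℚ} (hc : c ∈ GaloisRep.ratLocalizedAt p) {g : MvPowerSeries τ ℚ}
    (hg : g ∈ intS p τ) : c • g ∈ intS p τ := by
  rw [mem_intS_iff] at hg ⊢
  intro e
  rw [coeff_smul]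
  exact Subring.mul_mem _ hc (hg e)

/-- `g` is divisible by `p ^ r` in the ring of integral series. -/
def PDvd (r : ℕ) (g : MvPowerSeries τ ℚ) : Prop :=
  ∃ c ∈ intS p τ, g = ((p : ℚ) ^ r) • c

variable {p}

theorem PDvd.mem {r : ℕ} {g : MvPowerSeries τ ℚ} (h : PDvd p r g) : g ∈ intS p τ := by
  obtain ⟨c, hc, rfl⟩ := h
  exact smul_mem_intS p (Subring.pow_mem _ (natCast_mem _ _) _) hc

theorem natCast_smul_eq_mul (n : ℕ) (g : MvPowerSeries τ ℚ) :
    (n : ℚ) • g = (n : MvPowerSeries τ ℚ) * g := by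
  rw [Nat.cast_smul_eq_nsmul, nsmul_eq_mul]

theorem natCast_pow_smul_eq_mul (n r : ℕ) (g : MvPowerSeries τ ℚ) :
    ((n : ℚ) ^ r) • g = (n : MvPowerSeries τ ℚ) ^ r * g := by
  rw [← Nat.cast_pow, natCast_smul_eq_mul, Nat.cast_pow]

variable [hp : Fact p.Prime]

/-- the division lemma: if `a ≡ b mod p^r` (`r ≥ 1`) then `(a^n - b^n)/n ≡ 0 mod p^r`. -/
theorem pDvd_pow_sub_pow {a b : MvPowerSeries τ ℚ} (ha : a ∈ intS p τ) (hb : b ∈ intS p τ)
    {r : ℕ} (hr : 1 ≤ r) (hab : PDvd p r (a - b)) (n : ℕ) :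
    PDvd p r ((n : ℚ)⁻¹ • (a ^ n - b ^ n)) := by
  rcases Nat.eq_zero_or_pos n with rfl | hn
  · exact ⟨0, Subring.zero_mem _, by simp⟩
  obtain ⟨k, m, hm, rfl⟩ := Nat.exists_eq_pow_mul_and_not_dvd hn.ne' p hp.out.ne_one
  obtain ⟨c, hc, hcab⟩ := hab
  -- work in the subring
  have h1 : ((p : ℕ) : intS p τ) ^ r ∣ (⟨a, ha⟩ : intS p τ) - ⟨b, hb⟩ := by
    refine ⟨⟨c, hc⟩, ?_⟩
    apply Subtype.ext
    simp only [AddSubgroupClass.coe_sub, Subring.coe_mul, Subring.coe_pow, Subring.coe_natCast]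
    rw [hcab, natCast_pow_smul_eq_mul]
  obtain ⟨⟨h, hh⟩, hh2⟩ := pow_add_dvd_pow_mul_sub_pow_mul hr h1 k m
  have hh3 : a ^ (p ^ k * m) - b ^ (p ^ k * m) = (p : MvPowerSeries τ ℚ) ^ (r + k) * h := by
    have := congrArg (Subtype.val) hh2
    simpa only [AddSubgroupClass.coe_sub, Subring.coe_mul, Subring.coe_pow, Subring.coe_natCast] using this
  refine ⟨(m : ℚ)⁻¹ • h, smul_mem_intS p (natCast_inv_mem_ratLoc p ?_) hh, ?_⟩
  · exact (Nat.Coprime.symm ((Nat.Prime.coprime_iff_not_dvd hp.out).2 hm))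
  · rw [hh3, ← natCast_pow_smul_eq_mul, smul_smul, smul_smul]
    congr 1
    have hp0 : (p : ℚ) ≠ 0 := by exact_mod_cast hp.out.ne_zero
    have hm0 : (m : ℚ) ≠ 0 := by
      rintro h0
      apply hm
      have : m = 0 := by exact_mod_cast h0
      simp [this]
    push_cast
    field_simp
    ring

/-- divisibility by `p` of an integral series, from the residue map -/
theorem exists_eq_smul_of_map_residue_eq_zero
    (g : MvPowerSeries τ (GaloisRep.ratLocalizedAt p))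
    (hg : MvPowerSeries.map (Igusa.residueZl p) g = 0) :
    ∃ c ∈ intS p τ, MvPowerSeries.map (GaloisRep.ratLocalizedAt p).subtype g = (p : ℚ) • c := by
  have h1 : ∀ e, ∃ y : GaloisRep.ratLocalizedAt p, coeff e g = Igusa.ellZl p * y := by
    intro e
    rw [← Igusa.residueZl_eq_zero_iff, ← coeff_map, hg, coeff_zero]
  choose y hy using h1
  let c : MvPowerSeries τ ℚ := fun e => (y e : ℚ)
  have hc : ∀ e, coeff e c = (y e : ℚ) := fun e => rfl
  refine ⟨c, (mem_intS_iff p).2 fun e => by rw [hc]; exact (y e).2, ?_⟩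
  ext e
  rw [coeff_map, coeff_smul, hc, hy e]
  simp [Igusa.coe_ellZl]

/-- `g ^ p ≡ g(X^p) mod p` for integral `g`. -/
theorem frobenius_congr {g : MvPowerSeries τ ℚ} (hg : g ∈ intS p τ) :
    PDvd p 1 (g ^ p - expand p hp.out.ne_zero g) := by
  obtain ⟨g', rfl⟩ := hg
  have key : MvPowerSeries.map (Igusa.residueZl p) (g' ^ p - expand p hp.out.ne_zero g') = 0 := by
    rw [map_sub, map_pow, map_expand, ← map_frobenius_expand p hp.out.ne_zero]
    have : frobenius (ZMod p) p = RingHom.id _ := by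
      ext x; simp
    rw [this, MvPowerSeries.map_id]
    simp
  obtain ⟨c, hc, h⟩ := exists_eq_smul_of_map_residue_eq_zero _ key
  refine ⟨c, hc, ?_⟩
  rw [pow_one, ← h, map_sub, map_pow, map_expand]

end

end Fermat.Agent.FG
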