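/-
(F1) Honda formal group for S19/S32 (helper2), part 2: the logarithm attached to a sequence of
integer matrices, and its inverse (no integrality here).

For `A : ℕ → Matrix ι ι ℤ` and a vector `u : ι → MvPowerSeries τ ℚ` of series with zero constant
terms (`OrdGE 1 u`):
* `hondaLogOf A u = ∑_{n ≥ 1} (1/n) A_n u^(n)` (componentwise `n`-th powers), defined through the
  finite truncations `logTr A N u`;
* `ordGE_hondaLogOf_sub` : `L(u) - L(u') ≡ u - u'` modulo degree `≥ d+1` if `u ≡ u'` mod degree `≥ d`;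
* `ordGE_hondaLogOf_sub_iff`, `hondaLogOf_injective`;
* `hondaLogOf_algHom`, `hondaLogOf_vE`, `hondaLogOf_subst` : compatibility with substitutions;
* `hondaExpOf A w` : the inverse, `hondaLogOf_hondaExpOf`, `hondaExpOf_hondaLogOf`.
-/
import Mathlib
import Fermat.Agent.FG.HONDA_helper2_Basic

set_option autoImplicit false
set_option linter.unusedSectionVars false

namespace Fermat.Agent.FG

open MvPowerSeries

noncomputable section

variable {τ : Type*}

/-! ### order helpers with natural number bounds -/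

theorem le_order_add' {f g : MvPowerSeries τ ℚ} {a : ℕ} (hf : (a : ℕ∞) ≤ f.order)
    (hg : (a : ℕ∞) ≤ g.order) : (a : ℕ∞) ≤ (f + g).order :=
  (le_min hf hg).trans min_order_le_add

theorem le_order_neg' {f : MvPowerSeries τ ℚ} {a : ℕ} (hf : (a : ℕ∞) ≤ f.order) :
    (a : ℕ∞) ≤ (-f).order := by rwa [order_neg]

theorem le_order_sub' {f g : MvPowerSeries τ ℚ} {a : ℕ} (hf : (a : ℕ∞) ≤ f.order)
    (hg : (a : ℕ∞) ≤ g.order) : (a : ℕ∞) ≤ (f - g).order := by
  rw [sub_eq_add_neg]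
  exact le_order_add' hf (le_order_neg' hg)

theorem le_order_sum' {κ : Type*} {s : Finset κ} {f : κ → MvPowerSeries τ ℚ} {a : ℕ}
    (h : ∀ i ∈ s, (a : ℕ∞) ≤ (f i).order) : (a : ℕ∞) ≤ (∑ i ∈ s, f i).order := by
  classical
  induction s using Finset.induction_on with
  | empty => simp
  | insert i s hi ih =>
    rw [Finset.sum_insert hi]
    exact le_order_add' (h i (Finset.mem_insert_self _ _))
      (ih fun j hj => h j (Finset.mem_insert_of_mem hj))

theorem le_order_smul' {f : MvPowerSeries τ ℚ} {a : ℕ} (c : ℚ) (hf : (a : ℕ∞) ≤ f.order) :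
    (a : ℕ∞) ≤ (c • f).order := hf.trans le_order_smul

theorem le_order_mul' {f g : MvPowerSeries τ ℚ} {a b : ℕ} (hf : (a : ℕ∞) ≤ f.order)
    (hg : (b : ℕ∞) ≤ g.order) : ((a + b : ℕ) : ℕ∞) ≤ (f * g).order := by
  rw [Nat.cast_add]
  exact (add_le_add hf hg).trans le_order_mul

theorem le_order_mul_left' {f : MvPowerSeries τ ℚ} {a : ℕ} (g : MvPowerSeries τ ℚ)
    (hf : (a : ℕ∞) ≤ f.order) : (a : ℕ∞) ≤ (g * f).order := by
  have := le_order_mul' (a := 0) (f := g) (by simp) hf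
  simpa using this

theorem le_order_pow' {f : MvPowerSeries τ ℚ} {a : ℕ} (hf : (a : ℕ∞) ≤ f.order) (n : ℕ) :
    ((n * a : ℕ) : ℕ∞) ≤ (f ^ n).order := by
  refine le_trans ?_ (le_order_pow n)
  rw [Nat.cast_mul, nsmul_eq_mul]
  gcongr

theorem le_order_expand' {f : MvPowerSeries τ ℚ} {a : ℕ} (hf : (a : ℕ∞) ≤ f.order) {n : ℕ}
    (hn : n ≠ 0) : ((n * a : ℕ) : ℕ∞) ≤ (expand n hn f).order := by
  rw [order_expand, Nat.cast_mul, nsmul_eq_mul]
  gcongr

theorem le_order_of_le {f : MvPowerSeries τ ℚ} {a b : ℕ} (hab : a ≤ b)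
    (hf : (b : ℕ∞) ≤ f.order) : (a : ℕ∞) ≤ f.order :=
  le_trans (by exact_mod_cast hab) hf

theorem coeff_eq_zero_of_le_order {f : MvPowerSeries τ ℚ} {a : ℕ} (hf : (a : ℕ∞) ≤ f.order)
    {e : τ →₀ ℕ} (he : e.degree < a) : coeff e f = 0 :=
  coeff_of_lt_order (lt_of_lt_of_le (by exact_mod_cast he) hf)

theorem le_order_iff' {f : MvPowerSeries τ ℚ} {a : ℕ} :
    (a : ℕ∞) ≤ f.order ↔ ∀ e : τ →₀ ℕ, e.degree < a → coeff e f = 0 :=
  ⟨fun h _ he => coeff_eq_zero_of_le_order h he, fun h => nat_le_order h⟩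

theorem eq_zero_of_forall_le_order {f : MvPowerSeries τ ℚ} (h : ∀ a : ℕ, (a : ℕ∞) ≤ f.order) :
    f = 0 := by
  rw [← order_eq_top_iff]
  exact ENat.eq_top_iff_forall_ge.2 h

theorem one_le_order_iff' {f : MvPowerSeries τ ℚ} :
    ((1 : ℕ) : ℕ∞) ≤ f.order ↔ constantCoeff f = 0 := by
  rw [Nat.cast_one]
  exact one_le_order_iff_constCoeff_eq_zero

/-- order of a difference of powers -/
theorem le_order_pow_sub_pow {f g : MvPowerSeries τ ℚ} {d : ℕ} (hf : ((1 : ℕ) : ℕ∞) ≤ f.order)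
    (hg : ((1 : ℕ) : ℕ∞) ≤ g.order) (hfg : (d : ℕ∞) ≤ (f - g).order) (n : ℕ) :
    ((d + (n - 1) : ℕ) : ℕ∞) ≤ (f ^ n - g ^ n).order := by
  rw [← geom_sum₂_mul, add_comm d]
  refine le_order_mul' ?_ hfg
  refine le_order_sum' fun i hi => ?_
  rw [Finset.mem_range] at hi
  have h1 := le_order_mul' (le_order_pow' hf i) (le_order_pow' hg (n - 1 - i))
  refine le_order_of_le ?_ h1
  omega

/-! ### vectors of power series -/

variable {ι : Type*} [Fintype ι] [DecidableEq ι]

/-- an integer matrix as a matrix of constant power series -/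
def cM (τ : Type*) (M : Matrix ι ι ℤ) : Matrix ι ι (MvPowerSeries τ ℚ) :=
  M.map (Int.castRingHom (MvPowerSeries τ ℚ))

theorem cM_apply (M : Matrix ι ι ℤ) (i j : ι) : cM τ M i j = ((M i j : ℤ) : MvPowerSeries τ ℚ) := rfl

theorem cM_mul (M N : Matrix ι ι ℤ) : cM τ (M * N) = cM τ M * cM τ N := Matrix.map_mul

theorem cM_one : cM τ (1 : Matrix ι ι ℤ) = 1 := by
  ext i j
  simp [cM_apply, Matrix.one_apply]

theorem cM_sub (M N : Matrix ι ι ℤ) : cM τ (M - N) = cM τ M - cM τ N := by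
  ext i j; simp [cM_apply]

theorem cM_add (M N : Matrix ι ι ℤ) : cM τ (M + N) = cM τ M + cM τ N := by
  ext i j; simp [cM_apply]

theorem cM_neg (M : Matrix ι ι ℤ) : cM τ (-M) = -cM τ M := by
  ext i j; simp [cM_apply]

theorem cM_zero : cM τ (0 : Matrix ι ι ℤ) = 0 := by
  ext i j; simp [cM_apply]

theorem cM_zsmul (n : ℤ) (M : Matrix ι ι ℤ) : cM τ (n • M) = (n : ℚ) • cM τ M := by
  ext i j
  rw [Matrix.smul_apply, cM_apply, cM_apply, Matrix.smul_apply, smul_eq_mul, Int.cast_mul,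
    Int.cast_smul_eq_zsmul, zsmul_eq_mul]

/-- vectors of series of order `≥ d` -/
def OrdGE (d : ℕ) (v : ι → MvPowerSeries τ ℚ) : Prop := ∀ j, (d : ℕ∞) ≤ (v j).order

theorem OrdGE.mono {d d' : ℕ} (h : d ≤ d') {v : ι → MvPowerSeries τ ℚ} (hv : OrdGE d' v) :
    OrdGE d v := fun j => le_order_of_le h (hv j)

theorem OrdGE.add {d : ℕ} {v w : ι → MvPowerSeries τ ℚ} (hv : OrdGE d v) (hw : OrdGE d w) :
    OrdGE d (v + w) := fun j => le_order_add' (hv j) (hw j)

theorem OrdGE.sub {d : ℕ} {v w : ι → MvPowerSeries τ ℚ} (hv : OrdGE d v) (hw : OrdGE d w) :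
    OrdGE d (v - w) := fun j => le_order_sub' (hv j) (hw j)

theorem OrdGE.neg {d : ℕ} {v : ι → MvPowerSeries τ ℚ} (hv : OrdGE d v) :
    OrdGE d (-v) := fun j => le_order_neg' (hv j)

theorem OrdGE.smul {d : ℕ} {v : ι → MvPowerSeries τ ℚ} (c : ℚ) (hv : OrdGE d v) :
    OrdGE d (c • v) := fun j => le_order_smul' c (hv j)

theorem OrdGE.zero (d : ℕ) : OrdGE d (0 : ι → MvPowerSeries τ ℚ) := fun j => by simp

theorem OrdGE.sum {κ : Type*} {s : Finset κ} {d : ℕ} {v : κ → ι → MvPowerSeries τ ℚ}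
    (h : ∀ k ∈ s, OrdGE d (v k)) : OrdGE d (∑ k ∈ s, v k) := fun j => by
  rw [Finset.sum_apply]
  exact le_order_sum' fun k hk => h k hk j

theorem OrdGE.mulVec {d : ℕ} {v : ι → MvPowerSeries τ ℚ} (hv : OrdGE d v)
    (M : Matrix ι ι (MvPowerSeries τ ℚ)) : OrdGE d (M.mulVec v) := fun i => by
  rw [Matrix.mulVec, dotProduct]
  exact le_order_sum' fun j _ => le_order_mul_left' _ (hv j)

theorem OrdGE.pow {d : ℕ} {v : ι → MvPowerSeries τ ℚ} (hv : OrdGE d v) (n : ℕ) :
    OrdGE (n * d) (v ^ n) := fun j => le_order_pow' (hv j) n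

theorem OrdGE.pow_sub_pow {d : ℕ} {v w : ι → MvPowerSeries τ ℚ} (hv : OrdGE 1 v) (hw : OrdGE 1 w)
    (hvw : OrdGE d (v - w)) (n : ℕ) : OrdGE (d + (n - 1)) (v ^ n - w ^ n) := fun j =>
  le_order_pow_sub_pow (hv j) (hw j) (hvw j) n

theorem ordGE_one_iff {v : ι → MvPowerSeries τ ℚ} :
    OrdGE 1 v ↔ ∀ j, constantCoeff (v j) = 0 :=
  forall_congr' fun _ => one_le_order_iff'

theorem eq_zero_of_forall_ordGE {v : ι → MvPowerSeries τ ℚ} (h : ∀ d, OrdGE d v) : v = 0 :=
  funext fun j => eq_zero_of_forall_le_order fun d => h d j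

variable (p : ℕ) [hp : Fact p.Prime]

/-- `X_i ↦ X_i ^ p` on vectors -/
def vE (w : ι → MvPowerSeries τ ℚ) : ι → MvPowerSeries τ ℚ :=
  fun j => expand p hp.out.ne_zero (w j)

theorem vE_apply (w : ι → MvPowerSeries τ ℚ) (j : ι) :
    vE p w j = expand p hp.out.ne_zero (w j) := rfl

theorem vE_add (v w : ι → MvPowerSeries τ ℚ) : vE p (v + w) = vE p v + vE p w := by
  ext j; simp [vE_apply]

theorem vE_sub (v w : ι → MvPowerSeries τ ℚ) : vE p (v - w) = vE p v - vE p w := by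
  ext j; simp [vE_apply]

theorem vE_zero : vE p (0 : ι → MvPowerSeries τ ℚ) = 0 := by
  ext j; simp [vE_apply]

theorem vE_smul (c : ℚ) (w : ι → MvPowerSeries τ ℚ) : vE p (c • w) = c • vE p w := by
  ext j; simp [vE_apply]

theorem vE_pow (w : ι → MvPowerSeries τ ℚ) (n : ℕ) : vE p (w ^ n) = vE p w ^ n := by
  ext j; simp [vE_apply]

theorem vE_sum {κ : Type*} (s : Finset κ) (w : κ → ι → MvPowerSeries τ ℚ) :
    vE p (∑ k ∈ s, w k) = ∑ k ∈ s, vE p (w k) := by
  ext j; simp [vE_apply, Finset.sum_apply]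

theorem vE_mulVec (M : Matrix ι ι ℤ) (w : ι → MvPowerSeries τ ℚ) :
    vE p ((cM τ M).mulVec w) = (cM τ M).mulVec (vE p w) := by
  ext i
  simp [vE_apply, Matrix.mulVec, dotProduct, cM_apply]

theorem OrdGE.vE {d : ℕ} {v : ι → MvPowerSeries τ ℚ} (hv : OrdGE d v) :
    OrdGE (p * d) (vE p v) := fun j => le_order_expand' (hv j) _

/-! ### the logarithm -/

variable (A : ℕ → Matrix ι ι ℤ)

/-- the `n`-th term of the logarithm: `(1/n) A_n u^(n)` -/
def logTerm (n : ℕ) (u : ι → MvPowerSeries τ ℚ) : ι → MvPowerSeries τ ℚ :=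
  ((n : ℚ))⁻¹ • (cM τ (A n)).mulVec (u ^ n)

/-- truncated logarithm `∑_{1 ≤ n ≤ N} (1/n) A_n u^(n)` -/
def logTr (N : ℕ) (u : ι → MvPowerSeries τ ℚ) : ι → MvPowerSeries τ ℚ :=
  ∑ n ∈ Finset.Icc 1 N, logTerm A n u

/-- the logarithm `L(u) = ∑_{n ≥ 1} (1/n) A_n u^(n)` of a vector `u` with zero constant terms -/
def hondaLogOf (u : ι → MvPowerSeries τ ℚ) : ι → MvPowerSeries τ ℚ :=
  fun i => (fun e => coeff e (logTr A e.degree u i) : MvPowerSeries τ ℚ)

theorem coeff_hondaLogOf (u : ι → MvPowerSeries τ ℚ) (i : ι) (e : τ →₀ ℕ) :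
    coeff e (hondaLogOf A u i) = coeff e (logTr A e.degree u i) := rfl

theorem logTr_zero (u : ι → MvPowerSeries τ ℚ) : logTr A 0 u = 0 := by
  simp [logTr]

theorem logTr_succ (N : ℕ) (u : ι → MvPowerSeries τ ℚ) :
    logTr A (N + 1) u = logTr A N u + logTerm A (N + 1) u := by
  rw [logTr, Finset.sum_Icc_succ_top (by omega)]
  rfl

variable {A}

theorem OrdGE.logTerm {u : ι → MvPowerSeries τ ℚ} (hu : OrdGE 1 u) (n : ℕ) :
    OrdGE n (logTerm A n u) := by
  have := (hu.pow n)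
  rw [mul_one] at this
  exact (this.mulVec _).smul _

theorem coeff_logTr_of_le {u : ι → MvPowerSeries τ ℚ} (hu : OrdGE 1 u) (i : ι) {e : τ →₀ ℕ}
    {N N' : ℕ} (h1 : e.degree ≤ N) (h2 : N ≤ N') :
    coeff e (logTr A N' u i) = coeff e (logTr A N u i) := by
  induction N', h2 using Nat.le_induction with
  | base => rfl
  | succ M hM ih =>
    rw [logTr_succ, Pi.add_apply, map_add, ih, add_eq_left]
    exact coeff_eq_zero_of_le_order (hu.logTerm (M + 1) i) (by omega)

/-- `L(u) ≡ logTr N' u` modulo degree `> N` for `N ≤ N'`. -/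
theorem ordGE_hondaLogOf_sub_logTr {u : ι → MvPowerSeries τ ℚ} (hu : OrdGE 1 u) {N N' : ℕ}
    (h : N ≤ N') : OrdGE (N + 1) (hondaLogOf A u - logTr A N' u) := fun i => by
  rw [le_order_iff']
  intro e he
  rw [Pi.sub_apply, map_sub, coeff_hondaLogOf, sub_eq_zero]
  exact (coeff_logTr_of_le hu i le_rfl (by omega)).symm

theorem coeff_hondaLogOf_eq {u : ι → MvPowerSeries τ ℚ} (hu : OrdGE 1 u) (i : ι) {e : τ →₀ ℕ}
    {N : ℕ} (h : e.degree ≤ N) : coeff e (hondaLogOf A u i) = coeff e (logTr A N u i) :=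
  (coeff_logTr_of_le hu i le_rfl h).symm

theorem OrdGE.logTr {u : ι → MvPowerSeries τ ℚ} (hu : OrdGE 1 u) (N : ℕ) :
    OrdGE 1 (logTr A N u) := by
  refine OrdGE.sum fun n hn => ?_
  rw [Finset.mem_Icc] at hn
  exact (hu.logTerm n).mono hn.1

theorem OrdGE.hondaLogOf {u : ι → MvPowerSeries τ ℚ} (hu : OrdGE 1 u) :
    OrdGE 1 (hondaLogOf A u) := by
  have h1 := ordGE_hondaLogOf_sub_logTr (A := A) hu (le_refl 0)
  have h2 := (hu.logTr (A := A) 0)
  have := h1.add h2
  rwa [sub_add_cancel] at this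

theorem hondaLogOf_zero : hondaLogOf A (0 : ι → MvPowerSeries τ ℚ) = 0 := by
  ext i e
  rw [coeff_hondaLogOf]
  simp only [Pi.zero_apply, map_zero]
  rw [logTr, Finset.sum_apply, map_sum]
  refine Finset.sum_eq_zero fun n hn => ?_
  rw [Finset.mem_Icc] at hn
  have : (0 : ι → MvPowerSeries τ ℚ) ^ n = 0 := by
    ext j; simp [zero_pow (by omega : n ≠ 0)]
  simp [logTerm, this]

/-- first-order lemma: `L(u) - L(u') ≡ u - u'` modulo degree `≥ d + 1` if `u ≡ u'` modulo
degree `≥ d` (`d ≥ 1`) -/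
theorem ordGE_hondaLogOf_sub (hA : A 1 = 1) {u u' : ι → MvPowerSeries τ ℚ} (hu : OrdGE 1 u)
    (hu' : OrdGE 1 u') {d : ℕ} (hd : 1 ≤ d) (h : OrdGE d (u - u')) :
    OrdGE (d + 1) (hondaLogOf A u - hondaLogOf A u' - (u - u')) := by
  have h1 := ordGE_hondaLogOf_sub_logTr (A := A) hu (le_refl d)
  have h2 := ordGE_hondaLogOf_sub_logTr (A := A) hu' (le_refl d)
  have h3 : OrdGE (d + 1) (logTr A d u - logTr A d u' - (u - u')) := by
    obtain ⟨d, rfl⟩ : ∃ k, d = k + 1 := ⟨d - 1, by omega⟩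
    have e1 : logTr A (d + 1) u - logTr A (d + 1) u' - (u - u') =
        ∑ n ∈ Finset.Icc 2 (d + 1), (logTerm A n u - logTerm A n u') := by
      rw [logTr, logTr, ← Finset.sum_sub_distrib]
      have : Finset.Icc 1 (d + 1) = insert 1 (Finset.Icc 2 (d + 1)) := by
        ext x; simp only [Finset.mem_Icc, Finset.mem_insert]; omega
      rw [this, Finset.sum_insert (by simp)]
      have : logTerm A 1 u - logTerm A 1 u' = u - u' := by
        simp [logTerm, hA, cM_one]
      rw [this]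
      abel
    rw [e1]
    refine OrdGE.sum fun n hn => ?_
    rw [Finset.mem_Icc] at hn
    have e2 : logTerm A n u - logTerm A n u' =
        ((n : ℚ))⁻¹ • (cM τ (A n)).mulVec (u ^ n - u' ^ n) := by
      rw [logTerm, logTerm, Matrix.mulVec_sub, smul_sub]
    rw [e2]
    refine ((OrdGE.pow_sub_pow hu hu' h n).mono ?_).mulVec _ |>.smul _
    omega
  have : hondaLogOf A u - hondaLogOf A u' - (u - u') =
      (hondaLogOf A u - logTr A d u) - (hondaLogOf A u' - logTr A d u') +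
        (logTr A d u - logTr A d u' - (u - u')) := by abel
  rw [this]
  exact (h1.sub h2).add h3

/-- `L` is an isometry: `u ≡ u'` modulo degree `≥ d` iff `L(u) ≡ L(u')` modulo degree `≥ d`. -/
theorem ordGE_hondaLogOf_sub_iff (hA : A 1 = 1) {u u' : ι → MvPowerSeries τ ℚ} (hu : OrdGE 1 u)
    (hu' : OrdGE 1 u') {d : ℕ} :
    OrdGE d (hondaLogOf A u - hondaLogOf A u') ↔ OrdGE d (u - u') := by
  induction d with
  | zero => exact ⟨fun _ j => by simp, fun _ j => by simp⟩
  | succ d ih =>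
    rcases Nat.eq_zero_or_pos d with rfl | hd
    · exact ⟨fun _ => hu.sub hu', fun _ => hu.hondaLogOf.sub hu'.hondaLogOf⟩
    constructor
    · intro h
      have h0 := ih.1 (h.mono (Nat.le_succ d))
      have := h.sub (ordGE_hondaLogOf_sub hA hu hu' hd h0)
      rwa [sub_sub_cancel] at this
    · intro h
      have := (ordGE_hondaLogOf_sub hA hu hu' hd (h.mono (Nat.le_succ d))).add h
      rwa [sub_add_cancel] at this

/-- injectivity of the logarithm -/
theorem hondaLogOf_injective (hA : A 1 = 1) {u u' : ι → MvPowerSeries τ ℚ} (hu : OrdGE 1 u)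
    (hu' : OrdGE 1 u') (h : hondaLogOf A u = hondaLogOf A u') : u = u' := by
  rw [← sub_eq_zero]
  refine eq_zero_of_forall_ordGE fun d => ?_
  rw [← ordGE_hondaLogOf_sub_iff hA hu hu', h, sub_self]
  exact OrdGE.zero d

/-! ### compatibility with algebra homomorphisms -/

theorem logTr_algHom {τ' : Type*} (φ : MvPowerSeries τ ℚ →ₐ[ℚ] MvPowerSeries τ' ℚ) (N : ℕ)
    (u : ι → MvPowerSeries τ ℚ) :
    logTr A N (fun j => φ (u j)) = fun i => φ (logTr A N u i) := by
  ext1 i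
  simp only [logTr, logTerm, Finset.sum_apply, Pi.smul_apply, Matrix.mulVec, dotProduct, cM_apply,
    Pi.pow_apply, map_sum, map_smul, map_mul, map_intCast, map_pow]

theorem hondaLogOf_algHom {τ' : Type*} (φ : MvPowerSeries τ ℚ →ₐ[ℚ] MvPowerSeries τ' ℚ)
    (hφ : ∀ f, f.order ≤ (φ f).order) {u : ι → MvPowerSeries τ ℚ} (hu : OrdGE 1 u) :
    hondaLogOf A (fun j => φ (u j)) = fun i => φ (hondaLogOf A u i) := by
  have hu' : OrdGE 1 (fun j => φ (u j)) := fun j => (hu j).trans (hφ _)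
  rw [← sub_eq_zero]
  refine eq_zero_of_forall_ordGE fun N => ?_
  have h1 := ordGE_hondaLogOf_sub_logTr (A := A) hu' (le_refl N)
  have h2 : OrdGE (N + 1) (fun i => φ (hondaLogOf A u i - logTr A N u i)) := fun i =>
    (ordGE_hondaLogOf_sub_logTr (A := A) hu (le_refl N) i).trans (hφ _)
  have e : (hondaLogOf A (fun j => φ (u j)) - fun i => φ (hondaLogOf A u i)) =
      (hondaLogOf A (fun j => φ (u j)) - logTr A N (fun j => φ (u j))) -
        (fun i => φ (hondaLogOf A u i - logTr A N u i)) := by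
    rw [logTr_algHom]
    ext1 i
    simp only [Pi.sub_apply, map_sub]
    abel
  rw [e]
  exact ((h1.sub h2).mono (Nat.le_succ N))

theorem hondaLogOf_vE {u : ι → MvPowerSeries τ ℚ} (hu : OrdGE 1 u) :
    hondaLogOf A (vE p u) = vE p (hondaLogOf A u) := by
  refine hondaLogOf_algHom (expand p hp.out.ne_zero) (fun f => ?_) hu
  rw [order_expand, nsmul_eq_mul]
  exact le_mul_of_one_le_left' (by exact_mod_cast hp.out.one_le)

theorem order_le_order_subst {τ' : Type*} {v : τ → MvPowerSeries τ' ℚ} (hv : HasSubst v)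
    (hv1 : ∀ t, constantCoeff (v t) = 0) (f : MvPowerSeries τ ℚ) :
    f.order ≤ (f.subst v : MvPowerSeries τ' ℚ).order := by
  refine le_trans ?_ (le_order_subst hv f)
  have : (1 : ℕ∞) ≤ ⨅ i, (v i).order :=
    le_iInf fun i => one_le_order_iff_constCoeff_eq_zero.2 (hv1 i)
  exact le_mul_of_one_le_left' this

theorem hondaLogOf_subst {τ' : Type*} {v : τ → MvPowerSeries τ' ℚ} (hv : HasSubst v)
    (hv1 : ∀ t, constantCoeff (v t) = 0) {u : ι → MvPowerSeries τ ℚ} (hu : OrdGE 1 u) :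
    hondaLogOf A (fun j => (u j).subst v) = fun i => (hondaLogOf A u i).subst v := by
  have := hondaLogOf_algHom (A := A) (substAlgHom (R := ℚ) hv)
    (fun f => by rw [substAlgHom_apply]; exact order_le_order_subst hv hv1 f) hu
  simpa only [substAlgHom_apply] using this

/-! ### the inverse of the logarithm -/

theorem le_order_homogeneousComponent (n : ℕ) (f : MvPowerSeries τ ℚ) :
    (n : ℕ∞) ≤ (homogeneousComponent n f).order := by
  rw [le_order_iff']
  intro e he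
  rw [coeff_homogeneousComponent, if_neg (by omega)]

theorem le_order_sub_homogeneousComponent {n : ℕ} {f : MvPowerSeries τ ℚ}
    (hf : (n : ℕ∞) ≤ f.order) : ((n + 1 : ℕ) : ℕ∞) ≤ (f - homogeneousComponent n f).order := by
  rw [le_order_iff']
  intro e he
  rw [map_sub, coeff_homogeneousComponent]
  split_ifs with h
  · simp
  · rw [sub_zero]
    exact coeff_eq_zero_of_le_order hf (by omega)

variable (A)

/-- the recursion for the inverse of the logarithm -/
def expSeq (w : ι → MvPowerSeries τ ℚ) : ℕ → (ι → MvPowerSeries τ ℚ)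
  | 0 => 0
  | d + 1 => expSeq w d +
      fun i => homogeneousComponent (d + 1) (w i - hondaLogOf A (expSeq w d) i)

/-- the inverse of the logarithm -/
def hondaExpOf (w : ι → MvPowerSeries τ ℚ) : ι → MvPowerSeries τ ℚ :=
  fun i => (fun e => coeff e (expSeq A w e.degree i) : MvPowerSeries τ ℚ)

variable {A}

theorem coeff_hondaExpOf (w : ι → MvPowerSeries τ ℚ) (i : ι) (e : τ →₀ ℕ) :
    coeff e (hondaExpOf A w i) = coeff e (expSeq A w e.degree i) := rfl

theorem expSeq_succ (w : ι → MvPowerSeries τ ℚ) (d : ℕ) :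
    expSeq A w (d + 1) = expSeq A w d +
      fun i => homogeneousComponent (d + 1) (w i - hondaLogOf A (expSeq A w d) i) := rfl

theorem ordGE_expSeq (w : ι → MvPowerSeries τ ℚ) (d : ℕ) : OrdGE 1 (expSeq A w d) := by
  induction d with
  | zero => exact OrdGE.zero 1
  | succ d ih =>
    rw [expSeq_succ]
    refine ih.add fun i => le_order_of_le ?_ (le_order_homogeneousComponent (d + 1) _)
    omega

theorem ordGE_sub_hondaLogOf_expSeq (hA : A 1 = 1) {w : ι → MvPowerSeries τ ℚ} (hw : OrdGE 1 w)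
    (d : ℕ) : OrdGE (d + 1) (w - hondaLogOf A (expSeq A w d)) := by
  induction d with
  | zero =>
    show OrdGE 1 (w - hondaLogOf A 0)
    rw [hondaLogOf_zero, sub_zero]
    exact hw
  | succ d ih =>
    set r : ι → MvPowerSeries τ ℚ :=
      fun i => homogeneousComponent (d + 1) (w i - hondaLogOf A (expSeq A w d) i) with hr
    have hr1 : OrdGE (d + 1) r := fun i => le_order_homogeneousComponent _ _
    have e1 : expSeq A w (d + 1) - expSeq A w d = r := by
      rw [expSeq_succ, add_sub_cancel_left]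
    have h1 := ordGE_hondaLogOf_sub hA (ordGE_expSeq (A := A) w (d + 1)) (ordGE_expSeq w d)
      (by omega : 1 ≤ d + 1) (by rw [e1]; exact hr1)
    rw [e1] at h1
    have h2 : OrdGE (d + 1 + 1) (w - hondaLogOf A (expSeq A w d) - r) := fun i =>
      le_order_sub_homogeneousComponent (ih i)
    have : w - hondaLogOf A (expSeq A w (d + 1)) =
        (w - hondaLogOf A (expSeq A w d) - r) -
          (hondaLogOf A (expSeq A w (d + 1)) - hondaLogOf A (expSeq A w d) - r) := by abel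
    rw [this]
    exact h2.sub h1

theorem coeff_expSeq_of_le (w : ι → MvPowerSeries τ ℚ) (i : ι) {e : τ →₀ ℕ} {D D' : ℕ}
    (h1 : e.degree ≤ D) (h2 : D ≤ D') :
    coeff e (expSeq A w D' i) = coeff e (expSeq A w D i) := by
  induction D', h2 using Nat.le_induction with
  | base => rfl
  | succ M hM ih =>
    rw [expSeq_succ, Pi.add_apply, map_add, ih, add_eq_left, coeff_homogeneousComponent,
      if_neg (by omega)]

theorem ordGE_hondaExpOf_sub_expSeq (w : ι → MvPowerSeries τ ℚ) (D : ℕ) :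
    OrdGE (D + 1) (hondaExpOf A w - expSeq A w D) := fun i => by
  rw [le_order_iff']
  intro e he
  rw [Pi.sub_apply, map_sub, coeff_hondaExpOf, sub_eq_zero]
  exact (coeff_expSeq_of_le w i le_rfl (by omega)).symm

theorem OrdGE.hondaExpOf (w : ι → MvPowerSeries τ ℚ) : OrdGE 1 (hondaExpOf A w) := by
  have := (ordGE_hondaExpOf_sub_expSeq (A := A) w 0).add (ordGE_expSeq (A := A) w 0)
  rwa [sub_add_cancel] at this

/-- `L(L⁻¹(w)) = w` -/
theorem hondaLogOf_hondaExpOf (hA : A 1 = 1) {w : ι → MvPowerSeries τ ℚ} (hw : OrdGE 1 w) :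
    hondaLogOf A (hondaExpOf A w) = w := by
  symm
  rw [← sub_eq_zero]
  refine eq_zero_of_forall_ordGE fun D => ?_
  have h1 := ordGE_sub_hondaLogOf_expSeq hA hw D
  have h2 := (ordGE_hondaLogOf_sub_iff hA (OrdGE.hondaExpOf w) (ordGE_expSeq w D)).2
    (ordGE_hondaExpOf_sub_expSeq (A := A) w D)
  have : w - hondaLogOf A (hondaExpOf A w) =
      (w - hondaLogOf A (expSeq A w D)) -
        (hondaLogOf A (hondaExpOf A w) - hondaLogOf A (expSeq A w D)) := by abel
  rw [this]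
  exact (h1.sub h2).mono (Nat.le_succ D)

/-- `L⁻¹(L(u)) = u` -/
theorem hondaExpOf_hondaLogOf (hA : A 1 = 1) {u : ι → MvPowerSeries τ ℚ} (hu : OrdGE 1 u) :
    hondaExpOf A (hondaLogOf A u) = u :=
  hondaLogOf_injective hA (OrdGE.hondaExpOf _) hu (hondaLogOf_hondaExpOf hA hu.hondaLogOf)

end

end Fermat.Agent.FG
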