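/-
(F1) Honda formal group for S19/S32 (helper2), part 3: the functional equation.

`HondaDatum p A` : `A 1 = 1`, `A (p n) = A p * A n - [p ∣ n] p • A (n / p)` (Hecke relations at `p`).
`hondaH p A w = w - (1/p) A_p w(X^p) + (1/p) w(X^(p^2))` (vectors of series over `ℚ`),
`IntV p v` : all components `p`-integral; `PDvdV p r v` : all components in `p^r · intS`.
* **(C1)** `intV_hondaH_hondaLogOf` : `u` integral ⇒ `H(L(u))` integral;
* **(C2)** `intV_of_hondaH_hondaLogOf`, `intV_hondaExpOf` : `H(w)` integral ⇒ `L⁻¹(w)` integral;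
* **(C3)** `pDvdV_hondaLogOf_sub_iff` : `a ≡ b mod p^r ↔ L(a) ≡ L(b) mod p^r` (integral `a`, `b`).
-/
import Mathlib
import Fermat.Agent.FG.HONDA_helper2_Log

set_option autoImplicit false
set_option linter.unusedSectionVars false

namespace Fermat.Agent.FG

open MvPowerSeries

noncomputable section

/-! ### reindexing sums over multiples of `p` -/

theorem sum_Icc_filter_dvd {G : Type*} [AddCommMonoid G] {p : ℕ} (hp : 0 < p) (f : ℕ → G)
    (M : ℕ) :
    ∑ n ∈ (Finset.Icc 1 (p * M)).filter (p ∣ ·), f n = ∑ m ∈ Finset.Icc 1 M, f (p * m) := by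
  refine Finset.sum_nbij' (fun n => n / p) (fun m => p * m) ?_ ?_ ?_ ?_ ?_
  · intro n hn
    simp only [Finset.mem_filter, Finset.mem_Icc] at hn ⊢
    obtain ⟨⟨h1, h2⟩, k, rfl⟩ := hn
    rw [Nat.mul_div_cancel_left _ hp]
    constructor
    · rcases Nat.eq_zero_or_pos k with rfl | hk
      · simp at h1
      · exact hk
    · exact Nat.le_of_mul_le_mul_left h2 hp
  · intro m hm
    simp only [Finset.mem_filter, Finset.mem_Icc] at hm ⊢
    refine ⟨⟨?_, Nat.mul_le_mul_left _ hm.2⟩, dvd_mul_right _ _⟩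
    exact Nat.mul_pos hp hm.1
  · intro n hn
    simp only [Finset.mem_filter, Finset.mem_Icc] at hn
    exact Nat.mul_div_cancel' hn.2
  · intro m _
    exact Nat.mul_div_cancel_left _ hp
  · intro n hn
    simp only [Finset.mem_filter, Finset.mem_Icc] at hn
    rw [Nat.mul_div_cancel' hn.2]

theorem sum_Icc_ite_dvd {G : Type*} [AddCommMonoid G] {p : ℕ} (hp : 0 < p) (g : ℕ → G)
    (M : ℕ) :
    ∑ n ∈ Finset.Icc 1 (p * M), (if p ∣ n then g (n / p) else 0) = ∑ m ∈ Finset.Icc 1 M, g m := by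
  rw [← Finset.sum_filter, sum_Icc_filter_dvd hp (fun n => g (n / p))]
  refine Finset.sum_congr rfl fun m _ => ?_
  rw [Nat.mul_div_cancel_left _ hp]

theorem sum_Icc_split_dvd {G : Type*} [AddCommMonoid G] {p : ℕ} (hp : 0 < p) (f : ℕ → G)
    (M : ℕ) :
    ∑ n ∈ Finset.Icc 1 (p * M), f n =
      ∑ n ∈ (Finset.Icc 1 (p * M)).filter (¬ p ∣ ·), f n + ∑ m ∈ Finset.Icc 1 M, f (p * m) := by
  rw [← sum_Icc_filter_dvd hp, add_comm, Finset.sum_filter_add_sum_filter_not]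

variable {τ : Type*} {ι : Type*} [Fintype ι] [DecidableEq ι]

/-! ### integral vectors -/

/-- vectors of `p`-integral series -/
def IntV (p : ℕ) (v : ι → MvPowerSeries τ ℚ) : Prop := ∀ j, v j ∈ intS p τ

variable {p : ℕ}

theorem IntV.add {v w : ι → MvPowerSeries τ ℚ} (hv : IntV p v) (hw : IntV p w) :
    IntV p (v + w) := fun j => Subring.add_mem _ (hv j) (hw j)

theorem IntV.sub {v w : ι → MvPowerSeries τ ℚ} (hv : IntV p v) (hw : IntV p w) :
    IntV p (v - w) := fun j => Subring.sub_mem _ (hv j) (hw j)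

theorem IntV.neg {v : ι → MvPowerSeries τ ℚ} (hv : IntV p v) :
    IntV p (-v) := fun j => Subring.neg_mem _ (hv j)

theorem IntV.zero : IntV p (0 : ι → MvPowerSeries τ ℚ) := fun _ => Subring.zero_mem _

theorem IntV.smul {c : ℚ} (hc : c ∈ GaloisRep.ratLocalizedAt p) {v : ι → MvPowerSeries τ ℚ}
    (hv : IntV p v) : IntV p (c • v) := fun j => smul_mem_intS p hc (hv j)

theorem IntV.sum {κ : Type*} {s : Finset κ} {v : κ → ι → MvPowerSeries τ ℚ}
    (h : ∀ k ∈ s, IntV p (v k)) : IntV p (∑ k ∈ s, v k) := fun j => by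
  rw [Finset.sum_apply]
  exact Subring.sum_mem _ fun k hk => h k hk j

theorem IntV.pow {v : ι → MvPowerSeries τ ℚ} (hv : IntV p v) (n : ℕ) :
    IntV p (v ^ n) := fun j => Subring.pow_mem _ (hv j) n

theorem IntV.mulVec {v : ι → MvPowerSeries τ ℚ} (hv : IntV p v) (M : Matrix ι ι ℤ) :
    IntV p ((cM τ M).mulVec v) := fun i => by
  rw [Matrix.mulVec, dotProduct]
  refine Subring.sum_mem _ fun j _ => Subring.mul_mem _ ?_ (hv j)
  rw [cM_apply]
  exact intCast_mem _ _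

theorem expand_mem_intS {n : ℕ} (hn : n ≠ 0) {g : MvPowerSeries τ ℚ}
    (hg : g ∈ intS p τ) : expand n hn g ∈ intS p τ := by
  obtain ⟨g', rfl⟩ := hg
  exact ⟨expand n hn g', (map_expand n hn _ g')⟩

variable [hp : Fact p.Prime]

theorem IntV.vE {v : ι → MvPowerSeries τ ℚ} (hv : IntV p v) : IntV p (vE p v) :=
  fun j => expand_mem_intS _ (hv j)

theorem smul_mem_intS_of_pDvd_one {g : MvPowerSeries τ ℚ} (h : PDvd p 1 g) :
    ((p : ℚ))⁻¹ • g ∈ intS p τ := by
  obtain ⟨c, hc, rfl⟩ := h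
  have hp0 : (p : ℚ) ≠ 0 := by exact_mod_cast hp.out.ne_zero
  rwa [pow_one, smul_smul, inv_mul_cancel₀ hp0, one_smul]

/-- `(a^m - b^m)/(m p)` is integral if `a ≡ b mod p` -/
theorem div_pow_sub_pow_mem {a b : MvPowerSeries τ ℚ} (ha : a ∈ intS p τ) (hb : b ∈ intS p τ)
    (hab : PDvd p 1 (a - b)) (m : ℕ) :
    ((m : ℚ) * p)⁻¹ • (a ^ m - b ^ m) ∈ intS p τ := by
  have := smul_mem_intS_of_pDvd_one (pDvd_pow_sub_pow ha hb le_rfl hab m)
  rwa [smul_smul, ← mul_inv, mul_comm] at this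

/-- `u^(p^2) ≡ u(X^(p^2)) mod p` -/
theorem frobenius_congr_sq {g : MvPowerSeries τ ℚ} (hg : g ∈ intS p τ) :
    PDvd p 1 (g ^ (p * p) - expand p hp.out.ne_zero (expand p hp.out.ne_zero g)) := by
  have h1 := frobenius_congr hg
  have h2 := frobenius_congr (expand_mem_intS hp.out.ne_zero hg)
  have h3 := pDvd_pow_sub_pow (Subring.pow_mem _ hg p) (expand_mem_intS hp.out.ne_zero hg)
    le_rfl h1 p
  obtain ⟨c2, hc2, e2⟩ := h2
  obtain ⟨c3, hc3, e3⟩ := h3
  have hp0 : (p : ℚ) ≠ 0 := by exact_mod_cast hp.out.ne_zero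
  refine ⟨(p : ℚ) • c3 + c2, Subring.add_mem _ (smul_mem_intS p (natCast_mem _ _) hc3) hc2, ?_⟩
  have e3' : (g ^ p) ^ p - (expand p hp.out.ne_zero g) ^ p = (p : ℚ) • ((p : ℚ) ^ 1 • c3) := by
    rw [← e3, smul_smul, mul_inv_cancel₀ hp0, one_smul]
  rw [pow_mul, smul_add, ← e2, smul_comm, ← e3']
  abel

/-! ### Honda data and the Honda operator -/

/-- the Hecke-type relations `A_1 = 1`, `A_{pn} = A_p A_n - [p ∣ n] p A_{n/p}` -/
structure HondaDatum (p : ℕ) (A : ℕ → Matrix ι ι ℤ) : Prop where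
  one : A 1 = 1
  mul_p : ∀ n, 1 ≤ n → A (p * n) = A p * A n - (if p ∣ n then (p : ℤ) • A (n / p) else 0)

variable (p) (A : ℕ → Matrix ι ι ℤ)

/-- the Honda operator `H(w) = w - (1/p) A_p w(X^p) + (1/p) w(X^(p^2))` -/
def hondaH (w : ι → MvPowerSeries τ ℚ) : ι → MvPowerSeries τ ℚ :=
  w - ((p : ℚ))⁻¹ • (cM τ (A p)).mulVec (vE p w) + ((p : ℚ))⁻¹ • vE p (vE p w)

theorem hondaH_add (v w : ι → MvPowerSeries τ ℚ) :
    hondaH p A (v + w) = hondaH p A v + hondaH p A w := by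
  simp only [hondaH, vE_add, Matrix.mulVec_add, smul_add]
  abel

theorem hondaH_sub (v w : ι → MvPowerSeries τ ℚ) :
    hondaH p A (v - w) = hondaH p A v - hondaH p A w := by
  simp only [hondaH, vE_sub, Matrix.mulVec_sub, smul_sub]
  abel

variable {p A}

theorem logTr_vE (N : ℕ) (u : ι → MvPowerSeries τ ℚ) :
    logTr A N (vE p u) = vE p (logTr A N u) :=
  logTr_algHom (expand p hp.out.ne_zero) N u

/-- the first difference quotient in the functional equation -/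
def feD1 (p : ℕ) [Fact p.Prime] (u : ι → MvPowerSeries τ ℚ) (m : ℕ) : ι → MvPowerSeries τ ℚ :=
  ((m : ℚ) * p)⁻¹ • ((u ^ p) ^ m - (vE p u) ^ m)

/-- the second difference quotient in the functional equation -/
def feD2 (p : ℕ) [Fact p.Prime] (u : ι → MvPowerSeries τ ℚ) (m : ℕ) : ι → MvPowerSeries τ ℚ :=
  ((m : ℚ) * p)⁻¹ • ((u ^ (p * p)) ^ m - (vE p (vE p u)) ^ m)

theorem IntV.feD1 {u : ι → MvPowerSeries τ ℚ} (hu : IntV p u) (m : ℕ) : IntV p (feD1 p u m) :=
  fun j => div_pow_sub_pow_mem (Subring.pow_mem _ (hu j) p) (expand_mem_intS _ (hu j))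
    (frobenius_congr (hu j)) m

theorem IntV.feD2 {u : ι → MvPowerSeries τ ℚ} (hu : IntV p u) (m : ℕ) : IntV p (feD2 p u m) :=
  fun j => div_pow_sub_pow_mem (Subring.pow_mem _ (hu j) (p * p))
    (expand_mem_intS _ (expand_mem_intS _ (hu j))) (frobenius_congr_sq (hu j)) m

/-- the term `f(pm)` of the logarithm, rewritten with the Hecke relation -/
theorem logTerm_mul_p (hA : HondaDatum p A) (u : ι → MvPowerSeries τ ℚ) {m : ℕ} (hm : 1 ≤ m) :
    logTerm A (p * m) u =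
      ((m : ℚ) * p)⁻¹ • (cM τ (A p * A m)).mulVec ((u ^ p) ^ m) -
        (if p ∣ m then
          (((m / p : ℕ) : ℚ) * p)⁻¹ • (cM τ (A (m / p))).mulVec ((u ^ (p * p)) ^ (m / p))
          else 0) := by
  have hp0 : (p : ℚ) ≠ 0 := by exact_mod_cast hp.out.ne_zero
  have hm0 : (m : ℚ) ≠ 0 := by exact_mod_cast (by omega : m ≠ 0)
  rw [logTerm, hA.mul_p m hm, cM_sub, Matrix.sub_mulVec, smul_sub, pow_mul, Nat.cast_mul,
    mul_comm (p : ℚ)]
  congr 1
  split_ifs with h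
  · obtain ⟨k, rfl⟩ := h
    rw [Nat.mul_div_cancel_left _ hp.out.pos, cM_zsmul, Matrix.smul_mulVec, smul_smul,
      ← pow_mul, ← pow_mul, mul_assoc]
    congr 1
    have hk0 : (k : ℚ) ≠ 0 := by
      rintro h0
      apply hm0
      rw [Nat.cast_mul, h0, mul_zero]
    push_cast
    field_simp
  · rw [cM_zero, Matrix.zero_mulVec, smul_zero]

/-- the exact form of the functional equation on truncations -/
theorem hondaH_logTr_eq (hA : HondaDatum p A) (u : ι → MvPowerSeries τ ℚ) (N : ℕ) :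
    logTr A (p * (p * N)) u - ((p : ℚ))⁻¹ • (cM τ (A p)).mulVec (logTr A (p * N) (vE p u)) +
        ((p : ℚ))⁻¹ • logTr A N (vE p (vE p u)) =
      ∑ n ∈ (Finset.Icc 1 (p * (p * N))).filter (¬ p ∣ ·), logTerm A n u +
        ∑ m ∈ Finset.Icc 1 (p * N), (cM τ (A p * A m)).mulVec (feD1 p u m) -
        ∑ m ∈ Finset.Icc 1 N, (cM τ (A m)).mulVec (feD2 p u m) := by
  have hp0 : (p : ℚ) ≠ 0 := by exact_mod_cast hp.out.ne_zero
  -- first sum
  have e1 : logTr A (p * (p * N)) u =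
      ∑ n ∈ (Finset.Icc 1 (p * (p * N))).filter (¬ p ∣ ·), logTerm A n u +
        (∑ m ∈ Finset.Icc 1 (p * N),
            ((m : ℚ) * p)⁻¹ • (cM τ (A p * A m)).mulVec ((u ^ p) ^ m) -
          ∑ m ∈ Finset.Icc 1 N,
            ((m : ℚ) * p)⁻¹ • (cM τ (A m)).mulVec ((u ^ (p * p)) ^ m)) := by
    rw [logTr, sum_Icc_split_dvd hp.out.pos]
    congr 1
    rw [← sum_Icc_ite_dvd hp.out.pos
      (fun m => ((m : ℚ) * p)⁻¹ • (cM τ (A m)).mulVec ((u ^ (p * p)) ^ m)) N,
      ← Finset.sum_sub_distrib]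
    refine Finset.sum_congr rfl fun m hm => ?_
    rw [Finset.mem_Icc] at hm
    exact logTerm_mul_p hA u hm.1
  -- second sum
  have e2 : ((p : ℚ))⁻¹ • (cM τ (A p)).mulVec (logTr A (p * N) (vE p u)) =
      ∑ m ∈ Finset.Icc 1 (p * N),
        ((m : ℚ) * p)⁻¹ • (cM τ (A p * A m)).mulVec ((vE p u) ^ m) := by
    rw [logTr, Matrix.mulVec_sum, Finset.smul_sum]
    refine Finset.sum_congr rfl fun m _ => ?_
    rw [logTerm, Matrix.mulVec_smul, smul_smul, Matrix.mulVec_mulVec, cM_mul, ← mul_inv,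
      mul_comm (p : ℚ)]
  -- third sum
  have e3 : ((p : ℚ))⁻¹ • logTr A N (vE p (vE p u)) =
      ∑ m ∈ Finset.Icc 1 N,
        ((m : ℚ) * p)⁻¹ • (cM τ (A m)).mulVec ((vE p (vE p u)) ^ m) := by
    rw [logTr, Finset.smul_sum]
    refine Finset.sum_congr rfl fun m _ => ?_
    rw [logTerm, smul_smul, ← mul_inv, mul_comm (p : ℚ)]
  have e4 : ∑ m ∈ Finset.Icc 1 (p * N), (cM τ (A p * A m)).mulVec (feD1 p u m) =
      ∑ m ∈ Finset.Icc 1 (p * N),
          ((m : ℚ) * p)⁻¹ • (cM τ (A p * A m)).mulVec ((u ^ p) ^ m) -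
        ∑ m ∈ Finset.Icc 1 (p * N),
          ((m : ℚ) * p)⁻¹ • (cM τ (A p * A m)).mulVec ((vE p u) ^ m) := by
    rw [← Finset.sum_sub_distrib]
    refine Finset.sum_congr rfl fun m _ => ?_
    rw [feD1, Matrix.mulVec_smul, Matrix.mulVec_sub, smul_sub]
  have e5 : ∑ m ∈ Finset.Icc 1 N, (cM τ (A m)).mulVec (feD2 p u m) =
      ∑ m ∈ Finset.Icc 1 N,
          ((m : ℚ) * p)⁻¹ • (cM τ (A m)).mulVec ((u ^ (p * p)) ^ m) -
        ∑ m ∈ Finset.Icc 1 N,
          ((m : ℚ) * p)⁻¹ • (cM τ (A m)).mulVec ((vE p (vE p u)) ^ m) := by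
    rw [← Finset.sum_sub_distrib]
    refine Finset.sum_congr rfl fun m _ => ?_
    rw [feD2, Matrix.mulVec_smul, Matrix.mulVec_sub, smul_sub]
  rw [e1, e2, e3, e4, e5]
  abel

theorem IntV.logTerm {u : ι → MvPowerSeries τ ℚ} (hu : IntV p u) {n : ℕ} (hn : ¬ p ∣ n) :
    IntV p (logTerm A n u) :=
  IntV.smul (natCast_inv_mem_ratLoc p
    (Nat.Coprime.symm ((Nat.Prime.coprime_iff_not_dvd hp.out).2 hn))) ((hu.pow n).mulVec (A n))

theorem intV_of_coeff {v : ι → MvPowerSeries τ ℚ}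
    (h : ∀ j e, coeff e (v j) ∈ GaloisRep.ratLocalizedAt p) : IntV p v :=
  fun j => (mem_intS_iff p).2 (h j)

theorem IntV.coeff_mem {v : ι → MvPowerSeries τ ℚ} (h : IntV p v) (j : ι) (e : τ →₀ ℕ) :
    coeff e (v j) ∈ GaloisRep.ratLocalizedAt p := (mem_intS_iff p).1 (h j) e

/-- if `v ≡ w` modulo degree `> N` and `w` is integral, the coefficients of `v` in degree `≤ N` are
integral -/
theorem coeff_mem_of_ordGE_sub {v w : ι → MvPowerSeries τ ℚ} {N : ℕ} (h : OrdGE (N + 1) (v - w))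
    (hw : IntV p w) (j : ι) {e : τ →₀ ℕ} (he : e.degree ≤ N) :
    coeff e (v j) ∈ GaloisRep.ratLocalizedAt p := by
  have := coeff_eq_zero_of_le_order (h j) (by omega : e.degree < N + 1)
  rw [Pi.sub_apply, map_sub, sub_eq_zero] at this
  rw [this]
  exact hw.coeff_mem j e

/-- **(C1)** the functional equation: `H(L(u))` is integral for integral `u`. -/
theorem intV_hondaH_hondaLogOf (hA : HondaDatum p A) {u : ι → MvPowerSeries τ ℚ}
    (hu1 : OrdGE 1 u) (hu : IntV p u) : IntV p (hondaH p A (hondaLogOf A u)) := by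
  refine intV_of_coeff fun j e => ?_
  set N := e.degree with hN
  have hp1 : 1 ≤ p := hp.out.one_le
  have hN1 : N ≤ p * N := Nat.le_mul_of_pos_left N hp1
  have hN2 : p * N ≤ p * (p * N) := Nat.le_mul_of_pos_left _ hp1
  have hN3 : N + 1 ≤ p * (N + 1) := Nat.le_mul_of_pos_left _ hp1
  have hN4 : p * (N + 1) ≤ p * (p * (N + 1)) := Nat.le_mul_of_pos_left _ hp1
  have hN5 : p * (N + 1) ≤ p * (p * N + 1) := Nat.mul_le_mul_left _ (by omega)
  -- the three error terms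
  have h1 : OrdGE (N + 1) (hondaLogOf A u - logTr A (p * (p * N)) u) :=
    ordGE_hondaLogOf_sub_logTr hu1 (hN1.trans hN2)
  have h2 : OrdGE (N + 1) (vE p (hondaLogOf A u - logTr A (p * N) u)) :=
    ((ordGE_hondaLogOf_sub_logTr (A := A) hu1 (le_refl (p * N))).vE p).mono (hN3.trans hN5)
  have h3 : OrdGE (N + 1) (vE p (vE p (hondaLogOf A u - logTr A N u))) :=
    (((ordGE_hondaLogOf_sub_logTr (A := A) hu1 (le_refl N)).vE p).vE p).mono (hN3.trans hN4)
  have key : OrdGE (N + 1) (hondaH p A (hondaLogOf A u) -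
      (logTr A (p * (p * N)) u - ((p : ℚ))⁻¹ • (cM τ (A p)).mulVec (logTr A (p * N) (vE p u)) +
        ((p : ℚ))⁻¹ • logTr A N (vE p (vE p u)))) := by
    have e : hondaH p A (hondaLogOf A u) -
      (logTr A (p * (p * N)) u - ((p : ℚ))⁻¹ • (cM τ (A p)).mulVec (logTr A (p * N) (vE p u)) +
        ((p : ℚ))⁻¹ • logTr A N (vE p (vE p u))) =
        (hondaLogOf A u - logTr A (p * (p * N)) u) -
          ((p : ℚ))⁻¹ • (cM τ (A p)).mulVec (vE p (hondaLogOf A u - logTr A (p * N) u)) +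
          ((p : ℚ))⁻¹ • vE p (vE p (hondaLogOf A u - logTr A N u)) := by
      rw [hondaH, logTr_vE, logTr_vE, logTr_vE, vE_sub, vE_sub, vE_sub, Matrix.mulVec_sub,
        smul_sub, smul_sub]
      abel
    rw [e]
    exact (h1.sub ((h2.mulVec _).smul _)).add (h3.smul _)
  refine coeff_mem_of_ordGE_sub key ?_ j le_rfl
  rw [hondaH_logTr_eq hA]
  refine ((IntV.sum fun n hn => ?_).add (IntV.sum fun m _ => ?_)).sub (IntV.sum fun m _ => ?_)
  · rw [Finset.mem_filter] at hn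
    exact hu.logTerm hn.2
  · exact (hu.feD1 m).mulVec _
  · exact (hu.feD2 m).mulVec _

/-! ### truncation -/

/-- the part of degree `≤ d` of a series -/
def truncLE (d : ℕ) (f : MvPowerSeries τ ℚ) : MvPowerSeries τ ℚ :=
  fun e => if e.degree ≤ d then coeff e f else 0

theorem coeff_truncLE (d : ℕ) (f : MvPowerSeries τ ℚ) (e : τ →₀ ℕ) :
    coeff e (truncLE d f) = if e.degree ≤ d then coeff e f else 0 := rfl

theorem le_order_sub_truncLE (d : ℕ) (f : MvPowerSeries τ ℚ) :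
    ((d + 1 : ℕ) : ℕ∞) ≤ (f - truncLE d f).order := by
  rw [le_order_iff']
  intro e he
  rw [map_sub, coeff_truncLE, if_pos (by omega), sub_self]

theorem le_order_truncLE {a : ℕ} {f : MvPowerSeries τ ℚ} (hf : (a : ℕ∞) ≤ f.order) (d : ℕ) :
    (a : ℕ∞) ≤ (truncLE d f).order := by
  rw [le_order_iff'] at hf ⊢
  intro e he
  rw [coeff_truncLE]
  split_ifs
  · exact hf e he
  · rfl

theorem truncLE_mem_intS {d : ℕ} {f : MvPowerSeries τ ℚ}
    (h : ∀ e : τ →₀ ℕ, e.degree ≤ d → coeff e f ∈ GaloisRep.ratLocalizedAt p) :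
    truncLE d f ∈ intS p τ := by
  rw [mem_intS_iff]
  intro e
  rw [coeff_truncLE]
  split_ifs with he
  · exact h e he
  · exact Subring.zero_mem _

/-- integrality by induction on the degree -/
theorem intV_of_forall_degree {v : ι → MvPowerSeries τ ℚ}
    (h : ∀ d : ℕ, ∀ j, ∀ e : τ →₀ ℕ, e.degree ≤ d → coeff e (v j) ∈ GaloisRep.ratLocalizedAt p) :
    IntV p v := intV_of_coeff fun j e => h e.degree j e le_rfl

/-- **(C2)** if `H(L(u))` is integral then `u` is integral. -/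
theorem intV_of_hondaH_hondaLogOf (hA : HondaDatum p A) {u : ι → MvPowerSeries τ ℚ}
    (hu1 : OrdGE 1 u) (h : IntV p (hondaH p A (hondaLogOf A u))) : IntV p u := by
  refine intV_of_forall_degree fun d => ?_
  induction d with
  | zero =>
    intro j e he
    rw [coeff_eq_zero_of_le_order (hu1 j) (by omega)]
    exact Subring.zero_mem _
  | succ d ih =>
    intro j e he
    set u' : ι → MvPowerSeries τ ℚ := fun j => truncLE d (u j) with hu'
    have hu'1 : OrdGE 1 u' := fun j => le_order_truncLE (hu1 j) d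
    have hu'i : IntV p u' := fun j => truncLE_mem_intS (ih j)
    have hr : OrdGE (d + 1) (u - u') := fun j => le_order_sub_truncLE d (u j)
    have hs := ordGE_hondaLogOf_sub hA.one hu1 hu'1 (by omega : 1 ≤ d + 1) hr
    set s := hondaLogOf A u - hondaLogOf A u' - (u - u') with hs_def
    have hp2 : 2 ≤ p := hp.out.two_le
    have hd2 : d + 1 + 1 ≤ p * (d + 1) := by nlinarith
    have hd3 : p * (d + 1) ≤ p * (p * (d + 1)) := Nat.le_mul_of_pos_left _ (by omega)
    have hrs : OrdGE (d + 1) ((u - u') + s) := hr.add (hs.mono (Nat.le_succ _))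
    have key : OrdGE (d + 1 + 1) ((u - u') -
        (hondaH p A (hondaLogOf A u) - hondaH p A (hondaLogOf A u'))) := by
      have e1 : hondaLogOf A u - hondaLogOf A u' = (u - u') + s := by
        rw [hs_def]; abel
      rw [← hondaH_sub, e1, hondaH]
      have e2 : (u - u') - ((u - u') + s -
          ((p : ℚ))⁻¹ • (cM τ (A p)).mulVec (vE p ((u - u') + s)) +
          ((p : ℚ))⁻¹ • vE p (vE p ((u - u') + s))) =
          ((p : ℚ))⁻¹ • (cM τ (A p)).mulVec (vE p ((u - u') + s)) - s -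
          ((p : ℚ))⁻¹ • vE p (vE p ((u - u') + s)) := by abel
      rw [e2]
      refine (((((hrs.vE p).mono hd2).mulVec _).smul _).sub hs).sub ?_
      exact ((((hrs.vE p).vE p).mono (hd2.trans hd3)).smul _)
    have h2 := coeff_mem_of_ordGE_sub key (h.sub (intV_hondaH_hondaLogOf hA hu'1 hu'i)) j he
    have h3 : coeff e (u j) = coeff e ((u - u') j) + coeff e (u' j) := by
      rw [← map_add, Pi.sub_apply, sub_add_cancel]
    rw [h3]
    exact Subring.add_mem _ h2 (hu'i.coeff_mem j e)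

/-- **(C2)** `L⁻¹(w)` is integral as soon as `H(w)` is. -/
theorem intV_hondaExpOf (hA : HondaDatum p A) {w : ι → MvPowerSeries τ ℚ} (hw1 : OrdGE 1 w)
    (hw : IntV p (hondaH p A w)) : IntV p (hondaExpOf A w) := by
  refine intV_of_hondaH_hondaLogOf hA (OrdGE.hondaExpOf w) ?_
  rwa [hondaLogOf_hondaExpOf hA.one hw1]

/-! ### congruences modulo `p^r` -/

theorem pDvd_iff {r : ℕ} {g : MvPowerSeries τ ℚ} :
    PDvd p r g ↔ (((p : ℚ) ^ r))⁻¹ • g ∈ intS p τ := by
  have hp0 : ((p : ℚ) ^ r) ≠ 0 := pow_ne_zero _ (by exact_mod_cast hp.out.ne_zero)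
  constructor
  · rintro ⟨c, hc, rfl⟩
    rwa [smul_smul, inv_mul_cancel₀ hp0, one_smul]
  · intro h
    exact ⟨_, h, by rw [smul_smul, mul_inv_cancel₀ hp0, one_smul]⟩

/-- vectors divisible by `p^r` -/
def PDvdV (p : ℕ) (r : ℕ) (v : ι → MvPowerSeries τ ℚ) : Prop := ∀ j, PDvd p r (v j)

theorem pDvdV_iff {r : ℕ} {v : ι → MvPowerSeries τ ℚ} :
    PDvdV p r v ↔ IntV p ((((p : ℚ) ^ r))⁻¹ • v) :=
  forall_congr' fun _ => pDvd_iff

theorem PDvdV.intV {r : ℕ} {v : ι → MvPowerSeries τ ℚ} (h : PDvdV p r v) : IntV p v :=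
  fun j => (h j).mem

/-- **(C3)**, easy direction: `a ≡ b mod p^r` implies `L(a) ≡ L(b) mod p^r` (`r ≥ 1`). -/
theorem pDvdV_hondaLogOf_sub {a b : ι → MvPowerSeries τ ℚ} (ha1 : OrdGE 1 a) (hb1 : OrdGE 1 b)
    (ha : IntV p a) (hb : IntV p b) {r : ℕ} (hr : 1 ≤ r) (h : PDvdV p r (a - b)) :
    PDvdV p r (hondaLogOf A a - hondaLogOf A b) := by
  rw [pDvdV_iff]
  refine intV_of_coeff fun j e => ?_
  set N := e.degree with hN
  have h1 := ordGE_hondaLogOf_sub_logTr (A := A) ha1 (le_refl N)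
  have h2 := ordGE_hondaLogOf_sub_logTr (A := A) hb1 (le_refl N)
  have key : OrdGE (N + 1) ((((p : ℚ) ^ r))⁻¹ • (hondaLogOf A a - hondaLogOf A b) -
      (((p : ℚ) ^ r))⁻¹ • (logTr A N a - logTr A N b)) := by
    rw [← smul_sub]
    have : hondaLogOf A a - hondaLogOf A b - (logTr A N a - logTr A N b) =
        (hondaLogOf A a - logTr A N a) - (hondaLogOf A b - logTr A N b) := by abel
    rw [this]
    exact (h1.sub h2).smul _
  refine coeff_mem_of_ordGE_sub key ?_ j le_rfl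
  rw [logTr, logTr, ← Finset.sum_sub_distrib, Finset.smul_sum]
  refine IntV.sum fun n _ => ?_
  have e1 : (((p : ℚ) ^ r))⁻¹ • (logTerm A n a - logTerm A n b) =
      (cM τ (A n)).mulVec ((((p : ℚ) ^ r))⁻¹ • ((n : ℚ))⁻¹ • (a ^ n - b ^ n)) := by
    rw [logTerm, logTerm, Matrix.mulVec_smul, Matrix.mulVec_smul, Matrix.mulVec_sub, smul_sub,
      smul_sub, smul_sub]
  rw [e1]
  refine IntV.mulVec ?_ _
  rw [← pDvdV_iff]
  exact fun j => pDvd_pow_sub_pow (ha j) (hb j) hr (h j) n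

/-- **(C3)**, main direction: `L(a) ≡ L(b) mod p^r` implies `a ≡ b mod p^r` (`r ≥ 1`), for integral
`b` and arbitrary `a`, both with zero constant terms. -/
theorem pDvdV_sub_of_hondaLogOf (hA : A 1 = 1) {a b : ι → MvPowerSeries τ ℚ} (ha1 : OrdGE 1 a)
    (hb1 : OrdGE 1 b) (hb : IntV p b) {r : ℕ} (hr : 1 ≤ r)
    (h : PDvdV p r (hondaLogOf A a - hondaLogOf A b)) : PDvdV p r (a - b) := by
  have hp0 : ((p : ℚ) ^ r) ≠ 0 := pow_ne_zero _ (by exact_mod_cast hp.out.ne_zero)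
  rw [pDvdV_iff]
  set c : ι → MvPowerSeries τ ℚ := (((p : ℚ) ^ r))⁻¹ • (a - b) with hc
  have hc1 : OrdGE 1 c := (ha1.sub hb1).smul _
  refine intV_of_forall_degree fun d => ?_
  induction d with
  | zero =>
    intro j e he
    rw [coeff_eq_zero_of_le_order (hc1 j) (by omega)]
    exact Subring.zero_mem _
  | succ d ih =>
    intro j e he
    set c' : ι → MvPowerSeries τ ℚ := fun j => truncLE d (c j) with hc'
    have hc'1 : OrdGE 1 c' := fun j => le_order_truncLE (hc1 j) d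
    have hc'i : IntV p c' := fun j => truncLE_mem_intS (ih j)
    set a' : ι → MvPowerSeries τ ℚ := b + ((p : ℚ) ^ r) • c' with ha'
    have ha'1 : OrdGE 1 a' := hb1.add (hc'1.smul _)
    have ha'i : IntV p a' :=
      hb.add (hc'i.smul (Subring.pow_mem _ (natCast_mem _ _) _))
    have hab' : PDvdV p r (a' - b) := fun j =>
      ⟨c' j, hc'i j, by rw [ha', add_sub_cancel_left]; rfl⟩
    have e1 : a - a' = ((p : ℚ) ^ r) • (c - c') := by
      rw [ha', hc, smul_sub, smul_smul, mul_inv_cancel₀ hp0, one_smul]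
      abel
    have hr1 : OrdGE (d + 1) (c - c') := fun j => le_order_sub_truncLE d (c j)
    have hr2 : OrdGE (d + 1) (a - a') := by rw [e1]; exact hr1.smul _
    have hs := ordGE_hondaLogOf_sub hA ha1 ha'1 (by omega : 1 ≤ d + 1) hr2
    have h4 := pDvdV_hondaLogOf_sub (A := A) ha'1 hb1 ha'i hb hr hab'
    have h5 : IntV p ((((p : ℚ) ^ r))⁻¹ • ((hondaLogOf A a - hondaLogOf A b) -
        (hondaLogOf A a' - hondaLogOf A b))) := by
      rw [smul_sub]
      exact (pDvdV_iff.1 h).sub (pDvdV_iff.1 h4)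
    have key : OrdGE (d + 1 + 1) ((c - c') - (((p : ℚ) ^ r))⁻¹ •
        ((hondaLogOf A a - hondaLogOf A b) - (hondaLogOf A a' - hondaLogOf A b))) := by
      have e2 : (c - c') - (((p : ℚ) ^ r))⁻¹ •
          ((hondaLogOf A a - hondaLogOf A b) - (hondaLogOf A a' - hondaLogOf A b)) =
          -((((p : ℚ) ^ r))⁻¹ • (hondaLogOf A a - hondaLogOf A a' - (a - a'))) := by
        rw [e1, smul_sub (((p : ℚ) ^ r))⁻¹ _ (((p : ℚ) ^ r) • (c - c')), smul_smul,
          inv_mul_cancel₀ hp0, one_smul, ← sub_eq_zero]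
        have : (hondaLogOf A a - hondaLogOf A b) - (hondaLogOf A a' - hondaLogOf A b) =
            hondaLogOf A a - hondaLogOf A a' := by abel
        rw [this]
        abel
      rw [e2]
      exact (hs.smul _).neg
    have h2 := coeff_mem_of_ordGE_sub key h5 j he
    have h3 : coeff e (c j) = coeff e ((c - c') j) + coeff e (c' j) := by
      rw [← map_add, Pi.sub_apply, sub_add_cancel]
    rw [h3]
    exact Subring.add_mem _ h2 (hc'i.coeff_mem j e)

/-- **(C3)** for integral `a`, `b` with zero constant terms and `r ≥ 1`: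
`a ≡ b mod p^r ↔ L(a) ≡ L(b) mod p^r`. -/
theorem pDvdV_hondaLogOf_sub_iff (hA : A 1 = 1) {a b : ι → MvPowerSeries τ ℚ} (ha1 : OrdGE 1 a)
    (hb1 : OrdGE 1 b) (ha : IntV p a) (hb : IntV p b) {r : ℕ} (hr : 1 ≤ r) :
    PDvdV p r (hondaLogOf A a - hondaLogOf A b) ↔ PDvdV p r (a - b) :=
  ⟨pDvdV_sub_of_hondaLogOf hA ha1 hb1 hb hr, pDvdV_hondaLogOf_sub ha1 hb1 ha hb hr⟩

end

end Fermat.Agent.FG
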