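/-
(F1) Honda formal group for S19/S32 (helper2), part 4: the group law and the endomorphisms on
vectors of power series over `ℚ` with zero constant terms, through the logarithm.

* `qAdd A a b = L⁻¹(L(a) + L(b))`, `qSmul A t a = L⁻¹(t · L(a))` (`t : Matrix ι ι ℤ`);
* group laws: `qAdd_comm`, `qAdd_assoc`, `qAdd_zero`, `qAdd_qSmul_neg_one`, `qSmul_qAdd`,
  `qSmul_mul`, `qSmul_add`, `qSmul_one`; linear terms `ordGE_qAdd_sub`, `ordGE_qSmul_sub`;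
* integrality `IntV.qAdd`, `IntV.qSmul` (`t` commuting with `A p`) for a `HondaDatum p A`;
* `pDvdV_qAdd_sub_qSmul` : `[p]_F a +_F a(X^(p^2)) ≡ [A_p]_F(a(X^p)) mod p`.
-/
import Mathlib
import Fermat.Agent.FG.HONDA_helper2_FunEq

set_option autoImplicit false
set_option linter.unusedSectionVars false

namespace Fermat.Agent.FG

open MvPowerSeries

noncomputable section

variable {τ : Type*} {ι : Type*} [Fintype ι] [DecidableEq ι]

variable (A : ℕ → Matrix ι ι ℤ)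

/-! ### the group law and the endomorphisms on vectors of series over `ℚ` -/

/-- `a +_F b = L⁻¹(L(a) + L(b))` -/
def qAdd (a b : ι → MvPowerSeries τ ℚ) : ι → MvPowerSeries τ ℚ :=
  hondaExpOf A (hondaLogOf A a + hondaLogOf A b)

/-- `[t]_F a = L⁻¹(t · L(a))` -/
def qSmul (t : Matrix ι ι ℤ) (a : ι → MvPowerSeries τ ℚ) : ι → MvPowerSeries τ ℚ :=
  hondaExpOf A ((cM τ t).mulVec (hondaLogOf A a))

variable {A}

theorem OrdGE.qAdd (a b : ι → MvPowerSeries τ ℚ) : OrdGE 1 (qAdd A a b) := OrdGE.hondaExpOf _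

theorem OrdGE.qSmul (t : Matrix ι ι ℤ) (a : ι → MvPowerSeries τ ℚ) : OrdGE 1 (qSmul A t a) :=
  OrdGE.hondaExpOf _

theorem hondaLogOf_qAdd (hA : A 1 = 1) {a b : ι → MvPowerSeries τ ℚ} (ha : OrdGE 1 a)
    (hb : OrdGE 1 b) : hondaLogOf A (qAdd A a b) = hondaLogOf A a + hondaLogOf A b :=
  hondaLogOf_hondaExpOf hA (ha.hondaLogOf.add hb.hondaLogOf)

theorem hondaLogOf_qSmul (hA : A 1 = 1) (t : Matrix ι ι ℤ) {a : ι → MvPowerSeries τ ℚ}
    (ha : OrdGE 1 a) : hondaLogOf A (qSmul A t a) = (cM τ t).mulVec (hondaLogOf A a) :=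
  hondaLogOf_hondaExpOf hA (ha.hondaLogOf.mulVec _)

/-- characterisation of `a +_F b` -/
theorem eq_qAdd_iff (hA : A 1 = 1) {a b c : ι → MvPowerSeries τ ℚ} (ha : OrdGE 1 a)
    (hb : OrdGE 1 b) (hc : OrdGE 1 c) :
    c = qAdd A a b ↔ hondaLogOf A c = hondaLogOf A a + hondaLogOf A b := by
  rw [← hondaLogOf_qAdd hA ha hb]
  exact ⟨fun h => by rw [h], fun h => hondaLogOf_injective hA hc (OrdGE.qAdd a b) h⟩

/-- characterisation of `[t]_F a` -/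
theorem eq_qSmul_iff (hA : A 1 = 1) (t : Matrix ι ι ℤ) {a c : ι → MvPowerSeries τ ℚ}
    (ha : OrdGE 1 a) (hc : OrdGE 1 c) :
    c = qSmul A t a ↔ hondaLogOf A c = (cM τ t).mulVec (hondaLogOf A a) := by
  rw [← hondaLogOf_qSmul hA t ha]
  exact ⟨fun h => by rw [h], fun h => hondaLogOf_injective hA hc (OrdGE.qSmul t a) h⟩

theorem qAdd_comm (a b : ι → MvPowerSeries τ ℚ) : qAdd A a b = qAdd A b a := by
  rw [qAdd, qAdd, add_comm]

theorem qAdd_assoc (hA : A 1 = 1) {a b c : ι → MvPowerSeries τ ℚ} (ha : OrdGE 1 a)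
    (hb : OrdGE 1 b) (hc : OrdGE 1 c) : qAdd A (qAdd A a b) c = qAdd A a (qAdd A b c) := by
  rw [eq_qAdd_iff hA ha (OrdGE.qAdd b c) (OrdGE.qAdd _ _), hondaLogOf_qAdd hA (OrdGE.qAdd a b) hc,
    hondaLogOf_qAdd hA ha hb, hondaLogOf_qAdd hA hb hc, add_assoc]

theorem qAdd_zero (hA : A 1 = 1) {a : ι → MvPowerSeries τ ℚ} (ha : OrdGE 1 a) :
    qAdd A a 0 = a := by
  symm
  rw [eq_qAdd_iff hA ha (OrdGE.zero 1) ha, hondaLogOf_zero, add_zero]

theorem zero_qAdd (hA : A 1 = 1) {a : ι → MvPowerSeries τ ℚ} (ha : OrdGE 1 a) :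
    qAdd A 0 a = a := by
  rw [qAdd_comm, qAdd_zero hA ha]

theorem qAdd_qSmul_neg_one (hA : A 1 = 1) {a : ι → MvPowerSeries τ ℚ} (ha : OrdGE 1 a) :
    qAdd A a (qSmul A (-1) a) = 0 := by
  symm
  rw [eq_qAdd_iff hA ha (OrdGE.qSmul _ a) (OrdGE.zero 1), hondaLogOf_zero,
    hondaLogOf_qSmul hA _ ha, cM_neg, cM_one, Matrix.neg_mulVec, Matrix.one_mulVec, add_neg_cancel]

theorem qSmul_qAdd (hA : A 1 = 1) (t : Matrix ι ι ℤ) {a b : ι → MvPowerSeries τ ℚ}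
    (ha : OrdGE 1 a) (hb : OrdGE 1 b) :
    qSmul A t (qAdd A a b) = qAdd A (qSmul A t a) (qSmul A t b) := by
  rw [eq_qAdd_iff hA (OrdGE.qSmul t a) (OrdGE.qSmul t b) (OrdGE.qSmul _ _),
    hondaLogOf_qSmul hA t (OrdGE.qAdd a b), hondaLogOf_qAdd hA ha hb, hondaLogOf_qSmul hA t ha,
    hondaLogOf_qSmul hA t hb, Matrix.mulVec_add]

theorem qSmul_mul (hA : A 1 = 1) (t t' : Matrix ι ι ℤ) {a : ι → MvPowerSeries τ ℚ}
    (ha : OrdGE 1 a) : qSmul A (t * t') a = qSmul A t (qSmul A t' a) := by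
  rw [eq_qSmul_iff hA t (OrdGE.qSmul t' a) (OrdGE.qSmul _ _), hondaLogOf_qSmul hA _ ha,
    hondaLogOf_qSmul hA _ ha, cM_mul, Matrix.mulVec_mulVec]

theorem qSmul_add (hA : A 1 = 1) (t t' : Matrix ι ι ℤ) {a : ι → MvPowerSeries τ ℚ}
    (ha : OrdGE 1 a) : qSmul A (t + t') a = qAdd A (qSmul A t a) (qSmul A t' a) := by
  rw [eq_qAdd_iff hA (OrdGE.qSmul t a) (OrdGE.qSmul t' a) (OrdGE.qSmul _ _),
    hondaLogOf_qSmul hA _ ha, hondaLogOf_qSmul hA _ ha, hondaLogOf_qSmul hA _ ha, cM_add,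
    Matrix.add_mulVec]

theorem qSmul_one (hA : A 1 = 1) {a : ι → MvPowerSeries τ ℚ} (ha : OrdGE 1 a) :
    qSmul A 1 a = a := by
  symm
  rw [eq_qSmul_iff hA 1 ha ha, cM_one, Matrix.one_mulVec]

theorem qSmul_zero_left (hA : A 1 = 1) {a : ι → MvPowerSeries τ ℚ} (ha : OrdGE 1 a) :
    qSmul A 0 a = 0 := by
  symm
  rw [eq_qSmul_iff hA 0 ha (OrdGE.zero 1), cM_zero, Matrix.zero_mulVec, hondaLogOf_zero]

/-- linear terms: `L(u) ≡ u` modulo degree `≥ 2` -/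
theorem ordGE_hondaLogOf_sub_self (hA : A 1 = 1) {u : ι → MvPowerSeries τ ℚ} (hu : OrdGE 1 u) :
    OrdGE 2 (hondaLogOf A u - u) := by
  have := ordGE_hondaLogOf_sub hA hu (OrdGE.zero 1) le_rfl (by rwa [sub_zero])
  rwa [hondaLogOf_zero, sub_zero, sub_zero] at this

/-- `a +_F b ≡ a + b` modulo degree `≥ 2` -/
theorem ordGE_qAdd_sub (hA : A 1 = 1) {a b : ι → MvPowerSeries τ ℚ} (ha : OrdGE 1 a)
    (hb : OrdGE 1 b) : OrdGE 2 (qAdd A a b - (a + b)) := by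
  have h1 := ordGE_hondaLogOf_sub_self hA (OrdGE.qAdd (A := A) a b)
  rw [hondaLogOf_qAdd hA ha hb] at h1
  have h2 := ordGE_hondaLogOf_sub_self hA ha
  have h3 := ordGE_hondaLogOf_sub_self hA hb
  have : qAdd A a b - (a + b) =
      (hondaLogOf A a - a) + (hondaLogOf A b - b) -
        (hondaLogOf A a + hondaLogOf A b - qAdd A a b) := by abel
  rw [this]
  exact (h2.add h3).sub h1

/-- `[t]_F a ≡ t · a` modulo degree `≥ 2` -/
theorem ordGE_qSmul_sub (hA : A 1 = 1) (t : Matrix ι ι ℤ) {a : ι → MvPowerSeries τ ℚ}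
    (ha : OrdGE 1 a) : OrdGE 2 (qSmul A t a - (cM τ t).mulVec a) := by
  have h1 := ordGE_hondaLogOf_sub_self hA (OrdGE.qSmul (A := A) t a)
  rw [hondaLogOf_qSmul hA t ha] at h1
  have h2 := (ordGE_hondaLogOf_sub_self hA ha).mulVec (cM τ t)
  rw [Matrix.mulVec_sub] at h2
  have : qSmul A t a - (cM τ t).mulVec a =
      ((cM τ t).mulVec (hondaLogOf A a) - (cM τ t).mulVec a) -
        ((cM τ t).mulVec (hondaLogOf A a) - qSmul A t a) := by abel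
  rw [this]
  exact h2.sub h1

/-! ### integrality -/

variable {p : ℕ} [hp : Fact p.Prime]

theorem hondaH_mulVec (t : Matrix ι ι ℤ) (ht : t * A p = A p * t) (w : ι → MvPowerSeries τ ℚ) :
    hondaH p A ((cM τ t).mulVec w) = (cM τ t).mulVec (hondaH p A w) := by
  rw [hondaH, hondaH, vE_mulVec, vE_mulVec, Matrix.mulVec_add, Matrix.mulVec_sub,
    Matrix.mulVec_smul, Matrix.mulVec_smul, Matrix.mulVec_mulVec, Matrix.mulVec_mulVec, ← cM_mul,
    ← cM_mul, ht]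

theorem IntV.qAdd (hA : HondaDatum p A) {a b : ι → MvPowerSeries τ ℚ} (ha1 : OrdGE 1 a)
    (hb1 : OrdGE 1 b) (ha : IntV p a) (hb : IntV p b) : IntV p (qAdd A a b) := by
  refine intV_hondaExpOf hA (ha1.hondaLogOf.add hb1.hondaLogOf) ?_
  rw [hondaH_add]
  exact (intV_hondaH_hondaLogOf hA ha1 ha).add (intV_hondaH_hondaLogOf hA hb1 hb)

theorem IntV.qSmul (hA : HondaDatum p A) {t : Matrix ι ι ℤ} (ht : t * A p = A p * t)
    {a : ι → MvPowerSeries τ ℚ} (ha1 : OrdGE 1 a) (ha : IntV p a) : IntV p (qSmul A t a) := by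
  refine intV_hondaExpOf hA (ha1.hondaLogOf.mulVec _) ?_
  rw [hondaH_mulVec t ht]
  exact (intV_hondaH_hondaLogOf hA ha1 ha).mulVec t

/-- `[p]_F a +_F a(X^(p^2)) ≡ [A_p]_F (a(X^p)) mod p` -/
theorem pDvdV_qAdd_sub_qSmul (hA : HondaDatum p A) {a : ι → MvPowerSeries τ ℚ} (ha1 : OrdGE 1 a)
    (ha : IntV p a) :
    PDvdV p 1 (qAdd A (qSmul A ((p : ℤ) • (1 : Matrix ι ι ℤ)) a) (vE p (vE p a)) -
      qSmul A (A p) (vE p a)) := by
  have hp0 : (p : ℚ) ≠ 0 := by exact_mod_cast hp.out.ne_zero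
  have hcomm : ((p : ℤ) • (1 : Matrix ι ι ℤ)) * A p = A p * ((p : ℤ) • (1 : Matrix ι ι ℤ)) := by
    rw [Matrix.smul_mul, Matrix.mul_smul, Matrix.one_mul, Matrix.mul_one]
  have hv1 : OrdGE 1 (vE p a) := (ha1.vE p).mono (by simpa using hp.out.one_le)
  have hv2 : OrdGE 1 (vE p (vE p a)) := (hv1.vE p).mono (by simpa using hp.out.one_le)
  have hi1 : IntV p (qSmul A ((p : ℤ) • (1 : Matrix ι ι ℤ)) a) := IntV.qSmul hA hcomm ha1 ha
  refine pDvdV_sub_of_hondaLogOf hA.one (OrdGE.qAdd _ _) (OrdGE.qSmul _ _)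
    (IntV.qSmul hA rfl hv1 ha.vE) le_rfl ?_
  rw [hondaLogOf_qAdd hA.one (OrdGE.qSmul _ a) hv2, hondaLogOf_qSmul hA.one _ ha1,
    hondaLogOf_qSmul hA.one _ hv1, hondaLogOf_vE p hv1, hondaLogOf_vE p ha1, cM_zsmul, cM_one,
    Matrix.smul_mulVec, Matrix.one_mulVec]
  have key : ((p : ℤ) : ℚ) • hondaLogOf A a + vE p (vE p (hondaLogOf A a)) -
      (cM τ (A p)).mulVec (vE p (hondaLogOf A a)) = (p : ℚ) • hondaH p A (hondaLogOf A a) := by
    rw [hondaH, smul_add, smul_sub, smul_smul, smul_smul, mul_inv_cancel₀ hp0, one_smul, one_smul,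
      Int.cast_natCast]
    abel
  rw [key]
  intro j
  exact ⟨_, intV_hondaH_hondaLogOf hA ha1 ha j, by rw [pow_one]; rfl⟩

end

end Fermat.Agent.FG
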