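/-
(F1) Honda formal group for S19/S32 (helper2), part 5: the formal group law over `ℤ_(p)`.

For a Honda datum `hA : HondaDatum p A` (`A : ℕ → Matrix ι ι ℤ`, `A 1 = 1`,
`A (p n) = A p * A n - [p ∣ n] p • A (n / p)`), with `R = GaloisRep.ratLocalizedAt p = ℤ_(p)`:
* `hondaLog A : ι → MvPowerSeries ι ℚ` : the logarithm `L(X) = ∑ (1/n) A_n X^(n)`
  (`coeff_hondaLog_single`, `coeff_hondaLog_of_ne`), `hondaLogOf_eq_subst`;
* `hondaF hA : ι → MvPowerSeries (ι ⊕ ι) R` : the group law `F(X, Y) = L⁻¹(L(X) + L(Y))`;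
* `hondaEnd hA t ht : ι → MvPowerSeries ι R` : `[t](X) = L⁻¹(t · L(X))`, `t` commuting with `A p`;
* `hondaAdd hA a b = F(a, b)`, `hondaSmul hA t ht a = [t](a)`, `hondaNeg hA a = [-1](a)`
  (Mathlib's `MvPowerSeries.subst`), for vectors `a b : ι → MvPowerSeries τ R`;
* axioms: `hondaAdd_comm`, `hondaAdd_assoc`, `hondaAdd_zero`, `zero_hondaAdd`, `hondaAdd_hondaNeg`,
  `hondaSmul_hondaAdd`, `hondaSmul_mul`, `hondaSmul_add`, `hondaSmul_one`, `hondaSmul_zero_left`,
  `le_order_hondaAdd_sub`, `le_order_hondaSmul_sub` (linear terms);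
* the logarithm: `hondaLogOf_hondaAdd`, `hondaLogOf_hondaSmul`, `eq_of_hondaLogOf_eq`;
* `hondaAdd_p_congr(_residue)` : `[p](a) +_F a(X^(p^2)) ≡ [A_p](a(X^p)) mod p`.
-/
import Mathlib
import Fermat.Agent.FG.HONDA_helper2_Ops

set_option autoImplicit false
set_option linter.unusedSectionVars false

namespace Fermat.Agent.FG

open MvPowerSeries

noncomputable section

variable {τ : Type*} {ι : Type*} [Fintype ι] [DecidableEq ι]

/-! ### passing between `ℤ_(p)`- and `ℚ`-coefficients -/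

section coeffs

variable {p : ℕ}

/-- a vector of series over `ℤ_(p)` as a vector of series over `ℚ` -/
def qOf (a : ι → MvPowerSeries τ (GaloisRep.ratLocalizedAt p)) : ι → MvPowerSeries τ ℚ :=
  fun j => (a j).map (GaloisRep.ratLocalizedAt p).subtype

theorem qOf_apply (a : ι → MvPowerSeries τ (GaloisRep.ratLocalizedAt p)) (j : ι) :
    qOf a j = (a j).map (GaloisRep.ratLocalizedAt p).subtype := rfl

theorem map_subtype_injective :
    Function.Injective (MvPowerSeries.map (σ := τ) (GaloisRep.ratLocalizedAt p).subtype) := by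
  intro f g h
  ext e
  have := congrArg (coeff e) h
  rw [coeff_map, coeff_map] at this
  exact Subtype.ext_iff.1 (Subtype.ext this)

theorem qOf_injective :
    Function.Injective (qOf : (ι → MvPowerSeries τ (GaloisRep.ratLocalizedAt p)) → _) := by
  intro a b h
  ext1 j
  exact map_subtype_injective (congrFun h j)

theorem intV_qOf (a : ι → MvPowerSeries τ (GaloisRep.ratLocalizedAt p)) : IntV p (qOf a) :=
  fun j => ⟨a j, rfl⟩

theorem ordGE_qOf {a : ι → MvPowerSeries τ (GaloisRep.ratLocalizedAt p)}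
    (ha : ∀ j, constantCoeff (a j) = 0) : OrdGE 1 (qOf a) := by
  rw [ordGE_one_iff]
  intro j
  rw [qOf_apply, ← coeff_zero_eq_constantCoeff_apply, coeff_map, coeff_zero_eq_constantCoeff_apply,
    ha j, map_zero]

/-- an integral vector of series over `ℚ` as a vector of series over `ℤ_(p)` -/
def rOf (v : ι → MvPowerSeries τ ℚ) (hv : IntV p v) :
    ι → MvPowerSeries τ (GaloisRep.ratLocalizedAt p) :=
  fun j => (v j).toSubring _ ((mem_intS_iff p).1 (hv j))

theorem qOf_rOf (v : ι → MvPowerSeries τ ℚ) (hv : IntV p v) : qOf (rOf v hv) = v := rfl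

theorem constantCoeff_rOf {v : ι → MvPowerSeries τ ℚ} (hv : IntV p v) (hv1 : OrdGE 1 v) (j : ι) :
    constantCoeff (rOf v hv j) = 0 := by
  apply Subtype.ext
  rw [rOf, constantCoeff_toSubring]
  exact ordGE_one_iff.1 hv1 j

theorem qOf_add (a b : ι → MvPowerSeries τ (GaloisRep.ratLocalizedAt p)) :
    qOf (a + b) = qOf a + qOf b := by
  ext1 j; simp [qOf_apply]

theorem qOf_zero : qOf (0 : ι → MvPowerSeries τ (GaloisRep.ratLocalizedAt p)) = 0 := by
  ext1 j; simp [qOf_apply]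

end coeffs

/-! ### the universal series -/

variable (A : ℕ → Matrix ι ι ℤ)

/-- the logarithm `L(X) = ∑ (1/n) A_n X^(n)` of the Honda group, a vector of series over `ℚ` -/
def hondaLog : ι → MvPowerSeries ι ℚ := hondaLogOf A (fun j => X j)

/-- the formal group law `F(X, Y) = L⁻¹(L(X) + L(Y))` over `ℚ`; the variables are
`X_j = X (Sum.inl j)`, `Y_j = X (Sum.inr j)` -/
def hondaFQ : ι → MvPowerSeries (ι ⊕ ι) ℚ :=
  qAdd A (fun j => X (Sum.inl j)) (fun j => X (Sum.inr j))

/-- the endomorphism `[t](X) = L⁻¹(t · L(X))` over `ℚ` -/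
def hondaEndQ (t : Matrix ι ι ℤ) : ι → MvPowerSeries ι ℚ := qSmul A t (fun j => X j)

variable {A}

theorem ordGE_X {κ : Type*} (f : ι → κ) : OrdGE 1 (fun j => (X (f j) : MvPowerSeries κ ℚ)) := by
  rw [ordGE_one_iff]
  intro j
  simp

theorem intV_X {κ : Type*} (p : ℕ) (f : ι → κ) :
    IntV p (fun j => (X (f j) : MvPowerSeries κ ℚ)) := by
  refine fun j => (mem_intS_iff p).2 fun e => ?_
  classical
  rw [coeff_X]
  split_ifs
  · exact Subring.one_mem _
  · exact Subring.zero_mem _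

theorem hasSubst_of_ordGE {κ : Type*} [Finite κ] {a : κ → MvPowerSeries τ ℚ}
    (ha : ∀ k, constantCoeff (a k) = 0) : HasSubst a :=
  hasSubst_of_constantCoeff_zero ha

/-- `L(u) = L(X) ∘ u` -/
theorem hondaLogOf_eq_subst {u : ι → MvPowerSeries τ ℚ} (hu : OrdGE 1 u) :
    hondaLogOf A u = fun i => (hondaLog A i).subst u := by
  have hs : HasSubst u := hasSubst_of_constantCoeff_zero (ordGE_one_iff.1 hu)
  have := hondaLogOf_subst (A := A) hs (ordGE_one_iff.1 hu) (ordGE_X (ι := ι) id)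
  simp only [id, subst_X hs] at this
  exact this

theorem constantCoeff_sumElim {a b : ι → MvPowerSeries τ ℚ} (ha : OrdGE 1 a) (hb : OrdGE 1 b)
    (k : ι ⊕ ι) : constantCoeff (Sum.elim a b k) = 0 := by
  cases k with
  | inl j => exact ordGE_one_iff.1 ha j
  | inr j => exact ordGE_one_iff.1 hb j

/-- `F(a, b) = a +_F b` -/
theorem hondaFQ_subst (hA : A 1 = 1) {a b : ι → MvPowerSeries τ ℚ} (ha : OrdGE 1 a)
    (hb : OrdGE 1 b) : (fun i => (hondaFQ A i).subst (Sum.elim a b)) = qAdd A a b := by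
  have hs : HasSubst (Sum.elim a b) :=
    hasSubst_of_constantCoeff_zero (constantCoeff_sumElim ha hb)
  have h1 : OrdGE 1 (fun i => (hondaFQ A i).subst (Sum.elim a b)) := by
    rw [ordGE_one_iff]
    intro i
    exact constantCoeff_subst_eq_zero hs (constantCoeff_sumElim ha hb)
      (ordGE_one_iff.1 (OrdGE.qAdd _ _) i)
  have h0 : OrdGE 1 (hondaFQ A) := OrdGE.qAdd _ _
  rw [eq_qAdd_iff hA ha hb h1, hondaLogOf_subst hs (constantCoeff_sumElim ha hb) h0]
  rw [hondaFQ, hondaLogOf_qAdd hA (ordGE_X _) (ordGE_X _)]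
  have e1 := hondaLogOf_subst (A := A) hs (constantCoeff_sumElim ha hb)
    (ordGE_X (ι := ι) (Sum.inl : ι → ι ⊕ ι))
  have e2 := hondaLogOf_subst (A := A) hs (constantCoeff_sumElim ha hb)
    (ordGE_X (ι := ι) (Sum.inr : ι → ι ⊕ ι))
  simp only [subst_X hs, Sum.elim_inl, Sum.elim_inr] at e1 e2
  ext1 i
  rw [Pi.add_apply, subst_add hs, Pi.add_apply, ← congrFun e1 i, ← congrFun e2 i]

/-- `[t](a) = [t]_F a` -/
theorem hondaEndQ_subst (hA : A 1 = 1) (t : Matrix ι ι ℤ) {a : ι → MvPowerSeries τ ℚ}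
    (ha : OrdGE 1 a) : (fun i => (hondaEndQ A t i).subst a) = qSmul A t a := by
  have hs : HasSubst a := hasSubst_of_constantCoeff_zero (ordGE_one_iff.1 ha)
  have h1 : OrdGE 1 (fun i => (hondaEndQ A t i).subst a) := by
    rw [ordGE_one_iff]
    intro i
    exact constantCoeff_subst_eq_zero hs (ordGE_one_iff.1 ha)
      (ordGE_one_iff.1 (OrdGE.qSmul _ _) i)
  have h0 : OrdGE 1 (hondaEndQ A t) := OrdGE.qSmul _ _
  rw [eq_qSmul_iff hA t ha h1, hondaLogOf_subst hs (ordGE_one_iff.1 ha) h0]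
  rw [hondaEndQ, hondaLogOf_qSmul hA t (ordGE_X _)]
  have e1 := hondaLogOf_subst (A := A) hs (ordGE_one_iff.1 ha) (ordGE_X (ι := ι) id)
  simp only [id, subst_X hs] at e1
  rw [e1]
  ext1 i
  simp only [Matrix.mulVec, dotProduct, cM_apply]
  rw [← coe_substAlgHom hs, map_sum]
  refine Finset.sum_congr rfl fun j _ => ?_
  rw [map_mul, map_intCast]

/-! ### the formal group law over `ℤ_(p)` -/

variable {p : ℕ} [hp : Fact p.Prime]

theorem intV_hondaFQ (hA : HondaDatum p A) : IntV p (hondaFQ A) :=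
  IntV.qAdd hA (ordGE_X _) (ordGE_X _) (intV_X p _) (intV_X p _)

theorem intV_hondaEndQ (hA : HondaDatum p A) {t : Matrix ι ι ℤ} (ht : t * A p = A p * t) :
    IntV p (hondaEndQ A t) :=
  IntV.qSmul hA ht (ordGE_X _) (intV_X p _)

/-- **the Honda formal group law** `F(X, Y) ∈ ℤ_(p)[[X, Y]]^ι` attached to a Honda datum; the
variables are `X_j = X (Sum.inl j)`, `Y_j = X (Sum.inr j)`. -/
def hondaF (hA : HondaDatum p A) : ι → MvPowerSeries (ι ⊕ ι) (GaloisRep.ratLocalizedAt p) :=
  rOf (hondaFQ A) (intV_hondaFQ hA)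

/-- **the endomorphism** `[t](X) ∈ ℤ_(p)[[X]]^ι` of the Honda formal group, for an integer matrix
`t` commuting with `A p`. -/
def hondaEnd (hA : HondaDatum p A) (t : Matrix ι ι ℤ) (ht : t * A p = A p * t) :
    ι → MvPowerSeries ι (GaloisRep.ratLocalizedAt p) :=
  rOf (hondaEndQ A t) (intV_hondaEndQ hA ht)

theorem qOf_hondaF (hA : HondaDatum p A) : qOf (hondaF hA) = hondaFQ A := rfl

theorem qOf_hondaEnd (hA : HondaDatum p A) (t : Matrix ι ι ℤ) (ht : t * A p = A p * t) :
    qOf (hondaEnd hA t ht) = hondaEndQ A t := rfl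

theorem constantCoeff_hondaF (hA : HondaDatum p A) (i : ι) :
    constantCoeff (hondaF hA i) = 0 :=
  constantCoeff_rOf _ (OrdGE.qAdd _ _) i

theorem constantCoeff_hondaEnd (hA : HondaDatum p A) (t : Matrix ι ι ℤ)
    (ht : t * A p = A p * t) (i : ι) : constantCoeff (hondaEnd hA t ht i) = 0 :=
  constantCoeff_rOf _ (OrdGE.qSmul _ _) i

/-- `a +_F b` for vectors of series over `ℤ_(p)` (meaningful for zero constant terms) -/
def hondaAdd (hA : HondaDatum p A) (a b : ι → MvPowerSeries τ (GaloisRep.ratLocalizedAt p)) :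
    ι → MvPowerSeries τ (GaloisRep.ratLocalizedAt p) :=
  fun i => (hondaF hA i).subst (Sum.elim a b)

/-- `[t]_F a` for a vector of series over `ℤ_(p)` (meaningful for zero constant terms) -/
def hondaSmul (hA : HondaDatum p A) (t : Matrix ι ι ℤ) (ht : t * A p = A p * t)
    (a : ι → MvPowerSeries τ (GaloisRep.ratLocalizedAt p)) :
    ι → MvPowerSeries τ (GaloisRep.ratLocalizedAt p) :=
  fun i => (hondaEnd hA t ht i).subst a

theorem hondaAdd_apply (hA : HondaDatum p A)
    (a b : ι → MvPowerSeries τ (GaloisRep.ratLocalizedAt p)) (i : ι) :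
    hondaAdd hA a b i = (hondaF hA i).subst (Sum.elim a b) := rfl

theorem hondaSmul_apply (hA : HondaDatum p A) (t : Matrix ι ι ℤ) (ht : t * A p = A p * t)
    (a : ι → MvPowerSeries τ (GaloisRep.ratLocalizedAt p)) (i : ι) :
    hondaSmul hA t ht a i = (hondaEnd hA t ht i).subst a := rfl

theorem constantCoeff_sumElim' {a b : ι → MvPowerSeries τ (GaloisRep.ratLocalizedAt p)}
    (ha : ∀ j, constantCoeff (a j) = 0) (hb : ∀ j, constantCoeff (b j) = 0) (k : ι ⊕ ι) :
    constantCoeff (Sum.elim a b k) = 0 := by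
  cases k with
  | inl j => exact ha j
  | inr j => exact hb j

/-- bridge: `a +_F b` over `ℤ_(p)` and over `ℚ` -/
theorem qOf_hondaAdd (hA : HondaDatum p A)
    {a b : ι → MvPowerSeries τ (GaloisRep.ratLocalizedAt p)}
    (ha : ∀ j, constantCoeff (a j) = 0) (hb : ∀ j, constantCoeff (b j) = 0) :
    qOf (hondaAdd hA a b) = qAdd A (qOf a) (qOf b) := by
  have hs : HasSubst (Sum.elim a b) :=
    hasSubst_of_constantCoeff_zero (constantCoeff_sumElim' ha hb)
  rw [← hondaFQ_subst hA.one (ordGE_qOf ha) (ordGE_qOf hb)]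
  ext1 i
  rw [qOf_apply, hondaAdd_apply, map_subst hs]
  have : (fun k => (Sum.elim a b k).map (GaloisRep.ratLocalizedAt p).subtype) =
      Sum.elim (qOf a) (qOf b) := by
    funext k
    cases k <;> rfl
  rw [this]
  rfl

/-- bridge: `[t]_F a` over `ℤ_(p)` and over `ℚ` -/
theorem qOf_hondaSmul (hA : HondaDatum p A) (t : Matrix ι ι ℤ) (ht : t * A p = A p * t)
    {a : ι → MvPowerSeries τ (GaloisRep.ratLocalizedAt p)}
    (ha : ∀ j, constantCoeff (a j) = 0) :
    qOf (hondaSmul hA t ht a) = qSmul A t (qOf a) := by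
  have hs : HasSubst a := hasSubst_of_constantCoeff_zero ha
  rw [← hondaEndQ_subst hA.one t (ordGE_qOf ha)]
  ext1 i
  rw [qOf_apply, hondaSmul_apply, map_subst hs]
  rfl

theorem constantCoeff_hondaAdd (hA : HondaDatum p A)
    {a b : ι → MvPowerSeries τ (GaloisRep.ratLocalizedAt p)}
    (ha : ∀ j, constantCoeff (a j) = 0) (hb : ∀ j, constantCoeff (b j) = 0) (i : ι) :
    constantCoeff (hondaAdd hA a b i) = 0 :=
  constantCoeff_subst_eq_zero (hasSubst_of_constantCoeff_zero (constantCoeff_sumElim' ha hb))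
    (constantCoeff_sumElim' ha hb) (constantCoeff_hondaF hA i)

theorem constantCoeff_hondaSmul (hA : HondaDatum p A) (t : Matrix ι ι ℤ)
    (ht : t * A p = A p * t) {a : ι → MvPowerSeries τ (GaloisRep.ratLocalizedAt p)}
    (ha : ∀ j, constantCoeff (a j) = 0) (i : ι) :
    constantCoeff (hondaSmul hA t ht a i) = 0 :=
  constantCoeff_subst_eq_zero (hasSubst_of_constantCoeff_zero ha) ha
    (constantCoeff_hondaEnd hA t ht i)

/-- the logarithm is additive: `L(a +_F b) = L(a) + L(b)` -/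
theorem hondaLogOf_hondaAdd (hA : HondaDatum p A)
    {a b : ι → MvPowerSeries τ (GaloisRep.ratLocalizedAt p)}
    (ha : ∀ j, constantCoeff (a j) = 0) (hb : ∀ j, constantCoeff (b j) = 0) :
    hondaLogOf A (qOf (hondaAdd hA a b)) = hondaLogOf A (qOf a) + hondaLogOf A (qOf b) := by
  rw [qOf_hondaAdd hA ha hb, hondaLogOf_qAdd hA.one (ordGE_qOf ha) (ordGE_qOf hb)]

/-- `L([t]_F a) = t · L(a)` -/
theorem hondaLogOf_hondaSmul (hA : HondaDatum p A) (t : Matrix ι ι ℤ) (ht : t * A p = A p * t)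
    {a : ι → MvPowerSeries τ (GaloisRep.ratLocalizedAt p)} (ha : ∀ j, constantCoeff (a j) = 0) :
    hondaLogOf A (qOf (hondaSmul hA t ht a)) = (cM τ t).mulVec (hondaLogOf A (qOf a)) := by
  rw [qOf_hondaSmul hA t ht ha, hondaLogOf_qSmul hA.one t (ordGE_qOf ha)]

/-- a vector of series over `ℤ_(p)` with zero constant terms is determined by its logarithm -/
theorem eq_of_hondaLogOf_eq (hA : HondaDatum p A)
    {a b : ι → MvPowerSeries τ (GaloisRep.ratLocalizedAt p)}
    (ha : ∀ j, constantCoeff (a j) = 0) (hb : ∀ j, constantCoeff (b j) = 0)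
    (h : hondaLogOf A (qOf a) = hondaLogOf A (qOf b)) : a = b :=
  qOf_injective (hondaLogOf_injective hA.one (ordGE_qOf ha) (ordGE_qOf hb) h)

/-! ### the formal group axioms -/

theorem hondaAdd_comm (hA : HondaDatum p A)
    {a b : ι → MvPowerSeries τ (GaloisRep.ratLocalizedAt p)}
    (ha : ∀ j, constantCoeff (a j) = 0) (hb : ∀ j, constantCoeff (b j) = 0) :
    hondaAdd hA a b = hondaAdd hA b a := by
  apply qOf_injective
  rw [qOf_hondaAdd hA ha hb, qOf_hondaAdd hA hb ha, qAdd_comm]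

theorem hondaAdd_assoc (hA : HondaDatum p A)
    {a b c : ι → MvPowerSeries τ (GaloisRep.ratLocalizedAt p)}
    (ha : ∀ j, constantCoeff (a j) = 0) (hb : ∀ j, constantCoeff (b j) = 0)
    (hc : ∀ j, constantCoeff (c j) = 0) :
    hondaAdd hA (hondaAdd hA a b) c = hondaAdd hA a (hondaAdd hA b c) := by
  apply qOf_injective
  rw [qOf_hondaAdd hA (constantCoeff_hondaAdd hA ha hb) hc, qOf_hondaAdd hA ha hb,
    qOf_hondaAdd hA ha (constantCoeff_hondaAdd hA hb hc), qOf_hondaAdd hA hb hc,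
    qAdd_assoc hA.one (ordGE_qOf ha) (ordGE_qOf hb) (ordGE_qOf hc)]

theorem hondaAdd_zero (hA : HondaDatum p A)
    {a : ι → MvPowerSeries τ (GaloisRep.ratLocalizedAt p)} (ha : ∀ j, constantCoeff (a j) = 0) :
    hondaAdd hA a 0 = a := by
  apply qOf_injective
  rw [qOf_hondaAdd hA ha (fun _ => by simp), qOf_zero, qAdd_zero hA.one (ordGE_qOf ha)]

theorem zero_hondaAdd (hA : HondaDatum p A)
    {a : ι → MvPowerSeries τ (GaloisRep.ratLocalizedAt p)} (ha : ∀ j, constantCoeff (a j) = 0) :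
    hondaAdd hA 0 a = a := by
  rw [hondaAdd_comm hA (fun _ => by simp) ha, hondaAdd_zero hA ha]

theorem neg_one_mul_comm (M : Matrix ι ι ℤ) : (-1 : Matrix ι ι ℤ) * M = M * (-1) := by
  rw [neg_mul, one_mul, mul_neg, mul_one]

/-- the inverse `[-1]_F a` -/
def hondaNeg (hA : HondaDatum p A) (a : ι → MvPowerSeries τ (GaloisRep.ratLocalizedAt p)) :
    ι → MvPowerSeries τ (GaloisRep.ratLocalizedAt p) :=
  hondaSmul hA (-1) (neg_one_mul_comm _) a

theorem constantCoeff_hondaNeg (hA : HondaDatum p A)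
    {a : ι → MvPowerSeries τ (GaloisRep.ratLocalizedAt p)} (ha : ∀ j, constantCoeff (a j) = 0)
    (i : ι) : constantCoeff (hondaNeg hA a i) = 0 :=
  constantCoeff_hondaSmul hA _ _ ha i

theorem hondaAdd_hondaNeg (hA : HondaDatum p A)
    {a : ι → MvPowerSeries τ (GaloisRep.ratLocalizedAt p)} (ha : ∀ j, constantCoeff (a j) = 0) :
    hondaAdd hA a (hondaNeg hA a) = 0 := by
  apply qOf_injective
  rw [qOf_hondaAdd hA ha (constantCoeff_hondaNeg hA ha), hondaNeg, qOf_hondaSmul hA _ _ ha, qOf_zero,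
    qAdd_qSmul_neg_one hA.one (ordGE_qOf ha)]

theorem hondaNeg_hondaAdd (hA : HondaDatum p A)
    {a : ι → MvPowerSeries τ (GaloisRep.ratLocalizedAt p)} (ha : ∀ j, constantCoeff (a j) = 0) :
    hondaAdd hA (hondaNeg hA a) a = 0 := by
  rw [hondaAdd_comm hA (constantCoeff_hondaNeg hA ha) ha, hondaAdd_hondaNeg hA ha]

/-! ### the endomorphisms -/

theorem hondaSmul_hondaAdd (hA : HondaDatum p A) (t : Matrix ι ι ℤ) (ht : t * A p = A p * t)
    {a b : ι → MvPowerSeries τ (GaloisRep.ratLocalizedAt p)}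
    (ha : ∀ j, constantCoeff (a j) = 0) (hb : ∀ j, constantCoeff (b j) = 0) :
    hondaSmul hA t ht (hondaAdd hA a b) =
      hondaAdd hA (hondaSmul hA t ht a) (hondaSmul hA t ht b) := by
  apply qOf_injective
  rw [qOf_hondaSmul hA t ht (constantCoeff_hondaAdd hA ha hb), qOf_hondaAdd hA ha hb,
    qOf_hondaAdd hA (constantCoeff_hondaSmul hA t ht ha) (constantCoeff_hondaSmul hA t ht hb),
    qOf_hondaSmul hA t ht ha, qOf_hondaSmul hA t ht hb,
    qSmul_qAdd hA.one t (ordGE_qOf ha) (ordGE_qOf hb)]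

theorem mul_comm_of_comm {t t' M : Matrix ι ι ℤ} (ht : t * M = M * t) (ht' : t' * M = M * t') :
    (t * t') * M = M * (t * t') := by
  rw [mul_assoc, ht', ← mul_assoc, ht, mul_assoc]

theorem add_comm_of_comm {t t' M : Matrix ι ι ℤ} (ht : t * M = M * t) (ht' : t' * M = M * t') :
    (t + t') * M = M * (t + t') := by
  rw [add_mul, mul_add, ht, ht']

theorem hondaSmul_mul (hA : HondaDatum p A) (t t' : Matrix ι ι ℤ) (ht : t * A p = A p * t)
    (ht' : t' * A p = A p * t') {a : ι → MvPowerSeries τ (GaloisRep.ratLocalizedAt p)}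
    (ha : ∀ j, constantCoeff (a j) = 0) :
    hondaSmul hA (t * t') (mul_comm_of_comm ht ht') a =
      hondaSmul hA t ht (hondaSmul hA t' ht' a) := by
  apply qOf_injective
  rw [qOf_hondaSmul hA _ _ ha, qOf_hondaSmul hA t ht (constantCoeff_hondaSmul hA t' ht' ha),
    qOf_hondaSmul hA t' ht' ha, qSmul_mul hA.one t t' (ordGE_qOf ha)]

theorem hondaSmul_add (hA : HondaDatum p A) (t t' : Matrix ι ι ℤ) (ht : t * A p = A p * t)
    (ht' : t' * A p = A p * t') {a : ι → MvPowerSeries τ (GaloisRep.ratLocalizedAt p)}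
    (ha : ∀ j, constantCoeff (a j) = 0) :
    hondaSmul hA (t + t') (add_comm_of_comm ht ht') a =
      hondaAdd hA (hondaSmul hA t ht a) (hondaSmul hA t' ht' a) := by
  apply qOf_injective
  rw [qOf_hondaSmul hA _ _ ha,
    qOf_hondaAdd hA (constantCoeff_hondaSmul hA t ht ha) (constantCoeff_hondaSmul hA t' ht' ha),
    qOf_hondaSmul hA t ht ha, qOf_hondaSmul hA t' ht' ha, qSmul_add hA.one t t' (ordGE_qOf ha)]

theorem hondaSmul_one (hA : HondaDatum p A)
    {a : ι → MvPowerSeries τ (GaloisRep.ratLocalizedAt p)} (ha : ∀ j, constantCoeff (a j) = 0) :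
    hondaSmul hA 1 (by rw [one_mul, mul_one]) a = a := by
  apply qOf_injective
  rw [qOf_hondaSmul hA _ _ ha, qSmul_one hA.one (ordGE_qOf ha)]

theorem hondaSmul_zero_left (hA : HondaDatum p A)
    {a : ι → MvPowerSeries τ (GaloisRep.ratLocalizedAt p)} (ha : ∀ j, constantCoeff (a j) = 0) :
    hondaSmul hA 0 (by rw [zero_mul, mul_zero]) a = 0 := by
  apply qOf_injective
  rw [qOf_hondaSmul hA _ _ ha, qSmul_zero_left hA.one (ordGE_qOf ha), qOf_zero]

/-! ### linear terms -/

theorem order_map_subtype (f : MvPowerSeries τ (GaloisRep.ratLocalizedAt p)) :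
    (f.map (GaloisRep.ratLocalizedAt p).subtype).order = f.order :=
  (order_toSubring (f.map (GaloisRep.ratLocalizedAt p).subtype) (GaloisRep.ratLocalizedAt p)
    (fun n => by rw [coeff_map]; exact (coeff n f).2)).symm

/-- `a +_F b ≡ a + b` modulo degree `≥ 2` -/
theorem le_order_hondaAdd_sub (hA : HondaDatum p A)
    {a b : ι → MvPowerSeries τ (GaloisRep.ratLocalizedAt p)}
    (ha : ∀ j, constantCoeff (a j) = 0) (hb : ∀ j, constantCoeff (b j) = 0) (i : ι) :
    (2 : ℕ∞) ≤ (hondaAdd hA a b i - (a i + b i)).order := by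
  rw [← order_map_subtype, map_sub, map_add]
  have := ordGE_qAdd_sub hA.one (ordGE_qOf ha) (ordGE_qOf hb) i
  rw [← qOf_hondaAdd hA ha hb] at this
  exact this

/-- `[t]_F a ≡ t · a` modulo degree `≥ 2` -/
theorem le_order_hondaSmul_sub (hA : HondaDatum p A) (t : Matrix ι ι ℤ) (ht : t * A p = A p * t)
    {a : ι → MvPowerSeries τ (GaloisRep.ratLocalizedAt p)} (ha : ∀ j, constantCoeff (a j) = 0)
    (i : ι) :
    (2 : ℕ∞) ≤ (hondaSmul hA t ht a i -
      ∑ j, ((t i j : ℤ) : MvPowerSeries τ (GaloisRep.ratLocalizedAt p)) * a j).order := by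
  rw [← order_map_subtype, map_sub, map_sum]
  have := ordGE_qSmul_sub hA.one t (ordGE_qOf ha) i
  rw [← qOf_hondaSmul hA t ht ha] at this
  simp only [map_mul, map_intCast]
  exact this

/-! ### the coefficients of the logarithm -/

theorem coeff_hondaLog (i : ι) (e : ι →₀ ℕ) :
    coeff e (hondaLog A i) =
      ∑ n ∈ Finset.Icc 1 e.degree, ((n : ℚ))⁻¹ *
        ∑ j, (A n i j : ℚ) * (if e = Finsupp.single j n then 1 else 0) := by
  rw [hondaLog, coeff_hondaLogOf, logTr, Finset.sum_apply, map_sum]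
  refine Finset.sum_congr rfl fun n _ => ?_
  rw [logTerm, Pi.smul_apply, coeff_smul, Matrix.mulVec, dotProduct, map_sum]
  congr 1
  refine Finset.sum_congr rfl fun j _ => ?_
  rw [cM_apply, Pi.pow_apply, ← zsmul_eq_mul, ← Int.cast_smul_eq_zsmul ℚ, coeff_smul, coeff_X_pow]

theorem coeff_hondaLog_single (i j : ι) (n : ℕ) :
    coeff (Finsupp.single j n) (hondaLog A i) = (A n i j : ℚ) / n := by
  rcases Nat.eq_zero_or_pos n with rfl | hn
  · rw [coeff_hondaLog]
    simp
  rw [coeff_hondaLog, Finsupp.degree_single, Finset.sum_eq_single n]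
  · rw [Finset.sum_eq_single j]
    · simp [div_eq_inv_mul]
    · intro k _ hk
      rw [if_neg, mul_zero]
      intro h
      exact hk ((Finsupp.single_left_inj hn.ne').1 h).symm
    · intro h; exact absurd (Finset.mem_univ j) h
  · intro m _ hm
    rw [Finset.sum_eq_zero, mul_zero]
    intro k _
    rw [if_neg, mul_zero]
    intro h
    have := congrArg Finsupp.degree h
    rw [Finsupp.degree_single, Finsupp.degree_single] at this
    exact hm this.symm
  · intro h
    exact absurd (Finset.mem_Icc.2 ⟨hn, le_rfl⟩) h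

theorem coeff_hondaLog_of_ne (i : ι) {e : ι →₀ ℕ} (he : ∀ j n, e ≠ Finsupp.single j n) :
    coeff e (hondaLog A i) = 0 := by
  rw [coeff_hondaLog]
  refine Finset.sum_eq_zero fun n _ => ?_
  rw [Finset.sum_eq_zero, mul_zero]
  intro j _
  rw [if_neg (he j n), mul_zero]

/-- the logarithm in `subst` form is additive -/
theorem hondaLog_subst_hondaAdd (hA : HondaDatum p A)
    {a b : ι → MvPowerSeries τ (GaloisRep.ratLocalizedAt p)}
    (ha : ∀ j, constantCoeff (a j) = 0) (hb : ∀ j, constantCoeff (b j) = 0) (i : ι) :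
    (hondaLog A i).subst (qOf (hondaAdd hA a b)) =
      (hondaLog A i).subst (qOf a) + (hondaLog A i).subst (qOf b) := by
  have := hondaLogOf_hondaAdd hA ha hb
  rw [hondaLogOf_eq_subst (ordGE_qOf (constantCoeff_hondaAdd hA ha hb)),
    hondaLogOf_eq_subst (ordGE_qOf ha), hondaLogOf_eq_subst (ordGE_qOf hb)] at this
  exact congrFun this i

/-! ### `[p](x) +_F x^(p²) ≡ [A_p](x^(p))` modulo `p` -/

theorem exists_eq_smul_of_pDvd {r : ℕ} {f g : MvPowerSeries τ (GaloisRep.ratLocalizedAt p)}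
    (h : PDvd p r (f.map (GaloisRep.ratLocalizedAt p).subtype -
      g.map (GaloisRep.ratLocalizedAt p).subtype)) :
    ∃ c : MvPowerSeries τ (GaloisRep.ratLocalizedAt p),
      f - g = ((p : GaloisRep.ratLocalizedAt p) ^ r) • c := by
  obtain ⟨c, ⟨c', rfl⟩, hc⟩ := h
  refine ⟨c', map_subtype_injective ?_⟩
  rw [map_sub, hc]
  ext e
  simp only [coeff_smul, coeff_map, map_mul, map_pow, map_natCast]

theorem zpMul_comm (M : Matrix ι ι ℤ) :
    ((p : ℤ) • (1 : Matrix ι ι ℤ)) * M = M * ((p : ℤ) • (1 : Matrix ι ι ℤ)) := by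
  rw [Matrix.smul_mul, Matrix.mul_smul, Matrix.one_mul, Matrix.mul_one]

/-- **`[p]_F(a) +_F a(X^(p^2)) ≡ [A_p]_F(a(X^p))` modulo `p`** -/
theorem hondaAdd_p_congr (hA : HondaDatum p A)
    {a : ι → MvPowerSeries τ (GaloisRep.ratLocalizedAt p)} (ha : ∀ j, constantCoeff (a j) = 0)
    (i : ι) :
    ∃ c : MvPowerSeries τ (GaloisRep.ratLocalizedAt p),
      hondaAdd hA (hondaSmul hA ((p : ℤ) • 1) (zpMul_comm _) a)
          (fun j => expand p hp.out.ne_zero (expand p hp.out.ne_zero (a j))) i -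
        hondaSmul hA (A p) rfl (fun j => expand p hp.out.ne_zero (a j)) i =
      (p : GaloisRep.ratLocalizedAt p) • c := by
  have he1 : ∀ j, constantCoeff (expand p hp.out.ne_zero (a j)) = 0 := fun j => by
    rw [constantCoeff_expand, ha j]
  have he2 : ∀ j, constantCoeff (expand p hp.out.ne_zero (expand p hp.out.ne_zero (a j))) = 0 :=
    fun j => by rw [constantCoeff_expand, he1 j]
  have key := pDvdV_qAdd_sub_qSmul hA (ordGE_qOf ha) (intV_qOf a) i
  have e1 : vE p (qOf a) = qOf (fun j => expand p hp.out.ne_zero (a j)) := by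
    ext1 j
    rw [vE_apply, qOf_apply, qOf_apply, map_expand]
  have e2 : vE p (vE p (qOf a)) =
      qOf (fun j => expand p hp.out.ne_zero (expand p hp.out.ne_zero (a j))) := by
    rw [e1]
    ext1 j
    simp only [vE_apply, qOf_apply, map_expand]
  rw [e2, e1, ← qOf_hondaSmul hA _ (zpMul_comm _) ha, ← qOf_hondaSmul hA (A p) rfl he1,
    ← qOf_hondaAdd hA (constantCoeff_hondaSmul hA _ _ ha) he2] at key
  have := exists_eq_smul_of_pDvd key
  simpa only [pow_one] using this

/-- the same congruence as an identity of power series over `𝔽_p` -/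
theorem hondaAdd_p_congr_residue (hA : HondaDatum p A)
    {a : ι → MvPowerSeries τ (GaloisRep.ratLocalizedAt p)} (ha : ∀ j, constantCoeff (a j) = 0)
    (i : ι) :
    (hondaAdd hA (hondaSmul hA ((p : ℤ) • 1) (zpMul_comm _) a)
          (fun j => expand p hp.out.ne_zero (expand p hp.out.ne_zero (a j))) i).map
        (Igusa.residueZl p) =
      (hondaSmul hA (A p) rfl (fun j => expand p hp.out.ne_zero (a j)) i).map
        (Igusa.residueZl p) := by
  obtain ⟨c, hc⟩ := hondaAdd_p_congr hA ha i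
  rw [← sub_eq_zero, ← map_sub, hc]
  ext e
  rw [coeff_map, coeff_smul, map_mul, coeff_zero]
  have : Igusa.residueZl p (p : GaloisRep.ratLocalizedAt p) = 0 :=
    (Igusa.residueZl_eq_zero_iff p _).2 ⟨1, by rw [mul_one]; rfl⟩
  rw [this, zero_mul]

end

end Fermat.Agent.FG
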