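/-
[EVAL] for S19/S32 (helper2), part 3: the Honda formal group on points.

`S` a complete linearly topologised `ℤ_(p)`-algebra (`ℤ_(p) = GaloisRep.ratLocalizedAt p`), e.g.
`unitBall K`; `x y : ι → S` with `HasEval` (topologically nilpotent coordinates).
* `ptAdd hA x y = F(x, y)`, `ptSmul hA t ht x = [t](x)`, `ptNeg hA x = [-1](x)` (via `dEval`);
* `dEval_hondaAdd`, `dEval_hondaSmul` : evaluation of formal sums; all axioms on points;
* `HondaPts hA S` : the abelian group of points (`AddCommGroup`), `HondaPts.endo hA t ht`,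
  `endo_mul/_add/_one/_zero`, `endo_intCast : [n] = n •`;
* `HondaPts.map hA ε hε` for continuous ring homomorphisms `ε : S →+* T`, `map_endo`.
-/
import Mathlib
import Fermat.Agent.FG.HONDA_helper2_FGL
import Fermat.Agent.FG.EVAL_helper2_DEval

set_option autoImplicit false
set_option linter.unusedSectionVars false

namespace Fermat.Agent.FG

open MvPowerSeries Filter Topology

noncomputable section

variable {ι : Type*} [Fintype ι] [DecidableEq ι] {p : ℕ} [hp : Fact p.Prime]
  {A : ℕ → Matrix ι ι ℤ}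
variable {S : Type*} [CommRing S] [UniformSpace S] [IsUniformAddGroup S] [CompleteSpace S]
  [T2Space S] [IsTopologicalRing S] [IsLinearTopology S S]
  [Algebra (GaloisRep.ratLocalizedAt p) S]

theorem hasEval_of_finite {κ : Type*} [Finite κ] {x : κ → S}
    (hx : ∀ k, IsTopologicallyNilpotent (x k)) : HasEval x where
  hpow := hx
  tendsto_zero := by
    rw [Filter.cofinite_eq_bot]
    exact tendsto_bot

theorem hasEval_sumElim {κ κ' : Type*} [Finite κ] [Finite κ'] {x : κ → S} {y : κ' → S}
    (hx : HasEval x) (hy : HasEval y) : HasEval (Sum.elim x y) :=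
  hasEval_of_finite fun k => by
    cases k with
    | inl j => exact hx.hpow j
    | inr j => exact hy.hpow j

/-- the Honda group law on points: `x +_F y` -/
def ptAdd (hA : HondaDatum p A) (x y : ι → S) : ι → S :=
  fun i => dEval (Sum.elim x y) (hondaF hA i)

/-- the endomorphism `[t]` of the Honda group on points -/
def ptSmul (hA : HondaDatum p A) (t : Matrix ι ι ℤ) (ht : t * A p = A p * t) (x : ι → S) : ι → S :=
  fun i => dEval x (hondaEnd hA t ht i)

theorem hasSubst_sumElim {τ : Type*}
    {a b : ι → MvPowerSeries τ (GaloisRep.ratLocalizedAt p)}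
    (ha : ∀ j, constantCoeff (a j) = 0) (hb : ∀ j, constantCoeff (b j) = 0) :
    HasSubst (Sum.elim a b) :=
  hasSubst_of_constantCoeff_zero (constantCoeff_sumElim' ha hb)

/-- evaluation of `a +_F b` -/
theorem dEval_hondaAdd (hA : HondaDatum p A) {τ : Type*} {w : τ → S} (hw : HasEval w)
    {a b : ι → MvPowerSeries τ (GaloisRep.ratLocalizedAt p)}
    (ha : ∀ j, constantCoeff (a j) = 0) (hb : ∀ j, constantCoeff (b j) = 0) :
    (fun i => dEval w (hondaAdd hA a b i)) =
      ptAdd hA (fun j => dEval w (a j)) (fun j => dEval w (b j)) := by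
  ext1 i
  rw [hondaAdd_apply, dEval_subst (hasSubst_sumElim ha hb) hw, ptAdd]
  congr 1
  funext k
  cases k <;> rfl

/-- evaluation of `[t] a` -/
theorem dEval_hondaSmul (hA : HondaDatum p A) (t : Matrix ι ι ℤ) (ht : t * A p = A p * t)
    {τ : Type*} {w : τ → S} (hw : HasEval w)
    {a : ι → MvPowerSeries τ (GaloisRep.ratLocalizedAt p)}
    (ha : ∀ j, constantCoeff (a j) = 0) :
    (fun i => dEval w (hondaSmul hA t ht a i)) = ptSmul hA t ht (fun j => dEval w (a j)) := by
  ext1 i
  rw [hondaSmul_apply, dEval_subst (hasSubst_of_constantCoeff_zero ha) hw, ptSmul]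

theorem hasEval_ptAdd (hA : HondaDatum p A) {x y : ι → S} (hx : HasEval x) (hy : HasEval y) :
    HasEval (ptAdd hA x y) :=
  hasEval_dEval (hasSubst_of_constantCoeff_zero (constantCoeff_hondaF hA))
    (hasEval_sumElim hx hy)

theorem hasEval_ptSmul (hA : HondaDatum p A) (t : Matrix ι ι ℤ) (ht : t * A p = A p * t)
    {x : ι → S} (hx : HasEval x) : HasEval (ptSmul hA t ht x) :=
  hasEval_dEval (hasSubst_of_constantCoeff_zero (constantCoeff_hondaEnd hA t ht)) hx

/-! ### the group axioms on points -/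

theorem ptAdd_comm (hA : HondaDatum p A) {x y : ι → S} (hx : HasEval x) (hy : HasEval y) :
    ptAdd hA x y = ptAdd hA y x := by
  have hw := hasEval_sumElim hx hy
  have h0 : ∀ f : ι → ι ⊕ ι, ∀ j,
      constantCoeff (X (f j) : MvPowerSeries (ι ⊕ ι) (GaloisRep.ratLocalizedAt p)) = 0 :=
    fun f j => constantCoeff_X _
  have key := congrArg (fun v : ι → MvPowerSeries (ι ⊕ ι) (GaloisRep.ratLocalizedAt p) =>
    fun i => dEval (Sum.elim x y) (v i))
    (hondaAdd_comm hA (a := fun j => X (Sum.inl j)) (b := fun j => X (Sum.inr j))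
      (h0 Sum.inl) (h0 Sum.inr))
  beta_reduce at key
  rw [dEval_hondaAdd hA hw (h0 Sum.inl) (h0 Sum.inr),
    dEval_hondaAdd hA hw (h0 Sum.inr) (h0 Sum.inl)] at key
  simpa only [dEval_X, Sum.elim_inl, Sum.elim_inr] using key

theorem ptAdd_assoc (hA : HondaDatum p A) {x y z : ι → S} (hx : HasEval x) (hy : HasEval y)
    (hz : HasEval z) : ptAdd hA (ptAdd hA x y) z = ptAdd hA x (ptAdd hA y z) := by
  have hw := hasEval_sumElim hx (hasEval_sumElim hy hz)
  have h0 : ∀ f : ι → ι ⊕ (ι ⊕ ι), ∀ j,
      constantCoeff (X (f j) : MvPowerSeries (ι ⊕ (ι ⊕ ι)) (GaloisRep.ratLocalizedAt p)) = 0 :=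
    fun f j => constantCoeff_X _
  set a : ι → MvPowerSeries (ι ⊕ (ι ⊕ ι)) (GaloisRep.ratLocalizedAt p) :=
    fun j => X (Sum.inl j) with ha
  set b : ι → MvPowerSeries (ι ⊕ (ι ⊕ ι)) (GaloisRep.ratLocalizedAt p) :=
    fun j => X (Sum.inr (Sum.inl j)) with hb
  set c : ι → MvPowerSeries (ι ⊕ (ι ⊕ ι)) (GaloisRep.ratLocalizedAt p) :=
    fun j => X (Sum.inr (Sum.inr j)) with hc
  have ha0 : ∀ j, constantCoeff (a j) = 0 := h0 _
  have hb0 : ∀ j, constantCoeff (b j) = 0 := h0 _
  have hc0 : ∀ j, constantCoeff (c j) = 0 := h0 _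
  have key := congrArg (fun v : ι → MvPowerSeries (ι ⊕ (ι ⊕ ι)) (GaloisRep.ratLocalizedAt p) =>
    fun i => dEval (Sum.elim x (Sum.elim y z)) (v i)) (hondaAdd_assoc hA ha0 hb0 hc0)
  beta_reduce at key
  rw [dEval_hondaAdd hA hw (constantCoeff_hondaAdd hA ha0 hb0) hc0,
    dEval_hondaAdd hA hw ha0 hb0,
    dEval_hondaAdd hA hw ha0 (constantCoeff_hondaAdd hA hb0 hc0),
    dEval_hondaAdd hA hw hb0 hc0] at key
  simpa only [ha, hb, hc, dEval_X, Sum.elim_inl, Sum.elim_inr] using key

theorem hasEval_zero' : HasEval (0 : ι → S) := HasEval.zero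

theorem dEval_zero_series {τ : Type*} {w : τ → S} (hw : HasEval w) :
    dEval w (0 : MvPowerSeries τ (GaloisRep.ratLocalizedAt p)) = 0 := dEval_zero hw

theorem ptAdd_zero (hA : HondaDatum p A) {x : ι → S} (hx : HasEval x) :
    ptAdd hA x 0 = x := by
  have h0 : ∀ j, constantCoeff (X j : MvPowerSeries ι (GaloisRep.ratLocalizedAt p)) = 0 :=
    fun j => constantCoeff_X _
  have key := congrArg (fun v : ι → MvPowerSeries ι (GaloisRep.ratLocalizedAt p) =>
    fun i => dEval x (v i)) (hondaAdd_zero hA (a := fun j => X j) h0)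
  beta_reduce at key
  rw [dEval_hondaAdd hA hx h0 (fun _ => by simp)] at key
  simp only [dEval_X, Pi.zero_apply, dEval_zero hx] at key
  exact key

theorem zero_ptAdd (hA : HondaDatum p A) {x : ι → S} (hx : HasEval x) :
    ptAdd hA 0 x = x := by
  rw [ptAdd_comm hA HasEval.zero hx, ptAdd_zero hA hx]

/-- the inverse on points -/
def ptNeg (hA : HondaDatum p A) (x : ι → S) : ι → S :=
  ptSmul hA (-1) (neg_one_mul_comm _) x

theorem hasEval_ptNeg (hA : HondaDatum p A) {x : ι → S} (hx : HasEval x) :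
    HasEval (ptNeg hA x) := hasEval_ptSmul hA _ _ hx

theorem ptAdd_ptNeg (hA : HondaDatum p A) {x : ι → S} (hx : HasEval x) :
    ptAdd hA x (ptNeg hA x) = 0 := by
  have h0 : ∀ j, constantCoeff (X j : MvPowerSeries ι (GaloisRep.ratLocalizedAt p)) = 0 :=
    fun j => constantCoeff_X _
  have key := congrArg (fun v : ι → MvPowerSeries ι (GaloisRep.ratLocalizedAt p) =>
    fun i => dEval x (v i)) (hondaAdd_hondaNeg hA (a := fun j => X j) h0)
  beta_reduce at key
  rw [dEval_hondaAdd hA hx h0 (constantCoeff_hondaNeg hA h0), hondaNeg,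
    dEval_hondaSmul hA _ _ hx h0] at key
  simp only [dEval_X, Pi.zero_apply, dEval_zero hx] at key
  exact key

/-! ### the endomorphisms on points -/

theorem ptSmul_ptAdd (hA : HondaDatum p A) (t : Matrix ι ι ℤ) (ht : t * A p = A p * t)
    {x y : ι → S} (hx : HasEval x) (hy : HasEval y) :
    ptSmul hA t ht (ptAdd hA x y) = ptAdd hA (ptSmul hA t ht x) (ptSmul hA t ht y) := by
  have hw := hasEval_sumElim hx hy
  have h0 : ∀ f : ι → ι ⊕ ι, ∀ j,
      constantCoeff (X (f j) : MvPowerSeries (ι ⊕ ι) (GaloisRep.ratLocalizedAt p)) = 0 :=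
    fun f j => constantCoeff_X _
  have key := congrArg (fun v : ι → MvPowerSeries (ι ⊕ ι) (GaloisRep.ratLocalizedAt p) =>
    fun i => dEval (Sum.elim x y) (v i))
    (hondaSmul_hondaAdd hA t ht (a := fun j => X (Sum.inl j)) (b := fun j => X (Sum.inr j))
      (h0 Sum.inl) (h0 Sum.inr))
  beta_reduce at key
  rw [dEval_hondaSmul hA t ht hw (constantCoeff_hondaAdd hA (h0 Sum.inl) (h0 Sum.inr)),
    dEval_hondaAdd hA hw (h0 Sum.inl) (h0 Sum.inr),
    dEval_hondaAdd hA hw (constantCoeff_hondaSmul hA t ht (h0 Sum.inl))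
      (constantCoeff_hondaSmul hA t ht (h0 Sum.inr)),
    dEval_hondaSmul hA t ht hw (h0 Sum.inl), dEval_hondaSmul hA t ht hw (h0 Sum.inr)] at key
  simp only [dEval_X, Sum.elim_inl, Sum.elim_inr] at key
  exact key

theorem ptSmul_mul (hA : HondaDatum p A) (t t' : Matrix ι ι ℤ) (ht : t * A p = A p * t)
    (ht' : t' * A p = A p * t') {x : ι → S} (hx : HasEval x) :
    ptSmul hA (t * t') (mul_comm_of_comm ht ht') x = ptSmul hA t ht (ptSmul hA t' ht' x) := by
  have h0 : ∀ j, constantCoeff (X j : MvPowerSeries ι (GaloisRep.ratLocalizedAt p)) = 0 :=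
    fun j => constantCoeff_X _
  have key := congrArg (fun v : ι → MvPowerSeries ι (GaloisRep.ratLocalizedAt p) =>
    fun i => dEval x (v i)) (hondaSmul_mul hA t t' ht ht' (a := fun j => X j) h0)
  beta_reduce at key
  rw [dEval_hondaSmul hA _ _ hx h0,
    dEval_hondaSmul hA t ht hx (constantCoeff_hondaSmul hA t' ht' h0),
    dEval_hondaSmul hA t' ht' hx h0] at key
  simp only [dEval_X] at key
  exact key

theorem ptSmul_add (hA : HondaDatum p A) (t t' : Matrix ι ι ℤ) (ht : t * A p = A p * t)
    (ht' : t' * A p = A p * t') {x : ι → S} (hx : HasEval x) :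
    ptSmul hA (t + t') (add_comm_of_comm ht ht') x =
      ptAdd hA (ptSmul hA t ht x) (ptSmul hA t' ht' x) := by
  have h0 : ∀ j, constantCoeff (X j : MvPowerSeries ι (GaloisRep.ratLocalizedAt p)) = 0 :=
    fun j => constantCoeff_X _
  have key := congrArg (fun v : ι → MvPowerSeries ι (GaloisRep.ratLocalizedAt p) =>
    fun i => dEval x (v i)) (hondaSmul_add hA t t' ht ht' (a := fun j => X j) h0)
  beta_reduce at key
  rw [dEval_hondaSmul hA _ _ hx h0,
    dEval_hondaAdd hA hx (constantCoeff_hondaSmul hA t ht h0)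
      (constantCoeff_hondaSmul hA t' ht' h0),
    dEval_hondaSmul hA t ht hx h0, dEval_hondaSmul hA t' ht' hx h0] at key
  simp only [dEval_X] at key
  exact key

theorem ptSmul_one (hA : HondaDatum p A) {x : ι → S} (hx : HasEval x) :
    ptSmul hA 1 (by rw [one_mul, mul_one]) x = x := by
  have h0 : ∀ j, constantCoeff (X j : MvPowerSeries ι (GaloisRep.ratLocalizedAt p)) = 0 :=
    fun j => constantCoeff_X _
  have key := congrArg (fun v : ι → MvPowerSeries ι (GaloisRep.ratLocalizedAt p) =>
    fun i => dEval x (v i)) (hondaSmul_one hA (a := fun j => X j) h0)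
  beta_reduce at key
  rw [dEval_hondaSmul hA _ _ hx h0] at key
  simp only [dEval_X] at key
  exact key

theorem ptSmul_zero_left (hA : HondaDatum p A) {x : ι → S} (hx : HasEval x) :
    ptSmul hA 0 (by rw [zero_mul, mul_zero]) x = 0 := by
  have h0 : ∀ j, constantCoeff (X j : MvPowerSeries ι (GaloisRep.ratLocalizedAt p)) = 0 :=
    fun j => constantCoeff_X _
  have key := congrArg (fun v : ι → MvPowerSeries ι (GaloisRep.ratLocalizedAt p) =>
    fun i => dEval x (v i)) (hondaSmul_zero_left hA (a := fun j => X j) h0)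
  beta_reduce at key
  rw [dEval_hondaSmul hA _ _ hx h0] at key
  simp only [dEval_X, Pi.zero_apply, dEval_zero hx] at key
  exact key

/-! ### the group of points -/

/-- the points of the Honda formal group with values in `S` : vectors of topologically nilpotent
elements, with the group law `x +_F y` -/
structure HondaPts (hA : HondaDatum p A) (S : Type*) [CommRing S] [UniformSpace S] where
  /-- the coordinates -/
  val : ι → S
  /-- the coordinates are topologically nilpotent -/
  hasEval : HasEval val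

namespace HondaPts

variable {hA : HondaDatum p A}

@[ext] theorem ext {x y : HondaPts hA S} (h : x.val = y.val) : x = y := by
  cases x; cases y; cases h; rfl

instance : Zero (HondaPts hA S) := ⟨⟨0, HasEval.zero⟩⟩
instance : Add (HondaPts hA S) := ⟨fun x y => ⟨ptAdd hA x.val y.val, hasEval_ptAdd hA x.2 y.2⟩⟩
instance : Neg (HondaPts hA S) := ⟨fun x => ⟨ptNeg hA x.val, hasEval_ptNeg hA x.2⟩⟩

@[simp] theorem val_zero : (0 : HondaPts hA S).val = 0 := rfl
@[simp] theorem val_add (x y : HondaPts hA S) : (x + y).val = ptAdd hA x.val y.val := rfl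
@[simp] theorem val_neg (x : HondaPts hA S) : (-x).val = ptNeg hA x.val := rfl

instance : AddCommGroup (HondaPts hA S) :=
  { AddGroup.ofLeftAxioms
      (fun x y z => ext (ptAdd_assoc hA x.2 y.2 z.2))
      (fun x => ext (zero_ptAdd hA x.2))
      (fun x => ext (by
        rw [val_add, val_neg, ptAdd_comm hA (hasEval_ptNeg hA x.2) x.2, ptAdd_ptNeg hA x.2]
        rfl)) with
    add_comm := fun x y => ext (ptAdd_comm hA x.2 y.2) }

end HondaPts

namespace HondaPts

variable {hA : HondaDatum p A}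

/-- the endomorphism `[t]` of the group of points -/
def endo (hA : HondaDatum p A) (t : Matrix ι ι ℤ) (ht : t * A p = A p * t) :
    HondaPts hA S →+ HondaPts hA S where
  toFun x := ⟨ptSmul hA t ht x.val, hasEval_ptSmul hA t ht x.2⟩
  map_zero' := by
    have := ptSmul_ptAdd hA t ht (HasEval.zero (S := S) (σ := ι)) HasEval.zero
    rw [ptAdd_zero hA HasEval.zero] at this
    -- `[t]0 = [t]0 +_F [t]0` forces `[t]0 = 0`
    have h2 : (⟨ptSmul hA t ht (0 : ι → S), hasEval_ptSmul hA t ht HasEval.zero⟩ :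
        HondaPts hA S) = ⟨ptSmul hA t ht 0, hasEval_ptSmul hA t ht HasEval.zero⟩ +
          ⟨ptSmul hA t ht 0, hasEval_ptSmul hA t ht HasEval.zero⟩ := ext this
    exact add_eq_left.1 h2.symm
  map_add' x y := ext (ptSmul_ptAdd hA t ht x.2 y.2)

@[simp] theorem val_endo (t : Matrix ι ι ℤ) (ht : t * A p = A p * t) (x : HondaPts hA S) :
    (endo hA t ht x).val = ptSmul hA t ht x.val := rfl

theorem endo_mul (t t' : Matrix ι ι ℤ) (ht : t * A p = A p * t) (ht' : t' * A p = A p * t')
    (x : HondaPts hA S) :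
    endo hA (t * t') (mul_comm_of_comm ht ht') x = endo hA t ht (endo hA t' ht' x) :=
  ext (ptSmul_mul hA t t' ht ht' x.2)

theorem endo_add (t t' : Matrix ι ι ℤ) (ht : t * A p = A p * t) (ht' : t' * A p = A p * t')
    (x : HondaPts hA S) :
    endo hA (t + t') (add_comm_of_comm ht ht') x = endo hA t ht x + endo hA t' ht' x :=
  ext (ptSmul_add hA t t' ht ht' x.2)

theorem endo_one (x : HondaPts hA S) : endo hA 1 (by rw [one_mul, mul_one]) x = x :=
  ext (ptSmul_one hA x.2)

theorem endo_zero (x : HondaPts hA S) : endo hA 0 (by rw [zero_mul, mul_zero]) x = 0 :=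
  ext (ptSmul_zero_left hA x.2)

theorem zsmul_one_comm (n : ℤ) (M : Matrix ι ι ℤ) :
    (n • (1 : Matrix ι ι ℤ)) * M = M * (n • (1 : Matrix ι ι ℤ)) := by
  rw [Matrix.smul_mul, Matrix.mul_smul, Matrix.one_mul, Matrix.mul_one]

theorem endo_congr {t t' : Matrix ι ι ℤ} (h : t = t') (ht : t * A p = A p * t)
    (x : HondaPts hA S) : endo hA t ht x = endo hA t' (h ▸ ht) x := by
  subst h; rfl

/-- `[n] = n •` on the group of points -/
theorem endo_natCast (n : ℕ) (x : HondaPts hA S) :
    endo hA ((n : ℤ) • 1) (zsmul_one_comm _ _) x = n • x := by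
  induction n with
  | zero =>
    rw [zero_smul, endo_congr (by simp : ((0 : ℕ) : ℤ) • (1 : Matrix ι ι ℤ) = 0)]
    exact endo_zero x
  | succ n ih =>
    rw [succ_nsmul, ← ih,
      endo_congr (by push_cast; rw [add_smul, one_smul] :
        ((n + 1 : ℕ) : ℤ) • (1 : Matrix ι ι ℤ) = (n : ℤ) • 1 + 1),
      endo_add _ _ (zsmul_one_comm _ _) (by rw [one_mul, mul_one]), endo_one]

theorem endo_neg_one (x : HondaPts hA S) :
    endo hA (-1) (neg_one_mul_comm _) x = -x := rfl

theorem endo_intCast (n : ℤ) (x : HondaPts hA S) :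
    endo hA (n • 1) (zsmul_one_comm _ _) x = n • x := by
  cases n with
  | ofNat n =>
    exact (endo_natCast n x).trans (natCast_zsmul x n).symm
  | negSucc n =>
    have e : (Int.negSucc n) • (1 : Matrix ι ι ℤ) = (-1) * ((((n + 1 : ℕ)) : ℤ) • 1) := by
      rw [Int.negSucc_eq, neg_smul, neg_mul, one_mul]
      push_cast
      rfl
    rw [endo_congr e, endo_mul _ _ (neg_one_mul_comm _) (zsmul_one_comm _ _), endo_neg_one,
      endo_natCast, negSucc_zsmul]

end HondaPts

/-! ### functoriality -/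

/-- ring homomorphisms out of `ℤ_(p)` are unique -/
theorem ratLoc_ringHom_ext {T : Type*} [Semiring T]
    (f g : GaloisRep.ratLocalizedAt p →+* T) : f = g :=
  IsLocalization.ringHom_ext (Igusa.ellIdeal p).primeCompl (RingHom.ext_int _ _)

section functoriality

variable {T : Type*} [CommRing T] [UniformSpace T] [IsUniformAddGroup T] [CompleteSpace T]
  [T2Space T] [IsTopologicalRing T] [IsLinearTopology T T]
  [Algebra (GaloisRep.ratLocalizedAt p) T]

/-- evaluation of series over `ℤ_(p)` commutes with every continuous ring homomorphism -/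
theorem ringHom_dEval {κ : Type*} (ε : S →+* T) (hε : Continuous ε) {a : κ → S} (ha : HasEval a)
    (f : MvPowerSeries κ (GaloisRep.ratLocalizedAt p)) :
    ε (dEval a f) = dEval (fun s => ε (a s)) f := by
  have h := map_dEval (RingHom.id _) ε hε
    (fun r => by
      have := ratLoc_ringHom_ext (ε.comp (algebraMap (GaloisRep.ratLocalizedAt p) S))
        (algebraMap (GaloisRep.ratLocalizedAt p) T)
      exact congrArg (fun φ => φ r) this) ha f
  rwa [MvPowerSeries.map_id] at h

theorem map_ptAdd (hA : HondaDatum p A) (ε : S →+* T) (hε : Continuous ε) {x y : ι → S}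
    (hx : HasEval x) (hy : HasEval y) :
    (fun i => ε (ptAdd hA x y i)) = ptAdd hA (fun i => ε (x i)) (fun i => ε (y i)) := by
  ext1 i
  rw [ptAdd, ringHom_dEval ε hε (hasEval_sumElim hx hy), ptAdd]
  congr 1
  funext k
  cases k <;> rfl

theorem map_ptSmul (hA : HondaDatum p A) (t : Matrix ι ι ℤ) (ht : t * A p = A p * t)
    (ε : S →+* T) (hε : Continuous ε) {x : ι → S} (hx : HasEval x) :
    (fun i => ε (ptSmul hA t ht x i)) = ptSmul hA t ht (fun i => ε (x i)) := by
  ext1 i
  rw [ptSmul, ringHom_dEval ε hε hx, ptSmul]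

/-- functoriality of the group of points in the ring of values -/
def HondaPts.map (hA : HondaDatum p A) (ε : S →+* T) (hε : Continuous ε) :
    HondaPts hA S →+ HondaPts hA T where
  toFun x := ⟨fun i => ε (x.val i), x.2.map hε⟩
  map_zero' := HondaPts.ext (by funext i; simp)
  map_add' x y := HondaPts.ext (map_ptAdd hA ε hε x.2 y.2)

@[simp] theorem HondaPts.val_map (hA : HondaDatum p A) (ε : S →+* T) (hε : Continuous ε)
    (x : HondaPts hA S) (i : ι) : (HondaPts.map hA ε hε x).val i = ε (x.val i) := rfl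

theorem HondaPts.map_endo (hA : HondaDatum p A) (t : Matrix ι ι ℤ) (ht : t * A p = A p * t)
    (ε : S →+* T) (hε : Continuous ε) (x : HondaPts hA S) :
    HondaPts.map hA ε hε (HondaPts.endo hA t ht x) =
      HondaPts.endo hA t ht (HondaPts.map hA ε hε x) :=
  HondaPts.ext (map_ptSmul hA t ht ε hε x.2)

theorem HondaPts.map_injective (hA : HondaDatum p A) (ε : S →+* T) (hε : Continuous ε)
    (hinj : Function.Injective ε) : Function.Injective (HondaPts.map hA ε hε) := by
  intro x y h
  apply HondaPts.ext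
  funext i
  exact hinj (congrFun (congrArg HondaPts.val h) i)

end functoriality

end

end Fermat.Agent.FG
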