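/-
[EVAL] for S19/S32 (helper2), part 5: the Honda formal group on the open unit polydisc of a complete
ultrametric normed field `K` with `‖p‖ < 1`.

* `norm_intCast_eq_one_of_not_dvd`, `ratLocToBall K hpK : ℤ_(p) →+* unitBall K`,
  `algebraRatLocBall K hpK : Algebra ℤ_(p) (unitBall K)` (not an instance; `letI`);
* `le_order_hondaF_sub`, `le_order_hondaEnd_sub` (linear terms of `F` and `[t]`);
* `norm_ptAdd_le`, `norm_ptAdd_sub_le` (`x +_F y ≡ x + y mod r²`), `norm_ptSmul_le`,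
  `norm_ptSmul_sub_le`; `HondaPts.ballSubgroup hA r`, `HondaPts.ofNormLt`, `HondaPts.norm_val_lt`.
-/
import Mathlib
import Fermat.Agent.FG.EVAL_helper2_Est
import Fermat.Agent.FG.EVAL_helper2_Pts

set_option autoImplicit false
set_option linter.unusedSectionVars false

namespace Fermat.Agent.FG

open MvPowerSeries Filter Topology

noncomputable section

variable {K : Type*} [NormedField K] [IsUltrametricDist K]

/-- integers prime to `p` have norm one as soon as `‖p‖ < 1` -/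
theorem norm_intCast_eq_one_of_not_dvd {p : ℕ} [hp : Fact p.Prime] (hpK : ‖(p : K)‖ < 1) {n : ℤ}
    (hn : ¬ (p : ℤ) ∣ n) : ‖(n : K)‖ = 1 := by
  refine le_antisymm (IsUltrametricDist.norm_intCast_le_one K n) ?_
  have hcop : IsCoprime n (p : ℤ) := by
    rw [isCoprime_comm]
    exact (Nat.prime_iff_prime_int.1 hp.out).coprime_iff_not_dvd.2 hn
  obtain ⟨u, v, huv⟩ := hcop
  have h1 : (u : K) * n + v * p = 1 := by exact_mod_cast congrArg (Int.cast : ℤ → K) huv
  by_contra hlt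
  rw [not_le] at hlt
  have h2 : ‖(u : K) * n + v * p‖ < 1 := by
    refine lt_of_le_of_lt (IsUltrametricDist.norm_add_le_max _ _) (max_lt ?_ ?_)
    · rw [norm_mul]
      calc ‖(u : K)‖ * ‖(n : K)‖ ≤ 1 * ‖(n : K)‖ :=
            mul_le_mul_of_nonneg_right (IsUltrametricDist.norm_intCast_le_one K u) (norm_nonneg _)
        _ < 1 := by rwa [one_mul]
    · rw [norm_mul]
      calc ‖(v : K)‖ * ‖(p : K)‖ ≤ 1 * ‖(p : K)‖ :=
            mul_le_mul_of_nonneg_right (IsUltrametricDist.norm_intCast_le_one K v) (norm_nonneg _)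
        _ < 1 := by rwa [one_mul]
  rw [h1, norm_one] at h2
  exact lt_irrefl _ h2

/-- the canonical map `ℤ_(p) → unitBall K` when `‖p‖ < 1` -/
def ratLocToBall (K : Type*) [NormedField K] [IsUltrametricDist K] {p : ℕ} [hp : Fact p.Prime]
    (hpK : ‖(p : K)‖ < 1) : GaloisRep.ratLocalizedAt p →+* unitBall K :=
  IsLocalization.lift (M := (Igusa.ellIdeal p).primeCompl) (g := Int.castRingHom (unitBall K))
    (fun y => by
      have hy : ¬ (p : ℤ) ∣ (y : ℤ) := by
        have := y.2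
        rwa [Ideal.mem_primeCompl_iff, Ideal.mem_span_singleton] at this
      have h1 := norm_intCast_eq_one_of_not_dvd hpK hy
      have hne : ((y : ℤ) : K) ≠ 0 := fun h0 => by rw [h0, norm_zero] at h1; exact zero_ne_one h1
      refine IsUnit.of_mul_eq_one ⟨((y : ℤ) : K)⁻¹, ?_⟩ ?_
      · rw [mem_unitBall_iff, norm_inv, h1, inv_one]
      · apply Subtype.ext
        simp [mul_inv_cancel₀ hne])

/-- the `ℤ_(p)`-algebra structure on `unitBall K` when `‖p‖ < 1` (not an instance) -/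
abbrev algebraRatLocBall (K : Type*) [NormedField K] [IsUltrametricDist K] {p : ℕ}
    [Fact p.Prime] (hpK : ‖(p : K)‖ < 1) : Algebra (GaloisRep.ratLocalizedAt p) (unitBall K) :=
  (ratLocToBall K hpK).toAlgebra

/-! ### the Honda group on the open unit polydisc -/

section honda

variable [CompleteSpace K] {p : ℕ} [hp : Fact p.Prime]
  [Algebra (GaloisRep.ratLocalizedAt p) (unitBall K)]
  {ι : Type*} [Fintype ι] [DecidableEq ι] {A : ℕ → Matrix ι ι ℤ}

theorem hondaAdd_X (hA : HondaDatum p A) :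
    hondaAdd hA (fun j => (X (Sum.inl j) : MvPowerSeries (ι ⊕ ι) (GaloisRep.ratLocalizedAt p)))
      (fun j => X (Sum.inr j)) = hondaF hA := by
  ext1 i
  rw [hondaAdd_apply]
  have : (Sum.elim (fun j => (X (Sum.inl j) : MvPowerSeries (ι ⊕ ι) (GaloisRep.ratLocalizedAt p)))
      (fun j => X (Sum.inr j))) = X := by
    funext k
    cases k <;> rfl
  rw [this, subst_self]
  rfl

theorem hondaSmul_X (hA : HondaDatum p A) (t : Matrix ι ι ℤ) (ht : t * A p = A p * t) :
    hondaSmul hA t ht (fun j => (X j : MvPowerSeries ι (GaloisRep.ratLocalizedAt p))) =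
      hondaEnd hA t ht := by
  ext1 i
  rw [hondaSmul_apply]
  have : (fun j => (X j : MvPowerSeries ι (GaloisRep.ratLocalizedAt p))) = X := rfl
  rw [this, subst_self]
  rfl

/-- `F(X, Y) ≡ X + Y` modulo degree `≥ 2` -/
theorem le_order_hondaF_sub (hA : HondaDatum p A) (i : ι) :
    (2 : ℕ∞) ≤ (hondaF hA i - (X (Sum.inl i) + X (Sum.inr i))).order := by
  have := le_order_hondaAdd_sub hA
    (a := fun j => (X (Sum.inl j) : MvPowerSeries (ι ⊕ ι) (GaloisRep.ratLocalizedAt p)))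
    (b := fun j => X (Sum.inr j)) (fun _ => constantCoeff_X _) (fun _ => constantCoeff_X _) i
  rwa [hondaAdd_X] at this

/-- `[t](X) ≡ t · X` modulo degree `≥ 2` -/
theorem le_order_hondaEnd_sub (hA : HondaDatum p A) (t : Matrix ι ι ℤ) (ht : t * A p = A p * t)
    (i : ι) :
    (2 : ℕ∞) ≤ (hondaEnd hA t ht i -
      ∑ j, ((t i j : ℤ) : MvPowerSeries ι (GaloisRep.ratLocalizedAt p)) * X j).order := by
  have := le_order_hondaSmul_sub hA t ht
    (a := fun j => (X j : MvPowerSeries ι (GaloisRep.ratLocalizedAt p)))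
    (fun _ => constantCoeff_X _) i
  rwa [hondaSmul_X] at this

theorem hasEval_of_norm_le {κ : Type*} [Finite κ] {x : κ → unitBall K} {r : ℝ} (hr : r < 1)
    (hx : ∀ k, ‖(x k : K)‖ ≤ r) : HasEval x :=
  hasEval_unitBall fun k => lt_of_le_of_lt (hx k) hr

theorem norm_sumElim_le {x y : ι → unitBall K} {r : ℝ} (hx : ∀ i, ‖(x i : K)‖ ≤ r)
    (hy : ∀ i, ‖(y i : K)‖ ≤ r) (k : ι ⊕ ι) : ‖((Sum.elim x y k : unitBall K) : K)‖ ≤ r := by
  cases k with
  | inl j => exact hx j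
  | inr j => exact hy j

/-- `x +_F y ≡ x + y` modulo `r²` on the polydisc of radius `r` -/
theorem norm_ptAdd_sub_le (hA : HondaDatum p A) {x y : ι → unitBall K} {r : ℝ} (hr0 : 0 ≤ r)
    (hr1 : r < 1) (hx : ∀ i, ‖(x i : K)‖ ≤ r) (hy : ∀ i, ‖(y i : K)‖ ≤ r) (i : ι) :
    ‖((ptAdd hA x y i : unitBall K) : K) - ((x i : K) + y i)‖ ≤ r ^ 2 := by
  have hw : HasEval (Sum.elim x y) := hasEval_of_norm_le hr1 (norm_sumElim_le hx hy)
  have := norm_dEval_sub_le_pow hw hr0 hr1.le (norm_sumElim_le hx hy) (d := 2)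
    (by exact_mod_cast le_order_hondaF_sub hA i)
  rwa [dEval_add hw, dEval_X, dEval_X, Sum.elim_inl, Sum.elim_inr, Subring.coe_add] at this

/-- `‖x +_F y‖ ≤ r` on the polydisc of radius `r` -/
theorem norm_ptAdd_le (hA : HondaDatum p A) {x y : ι → unitBall K} {r : ℝ} (hr0 : 0 ≤ r)
    (hr1 : r < 1) (hx : ∀ i, ‖(x i : K)‖ ≤ r) (hy : ∀ i, ‖(y i : K)‖ ≤ r) (i : ι) :
    ‖((ptAdd hA x y i : unitBall K) : K)‖ ≤ r := by
  have hw : HasEval (Sum.elim x y) := hasEval_of_norm_le hr1 (norm_sumElim_le hx hy)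
  have := norm_dEval_le_pow hw hr0 hr1.le (norm_sumElim_le hx hy) (d := 1)
    (f := hondaF hA i) (by
      rw [Nat.cast_one]
      exact one_le_order_iff_constCoeff_eq_zero.2 (constantCoeff_hondaF hA i))
  rwa [pow_one] at this

/-- `‖[t] x‖ ≤ r` on the polydisc of radius `r` -/
theorem norm_ptSmul_le (hA : HondaDatum p A) (t : Matrix ι ι ℤ) (ht : t * A p = A p * t)
    {x : ι → unitBall K} {r : ℝ} (hr0 : 0 ≤ r) (hr1 : r < 1) (hx : ∀ i, ‖(x i : K)‖ ≤ r) (i : ι) :
    ‖((ptSmul hA t ht x i : unitBall K) : K)‖ ≤ r := by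
  have hw : HasEval x := hasEval_of_norm_le hr1 hx
  have := norm_dEval_le_pow hw hr0 hr1.le hx (d := 1)
    (f := hondaEnd hA t ht i) (by
      rw [Nat.cast_one]
      exact one_le_order_iff_constCoeff_eq_zero.2 (constantCoeff_hondaEnd hA t ht i))
  rwa [pow_one] at this

/-- `[t] x ≡ t · x` modulo `r²` on the polydisc of radius `r` -/
theorem norm_ptSmul_sub_le (hA : HondaDatum p A) (t : Matrix ι ι ℤ) (ht : t * A p = A p * t)
    {x : ι → unitBall K} {r : ℝ} (hr0 : 0 ≤ r) (hr1 : r < 1) (hx : ∀ i, ‖(x i : K)‖ ≤ r) (i : ι) :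
    ‖((ptSmul hA t ht x i : unitBall K) : K) - ∑ j, ((t i j : ℤ) : K) * (x j : K)‖ ≤ r ^ 2 := by
  have hw : HasEval x := hasEval_of_norm_le hr1 hx
  have := norm_dEval_sub_le_pow hw hr0 hr1.le hx (d := 2)
    (by exact_mod_cast le_order_hondaEnd_sub hA t ht i)
  rw [dEval_sum hw] at this
  simp only [dEval_mul hw, dEval_X, dEval_intCast hw] at this
  rw [ptSmul]
  simpa using this

/-- the points of norm `≤ r` form a subgroup -/
def HondaPts.ballSubgroup (hA : HondaDatum p A) (r : ℝ) (hr0 : 0 ≤ r) (hr1 : r < 1) :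
    AddSubgroup (HondaPts hA (unitBall K)) where
  carrier := {x | ∀ i, ‖(x.val i : K)‖ ≤ r}
  add_mem' {x y} hx hy i := norm_ptAdd_le hA hr0 hr1 hx hy i
  zero_mem' i := by simpa using hr0
  neg_mem' {x} hx i := norm_ptSmul_le hA _ _ hr0 hr1 hx i

theorem HondaPts.mem_ballSubgroup (hA : HondaDatum p A) {r : ℝ} {hr0 : 0 ≤ r} {hr1 : r < 1}
    {x : HondaPts hA (unitBall K)} :
    x ∈ HondaPts.ballSubgroup hA r hr0 hr1 ↔ ∀ i, ‖(x.val i : K)‖ ≤ r := Iff.rfl

/-- a point of `𝔪_K^ι` as a point of the Honda group -/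
def HondaPts.ofNormLt (hA : HondaDatum p A) (x : ι → K) (hx : ∀ i, ‖x i‖ < 1) :
    HondaPts hA (unitBall K) :=
  ⟨fun i => ⟨x i, (hx i).le⟩, hasEval_unitBall hx⟩

theorem HondaPts.norm_val_lt (hA : HondaDatum p A) (x : HondaPts hA (unitBall K)) (i : ι) :
    ‖(x.val i : K)‖ < 1 := hasEval_unitBall_iff.1 x.2 i

end honda

end

end Fermat.Agent.FG
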