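/-
(E3) formal inverse function theorem for S19/S32 (helper2), part 1: order estimates for
substitutions of multivariate power series over an ARBITRARY commutative ring `R`.

* `ordR_*` : bookkeeping for lower bounds `(a : ℕ∞) ≤ f.order` with natural number `a`;
* `ordR_finsuppProd`, `ordR_finsuppProd_sub` : monomials in families of series;
* `ordR_subst`, `ordR_subst_sub_subst` : `order g ≥ m`, `a ≡ b` mod degree `≥ d` (both without
  constant terms) imply `g(a) ≡ g(b)` mod degree `≥ d + (m - 1)`;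
* `linPart f`, `ordR_sub_linPart` : `f - f(0) - (linear part)` has order `≥ 2`;
* `ordR_subst_sub_subst_sub_lin` : first order expansion
  `f(a) - f(b) ≡ ∑ j, (∂f/∂X_j)(0) (a_j - b_j)` mod degree `≥ d + 1`.
-/
import Mathlib

set_option autoImplicit false
set_option linter.unusedSectionVars false

namespace Fermat.Agent.FG

open MvPowerSeries

noncomputable section

variable {σ τ : Type*} {R : Type*} [CommRing R]

/-! ### order bookkeeping with natural number bounds, arbitrary coefficients -/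

theorem ordR_add {f g : MvPowerSeries τ R} {a : ℕ} (hf : (a : ℕ∞) ≤ f.order)
    (hg : (a : ℕ∞) ≤ g.order) : (a : ℕ∞) ≤ (f + g).order :=
  (le_min hf hg).trans min_order_le_add

theorem ordR_neg {f : MvPowerSeries τ R} {a : ℕ} (hf : (a : ℕ∞) ≤ f.order) :
    (a : ℕ∞) ≤ (-f).order := by rwa [order_neg]

theorem ordR_sub {f g : MvPowerSeries τ R} {a : ℕ} (hf : (a : ℕ∞) ≤ f.order)
    (hg : (a : ℕ∞) ≤ g.order) : (a : ℕ∞) ≤ (f - g).order := by
  rw [sub_eq_add_neg]
  exact ordR_add hf (ordR_neg hg)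

theorem ordR_zero (a : ℕ) : (a : ℕ∞) ≤ (0 : MvPowerSeries τ R).order := by simp

theorem ordR_sum {κ : Type*} {s : Finset κ} {f : κ → MvPowerSeries τ R} {a : ℕ}
    (h : ∀ i ∈ s, (a : ℕ∞) ≤ (f i).order) : (a : ℕ∞) ≤ (∑ i ∈ s, f i).order := by
  classical
  induction s using Finset.induction_on with
  | empty => simp
  | insert i s hi ih =>
    rw [Finset.sum_insert hi]
    exact ordR_add (h i (Finset.mem_insert_self _ _))
      (ih fun j hj => h j (Finset.mem_insert_of_mem hj))

theorem ordR_mul {f g : MvPowerSeries τ R} {a b : ℕ} (hf : (a : ℕ∞) ≤ f.order)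
    (hg : (b : ℕ∞) ≤ g.order) : ((a + b : ℕ) : ℕ∞) ≤ (f * g).order := by
  rw [Nat.cast_add]
  exact (add_le_add hf hg).trans le_order_mul

theorem ordR_mul_left {f : MvPowerSeries τ R} {a : ℕ} (g : MvPowerSeries τ R)
    (hf : (a : ℕ∞) ≤ f.order) : (a : ℕ∞) ≤ (g * f).order := by
  have := ordR_mul (a := 0) (f := g) (by simp) hf
  simpa using this

theorem ordR_mul_right {f : MvPowerSeries τ R} {a : ℕ} (g : MvPowerSeries τ R)
    (hf : (a : ℕ∞) ≤ f.order) : (a : ℕ∞) ≤ (f * g).order := by
  rw [mul_comm]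
  exact ordR_mul_left g hf

theorem ordR_pow {f : MvPowerSeries τ R} {a : ℕ} (hf : (a : ℕ∞) ≤ f.order) (n : ℕ) :
    ((n * a : ℕ) : ℕ∞) ≤ (f ^ n).order := by
  refine le_trans ?_ (le_order_pow n)
  rw [Nat.cast_mul, nsmul_eq_mul]
  gcongr

theorem ordR_mono {f : MvPowerSeries τ R} {a b : ℕ} (hab : a ≤ b)
    (hf : (b : ℕ∞) ≤ f.order) : (a : ℕ∞) ≤ f.order :=
  le_trans (by exact_mod_cast hab) hf

theorem coeff_eq_zero_of_ordR {f : MvPowerSeries τ R} {a : ℕ} (hf : (a : ℕ∞) ≤ f.order)
    {e : τ →₀ ℕ} (he : e.degree < a) : coeff e f = 0 :=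
  coeff_of_lt_order (lt_of_lt_of_le (by exact_mod_cast he) hf)

theorem ordR_iff {f : MvPowerSeries τ R} {a : ℕ} :
    (a : ℕ∞) ≤ f.order ↔ ∀ e : τ →₀ ℕ, e.degree < a → coeff e f = 0 :=
  ⟨fun h _ he => coeff_eq_zero_of_ordR h he, fun h => nat_le_order h⟩

theorem eq_zero_of_forall_ordR {f : MvPowerSeries τ R} (h : ∀ a : ℕ, (a : ℕ∞) ≤ f.order) :
    f = 0 := by
  rw [← order_eq_top_iff]
  exact ENat.eq_top_iff_forall_ge.2 h

theorem one_ordR_iff {f : MvPowerSeries τ R} :
    ((1 : ℕ) : ℕ∞) ≤ f.order ↔ constantCoeff f = 0 := by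
  rw [Nat.cast_one]
  exact one_le_order_iff_constCoeff_eq_zero

theorem ordR_C_mul {f : MvPowerSeries τ R} {a : ℕ} (c : R) (hf : (a : ℕ∞) ≤ f.order) :
    (a : ℕ∞) ≤ (C c * f).order := ordR_mul_left _ hf

/-- order of a difference of powers -/
theorem ordR_pow_sub_pow {f g : MvPowerSeries τ R} {d : ℕ} (hf : ((1 : ℕ) : ℕ∞) ≤ f.order)
    (hg : ((1 : ℕ) : ℕ∞) ≤ g.order) (hfg : (d : ℕ∞) ≤ (f - g).order) (n : ℕ) :
    ((d + (n - 1) : ℕ) : ℕ∞) ≤ (f ^ n - g ^ n).order := by
  rw [← geom_sum₂_mul, add_comm d]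
  refine ordR_mul ?_ hfg
  refine ordR_sum fun i hi => ?_
  rw [Finset.mem_range] at hi
  have h1 := ordR_mul (ordR_pow hf i) (ordR_pow hg (n - 1 - i))
  refine ordR_mono ?_ h1
  omega

/-! ### monomials in families of series -/

theorem finsuppProd_single_add {M : Type*} [CommMonoid M] (a : σ → M) (j : σ) (k : ℕ)
    (e : σ →₀ ℕ) :
    ((Finsupp.single j k + e).prod fun s n => a s ^ n) = a j ^ k * e.prod fun s n => a s ^ n := by
  classical
  rw [Finsupp.prod_add_index' (h := fun s n => a s ^ n) (fun _ => pow_zero _)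
    (fun _ _ _ => pow_add _ _ _),
    Finsupp.prod_single_index (h := fun s n => a s ^ n) (pow_zero _)]

/-- a monomial of degree `|e|` in series without constant terms has order `≥ |e|` -/
theorem ordR_finsuppProd {a : σ → MvPowerSeries τ R} (ha : ∀ s, ((1 : ℕ) : ℕ∞) ≤ (a s).order)
    (e : σ →₀ ℕ) : ((e.degree : ℕ) : ℕ∞) ≤ (e.prod fun s n => a s ^ n).order := by
  classical
  induction e using Finsupp.induction with
  | zero => simp
  | single_add j k e' hj hk ih =>
    rw [finsuppProd_single_add, map_add, Finsupp.degree_single]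
    refine ordR_mul ?_ ih
    simpa using ordR_pow (ha j) k

/-- difference of two monomials in families of series which agree up to degree `d` -/
theorem ordR_finsuppProd_sub {a b : σ → MvPowerSeries τ R}
    (ha : ∀ s, ((1 : ℕ) : ℕ∞) ≤ (a s).order) (hb : ∀ s, ((1 : ℕ) : ℕ∞) ≤ (b s).order) {d : ℕ}
    (hab : ∀ s, (d : ℕ∞) ≤ (a s - b s).order) (e : σ →₀ ℕ) :
    ((d + (e.degree - 1) : ℕ) : ℕ∞) ≤
      ((e.prod fun s n => a s ^ n) - (e.prod fun s n => b s ^ n)).order := by
  classical
  induction e using Finsupp.induction with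
  | zero => simp
  | single_add j k e' hj hk ih =>
    rw [finsuppProd_single_add, finsuppProd_single_add, map_add, Finsupp.degree_single]
    have h1 : a j ^ k * (e'.prod fun s n => a s ^ n) - b j ^ k * (e'.prod fun s n => b s ^ n) =
        (a j ^ k - b j ^ k) * (e'.prod fun s n => a s ^ n) +
          b j ^ k * ((e'.prod fun s n => a s ^ n) - (e'.prod fun s n => b s ^ n)) := by ring
    rw [h1]
    have hk1 : 1 ≤ k := Nat.one_le_iff_ne_zero.2 hk
    refine ordR_add ?_ ?_
    · refine ordR_mono ?_ (ordR_mul (ordR_pow_sub_pow (ha j) (hb j) (hab j) k)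
        (ordR_finsuppProd ha e'))
      omega
    · refine ordR_mono ?_ (ordR_mul (ordR_pow (hb j) k) ih)
      omega

/-! ### substitution -/

section subst

variable [Finite σ]

theorem hasSubst_of_ordR {a : σ → MvPowerSeries τ R} (ha : ∀ s, ((1 : ℕ) : ℕ∞) ≤ (a s).order) :
    HasSubst a :=
  hasSubst_of_constantCoeff_zero fun s => one_ordR_iff.1 (ha s)

/-- `order g ≥ m` and `a` without constant terms imply `order g(a) ≥ m` -/
theorem ordR_subst {a : σ → MvPowerSeries τ R} (ha : ∀ s, ((1 : ℕ) : ℕ∞) ≤ (a s).order)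
    {g : MvPowerSeries σ R} {m : ℕ} (hg : (m : ℕ∞) ≤ g.order) :
    (m : ℕ∞) ≤ (g.subst a).order := by
  refine nat_le_order fun n hn => ?_
  rw [coeff_subst (hasSubst_of_ordR ha)]
  refine finsum_eq_zero_of_forall_eq_zero fun e => ?_
  by_cases he : e.degree < m
  · rw [coeff_eq_zero_of_ordR hg he, zero_smul]
  · rw [coeff_eq_zero_of_ordR (ordR_finsuppProd ha e) (lt_of_lt_of_le hn (not_lt.1 he)),
      smul_zero]

/-- `order g ≥ m`, `a ≡ b` mod degree `≥ d` imply `g(a) ≡ g(b)` mod degree `≥ d + (m - 1)` -/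
theorem ordR_subst_sub_subst {a b : σ → MvPowerSeries τ R}
    (ha : ∀ s, ((1 : ℕ) : ℕ∞) ≤ (a s).order) (hb : ∀ s, ((1 : ℕ) : ℕ∞) ≤ (b s).order) {d : ℕ}
    (hab : ∀ s, (d : ℕ∞) ≤ (a s - b s).order) {g : MvPowerSeries σ R} {m : ℕ}
    (hg : (m : ℕ∞) ≤ g.order) :
    ((d + (m - 1) : ℕ) : ℕ∞) ≤ (g.subst a - g.subst b).order := by
  refine nat_le_order fun n hn => ?_
  rw [map_sub, coeff_subst (hasSubst_of_ordR ha), coeff_subst (hasSubst_of_ordR hb),
    ← finsum_sub_distrib (coeff_subst_finite (hasSubst_of_ordR ha) g n)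
      (coeff_subst_finite (hasSubst_of_ordR hb) g n)]
  refine finsum_eq_zero_of_forall_eq_zero fun e => ?_
  rw [← smul_sub, ← map_sub]
  by_cases he : e.degree < m
  · rw [coeff_eq_zero_of_ordR hg he, zero_smul]
  · rw [coeff_eq_zero_of_ordR (ordR_finsuppProd_sub ha hb hab e) (by omega), smul_zero]

end subst

/-! ### linear parts and the first order expansion -/

theorem exists_eq_single_of_degree_eq_one {e : σ →₀ ℕ} (he : e.degree = 1) :
    ∃ j, e = Finsupp.single j 1 := by
  classical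
  have hne : e ≠ 0 := by
    rintro rfl
    simp at he
  obtain ⟨j, hj⟩ : ∃ j, e j ≠ 0 := by
    by_contra h
    push Not at h
    exact hne (Finsupp.ext h)
  refine ⟨j, ?_⟩
  have h1 := Finsupp.single_add_erase j e
  have h2 : (Finsupp.single j (e j)).degree + (e.erase j).degree = 1 := by
    rw [← map_add, h1, he]
  rw [Finsupp.degree_single] at h2
  have h3 : e j = 1 := by omega
  have h4 : (e.erase j).degree = 0 := by omega
  rw [Finsupp.degree_eq_zero_iff] at h4
  rw [← h1, h4, add_zero, h3]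

section lin

variable [Fintype σ]

/-- the linear part of a power series -/
def linPart (f : MvPowerSeries σ R) : MvPowerSeries σ R :=
  ∑ j, C (coeff (Finsupp.single j 1) f) * X j

theorem coeff_single_linPart (f : MvPowerSeries σ R) (j : σ) :
    coeff (Finsupp.single j 1) (linPart f) = coeff (Finsupp.single j 1) f := by
  classical
  rw [linPart, map_sum, Finset.sum_eq_single j]
  · rw [coeff_C_mul, coeff_X, if_pos rfl, mul_one]
  · intro k _ hk
    rw [coeff_C_mul, coeff_X, if_neg, mul_zero]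
    intro h
    exact hk (Finsupp.single_left_injective one_ne_zero h).symm
  · intro h
    exact absurd (Finset.mem_univ j) h

theorem constantCoeff_linPart (f : MvPowerSeries σ R) : constantCoeff (linPart f) = 0 := by
  rw [linPart, map_sum]
  refine Finset.sum_eq_zero fun j _ => ?_
  rw [map_mul, constantCoeff_X, mul_zero]

/-- `f - f(0) - (linear part)` has order `≥ 2` -/
theorem ordR_sub_linPart (f : MvPowerSeries σ R) :
    ((2 : ℕ) : ℕ∞) ≤ (f - C (constantCoeff f) - linPart f).order := by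
  classical
  refine nat_le_order fun e he => ?_
  have he' : e.degree = 0 ∨ e.degree = 1 := by omega
  rcases he' with h0 | h1
  · rw [Finsupp.degree_eq_zero_iff] at h0
    subst h0
    rw [coeff_zero_eq_constantCoeff_apply, map_sub, map_sub, constantCoeff_C,
      constantCoeff_linPart, sub_self, sub_zero]
  · obtain ⟨j, rfl⟩ := exists_eq_single_of_degree_eq_one h1
    rw [map_sub, map_sub, coeff_single_linPart, coeff_C, if_neg, sub_zero, sub_self]
    intro h
    have := DFunLike.congr_fun h j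
    simp at this

theorem subst_linPart {a : σ → MvPowerSeries τ R} (ha : HasSubst a) (f : MvPowerSeries σ R) :
    (linPart f).subst a = ∑ j, C (coeff (Finsupp.single j 1) f) * a j := by
  rw [linPart, ← substAlgHom_apply ha, map_sum]
  refine Finset.sum_congr rfl fun j _ => ?_
  rw [map_mul, substAlgHom_apply, substAlgHom_apply, subst_X ha, subst_C]

/-- first order expansion: `f(a) - f(b) ≡ ∑ j, (∂f/∂X_j)(0) (a_j - b_j)` mod degree `≥ d + 1` -/
theorem ordR_subst_sub_subst_sub_lin {a b : σ → MvPowerSeries τ R}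
    (ha : ∀ s, ((1 : ℕ) : ℕ∞) ≤ (a s).order) (hb : ∀ s, ((1 : ℕ) : ℕ∞) ≤ (b s).order) {d : ℕ}
    (hab : ∀ s, (d : ℕ∞) ≤ (a s - b s).order) (f : MvPowerSeries σ R) :
    ((d + 1 : ℕ) : ℕ∞) ≤ (f.subst a - f.subst b -
      ∑ j, C (coeff (Finsupp.single j 1) f) * (a j - b j)).order := by
  have hsa := hasSubst_of_ordR ha
  have hsb := hasSubst_of_ordR hb
  set g := f - C (constantCoeff f) - linPart f with hg
  have hf : f = g + C (constantCoeff f) + linPart f := by rw [hg]; ring
  have h1 := ordR_subst_sub_subst ha hb hab (ordR_sub_linPart f)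
  have h2 : f.subst a - f.subst b - ∑ j, C (coeff (Finsupp.single j 1) f) * (a j - b j) =
      g.subst a - g.subst b := by
    conv_lhs => rw [hf]
    rw [subst_add hsa, subst_add hsa, subst_add hsb, subst_add hsb, subst_C, subst_C,
      subst_linPart hsa, subst_linPart hsb]
    have h3 : linPart (g + C (constantCoeff f) + linPart f) = linPart f := by rw [← hf]
    simp only [mul_sub, Finset.sum_sub_distrib]
    have h4 : ∀ j, coeff (Finsupp.single j 1) (g + C (constantCoeff f) + linPart f) =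
        coeff (Finsupp.single j 1) f := fun j => by rw [← hf]
    simp only [h4]
    ring
  rw [h2]
  exact h1

end lin

end

end Fermat.Agent.FG
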