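/-
(E3) formal inverse function theorem for S19/S32 (helper2), part 2.

`R` an arbitrary commutative ring, `ι` a finite index type, `u : ι → MvPowerSeries ι R` a vector
of power series without constant terms whose Jacobian matrix at the origin
`jacZero u = (∂u_i/∂X_j (0))` is invertible.  Then `u` has a two-sided inverse
`iftInv u Jinv` for the composition `vSubst u a = fun i => (u i).subst a`:

* `OrdV d v` : all components of `v` have order `≥ d`; `matAct M w` : a matrix of constants acting
  on a vector of series;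
* `ordV_vSubst_sub_sub_lin` : first order expansion of `u ∘ a - u ∘ b`;
* `vSubst_injective` : `u ∘ a = u ∘ b → a = b` if `jacZero u` has a left inverse;
* `vSubst_iftInv` : `u ∘ iftInv u Jinv = X`,  `iftInv_vSubst` : `iftInv u Jinv ∘ u = X`;
* `jacZero_vSubst` (chain rule at the origin), `jacZero_iftInv`.
-/
import Mathlib
import Fermat.Agent.FG.IFT_helper2_Ord

set_option autoImplicit false
set_option linter.unusedSectionVars false

namespace Fermat.Agent.FG

open MvPowerSeries

noncomputable section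

variable {ι κ τ : Type*} {R : Type*} [CommRing R]

/-! ### vectors of power series -/

/-- all components have order `≥ d` -/
def OrdV (d : ℕ) (v : κ → MvPowerSeries τ R) : Prop := ∀ j, (d : ℕ∞) ≤ (v j).order

theorem OrdV.mono {d d' : ℕ} (h : d ≤ d') {v : κ → MvPowerSeries τ R} (hv : OrdV d' v) :
    OrdV d v := fun j => ordR_mono h (hv j)

theorem OrdV.add {d : ℕ} {v w : κ → MvPowerSeries τ R} (hv : OrdV d v) (hw : OrdV d w) :
    OrdV d (v + w) := fun j => ordR_add (hv j) (hw j)

theorem OrdV.sub {d : ℕ} {v w : κ → MvPowerSeries τ R} (hv : OrdV d v) (hw : OrdV d w) :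
    OrdV d (v - w) := fun j => ordR_sub (hv j) (hw j)

theorem OrdV.neg {d : ℕ} {v : κ → MvPowerSeries τ R} (hv : OrdV d v) :
    OrdV d (-v) := fun j => ordR_neg (hv j)

theorem OrdV.zero (d : ℕ) : OrdV d (0 : κ → MvPowerSeries τ R) := fun _ => ordR_zero d

theorem ordV_one_iff {v : κ → MvPowerSeries τ R} :
    OrdV 1 v ↔ ∀ j, constantCoeff (v j) = 0 :=
  forall_congr' fun _ => one_ordR_iff

theorem eq_zero_of_forall_ordV {v : κ → MvPowerSeries τ R} (h : ∀ d, OrdV d v) : v = 0 :=
  funext fun j => eq_zero_of_forall_ordR fun d => h d j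

theorem ordV_X : OrdV 1 (fun i : κ => (X i : MvPowerSeries κ R)) :=
  ordV_one_iff.2 fun _ => constantCoeff_X _

theorem ordR_homogeneousComponent (n : ℕ) (f : MvPowerSeries τ R) :
    (n : ℕ∞) ≤ (homogeneousComponent n f).order := by
  rw [ordR_iff]
  intro e he
  rw [coeff_homogeneousComponent, if_neg (by omega)]

theorem ordR_sub_homogeneousComponent {n : ℕ} {f : MvPowerSeries τ R}
    (hf : (n : ℕ∞) ≤ f.order) : ((n + 1 : ℕ) : ℕ∞) ≤ (f - homogeneousComponent n f).order := by
  rw [ordR_iff]
  intro e he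
  rw [map_sub, coeff_homogeneousComponent]
  split_ifs with h
  · simp
  · rw [sub_zero]
    exact coeff_eq_zero_of_ordR hf (by omega)

/-- composition of vectors of power series -/
def vSubst {ι' : Type*} (u : ι' → MvPowerSeries κ R) (a : κ → MvPowerSeries τ R) :
    ι' → MvPowerSeries τ R := fun i => (u i).subst a

theorem vSubst_apply {ι' : Type*} (u : ι' → MvPowerSeries κ R) (a : κ → MvPowerSeries τ R)
    (i : ι') : vSubst u a i = (u i).subst a := rfl

section fin

variable [Fintype ι] [Fintype κ]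

/-- a matrix of constants acting on a vector of power series -/
def matAct (M : Matrix ι κ R) (w : κ → MvPowerSeries τ R) : ι → MvPowerSeries τ R :=
  fun i => ∑ j, C (M i j) * w j

theorem matAct_apply (M : Matrix ι κ R) (w : κ → MvPowerSeries τ R) (i : ι) :
    matAct M w i = ∑ j, C (M i j) * w j := rfl

theorem matAct_add (M : Matrix ι κ R) (v w : κ → MvPowerSeries τ R) :
    matAct M (v + w) = matAct M v + matAct M w := by
  funext i
  simp only [matAct_apply, Pi.add_apply, mul_add, Finset.sum_add_distrib]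

theorem matAct_sub (M : Matrix ι κ R) (v w : κ → MvPowerSeries τ R) :
    matAct M (v - w) = matAct M v - matAct M w := by
  funext i
  simp only [matAct_apply, Pi.sub_apply, mul_sub, Finset.sum_sub_distrib]

theorem matAct_zero (M : Matrix ι κ R) : matAct M (0 : κ → MvPowerSeries τ R) = 0 := by
  funext i
  simp [matAct_apply]

theorem matAct_mul {ι' : Type*} [Fintype ι'] (M : Matrix ι' ι R) (N : Matrix ι κ R)
    (w : κ → MvPowerSeries τ R) : matAct (M * N) w = matAct M (matAct N w) := by
  funext i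
  simp only [matAct_apply, Matrix.mul_apply, map_sum, map_mul, Finset.sum_mul, Finset.mul_sum]
  rw [Finset.sum_comm]
  refine Finset.sum_congr rfl fun j _ => Finset.sum_congr rfl fun k _ => ?_
  ring

theorem matAct_one [DecidableEq κ] (w : κ → MvPowerSeries τ R) :
    matAct (1 : Matrix κ κ R) w = w := by
  funext i
  rw [matAct_apply, Finset.sum_eq_single i]
  · rw [Matrix.one_apply_eq, map_one, one_mul]
  · intro j _ hj
    rw [Matrix.one_apply_ne hj.symm, map_zero, zero_mul]
  · intro h
    exact absurd (Finset.mem_univ i) h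

theorem OrdV.matAct {d : ℕ} {w : κ → MvPowerSeries τ R} (hw : OrdV d w) (M : Matrix ι κ R) :
    OrdV d (matAct M w) := fun _ =>
  ordR_sum fun j _ => ordR_C_mul _ (hw j)

/-- the Jacobian matrix at the origin -/
def jacZero (u : ι → MvPowerSeries κ R) : Matrix ι κ R :=
  fun i j => coeff (Finsupp.single j 1) (u i)

theorem jacZero_apply (u : ι → MvPowerSeries κ R) (i : ι) (j : κ) :
    jacZero u i j = coeff (Finsupp.single j 1) (u i) := rfl

theorem OrdV.vSubst {a : κ → MvPowerSeries τ R} (ha : OrdV 1 a) {u : ι → MvPowerSeries κ R}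
    {m : ℕ} (hu : OrdV m u) : OrdV m (vSubst u a) := fun i => ordR_subst ha (hu i)

theorem ordV_vSubst_sub {a b : κ → MvPowerSeries τ R} (ha : OrdV 1 a) (hb : OrdV 1 b) {d : ℕ}
    (hab : OrdV d (a - b)) (u : ι → MvPowerSeries κ R) : OrdV d (vSubst u a - vSubst u b) :=
  fun i => by
    have := ordR_subst_sub_subst ha hb hab (g := u i) (m := 0) (by simp)
    simp only [Nat.zero_sub, add_zero] at this
    exact this

/-- first order expansion of `u ∘ a - u ∘ b` -/
theorem ordV_vSubst_sub_sub_lin {a b : κ → MvPowerSeries τ R} (ha : OrdV 1 a) (hb : OrdV 1 b)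
    {d : ℕ} (hab : OrdV d (a - b)) (u : ι → MvPowerSeries κ R) :
    OrdV (d + 1) (vSubst u a - vSubst u b - matAct (jacZero u) (a - b)) :=
  fun i => ordR_subst_sub_subst_sub_lin ha hb hab (u i)

/-- chain rule at the origin -/
theorem jacZero_vSubst {a : κ → MvPowerSeries τ R} [Fintype τ] (ha : OrdV 1 a)
    (u : ι → MvPowerSeries κ R) : jacZero (vSubst u a) = jacZero u * jacZero a := by
  classical
  ext i t
  have h1 := ordV_vSubst_sub_sub_lin ha (OrdV.zero 1) (d := 1) (by rwa [sub_zero]) u i
  have h2 := coeff_eq_zero_of_ordR h1 (e := Finsupp.single t 1) (by simp)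
  have h3 : vSubst u (0 : κ → MvPowerSeries τ R) i = C (constantCoeff (u i)) := by
    rw [vSubst_apply]
    have h0 : HasSubst (0 : κ → MvPowerSeries τ R) := HasSubst.zero
    ext e
    rw [coeff_subst h0, finsum_eq_single _ (0 : κ →₀ ℕ)]
    · rw [Finsupp.prod_zero_index, coeff_zero_eq_constantCoeff_apply, smul_eq_mul,
        ← coeff_C_mul, mul_one]
    · intro d hd
      obtain ⟨s, hs⟩ : ∃ s, d s ≠ 0 := by
        by_contra h
        push Not at h
        exact hd (Finsupp.ext h)
      have : (d.prod fun s n => (0 : κ → MvPowerSeries τ R) s ^ n) = 0 := by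
        rw [Finsupp.prod]
        refine Finset.prod_eq_zero (Finsupp.mem_support_iff.2 hs) ?_
        simp [hs]
      rw [this, map_zero, smul_zero]
  rw [Pi.sub_apply, Pi.sub_apply, h3, sub_zero, map_sub, map_sub, sub_eq_zero, coeff_C,
    if_neg, sub_zero] at h2
  · rw [jacZero_apply, h2, matAct_apply, map_sum, Matrix.mul_apply]
    refine Finset.sum_congr rfl fun j _ => ?_
    rw [coeff_C_mul, jacZero_apply, jacZero_apply]
  · intro h
    have := DFunLike.congr_fun h t
    simp at this

theorem jacZero_X [DecidableEq κ] :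
    jacZero (fun i : κ => (X i : MvPowerSeries κ R)) = 1 := by
  ext i j
  rw [jacZero_apply, coeff_X, Matrix.one_apply]
  by_cases h : i = j
  · subst h
    simp
  · rw [if_neg h, if_neg]
    intro h'
    exact h (Finsupp.single_left_injective one_ne_zero h').symm

end fin

/-! ### the inverse function theorem -/

section ift

variable [Fintype ι] [DecidableEq ι]

/-- if the Jacobian at the origin has a left inverse, composition with `u` is injective -/
theorem vSubst_injective {u : ι → MvPowerSeries ι R} {Jinv : Matrix ι ι R}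
    (hJ : Jinv * jacZero u = 1) {a b : ι → MvPowerSeries τ R} (ha : OrdV 1 a) (hb : OrdV 1 b)
    (h : vSubst u a = vSubst u b) : a = b := by
  rw [← sub_eq_zero]
  refine eq_zero_of_forall_ordV fun d => ?_
  induction d with
  | zero => exact fun j => by simp
  | succ d ih =>
    have h1 := ordV_vSubst_sub_sub_lin ha hb ih u
    rw [h, sub_self, zero_sub] at h1
    have h2 := h1.neg.matAct Jinv
    rwa [neg_neg, ← matAct_mul, hJ, matAct_one] at h2

variable (u : ι → MvPowerSeries ι R) (Jinv : Matrix ι ι R)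

/-- the recursion for the inverse -/
def iftSeq : ℕ → (ι → MvPowerSeries ι R)
  | 0 => 0
  | d + 1 => iftSeq d +
      matAct Jinv fun i => homogeneousComponent (d + 1) (X i - (u i).subst (iftSeq d))

/-- the inverse of `u` for composition -/
def iftInv : ι → MvPowerSeries ι R :=
  fun i => (fun e => coeff e (iftSeq u Jinv e.degree i) : MvPowerSeries ι R)

variable {u Jinv}

theorem coeff_iftInv (i : ι) (e : ι →₀ ℕ) :
    coeff e (iftInv u Jinv i) = coeff e (iftSeq u Jinv e.degree i) := rfl

theorem iftSeq_succ (d : ℕ) :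
    iftSeq u Jinv (d + 1) = iftSeq u Jinv d +
      matAct Jinv fun i => homogeneousComponent (d + 1) (X i - (u i).subst (iftSeq u Jinv d)) :=
  rfl

theorem ordV_iftSeq (d : ℕ) : OrdV 1 (iftSeq u Jinv d) := by
  induction d with
  | zero => exact OrdV.zero 1
  | succ d ih =>
    rw [iftSeq_succ]
    refine ih.add (OrdV.matAct (fun i => ordR_mono ?_ (ordR_homogeneousComponent (d + 1) _)) _)
    omega

theorem ordV_sub_vSubst_iftSeq (hu : OrdV 1 u) (hJ : jacZero u * Jinv = 1) (d : ℕ) :
    OrdV (d + 1) ((fun i => (X i : MvPowerSeries ι R)) - vSubst u (iftSeq u Jinv d)) := by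
  induction d with
  | zero =>
    exact ordV_X.sub ((OrdV.zero 1).vSubst hu)
  | succ d ih =>
    set r : ι → MvPowerSeries ι R :=
      fun i => homogeneousComponent (d + 1) (X i - (u i).subst (iftSeq u Jinv d)) with hr
    have hr1 : OrdV (d + 1) r := fun i => ordR_homogeneousComponent _ _
    have e1 : iftSeq u Jinv (d + 1) - iftSeq u Jinv d = matAct Jinv r := by
      rw [iftSeq_succ, add_sub_cancel_left]
    have h1 := ordV_vSubst_sub_sub_lin (ordV_iftSeq (u := u) (Jinv := Jinv) (d + 1))
      (ordV_iftSeq d) (d := d + 1) (by rw [e1]; exact hr1.matAct _) u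
    rw [e1, ← matAct_mul, hJ, matAct_one] at h1
    have h2 : OrdV (d + 1 + 1)
        ((fun i => (X i : MvPowerSeries ι R)) - vSubst u (iftSeq u Jinv d) - r) := fun i =>
      ordR_sub_homogeneousComponent (ih i)
    have : (fun i => (X i : MvPowerSeries ι R)) - vSubst u (iftSeq u Jinv (d + 1)) =
        ((fun i => (X i : MvPowerSeries ι R)) - vSubst u (iftSeq u Jinv d) - r) -
          (vSubst u (iftSeq u Jinv (d + 1)) - vSubst u (iftSeq u Jinv d) - r) := by abel
    rw [this]
    exact h2.sub h1

theorem coeff_iftSeq_of_le (i : ι) {e : ι →₀ ℕ} {D D' : ℕ} (h1 : e.degree ≤ D) (h2 : D ≤ D') :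
    coeff e (iftSeq u Jinv D' i) = coeff e (iftSeq u Jinv D i) := by
  induction D', h2 using Nat.le_induction with
  | base => rfl
  | succ M hM ih =>
    rw [iftSeq_succ, Pi.add_apply, map_add, ih, add_eq_left]
    refine coeff_eq_zero_of_ordR
      (OrdV.matAct (fun i => ordR_homogeneousComponent (M + 1) _) Jinv i) ?_
    omega

theorem ordV_iftInv_sub_iftSeq (D : ℕ) :
    OrdV (D + 1) (iftInv u Jinv - iftSeq u Jinv D) := fun i => by
  rw [ordR_iff]
  intro e he
  rw [Pi.sub_apply, map_sub, coeff_iftInv, sub_eq_zero]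
  exact (coeff_iftSeq_of_le i le_rfl (by omega)).symm

theorem ordV_iftInv : OrdV 1 (iftInv u Jinv) := by
  have := (ordV_iftInv_sub_iftSeq (u := u) (Jinv := Jinv) 0).add
    (ordV_iftSeq (u := u) (Jinv := Jinv) 0)
  rwa [sub_add_cancel] at this

/-- `u ∘ u⁻¹ = X` -/
theorem vSubst_iftInv (hu : OrdV 1 u) (hJ : jacZero u * Jinv = 1) :
    vSubst u (iftInv u Jinv) = fun i => (X i : MvPowerSeries ι R) := by
  symm
  rw [← sub_eq_zero]
  refine eq_zero_of_forall_ordV fun D => ?_
  have h1 := ordV_sub_vSubst_iftSeq hu hJ D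
  have h2 := ordV_vSubst_sub (ordV_iftInv (u := u) (Jinv := Jinv)) (ordV_iftSeq D)
    (ordV_iftInv_sub_iftSeq D) u
  have : (fun i => (X i : MvPowerSeries ι R)) - vSubst u (iftInv u Jinv) =
      ((fun i => (X i : MvPowerSeries ι R)) - vSubst u (iftSeq u Jinv D)) -
        (vSubst u (iftInv u Jinv) - vSubst u (iftSeq u Jinv D)) := by abel
  rw [this]
  exact (h1.sub h2).mono (Nat.le_succ D)

theorem vSubst_vSubst {ι' κ' : Type*} [Finite κ] [Finite κ'] (w : ι' → MvPowerSeries κ R)
    {a : κ → MvPowerSeries κ' R} (ha : OrdV 1 a) {b : κ' → MvPowerSeries τ R} (hb : OrdV 1 b) :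
    vSubst (vSubst w a) b = vSubst w (vSubst a b) := by
  funext i
  exact subst_comp_subst_apply (hasSubst_of_ordR ha) (hasSubst_of_ordR hb) (w i)

theorem vSubst_X {ι' : Type*} (w : ι' → MvPowerSeries κ R) :
    vSubst w (fun i : κ => (X i : MvPowerSeries κ R)) = w := by
  funext i
  rw [vSubst_apply]
  exact congr_fun subst_self (w i)

theorem X_vSubst [Finite κ] {a : κ → MvPowerSeries τ R} (ha : OrdV 1 a) :
    vSubst (fun i : κ => (X i : MvPowerSeries κ R)) a = a := by
  funext i
  rw [vSubst_apply, subst_X (hasSubst_of_ordR ha)]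

/-- `u⁻¹ ∘ u = X` -/
theorem iftInv_vSubst (hu : OrdV 1 u) (hJ : jacZero u * Jinv = 1) :
    vSubst (iftInv u Jinv) u = fun i => (X i : MvPowerSeries ι R) := by
  have hJ' : Jinv * jacZero u = 1 := mul_eq_one_comm.1 hJ
  have hi : OrdV 1 (iftInv u Jinv) := ordV_iftInv
  refine vSubst_injective (u := u) hJ' (a := vSubst (iftInv u Jinv) u) (hu.vSubst hi) ordV_X ?_
  rw [← vSubst_vSubst u hi hu, vSubst_iftInv hu hJ, X_vSubst hu, vSubst_X]

theorem jacZero_iftInv (hu : OrdV 1 u) (hJ : jacZero u * Jinv = 1) :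
    jacZero (iftInv u Jinv) = Jinv := by
  have h1 := jacZero_vSubst (ordV_iftInv (u := u) (Jinv := Jinv)) u
  rw [vSubst_iftInv hu hJ, jacZero_X] at h1
  have hJ' : Jinv * jacZero u = 1 := mul_eq_one_comm.1 hJ
  calc jacZero (iftInv u Jinv) = (Jinv * jacZero u) * jacZero (iftInv u Jinv) := by
        rw [hJ', one_mul]
    _ = Jinv := by rw [mul_assoc, ← h1, mul_one]

/-- uniqueness of the inverse -/
theorem eq_iftInv (hu : OrdV 1 u) (hJ : jacZero u * Jinv = 1) {v : ι → MvPowerSeries ι R}
    (hv : OrdV 1 v) (h : vSubst u v = fun i => (X i : MvPowerSeries ι R)) : v = iftInv u Jinv :=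
  vSubst_injective (mul_eq_one_comm.1 hJ) hv ordV_iftInv
    (by rw [h, vSubst_iftInv hu hJ])

end ift

end

end Fermat.Agent.FG
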