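/-
(E3) formal inverse function theorem for S19/S32 (helper2), part 3: points.

`S` a complete linearly topologised `R`-algebra (`R` discrete), e.g. `S = unitBall K`.
For a vector of power series `u : ι → MvPowerSeries κ R` and a point `x : κ → S` with
`HasEval x`, `vEval x u : ι → S` is the vector of values.

* `vEval_vSubst : vEval x (vSubst w a) = vEval (vEval x a) w`, `hasEval_vEval`;
* `vEval_iftInv_vEval`, `vEval_vEval_iftInv` : the inverse series induces the inverse map on
  points; `vEvalEquiv` : the bijection `{x // HasEval x} ≃ {x // HasEval x}`;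
* on the open unit polydisc of a complete ultrametric field the bijection is an isometry:
  `norm_vEval_sub_le`, `norm_sub_le_vEval_sub`.
-/
import Mathlib
import Fermat.Agent.FG.EVAL_helper2_Est
import Fermat.Agent.FG.IFT_helper2_Formal

set_option autoImplicit false
set_option linter.unusedSectionVars false

namespace Fermat.Agent.FG

open MvPowerSeries Filter Topology

noncomputable section

section general

variable {ι κ τ : Type*} {R : Type*} [CommRing R]
variable {S : Type*} [CommRing S] [UniformSpace S] [IsUniformAddGroup S] [CompleteSpace S]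
  [T2Space S] [IsTopologicalRing S] [IsLinearTopology S S] [Algebra R S]

/-- the vector of values of a vector of power series -/
def vEval {ι' : Type*} (x : κ → S) (u : ι' → MvPowerSeries κ R) : ι' → S :=
  fun i => dEval x (u i)

theorem vEval_apply {ι' : Type*} (x : κ → S) (u : ι' → MvPowerSeries κ R) (i : ι') :
    vEval x u i = dEval x (u i) := rfl

theorem vEval_X (x : κ → S) : vEval x (fun i : κ => (X i : MvPowerSeries κ R)) = x :=
  funext fun i => dEval_X i

theorem hasEval_vEval [Finite κ] {a : κ → MvPowerSeries τ R} (ha : OrdV 1 a) {x : τ → S}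
    (hx : HasEval x) : HasEval (vEval x a) :=
  hasEval_dEval (hasSubst_of_ordR ha) hx

theorem vEval_vSubst [Finite κ] {ι' : Type*} (w : ι' → MvPowerSeries κ R)
    {a : κ → MvPowerSeries τ R} (ha : OrdV 1 a) {x : τ → S} (hx : HasEval x) :
    vEval x (vSubst w a) = vEval (vEval x a) w :=
  funext fun i => dEval_subst (hasSubst_of_ordR ha) hx (w i)

variable [Fintype ι] [DecidableEq ι] {u : ι → MvPowerSeries ι R} {Jinv : Matrix ι ι R}

/-- `u⁻¹(u(x)) = x` -/
theorem vEval_iftInv_vEval (hu : OrdV 1 u) (hJ : jacZero u * Jinv = 1) {x : ι → S}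
    (hx : HasEval x) : vEval (vEval x u) (iftInv u Jinv) = x := by
  rw [← vEval_vSubst _ hu hx, iftInv_vSubst hu hJ, vEval_X]

/-- `u(u⁻¹(x)) = x` -/
theorem vEval_vEval_iftInv (hu : OrdV 1 u) (hJ : jacZero u * Jinv = 1) {x : ι → S}
    (hx : HasEval x) : vEval (vEval x (iftInv u Jinv)) u = x := by
  rw [← vEval_vSubst _ ordV_iftInv hx, vSubst_iftInv hu hJ, vEval_X]

/-- the bijection on points induced by an invertible vector of power series -/
def vEvalEquiv (hu : OrdV 1 u) (hJ : jacZero u * Jinv = 1) :
    {x : ι → S // HasEval x} ≃ {x : ι → S // HasEval x} where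
  toFun x := ⟨vEval x.1 u, hasEval_vEval hu x.2⟩
  invFun x := ⟨vEval x.1 (iftInv u Jinv), hasEval_vEval ordV_iftInv x.2⟩
  left_inv x := Subtype.ext (vEval_iftInv_vEval hu hJ x.2)
  right_inv x := Subtype.ext (vEval_vEval_iftInv hu hJ x.2)

theorem vEvalEquiv_apply (hu : OrdV 1 u) (hJ : jacZero u * Jinv = 1)
    (x : {x : ι → S // HasEval x}) : ((vEvalEquiv hu hJ x : {x : ι → S // HasEval x}) : ι → S) =
      vEval x.1 u := rfl

theorem vEvalEquiv_symm_apply (hu : OrdV 1 u) (hJ : jacZero u * Jinv = 1)
    (x : {x : ι → S // HasEval x}) :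
    (((vEvalEquiv hu hJ).symm x : {x : ι → S // HasEval x}) : ι → S) =
      vEval x.1 (iftInv u Jinv) := rfl

end general

section ball

variable {K : Type*} [NormedField K] [IsUltrametricDist K] [CompleteSpace K]
variable {R : Type*} [CommRing R] [Algebra R (unitBall K)]
variable {ι κ : Type*}

/-- vectors of power series with integral coefficients are 1-Lipschitz on the unit polydisc -/
theorem norm_vEval_sub_le {x y : κ → unitBall K} (hx : HasEval x) (hy : HasEval y) {δ : ℝ}
    (hδ : 0 ≤ δ) (hxy : ∀ s, ‖(x s : K) - y s‖ ≤ δ) (u : ι → MvPowerSeries κ R) (i : ι) :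
    ‖((vEval x u i : unitBall K) : K) - (vEval y u i : unitBall K)‖ ≤ δ :=
  norm_dEval_sub_le hx hy hδ hxy (u i)

variable [Fintype ι] [DecidableEq ι] {u : ι → MvPowerSeries ι R} {Jinv : Matrix ι ι R}

/-- an invertible vector of power series is an isometry of the open unit polydisc -/
theorem norm_sub_le_vEval_sub (hu : OrdV 1 u) (hJ : jacZero u * Jinv = 1)
    {x y : ι → unitBall K} (hx : HasEval x) (hy : HasEval y) {δ : ℝ} (hδ : 0 ≤ δ)
    (hxy : ∀ i, ‖((vEval x u i : unitBall K) : K) - (vEval y u i : unitBall K)‖ ≤ δ) (i : ι) :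
    ‖(x i : K) - y i‖ ≤ δ := by
  have h := norm_vEval_sub_le (hasEval_vEval hu hx) (hasEval_vEval hu hy) hδ hxy
    (iftInv u Jinv) i
  rwa [vEval_iftInv_vEval hu hJ hx, vEval_iftInv_vEval hu hJ hy] at h

end ball

end

end Fermat.Agent.FG
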