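/-
(E3) formal IMPLICIT function theorem for S19/S32 (helper2), part 4.

Parameters `σ`, unknowns `ι` (both finite).  `G : ι → MvPowerSeries (σ ⊕ ι) R` without constant
terms, whose Jacobian in the unknowns at the origin `jacUnk G` has the inverse `Jinv`.  Then
`implSol G Jinv : ι → MvPowerSeries σ R` is the unique vector of series without constant terms
with `G(s; X(s)) = 0`:

* `vSubst_implSol : vSubst G (Sum.elim (fun s => X s) (implSol G Jinv)) = 0`;
* `eq_implSol` : uniqueness;
* `vEval_implSol` : the values of `implSol` at a point `s` solve `G(s; x) = 0`.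
-/
import Mathlib
import Fermat.Agent.FG.IFT_helper2_Pts

set_option autoImplicit false
set_option linter.unusedSectionVars false

namespace Fermat.Agent.FG

open MvPowerSeries

noncomputable section

variable {σ ι : Type*} [Fintype σ] [DecidableEq σ] [Fintype ι] [DecidableEq ι]
variable {R : Type*} [CommRing R]

/-- the Jacobian in the unknowns at the origin -/
def jacUnk (G : ι → MvPowerSeries (σ ⊕ ι) R) : Matrix ι ι R :=
  fun i j => coeff (Finsupp.single (Sum.inr j) 1) (G i)

/-- the Jacobian in the parameters at the origin -/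
def jacPar (G : ι → MvPowerSeries (σ ⊕ ι) R) : Matrix ι σ R :=
  fun i s => coeff (Finsupp.single (Sum.inl s) 1) (G i)

/-- the auxiliary square system `(s, x) ↦ (s, G(s; x))` -/
def implAux (G : ι → MvPowerSeries (σ ⊕ ι) R) : σ ⊕ ι → MvPowerSeries (σ ⊕ ι) R :=
  Sum.elim (fun s => X (Sum.inl s)) G

/-- the inverse of the Jacobian of the auxiliary system -/
def implAuxInv (G : ι → MvPowerSeries (σ ⊕ ι) R) (Jinv : Matrix ι ι R) :
    Matrix (σ ⊕ ι) (σ ⊕ ι) R :=
  Matrix.fromBlocks 1 0 (-(Jinv * jacPar G)) Jinv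

theorem ordV_implAux {G : ι → MvPowerSeries (σ ⊕ ι) R} (hG : OrdV 1 G) : OrdV 1 (implAux G) := by
  rintro (s | i)
  · exact ordV_X (Sum.inl s)
  · exact hG i

theorem jacZero_implAux (G : ι → MvPowerSeries (σ ⊕ ι) R) :
    jacZero (implAux G) = Matrix.fromBlocks 1 0 (jacPar G) (jacUnk G) := by
  ext (s | i) (s' | j)
  · rw [jacZero_apply, Matrix.fromBlocks_apply₁₁, Matrix.one_apply]
    show coeff _ (X (Sum.inl s)) = _
    rw [coeff_X]
    by_cases h : s = s'
    · subst h
      simp
    · rw [if_neg h, if_neg]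
      intro h'
      exact h (Sum.inl_injective (Finsupp.single_left_injective one_ne_zero h')).symm
  · rw [jacZero_apply, Matrix.fromBlocks_apply₁₂, Matrix.zero_apply]
    show coeff _ (X (Sum.inl s)) = _
    rw [coeff_X, if_neg]
    intro h'
    exact Sum.inr_ne_inl (Finsupp.single_left_injective one_ne_zero h')
  · rfl
  · rfl

theorem jacZero_implAux_mul {G : ι → MvPowerSeries (σ ⊕ ι) R} {Jinv : Matrix ι ι R}
    (hJ : jacUnk G * Jinv = 1) : jacZero (implAux G) * implAuxInv G Jinv = 1 := by
  rw [jacZero_implAux, implAuxInv, Matrix.fromBlocks_multiply, ← Matrix.fromBlocks_one]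
  congr 1
  · simp
  · simp
  · rw [Matrix.mul_one, Matrix.mul_neg, ← Matrix.mul_assoc, hJ, Matrix.one_mul, add_neg_cancel]
  · rw [Matrix.mul_zero, zero_add, hJ]

variable (G : ι → MvPowerSeries (σ ⊕ ι) R) (Jinv : Matrix ι ι R)

/-- setting the unknowns to zero -/
def zeroUnk : σ ⊕ ι → MvPowerSeries σ R := Sum.elim (fun s => X s) 0

theorem ordV_zeroUnk : OrdV 1 (zeroUnk (σ := σ) (ι := ι) (R := R)) := by
  rintro (s | i)
  · exact ordV_X s
  · exact ordR_zero 1

/-- the formal solution `X(s)` of `G(s; X(s)) = 0` -/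
def implSol : ι → MvPowerSeries σ R :=
  fun i => (iftInv (implAux G) (implAuxInv G Jinv) (Sum.inr i)).subst zeroUnk

variable {G Jinv}

theorem ordV_implSol : OrdV 1 (implSol G Jinv) := fun i =>
  ordR_subst ordV_zeroUnk (ordV_iftInv (Sum.inr i))

theorem ordV_sumElim {τ : Type*} {Y : ι → MvPowerSeries τ R} {Z : σ → MvPowerSeries τ R}
    (hZ : OrdV 1 Z) (hY : OrdV 1 Y) : OrdV 1 (Sum.elim Z Y) := by
  rintro (s | i)
  · exact hZ s
  · exact hY i

/-- `G(s; X(s)) = 0` -/
theorem vSubst_implSol (hG : OrdV 1 G) (hJ : jacUnk G * Jinv = 1) :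
    vSubst G (Sum.elim (fun s => (X s : MvPowerSeries σ R)) (implSol G Jinv)) = 0 := by
  have hu := ordV_implAux hG
  have hJ' := jacZero_implAux_mul hJ
  have h1 := vSubst_iftInv hu hJ'
  set v := iftInv (implAux G) (implAuxInv G Jinv) with hv
  have hv1 : OrdV 1 v := ordV_iftInv
  have h2 : ∀ s, v (Sum.inl s) = X (Sum.inl s) := fun s => by
    have := congr_fun h1 (Sum.inl s)
    rw [vSubst_apply] at this
    rw [← this]
    show _ = (X (Sum.inl s) : MvPowerSeries (σ ⊕ ι) R).subst v
    rw [subst_X (hasSubst_of_ordR hv1)]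
  have h3 : vSubst v zeroUnk = Sum.elim (fun s => (X s : MvPowerSeries σ R)) (implSol G Jinv) := by
    funext k
    rcases k with s | i
    · rw [vSubst_apply, h2, subst_X (hasSubst_of_ordR ordV_zeroUnk)]
      rfl
    · rfl
  rw [← h3]
  funext i
  have h4 := congr_fun h1 (Sum.inr i)
  rw [vSubst_apply] at h4
  have h5 : (G i).subst v = X (Sum.inr i) := h4
  have h6 : ((G i).subst v).subst (zeroUnk (σ := σ) (ι := ι) (R := R)) =
      (G i).subst (fun k => (v k).subst zeroUnk) :=
    subst_comp_subst_apply (hasSubst_of_ordR hv1) (hasSubst_of_ordR ordV_zeroUnk) (G i)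
  rw [h5, subst_X (hasSubst_of_ordR ordV_zeroUnk)] at h6
  exact h6.symm

/-- uniqueness of the formal solution -/
theorem eq_implSol (hG : OrdV 1 G) (hJ : jacUnk G * Jinv = 1) {Y : ι → MvPowerSeries σ R}
    (hY : OrdV 1 Y)
    (h : vSubst G (Sum.elim (fun s => (X s : MvPowerSeries σ R)) Y) = 0) :
    Y = implSol G Jinv := by
  have hJ' : implAuxInv G Jinv * jacZero (implAux G) = 1 :=
    mul_eq_one_comm.1 (jacZero_implAux_mul hJ)
  have hX : OrdV 1 (fun s => (X s : MvPowerSeries σ R)) := ordV_X
  have key : ∀ {Z : ι → MvPowerSeries σ R}, OrdV 1 Z →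
      vSubst G (Sum.elim (fun s => (X s : MvPowerSeries σ R)) Z) = 0 →
      vSubst (implAux G) (Sum.elim (fun s => (X s : MvPowerSeries σ R)) Z) =
        Sum.elim (fun s => (X s : MvPowerSeries σ R)) 0 := by
    intro Z hZ hZ0
    funext k
    rcases k with s | i
    · show (X (Sum.inl s) : MvPowerSeries (σ ⊕ ι) R).subst _ = _
      rw [subst_X (hasSubst_of_ordR (ordV_sumElim hX hZ))]
      rfl
    · exact congr_fun hZ0 i
  have h1 := vSubst_injective hJ' (ordV_sumElim hX hY) (ordV_sumElim hX ordV_implSol)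
    ((key hY h).trans (key ordV_implSol (vSubst_implSol hG hJ)).symm)
  funext i
  exact congr_fun h1 (Sum.inr i)

/-! ### points -/

section pts

variable {S : Type*} [CommRing S] [UniformSpace S] [IsUniformAddGroup S] [CompleteSpace S]
  [T2Space S] [IsTopologicalRing S] [IsLinearTopology S S] [Algebra R S]

/-- the values of the formal solution solve the system -/
theorem vEval_implSol (hG : OrdV 1 G) (hJ : jacUnk G * Jinv = 1) {s : σ → S} (hs : HasEval s) :
    vEval (Sum.elim s (vEval s (implSol G Jinv))) G = 0 := by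
  have hX : OrdV 1 (fun s => (X s : MvPowerSeries σ R)) := ordV_X
  have h1 := vEval_vSubst G (ordV_sumElim hX (ordV_implSol (G := G) (Jinv := Jinv))) hs
  rw [vSubst_implSol hG hJ] at h1
  have h2 : vEval s (Sum.elim (fun s => (X s : MvPowerSeries σ R)) (implSol G Jinv)) =
      Sum.elim s (vEval s (implSol G Jinv)) := by
    funext k
    rcases k with t | i
    · exact dEval_X t
    · rfl
  rw [h2] at h1
  rw [← h1]
  funext i
  exact dEval_zero hs

theorem hasEval_vEval_implSol {s : σ → S} (hs : HasEval s) :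
    HasEval (vEval s (implSol G Jinv)) :=
  hasEval_vEval ordV_implSol hs

end pts

end

end Fermat.Agent.FG
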