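/-
FG — helper2 — [NORMPOLY], part 4 (generic): a semilinear automorphism `g` of `F / K` fixing `x`
stabilises `K(x)`, and the norm (trace) to `K(x)` commutes with `g`.
-/
import Mathlib
import Fermat.Prelude.Def_AlgebraicCurve_BaseChangeGalois

set_option autoImplicit false
set_option linter.unusedSectionVars false
set_option linter.style.haveILetI false

noncomputable section

namespace Fermat.Agent.FG

open AlgebraicCurve IntermediateField

variable {K F : Type*} [Field K] [Field F] [Algebra K F]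

/-- the preimage of an intermediate field under a semilinear automorphism -/
def comapSemilinear (g : SemilinearAut K F) (E : IntermediateField K F) : IntermediateField K F :=
  Subfield.toIntermediateField (E.toSubfield.comap (SemilinearAut.toRingAut g : F →+* F))
    (fun a => by
      show (SemilinearAut.toRingAut g : F →+* F) (algebraMap K F a) ∈ E
      have := SemilinearAut.smul_algebraMap g a
      rw [SemilinearAut.smul_def] at this
      rw [RingHom.coe_coe, this]
      exact E.algebraMap_mem _)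

theorem mem_comapSemilinear (g : SemilinearAut K F) (E : IntermediateField K F) (y : F) :
    y ∈ comapSemilinear g E ↔ g • y ∈ E := Iff.rfl

theorem smul_mem_adjoin_simple (g : SemilinearAut K F) {x : F} (hg : g • x = x) {y : F}
    (hy : y ∈ K⟮x⟯) : g • y ∈ K⟮x⟯ := by
  have h1 : K⟮x⟯ ≤ comapSemilinear g K⟮x⟯ := by
    rw [adjoin_simple_le_iff, mem_comapSemilinear, hg]
    exact mem_adjoin_simple_self K x
  exact h1 hy

theorem inv_smul_eq_of_smul_eq (g : SemilinearAut K F) {x : F} (hg : g • x = x) : g⁻¹ • x = x := by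
  conv_lhs => rw [← hg]
  rw [inv_smul_smul]

/-- the restriction of `g` to `K(x)` -/
def adjoinAut (g : SemilinearAut K F) {x : F} (hg : g • x = x) : ↥K⟮x⟯ ≃+* ↥K⟮x⟯ where
  toFun y := ⟨g • (y : F), smul_mem_adjoin_simple g hg y.2⟩
  invFun y := ⟨g⁻¹ • (y : F), smul_mem_adjoin_simple g⁻¹ (inv_smul_eq_of_smul_eq g hg) y.2⟩
  left_inv y := Subtype.ext (inv_smul_smul g (y : F))
  right_inv y := Subtype.ext (smul_inv_smul g (y : F))
  map_mul' y z := Subtype.ext (smul_mul' g (y : F) (z : F))
  map_add' y z := Subtype.ext (smul_add g (y : F) (z : F))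

@[simp]
theorem coe_adjoinAut (g : SemilinearAut K F) {x : F} (hg : g • x = x) (y : ↥K⟮x⟯) :
    ((adjoinAut g hg y : ↥K⟮x⟯) : F) = g • (y : F) := rfl

/-- **the norm to `K(x)` commutes with semilinear automorphisms fixing `x`** -/
theorem algebraMap_norm_smul (g : SemilinearAut K F) {x : F} (hg : g • x = x) (f : F) :
    algebraMap ↥K⟮x⟯ F (Algebra.norm ↥K⟮x⟯ (g • f)) =
      g • algebraMap ↥K⟮x⟯ F (Algebra.norm ↥K⟮x⟯ f) := by
  have he : RingHom.comp (algebraMap ↥K⟮x⟯ F) (adjoinAut g hg : ↥K⟮x⟯ →+* ↥K⟮x⟯) =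
      RingHom.comp (SemilinearAut.toRingAut g : F →+* F) (algebraMap ↥K⟮x⟯ F) := by
    ext y
    rfl
  have h1 := Algebra.norm_eq_of_equiv_equiv (adjoinAut g hg) (SemilinearAut.toRingAut g) he f
  have h2 : adjoinAut g hg (Algebra.norm ↥K⟮x⟯ f) = Algebra.norm ↥K⟮x⟯ (g • f) := by
    rw [h1, RingEquiv.apply_symm_apply]
    rfl
  rw [← h2]
  rfl

/-- **the trace to `K(x)` commutes with semilinear automorphisms fixing `x`** -/
theorem algebraMap_trace_smul (g : SemilinearAut K F) {x : F} (hg : g • x = x) (f : F) :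
    algebraMap ↥K⟮x⟯ F (Algebra.trace ↥K⟮x⟯ F (g • f)) =
      g • algebraMap ↥K⟮x⟯ F (Algebra.trace ↥K⟮x⟯ F f) := by
  have he : RingHom.comp (algebraMap ↥K⟮x⟯ F) (adjoinAut g hg : ↥K⟮x⟯ →+* ↥K⟮x⟯) =
      RingHom.comp (SemilinearAut.toRingAut g : F →+* F) (algebraMap ↥K⟮x⟯ F) := by
    ext y
    rfl
  have h1 := Algebra.trace_eq_of_equiv_equiv (adjoinAut g hg) (SemilinearAut.toRingAut g) he f
  have h2 : adjoinAut g hg (Algebra.trace ↥K⟮x⟯ F f) = Algebra.trace ↥K⟮x⟯ F (g • f) := by
    rw [h1, RingEquiv.apply_symm_apply]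
    rfl
  rw [← h2]
  rfl

end Fermat.Agent.FG

end
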